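import Mathlib

/-!
# Counting the nonsingular points of a nodal Weierstrass cubic over a finite field (helper1100)

`V : WeierstrassCurve F` over a field `F` with `V.Δ = 0` and `V.c₄ ≠ 0` (a nodal cubic; general
Weierstrass form `a₁ … a₆`, every characteristic).

* `exists_isSingPt` : the singular point is `F`-rational (explicit formulas
  `x₀ = (18 b₆ - b₂ b₄) / c₄`, `y₀ = (b₂ (3 a₁ x₀² + a₁ a₄ - 2 a₂ a₃) + 12 b₄ (a₁ x₀ + a₃)) / c₄`);
* `IsSingPt.unique` : a Weierstrass cubic has at most one singular point;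
* `pointEquiv` : slopes through the singular point parametrise the nonsingular points:
  `V.toAffine.Point ≃ Option {t // t ^ 2 + a₁ t - (a₂ + 3 x₀) ≠ 0}`;
* `card_point_of_nodal` : for `F` finite, the group of nonsingular points has `#F + 1` or
  `#F - 1` elements;
* `addOrderOf_dvd_of_nodal` : hence the order of every nonsingular point divides `#F + 1` or
  `#F - 1`.
-/

set_option autoImplicit false

namespace Fermat.Agent.S15.helper1100

open WeierstrassCurve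

/-! ## Ring identities -/

section Ring

variable {R : Type*} [CommRing R] (W : WeierstrassCurve R)

/-- The discriminant is invariant under translations of the affine coordinates. -/
theorem Δ_translate (x y : R) :
    W.Δ = (⟨W.a₁, W.a₂ + 3 * x, 2 * y + W.a₁ * x + W.a₃,
      -(W.a₁ * y - (3 * x ^ 2 + 2 * W.a₂ * x + W.a₄)),
      -(y ^ 2 + W.a₁ * x * y + W.a₃ * y - (x ^ 3 + W.a₂ * x ^ 2 + W.a₄ * x + W.a₆))⟩ :
        WeierstrassCurve R).Δ := by
  simp only [WeierstrassCurve.Δ, WeierstrassCurve.b₂, WeierstrassCurve.b₄, WeierstrassCurve.b₆,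
    WeierstrassCurve.b₈]
  ring

/-- At a point where both partial derivatives vanish, the discriminant factors through the value
of the Weierstrass polynomial. -/
theorem Δ_eq_of_partials {x y : R}
    (hX : W.a₁ * y - (3 * x ^ 2 + 2 * W.a₂ * x + W.a₄) = 0)
    (hY : 2 * y + W.a₁ * x + W.a₃ = 0) :
    W.Δ = (y ^ 2 + W.a₁ * x * y + W.a₃ * y - (x ^ 3 + W.a₂ * x ^ 2 + W.a₄ * x + W.a₆)) *
      ((W.b₂ + 12 * x) ^ 3 -
        432 * (y ^ 2 + W.a₁ * x * y + W.a₃ * y - (x ^ 3 + W.a₂ * x ^ 2 + W.a₄ * x + W.a₆))) := by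
  rw [Δ_translate W x y, hX, hY]
  simp only [WeierstrassCurve.Δ, WeierstrassCurve.b₂, WeierstrassCurve.b₄, WeierstrassCurve.b₆,
    WeierstrassCurve.b₈]
  ring

/-- `c₄` is the square of `b₂ + 12 x` at a point where both partial derivatives vanish. -/
theorem c₄_eq_of_partials {x y : R}
    (hX : W.a₁ * y - (3 * x ^ 2 + 2 * W.a₂ * x + W.a₄) = 0)
    (hY : 2 * y + W.a₁ * x + W.a₃ = 0) :
    W.c₄ = (W.b₂ + 12 * x) ^ 2 := by
  simp only [WeierstrassCurve.c₄, WeierstrassCurve.b₂, WeierstrassCurve.b₄]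
  linear_combination 48 * hX - 24 * W.a₁ * hY

/-- Four times the Weierstrass polynomial. -/
theorem four_mul_poly (x y : R) :
    4 * (y ^ 2 + W.a₁ * x * y + W.a₃ * y - (x ^ 3 + W.a₂ * x ^ 2 + W.a₄ * x + W.a₆)) =
      (2 * y + W.a₁ * x + W.a₃) ^ 2 - (4 * x ^ 3 + W.b₂ * x ^ 2 + 2 * W.b₄ * x + W.b₆) := by
  simp only [WeierstrassCurve.b₂, WeierstrassCurve.b₄, WeierstrassCurve.b₆]
  ring

/-- The candidate `x`-coordinate of the singular point is a root of `4x³ + b₂x² + 2b₄x + b₆`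
up to a multiple of the discriminant. -/
theorem c₄_pow_mul_twoTorsion {x : R} (hx : W.c₄ * x = 18 * W.b₆ - W.b₂ * W.b₄) :
    W.c₄ ^ 3 * (4 * x ^ 3 + W.b₂ * x ^ 2 + 2 * W.b₄ * x + W.b₆) =
      -4 * (12 * (18 * W.b₆ - W.b₂ * W.b₄) + W.b₂ * W.c₄) * W.Δ := by
  simp only [WeierstrassCurve.Δ, WeierstrassCurve.c₄, WeierstrassCurve.b₂, WeierstrassCurve.b₄,
    WeierstrassCurve.b₆, WeierstrassCurve.b₈] at hx ⊢
  linear_combination
    (4 * ((((W.a₁ ^ 2 + 4 * W.a₂) ^ 2 - 24 * (2 * W.a₄ + W.a₁ * W.a₃)) * x) ^ 2 +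
        ((W.a₁ ^ 2 + 4 * W.a₂) ^ 2 - 24 * (2 * W.a₄ + W.a₁ * W.a₃)) * x *
          (18 * (W.a₃ ^ 2 + 4 * W.a₆) - (W.a₁ ^ 2 + 4 * W.a₂) * (2 * W.a₄ + W.a₁ * W.a₃)) +
        (18 * (W.a₃ ^ 2 + 4 * W.a₆) - (W.a₁ ^ 2 + 4 * W.a₂) * (2 * W.a₄ + W.a₁ * W.a₃)) ^ 2) +
      (W.a₁ ^ 2 + 4 * W.a₂) * ((W.a₁ ^ 2 + 4 * W.a₂) ^ 2 - 24 * (2 * W.a₄ + W.a₁ * W.a₃)) *
        (((W.a₁ ^ 2 + 4 * W.a₂) ^ 2 - 24 * (2 * W.a₄ + W.a₁ * W.a₃)) * x +
          (18 * (W.a₃ ^ 2 + 4 * W.a₆) - (W.a₁ ^ 2 + 4 * W.a₂) * (2 * W.a₄ + W.a₁ * W.a₃))) +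
      2 * (2 * W.a₄ + W.a₁ * W.a₃) *
        ((W.a₁ ^ 2 + 4 * W.a₂) ^ 2 - 24 * (2 * W.a₄ + W.a₁ * W.a₃)) ^ 2) * hx

/-- The candidate singular point annihilates `∂/∂y`, up to a multiple of the discriminant. -/
theorem c₄_pow_mul_partialY {x y : R} (hx : W.c₄ * x = 18 * W.b₆ - W.b₂ * W.b₄)
    (hy : W.c₄ ^ 3 * y = W.b₂ * (3 * W.a₁ * (18 * W.b₆ - W.b₂ * W.b₄) ^ 2 +
        (W.a₁ * W.a₄ - 2 * W.a₂ * W.a₃) * W.c₄ ^ 2) +
      12 * W.b₄ * W.c₄ * (W.a₁ * (18 * W.b₆ - W.b₂ * W.b₄) + W.a₃ * W.c₄)) :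
    W.c₄ ^ 3 * (2 * y + W.a₁ * x + W.a₃) = (-72 * W.a₁ ^ 3 - 288 * W.a₁ * W.a₂) * W.Δ := by
  simp only [WeierstrassCurve.Δ, WeierstrassCurve.c₄, WeierstrassCurve.b₂, WeierstrassCurve.b₄,
    WeierstrassCurve.b₆, WeierstrassCurve.b₈] at hx hy ⊢
  linear_combination 2 * hy +
    W.a₁ * ((W.a₁ ^ 2 + 4 * W.a₂) ^ 2 - 24 * (2 * W.a₄ + W.a₁ * W.a₃)) ^ 2 * hx

/-- The candidate singular point annihilates `∂/∂x`, up to a multiple of the discriminant. -/
theorem c₄_pow_mul_partialX {x y : R} (hx : W.c₄ * x = 18 * W.b₆ - W.b₂ * W.b₄)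
    (hy : W.c₄ ^ 3 * y = W.b₂ * (3 * W.a₁ * (18 * W.b₆ - W.b₂ * W.b₄) ^ 2 +
        (W.a₁ * W.a₄ - 2 * W.a₂ * W.a₃) * W.c₄ ^ 2) +
      12 * W.b₄ * W.c₄ * (W.a₁ * (18 * W.b₆ - W.b₂ * W.b₄) + W.a₃ * W.c₄)) :
    W.c₄ ^ 3 * (W.a₁ * y - (3 * x ^ 2 + 2 * W.a₂ * x + W.a₄)) =
      (144 * W.a₁ ^ 2 * W.a₂ - 864 * W.a₁ * W.a₃ + 576 * W.a₂ ^ 2 - 1728 * W.a₄) * W.Δ := by
  simp only [WeierstrassCurve.Δ, WeierstrassCurve.c₄, WeierstrassCurve.b₂, WeierstrassCurve.b₄,
    WeierstrassCurve.b₆, WeierstrassCurve.b₈] at hx hy ⊢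
  linear_combination W.a₁ * hy +
    (-3 * ((W.a₁ ^ 2 + 4 * W.a₂) ^ 2 - 24 * (2 * W.a₄ + W.a₁ * W.a₃)) *
        (((W.a₁ ^ 2 + 4 * W.a₂) ^ 2 - 24 * (2 * W.a₄ + W.a₁ * W.a₃)) * x +
          (18 * (W.a₃ ^ 2 + 4 * W.a₆) - (W.a₁ ^ 2 + 4 * W.a₂) * (2 * W.a₄ + W.a₁ * W.a₃))) -
      2 * W.a₂ * ((W.a₁ ^ 2 + 4 * W.a₂) ^ 2 - 24 * (2 * W.a₄ + W.a₁ * W.a₃)) ^ 2) * hx

end Ring

/-! ## The singular point of a nodal cubic -/

section Field

variable {F : Type*} [Field F] (V : WeierstrassCurve F)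

/-- `(x₀, y₀)` is a singular point of the affine Weierstrass cubic `V`: the Weierstrass polynomial
and both of its partial derivatives vanish there. -/
def IsSingPt (x₀ y₀ : F) : Prop :=
  y₀ ^ 2 + V.a₁ * x₀ * y₀ + V.a₃ * y₀ - (x₀ ^ 3 + V.a₂ * x₀ ^ 2 + V.a₄ * x₀ + V.a₆) = 0 ∧
    V.a₁ * y₀ - (3 * x₀ ^ 2 + 2 * V.a₂ * x₀ + V.a₄) = 0 ∧ 2 * y₀ + V.a₁ * x₀ + V.a₃ = 0

variable {V}

/-- At a singular point of a cubic with `c₄ ≠ 0` the two tangent directions are distinct. -/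
theorem IsSingPt.b₂_add_ne_zero {x₀ y₀ : F} (h₀ : IsSingPt V x₀ y₀) (hc₄ : V.c₄ ≠ 0) :
    V.b₂ + 12 * x₀ ≠ 0 := by
  intro h0
  apply hc₄
  rw [c₄_eq_of_partials V h₀.2.1 h₀.2.2, h0]
  ring

/-- A Weierstrass cubic has at most one singular point. -/
theorem IsSingPt.unique {x₀ y₀ x y : F} (h₀ : IsSingPt V x₀ y₀) (h : IsSingPt V x y) :
    x = x₀ ∧ y = y₀ := by
  obtain ⟨hF0, hX0, hY0⟩ := h₀
  obtain ⟨hF, hX, hY⟩ := h
  have h3 : (x - x₀) ^ 3 = 0 := by
    linear_combination 2 * hF - (x - x₀) * hX - (y - y₀) * hY - 2 * hF0 - (x - x₀) * hX0 -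
      (y - y₀) * hY0
  have hx : x = x₀ := sub_eq_zero.mp (pow_eq_zero_iff (by norm_num)|>.mp h3)
  subst hx
  have h2 : (y - y₀) ^ 2 = 0 := by linear_combination hF - hF0 - (y - y₀) * hY0
  exact ⟨rfl, sub_eq_zero.mp (pow_eq_zero_iff (by norm_num)|>.mp h2)⟩

variable (V)

/-- **The singular point of a nodal Weierstrass cubic is rational.** -/
theorem exists_isSingPt (hΔ : V.Δ = 0) (hc₄ : V.c₄ ≠ 0) : ∃ x₀ y₀ : F, IsSingPt V x₀ y₀ := by
  have hc3 : V.c₄ ^ 3 ≠ 0 := pow_ne_zero 3 hc₄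
  have hdiv : ∀ {c : F}, c ≠ 0 → ∀ r : F, c * (r / c) = r := fun hc r => by field_simp
  obtain ⟨x₀, hx⟩ : ∃ x₀ : F, V.c₄ * x₀ = 18 * V.b₆ - V.b₂ * V.b₄ := ⟨_, hdiv hc₄ _⟩
  obtain ⟨y₀, hy⟩ : ∃ y₀ : F, V.c₄ ^ 3 * y₀ =
      V.b₂ * (3 * V.a₁ * (18 * V.b₆ - V.b₂ * V.b₄) ^ 2 +
        (V.a₁ * V.a₄ - 2 * V.a₂ * V.a₃) * V.c₄ ^ 2) +
      12 * V.b₄ * V.c₄ * (V.a₁ * (18 * V.b₆ - V.b₂ * V.b₄) + V.a₃ * V.c₄) := ⟨_, hdiv hc3 _⟩
  have hY : 2 * y₀ + V.a₁ * x₀ + V.a₃ = 0 := by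
    have h := c₄_pow_mul_partialY V hx hy
    rw [hΔ, mul_zero] at h
    exact (mul_eq_zero.mp h).resolve_left hc3
  have hX : V.a₁ * y₀ - (3 * x₀ ^ 2 + 2 * V.a₂ * x₀ + V.a₄) = 0 := by
    have h := c₄_pow_mul_partialX V hx hy
    rw [hΔ, mul_zero] at h
    exact (mul_eq_zero.mp h).resolve_left hc3
  have hT : 4 * x₀ ^ 3 + V.b₂ * x₀ ^ 2 + 2 * V.b₄ * x₀ + V.b₆ = 0 := by
    have h := c₄_pow_mul_twoTorsion V hx
    rw [hΔ, mul_zero] at h
    exact (mul_eq_zero.mp h).resolve_left hc3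
  have hβ : V.b₂ + 12 * x₀ ≠ 0 := by
    intro h0
    apply hc₄
    rw [c₄_eq_of_partials V hX hY, h0]
    ring
  refine ⟨x₀, y₀, ?_, hX, hY⟩
  have h4 := four_mul_poly V x₀ y₀
  rw [hY, hT] at h4
  have hprod := Δ_eq_of_partials V hX hY
  rw [hΔ] at hprod
  by_contra hF
  have h40 : (4 : F) = 0 := by
    have : (4 : F) * (y₀ ^ 2 + V.a₁ * x₀ * y₀ + V.a₃ * y₀ -
        (x₀ ^ 3 + V.a₂ * x₀ ^ 2 + V.a₄ * x₀ + V.a₆)) = 0 := by rw [h4]; ring
    exact (mul_eq_zero.mp this).resolve_right hF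
  have h432 : (432 : F) = 0 := by linear_combination 108 * h40
  rw [h432, zero_mul, sub_zero] at hprod
  rcases mul_eq_zero.mp hprod.symm with h | h
  · exact hF h
  · exact hβ (pow_eq_zero_iff (by norm_num) |>.mp h)

variable {V}

/-- On a cubic with a singular point `(x₀, y₀)`, a point of the curve is nonsingular iff its
`x`-coordinate differs from `x₀`. -/
theorem nonsingular_iff_of_isSingPt {x₀ y₀ : F} (h₀ : IsSingPt V x₀ y₀) (x y : F) :
    V.toAffine.Nonsingular x y ↔ V.toAffine.Equation x y ∧ x ≠ x₀ := by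
  rw [Affine.nonsingular_iff', Affine.equation_iff']
  constructor
  · rintro ⟨hE, hns⟩
    refine ⟨hE, ?_⟩
    rintro rfl
    have h2 : (y - y₀) ^ 2 = 0 := by linear_combination hE - h₀.1 - (y - y₀) * h₀.2.2
    have hy : y = y₀ := sub_eq_zero.mp (pow_eq_zero_iff (by norm_num) |>.mp h2)
    subst hy
    rcases hns with h | h
    · exact h h₀.2.1
    · exact h h₀.2.2
  · rintro ⟨hE, hne⟩
    refine ⟨hE, ?_⟩
    by_contra hcon
    rw [not_or, not_not, not_not] at hcon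
    exact hne (h₀.unique ⟨hE, hcon.1, hcon.2⟩).1

/-! ## Parametrisation by slopes through the singular point -/

variable (V) in
/-- The quadratic whose roots are the slopes of the two tangents at the singular point. -/
def slopeQuad (x₀ t : F) : F := t ^ 2 + V.a₁ * t - (V.a₂ + 3 * x₀)

/-- The line of slope `t` through the singular point meets the cubic in the point
`(x₀ + q t, y₀ + t q t)`. -/
theorem equation_param {x₀ y₀ : F} (h₀ : IsSingPt V x₀ y₀) (t : F) :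
    V.toAffine.Equation (x₀ + slopeQuad V x₀ t) (y₀ + t * slopeQuad V x₀ t) := by
  rw [Affine.equation_iff']
  unfold slopeQuad
  linear_combination h₀.1 + (t ^ 2 + V.a₁ * t - (V.a₂ + 3 * x₀)) * h₀.2.1 +
    (t * (t ^ 2 + V.a₁ * t - (V.a₂ + 3 * x₀))) * h₀.2.2

theorem nonsingular_param {x₀ y₀ : F} (h₀ : IsSingPt V x₀ y₀) {t : F}
    (ht : slopeQuad V x₀ t ≠ 0) :
    V.toAffine.Nonsingular (x₀ + slopeQuad V x₀ t) (y₀ + t * slopeQuad V x₀ t) := by
  rw [nonsingular_iff_of_isSingPt h₀]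
  exact ⟨equation_param h₀ t, fun h => ht (by linear_combination h)⟩

/-- The slope of the line joining a point of the curve to the singular point. -/
theorem slopeQuad_slope {x₀ y₀ : F} (h₀ : IsSingPt V x₀ y₀) {x y : F}
    (hE : V.toAffine.Equation x y) (hne : x ≠ x₀) :
    slopeQuad V x₀ ((y - y₀) / (x - x₀)) = x - x₀ := by
  have hX : x - x₀ ≠ 0 := sub_ne_zero.mpr hne
  rw [Affine.equation_iff'] at hE
  unfold slopeQuad
  field_simp
  linear_combination hE - h₀.1 - (x - x₀) * h₀.2.1 - (y - y₀) * h₀.2.2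

/-- Points with equal coordinates are equal. -/
theorem some_congr {x y x' y' : F} (h : V.toAffine.Nonsingular x y)
    (h' : V.toAffine.Nonsingular x' y') (hx : x = x') (hy : y = y') :
    (Affine.Point.some x y h : V.toAffine.Point) = Affine.Point.some x' y' h' := by
  subst hx hy
  rfl

/-- A nonsingular point goes to the slope of the line joining it to the singular point. -/
noncomputable def toSlope {x₀ y₀ : F} (h₀ : IsSingPt V x₀ y₀) :
    V.toAffine.Point → Option {t : F // slopeQuad V x₀ t ≠ 0}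
  | .zero => none
  | .some x y h => some ⟨(y - y₀) / (x - x₀), by
      have h' := (nonsingular_iff_of_isSingPt h₀ x y).mp h
      rw [slopeQuad_slope h₀ h'.1 h'.2]
      exact sub_ne_zero.mpr h'.2⟩

/-- A non-tangent slope goes to the third point of intersection. -/
noncomputable def ofSlope {x₀ y₀ : F} (h₀ : IsSingPt V x₀ y₀) :
    Option {t : F // slopeQuad V x₀ t ≠ 0} → V.toAffine.Point
  | none => .zero
  | some t => .some _ _ (nonsingular_param h₀ t.2)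

/-- **Slope parametrisation** of the nonsingular points of a Weierstrass cubic with a rational
singular point. -/
noncomputable def pointEquiv {x₀ y₀ : F} (h₀ : IsSingPt V x₀ y₀) :
    V.toAffine.Point ≃ Option {t : F // slopeQuad V x₀ t ≠ 0} where
  toFun := toSlope h₀
  invFun := ofSlope h₀
  left_inv P := by
    rcases P with _ | ⟨x, y, h⟩
    · rfl
    · have h' := (nonsingular_iff_of_isSingPt h₀ x y).mp h
      have hX : x - x₀ ≠ 0 := sub_ne_zero.mpr h'.2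
      have hq := slopeQuad_slope h₀ h'.1 h'.2
      simp only [toSlope, ofSlope]
      apply some_congr
      · rw [hq]; ring
      · rw [hq]; field_simp; ring
  right_inv o := by
    rcases o with _ | ⟨t, ht⟩
    · rfl
    · simp only [toSlope, ofSlope, Option.some.injEq, Subtype.mk.injEq]
      rw [add_sub_cancel_left, add_sub_cancel_left, mul_div_assoc, div_self ht, mul_one]

/-! ## The count over a finite field -/

/-- A quadratic with nonzero discriminant has no root or exactly two roots. -/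
theorem ncard_quad_roots {b c : F} (hd : b ^ 2 - 4 * c ≠ 0) :
    {t : F | t ^ 2 + b * t + c = 0}.ncard = 0 ∨ {t : F | t ^ 2 + b * t + c = 0}.ncard = 2 := by
  by_cases h : ∃ t₁ : F, t₁ ^ 2 + b * t₁ + c = 0
  · obtain ⟨t₁, h₁⟩ := h
    right
    have hset : {t : F | t ^ 2 + b * t + c = 0} = {t₁, -b - t₁} := by
      ext t
      simp only [Set.mem_ofPred_eq, Set.mem_insert_iff, Set.mem_singleton_iff]
      constructor
      · intro ht
        have hprod : (t - t₁) * (t - (-b - t₁)) = 0 := by linear_combination ht - h₁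
        rcases mul_eq_zero.mp hprod with h | h
        · exact Or.inl (sub_eq_zero.mp h)
        · exact Or.inr (sub_eq_zero.mp h)
      · rintro (rfl | rfl)
        · exact h₁
        · linear_combination h₁
    rw [hset]
    apply Set.ncard_pair
    intro heq
    apply hd
    linear_combination (2 * t₁ + b) * heq - 4 * h₁
  · left
    have hset : {t : F | t ^ 2 + b * t + c = 0} = ∅ := by
      ext t
      simp only [Set.mem_ofPred_eq, Set.mem_empty_iff_false, iff_false]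
      exact fun ht => h ⟨t, ht⟩
    rw [hset, Set.ncard_empty]

variable (V) in
/-- **The nonsingular points of a nodal Weierstrass cubic over a finite field** (`Δ = 0`,
`c₄ ≠ 0`; general Weierstrass form, every characteristic): there are `#F + 1` of them (nonsplit
node) or `#F - 1` (split node), the point at infinity included. -/
theorem card_point_of_nodal [Finite F] (hΔ : V.Δ = 0) (hc₄ : V.c₄ ≠ 0) :
    Nat.card V.toAffine.Point = Nat.card F + 1 ∨ Nat.card V.toAffine.Point + 1 = Nat.card F := by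
  classical
  obtain ⟨x₀, y₀, h₀⟩ := exists_isSingPt V hΔ hc₄
  have hβ := h₀.b₂_add_ne_zero hc₄
  rw [Nat.card_congr (pointEquiv h₀), Finite.card_option]
  have hsum : Nat.card {t : F // slopeQuad V x₀ t = 0} +
      Nat.card {t : F // slopeQuad V x₀ t ≠ 0} = Nat.card F := by
    rw [← Nat.card_sum]
    exact Nat.card_congr (Equiv.sumCompl _)
  have hroots := ncard_quad_roots (b := V.a₁) (c := -(V.a₂ + 3 * x₀)) (by
    intro h
    apply hβ
    simp only [WeierstrassCurve.b₂]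
    linear_combination h)
  have hcard : Nat.card {t : F // slopeQuad V x₀ t = 0} =
      {t : F | t ^ 2 + V.a₁ * t + -(V.a₂ + 3 * x₀) = 0}.ncard := by
    rw [← Nat.card_coe_set_eq]
    exact Nat.card_congr (Equiv.subtypeEquivRight fun t => by
      simp only [slopeQuad, Set.mem_ofPred_eq, sub_eq_add_neg])
  rcases hroots with h | h
  · left; omega
  · right; omega

variable (V) in
/-- The order of a nonsingular point of a nodal cubic over a finite field divides `#F + 1` or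
`#F - 1`. -/
theorem addOrderOf_dvd_of_nodal [Finite F] [DecidableEq F] (hΔ : V.Δ = 0) (hc₄ : V.c₄ ≠ 0)
    (P : V.toAffine.Point) :
    addOrderOf P ∣ Nat.card F + 1 ∨ addOrderOf P ∣ Nat.card F - 1 := by
  have h := addOrderOf_dvd_natCard P
  rcases card_point_of_nodal V hΔ hc₄ with h' | h'
  · exact Or.inl (h' ▸ h)
  · refine Or.inr ?_
    have : Nat.card F - 1 = Nat.card V.toAffine.Point := by omega
    rw [this]
    exact h

end Field

end Fermat.Agent.S15.helper1100
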