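import Mathlib
import Fermat.Prelude.Def_EllipticCurve_ZeroComponentAt
import Fermat.Prelude.Def_FLTPrelim_Ramification
import Fermat.Prelude.Def_EllipticCurve_FrobeniusTrace
import Fermat.Agent.S52.helper3042_RedHom
import Fermat.Agent.S52.helper130_GoodRed
import Fermat.Agent.S15.helper1100_NodalCount

/-!
# A rational point of prime order `p` in the zero component at a multiplicative prime `ℓ ≠ p`
forces `p ∣ ℓ - 1` or `p ∣ ℓ + 1` (helper1100)

Frozen vocabulary of S15: `W : WeierstrassCurve ℤ`, `Q` a Galois-fixed point of exact order `p` of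
`(W.map (Int.castRingHom ℚ))⁄(AlgebraicClosure ℚ)`, `ℓ ≠ p` a prime with `ℓ ∣ W.Δ`, `ℓ ∤ W.c₄`
(multiplicative reduction), `A` a valuation subring of `ℚ̄` over `ℓ`.

* `dvd_pred_or_dvd_succ_of_inZeroComponentAt` : `W.InZeroComponentAt A Q → p ∣ ℓ - 1 ∨ p ∣ ℓ + 1`;
* `dvd_pred_or_dvd_succ_of_isFrobeniusAt` : the same for a point fixed by ONE Frobenius element
  at `A` (instead of the whole Galois group); `dvd_sq_sub_one_of_*` : conclusion `p ∣ ℓ ^ 2 - 1`;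
* `two_mul_sub_one_le_of_inZeroComponentAt` : hence `2 * p - 1 ≤ ℓ`;
* `ne_of_dvd_pred_of_inZeroComponentAt` : hence every `r ∣ p - 1` is `≠ ℓ`;
* `coprime_pred_of_inZeroComponentAt` : hence `ℓ` is prime to `p - 1`
  (so reduction at `ℓ` is injective on the cuspidal group of `J₀(p)`, of order dividing `p - 1`).

Proof: `Q = (x, y)` with `x, y` integral at `A` (torsion of unit order is integral:
`S52.helper130.isInt_of_nsmul_eq_zero`) and rational (Galois-fixed); reduction is additive on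
points with nonsingular reduction (`S52.helper3042.Red.add`), so the reduction of `Q` is a point
of exact order `p` of the nodal cubic `W mod ℓ` with coordinates in `𝔽_ℓ`; the group of
nonsingular `𝔽_ℓ`-points of a nodal cubic has `ℓ - 1` or `ℓ + 1` elements
(`helper1100_NodalCount`).
-/

set_option autoImplicit false

namespace Fermat.Agent.S15.helper1100

open WeierstrassCurve WeierstrassCurve.Affine
open Fermat.Agent.S52.helper3042 (Red twoPoly)

/-! ## Generalities on a valuation subring -/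

section General

variable {K : Type*} [Field K] [DecidableEq K] {k : Type*} [Field k] [DecidableEq k]
  {A : ValuationSubring K} {π : A →+* k} {WA : WeierstrassCurve A}

omit [DecidableEq k] in
/-- The polynomial `4x³ + b₂x² + 2b₄x + b₆` is nonzero when `c₄ ≠ 0`. -/
theorem twoPoly_ne_zero_of_c₄_ne_zero (V : WeierstrassCurve k) (hc : V.c₄ ≠ 0) :
    twoPoly V ≠ 0 := by
  intro h0
  have h3 : (twoPoly V).coeff 3 = 4 := by
    simp [twoPoly, Polynomial.coeff_X_pow]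
  have h2 : (twoPoly V).coeff 2 = V.b₂ := by
    simp [twoPoly, Polynomial.coeff_X_pow]
  rw [h0, Polynomial.coeff_zero] at h3 h2
  apply hc
  rw [WeierstrassCurve.c₄, ← h2]
  linear_combination (6 * V.b₄) * h3

/-- Torsion points of unit order are integral (transported form of
`S52.helper130.isInt_of_nsmul_eq_zero`). -/
theorem mem_of_nsmul_eq_zero {WF : Affine K} (hF : WA.map A.subtype = WF) {n : ℕ}
    (hn : IsUnit (n : A)) {x y : K} (h : WF.Nonsingular x y)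
    (hP : n • (Point.some x y h : WF.Point) = 0) : x ∈ A ∧ y ∈ A := by
  subst hF
  exact Fermat.Agent.S52.helper130.isInt_of_nsmul_eq_zero hn hP

/-- If `n` kills an integral point with nonsingular reduction, then `n` kills its reduction
(additivity of reduction on the points with nonsingular reduction, `S52.helper3042.Red.add`). -/
theorem nsmul_residue_eq_zero [IsAlgClosed K] (hπ : Function.Surjective π) {WF : Affine K}
    {Vk : Affine k} (hF : WA.map A.subtype = WF) (hV : WA.map π = Vk) (hc₄ : Vk.c₄ ≠ 0) {n : ℕ}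
    {x y : K} (h : WF.Nonsingular x y) (hx : x ∈ A) (hy : y ∈ A)
    (hk : Vk.Nonsingular (π ⟨x, hx⟩) (π ⟨y, hy⟩))
    (hP : n • (Point.some x y h : WF.Point) = 0) :
    n • (Point.some _ _ hk : Vk.Point) = 0 := by
  subst hF hV
  have h2 := twoPoly_ne_zero_of_c₄_ne_zero _ hc₄
  have hR : Red A π WA (Point.some x y h) (Point.some _ _ hk) :=
    Red.some ⟨x, hx⟩ ⟨y, hy⟩ h hk
  have key : ∀ m : ℕ, Red A π WA (m • Point.some x y h) (m • Point.some _ _ hk) := by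
    intro m
    induction m with
    | zero =>
      rw [zero_nsmul, zero_nsmul]
      exact Red.zero
    | succ m ih =>
      rw [succ_nsmul, succ_nsmul]
      exact Red.add hπ h2 ih hR
  have h0 := key n
  rw [hP] at h0
  exact Red.unique h0 Red.zero

end General

section Residue

variable {K : Type*} [Field K] {A : ValuationSubring K} {ℓ : ℕ}

/-- The residue field of a valuation subring in which `ℓ` is a nonunit has characteristic `ℓ`. -/
theorem charP_residueField (hℓ : ℓ.Prime) (hA : (ℓ : K) ∈ A.nonunits) :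
    CharP (IsLocalRing.ResidueField A) ℓ := by
  rw [CharP.charP_iff_prime_eq_zero hℓ]
  obtain ⟨ha, hm⟩ := ValuationSubring.mem_nonunits_iff_exists_mem_maximalIdeal.mp hA
  have h1 : ((ℓ : ℕ) : IsLocalRing.ResidueField A) = IsLocalRing.residue A ⟨(ℓ : K), ha⟩ := by
    rw [← map_natCast (IsLocalRing.residue A)]
    rfl
  rw [h1]
  exact (IsLocalRing.residue_eq_zero_iff _).mpr hm

/-- The residue of an `A`-integral rational number lies in the prime field. -/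
theorem residue_rat_mem_range [Algebra ℚ K] [Fact ℓ.Prime]
    [CharP (IsLocalRing.ResidueField A) ℓ] (q : ℚ) (hx : algebraMap ℚ K q ∈ A) :
    ∃ z : ZMod ℓ, IsLocalRing.residue A ⟨algebraMap ℚ K q, hx⟩ =
      ZMod.castHom (dvd_refl ℓ) (IsLocalRing.ResidueField A) z := by
  have hmul : IsLocalRing.residue A ⟨algebraMap ℚ K q, hx⟩ *
      ((q.den : ℕ) : IsLocalRing.ResidueField A) = ((q.num : ℤ) : IsLocalRing.ResidueField A) := by
    have h1 : (⟨algebraMap ℚ K q, hx⟩ : A) * ((q.den : ℕ) : A) = ((q.num : ℤ) : A) := by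
      apply Subtype.ext
      have h2 : algebraMap ℚ K q * algebraMap ℚ K (q.den : ℚ) = algebraMap ℚ K (q.num : ℚ) := by
        rw [← map_mul, Rat.mul_den_eq_num]
      simpa using h2
    have h3 := congrArg (IsLocalRing.residue A) h1
    rwa [map_mul, map_natCast, map_intCast] at h3
  by_cases hd : ((q.den : ℕ) : IsLocalRing.ResidueField A) = 0
  · exfalso
    have h1 : ℓ ∣ q.den := (CharP.cast_eq_zero_iff (IsLocalRing.ResidueField A) ℓ _).mp hd
    have h2 : ((q.num : ℤ) : IsLocalRing.ResidueField A) = 0 := by rw [← hmul, hd, mul_zero]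
    have h3 : (ℓ : ℤ) ∣ q.num := (CharP.intCast_eq_zero_iff (IsLocalRing.ResidueField A) ℓ _).mp h2
    have h4 : ℓ ∣ q.num.natAbs := Int.natCast_dvd.mp h3
    have h5 : ℓ ∣ 1 := by
      have := Nat.dvd_gcd h4 h1
      rwa [q.reduced.gcd_eq_one] at this
    exact (Fact.out : ℓ.Prime).one_lt.ne' (Nat.dvd_one.mp h5)
  · refine ⟨(q.num : ZMod ℓ) / (q.den : ZMod ℓ), ?_⟩
    rw [map_div₀, map_intCast, map_natCast, eq_div_iff hd]
    exact hmul

/-- An element of a field of characteristic `ℓ` fixed by the `ℓ`-power map lies in the prime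
field. -/
theorem exists_castHom_eq_of_pow_eq {k : Type*} [Field k] [Fact ℓ.Prime] [CharP k ℓ] {z : k}
    (hz : z ^ ℓ = z) : ∃ w : ZMod ℓ, z = ZMod.castHom (dvd_refl ℓ) k w := by
  have h1 : z ∈ (⊥ : Subfield k) := (Subfield.mem_bot_iff_pow_eq_self k ℓ).mpr hz
  rw [← ZMod.fieldRange_castHom_eq_bot ℓ] at h1
  obtain ⟨w, hw⟩ := h1
  exact ⟨w, hw.symm⟩

/-- The residue of an `A`-integral rational number is fixed by the `ℓ`-power map. -/
theorem residue_rat_pow_eq [Algebra ℚ K] [Fact ℓ.Prime]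
    [CharP (IsLocalRing.ResidueField A) ℓ] (q : ℚ) (hx : algebraMap ℚ K q ∈ A) :
    IsLocalRing.residue A ⟨algebraMap ℚ K q, hx⟩ ^ ℓ =
      IsLocalRing.residue A ⟨algebraMap ℚ K q, hx⟩ := by
  obtain ⟨z, hz⟩ := residue_rat_mem_range (ℓ := ℓ) q hx
  rw [hz, ← map_pow, ZMod.pow_card]

/-- The residue of an `A`-integral element fixed by a Frobenius element at `A` is fixed by the
`q`-power map. -/
theorem residue_pow_eq_of_isFrobeniusAt {K₀ : Type*} [Field K₀] [Algebra K₀ K]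
    {σ : K ≃ₐ[K₀] K} {q : ℕ} (hσ : A.IsFrobeniusAt σ q) {x : K} (hx : x ∈ A) (hσx : σ x = x) :
    IsLocalRing.residue A ⟨x, hx⟩ ^ q = IsLocalRing.residue A ⟨x, hx⟩ := by
  have h1 := hσ.smul_residue_eq (IsLocalRing.residue A ⟨x, hx⟩)
  rw [← h1, ← IsLocalRing.ResidueField.residue_smul]
  congr 1
  exact Subtype.ext hσx

end Residue

/-! ## The theorem in the frozen vocabulary of S15 -/

section Frozen

/-- **Core.** A point of prime order `p` lying in the zero component at a prime `ℓ ≠ p` of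
multiplicative reduction, whose integral coordinates have residues fixed by the `ℓ`-power map
(i.e. lying in `𝔽_ℓ`), forces `p ∣ ℓ - 1` or `p ∣ ℓ + 1`. -/
theorem dvd_pred_or_dvd_succ_of_residue_pow_eq
    {p : ℕ} (hp : p.Prime) (W : WeierstrassCurve ℤ)
    (Q : ((W.map (Int.castRingHom ℚ))⁄(AlgebraicClosure ℚ)).Point)
    (hQord : addOrderOf Q = p)
    {ℓ : ℕ} (hℓ : ℓ.Prime) (hℓp : ℓ ≠ p) (hℓΔ : (ℓ : ℤ) ∣ W.Δ) (hℓc₄ : ¬ (ℓ : ℤ) ∣ W.c₄)
    (A : ValuationSubring (AlgebraicClosure ℚ)) (hA : A.LiesOverPrime ℓ)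
    (hQ0 : W.InZeroComponentAt A Q)
    (hfrob : ∀ (x y : AlgebraicClosure ℚ)
      (h : ((W.map (Int.castRingHom ℚ))⁄(AlgebraicClosure ℚ)).Nonsingular x y),
      Q = Point.some x y h → ∀ (hx : x ∈ A) (hy : y ∈ A),
        IsLocalRing.residue A ⟨x, hx⟩ ^ ℓ = IsLocalRing.residue A ⟨x, hx⟩ ∧
          IsLocalRing.residue A ⟨y, hy⟩ ^ ℓ = IsLocalRing.residue A ⟨y, hy⟩) :
    p ∣ ℓ - 1 ∨ p ∣ ℓ + 1 := by
  classical
  have : Fact ℓ.Prime := ⟨hℓ⟩
  have : Fact p.Prime := ⟨hp⟩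
  have hchar : CharP (IsLocalRing.ResidueField A) ℓ := charP_residueField hℓ hA
  have hQne : Q ≠ 0 := by
    rintro rfl
    rw [addOrderOf_zero] at hQord
    exact hp.one_lt.ne hQord
  have hpQ : p • Q = 0 := by
    rw [← hQord]
    exact addOrderOf_nsmul_eq_zero Q
  rcases hQ0 with rfl | ⟨x, y, h, rfl, hxy⟩
  · exact absurd rfl hQne
  -- the two base changes of the integral model
  have hF : (W.map (Int.castRingHom A)).map A.subtype =
      (W.map (Int.castRingHom ℚ))⁄(AlgebraicClosure ℚ) := by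
    show _ = (W.map (Int.castRingHom ℚ)).map (algebraMap ℚ (AlgebraicClosure ℚ))
    rw [WeierstrassCurve.map_map, WeierstrassCurve.map_map]
    exact congrArg W.map (RingHom.ext_int _ _)
  have hV : (W.map (Int.castRingHom A)).map (IsLocalRing.residue A) =
      W.map (Int.castRingHom (IsLocalRing.ResidueField A)) := by
    rw [WeierstrassCurve.map_map]
    exact congrArg W.map (RingHom.ext_int _ _)
  -- `p` is a unit of `A`
  have hpA : IsUnit ((p : ℕ) : A) := by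
    apply Fermat.Agent.S52.helper3042.isUnit_of_map_ne_zero
      (π := IsLocalRing.residue A) IsLocalRing.residue_surjective
    rw [map_natCast]
    intro h0
    have hdvd : ℓ ∣ p := (CharP.cast_eq_zero_iff (IsLocalRing.ResidueField A) ℓ p).mp h0
    exact hℓp ((Nat.prime_dvd_prime_iff_eq hℓ hp).mp hdvd)
  -- integrality and the reduced point
  obtain ⟨hx, hy⟩ := mem_of_nsmul_eq_zero hF hpA h hpQ
  obtain ⟨hx', hy', hns⟩ := hxy.resolve_left (not_not.mpr hx)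
  have hc₄k : (W.map (Int.castRingHom (IsLocalRing.ResidueField A))).c₄ ≠ 0 := by
    rw [WeierstrassCurve.map_c₄]
    intro h0
    exact hℓc₄ ((CharP.intCast_eq_zero_iff (IsLocalRing.ResidueField A) ℓ _).mp h0)
  have hred := nsmul_residue_eq_zero (π := IsLocalRing.residue A) IsLocalRing.residue_surjective
    hF hV hc₄k h hx' hy' hns hpQ
  -- the residues of the coordinates lie in the prime field
  obtain ⟨hfx, hfy⟩ := hfrob x y h rfl hx' hy'
  obtain ⟨zx, hzx⟩ := exists_castHom_eq_of_pow_eq (ℓ := ℓ) hfx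
  obtain ⟨zy, hzy⟩ := exists_castHom_eq_of_pow_eq (ℓ := ℓ) hfy
  -- descend the reduced point to `𝔽_ℓ`
  set f : ZMod ℓ →ₐ[ℤ] IsLocalRing.ResidueField A :=
    (ZMod.castHom (dvd_refl ℓ) (IsLocalRing.ResidueField A)).toIntAlgHom with hf
  have hfinj : Function.Injective f :=
    (ZMod.castHom (dvd_refl ℓ) (IsLocalRing.ResidueField A)).injective
  have hns' : (W⁄(IsLocalRing.ResidueField A)).Nonsingular (f zx) (f zy) := by
    have := hns
    rw [hzx, hzy] at this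
    exact this
  have h₀ : (W⁄(ZMod ℓ)).Nonsingular zx zy := (WeierstrassCurve.Affine.baseChange_nonsingular W hfinj zx zy).mp hns'
  have hP₀ : p • (Point.some zx zy h₀ : (W⁄(ZMod ℓ)).Point) = 0 := by
    apply Point.map_injective f
    rw [map_nsmul, map_zero, Point.map_some]
    have heq : (Point.some (f zx) (f zy) ((WeierstrassCurve.Affine.baseChange_nonsingular W hfinj zx zy).mpr h₀) :
        (W⁄(IsLocalRing.ResidueField A)).Point) = Point.some _ _ hns :=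
      some_congr _ _ hzx.symm hzy.symm
    rw [heq]
    exact hred
  have hord : addOrderOf (Point.some zx zy h₀ : (W⁄(ZMod ℓ)).Point) = p :=
    addOrderOf_eq_prime hP₀ (Point.some_ne_zero h₀)
  -- count the nodal cubic over `𝔽_ℓ`
  have hΔ₀ : (W⁄(ZMod ℓ)).Δ = 0 := by
    show (W.map (algebraMap ℤ (ZMod ℓ))).Δ = 0
    rw [WeierstrassCurve.map_Δ, eq_intCast]
    exact (CharP.intCast_eq_zero_iff (ZMod ℓ) ℓ _).mpr hℓΔ
  have hc₄₀ : (W⁄(ZMod ℓ)).c₄ ≠ 0 := by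
    show (W.map (algebraMap ℤ (ZMod ℓ))).c₄ ≠ 0
    rw [WeierstrassCurve.map_c₄, eq_intCast]
    exact fun h0 => hℓc₄ ((CharP.intCast_eq_zero_iff (ZMod ℓ) ℓ _).mp h0)
  have hdvd := addOrderOf_dvd_of_nodal (W⁄(ZMod ℓ)) hΔ₀ hc₄₀ (Point.some zx zy h₀)
  rw [hord, Nat.card_zmod] at hdvd
  exact hdvd.symm

/-- **A rational point of prime order `p` lying in the zero component at a prime `ℓ ≠ p` of
multiplicative reduction forces `p ∣ ℓ - 1` or `p ∣ ℓ + 1`.** -/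
theorem dvd_pred_or_dvd_succ_of_inZeroComponentAt
    {p : ℕ} (hp : p.Prime) (W : WeierstrassCurve ℤ)
    (Q : ((W.map (Int.castRingHom ℚ))⁄(AlgebraicClosure ℚ)).Point)
    (hQfix : ∀ σ : AlgebraicClosure ℚ ≃ₐ[ℚ] AlgebraicClosure ℚ, σ • Q = Q)
    (hQord : addOrderOf Q = p)
    {ℓ : ℕ} (hℓ : ℓ.Prime) (hℓp : ℓ ≠ p) (hℓΔ : (ℓ : ℤ) ∣ W.Δ) (hℓc₄ : ¬ (ℓ : ℤ) ∣ W.c₄)
    (A : ValuationSubring (AlgebraicClosure ℚ)) (hA : A.LiesOverPrime ℓ)
    (hQ0 : W.InZeroComponentAt A Q) : p ∣ ℓ - 1 ∨ p ∣ ℓ + 1 := by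
  have : Fact ℓ.Prime := ⟨hℓ⟩
  have hchar : CharP (IsLocalRing.ResidueField A) ℓ := charP_residueField hℓ hA
  have : Algebra.IsAlgebraic ℚ (AlgebraicClosure ℚ) := AlgebraicClosure.isAlgebraic ℚ
  have : IsAlgClosure ℚ (AlgebraicClosure ℚ) := ⟨inferInstance, inferInstance⟩
  have : IsGalois ℚ (AlgebraicClosure ℚ) := inferInstance
  refine dvd_pred_or_dvd_succ_of_residue_pow_eq hp W Q hQord hℓ hℓp hℓΔ hℓc₄ A hA hQ0 ?_
  rintro x y h rfl hx hy
  have hfix : ∀ σ : AlgebraicClosure ℚ ≃ₐ[ℚ] AlgebraicClosure ℚ, σ x = x ∧ σ y = y :=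
    fun σ => Point.some.inj (hQfix σ)
  obtain ⟨qx, rfl⟩ : x ∈ Set.range (algebraMap ℚ (AlgebraicClosure ℚ)) :=
    (InfiniteGalois.mem_range_algebraMap_iff_fixed x).mpr fun σ => (hfix σ).1
  obtain ⟨qy, rfl⟩ : y ∈ Set.range (algebraMap ℚ (AlgebraicClosure ℚ)) :=
    (InfiniteGalois.mem_range_algebraMap_iff_fixed y).mpr fun σ => (hfix σ).2
  exact ⟨residue_rat_pow_eq (ℓ := ℓ) qx hx, residue_rat_pow_eq (ℓ := ℓ) qy hy⟩

/-- **One-Frobenius form** (for the pair form / S12): a point of prime order `p` fixed by ONE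
Frobenius element at `A` and lying in the zero component at `A` forces `p ∣ ℓ - 1` or
`p ∣ ℓ + 1`. -/
theorem dvd_pred_or_dvd_succ_of_isFrobeniusAt
    {p : ℕ} (hp : p.Prime) (W : WeierstrassCurve ℤ)
    (Q : ((W.map (Int.castRingHom ℚ))⁄(AlgebraicClosure ℚ)).Point)
    (hQord : addOrderOf Q = p)
    {ℓ : ℕ} (hℓ : ℓ.Prime) (hℓp : ℓ ≠ p) (hℓΔ : (ℓ : ℤ) ∣ W.Δ) (hℓc₄ : ¬ (ℓ : ℤ) ∣ W.c₄)
    (A : ValuationSubring (AlgebraicClosure ℚ)) (hA : A.LiesOverPrime ℓ)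
    {σ : AlgebraicClosure ℚ ≃ₐ[ℚ] AlgebraicClosure ℚ} (hσ : A.IsFrobeniusAt σ ℓ)
    (hσQ : σ • Q = Q) (hQ0 : W.InZeroComponentAt A Q) : p ∣ ℓ - 1 ∨ p ∣ ℓ + 1 := by
  refine dvd_pred_or_dvd_succ_of_residue_pow_eq hp W Q hQord hℓ hℓp hℓΔ hℓc₄ A hA hQ0 ?_
  rintro x y h rfl hx hy
  have hfix : σ x = x ∧ σ y = y := Point.some.inj hσQ
  exact ⟨residue_pow_eq_of_isFrobeniusAt hσ hx hfix.1, residue_pow_eq_of_isFrobeniusAt hσ hy hfix.2⟩

/-! ### Consumer forms -/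

/-- Arithmetic: `p ∣ ℓ - 1` or `p ∣ ℓ + 1` gives `p ∣ ℓ ^ 2 - 1`. -/
theorem dvd_sq_sub_one_of_dvd {p ℓ : ℕ} (h : p ∣ ℓ - 1 ∨ p ∣ ℓ + 1) : p ∣ ℓ ^ 2 - 1 := by
  have h1 : ℓ ^ 2 - 1 = (ℓ - 1) * (ℓ + 1) := by
    rcases Nat.eq_zero_or_pos ℓ with rfl | hpos
    · rfl
    · obtain ⟨m, rfl⟩ : ∃ m, ℓ = m + 1 := ⟨ℓ - 1, by omega⟩
      rw [Nat.add_sub_cancel, Nat.sub_eq_iff_eq_add (Nat.one_le_pow _ _ (by omega))]
      ring
  rw [h1]
  rcases h with h | h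
  · exact Dvd.dvd.mul_right h _
  · exact Dvd.dvd.mul_left h _

/-- **Stmt_LPM shape**: a rational point of prime order `p` in the zero component at a prime
`ℓ ≠ p` of multiplicative reduction forces `p ∣ ℓ ^ 2 - 1`. -/
theorem dvd_sq_sub_one_of_inZeroComponentAt
    {p : ℕ} (hp : p.Prime) (W : WeierstrassCurve ℤ)
    (Q : ((W.map (Int.castRingHom ℚ))⁄(AlgebraicClosure ℚ)).Point)
    (hQfix : ∀ σ : AlgebraicClosure ℚ ≃ₐ[ℚ] AlgebraicClosure ℚ, σ • Q = Q)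
    (hQord : addOrderOf Q = p)
    {ℓ : ℕ} (hℓ : ℓ.Prime) (hℓp : ℓ ≠ p) (hℓΔ : (ℓ : ℤ) ∣ W.Δ) (hℓc₄ : ¬ (ℓ : ℤ) ∣ W.c₄)
    (A : ValuationSubring (AlgebraicClosure ℚ)) (hA : A.LiesOverPrime ℓ)
    (hQ0 : W.InZeroComponentAt A Q) : p ∣ ℓ ^ 2 - 1 :=
  dvd_sq_sub_one_of_dvd
    (dvd_pred_or_dvd_succ_of_inZeroComponentAt hp W Q hQfix hQord hℓ hℓp hℓΔ hℓc₄ A hA hQ0)

/-- **Stmt_LPM shape, one-Frobenius form.** -/
theorem dvd_sq_sub_one_of_isFrobeniusAt
    {p : ℕ} (hp : p.Prime) (W : WeierstrassCurve ℤ)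
    (Q : ((W.map (Int.castRingHom ℚ))⁄(AlgebraicClosure ℚ)).Point)
    (hQord : addOrderOf Q = p)
    {ℓ : ℕ} (hℓ : ℓ.Prime) (hℓp : ℓ ≠ p) (hℓΔ : (ℓ : ℤ) ∣ W.Δ) (hℓc₄ : ¬ (ℓ : ℤ) ∣ W.c₄)
    (A : ValuationSubring (AlgebraicClosure ℚ)) (hA : A.LiesOverPrime ℓ)
    {σ : AlgebraicClosure ℚ ≃ₐ[ℚ] AlgebraicClosure ℚ} (hσ : A.IsFrobeniusAt σ ℓ)
    (hσQ : σ • Q = Q) (hQ0 : W.InZeroComponentAt A Q) : p ∣ ℓ ^ 2 - 1 :=
  dvd_sq_sub_one_of_dvd
    (dvd_pred_or_dvd_succ_of_isFrobeniusAt hp W Q hQord hℓ hℓp hℓΔ hℓc₄ A hA hσ hσQ hQ0)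

/-- Two consecutive primes are `2` and `3`. -/
theorem eq_two_of_prime_succ {q : ℕ} (hq : q.Prime) (hq1 : (q + 1).Prime) : q = 2 := by
  rcases hq.eq_two_or_odd with h | h
  · exact h
  · exfalso
    have h2 : 2 ∣ q + 1 := by omega
    have h3 := (Nat.prime_dvd_prime_iff_eq Nat.prime_two hq1).mp h2
    have h4 := hq.two_le
    omega

/-- Arithmetic: `p ∣ ℓ - 1` or `p ∣ ℓ + 1` with `p ≠ 3` forces `ℓ ≥ 2p - 1`. -/
theorem two_mul_sub_one_le_of_dvd {p ℓ : ℕ} (hp : p.Prime) (hp3 : p ≠ 3) (hℓ : ℓ.Prime)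
    (h : p ∣ ℓ - 1 ∨ p ∣ ℓ + 1) : 2 * p - 1 ≤ ℓ := by
  have hℓ2 := hℓ.two_le
  rcases h with ⟨m, hm⟩ | ⟨m, hm⟩
  · rcases Nat.lt_or_ge m 2 with hm2 | hm2
    · interval_cases m
      · omega
      · rw [mul_one] at hm
        have hℓeq : ℓ = p + 1 := by omega
        have hp2 : p = 2 := eq_two_of_prime_succ hp (hℓeq ▸ hℓ)
        omega
    · have := Nat.mul_le_mul_left p hm2
      omega
  · rcases Nat.lt_or_ge m 2 with hm2 | hm2
    · interval_cases m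
      · omega
      · rw [mul_one] at hm
        have hℓ2' : ℓ = 2 := eq_two_of_prime_succ hℓ (hm ▸ hp)
        omega
    · have := Nat.mul_le_mul_left p hm2
      omega

/-- Arithmetic: under the same hypotheses no divisor of `p - 1` equals `ℓ`. -/
theorem ne_of_dvd_pred_of_dvd {p ℓ r : ℕ} (hp : p.Prime) (hp3 : p ≠ 3) (hℓ : ℓ.Prime)
    (h : p ∣ ℓ - 1 ∨ p ∣ ℓ + 1) (hr : r ∣ p - 1) : r ≠ ℓ := by
  have h1 := two_mul_sub_one_le_of_dvd hp hp3 hℓ h
  have h2 := hp.two_le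
  have h3 : r ≤ p - 1 := Nat.le_of_dvd (by omega) hr
  omega

/-- Arithmetic: under the same hypotheses `ℓ` is prime to `p - 1`. -/
theorem coprime_pred_of_dvd {p ℓ : ℕ} (hp : p.Prime) (hp3 : p ≠ 3) (hℓ : ℓ.Prime)
    (h : p ∣ ℓ - 1 ∨ p ∣ ℓ + 1) : Nat.Coprime ℓ (p - 1) := by
  rw [Nat.Prime.coprime_iff_not_dvd hℓ]
  intro hdvd
  exact ne_of_dvd_pred_of_dvd hp hp3 hℓ h hdvd rfl

/-- **Consumer form for the endgame of S15**: if `Q` (rational, of prime order `p ≠ 3`) lies in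
the zero component at a prime `ℓ ≠ p` of multiplicative reduction, then `2p - 1 ≤ ℓ`. -/
theorem two_mul_sub_one_le_of_inZeroComponentAt
    {p : ℕ} (hp : p.Prime) (hp3 : p ≠ 3) (W : WeierstrassCurve ℤ)
    (Q : ((W.map (Int.castRingHom ℚ))⁄(AlgebraicClosure ℚ)).Point)
    (hQfix : ∀ σ : AlgebraicClosure ℚ ≃ₐ[ℚ] AlgebraicClosure ℚ, σ • Q = Q)
    (hQord : addOrderOf Q = p)
    {ℓ : ℕ} (hℓ : ℓ.Prime) (hℓp : ℓ ≠ p) (hℓΔ : (ℓ : ℤ) ∣ W.Δ) (hℓc₄ : ¬ (ℓ : ℤ) ∣ W.c₄)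
    (A : ValuationSubring (AlgebraicClosure ℚ)) (hA : A.LiesOverPrime ℓ)
    (hQ0 : W.InZeroComponentAt A Q) : 2 * p - 1 ≤ ℓ :=
  two_mul_sub_one_le_of_dvd hp hp3 hℓ
    (dvd_pred_or_dvd_succ_of_inZeroComponentAt hp W Q hQfix hQord hℓ hℓp hℓΔ hℓc₄ A hA hQ0)

/-- **Consumer form**: under the same hypotheses, every divisor `r` of `p - 1` (in particular
every prime dividing the order of the cuspidal class of `J₀(p)`) is different from `ℓ`. -/
theorem ne_of_dvd_pred_of_inZeroComponentAt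
    {p : ℕ} (hp : p.Prime) (hp3 : p ≠ 3) (W : WeierstrassCurve ℤ)
    (Q : ((W.map (Int.castRingHom ℚ))⁄(AlgebraicClosure ℚ)).Point)
    (hQfix : ∀ σ : AlgebraicClosure ℚ ≃ₐ[ℚ] AlgebraicClosure ℚ, σ • Q = Q)
    (hQord : addOrderOf Q = p)
    {ℓ : ℕ} (hℓ : ℓ.Prime) (hℓp : ℓ ≠ p) (hℓΔ : (ℓ : ℤ) ∣ W.Δ) (hℓc₄ : ¬ (ℓ : ℤ) ∣ W.c₄)
    (A : ValuationSubring (AlgebraicClosure ℚ)) (hA : A.LiesOverPrime ℓ)
    (hQ0 : W.InZeroComponentAt A Q) {r : ℕ} (hr : r ∣ p - 1) : r ≠ ℓ :=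
  ne_of_dvd_pred_of_dvd hp hp3 hℓ
    (dvd_pred_or_dvd_succ_of_inZeroComponentAt hp W Q hQfix hQord hℓ hℓp hℓΔ hℓc₄ A hA hQ0) hr

/-- **Consumer form**: under the same hypotheses, `ℓ` is prime to `p - 1`. -/
theorem coprime_pred_of_inZeroComponentAt
    {p : ℕ} (hp : p.Prime) (hp3 : p ≠ 3) (W : WeierstrassCurve ℤ)
    (Q : ((W.map (Int.castRingHom ℚ))⁄(AlgebraicClosure ℚ)).Point)
    (hQfix : ∀ σ : AlgebraicClosure ℚ ≃ₐ[ℚ] AlgebraicClosure ℚ, σ • Q = Q)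
    (hQord : addOrderOf Q = p)
    {ℓ : ℕ} (hℓ : ℓ.Prime) (hℓp : ℓ ≠ p) (hℓΔ : (ℓ : ℤ) ∣ W.Δ) (hℓc₄ : ¬ (ℓ : ℤ) ∣ W.c₄)
    (A : ValuationSubring (AlgebraicClosure ℚ)) (hA : A.LiesOverPrime ℓ)
    (hQ0 : W.InZeroComponentAt A Q) : Nat.Coprime ℓ (p - 1) :=
  coprime_pred_of_dvd hp hp3 hℓ
    (dvd_pred_or_dvd_succ_of_inZeroComponentAt hp W Q hQfix hQord hℓ hℓp hℓΔ hℓc₄ A hA hQ0)

end Frozen

end Fermat.Agent.S15.helper1100
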