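import Fermat.Agent.S15.helper3201_Spec
import Fermat.Agent.S15.helper1100_ZeroCompOrder

/-!
# END-LPM closes `Stmt_LPM` of the top Spec of record (helper1100)

`stmt_LPM : Fermat.Agent.S15.helper3201.Stmt_LPM` — the block Prop (2) of
`Fermat/Agent/S15/helper3201_Spec.lean`, verbatim, with no hypothesis.  The proof is
`helper1100.dvd_pred_or_dvd_succ_of_inZeroComponentAt` (torsion of unit order is integral,
reduction is additive on the points with nonsingular reduction, and the nonsingular locus of
a nodal cubic over `𝔽_ℓ` has `ℓ - 1` or `ℓ + 1` points); the binders `5 ≤ p` and `W.Δ ≠ 0` of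
the Spec Prop are not used.
-/

set_option autoImplicit false

namespace Fermat.Agent.S15.helper1100

/-- **PROP CLOSED: `Stmt_LPM`** (block Prop (2) of the top Spec of record of S15). -/
theorem stmt_LPM : Fermat.Agent.S15.helper3201.Stmt_LPM := by
  intro p hp _hp5 W _hΔ Q hQfix hQord ℓ hℓ hℓp hℓΔ hℓc₄ A hA hQ0
  exact dvd_pred_or_dvd_succ_of_inZeroComponentAt hp W Q hQfix hQord hℓ hℓp hℓΔ hℓc₄ A hA hQ0

end Fermat.Agent.S15.helper1100
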