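/-
S15 moduli bridge, leaf (MOD-XFER): the frozen-vocabulary front end.

For `W : WeierstrassCurve ℤ` and a Galois-fixed point `Q` of exact odd prime order `p` of
`W(ℚ̄)` (the binders of the frozen statement S15) this file provides

* `psiPt E P`   : `2y + a₁x + a₃` of an affine point (`0` at the origin), over any field;
* `Uval E P p`  : `Δ^(p-1) / ∏_{k=1}^{p-1} ψ(k • P)^4`, over any field;
* compatibility of both with `Point.map`, non-vanishing for points of odd prime order;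
* Galois descent: `Q` comes from a rational point `T`, `U(W,Q)` is a nonzero rational number;
* the transfer to `ℂ` (`xfer_top`): any relation `R (j, U)` that holds for every complex
  Weierstrass curve with a point of order `p` holds for the two rational numbers
  `j(W) = c₄³/Δ` and `U(W,Q)`.

Mathlib + the Prelude Galois action only; no analysis.
-/
import Mathlib
import Fermat.Prelude.Def_FLTPrelim_GaloisRep

set_option autoImplicit false

open WeierstrassCurve WeierstrassCurve.Affine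

namespace Fermat.Agent.S15.helper1449

/-! ### `ψ₂` of a point and the number `U` -/

section Generic

variable {F : Type*} [Field F]

/-- `ψ₂` of a point: `2y + a₁x + a₃` on an affine point, `0` at the origin. -/
noncomputable def psiPt (E : Affine F) : E.Point → F
  | .zero => 0
  | .some x y _ => 2 * y + E.a₁ * x + E.a₃

@[simp] theorem psiPt_zero (E : Affine F) : psiPt E (0 : E.Point) = 0 := rfl

@[simp] theorem psiPt_some (E : Affine F) {x y : F} (h : E.Nonsingular x y) :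
    psiPt E (Point.some x y h) = 2 * y + E.a₁ * x + E.a₃ := rfl

/-- `U(E, P) = Δ^(p-1) / ∏_{k=1}^{p-1} ψ₂(k • P)^4`. -/
noncomputable def Uval [DecidableEq F] (E : Affine F) (P : E.Point) (p : ℕ) : F :=
  E.Δ ^ (p - 1) / ∏ k ∈ Finset.Icc 1 (p - 1), psiPt E (k • P) ^ 4

/-- The equation lemmas `psiPt.eq_1`, `psiPt.eq_2` are generated HERE, in the defining module
(so that no downstream module generates its own copy). -/
theorem psiPt_eqns (E : Affine F) {x y : F} (h : E.Nonsingular x y) :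
    psiPt E (Point.zero) = 0 ∧ psiPt E (Point.some x y h) = 2 * y + E.a₁ * x + E.a₃ := by
  constructor
  · rw [psiPt]
  · rw [psiPt]

/-- The unfolding lemma `Uval.eq_1` is generated HERE, in the defining module. -/
theorem Uval_def [DecidableEq F] (E : Affine F) (P : E.Point) (p : ℕ) :
    Uval E P p = E.Δ ^ (p - 1) / ∏ k ∈ Finset.Icc 1 (p - 1), psiPt E (k • P) ^ 4 := by
  rw [Uval]

/-- `psiPt.eq_def` is generated HERE as well. -/
theorem psiPt_eq_match (E : Affine F) (P : E.Point) :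
    psiPt E P = match P with
      | .zero => 0
      | .some x y _ => 2 * y + E.a₁ * x + E.a₃ :=
  psiPt.eq_def E P

/-- `Uval.eq_def` is generated HERE as well. -/
theorem Uval_eq_def' [DecidableEq F] (E : Affine F) (P : E.Point) (p : ℕ) :
    Uval E P p = E.Δ ^ (p - 1) / ∏ k ∈ Finset.Icc 1 (p - 1), psiPt E (k • P) ^ 4 :=
  Uval.eq_def E P p

variable [DecidableEq F]

/-- `ψ₂(P) = 0` iff `2 • P = 0`. -/
theorem psiPt_eq_zero_iff (E : Affine F) (P : E.Point) : psiPt E P = 0 ↔ 2 • P = 0 := by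
  rcases P with _ | ⟨x, y, h⟩
  · constructor
    · intro _
      exact smul_zero 2
    · intro _
      rfl
  · rw [psiPt_some, two_nsmul]
    constructor
    · intro h0
      apply Point.add_self_of_Y_eq
      simp only [Affine.negY]
      linear_combination h0
    · intro h0
      by_contra hne
      have hy : y ≠ E.negY x y := by
        intro hy
        apply hne
        simp only [Affine.negY] at hy
        linear_combination hy
      rw [Point.add_self_of_Y_ne hy] at h0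
      exact Point.some_ne_zero _ h0

/-- For a point of odd prime order `p`, `ψ₂(k • P) ≠ 0` for every `k` prime to `p`. -/
theorem psiPt_nsmul_ne_zero (E : Affine F) {P : E.Point} {p : ℕ} (hp : p.Prime) (hp2 : p ≠ 2)
    (hP : addOrderOf P = p) {k : ℕ} (hk : ¬ p ∣ k) : psiPt E (k • P) ≠ 0 := by
  rw [Ne, psiPt_eq_zero_iff, ← mul_nsmul', ← addOrderOf_dvd_iff_nsmul_eq_zero, hP,
    hp.dvd_mul]
  rintro (h | h)
  · exact hp2 ((Nat.prime_dvd_prime_iff_eq hp Nat.prime_two).mp h)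
  · exact hk h

/-- For a point of odd prime order `p`, the denominator of `U` does not vanish. -/
theorem prod_psiPt_ne_zero (E : Affine F) {P : E.Point} {p : ℕ} (hp : p.Prime) (hp2 : p ≠ 2)
    (hP : addOrderOf P = p) : ∏ k ∈ Finset.Icc 1 (p - 1), psiPt E (k • P) ^ 4 ≠ 0 := by
  rw [Finset.prod_ne_zero_iff]
  intro k hk
  rw [Finset.mem_Icc] at hk
  apply pow_ne_zero
  apply psiPt_nsmul_ne_zero E hp hp2 hP
  intro hdvd
  have := Nat.le_of_dvd (by omega) hdvd
  have := hp.pos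
  omega

theorem Uval_ne_zero (E : Affine F) (hΔ : E.Δ ≠ 0) {P : E.Point} {p : ℕ} (hp : p.Prime)
    (hp2 : p ≠ 2) (hP : addOrderOf P = p) : Uval E P p ≠ 0 :=
  div_ne_zero (pow_ne_zero _ hΔ) (prod_psiPt_ne_zero E hp hp2 hP)

/-- The defining relation of `U`, division free. -/
theorem Uval_mul_prod (E : Affine F) {P : E.Point} {p : ℕ} (hp : p.Prime) (hp2 : p ≠ 2)
    (hP : addOrderOf P = p) :
    Uval E P p * ∏ k ∈ Finset.Icc 1 (p - 1), psiPt E (k • P) ^ 4 = E.Δ ^ (p - 1) :=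
  div_mul_cancel₀ _ (prod_psiPt_ne_zero E hp hp2 hP)

end Generic

/-! ### Compatibility with maps of points -/

section Map

variable {R S F K : Type*} [CommRing R] [CommRing S] [Field F] [Field K] {W' : Affine R}
  [Algebra R S] [Algebra R F] [Algebra S F] [IsScalarTower R S F] [Algebra R K] [Algebra S K]
  [IsScalarTower R S K]

theorem baseChange_a₁_map (f : F →ₐ[S] K) : (W'⁄K).a₁ = f (W'⁄F).a₁ := by
  rw [← Affine.map_baseChange W' f]
  rfl

theorem baseChange_a₃_map (f : F →ₐ[S] K) : (W'⁄K).a₃ = f (W'⁄F).a₃ := by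
  rw [← Affine.map_baseChange W' f]
  rfl

theorem baseChange_Δ_map (f : F →ₐ[S] K) : (W'⁄K).Δ = f (W'⁄F).Δ := by
  rw [← Affine.map_baseChange W' f]
  exact WeierstrassCurve.map_Δ _ _

theorem baseChange_c₄_map (f : F →ₐ[S] K) : (W'⁄K).c₄ = f (W'⁄F).c₄ := by
  rw [← Affine.map_baseChange W' f]
  exact WeierstrassCurve.map_c₄ _ _

variable [DecidableEq F] [DecidableEq K]

theorem psiPt_map (f : F →ₐ[S] K) (P : (W'⁄F).Point) :
    psiPt (W'⁄K) (Point.map f P) = f (psiPt (W'⁄F) P) := by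
  rcases P with _ | ⟨x, y, h⟩
  · exact (map_zero f).symm
  · rw [Point.map_some, psiPt_some, psiPt_some, baseChange_a₁_map f, baseChange_a₃_map f]
    simp only [map_add, map_mul, map_ofNat]

theorem Uval_map (f : F →ₐ[S] K) (P : (W'⁄F).Point) (p : ℕ) :
    Uval (W'⁄K) (Point.map f P) p = f (Uval (W'⁄F) P p) := by
  unfold Uval
  rw [map_div₀, map_pow, map_prod, baseChange_Δ_map f]
  congr 1
  apply Finset.prod_congr rfl
  intro k _
  rw [map_pow, ← psiPt_map, map_nsmul]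

theorem addOrderOf_map (f : F →ₐ[S] K) (P : (W'⁄F).Point) :
    addOrderOf (Point.map f P) = addOrderOf P :=
  addOrderOf_injective (Point.map f) (Point.map_injective f) P

end Map

/-! ### Galois descent over `ℚ` -/

section Descent

/-- The `ℚ`-algebra structure used by the frozen definitions on `AlgebraicClosure ℚ` is the
one of the algebraic closure. -/
theorem ratAlgebra_eq_closure :
    (DivisionRing.toRatAlgebra : Algebra ℚ (AlgebraicClosure ℚ)) =
      AlgebraicClosure.instAlgebra ℚ :=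
  Subsingleton.elim _ _

theorem isGalois_rat_closure : IsGalois ℚ (AlgebraicClosure ℚ) := by
  have h : IsAlgClosure ℚ (AlgebraicClosure ℚ) := by
    rw [ratAlgebra_eq_closure]
    infer_instance
  infer_instance

/-- An element of `AlgebraicClosure ℚ` fixed by every `ℚ`-automorphism is rational. -/
theorem fixed_mem_range_rat (x : AlgebraicClosure ℚ)
    (h : ∀ σ : AlgebraicClosure ℚ ≃ₐ[ℚ] AlgebraicClosure ℚ, σ x = x) :
    ∃ q : ℚ, algebraMap ℚ (AlgebraicClosure ℚ) q = x :=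
  haveI := isGalois_rat_closure
  (InfiniteGalois.mem_range_algebraMap_iff_fixed (k := ℚ) (K := AlgebraicClosure ℚ) x).mpr h

/-- A point of `E(ℚ̄)` fixed by the absolute Galois group comes from `E(ℚ)`. -/
theorem exists_rational_point_of_fixed (E : WeierstrassCurve ℚ)
    (Q : (E⁄(AlgebraicClosure ℚ)).Point)
    (hQ : ∀ σ : AlgebraicClosure ℚ ≃ₐ[ℚ] AlgebraicClosure ℚ, σ • Q = Q) :
    ∃ T : (E⁄ℚ).Point, Point.map (W' := E) (Algebra.ofId ℚ (AlgebraicClosure ℚ)) T = Q := by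
  rcases Q with _ | ⟨X, Y, h⟩
  · exact ⟨0, rfl⟩
  · have hX : ∀ σ : AlgebraicClosure ℚ ≃ₐ[ℚ] AlgebraicClosure ℚ, σ X = X := fun σ =>
      (Point.some.inj (hQ σ)).1
    have hY : ∀ σ : AlgebraicClosure ℚ ≃ₐ[ℚ] AlgebraicClosure ℚ, σ Y = Y := fun σ =>
      (Point.some.inj (hQ σ)).2
    obtain ⟨q₁, rfl⟩ := fixed_mem_range_rat X hX
    obtain ⟨q₂, rfl⟩ := fixed_mem_range_rat Y hY
    have h' : (E⁄ℚ).Nonsingular q₁ q₂ :=
      (WeierstrassCurve.Affine.baseChange_nonsingular E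
        (Algebra.ofId ℚ (AlgebraicClosure ℚ)).injective q₁ q₂).mp h
    exact ⟨Point.some q₁ q₂ h', rfl⟩

/-- Affine rational points map to affine points with the cast coordinates. -/
theorem map_ofId_some (E : WeierstrassCurve ℚ) {K : Type*} [Field K] [DecidableEq K]
    [Algebra ℚ K] {x y : ℚ} (h : (E⁄ℚ).Nonsingular x y) :
    ∃ h' : (E⁄K).Nonsingular (algebraMap ℚ K x) (algebraMap ℚ K y),
      Point.map (W' := E) (Algebra.ofId ℚ K) (Point.some x y h) = Point.some _ _ h' :=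
  ⟨_, rfl⟩

end Descent

/-! ### The frozen binders of S15 -/

section Frozen

variable {p : ℕ} (W : WeierstrassCurve ℤ)
  (Q : ((W.map (Int.castRingHom ℚ))⁄(AlgebraicClosure ℚ)).Point)

/-- **(X1)** The multiples `k • Q` (`p ∤ k`) of a Galois-fixed point of order `p` are affine
points with rational coordinates. -/
theorem exists_rat_coords
    (hQfix : ∀ σ : AlgebraicClosure ℚ ≃ₐ[ℚ] AlgebraicClosure ℚ, σ • Q = Q)
    (hQord : addOrderOf Q = p) {k : ℕ} (hk : ¬ p ∣ k) :
    ∃ (x y : ℚ) (h : ((W.map (Int.castRingHom ℚ))⁄(AlgebraicClosure ℚ)).Nonsingular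
        (algebraMap ℚ (AlgebraicClosure ℚ) x) (algebraMap ℚ (AlgebraicClosure ℚ) y)),
      k • Q = Point.some _ _ h := by
  obtain ⟨T, rfl⟩ := exists_rational_point_of_fixed (W.map (Int.castRingHom ℚ)) Q hQfix
  rw [addOrderOf_map] at hQord
  have hne : k • T ≠ 0 := by
    rw [Ne, ← addOrderOf_dvd_iff_nsmul_eq_zero, hQord]
    exact hk
  rcases hT : k • T with _ | ⟨x, y, h⟩
  · exact absurd hT hne
  · obtain ⟨h', hh'⟩ := map_ofId_some (W.map (Int.castRingHom ℚ))
      (K := AlgebraicClosure ℚ) h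
    exact ⟨x, y, h', by rw [← map_nsmul, hT, hh']⟩

/-- **(X2)** `U(W, Q)` is a nonzero rational number. -/
theorem exists_rat_Uval (hp : p.Prime) (hp2 : p ≠ 2) (hΔ : W.Δ ≠ 0)
    (hQfix : ∀ σ : AlgebraicClosure ℚ ≃ₐ[ℚ] AlgebraicClosure ℚ, σ • Q = Q)
    (hQord : addOrderOf Q = p) :
    ∃ u : ℚ, u ≠ 0 ∧ algebraMap ℚ (AlgebraicClosure ℚ) u =
      Uval ((W.map (Int.castRingHom ℚ))⁄(AlgebraicClosure ℚ)) Q p := by
  obtain ⟨T, rfl⟩ := exists_rational_point_of_fixed (W.map (Int.castRingHom ℚ)) Q hQfix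
  rw [addOrderOf_map] at hQord
  refine ⟨Uval ((W.map (Int.castRingHom ℚ))⁄ℚ) T p, ?_, ?_⟩
  · apply Uval_ne_zero _ _ hp hp2 hQord
    have : ((W.map (Int.castRingHom ℚ))⁄ℚ).Δ = ((W.Δ : ℤ) : ℚ) := by
      simp [WeierstrassCurve.baseChange]
    rw [this]
    exact_mod_cast hΔ
  · rw [Uval_map]
    rfl

/-- **(X3)+(X4)** Transfer to `ℂ`: a relation `R (j, U)` that holds for every complex
Weierstrass curve with non-vanishing discriminant and every point of order `p` on it holds for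
the rational numbers `j(W) = c₄³/Δ` and `U(W, Q)`. -/
theorem xfer_top (hp : p.Prime) (hp2 : p ≠ 2) (hΔ : W.Δ ≠ 0)
    (hQfix : ∀ σ : AlgebraicClosure ℚ ≃ₐ[ℚ] AlgebraicClosure ℚ, σ • Q = Q)
    (hQord : addOrderOf Q = p)
    (R : ℂ → ℂ → Prop)
    (hR : ∀ (Wc : WeierstrassCurve ℂ), Wc.Δ ≠ 0 → ∀ P : Wc.toAffine.Point,
      addOrderOf P = p → R (Wc.c₄ ^ 3 / Wc.Δ) (Uval Wc.toAffine P p)) :
    ∃ u : ℚ, u ≠ 0 ∧
      algebraMap ℚ (AlgebraicClosure ℚ) u =
        Uval ((W.map (Int.castRingHom ℚ))⁄(AlgebraicClosure ℚ)) Q p ∧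
      R ((((W.c₄ : ℤ) : ℚ) ^ 3 / ((W.Δ : ℤ) : ℚ) : ℚ) : ℂ) (u : ℂ) := by
  obtain ⟨T, rfl⟩ := exists_rational_point_of_fixed (W.map (Int.castRingHom ℚ)) Q hQfix
  rw [addOrderOf_map] at hQord
  have hΔq : ((W.map (Int.castRingHom ℚ))⁄ℚ).Δ = ((W.Δ : ℤ) : ℚ) := by
    simp [WeierstrassCurve.baseChange]
  have hc₄q : ((W.map (Int.castRingHom ℚ))⁄ℚ).c₄ = ((W.c₄ : ℤ) : ℚ) := by
    simp [WeierstrassCurve.baseChange]
  refine ⟨Uval ((W.map (Int.castRingHom ℚ))⁄ℚ) T p, ?_, ?_, ?_⟩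
  · apply Uval_ne_zero _ _ hp hp2 hQord
    rw [hΔq]
    exact_mod_cast hΔ
  · rw [Uval_map]
    rfl
  · have hΔc : ((W.map (Int.castRingHom ℚ))⁄ℂ).Δ = (((W.Δ : ℤ) : ℚ) : ℂ) := by
      rw [baseChange_Δ_map (W' := W.map (Int.castRingHom ℚ)) (Algebra.ofId ℚ ℂ), hΔq]
      rfl
    have hc₄c : ((W.map (Int.castRingHom ℚ))⁄ℂ).c₄ = (((W.c₄ : ℤ) : ℚ) : ℂ) := by
      rw [baseChange_c₄_map (W' := W.map (Int.castRingHom ℚ)) (Algebra.ofId ℚ ℂ), hc₄q]
      rfl
    have key := hR ((W.map (Int.castRingHom ℚ))⁄ℂ)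
      (by rw [hΔc]; exact_mod_cast hΔ)
      (Point.map (W' := W.map (Int.castRingHom ℚ)) (Algebra.ofId ℚ ℂ) T)
      (by rw [addOrderOf_map]; exact hQord)
    rw [Uval_map, hΔc, hc₄c] at key
    have e1 : ((((W.c₄ : ℤ) : ℚ) ^ 3 / ((W.Δ : ℤ) : ℚ) : ℚ) : ℂ) =
        (((W.c₄ : ℤ) : ℚ) : ℂ) ^ 3 / (((W.Δ : ℤ) : ℚ) : ℂ) := by
      push_cast
      rfl
    rw [e1]
    exact key

end Frozen

end Fermat.Agent.S15.helper1449
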