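/-
S15 moduli bridge: (MOD-XFER) composed with (UNIT-PT).

From helper5538's `Stmt_UnitPoint` (the analytic moduli point of a complex Weierstrass curve with
a point of odd prime order) and the frozen-vocabulary front end `helper1449_Xfer`, the moduli
point of the frozen pair `(W, Q)` of S15: a nonzero RATIONAL number `u = U(W, Q)` and `τ ∈ ℍ`
with `E₄(τ)³ Δ(W) = c₄(W)³ Δ(τ)` and `p¹² Δ(pτ) = u Δ(τ)`.
-/
import Fermat.Agent.S15.helper1449_Xfer
import Fermat.Agent.S15.helper5538_UnitPoint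

set_option autoImplicit false

open WeierstrassCurve WeierstrassCurve.Affine

namespace Fermat.Agent.S15.helper1449

open UpperHalfPlane ModularForm

/-- helper5538's `psi2` is `psiPt`. -/
theorem psi2_eq_psiPt {F : Type*} [Field F] (E : WeierstrassCurve F) (P : E.toAffine.Point) :
    Fermat.Agent.S15.helper5538.psi2 E P = psiPt E.toAffine P := by
  rcases P with _ | ⟨x, y, h⟩ <;> rfl

theorem Ico_one_eq_Icc {p : ℕ} (hp : 0 < p) : Finset.Ico 1 p = Finset.Icc 1 (p - 1) := by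
  ext k
  simp only [Finset.mem_Ico, Finset.mem_Icc]
  omega

/-- **The moduli point of the frozen pair `(W, Q)`**, from `Stmt_UnitPoint`. -/
theorem exists_tau_of_unitPoint (hUP : Fermat.Agent.S15.helper5538.Stmt_UnitPoint)
    {p : ℕ} (hp : p.Prime) (hp2 : p ≠ 2) (W : WeierstrassCurve ℤ) (hΔ : W.Δ ≠ 0)
    (Q : ((W.map (Int.castRingHom ℚ))⁄(AlgebraicClosure ℚ)).Point)
    (hQfix : ∀ σ : AlgebraicClosure ℚ ≃ₐ[ℚ] AlgebraicClosure ℚ, σ • Q = Q)
    (hQord : addOrderOf Q = p) :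
    ∃ u : ℚ, u ≠ 0 ∧
      algebraMap ℚ (AlgebraicClosure ℚ) u =
        Uval ((W.map (Int.castRingHom ℚ))⁄(AlgebraicClosure ℚ)) Q p ∧
      ∃ τ : ℍ, E₄ τ ^ 3 * ((W.Δ : ℤ) : ℂ) = ((W.c₄ : ℤ) : ℂ) ^ 3 * ModularForm.discriminant τ ∧
        (p : ℂ) ^ 12 * ModularForm.discriminant (ofComplex ((p : ℂ) * τ)) =
          (u : ℂ) * ModularForm.discriminant τ := by
  obtain ⟨u, hu0, hu, hR⟩ := xfer_top W Q hp hp2 hΔ hQfix hQord
    (fun j0 U0 => ∃ τ : ℍ, E₄ τ ^ 3 = j0 * ModularForm.discriminant τ ∧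
      (p : ℂ) ^ 12 * ModularForm.discriminant (ofComplex ((p : ℂ) * τ)) =
        U0 * ModularForm.discriminant τ)
    (by
      intro Wc hΔc P hP
      obtain ⟨τ, h1, h2⟩ := hUP Wc hΔc p hp hp2 P hP
      refine ⟨τ, ?_, ?_⟩
      · rw [div_mul_eq_mul_div, eq_div_iff hΔc]
        exact h1
      · have hprod := Uval_mul_prod Wc.toAffine hp hp2 hP
        have hne := prod_psiPt_ne_zero Wc.toAffine hp hp2 hP
        rw [Ico_one_eq_Icc hp.pos] at h2
        simp only [psi2_eq_psiPt] at h2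
        rw [← hprod] at h2
        have h3 : ((p : ℂ) ^ 12 * ModularForm.discriminant (ofComplex ((p : ℂ) * τ)) -
            Uval Wc.toAffine P p * ModularForm.discriminant τ) *
            ∏ k ∈ Finset.Icc 1 (p - 1), psiPt Wc.toAffine (k • P) ^ 4 = 0 := by
          linear_combination h2
        rcases mul_eq_zero.mp h3 with h4 | h4
        · linear_combination h4
        · exact absurd h4 hne)
  refine ⟨u, hu0, hu, ?_⟩
  obtain ⟨τ, h1, h2⟩ := hR
  refine ⟨τ, ?_, h2⟩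
  have hΔc : (((W.Δ : ℤ) : ℚ) : ℂ) ≠ 0 := by exact_mod_cast hΔ
  have e1 : ((((W.c₄ : ℤ) : ℚ) ^ 3 / ((W.Δ : ℤ) : ℚ) : ℚ) : ℂ) =
      (((W.c₄ : ℤ) : ℚ) : ℂ) ^ 3 / (((W.Δ : ℤ) : ℚ) : ℂ) := by
    push_cast
    rfl
  rw [e1] at h1
  have e2 : (((W.Δ : ℤ) : ℚ) : ℂ) = ((W.Δ : ℤ) : ℂ) := by push_cast; rfl
  have e3 : (((W.c₄ : ℤ) : ℚ) : ℂ) = ((W.c₄ : ℤ) : ℂ) := by push_cast; rfl
  rw [e2, e3] at h1
  rw [e2] at hΔc
  rw [h1]
  field_simp

end Fermat.Agent.S15.helper1449
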