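import Mathlib
import Fermat.Agent.S58.helper6859_WPTransport
import Fermat.Agent.S58.helper4170_WPAnalytic
import Fermat.Agent.S58.helper701_SubLattice
import Fermat.Agent.S58.helper9384_Uniformization

/-!
# The addition theorem for the Weierstrass `℘`-function (helper6352)

For a Mathlib `PeriodPair` `L`:

* `wp_add`, `derivWP_add` : the chord formulas for `℘ (z + w)` and `℘' (z + w)`.
* `curve L` : the Weierstrass curve `y² = x³ - (g₂ / 4) x - g₃ / 4`.
* `pt L : ℂ → (curve L).toAffine.Point`, `z ↦ (℘ z, ℘' z / 2)` (and `0` on the lattice).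
* `pt_add` : `pt L (z + w) = pt L z + pt L w`; `ptHom L` the bundled homomorphism.
* `pt_eq_zero_iff`, `pt_eq_pt_iff`, `pt_surjective`.

The proof of the addition theorem does not count zeros and poles: along the antidiagonal
`u ↦ (u, s - u)` the chord `x`-coordinate has derivative zero (a two-line identity on the cubic),
so it is constant on the complement of a countable closed set, and its limit at `u = 0` is `℘ s`.
-/

set_option autoImplicit false

namespace Fermat.Agent.S15.helper6352

open scoped Topology PeriodPair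
open Filter PeriodPair

/-! ## Injectivity of `(℘, ℘')` modulo the lattice -/

/-- Off the lattice, the pair `(℘, ℘')` determines the point modulo the lattice. -/
theorem sub_mem_lattice_of_wp_eq (L : PeriodPair) {a b : ℂ}
    (ha : a ∉ L.lattice) (hb : b ∉ L.lattice)
    (h0 : ℘[L] a = ℘[L] b) (h1 : ℘'[L] a = ℘'[L] b) : a - b ∈ L.lattice := by
  have hder : ∀ n, iteratedDeriv n ℘[L] a = iteratedDeriv n ℘[L] b := fun n => by
    simpa using Fermat.Agent.S58.helper6859.map_iteratedDeriv_WP (RingHom.id ℂ) L L rfl b a hb ha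
      (by simpa using h0) (by simpa using h1) n
  have hfa : AnalyticAt ℂ (fun u => ℘[L] (u + a)) 0 :=
    Fermat.Agent.S58.helper701.analyticAt_weierstrassP_add L (by simpa using ha)
  have hfb : AnalyticAt ℂ (fun u => ℘[L] (u + b)) 0 :=
    Fermat.Agent.S58.helper701.analyticAt_weierstrassP_add L (by simpa using hb)
  have hev : (fun u => ℘[L] (u + a)) =ᶠ[𝓝 0] (fun u => ℘[L] (u + b)) := by
    refine Fermat.Agent.S58.helper4170.eventuallyEq_of_iteratedDeriv_eq hfa hfb (fun n => ?_)
    rw [iteratedDeriv_comp_add_const, iteratedDeriv_comp_add_const]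
    simpa using hder n
  obtain ⟨U, hUsub, hUo, h0U⟩ := eventually_nhds_iff.mp hev
  refine Fermat.Agent.S58.helper701.mem_lattice_of_eqOn L (a - b) ((fun v : ℂ => v - b) ⁻¹' U)
    (hUo.preimage (by fun_prop)) ⟨b, by simpa using h0U⟩ (fun v hv => ?_)
  have h := hUsub (v - b) hv
  have e1 : v - b + a = v + (a - b) := by ring
  have e2 : v - b + b = v := by ring
  simpa only [e1, e2] using h

/-- `℘` is invariant under translation by a lattice element (unbundled form). -/
theorem wp_add_of_mem (L : PeriodPair) (z : ℂ) {l : ℂ} (hl : l ∈ L.lattice) :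
    ℘[L] (z + l) = ℘[L] z := L.weierstrassP_add_coe z ⟨l, hl⟩

/-- `℘'` is invariant under translation by a lattice element (unbundled form). -/
theorem derivWP_add_of_mem (L : PeriodPair) (z : ℂ) {l : ℂ} (hl : l ∈ L.lattice) :
    ℘'[L] (z + l) = ℘'[L] z := L.derivWeierstrassP_add_coe z ⟨l, hl⟩

/-- `℘` takes the same value at `a` and `b` iff `a ≡ ± b` modulo the lattice. -/
theorem wp_eq_iff (L : PeriodPair) {a b : ℂ} (ha : a ∉ L.lattice) (hb : b ∉ L.lattice) :
    ℘[L] a = ℘[L] b ↔ a - b ∈ L.lattice ∨ a + b ∈ L.lattice := by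
  constructor
  · intro h0
    have hsq : ℘'[L] a ^ 2 = ℘'[L] b ^ 2 := by
      rw [L.derivWeierstrassP_sq a ha, L.derivWeierstrassP_sq b hb, h0]
    rcases sq_eq_sq_iff_eq_or_eq_neg.mp hsq with h1 | h1
    · exact Or.inl (sub_mem_lattice_of_wp_eq L ha hb h0 h1)
    · right
      have hnb : -b ∉ L.lattice := fun h => hb (by simpa using L.lattice.neg_mem h)
      have := sub_mem_lattice_of_wp_eq L ha hnb
        (by rw [L.weierstrassP_neg]; exact h0) (by rw [L.derivWeierstrassP_neg]; exact h1)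
      simpa [sub_neg_eq_add] using this
  · rintro (h | h)
    · have := wp_add_of_mem L b h
      rw [← this]; congr 1; ring
    · have := wp_add_of_mem L (-b) h
      rw [L.weierstrassP_neg] at this
      rw [← this]; congr 1; ring

/-- The zeros of `℘'` off the lattice are exactly the `2`-division points. -/
theorem derivWP_eq_zero_iff (L : PeriodPair) {a : ℂ} (ha : a ∉ L.lattice) :
    ℘'[L] a = 0 ↔ a + a ∈ L.lattice := by
  have hna : -a ∉ L.lattice := fun h => ha (by simpa using L.lattice.neg_mem h)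
  constructor
  · intro h
    have := sub_mem_lattice_of_wp_eq L ha hna
      (by rw [L.weierstrassP_neg]) (by rw [L.derivWeierstrassP_neg, h, neg_zero])
    simpa [sub_neg_eq_add] using this
  · intro h
    have h1 := derivWP_add_of_mem L (-a) h
    rw [L.derivWeierstrassP_neg] at h1
    have e : -a + (a + a) = a := by ring
    rw [e] at h1
    have h2 : (2 : ℂ) * ℘'[L] a = 0 := by linear_combination h1
    simpa using h2

/-! ## Derivatives -/

theorem hasDerivAt_wp (L : PeriodPair) {z : ℂ} (hz : z ∉ L.lattice) :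
    HasDerivAt ℘[L] (℘'[L] z) z := by
  have := (L.analyticOnNhd_weierstrassP z hz).differentiableAt.hasDerivAt
  rwa [L.deriv_weierstrassP] at this

theorem hasDerivAt_derivWP (L : PeriodPair) {z : ℂ} (hz : z ∉ L.lattice) :
    HasDerivAt ℘'[L] (6 * ℘[L] z ^ 2 - L.g₂ / 2) z := by
  have := (L.analyticOnNhd_derivWeierstrassP z hz).differentiableAt.hasDerivAt
  rwa [Fermat.Agent.S58.helper6859.deriv_derivWP L z hz] at this

/-- The slope of the chord through `(℘ u, ℘' u / 2)` and `(℘ v, ℘' v / 2)`. -/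
noncomputable def chordSlope (L : PeriodPair) (u v : ℂ) : ℂ :=
  (℘'[L] u - ℘'[L] v) / (2 * (℘[L] u - ℘[L] v))

/-- The `x`-coordinate of the third intersection point of the chord. -/
noncomputable def chordX (L : PeriodPair) (u v : ℂ) : ℂ :=
  chordSlope L u v ^ 2 - ℘[L] u - ℘[L] v

/-- Along the antidiagonal the chord `x`-coordinate has derivative zero. -/
theorem hasDerivAt_chordX_antidiag (L : PeriodPair) (s : ℂ) {u : ℂ} (hu : u ∉ L.lattice)
    (hsu : s - u ∉ L.lattice) (hne : ℘[L] u ≠ ℘[L] (s - u)) :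
    HasDerivAt (fun u => chordX L u (s - u)) 0 u := by
  have h1 := hasDerivAt_wp L hu
  have h2 := hasDerivAt_derivWP L hu
  have h3 := (hasDerivAt_wp L hsu).comp_const_sub s u
  have h4 := (hasDerivAt_derivWP L hsu).comp_const_sub s u
  have e1 := L.derivWeierstrassP_sq u hu
  have e2 := L.derivWeierstrassP_sq (s - u) hsu
  have hd : ℘[L] u - ℘[L] (s - u) ≠ 0 := sub_ne_zero.mpr hne
  have hd2 : 2 * (℘[L] u - ℘[L] (s - u)) ≠ 0 := mul_ne_zero two_ne_zero hd
  have hΛ : HasDerivAt (fun u => (℘'[L] u - ℘'[L] (s - u)) / (2 * (℘[L] u - ℘[L] (s - u))))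
      (℘[L] u - ℘[L] (s - u)) u := by
    refine ((h2.fun_sub h4).fun_div ((h1.fun_sub h3).const_mul 2) hd2).congr_deriv ?_
    rw [div_eq_iff (pow_ne_zero 2 hd2)]
    linear_combination (-2 : ℂ) * e1 + 2 * e2
  have := ((hΛ.fun_pow 2).fun_sub h1).fun_sub h3
  refine this.congr_deriv ?_
  simp only [Nat.cast_ofNat, Nat.add_one_sub_one, pow_one]
  field_simp
  ring

/-! ## The limit at `u = 0` -/

/-- The algebra behind the limit of the chord `x`-coordinate at a pole. -/
theorem chord_alg (u h k a b : ℂ) (hu : u ≠ 0) (hD : 1 + u ^ 2 * (h - a) ≠ 0) :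
    ((k - 2 / u ^ 3 - b) / (2 * (h + 1 / u ^ 2 - a))) ^ 2 - (h + 1 / u ^ 2) - a =
      (-(u * (k - b)) - 3 * h - u ^ 2 * ((h - a) ^ 2 + 2 * (h - a) * (h + 2 * a))
        + u ^ 4 * ((k - b) ^ 2 / 4 - (h - a) ^ 2 * (h + 2 * a))) / (1 + u ^ 2 * (h - a)) ^ 2
        + a := by
  have e1 : h + 1 / u ^ 2 - a = (1 + u ^ 2 * (h - a)) / u ^ 2 := by field_simp; ring
  have e2 : k - 2 / u ^ 3 - b = (u ^ 3 * (k - b) - 2) / u ^ 3 := by field_simp; ring
  rw [e1, e2]
  field_simp
  ring

/-- `℘ u = ℘[L - 0] u + 1 / u ^ 2`. -/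
theorem wp_eq_except_add (L : PeriodPair) (u : ℂ) :
    ℘[L] u = ℘[L - (0 : ℂ)] u + 1 / u ^ 2 := by
  have h := L.weierstrassPExcept_def (0 : L.lattice) u
  simp only [ZeroMemClass.coe_zero, sub_zero] at h
  rw [h]
  simp

/-- `℘' u = ℘'[L - 0] u - 2 / u ^ 3`. -/
theorem derivWP_eq_except_sub (L : PeriodPair) (u : ℂ) :
    ℘'[L] u = ℘'[L - (0 : ℂ)] u - 2 / u ^ 3 := by
  have h := L.derivWeierstrassPExcept_def (0 : L.lattice) u
  simp only [ZeroMemClass.coe_zero, sub_zero] at h
  rw [h]
  ring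

/-- As `u → 0`, the chord `x`-coordinate of `(u, s - u)` tends to `℘ s`. -/
theorem tendsto_chordX_antidiag (L : PeriodPair) {s : ℂ} (hs : s ∉ L.lattice) :
    Tendsto (fun u => chordX L u (s - u)) (𝓝[≠] 0) (𝓝 (℘[L] s)) := by
  set h : ℂ → ℂ := fun u => ℘[L - (0 : ℂ)] u with hh_def
  set k : ℂ → ℂ := fun u => ℘'[L - (0 : ℂ)] u with hk_def
  set a : ℂ → ℂ := fun u => ℘[L] (s - u) with ha_def
  set b : ℂ → ℂ := fun u => ℘'[L] (s - u) with hb_def
  have hh : ContinuousAt h 0 := (L.analyticAt_weierstrassPExcept 0).continuousAt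
  have hk : ContinuousAt k 0 := (L.analyticAt_derivWeierstrassPExcept 0).continuousAt
  have ha : ContinuousAt a 0 := by
    have h1 : ContinuousAt ℘[L] (s - 0) := by
      rw [sub_zero]; exact (L.analyticOnNhd_weierstrassP s hs).continuousAt
    exact ContinuousAt.comp (f := fun u : ℂ => s - u) h1 (by fun_prop)
  have hb : ContinuousAt b 0 := by
    have h1 : ContinuousAt ℘'[L] (s - 0) := by
      rw [sub_zero]; exact (L.analyticOnNhd_derivWeierstrassP s hs).continuousAt
    exact ContinuousAt.comp (f := fun u : ℂ => s - u) h1 (by fun_prop)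
  have h0 : h 0 = 0 := L.weierstrassPExcept_zero 0
  have a0 : a 0 = ℘[L] s := by simp [ha_def]
  set D : ℂ → ℂ := fun u => 1 + u ^ 2 * (h u - a u) with hD_def
  have hDc : ContinuousAt D 0 := by fun_prop
  have hD0 : D 0 = 1 := by simp [hD_def]
  set R : ℂ → ℂ := fun u =>
    (-(u * (k u - b u)) - 3 * h u - u ^ 2 * ((h u - a u) ^ 2 + 2 * (h u - a u) * (h u + 2 * a u))
      + u ^ 4 * ((k u - b u) ^ 2 / 4 - (h u - a u) ^ 2 * (h u + 2 * a u))) / D u ^ 2 + a u
    with hR_def
  have hRc : ContinuousAt R 0 := by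
    refine ContinuousAt.add (ContinuousAt.div (by fun_prop) (by fun_prop) ?_) ha
    rw [hD0]; norm_num
  have hR0 : R 0 = ℘[L] s := by
    simp [hR_def, h0, a0, hD0]
  have hRt : Tendsto R (𝓝[≠] 0) (𝓝 (℘[L] s)) := by
    have := hRc.tendsto
    rw [hR0] at this
    exact this.mono_left nhdsWithin_le_nhds
  refine hRt.congr' ?_
  have hDne : ∀ᶠ u in 𝓝 (0 : ℂ), D u ≠ 0 := by
    refine hDc.eventually_ne ?_
    rw [hD0]; exact one_ne_zero
  filter_upwards [self_mem_nhdsWithin, hDne.filter_mono nhdsWithin_le_nhds] with u hu hDu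
  have hu0 : u ≠ 0 := hu
  have := chord_alg u (h u) (k u) (a u) (b u) hu0 hDu
  simp only [hR_def, hD_def]
  rw [← this]
  simp only [chordX, chordSlope, wp_eq_except_add L u, derivWP_eq_except_sub L u, hh_def, hk_def,
    ha_def, hb_def]

/-! ## Constancy along the antidiagonal -/

/-- The set where the chord construction along the antidiagonal `u + v = s` degenerates. -/
def badSet (L : PeriodPair) (s : ℂ) : Set ℂ :=
  ((fun u : ℂ => u) ⁻¹' (L.lattice : Set ℂ)) ∪ ((fun u : ℂ => s - u) ⁻¹' (L.lattice : Set ℂ)) ∪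
    ((fun u : ℂ => 2 * u - s) ⁻¹' (L.lattice : Set ℂ))

theorem mem_badSet (L : PeriodPair) (s u : ℂ) :
    u ∈ badSet L s ↔ u ∈ L.lattice ∨ s - u ∈ L.lattice ∨ 2 * u - s ∈ L.lattice := by
  simp [badSet, or_assoc]

theorem isClosed_badSet (L : PeriodPair) (s : ℂ) : IsClosed (badSet L s) := by
  refine (IsClosed.union ?_ ?_).union ?_
  · exact L.isClosed_lattice.preimage (by fun_prop)
  · exact L.isClosed_lattice.preimage (by fun_prop)
  · exact L.isClosed_lattice.preimage (by fun_prop)

theorem countable_badSet (L : PeriodPair) (s : ℂ) : (badSet L s).Countable := by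
  have hc := Fermat.Agent.S58.helper701.countable_lattice L
  refine (Set.Countable.union ?_ ?_).union ?_
  · exact hc.preimage_of_injOn (fun x _ y _ hxy => hxy)
  · exact hc.preimage_of_injOn (fun x _ y _ hxy => by simpa using hxy)
  · exact hc.preimage_of_injOn (fun x _ y _ hxy => by simpa using hxy)

theorem isPreconnected_compl_badSet (L : PeriodPair) (s : ℂ) :
    IsPreconnected (badSet L s)ᶜ :=
  (Set.Countable.isConnected_compl_of_one_lt_rank (by simp) (countable_badSet L s)).isPreconnected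

/-- On the complement of the bad set the two points have distinct `x`-coordinates. -/
theorem wp_ne_of_notMem_badSet (L : PeriodPair) {s u : ℂ} (hs : s ∉ L.lattice)
    (hu : u ∉ badSet L s) : ℘[L] u ≠ ℘[L] (s - u) := by
  rw [mem_badSet] at hu
  push Not at hu
  intro h
  rcases (wp_eq_iff L hu.1 hu.2.1).mp h with h' | h'
  · exact hu.2.2 (by convert h' using 1; ring)
  · exact hs (by convert h' using 1; ring)

/-- **Key step**: the chord `x`-coordinate of `(u, s - u)` is `℘ s`. -/
theorem chordX_antidiag_eq (L : PeriodPair) {s : ℂ} (hs : s ∉ L.lattice) {u : ℂ}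
    (hu : u ∉ badSet L s) : chordX L u (s - u) = ℘[L] s := by
  have hopen : IsOpen (badSet L s)ᶜ := (isClosed_badSet L s).isOpen_compl
  have hder : ∀ v, v ∈ (badSet L s)ᶜ → HasDerivAt (fun u => chordX L u (s - u)) 0 v := by
    intro v hv
    have hv' := hv
    rw [Set.mem_compl_iff, mem_badSet] at hv'
    push Not at hv'
    exact hasDerivAt_chordX_antidiag L s hv'.1 hv'.2.1 (wp_ne_of_notMem_badSet L hs hv)
  have hconst : ∀ v, v ∈ (badSet L s)ᶜ → chordX L u (s - u) = chordX L v (s - v) := by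
    intro v hv
    exact hopen.is_const_of_deriv_eq_zero (isPreconnected_compl_badSet L s)
      (f := fun u => chordX L u (s - u))
      (fun w hw => (hder w hw).differentiableAt.differentiableWithinAt)
      (fun w hw => (hder w hw).deriv) hu hv
  -- eventually, punctured neighbourhoods of `0` avoid the bad set
  have hev : ∀ᶠ v in 𝓝[≠] (0 : ℂ), v ∈ (badSet L s)ᶜ := by
    have h1 : ∀ᶠ v in 𝓝[≠] (0 : ℂ), v ∉ L.lattice := by
      have := Fermat.Agent.S58.helper6859.eventually_add_notMem_lattice L 0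
      simpa using this
    have h2 : ∀ᶠ v in 𝓝 (0 : ℂ), s - v ∉ L.lattice := by
      have hc : ContinuousAt (fun v : ℂ => s - v) 0 := by fun_prop
      exact hc.eventually (L.isClosed_lattice.isOpen_compl.mem_nhds (by simpa using hs))
    have h3 : ∀ᶠ v in 𝓝 (0 : ℂ), 2 * v - s ∉ L.lattice := by
      have hc : ContinuousAt (fun v : ℂ => 2 * v - s) 0 := by fun_prop
      refine hc.eventually (L.isClosed_lattice.isOpen_compl.mem_nhds ?_)
      intro hm
      exact hs (by simpa using L.lattice.neg_mem hm)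
    filter_upwards [h1, h2.filter_mono nhdsWithin_le_nhds, h3.filter_mono nhdsWithin_le_nhds]
      with v hv1 hv2 hv3
    rw [Set.mem_compl_iff, mem_badSet]
    push Not
    exact ⟨hv1, hv2, hv3⟩
  have hlim := tendsto_chordX_antidiag L hs
  have hlim2 : Tendsto (fun u => chordX L u (s - u)) (𝓝[≠] 0) (𝓝 (chordX L u (s - u))) := by
    refine tendsto_const_nhds.congr' ?_
    filter_upwards [hev] with v hv
    exact hconst v hv
  exact tendsto_nhds_unique hlim2 hlim

/-! ## The addition theorem -/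

/-- If `℘ z ≠ ℘ w` then `z + w` is not a lattice point. -/
theorem add_notMem_lattice (L : PeriodPair) {z w : ℂ} (hne : ℘[L] z ≠ ℘[L] w) :
    z + w ∉ L.lattice := by
  intro h
  apply hne
  have := wp_add_of_mem L (-w) h
  rw [L.weierstrassP_neg] at this
  rw [← this]; congr 1; ring

/-- If `℘ z ≠ ℘ w` then `z - w` is not a lattice point. -/
theorem sub_notMem_lattice (L : PeriodPair) {z w : ℂ} (hne : ℘[L] z ≠ ℘[L] w) :
    z - w ∉ L.lattice := by
  intro h
  apply hne
  have := wp_add_of_mem L w h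
  rw [← this]; congr 1; ring

/-- **Addition theorem** for `℘`:
`℘ (z + w) = ((℘' z - ℘' w) / (2 (℘ z - ℘ w)))² - ℘ z - ℘ w`. -/
theorem wp_add (L : PeriodPair) {z w : ℂ} (hz : z ∉ L.lattice) (hw : w ∉ L.lattice)
    (hne : ℘[L] z ≠ ℘[L] w) : ℘[L] (z + w) = chordX L z w := by
  have hs := add_notMem_lattice L hne
  have hzb : z ∉ badSet L (z + w) := by
    rw [mem_badSet]
    push Not
    refine ⟨hz, by simpa using hw, ?_⟩
    have e : 2 * z - (z + w) = z - w := by ring
    rw [e]
    exact sub_notMem_lattice L hne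
  have := chordX_antidiag_eq L hs hzb
  rw [← this]
  congr 1; ring

/-- The derivative in the first variable of the chord slope. -/
theorem hasDerivAt_chordSlope (L : PeriodPair) {z w : ℂ} (hz : z ∉ L.lattice)
    (hw : w ∉ L.lattice) (hne : ℘[L] z ≠ ℘[L] w) :
    HasDerivAt (fun z => chordSlope L z w) (2 * ℘[L] z + ℘[L] w - chordSlope L z w ^ 2) z := by
  have h1 := hasDerivAt_wp L hz
  have h2 := hasDerivAt_derivWP L hz
  have e1 := L.derivWeierstrassP_sq z hz
  have e2 := L.derivWeierstrassP_sq w hw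
  have hd : ℘[L] z - ℘[L] w ≠ 0 := sub_ne_zero.mpr hne
  have hd2 : 2 * (℘[L] z - ℘[L] w) ≠ 0 := mul_ne_zero two_ne_zero hd
  have := (h2.sub_const (℘'[L] w)).fun_div ((h1.sub_const (℘[L] w)).const_mul 2) hd2
  refine this.congr_deriv ?_
  rw [chordSlope, div_pow, eq_sub_iff_add_eq, ← add_div, div_eq_iff (pow_ne_zero 2 hd2)]
  linear_combination (-1 : ℂ) * e1 + e2

/-- **Addition theorem** for `℘'`:
`℘' (z + w) = 2 λ (℘ z - ℘ (z + w)) - ℘' z` with `λ` the chord slope. -/
theorem derivWP_add (L : PeriodPair) {z w : ℂ} (hz : z ∉ L.lattice) (hw : w ∉ L.lattice)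
    (hne : ℘[L] z ≠ ℘[L] w) :
    ℘'[L] (z + w) = 2 * chordSlope L z w * (℘[L] z - ℘[L] (z + w)) - ℘'[L] z := by
  have hs := add_notMem_lattice L hne
  have hΛ := hasDerivAt_chordSlope L hz hw hne
  have h1 := hasDerivAt_wp L hz
  have hR : HasDerivAt (fun z => chordX L z w)
      (2 * chordSlope L z w * (2 * ℘[L] z + ℘[L] w - chordSlope L z w ^ 2) - ℘'[L] z) z := by
    have := ((hΛ.fun_pow 2).fun_sub h1).sub_const (℘[L] w)
    refine this.congr_deriv ?_
    simp only [Nat.cast_ofNat, Nat.add_one_sub_one, pow_one]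
  have hLd : HasDerivAt (fun z => ℘[L] (z + w)) (℘'[L] (z + w)) z :=
    (hasDerivAt_wp L hs).comp_add_const z w
  have hev : (fun z => ℘[L] (z + w)) =ᶠ[𝓝 z] (fun z => chordX L z w) := by
    have hc : ContinuousAt ℘[L] z := (L.analyticOnNhd_weierstrassP z hz).continuousAt
    filter_upwards [L.isClosed_lattice.isOpen_compl.mem_nhds hz, hc.eventually_ne hne]
      with v hv hv'
    exact wp_add L hv hw hv'
  have := hLd.unique (hev.hasDerivAt_iff.mpr hR)
  rw [this, wp_add L hz hw hne, chordX]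
  ring

/-! ## The curve and the parametrisation -/

open WeierstrassCurve

/-- The Weierstrass curve `y² = x³ - (g₂ / 4) x - g₃ / 4` attached to a lattice. -/
noncomputable def curve (L : PeriodPair) : WeierstrassCurve ℂ :=
  ⟨0, 0, 0, -(L.g₂ / 4), -(L.g₃ / 4)⟩

@[simp] theorem curve_a₁ (L : PeriodPair) : (curve L).a₁ = 0 := rfl
@[simp] theorem curve_a₂ (L : PeriodPair) : (curve L).a₂ = 0 := rfl
@[simp] theorem curve_a₃ (L : PeriodPair) : (curve L).a₃ = 0 := rfl
@[simp] theorem curve_a₄ (L : PeriodPair) : (curve L).a₄ = -(L.g₂ / 4) := rfl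
@[simp] theorem curve_a₆ (L : PeriodPair) : (curve L).a₆ = -(L.g₃ / 4) := rfl

theorem curve_Δ (L : PeriodPair) : (curve L).Δ = L.g₂ ^ 3 - 27 * L.g₃ ^ 2 := by
  simp only [WeierstrassCurve.Δ, WeierstrassCurve.b₂, WeierstrassCurve.b₄, WeierstrassCurve.b₆,
    WeierstrassCurve.b₈, curve_a₁, curve_a₂, curve_a₃, curve_a₄, curve_a₆]
  ring

theorem curve_Δ_ne_zero (L : PeriodPair) : (curve L).Δ ≠ 0 := by
  rw [curve_Δ]
  exact Fermat.Agent.S58.helper9384.disc_ne_zero L

theorem curve_c₄ (L : PeriodPair) : (curve L).c₄ = 12 * L.g₂ := by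
  simp only [WeierstrassCurve.c₄, WeierstrassCurve.b₂, WeierstrassCurve.b₄, curve_a₁, curve_a₂,
    curve_a₃, curve_a₄]
  ring

theorem curve_c₆ (L : PeriodPair) : (curve L).c₆ = 216 * L.g₃ := by
  simp only [WeierstrassCurve.c₆, WeierstrassCurve.b₂, WeierstrassCurve.b₄, WeierstrassCurve.b₆,
    curve_a₁, curve_a₂, curve_a₃, curve_a₄, curve_a₆]
  ring

theorem curve_equation_iff (L : PeriodPair) (x y : ℂ) :
    (curve L).toAffine.Equation x y ↔ (2 * y) ^ 2 = 4 * x ^ 3 - L.g₂ * x - L.g₃ := by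
  rw [Affine.equation_iff]
  simp only [curve_a₁, curve_a₂, curve_a₃, curve_a₄, curve_a₆]
  constructor
  · intro h
    linear_combination 4 * h
  · intro h
    linear_combination (1 / 4 : ℂ) * h

theorem curve_nonsingular_iff (L : PeriodPair) (x y : ℂ) :
    (curve L).toAffine.Nonsingular x y ↔ (2 * y) ^ 2 = 4 * x ^ 3 - L.g₂ * x - L.g₃ :=
  ((curve L).toAffine.equation_iff_nonsingular_of_Δ_ne_zero (curve_Δ_ne_zero L)).symm.trans
    (curve_equation_iff L x y)

theorem nonsingular_wp (L : PeriodPair) {z : ℂ} (hz : z ∉ L.lattice) :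
    (curve L).toAffine.Nonsingular (℘[L] z) (℘'[L] z / 2) := by
  rw [curve_nonsingular_iff, ← L.derivWeierstrassP_sq z hz]
  ring

open Classical in
/-- The Weierstrass parametrisation `z ↦ (℘ z, ℘' z / 2)` of `curve L`, sending the lattice to
the point at infinity. -/
noncomputable def pt (L : PeriodPair) (z : ℂ) : (curve L).toAffine.Point :=
  if hz : z ∈ L.lattice then 0 else Affine.Point.some _ _ (nonsingular_wp L hz)

theorem pt_of_mem (L : PeriodPair) {z : ℂ} (hz : z ∈ L.lattice) : pt L z = 0 := by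
  simp [pt, hz]

theorem pt_of_notMem (L : PeriodPair) {z : ℂ} (hz : z ∉ L.lattice) :
    pt L z = Affine.Point.some _ _ (nonsingular_wp L hz) := by
  simp [pt, hz]

theorem pt_eq_zero_iff (L : PeriodPair) {z : ℂ} : pt L z = 0 ↔ z ∈ L.lattice := by
  constructor
  · intro h
    by_contra hz
    rw [pt_of_notMem L hz] at h
    exact Affine.Point.some_ne_zero _ h
  · exact pt_of_mem L

@[simp] theorem pt_zero (L : PeriodPair) : pt L 0 = 0 := pt_of_mem L (zero_mem _)

/-- Congruence for `Point.some`. -/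
theorem some_eq_some {W : WeierstrassCurve ℂ} {x y x' y' : ℂ} (h : W.toAffine.Nonsingular x y)
    (h' : W.toAffine.Nonsingular x' y') (hx : x = x') (hy : y = y') :
    Affine.Point.some x y h = Affine.Point.some x' y' h' := by
  subst hx hy; rfl

/-- `pt` is periodic. -/
theorem pt_add_of_mem (L : PeriodPair) (z : ℂ) {l : ℂ} (hl : l ∈ L.lattice) :
    pt L (z + l) = pt L z := by
  by_cases hz : z ∈ L.lattice
  · rw [pt_of_mem L hz, pt_of_mem L (add_mem hz hl)]
  · have hzl : z + l ∉ L.lattice := fun h => hz (by simpa using sub_mem h hl)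
    rw [pt_of_notMem L hz, pt_of_notMem L hzl]
    exact some_eq_some _ _ (wp_add_of_mem L z hl) (by rw [derivWP_add_of_mem L z hl])

/-- `pt` depends only on the class modulo the lattice. -/
theorem pt_congr (L : PeriodPair) {z w : ℂ} (h : z - w ∈ L.lattice) : pt L z = pt L w := by
  have := pt_add_of_mem L w h
  rw [← this]; congr 1; ring

theorem pt_neg (L : PeriodPair) (z : ℂ) : pt L (-z) = -pt L z := by
  by_cases hz : z ∈ L.lattice
  · rw [pt_of_mem L hz, pt_of_mem L (neg_mem hz), neg_zero]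
  · have hnz : -z ∉ L.lattice := fun h => hz (by simpa using neg_mem h)
    rw [pt_of_notMem L hz, pt_of_notMem L hnz, Affine.Point.neg_some]
    refine some_eq_some _ _ (L.weierstrassP_neg z) ?_
    rw [L.derivWeierstrassP_neg]
    simp only [Affine.negY, curve_a₁, curve_a₃]
    ring

/-- The generic case of the addition theorem, in the group of points. -/
theorem pt_add_of_ne (L : PeriodPair) {z w : ℂ} (hz : z ∉ L.lattice) (hw : w ∉ L.lattice)
    (hne : ℘[L] z ≠ ℘[L] w) : pt L (z + w) = pt L z + pt L w := by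
  have hs := add_notMem_lattice L hne
  rw [pt_of_notMem L hz, pt_of_notMem L hw, pt_of_notMem L hs, Affine.Point.add_of_X_ne hne]
  have hsl : (curve L).toAffine.slope (℘[L] z) (℘[L] w) (℘'[L] z / 2) (℘'[L] w / 2)
      = chordSlope L z w := by
    have hd : ℘[L] z - ℘[L] w ≠ 0 := sub_ne_zero.mpr hne
    rw [Affine.slope_of_X_ne hne, chordSlope]
    field_simp
  have hX : (curve L).toAffine.addX (℘[L] z) (℘[L] w) (chordSlope L z w) = ℘[L] (z + w) := by
    rw [wp_add L hz hw hne, chordX]
    simp only [Affine.addX, curve_a₁, curve_a₂]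
    ring
  refine some_eq_some _ _ ?_ ?_
  · rw [hsl, hX]
  · rw [hsl, Affine.addY, hX, derivWP_add L hz hw hne]
    simp only [Affine.negY, Affine.negAddY, hX, curve_a₁, curve_a₃]
    ring

/-- There is a point avoiding the finitely many lattice conditions used in the doubling case. -/
theorem exists_aux_point (L : PeriodPair) (w : ℂ) :
    ∃ u : ℂ, u ∉ L.lattice ∧ 2 * u ∉ L.lattice ∧ w + u ∉ L.lattice ∧ w - u ∉ L.lattice := by
  have hc := Fermat.Agent.S58.helper701.countable_lattice L
  have hB : (((fun u : ℂ => u) ⁻¹' (L.lattice : Set ℂ)) ∪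
      ((fun u : ℂ => 2 * u) ⁻¹' (L.lattice : Set ℂ)) ∪
      ((fun u : ℂ => w + u) ⁻¹' (L.lattice : Set ℂ)) ∪
      ((fun u : ℂ => w - u) ⁻¹' (L.lattice : Set ℂ))).Countable := by
    refine ((Set.Countable.union ?_ ?_).union ?_).union ?_
    · exact hc.preimage_of_injOn (fun x _ y _ hxy => hxy)
    · exact hc.preimage_of_injOn (fun x _ y _ hxy => by simpa using hxy)
    · exact hc.preimage_of_injOn (fun x _ y _ hxy => by simpa using hxy)
    · exact hc.preimage_of_injOn (fun x _ y _ hxy => by simpa using hxy)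
  obtain ⟨u, hu⟩ := (hB.dense_compl ℝ).nonempty
  simp only [Set.mem_compl_iff, Set.mem_union, Set.mem_preimage, SetLike.mem_coe, not_or] at hu
  exact ⟨u, hu.1.1.1, hu.1.1.2, hu.1.2, hu.2⟩

/-- The doubling case of the addition theorem. -/
theorem pt_add_self (L : PeriodPair) (w : ℂ) : pt L (w + w) = pt L w + pt L w := by
  by_cases hw : w ∈ L.lattice
  · rw [pt_of_mem L hw, pt_of_mem L (add_mem hw hw), add_zero]
  by_cases h2 : w + w ∈ L.lattice
  · rw [pt_of_mem L h2]
    have h1 : pt L w = pt L (-w) := pt_congr L (by simpa [sub_neg_eq_add] using h2)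
    nth_rewrite 2 [h1]
    rw [pt_neg, add_neg_cancel]
  obtain ⟨u, hu, h2u, hwu, hwu'⟩ := exists_aux_point L w
  have hnu : -u ∉ L.lattice := fun h => hu (by simpa using neg_mem h)
  have hne : ℘[L] w ≠ ℘[L] u := by
    intro h
    rcases (wp_eq_iff L hw hu).mp h with h' | h'
    · exact hwu' h'
    · exact hwu h'
  have hne' : ℘[L] w ≠ ℘[L] (-u) := by rwa [L.weierstrassP_neg]
  have hne2 : ℘[L] (w + u) ≠ ℘[L] (w + -u) := by
    intro h
    have hwu2 : w + -u ∉ L.lattice := by rwa [← sub_eq_add_neg]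
    rcases (wp_eq_iff L hwu hwu2).mp h with h' | h'
    · exact h2u (by convert h' using 1; ring)
    · exact h2 (by convert h' using 1; ring)
  have e1 := pt_add_of_ne L hw hu hne
  have e2 := pt_add_of_ne L hw hnu hne'
  have e3 := pt_add_of_ne L hwu (by rwa [← sub_eq_add_neg]) hne2
  have e4 : w + u + (w + -u) = w + w := by ring
  rw [e4, e1, e2, pt_neg] at e3
  rw [e3]
  abel

/-- **The addition theorem**: `z ↦ (℘ z, ℘' z / 2)` is a group homomorphism. -/
theorem pt_add (L : PeriodPair) (z w : ℂ) : pt L (z + w) = pt L z + pt L w := by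
  by_cases hz : z ∈ L.lattice
  · rw [pt_of_mem L hz, zero_add, add_comm]
    exact pt_add_of_mem L w hz
  by_cases hw : w ∈ L.lattice
  · rw [pt_of_mem L hw, add_zero]
    exact pt_add_of_mem L z hw
  by_cases hne : ℘[L] z = ℘[L] w
  · rcases (wp_eq_iff L hz hw).mp hne with h | h
    · have h1 : pt L z = pt L w := pt_congr L h
      have h2 : pt L (z + w) = pt L (w + w) := pt_congr L (by convert h using 1; ring)
      rw [h1, h2, pt_add_self]
    · rw [pt_of_mem L h]
      have h1 : pt L z = pt L (-w) := pt_congr L (by simpa [sub_neg_eq_add] using h)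
      rw [h1, pt_neg, neg_add_cancel]
  · exact pt_add_of_ne L hz hw hne

/-- The Weierstrass parametrisation as a group homomorphism `ℂ →+ E_L(ℂ)`. -/
noncomputable def ptHom (L : PeriodPair) : ℂ →+ (curve L).toAffine.Point where
  toFun := pt L
  map_zero' := pt_zero L
  map_add' := pt_add L

@[simp] theorem ptHom_apply (L : PeriodPair) (z : ℂ) : ptHom L z = pt L z := rfl

theorem pt_sub (L : PeriodPair) (z w : ℂ) : pt L (z - w) = pt L z - pt L w :=
  (ptHom L).map_sub z w

theorem pt_nsmul (L : PeriodPair) (n : ℕ) (z : ℂ) : pt L (n * z) = n • pt L z := by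
  have := map_nsmul (ptHom L) n z
  simpa [nsmul_eq_mul] using this

theorem pt_zsmul (L : PeriodPair) (n : ℤ) (z : ℂ) : pt L (n * z) = n • pt L z := by
  have := map_zsmul (ptHom L) n z
  simpa [zsmul_eq_mul] using this

/-- `pt L z = pt L w` iff `z ≡ w` modulo the lattice. -/
theorem pt_eq_pt_iff (L : PeriodPair) {z w : ℂ} : pt L z = pt L w ↔ z - w ∈ L.lattice := by
  rw [← pt_eq_zero_iff, pt_sub, sub_eq_zero]

/-- The Weierstrass parametrisation is surjective. -/
theorem pt_surjective (L : PeriodPair) : Function.Surjective (pt L) := by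
  rintro (_ | ⟨x, y, h⟩)
  · exact ⟨0, pt_zero L⟩
  · have h' := (curve_nonsingular_iff L x y).mp h
    obtain ⟨z, hz, hx, hy⟩ :=
      Fermat.Agent.S58.helper6859.exists_WP_eq_and_derivWP_eq L x (2 * y) h'
    refine ⟨z, ?_⟩
    rw [pt_of_notMem L hz]
    exact some_eq_some _ _ hx (by rw [hy]; ring)

theorem ptHom_surjective (L : PeriodPair) : Function.Surjective (ptHom L) := pt_surjective L

theorem ptHom_ker (L : PeriodPair) : (ptHom L).ker = L.lattice.toAddSubgroup := by
  ext z
  simp [AddMonoidHom.mem_ker, pt_eq_zero_iff]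

end Fermat.Agent.S15.helper6352
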