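/-
S15 moduli bridge: the input `Stmt_Add` of helper5538's (UNIT-PT) is a theorem, by helper6352's
group-law form of the Weierstrass addition theorem.  Consequently the moduli point of the frozen
pair `(W, Q)` of S15 depends only on the discriminant product formula `Stmt_Prod` (STAR).
-/
import Fermat.Agent.S15.helper1449_XferUnit
import Fermat.Agent.S15.helper6352_WPGroupLaw

set_option autoImplicit false

open WeierstrassCurve WeierstrassCurve.Affine

namespace Fermat.Agent.S15.helper1449

open UpperHalfPlane ModularForm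

/-- The two short curves attached to a lattice (helper5538's and helper6352's) coincide. -/
theorem curve_eq_curve (L : PeriodPair) :
    Fermat.Agent.S15.helper5538.curve L = Fermat.Agent.S15.helper6352.curve L := by
  unfold Fermat.Agent.S15.helper5538.curve Fermat.Agent.S15.helper6352.curve
  congr 1 <;> ring

/-- Transport of a parametrisation along an equality of curves. -/
theorem exists_pt_of_eq {W W' : WeierstrassCurve ℂ} (h : W' = W) (L : PeriodPair)
    (pt : ℂ →+ W.toAffine.Point) (h0 : ∀ z, pt z = 0 ↔ z ∈ L.lattice)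
    (hsurj : Function.Surjective pt)
    (hform : ∀ z, z ∉ L.lattice →
      ∃ h, pt z = .some (L.weierstrassP z) (L.derivWeierstrassP z / 2) h) :
    ∃ pt' : ℂ →+ W'.toAffine.Point, (∀ z, pt' z = 0 ↔ z ∈ L.lattice) ∧
      Function.Surjective pt' ∧
      ∀ z, z ∉ L.lattice →
        ∃ h, pt' z = .some (L.weierstrassP z) (L.derivWeierstrassP z / 2) h := by
  subst h
  exact ⟨pt, h0, hsurj, hform⟩

/-- **(ADD)** in helper5538's interface shape. -/
theorem stmt_Add : Fermat.Agent.S15.helper5538.Stmt_Add := by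
  intro L
  apply exists_pt_of_eq (curve_eq_curve L) L (Fermat.Agent.S15.helper6352.ptHom L)
  · intro z
    exact Fermat.Agent.S15.helper6352.pt_eq_zero_iff L
  · exact Fermat.Agent.S15.helper6352.ptHom_surjective L
  · intro z hz
    exact ⟨_, Fermat.Agent.S15.helper6352.pt_of_notMem L hz⟩

/-- (UNIT-PT) from (STAR) alone. -/
theorem stmt_UnitPoint_of_prod (hProd : Fermat.Agent.S15.helper5538.Stmt_Prod) :
    Fermat.Agent.S15.helper5538.Stmt_UnitPoint :=
  Fermat.Agent.S15.helper5538.unitPoint stmt_Add hProd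

/-- **The moduli point of the frozen pair `(W, Q)`**, from (STAR) alone. -/
theorem exists_tau_of_prod (hProd : Fermat.Agent.S15.helper5538.Stmt_Prod)
    {p : ℕ} (hp : p.Prime) (hp2 : p ≠ 2) (W : WeierstrassCurve ℤ) (hΔ : W.Δ ≠ 0)
    (Q : ((W.map (Int.castRingHom ℚ))⁄(AlgebraicClosure ℚ)).Point)
    (hQfix : ∀ σ : AlgebraicClosure ℚ ≃ₐ[ℚ] AlgebraicClosure ℚ, σ • Q = Q)
    (hQord : addOrderOf Q = p) :
    ∃ u : ℚ, u ≠ 0 ∧
      algebraMap ℚ (AlgebraicClosure ℚ) u =
        Uval ((W.map (Int.castRingHom ℚ))⁄(AlgebraicClosure ℚ)) Q p ∧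
      ∃ τ : ℍ, E₄ τ ^ 3 * ((W.Δ : ℤ) : ℂ) = ((W.c₄ : ℤ) : ℂ) ^ 3 * ModularForm.discriminant τ ∧
        (p : ℂ) ^ 12 * ModularForm.discriminant (ofComplex ((p : ℂ) * τ)) =
          (u : ℂ) * ModularForm.discriminant τ :=
  exists_tau_of_unitPoint (stmt_UnitPoint_of_prod hProd) hp hp2 W hΔ Q hQfix hQord

end Fermat.Agent.S15.helper1449
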