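import Mathlib
import Fermat.Agent.S58.helper6859_WPTransport
import Fermat.Agent.S58.helper701_SubLattice
import Fermat.Agent.S48.helper8477_WPInj

/-!
# The discriminant of an isogenous lattice (S15 bridge leaf (B3), helper4651)

For Mathlib `PeriodPair`s `L ≤ L'` with `L' = L + ℤ a`, `a` of exact odd order `n` modulo `L`:

  `Δ(L') * (∏_{0 < k < n} ℘'_L (k a)) ^ 4 = Δ(L) ^ n`,       `Δ = g₂ ^ 3 - 27 g₃ ^ 2`.

Design: no division, no exact orders of zeros.  Everything is
"a product of translates of `℘'` that is lattice-periodic and has removable singularities is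
constant" (`exists_const_of_periodic`), applied to

* `℘'(z) ∏ ℘'(z + wᵢ)` over the three half-periods (`derivWP_mul_prod_two_torsion`, value `Δ`);
* `∏_{k<n} ℘'_L (z + k a) * ∏ ℘'_{L'} (z + wᵢ)` (`prod_derivWP_mul_prod_two_torsion`).
-/

set_option autoImplicit false

namespace Fermat.Agent.S15.helper4651

open scoped Topology PeriodPair
open Filter PeriodPair

/-! ## Leading terms -/

/-- Near `z₀` (punctured) `f z = (z - z₀) ^ m * g z` with `g` analytic at `z₀` and `g z₀ = c`. -/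
def HasLead (m : ℤ) (c : ℂ) (f : ℂ → ℂ) (z₀ : ℂ) : Prop :=
  ∃ g : ℂ → ℂ, AnalyticAt ℂ g z₀ ∧ g z₀ = c ∧ ∀ᶠ z in 𝓝[≠] z₀, f z = (z - z₀) ^ m * g z

theorem hasLead_def (m : ℤ) (c : ℂ) (f : ℂ → ℂ) (z₀ : ℂ) :
    HasLead m c f z₀ ↔
      ∃ g : ℂ → ℂ, AnalyticAt ℂ g z₀ ∧ g z₀ = c ∧ ∀ᶠ z in 𝓝[≠] z₀, f z = (z - z₀) ^ m * g z :=
  Iff.rfl

theorem HasLead.of_analyticAt {f : ℂ → ℂ} {z₀ : ℂ} (hf : AnalyticAt ℂ f z₀) :
    HasLead 0 (f z₀) f z₀ :=
  ⟨f, hf, rfl, Eventually.of_forall fun z => by simp⟩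

theorem HasLead.of_analyticAt_of_eq_zero {f : ℂ → ℂ} {z₀ : ℂ} (hf : AnalyticAt ℂ f z₀)
    (h0 : f z₀ = 0) : HasLead 1 (deriv f z₀) f z₀ := by
  obtain ⟨k, hk, hkc, hkz⟩ := Fermat.Agent.S58.helper701.exists_eq_sub_mul hf h0
  exact ⟨k, hk, hkc, Eventually.of_forall fun z => by simpa using hkz z⟩

theorem HasLead.mul {m m' : ℤ} {c c' : ℂ} {f f' : ℂ → ℂ} {z₀ : ℂ} (h : HasLead m c f z₀)
    (h' : HasLead m' c' f' z₀) : HasLead (m + m') (c * c') (fun z => f z * f' z) z₀ := by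
  obtain ⟨g, hg, hgc, hev⟩ := h
  obtain ⟨g', hg', hgc', hev'⟩ := h'
  refine ⟨fun z => g z * g' z, hg.mul hg', by simp [hgc, hgc'], ?_⟩
  filter_upwards [hev, hev', self_mem_nhdsWithin] with z hz hz' hne
  have hne' : z - z₀ ≠ 0 := sub_ne_zero.mpr hne
  rw [hz, hz', zpow_add₀ hne']
  ring

theorem HasLead.prod {ι : Type*} (s : Finset ι) (m : ι → ℤ) (c : ι → ℂ) (f : ι → ℂ → ℂ) (z₀ : ℂ)
    (h : ∀ i ∈ s, HasLead (m i) (c i) (f i) z₀) :
    HasLead (∑ i ∈ s, m i) (∏ i ∈ s, c i) (fun z => ∏ i ∈ s, f i z) z₀ := by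
  classical
  induction s using Finset.induction_on with
  | empty =>
    simpa using HasLead.of_analyticAt (f := fun _ : ℂ => (1 : ℂ)) (z₀ := z₀) analyticAt_const
  | insert i s hi ih =>
    simp only [Finset.sum_insert hi, Finset.prod_insert hi]
    exact (h i (Finset.mem_insert_self i s)).mul
      (ih fun j hj => h j (Finset.mem_insert_of_mem hj))

theorem HasLead.exists_of_le {m m' : ℤ} {c : ℂ} {f : ℂ → ℂ} {z₀ : ℂ} (h : HasLead m c f z₀)
    (hm : m' ≤ m) : ∃ c', HasLead m' c' f z₀ := by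
  obtain ⟨g, hg, -, hev⟩ := h
  obtain ⟨k, rfl⟩ := Int.le.dest hm
  refine ⟨_, fun z => (z - z₀) ^ k * g z, ?_, rfl, ?_⟩
  · fun_prop
  · filter_upwards [hev, self_mem_nhdsWithin] with z hz hne
    have hne' : z - z₀ ≠ 0 := sub_ne_zero.mpr hne
    rw [hz, zpow_add₀ hne', zpow_natCast]
    ring

theorem HasLead.comp_add {m : ℤ} {c : ℂ} {f : ℂ → ℂ} {z₀ b : ℂ} (h : HasLead m c f (z₀ + b)) :
    HasLead m c (fun z => f (z + b)) z₀ := by
  obtain ⟨g, hg, hgc, hev⟩ := h
  refine ⟨fun z => g (z + b), ?_, hgc, ?_⟩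
  · exact AnalyticAt.comp_of_eq (g := g) (f := fun z => z + b) hg (by fun_prop) rfl
  · have ht : Tendsto (fun z : ℂ => z + b) (𝓝[≠] z₀) (𝓝[≠] (z₀ + b)) := by
      refine tendsto_nhdsWithin_of_tendsto_nhds_of_eventually_within _ ?_ ?_
      · exact ((continuous_add_const b).tendsto z₀).mono_left nhdsWithin_le_nhds
      · filter_upwards [self_mem_nhdsWithin] with z hz
        simpa using hz
    filter_upwards [ht.eventually hev] with z hz
    rw [hz]
    congr 2
    ring

theorem HasLead.unique {c c' : ℂ} {f : ℂ → ℂ} {z₀ : ℂ} (h : HasLead 0 c f z₀)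
    (h' : HasLead 0 c' f z₀) : c = c' := by
  obtain ⟨g, hg, rfl, hev⟩ := h
  obtain ⟨g', hg', rfl, hev'⟩ := h'
  have h1 : Tendsto g (𝓝[≠] z₀) (𝓝 (g z₀)) := hg.continuousAt.tendsto.mono_left nhdsWithin_le_nhds
  have h2 : Tendsto g' (𝓝[≠] z₀) (𝓝 (g' z₀)) :=
    hg'.continuousAt.tendsto.mono_left nhdsWithin_le_nhds
  refine tendsto_nhds_unique_of_eventuallyEq h1 h2 ?_
  filter_upwards [hev, hev'] with z hz hz'
  simpa [hz] using hz'

/-- **Liouville for lattice-periodic functions with removable singularities.** -/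
theorem exists_const_of_periodic (L : PeriodPair) (H : ℂ → ℂ)
    (hper : ∀ z, ∀ l ∈ L.lattice, H (z + l) = H z)
    (hrem : ∀ z₀, ∃ c, HasLead 0 c H z₀) :
    ∃ C, ∀ z₀ c, HasLead 0 c H z₀ → c = C := by
  choose Ht hHt using hrem
  have han : ∀ z₀, AnalyticAt ℂ Ht z₀ := by
    intro z₀
    obtain ⟨g, hg, hgc, hev⟩ := hHt z₀
    refine hg.congr ?_
    have h1 : ∀ᶠ z in 𝓝 z₀, ∀ᶠ y in 𝓝 z, y ≠ z₀ → H y = g y := by
      have := eventually_nhdsWithin_iff.mp hev
      exact eventually_eventually_nhds.mpr (this.mono fun y hy hne => by simpa using hy hne)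
    filter_upwards [h1, hg.eventually_analyticAt] with z hz hza
    by_cases hzz : z = z₀
    · rw [hzz, hgc]
    · have hev' : ∀ᶠ y in 𝓝[≠] z, H y = (y - z) ^ (0 : ℤ) * g y := by
        have h2 : ∀ᶠ y in 𝓝 z, y ≠ z₀ := (isOpen_ne.mem_nhds hzz)
        have h3 : ∀ᶠ y in 𝓝 z, H y = g y := by
          filter_upwards [hz, h2] with y hy hy2 using hy hy2
        exact (h3.filter_mono nhdsWithin_le_nhds).mono fun y hy => by simpa using hy
      exact (HasLead.unique (hHt z) ⟨g, hza, rfl, hev'⟩).symm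
  have hperT : ∀ z, ∀ l ∈ L.lattice, Ht (z + l) = Ht z := by
    intro z l hl
    have h1 : HasLead 0 (Ht (z + l)) (fun y => H (y + l)) z := (hHt (z + l)).comp_add
    have h2 : (fun y => H (y + l)) = H := funext fun y => hper y l hl
    rw [h2] at h1
    exact h1.unique (hHt z)
  have hdiff : Differentiable ℂ Ht := fun x => (han x).differentiableAt
  have hb := (IsZLattice.isCompact_range_of_periodic L.lattice Ht hdiff.continuous hperT).isBounded
  refine ⟨Ht 0, fun z₀ c hc => ?_⟩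
  rw [hc.unique (hHt z₀)]
  exact hdiff.apply_eq_apply_of_bounded hb z₀ 0

theorem HasLead.of_eq {m m' : ℤ} {c c' : ℂ} {f : ℂ → ℂ} {z₀ : ℂ} (h : HasLead m c f z₀)
    (hm : m = m') (hc : c = c') : HasLead m' c' f z₀ := hm ▸ hc ▸ h

/-! ## Leading terms of translates of `℘'` -/

theorem derivWP_add_mem (L : PeriodPair) (z : ℂ) {l : ℂ} (hl : l ∈ L.lattice) :
    ℘'[L] (z + l) = ℘'[L] z := L.derivWeierstrassP_add_coe z ⟨l, hl⟩

theorem derivWP_eq_zero_of_two_mul_mem (L : PeriodPair) {u : ℂ} (hu : u ∉ L.lattice)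
    (h2 : 2 * u ∈ L.lattice) : ℘'[L] u = 0 :=
  (Fermat.Agent.S48.helper8477.derivWP_eq_zero_iff L hu).mpr (by rwa [← two_mul])

theorem hasLead_derivWP_of_mem₀ (L : PeriodPair) {l₀ : ℂ} (h : l₀ ∈ L.lattice) :
    HasLead (-3) (-2) ℘'[L] l₀ := by
  refine ⟨fun z => (z - l₀) ^ 3 * ℘'[L - l₀] z - 2, ?_, by simp, ?_⟩
  · have := L.analyticAt_derivWeierstrassPExcept l₀
    fun_prop
  · filter_upwards [self_mem_nhdsWithin] with z hz
    have hne : z - l₀ ≠ 0 := sub_ne_zero.mpr hz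
    have h1 := L.derivWeierstrassPExcept_def ⟨l₀, h⟩ z
    simp only at h1
    have h2 : (z - l₀) ^ (-3 : ℤ) = ((z - l₀) ^ 3)⁻¹ := by
      rw [zpow_neg]
      norm_cast
    rw [h1, h2]
    field_simp
    ring

theorem hasLead_derivWP_of_mem (L : PeriodPair) {b z₀ : ℂ} (h : z₀ + b ∈ L.lattice) :
    HasLead (-3) (-2) (fun z => ℘'[L] (z + b)) z₀ :=
  (hasLead_derivWP_of_mem₀ L h).comp_add

theorem hasLead_derivWP_of_notMem₀ (L : PeriodPair) {z₀ : ℂ} (h : z₀ ∉ L.lattice) :
    HasLead 0 (℘'[L] z₀) ℘'[L] z₀ :=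
  HasLead.of_analyticAt (L.analyticOnNhd_derivWeierstrassP _ h)

theorem hasLead_derivWP_of_notMem (L : PeriodPair) {b z₀ : ℂ} (h : z₀ + b ∉ L.lattice) :
    HasLead 0 (℘'[L] (z₀ + b)) (fun z => ℘'[L] (z + b)) z₀ :=
  (hasLead_derivWP_of_notMem₀ L h).comp_add

theorem hasLead_derivWP_of_eq_zero₀ (L : PeriodPair) {z₀ : ℂ} (h : z₀ ∉ L.lattice)
    (h0 : ℘'[L] z₀ = 0) : HasLead 1 (deriv ℘'[L] z₀) ℘'[L] z₀ :=
  HasLead.of_analyticAt_of_eq_zero (L.analyticOnNhd_derivWeierstrassP _ h) h0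

theorem hasLead_derivWP_of_eq_zero (L : PeriodPair) {b z₀ : ℂ} (h : z₀ + b ∉ L.lattice)
    (h0 : ℘'[L] (z₀ + b) = 0) :
    HasLead 1 (deriv ℘'[L] (z₀ + b)) (fun z => ℘'[L] (z + b)) z₀ :=
  (hasLead_derivWP_of_eq_zero₀ L h h0).comp_add

/-! ## The three half-periods -/

/-- The algebra behind `-2 ∏ ℘''(wᵢ) = Δ ≠ 0`. -/
theorem cubic_roots_algebra {x y z g2 g3 : ℂ} (hxy : x ≠ y) (hxz : x ≠ z) (hyz : y ≠ z)
    (hx : 4 * x ^ 3 - g2 * x - g3 = 0) (hy : 4 * y ^ 3 - g2 * y - g3 = 0)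
    (hz : 4 * z ^ 3 - g2 * z - g3 = 0) :
    -2 * ((6 * x ^ 2 - g2 / 2) * (6 * y ^ 2 - g2 / 2) * (6 * z ^ 2 - g2 / 2))
        = g2 ^ 3 - 27 * g3 ^ 2 ∧ g2 ^ 3 - 27 * g3 ^ 2 ≠ 0 := by
  have h1 : g2 = 4 * (x ^ 2 + x * y + y ^ 2) := by
    have : (x - y) * (4 * (x ^ 2 + x * y + y ^ 2) - g2) = 0 := by linear_combination hx - hy
    rcases mul_eq_zero.mp this with h | h
    · exact absurd (sub_eq_zero.mp h) hxy
    · linear_combination -h
  have h2 : g2 = 4 * (x ^ 2 + x * z + z ^ 2) := by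
    have : (x - z) * (4 * (x ^ 2 + x * z + z ^ 2) - g2) = 0 := by linear_combination hx - hz
    rcases mul_eq_zero.mp this with h | h
    · exact absurd (sub_eq_zero.mp h) hxz
    · linear_combination -h
  have h3 : z = -x - y := by
    have : (y - z) * (x + y + z) = 0 := by linear_combination (h2 - h1) / 4
    rcases mul_eq_zero.mp this with h | h
    · exact absurd (sub_eq_zero.mp h) hyz
    · linear_combination h
  have h4 : g3 = 4 * x ^ 3 - g2 * x := by linear_combination -hx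
  have h5 : g2 ^ 3 - 27 * g3 ^ 2 = 16 * ((x - y) * (x - z) * (y - z)) ^ 2 := by
    rw [h4, h1, h3]
    ring
  refine ⟨?_, ?_⟩
  · rw [h4, h1, h3]
    ring
  · rw [h5]
    exact mul_ne_zero (by norm_num) (pow_ne_zero 2 (mul_ne_zero (mul_ne_zero
      (sub_ne_zero.mpr hxy) (sub_ne_zero.mpr hxz)) (sub_ne_zero.mpr hyz)))

/-- `w` is a system of representatives of the three nonzero `2`-torsion classes of `ℂ / M`. -/
structure IsTwoTorsion (M : PeriodPair) (w : Fin 3 → ℂ) : Prop where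
  two_mul_mem : ∀ i, 2 * w i ∈ M.lattice
  notMem : ∀ i, w i ∉ M.lattice
  sub_notMem : ∀ i j, i ≠ j → w i - w j ∉ M.lattice

namespace IsTwoTorsion

variable {M : PeriodPair} {w : Fin 3 → ℂ}

theorem derivWP_eq_zero (hw : IsTwoTorsion M w) (i : Fin 3) : ℘'[M] (w i) = 0 :=
  derivWP_eq_zero_of_two_mul_mem M (hw.notMem i) (hw.two_mul_mem i)

theorem WP_ne (hw : IsTwoTorsion M w) {i j : Fin 3} (hij : i ≠ j) :
    ℘[M] (w i) ≠ ℘[M] (w j) := by
  intro h
  rcases (Fermat.Agent.S48.helper8477.WP_eq_iff M (hw.notMem i) (hw.notMem j)).mp h with h1 | h1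
  · exact hw.sub_notMem i j hij h1
  · refine hw.sub_notMem i j hij ?_
    have := M.lattice.sub_mem h1 (hw.two_mul_mem j)
    have e : w i + w j - 2 * w j = w i - w j := by ring
    rwa [e] at this

theorem cubic (hw : IsTwoTorsion M w) (i : Fin 3) :
    4 * ℘[M] (w i) ^ 3 - M.g₂ * ℘[M] (w i) - M.g₃ = 0 := by
  have := M.derivWeierstrassP_sq (w i) (hw.notMem i)
  rw [hw.derivWP_eq_zero i] at this
  linear_combination -this

theorem neg_two_mul_prod_deriv (hw : IsTwoTorsion M w) :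
    -2 * ∏ i, deriv ℘'[M] (w i) = M.g₂ ^ 3 - 27 * M.g₃ ^ 2 := by
  rw [Fin.prod_univ_three, Fermat.Agent.S58.helper6859.deriv_derivWP M _ (hw.notMem 0),
    Fermat.Agent.S58.helper6859.deriv_derivWP M _ (hw.notMem 1),
    Fermat.Agent.S58.helper6859.deriv_derivWP M _ (hw.notMem 2)]
  exact (cubic_roots_algebra (hw.WP_ne (by decide)) (hw.WP_ne (by decide)) (hw.WP_ne (by decide))
    (hw.cubic 0) (hw.cubic 1) (hw.cubic 2)).1

theorem disc_ne_zero (hw : IsTwoTorsion M w) : M.g₂ ^ 3 - 27 * M.g₃ ^ 2 ≠ 0 :=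
  (cubic_roots_algebra (hw.WP_ne (by decide : (0 : Fin 3) ≠ 1))
    (hw.WP_ne (by decide : (0 : Fin 3) ≠ 2)) (hw.WP_ne (by decide : (1 : Fin 3) ≠ 2))
    (hw.cubic 0) (hw.cubic 1) (hw.cubic 2)).2

end IsTwoTorsion

/-- **(P2)** `℘'(z) ∏ᵢ ℘'(z + wᵢ) = g₂³ - 27 g₃²` for the three half-periods `wᵢ`. -/
theorem derivWP_mul_prod_two_torsion (M : PeriodPair) {w : Fin 3 → ℂ} (hw : IsTwoTorsion M w)
    {z : ℂ} (hz : 2 * z ∉ M.lattice) :
    ℘'[M] z * ∏ i, ℘'[M] (z + w i) = M.g₂ ^ 3 - 27 * M.g₃ ^ 2 := by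
  obtain ⟨C, hC⟩ := exists_const_of_periodic M (fun z => ℘'[M] z * ∏ i, ℘'[M] (z + w i))
    (fun z l hl => by
      rw [derivWP_add_mem M z hl]
      congr 1
      refine Finset.prod_congr rfl fun i _ => ?_
      rw [add_right_comm, derivWP_add_mem M _ hl])
    (fun z₀ => by
      by_cases h0 : z₀ ∈ M.lattice
      · have h20 : 2 * z₀ ∈ M.lattice := by rw [two_mul]; exact M.lattice.add_mem h0 h0
        have hfi : ∀ i ∈ Finset.univ, HasLead 1 (deriv ℘'[M] (z₀ + w i))
            (fun z => ℘'[M] (z + w i)) z₀ := by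
          intro i _
          have hni : z₀ + w i ∉ M.lattice := fun h =>
            hw.notMem i (by simpa using M.lattice.sub_mem h h0)
          refine hasLead_derivWP_of_eq_zero M hni (derivWP_eq_zero_of_two_mul_mem M hni ?_)
          rw [mul_add]
          exact M.lattice.add_mem h20 (hw.two_mul_mem i)
        exact ((hasLead_derivWP_of_mem₀ M h0).mul
          (HasLead.prod Finset.univ _ _ _ z₀ hfi)).exists_of_le (by simp)
      · by_cases h1 : ∃ i, z₀ + w i ∈ M.lattice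
        · obtain ⟨i, hi⟩ := h1
          have h2i : 2 * (z₀ + w i) ∈ M.lattice := by
            rw [two_mul]; exact M.lattice.add_mem hi hi
          have h20 : 2 * z₀ ∈ M.lattice := by
            have := M.lattice.sub_mem h2i (hw.two_mul_mem i)
            have e : 2 * (z₀ + w i) - 2 * w i = 2 * z₀ := by ring
            rwa [e] at this
          have hf : ∀ j, ∃ c, HasLead (if j = i then -3 else 1) c
              (fun z => ℘'[M] (z + w j)) z₀ := by
            intro j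
            by_cases hji : j = i
            · subst hji
              exact ⟨-2, by simpa using hasLead_derivWP_of_mem M hi⟩
            · have hnj : z₀ + w j ∉ M.lattice := fun h =>
                hw.sub_notMem j i hji (by simpa using M.lattice.sub_mem h hi)
              have h2j : 2 * (z₀ + w j) ∈ M.lattice := by
                rw [mul_add]
                exact M.lattice.add_mem h20 (hw.two_mul_mem j)
              have hzero := derivWP_eq_zero_of_two_mul_mem M hnj h2j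
              exact ⟨_, by simpa [hji] using hasLead_derivWP_of_eq_zero M hnj hzero⟩
          choose c hc using hf
          refine ((hasLead_derivWP_of_eq_zero₀ M h0
            (derivWP_eq_zero_of_two_mul_mem M h0 h20)).mul
            (HasLead.prod Finset.univ _ c _ z₀ (fun j _ => hc j))).exists_of_le ?_
          fin_cases i <;> simp [Fin.sum_univ_three]
        · simp only [not_exists] at h1
          exact ((hasLead_derivWP_of_notMem₀ M h0).mul
            (HasLead.prod Finset.univ (fun _ => 0) _ _ z₀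
              (fun i _ => hasLead_derivWP_of_notMem M (h1 i)))).exists_of_le (by simp))
  have hz0 : z ∉ M.lattice := fun h => hz (by rw [two_mul]; exact M.lattice.add_mem h h)
  have hzi : ∀ i, z + w i ∉ M.lattice := by
    intro i h
    refine hz ?_
    have := M.lattice.sub_mem (M.lattice.add_mem h h) (hw.two_mul_mem i)
    have e : z + w i + (z + w i) - 2 * w i = 2 * z := by ring
    rwa [e] at this
  have h1 : ℘'[M] z * ∏ i, ℘'[M] (z + w i) = C :=
    hC z _ (((hasLead_derivWP_of_notMem₀ M hz0).mul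
      (HasLead.prod Finset.univ (fun _ => 0) _ _ z
        (fun i _ => hasLead_derivWP_of_notMem M (hzi i)))).of_eq (by simp) rfl)
  have h2 : -2 * ∏ i, deriv ℘'[M] (w i) = C := by
    have h3 := (hasLead_derivWP_of_mem₀ M (M.lattice.zero_mem)).mul
      (HasLead.prod Finset.univ (fun _ => 1) (fun i => deriv ℘'[M] (0 + w i))
        (fun i z => ℘'[M] (z + w i)) 0
        (fun i _ => hasLead_derivWP_of_eq_zero M (by simpa using hw.notMem i)
          (by simpa using hw.derivWP_eq_zero i)))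
    have h4 := hC 0 _ (h3.of_eq (by simp) rfl)
    simpa using h4
  rw [← hw.neg_two_mul_prod_deriv, h2]
  exact h1

/-! ## A cyclic overlattice -/

/-- `L' = L + ℤ a` with `a` of exact order `n` modulo `L`. -/
structure IsCyclicOver (L L' : PeriodPair) (n : ℕ) (a : ℂ) : Prop where
  mem_iff : ∀ z, z ∈ L'.lattice ↔ ∃ k : ℤ, z - k * a ∈ L.lattice
  mul_mem_iff : ∀ k : ℤ, (k : ℂ) * a ∈ L.lattice ↔ (n : ℤ) ∣ k

namespace IsCyclicOver

variable {L L' : PeriodPair} {n : ℕ} {a : ℂ}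

theorem le (hc : IsCyclicOver L L' n a) : L.lattice ≤ L'.lattice := fun z hz =>
  (hc.mem_iff z).mpr ⟨0, by simpa using hz⟩

theorem mem_of_add_mem (hc : IsCyclicOver L L' n a) {u : ℂ} (k : ℕ)
    (h : u + k * a ∈ L.lattice) : u ∈ L'.lattice :=
  (hc.mem_iff u).mpr ⟨-(k : ℤ), by simpa using h⟩

theorem natCast_mul_mem (hc : IsCyclicOver L L' n a) (k : ℕ) : (k : ℂ) * a ∈ L'.lattice :=
  (hc.mem_iff _).mpr ⟨k, by simp⟩

theorem exists_lt (hc : IsCyclicOver L L' n a) (hn : 0 < n) {u : ℂ} (hu : u ∈ L'.lattice) :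
    ∃ k : ℕ, k < n ∧ u + k * a ∈ L.lattice := by
  obtain ⟨k', hk'⟩ := (hc.mem_iff u).mp hu
  have hn' : (0 : ℤ) < n := by exact_mod_cast hn
  have h0 := Int.emod_nonneg (-k') hn'.ne'
  have hlt := Int.emod_lt_of_pos (-k') hn'
  refine ⟨((-k') % n).toNat, by omega, ?_⟩
  have hdvd : (n : ℤ) ∣ ((-k') % n + k') := by
    have := Int.emod_add_mul_ediv (-k') n
    exact ⟨-((-k') / n), by linarith⟩
  have h1 := (hc.mul_mem_iff _).mpr hdvd
  have h2 := L.lattice.add_mem hk' h1
  have e : u - k' * a + (((-k') % n + k' : ℤ) : ℂ) * a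
      = u + ((((-k') % n).toNat : ℕ) : ℂ) * a := by
    have : ((((-k') % n).toNat : ℕ) : ℂ) = (((-k') % n : ℤ) : ℂ) := by
      rw [← Int.cast_natCast, Int.toNat_of_nonneg h0]
    rw [this]
    push_cast
    ring
  rwa [e] at h2

theorem eq_of_add_mem (hc : IsCyclicOver L L' n a) {u : ℂ} {k k' : ℕ} (hk : k < n)
    (hk' : k' < n) (h : u + k * a ∈ L.lattice) (h' : u + k' * a ∈ L.lattice) : k = k' := by
  have h1 := L.lattice.sub_mem h h'
  have e : u + k * a - (u + k' * a) = (((k : ℤ) - k' : ℤ) : ℂ) * a := by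
    push_cast
    ring
  rw [e] at h1
  have h2 := (hc.mul_mem_iff _).mp h1
  have h3 : (k : ℤ) - k' = 0 := by
    apply Int.eq_zero_of_abs_lt_dvd h2
    rw [abs_lt]
    constructor <;> omega
  omega

theorem mem_of_two_mul_mem (hc : IsCyclicOver L L' n a) (hn : Odd n) {u : ℂ}
    (hu : u ∈ L'.lattice) (h2 : 2 * u ∈ L.lattice) : u ∈ L.lattice := by
  obtain ⟨k, hk⟩ := (hc.mem_iff u).mp hu
  have h1 : 2 * (u - k * a) ∈ L.lattice := by
    rw [two_mul]
    exact L.lattice.add_mem hk hk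
  have h3 := L.lattice.sub_mem h2 h1
  have e : 2 * u - 2 * (u - k * a) = ((2 * k : ℤ) : ℂ) * a := by
    push_cast
    ring
  rw [e] at h3
  have h4 := (hc.mul_mem_iff _).mp h3
  have hcop : IsCoprime (n : ℤ) 2 := by
    have : Nat.Coprime n 2 := Nat.Coprime.symm (Nat.coprime_two_left.mpr hn)
    exact_mod_cast Nat.isCoprime_iff_coprime.mpr this
  have h5 : (n : ℤ) ∣ k := hcop.dvd_of_dvd_mul_left h4
  have h6 := (hc.mul_mem_iff _).mpr h5
  have := L.lattice.add_mem hk h6
  simpa using this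

theorem isTwoTorsion (hc : IsCyclicOver L L' n a) (hn : Odd n) {w : Fin 3 → ℂ}
    (hw : IsTwoTorsion L w) : IsTwoTorsion L' w where
  two_mul_mem i := hc.le (hw.two_mul_mem i)
  notMem i h := hw.notMem i (hc.mem_of_two_mul_mem hn h (hw.two_mul_mem i))
  sub_notMem i j hij h := hw.sub_notMem i j hij (hc.mem_of_two_mul_mem hn h (by
    have := L.lattice.sub_mem (hw.two_mul_mem i) (hw.two_mul_mem j)
    have e : 2 * w i - 2 * w j = 2 * (w i - w j) := by ring
    rwa [e] at this))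

end IsCyclicOver

/-- **(Q1)** `∏_{k<n} ℘'_L (z + k a) * ∏ᵢ ℘'_{L'} (z + wᵢ) = (∏_{0<k<n} ℘'_L (k a)) * Δ(L')`. -/
theorem prod_derivWP_mul_prod_two_torsion {L L' : PeriodPair} {n : ℕ} {a : ℂ}
    (hc : IsCyclicOver L L' n a) (hn : 0 < n) {w : Fin 3 → ℂ}
    (hwL : ∀ i, 2 * w i ∈ L.lattice) (hw : IsTwoTorsion L' w) {z : ℂ}
    (hz : 2 * z ∉ L'.lattice) :
    (∏ k ∈ Finset.range n, ℘'[L] (z + k * a)) * ∏ i, ℘'[L'] (z + w i)
      = (∏ k ∈ Finset.Ico 1 n, ℘'[L] (k * a)) * (L'.g₂ ^ 3 - 27 * L'.g₃ ^ 2) := by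
  obtain ⟨C, hC⟩ := exists_const_of_periodic L
    (fun z => (∏ k ∈ Finset.range n, ℘'[L] (z + k * a)) * ∏ i, ℘'[L'] (z + w i))
    (fun z l hl => by
      congr 1
      · refine Finset.prod_congr rfl fun k _ => ?_
        rw [add_right_comm, derivWP_add_mem L _ hl]
      · refine Finset.prod_congr rfl fun i _ => ?_
        rw [add_right_comm, derivWP_add_mem L' _ (hc.le hl)])
    (fun z₀ => by
      by_cases hA : z₀ ∈ L'.lattice
      · obtain ⟨k₀, hk₀, hmem⟩ := hc.exists_lt hn hA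
        have h20 : 2 * z₀ ∈ L'.lattice := by
          rw [two_mul]
          exact L'.lattice.add_mem hA hA
        have hF : ∀ k : ℕ, ∃ c, k < n → HasLead (if k = k₀ then -3 else 0) c
            (fun z => ℘'[L] (z + k * a)) z₀ := by
          intro k
          by_cases hkn : k < n
          · by_cases hk : k = k₀
            · subst hk
              exact ⟨-2, fun _ => by simpa using hasLead_derivWP_of_mem L hmem⟩
            · have hnk : z₀ + k * a ∉ L.lattice := fun h =>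
                hk (hc.eq_of_add_mem hkn hk₀ h hmem)
              exact ⟨_, fun _ => by simpa [hk] using hasLead_derivWP_of_notMem L hnk⟩
          · exact ⟨0, fun h => absurd h hkn⟩
        choose c hcF using hF
        have hG : ∀ i ∈ Finset.univ, HasLead 1 (deriv ℘'[L'] (z₀ + w i))
            (fun z => ℘'[L'] (z + w i)) z₀ := by
          intro i _
          have hni : z₀ + w i ∉ L'.lattice := fun h =>
            hw.notMem i (by simpa using L'.lattice.sub_mem h hA)
          refine hasLead_derivWP_of_eq_zero L' hni (derivWP_eq_zero_of_two_mul_mem L' hni ?_)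
          rw [mul_add]
          exact L'.lattice.add_mem h20 (hw.two_mul_mem i)
        refine ((HasLead.prod (Finset.range n) _ c _ z₀
          (fun k hk => hcF k (Finset.mem_range.mp hk))).mul
          (HasLead.prod Finset.univ _ _ _ z₀ hG)).exists_of_le ?_
        simp [Finset.sum_ite_eq', hk₀]
      · by_cases hB : ∃ i, z₀ + w i ∈ L'.lattice
        · obtain ⟨i, hi⟩ := hB
          obtain ⟨k₁, hk₁, hmem⟩ := hc.exists_lt hn hi
          have hnk : ∀ k : ℕ, z₀ + k * a ∉ L.lattice := fun k h => hA (hc.mem_of_add_mem k h)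
          have h2k : 2 * (z₀ + k₁ * a) ∈ L.lattice := by
            have := L.lattice.sub_mem (L.lattice.add_mem hmem hmem) (hwL i)
            have e : z₀ + w i + k₁ * a + (z₀ + w i + k₁ * a) - 2 * w i
                = 2 * (z₀ + k₁ * a) := by ring
            rwa [e] at this
          have hF : ∀ k : ℕ, ∃ c, HasLead (if k = k₁ then 1 else 0) c
              (fun z => ℘'[L] (z + k * a)) z₀ := by
            intro k
            by_cases hk : k = k₁
            · subst hk
              have hzero := derivWP_eq_zero_of_two_mul_mem L (hnk k) h2k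
              exact ⟨_, by simpa using hasLead_derivWP_of_eq_zero L (hnk k) hzero⟩
            · exact ⟨_, by simpa [hk] using hasLead_derivWP_of_notMem L (hnk k)⟩
          choose c hcF using hF
          have h2i : 2 * (z₀ + w i) ∈ L'.lattice := by
            rw [two_mul]
            exact L'.lattice.add_mem hi hi
          have h20 : 2 * z₀ ∈ L'.lattice := by
            have := L'.lattice.sub_mem h2i (hw.two_mul_mem i)
            have e : 2 * (z₀ + w i) - 2 * w i = 2 * z₀ := by ring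
            rwa [e] at this
          have hG : ∀ j, ∃ c, HasLead (if j = i then -3 else 1) c
              (fun z => ℘'[L'] (z + w j)) z₀ := by
            intro j
            by_cases hji : j = i
            · subst hji
              exact ⟨-2, by simpa using hasLead_derivWP_of_mem L' hi⟩
            · have hnj : z₀ + w j ∉ L'.lattice := fun h =>
                hw.sub_notMem j i hji (by simpa using L'.lattice.sub_mem h hi)
              have h2j : 2 * (z₀ + w j) ∈ L'.lattice := by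
                rw [mul_add]
                exact L'.lattice.add_mem h20 (hw.two_mul_mem j)
              have hzero := derivWP_eq_zero_of_two_mul_mem L' hnj h2j
              exact ⟨_, by simpa [hji] using hasLead_derivWP_of_eq_zero L' hnj hzero⟩
          choose d hdG using hG
          refine ((HasLead.prod (Finset.range n) _ c _ z₀ (fun k _ => hcF k)).mul
            (HasLead.prod Finset.univ _ d _ z₀ (fun j _ => hdG j))).exists_of_le ?_
          rw [Finset.sum_ite_eq', if_pos (Finset.mem_range.mpr hk₁)]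
          fin_cases i <;> simp [Fin.sum_univ_three]
        · simp only [not_exists] at hB
          have hnk : ∀ k : ℕ, z₀ + k * a ∉ L.lattice := fun k h => hA (hc.mem_of_add_mem k h)
          exact ((HasLead.prod (Finset.range n) (fun _ => 0) _ _ z₀
            (fun k _ => hasLead_derivWP_of_notMem L (hnk k))).mul
            (HasLead.prod Finset.univ (fun _ => 0) _ _ z₀
              (fun i _ => hasLead_derivWP_of_notMem L' (hB i)))).exists_of_le (by simp))
  have hz0 : z ∉ L'.lattice := fun h => hz (by rw [two_mul]; exact L'.lattice.add_mem h h)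
  have hzk : ∀ k : ℕ, z + k * a ∉ L.lattice := fun k h => hz0 (hc.mem_of_add_mem k h)
  have hzi : ∀ i, z + w i ∉ L'.lattice := by
    intro i h
    refine hz ?_
    have := L'.lattice.sub_mem (L'.lattice.add_mem h h) (hw.two_mul_mem i)
    have e : z + w i + (z + w i) - 2 * w i = 2 * z := by ring
    rwa [e] at this
  have h1 : (∏ k ∈ Finset.range n, ℘'[L] (z + k * a)) * ∏ i, ℘'[L'] (z + w i) = C :=
    hC z _ (((HasLead.prod (Finset.range n) (fun _ => 0) _ _ z
      (fun k _ => hasLead_derivWP_of_notMem L (hzk k))).mul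
      (HasLead.prod Finset.univ (fun _ => 0) _ _ z
        (fun i _ => hasLead_derivWP_of_notMem L' (hzi i)))).of_eq (by simp) rfl)
  have h2 : (∏ k ∈ Finset.Ico 1 n, ℘'[L] (k * a)) * (L'.g₂ ^ 3 - 27 * L'.g₃ ^ 2) = C := by
    have hF0 : ∀ k ∈ Finset.range n, HasLead (if k = 0 then -3 else 0)
        (if k = 0 then -2 else ℘'[L] (k * a)) (fun z => ℘'[L] (z + k * a)) 0 := by
      intro k hk
      by_cases hk0 : k = 0
      · subst hk0
        simpa using hasLead_derivWP_of_mem L (b := ((0 : ℕ) : ℂ) * a) (z₀ := 0) (by simp)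
      · have hnk : (0 : ℂ) + k * a ∉ L.lattice := by
          intro h
          have h' : ((k : ℤ) : ℂ) * a ∈ L.lattice := by simpa using h
          have := Int.natCast_dvd_natCast.mp ((hc.mul_mem_iff _).mp h')
          exact absurd (Nat.le_of_dvd (Nat.pos_of_ne_zero hk0) this)
            (not_le.mpr (Finset.mem_range.mp hk))
        simpa [hk0] using hasLead_derivWP_of_notMem L hnk
    have hG0 : ∀ i ∈ Finset.univ, HasLead 1 (deriv ℘'[L'] (0 + w i))
        (fun z => ℘'[L'] (z + w i)) 0 := fun i _ =>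
      hasLead_derivWP_of_eq_zero L' (by simpa using hw.notMem i)
        (by simpa using hw.derivWP_eq_zero i)
    have h3 := (HasLead.prod (Finset.range n) _ _ _ 0 hF0).mul
      (HasLead.prod Finset.univ _ _ _ 0 hG0)
    have h4 := hC 0 _ (h3.of_eq (by simp [Finset.sum_ite_eq', hn]) rfl)
    rw [← h4, ← hw.neg_two_mul_prod_deriv]
    have e1 : ∏ k ∈ Finset.range n, (if k = 0 then (-2 : ℂ) else ℘'[L] (k * a))
        = -2 * ∏ k ∈ Finset.Ico 1 n, ℘'[L] (k * a) := by
      rw [Finset.range_eq_Ico, Finset.prod_eq_prod_Ico_succ_bot hn]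
      simp only [if_true]
      congr 1
      refine Finset.prod_congr rfl fun k hk => ?_
      have : k ≠ 0 := by
        have := (Finset.mem_Ico.mp hk).1
        omega
      simp [this]
    rw [e1]
    simp only [zero_add]
    ring
  rw [h2]
  exact h1

/-- **(P1)** `∏_{k<n} ℘'_L (z + k a) = (∏_{0<k<n} ℘'_L (k a)) * ℘'_{L'} (z)`. -/
theorem prod_derivWP_eq {L L' : PeriodPair} {n : ℕ} {a : ℂ}
    (hc : IsCyclicOver L L' n a) (hn : 0 < n) {w : Fin 3 → ℂ}
    (hwL : ∀ i, 2 * w i ∈ L.lattice) (hw : IsTwoTorsion L' w) {z : ℂ}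
    (hz : 2 * z ∉ L'.lattice) :
    ∏ k ∈ Finset.range n, ℘'[L] (z + k * a)
      = (∏ k ∈ Finset.Ico 1 n, ℘'[L] (k * a)) * ℘'[L'] z := by
  have h1 := prod_derivWP_mul_prod_two_torsion hc hn hwL hw hz
  have h2 := derivWP_mul_prod_two_torsion L' hw hz
  have hP : ∏ i, ℘'[L'] (z + w i) ≠ 0 := by
    intro h
    rw [h, mul_zero] at h2
    exact hw.disc_ne_zero h2.symm
  refine mul_right_cancel₀ hP ?_
  rw [h1, ← h2]
  ring

/-! ## The half-periods of a period pair -/

/-- The half-periods `ω₁ / 2`, `ω₂ / 2`, `(ω₁ + ω₂) / 2`. -/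
noncomputable def halfPeriods (L : PeriodPair) : Fin 3 → ℂ :=
  ![L.ω₁ / 2, L.ω₂ / 2, (L.ω₁ + L.ω₂) / 2]

theorem halfPeriods_zero (L : PeriodPair) : halfPeriods L 0 = L.ω₁ / 2 := rfl
theorem halfPeriods_one (L : PeriodPair) : halfPeriods L 1 = L.ω₂ / 2 := rfl
theorem halfPeriods_two (L : PeriodPair) : halfPeriods L 2 = (L.ω₁ + L.ω₂) / 2 := rfl

theorem isTwoTorsion_halfPeriods (L : PeriodPair) : IsTwoTorsion L (halfPeriods L) := by
  have key : ∀ r s : ℤ, ¬ ((2 : ℤ) ∣ r ∧ (2 : ℤ) ∣ s) →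
      ((r : ℂ) * L.ω₁ + (s : ℂ) * L.ω₂) / 2 ∉ L.lattice := by
    intro r s h hm
    exact h (by simpa using (Fermat.Agent.S48.helper8477.div_mem_lattice_iff L (M := 2)
      (by norm_num) r s).mp (by simpa using hm))
  refine ⟨fun i => ?_, fun i => ?_, fun i j hij => ?_⟩
  · fin_cases i
    · have e : 2 * halfPeriods L 0 = L.ω₁ := by rw [halfPeriods_zero]; ring
      simpa [e] using L.ω₁_mem_lattice
    · have e : 2 * halfPeriods L 1 = L.ω₂ := by rw [halfPeriods_one]; ring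
      simpa [e] using L.ω₂_mem_lattice
    · have e : 2 * halfPeriods L 2 = L.ω₁ + L.ω₂ := by rw [halfPeriods_two]; ring
      simpa [e] using L.lattice.add_mem L.ω₁_mem_lattice L.ω₂_mem_lattice
  · fin_cases i
    · have := key 1 0 (by omega)
      have e : halfPeriods L 0 = (((1 : ℤ) : ℂ) * L.ω₁ + ((0 : ℤ) : ℂ) * L.ω₂) / 2 := by
        rw [halfPeriods_zero]; push_cast; ring
      simpa [e] using this
    · have := key 0 1 (by omega)
      have e : halfPeriods L 1 = (((0 : ℤ) : ℂ) * L.ω₁ + ((1 : ℤ) : ℂ) * L.ω₂) / 2 := by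
        rw [halfPeriods_one]; push_cast; ring
      simpa [e] using this
    · have := key 1 1 (by omega)
      have e : halfPeriods L 2 = (((1 : ℤ) : ℂ) * L.ω₁ + ((1 : ℤ) : ℂ) * L.ω₂) / 2 := by
        rw [halfPeriods_two]; push_cast; ring
      simpa [e] using this
  · have h01 : halfPeriods L 0 - halfPeriods L 1
        = (((1 : ℤ) : ℂ) * L.ω₁ + ((-1 : ℤ) : ℂ) * L.ω₂) / 2 := by
      rw [halfPeriods_zero, halfPeriods_one]; push_cast; ring
    have h02 : halfPeriods L 0 - halfPeriods L 2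
        = (((0 : ℤ) : ℂ) * L.ω₁ + ((-1 : ℤ) : ℂ) * L.ω₂) / 2 := by
      rw [halfPeriods_zero, halfPeriods_two]; push_cast; ring
    have h10 : halfPeriods L 1 - halfPeriods L 0
        = (((-1 : ℤ) : ℂ) * L.ω₁ + ((1 : ℤ) : ℂ) * L.ω₂) / 2 := by
      rw [halfPeriods_zero, halfPeriods_one]; push_cast; ring
    have h12 : halfPeriods L 1 - halfPeriods L 2
        = (((-1 : ℤ) : ℂ) * L.ω₁ + ((0 : ℤ) : ℂ) * L.ω₂) / 2 := by
      rw [halfPeriods_one, halfPeriods_two]; push_cast; ring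
    have h20 : halfPeriods L 2 - halfPeriods L 0
        = (((0 : ℤ) : ℂ) * L.ω₁ + ((1 : ℤ) : ℂ) * L.ω₂) / 2 := by
      rw [halfPeriods_zero, halfPeriods_two]; push_cast; ring
    have h21 : halfPeriods L 2 - halfPeriods L 1
        = (((1 : ℤ) : ℂ) * L.ω₁ + ((0 : ℤ) : ℂ) * L.ω₂) / 2 := by
      rw [halfPeriods_one, halfPeriods_two]; push_cast; ring
    fin_cases i <;> fin_cases j
    · exact absurd rfl hij
    · show halfPeriods L 0 - halfPeriods L 1 ∉ L.lattice
      rw [h01]; exact key 1 (-1) (by omega)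
    · show halfPeriods L 0 - halfPeriods L 2 ∉ L.lattice
      rw [h02]; exact key 0 (-1) (by omega)
    · show halfPeriods L 1 - halfPeriods L 0 ∉ L.lattice
      rw [h10]; exact key (-1) 1 (by omega)
    · exact absurd rfl hij
    · show halfPeriods L 1 - halfPeriods L 2 ∉ L.lattice
      rw [h12]; exact key (-1) 0 (by omega)
    · show halfPeriods L 2 - halfPeriods L 0 ∉ L.lattice
      rw [h20]; exact key 0 1 (by omega)
    · show halfPeriods L 2 - halfPeriods L 1 ∉ L.lattice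
      rw [h21]; exact key 1 0 (by omega)
    · exact absurd rfl hij

/-! ## The main identity -/

/-- **Discriminant of a cyclic overlattice of odd index.**  If `L' = L + ℤ a` with `a` of exact
odd order `n` modulo `L`, then `Δ(L') * (∏_{0<k<n} ℘'_L (k a)) ^ 4 = Δ(L) ^ n`. -/
theorem disc_mul_prod_derivWP_pow_four (L L' : PeriodPair) (n : ℕ) (hn : Odd n) (a : ℂ)
    (hL' : ∀ z, z ∈ L'.lattice ↔ ∃ k : ℤ, z - k * a ∈ L.lattice)
    (ha : ∀ k : ℤ, (k : ℂ) * a ∈ L.lattice ↔ (n : ℤ) ∣ k) :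
    (L'.g₂ ^ 3 - 27 * L'.g₃ ^ 2) * (∏ k ∈ Finset.Ico 1 n, ℘'[L] (k * a)) ^ 4
      = (L.g₂ ^ 3 - 27 * L.g₃ ^ 2) ^ n := by
  have hc : IsCyclicOver L L' n a := ⟨hL', ha⟩
  have hn0 : 0 < n := hn.pos
  have hwL : IsTwoTorsion L (halfPeriods L) := isTwoTorsion_halfPeriods L
  have hwL' : IsTwoTorsion L' (halfPeriods L) := hc.isTwoTorsion hn hwL
  have hz : 2 * (L'.ω₁ / 4) ∉ L'.lattice := by
    have : 2 * (L'.ω₁ / 4) = L'.ω₁ / 2 := by ring
    rw [this]
    exact L'.ω₁_div_two_notMem_lattice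
  have hzw : ∀ i, 2 * (L'.ω₁ / 4 + halfPeriods L i) ∉ L'.lattice := by
    intro i h
    refine hz ?_
    have := L'.lattice.sub_mem h (hwL'.two_mul_mem i)
    have e : 2 * (L'.ω₁ / 4 + halfPeriods L i) - 2 * halfPeriods L i = 2 * (L'.ω₁ / 4) := by
      ring
    rwa [e] at this
  have hzk : ∀ k : ℕ, 2 * (L'.ω₁ / 4 + k * a) ∉ L.lattice := by
    intro k h
    refine hz ?_
    have h1 : ((2 * k : ℕ) : ℂ) * a ∈ L'.lattice := hc.natCast_mul_mem (2 * k)
    have := L'.lattice.sub_mem (hc.le h) h1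
    have e : 2 * (L'.ω₁ / 4 + k * a) - ((2 * k : ℕ) : ℂ) * a = 2 * (L'.ω₁ / 4) := by
      push_cast
      ring
    rwa [e] at this
  have e1 : (L.g₂ ^ 3 - 27 * L.g₃ ^ 2) ^ n = ∏ k ∈ Finset.range n,
      (℘'[L] (L'.ω₁ / 4 + k * a) * ∏ i, ℘'[L] (L'.ω₁ / 4 + k * a + halfPeriods L i)) := by
    rw [Finset.prod_congr rfl (fun k _ => derivWP_mul_prod_two_torsion L hwL (hzk k))]
    simp
  have e2 : ∏ k ∈ Finset.range n,
      (℘'[L] (L'.ω₁ / 4 + k * a) * ∏ i, ℘'[L] (L'.ω₁ / 4 + k * a + halfPeriods L i))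
      = (∏ k ∈ Finset.range n, ℘'[L] (L'.ω₁ / 4 + k * a)) *
        ∏ i, ∏ k ∈ Finset.range n, ℘'[L] (L'.ω₁ / 4 + halfPeriods L i + k * a) := by
    rw [Finset.prod_mul_distrib, Finset.prod_comm]
    congr 1
    refine Finset.prod_congr rfl fun i _ => Finset.prod_congr rfl fun k _ => ?_
    rw [add_right_comm]
  have e3 := prod_derivWP_eq hc hn0 hwL.two_mul_mem hwL' hz
  have e4 : ∀ i, ∏ k ∈ Finset.range n, ℘'[L] (L'.ω₁ / 4 + halfPeriods L i + k * a)
      = (∏ k ∈ Finset.Ico 1 n, ℘'[L] (k * a)) * ℘'[L'] (L'.ω₁ / 4 + halfPeriods L i) :=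
    fun i => prod_derivWP_eq hc hn0 hwL.two_mul_mem hwL' (hzw i)
  have e5 := derivWP_mul_prod_two_torsion L' hwL' hz
  rw [e1, e2, e3, Finset.prod_congr rfl (fun i _ => e4 i), Finset.prod_mul_distrib,
    Finset.prod_const, ← e5]
  simp only [Finset.card_univ, Fintype.card_fin]
  ring

/-! ## Prime-order form (the shape consumed by `S15.helper5538.Stmt_Prod`) -/

/-- For `p` prime, `a ∉ L`, `p a ∈ L`: the multiples of `a` in `L` are the multiples of `p a`. -/
theorem mul_mem_iff_of_prime (L : PeriodPair) {p : ℕ} (hp : p.Prime) {a : ℂ}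
    (ha : a ∉ L.lattice) (hpa : (p : ℂ) * a ∈ L.lattice) (k : ℤ) :
    (k : ℂ) * a ∈ L.lattice ↔ (p : ℤ) ∣ k := by
  constructor
  · intro hk
    by_contra hnd
    have hcop : IsCoprime (p : ℤ) k :=
      (Nat.prime_iff_prime_int.mp hp).irreducible.coprime_iff_not_dvd.mpr hnd
    obtain ⟨u, v, huv⟩ := hcop
    have h1 : (v : ℂ) * ((k : ℂ) * a) + (u : ℂ) * ((p : ℂ) * a) = a := by
      have h2 : ((u * p + v * k : ℤ) : ℂ) = 1 := by
        rw [huv]
        simp
      push_cast at h2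
      linear_combination a * h2
    apply ha
    rw [← h1]
    exact L.lattice.add_mem (by simpa using L.lattice.smul_mem v hk)
      (by simpa using L.lattice.smul_mem u hpa)
  · rintro ⟨m, rfl⟩
    have e : ((p * m : ℤ) : ℂ) * a = (m : ℂ) * ((p : ℂ) * a) := by
      push_cast
      ring
    rw [e]
    simpa using L.lattice.smul_mem m hpa

/-- **Prime-order form of the discriminant identity** (literally the body of
`Fermat.Agent.S15.helper5538.Stmt_Prod`). -/
theorem disc_mul_prod_derivWP_pow_four_prime (L L' : PeriodPair) (p : ℕ) (hp : p.Prime)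
    (hp2 : p ≠ 2) (a : ℂ) (ha : a ∉ L.lattice) (hpa : (p : ℂ) * a ∈ L.lattice)
    (hL' : ∀ z : ℂ, z ∈ L'.lattice ↔ ∃ k : ℤ, z - k * a ∈ L.lattice) :
    (L'.g₂ ^ 3 - 27 * L'.g₃ ^ 2) * ∏ k ∈ Finset.Ico 1 p, L.derivWeierstrassP ((k : ℂ) * a) ^ 4
      = (L.g₂ ^ 3 - 27 * L.g₃ ^ 2) ^ p := by
  rw [Finset.prod_pow]
  exact disc_mul_prod_derivWP_pow_four L L' p (hp.odd_of_ne_two hp2) a hL'
    (mul_mem_iff_of_prime L hp ha hpa)

end Fermat.Agent.S15.helper4651
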