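/-
S15 moduli bridge, (MOD) up to the place: THE MODULI POINT OF THE FROZEN PAIR `(W, Q)`,
unconditionally.

For the binders of the frozen statement S15 (`W : WeierstrassCurve ℤ`, `Δ ≠ 0`, `Q` a Galois-fixed
point of exact odd prime order `p` of `W(ℚ̄)`) there are a nonzero RATIONAL number
`u = U(W, Q) = Δ^(p-1) / ∏_{k=1}^{p-1} ψ₂(k • Q)^4` and `τ ∈ ℍ` with

* `E₄(τ)³ · Δ(W) = c₄(W)³ · Δ(τ)`     (`j(τ) = j(W)`),
* `p¹² · Δ(pτ) = u · Δ(τ)`            (`Δ(τ)/Δ(pτ) = p¹²/u`, the value of the modular unit).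

Assembly of: `helper1449_Xfer` (frozen front end), helper5538 `unitPoint` (UNIT-PT),
helper6352 `ptHom` (ADD), helper4651 `disc_mul_prod_derivWP_pow_four` (STAR).
-/
import Fermat.Agent.S15.helper1449_AddInst
import Fermat.Agent.S15.helper4651_DeltaIsogeny

set_option autoImplicit false

open WeierstrassCurve WeierstrassCurve.Affine

namespace Fermat.Agent.S15.helper1449

open UpperHalfPlane ModularForm

/-- **(STAR)** in helper5538's interface shape. -/
theorem stmt_Prod : Fermat.Agent.S15.helper5538.Stmt_Prod :=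
  Fermat.Agent.S15.helper5538.stmt_Prod_of_odd
    Fermat.Agent.S15.helper4651.disc_mul_prod_derivWP_pow_four

/-- **(UNIT-PT)**, unconditionally: the analytic moduli point of a complex Weierstrass curve with
a point of odd prime order. -/
theorem stmt_UnitPoint : Fermat.Agent.S15.helper5538.Stmt_UnitPoint :=
  stmt_UnitPoint_of_prod stmt_Prod

/-- **The moduli point of the frozen pair `(W, Q)` of S15.** -/
theorem exists_tau {p : ℕ} (hp : p.Prime) (hp2 : p ≠ 2) (W : WeierstrassCurve ℤ) (hΔ : W.Δ ≠ 0)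
    (Q : ((W.map (Int.castRingHom ℚ))⁄(AlgebraicClosure ℚ)).Point)
    (hQfix : ∀ σ : AlgebraicClosure ℚ ≃ₐ[ℚ] AlgebraicClosure ℚ, σ • Q = Q)
    (hQord : addOrderOf Q = p) :
    ∃ u : ℚ, u ≠ 0 ∧
      algebraMap ℚ (AlgebraicClosure ℚ) u =
        Uval ((W.map (Int.castRingHom ℚ))⁄(AlgebraicClosure ℚ)) Q p ∧
      ∃ τ : ℍ, E₄ τ ^ 3 * ((W.Δ : ℤ) : ℂ) = ((W.c₄ : ℤ) : ℂ) ^ 3 * ModularForm.discriminant τ ∧
        (p : ℂ) ^ 12 * ModularForm.discriminant (ofComplex ((p : ℂ) * τ)) =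
          (u : ℂ) * ModularForm.discriminant τ :=
  exists_tau_of_prod stmt_Prod hp hp2 W hΔ Q hQfix hQord

end Fermat.Agent.S15.helper1449
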