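/-
S15/S12 moduli bridge, PAIR-LEVEL front end: the same as `helper1449_Xfer` / `helper1449_ModTau`
for a Galois-STABLE line `⟨Q⟩` (`σ • Q = k • Q`), as needed by the pair form of the Mazur block
(S12).  `U(W, Q) = Δ^(p-1) / ∏_{k=1}^{p-1} ψ₂(k • Q)^4` depends only on the line `⟨Q⟩`, hence is
Galois-invariant, hence rational; the transfer to `ℂ` uses an embedding `ℚ̄ → ℂ`.
-/
import Fermat.Agent.S15.helper1449_ModTau

set_option autoImplicit false

open WeierstrassCurve WeierstrassCurve.Affine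

namespace Fermat.Agent.S15.helper1449

open UpperHalfPlane ModularForm

/-! ### A product over `1 ≤ j ≤ p - 1` is invariant under multiplication by a unit mod `p` -/

theorem prod_Icc_eq_prod_erase {M : Type*} [CommMonoid M] {p : ℕ} [Fact p.Prime]
    (G : ZMod p → M) :
    ∏ j ∈ Finset.Icc 1 (p - 1), G (j : ZMod p) =
      ∏ a ∈ (Finset.univ : Finset (ZMod p)).erase 0, G a := by
  have hp : p.Prime := Fact.out
  refine Finset.prod_nbij' (fun j : ℕ => (j : ZMod p)) (fun a => a.val) ?_ ?_ ?_ ?_ ?_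
  · intro j hj
    rw [Finset.mem_Icc] at hj
    rw [Finset.mem_erase]
    refine ⟨?_, Finset.mem_univ _⟩
    rw [Ne, ZMod.natCast_eq_zero_iff]
    intro hdvd
    have := Nat.le_of_dvd (by omega) hdvd
    have := hp.pos
    omega
  · intro a ha
    rw [Finset.mem_erase] at ha
    rw [Finset.mem_Icc]
    have h1 : a.val ≠ 0 := fun h => ha.1 ((ZMod.val_eq_zero a).mp h)
    have h2 := ZMod.val_lt a
    omega
  · intro j hj
    rw [Finset.mem_Icc] at hj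
    rw [ZMod.val_natCast]
    apply Nat.mod_eq_of_lt
    have := hp.pos
    omega
  · intro a _
    exact ZMod.natCast_zmod_val a
  · intro j _
    rfl

theorem prod_erase_mul {M : Type*} [CommMonoid M] {p : ℕ} [Fact p.Prime]
    (G : ZMod p → M) {c : ZMod p} (hc : c ≠ 0) :
    ∏ a ∈ (Finset.univ : Finset (ZMod p)).erase 0, G (a * c) =
      ∏ a ∈ (Finset.univ : Finset (ZMod p)).erase 0, G a := by
  refine Finset.prod_nbij' (fun a => a * c) (fun a => a * c⁻¹) ?_ ?_ ?_ ?_ ?_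
  · intro a ha
    rw [Finset.mem_erase] at ha ⊢
    exact ⟨mul_ne_zero ha.1 hc, Finset.mem_univ _⟩
  · intro a ha
    rw [Finset.mem_erase] at ha ⊢
    exact ⟨mul_ne_zero ha.1 (inv_ne_zero hc), Finset.mem_univ _⟩
  · intro a _
    exact mul_inv_cancel_right₀ hc a
  · intro a _
    exact inv_mul_cancel_right₀ hc a
  · intro a _
    rfl

/-- A product of a `p`-periodic function over `1 ≤ j ≤ p - 1` is invariant under `j ↦ j * m`,
`p ∤ m`. -/
theorem prod_Icc_mul_periodic {M : Type*} [CommMonoid M] {p : ℕ} (hp : p.Prime) (h : ℕ → M)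
    (hper : Function.Periodic h p) {m : ℕ} (hm : ¬ p ∣ m) :
    ∏ j ∈ Finset.Icc 1 (p - 1), h (j * m) = ∏ j ∈ Finset.Icc 1 (p - 1), h j := by
  have : Fact p.Prime := ⟨hp⟩
  have hH : ∀ n : ℕ, h n = h ((n : ZMod p)).val := by
    intro n
    rw [ZMod.val_natCast, hper.map_mod_nat]
  have hc : (m : ZMod p) ≠ 0 := by
    rw [Ne, ZMod.natCast_eq_zero_iff]
    exact hm
  calc ∏ j ∈ Finset.Icc 1 (p - 1), h (j * m)
      = ∏ j ∈ Finset.Icc 1 (p - 1), (fun a : ZMod p => h (a * (m : ZMod p)).val) (j : ZMod p) := by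
        apply Finset.prod_congr rfl
        intro j _
        rw [hH (j * m), Nat.cast_mul]
    _ = ∏ a ∈ (Finset.univ : Finset (ZMod p)).erase 0, h (a * (m : ZMod p)).val :=
        prod_Icc_eq_prod_erase (fun a : ZMod p => h (a * (m : ZMod p)).val)
    _ = ∏ a ∈ (Finset.univ : Finset (ZMod p)).erase 0, h a.val :=
        prod_erase_mul (fun a : ZMod p => h a.val) hc
    _ = ∏ j ∈ Finset.Icc 1 (p - 1), (fun a : ZMod p => h a.val) (j : ZMod p) :=
        (prod_Icc_eq_prod_erase (fun a : ZMod p => h a.val)).symm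
    _ = ∏ j ∈ Finset.Icc 1 (p - 1), h j := by
        apply Finset.prod_congr rfl
        intro j _
        exact (hH j).symm

/-! ### `U` depends only on the line `⟨P⟩` -/

section Line

variable {F : Type*} [Field F] [DecidableEq F]

theorem Uval_nsmul (E : Affine F) {P : E.Point} {p : ℕ} (hp : p.Prime) (hP : addOrderOf P = p)
    {m : ℕ} (hm : ¬ p ∣ m) : Uval E (m • P) p = Uval E P p := by
  unfold Uval
  congr 1
  have hper : Function.Periodic (fun n : ℕ => psiPt E (n • P) ^ 4) p := by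
    intro n
    have h0 : p • P = 0 := by rw [← hP]; exact addOrderOf_nsmul_eq_zero P
    show psiPt E ((n + p) • P) ^ 4 = psiPt E (n • P) ^ 4
    rw [add_nsmul, h0, add_zero]
  have := prod_Icc_mul_periodic hp (fun n : ℕ => psiPt E (n • P) ^ 4) hper hm
  rw [← this]
  apply Finset.prod_congr rfl
  intro j _
  show psiPt E (j • m • P) ^ 4 = psiPt E ((j * m) • P) ^ 4
  rw [mul_nsmul']

theorem Uval_zsmul (E : Affine F) {P : E.Point} {p : ℕ} (hp : p.Prime) (hP : addOrderOf P = p)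
    {k : ℤ} (hk : ¬ (p : ℤ) ∣ k) : Uval E (k • P) p = Uval E P p := by
  have hp0 : (p : ℤ) ≠ 0 := by exact_mod_cast hp.ne_zero
  have h0 : (p : ℤ) • P = 0 := by
    rw [natCast_zsmul, ← hP]
    exact addOrderOf_nsmul_eq_zero P
  have hnn : 0 ≤ k % (p : ℤ) := Int.emod_nonneg k hp0
  have hkm : k • P = (k % (p : ℤ)).toNat • P := by
    conv_lhs => rw [← Int.emod_add_mul_ediv k (p : ℤ)]
    rw [add_zsmul, mul_zsmul', h0, smul_zero, add_zero, ← natCast_zsmul, Int.toNat_of_nonneg hnn]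
  rw [hkm]
  apply Uval_nsmul E hp hP
  intro hdvd
  apply hk
  have h1 : (p : ℤ) ∣ ((k % (p : ℤ)).toNat : ℤ) := by exact_mod_cast hdvd
  rw [Int.toNat_of_nonneg hnn] at h1
  exact Int.dvd_of_emod_eq_zero (Int.emod_emod_of_dvd k (dvd_refl _) ▸ Int.emod_eq_zero_of_dvd h1)

end Line

/-! ### The frozen binders, pair level -/

theorem isAlgebraic_rat_closure : Algebra.IsAlgebraic ℚ (AlgebraicClosure ℚ) := by
  have h : IsAlgClosure ℚ (AlgebraicClosure ℚ) := by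
    rw [ratAlgebra_eq_closure]
    infer_instance
  exact h.isAlgebraic

section Stable

variable {p : ℕ} (W : WeierstrassCurve ℤ)
  (Q : ((W.map (Int.castRingHom ℚ))⁄(AlgebraicClosure ℚ)).Point)

/-- `U(W, Q)` is Galois-invariant as soon as the line `⟨Q⟩` is Galois-stable. -/
theorem Uval_fixed_of_stable (hp : p.Prime)
    (hQstab : ∀ σ : AlgebraicClosure ℚ ≃ₐ[ℚ] AlgebraicClosure ℚ, ∃ k : ℤ, σ • Q = k • Q)
    (hQord : addOrderOf Q = p) (σ : AlgebraicClosure ℚ ≃ₐ[ℚ] AlgebraicClosure ℚ) :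
    σ (Uval ((W.map (Int.castRingHom ℚ))⁄(AlgebraicClosure ℚ)) Q p) =
      Uval ((W.map (Int.castRingHom ℚ))⁄(AlgebraicClosure ℚ)) Q p := by
  obtain ⟨k, hk⟩ := hQstab σ
  have hmap : σ • Q = Point.map (W' := W.map (Int.castRingHom ℚ)) σ.toAlgHom Q := rfl
  have h1 := Uval_map (W' := W.map (Int.castRingHom ℚ)) σ.toAlgHom Q p
  rw [← hmap, hk] at h1
  have hkp : ¬ (p : ℤ) ∣ k := by
    rintro ⟨c, rfl⟩
    have h0 : (p : ℤ) • Q = 0 := by
      rw [natCast_zsmul, ← hQord]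
      exact addOrderOf_nsmul_eq_zero Q
    rw [mul_comm, mul_zsmul, h0, zsmul_zero, hmap] at hk
    have hQ0 : Q = 0 := by
      apply Point.map_injective (W' := W.map (Int.castRingHom ℚ)) σ.toAlgHom
      rw [hk]
      rfl
    rw [hQ0, addOrderOf_zero] at hQord
    exact hp.one_lt.ne hQord
  rw [Uval_zsmul _ hp hQord hkp] at h1
  exact h1.symm

/-- **(X2), pair level**: `U(W, Q)` is a nonzero rational number for a Galois-stable line. -/
theorem exists_rat_Uval_stable (hp : p.Prime) (hp2 : p ≠ 2) (hΔ : W.Δ ≠ 0)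
    (hQstab : ∀ σ : AlgebraicClosure ℚ ≃ₐ[ℚ] AlgebraicClosure ℚ, ∃ k : ℤ, σ • Q = k • Q)
    (hQord : addOrderOf Q = p) :
    ∃ u : ℚ, u ≠ 0 ∧ algebraMap ℚ (AlgebraicClosure ℚ) u =
      Uval ((W.map (Int.castRingHom ℚ))⁄(AlgebraicClosure ℚ)) Q p := by
  obtain ⟨u, hu⟩ := fixed_mem_range_rat _ (Uval_fixed_of_stable W Q hp hQstab hQord)
  refine ⟨u, ?_, hu⟩
  rintro rfl
  rw [map_zero] at hu
  refine Uval_ne_zero _ ?_ hp hp2 hQord hu.symm
  have : ((W.map (Int.castRingHom ℚ))⁄(AlgebraicClosure ℚ)).Δ =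
      algebraMap ℚ (AlgebraicClosure ℚ) ((W.Δ : ℤ) : ℚ) := by
    simp [WeierstrassCurve.baseChange]
  rw [this, Ne, map_eq_zero]
  exact_mod_cast hΔ

/-- **Transfer to `ℂ`, pair level.** -/
theorem xfer_top_stable (hp : p.Prime) (hp2 : p ≠ 2) (hΔ : W.Δ ≠ 0)
    (hQstab : ∀ σ : AlgebraicClosure ℚ ≃ₐ[ℚ] AlgebraicClosure ℚ, ∃ k : ℤ, σ • Q = k • Q)
    (hQord : addOrderOf Q = p)
    (R : ℂ → ℂ → Prop)
    (hR : ∀ (Wc : WeierstrassCurve ℂ), Wc.Δ ≠ 0 → ∀ P : Wc.toAffine.Point,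
      addOrderOf P = p → R (Wc.c₄ ^ 3 / Wc.Δ) (Uval Wc.toAffine P p)) :
    ∃ u : ℚ, u ≠ 0 ∧
      algebraMap ℚ (AlgebraicClosure ℚ) u =
        Uval ((W.map (Int.castRingHom ℚ))⁄(AlgebraicClosure ℚ)) Q p ∧
      R ((((W.c₄ : ℤ) : ℚ) ^ 3 / ((W.Δ : ℤ) : ℚ) : ℚ) : ℂ) (u : ℂ) := by
  obtain ⟨u, hu0, hu⟩ := exists_rat_Uval_stable W Q hp hp2 hΔ hQstab hQord
  refine ⟨u, hu0, hu, ?_⟩
  have := isAlgebraic_rat_closure
  let ι : AlgebraicClosure ℚ →ₐ[ℚ] ℂ := IsAlgClosed.lift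
  have hΔc : ((W.map (Int.castRingHom ℚ))⁄ℂ).Δ = (((W.Δ : ℤ) : ℚ) : ℂ) := by
    simp [WeierstrassCurve.baseChange]
  have hc₄c : ((W.map (Int.castRingHom ℚ))⁄ℂ).c₄ = (((W.c₄ : ℤ) : ℚ) : ℂ) := by
    simp [WeierstrassCurve.baseChange]
  have key := hR ((W.map (Int.castRingHom ℚ))⁄ℂ)
    (by rw [hΔc]; exact_mod_cast hΔ)
    (Point.map (W' := W.map (Int.castRingHom ℚ)) ι Q)
    (by rw [addOrderOf_map]; exact hQord)
  rw [Uval_map, ← hu, hΔc, hc₄c, AlgHom.commutes] at key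
  have e1 : ((((W.c₄ : ℤ) : ℚ) ^ 3 / ((W.Δ : ℤ) : ℚ) : ℚ) : ℂ) =
      (((W.c₄ : ℤ) : ℚ) : ℂ) ^ 3 / (((W.Δ : ℤ) : ℚ) : ℂ) := by
    push_cast
    rfl
  rw [e1]
  exact key

/-- **The moduli point of a Galois-stable line `⟨Q⟩` on `W`** (pair form, for S12). -/
theorem exists_tau_stable (hp : p.Prime) (hp2 : p ≠ 2) (hΔ : W.Δ ≠ 0)
    (hQstab : ∀ σ : AlgebraicClosure ℚ ≃ₐ[ℚ] AlgebraicClosure ℚ, ∃ k : ℤ, σ • Q = k • Q)
    (hQord : addOrderOf Q = p) :
    ∃ u : ℚ, u ≠ 0 ∧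
      algebraMap ℚ (AlgebraicClosure ℚ) u =
        Uval ((W.map (Int.castRingHom ℚ))⁄(AlgebraicClosure ℚ)) Q p ∧
      ∃ τ : ℍ, E₄ τ ^ 3 * ((W.Δ : ℤ) : ℂ) = ((W.c₄ : ℤ) : ℂ) ^ 3 * ModularForm.discriminant τ ∧
        (p : ℂ) ^ 12 * ModularForm.discriminant (ofComplex ((p : ℂ) * τ)) =
          (u : ℂ) * ModularForm.discriminant τ := by
  obtain ⟨u, hu0, hu, hR⟩ := xfer_top_stable W Q hp hp2 hΔ hQstab hQord
    (fun j0 U0 => ∃ τ : ℍ, E₄ τ ^ 3 = j0 * ModularForm.discriminant τ ∧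
      (p : ℂ) ^ 12 * ModularForm.discriminant (ofComplex ((p : ℂ) * τ)) =
        U0 * ModularForm.discriminant τ)
    (by
      intro Wc hΔc P hP
      obtain ⟨τ, h1, h2⟩ := stmt_UnitPoint Wc hΔc p hp hp2 P hP
      refine ⟨τ, ?_, ?_⟩
      · rw [div_mul_eq_mul_div, eq_div_iff hΔc]
        exact h1
      · have hprod := Uval_mul_prod Wc.toAffine hp hp2 hP
        have hne := prod_psiPt_ne_zero Wc.toAffine hp hp2 hP
        rw [Ico_one_eq_Icc hp.pos] at h2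
        simp only [psi2_eq_psiPt] at h2
        rw [← hprod] at h2
        have h3 : ((p : ℂ) ^ 12 * ModularForm.discriminant (ofComplex ((p : ℂ) * τ)) -
            Uval Wc.toAffine P p * ModularForm.discriminant τ) *
            ∏ k ∈ Finset.Icc 1 (p - 1), psiPt Wc.toAffine (k • P) ^ 4 = 0 := by
          linear_combination h2
        rcases mul_eq_zero.mp h3 with h4 | h4
        · linear_combination h4
        · exact absurd h4 hne)
  refine ⟨u, hu0, hu, ?_⟩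
  obtain ⟨τ, h1, h2⟩ := hR
  refine ⟨τ, ?_, h2⟩
  have hΔc : (((W.Δ : ℤ) : ℚ) : ℂ) ≠ 0 := by exact_mod_cast hΔ
  have e1 : ((((W.c₄ : ℤ) : ℚ) ^ 3 / ((W.Δ : ℤ) : ℚ) : ℚ) : ℂ) =
      (((W.c₄ : ℤ) : ℚ) : ℂ) ^ 3 / (((W.Δ : ℤ) : ℚ) : ℂ) := by
    push_cast
    rfl
  rw [e1] at h1
  have e2 : (((W.Δ : ℤ) : ℚ) : ℂ) = ((W.Δ : ℤ) : ℂ) := by push_cast; rfl
  have e3 : (((W.c₄ : ℤ) : ℚ) : ℂ) = ((W.c₄ : ℤ) : ℂ) := by push_cast; rfl
  rw [e2, e3] at h1
  rw [e2] at hΔc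
  rw [h1]
  field_simp

end Stable

end Fermat.Agent.S15.helper1449
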