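import Mathlib
import Fermat.Prelude.Def_FLTPrelim_Ramification
import Fermat.Prelude.Def_GaloisRep_Residual
import Fermat.Prelude.Def_GaloisRep_ComplexConjugation
import Fermat.Agent.Lib.helper1646_MinkowskiInertia
import Fermat.Agent.Lib.helper954_QbarPlaces
import Fermat.Agent.Lib.helper872_QbarPlaces
import Fermat.Agent.Lib.helper54_Frobenius
import Fermat.Agent.S56.helper6024_TameInertia
import Fermat.Agent.S58.helper6024_Unram
import Fermat.Agent.S55.helper1401_GRUnram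

/-!
# Global class counts over `ℚ` in the frozen vocabulary (helper1476)

`Qb := AlgebraicClosure ℚ`, `GQ := Qb ≃ₐ[ℚ] Qb`.  The elementary global inputs of an Eisenstein
descent (Mazur block, findings #3289 (G1) / #3286 (W6) / #3290):

* `UnramAt χ q`                  : `χ` is trivial on every inertia group over `q`;
* `eq_one_of_unramAt`            : (M) an everywhere unramified character of finite level is trivial;
* `eq_one_of_unramAt_ne`         : (KW1) exponent `r` prime to `p (p - 1)`, unramified outside `p`;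
* `exists_pow_eq_of_unramAt_ne`  : (KW2) two `ℤ/r`-characters unramified outside `p` are proportional;
* `exists_generator_unramAt_ne`  : (KW2) `Hom(G_ℚ, ℤ/r)` unramified outside `p` is cyclic;
* `dvd_padicValRat_of_unit_class`: (K1) a Kummer class which is a unit class at `q` has `r ∣ v_q`;
* `exists_eq_sign_mul_prod_mul_pow` : (K2) `r ∣ v_q(u)` off `S` gives `u = ± ∏_{q ∈ S} q^e · w^r`;
* `pos_of_sq_eq_of_complexConjugation` : (K3) a real square root forces `u > 0`;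
* `emod_four_of_sq_eq_of_inertia`: (K5) `ℚ(√u)` unramified at `2`, `u` odd, forces `u ≡ 1 mod 4`.
-/

set_option autoImplicit false

namespace Fermat.Agent.S15.helper1476

open scoped Pointwise

local notation "Qb" => AlgebraicClosure ℚ
local notation "GQ" => (AlgebraicClosure ℚ ≃ₐ[ℚ] AlgebraicClosure ℚ)

/-! ## Characters -/

section Characters

/-- `χ` is unramified at `q`: trivial on the inertia group of every valuation subring over `q`. -/
def UnramAt {C : Type} [Monoid C] (χ : GQ →* C) (q : ℕ) : Prop :=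
  ∀ A : ValuationSubring Qb, A.LiesOverPrime q → ∀ σ ∈ A.inertiaSubgroupIn ℚ, χ σ = 1

theorem isOpen_ker_of_finiteLevel {C : Type} [Group C] (χ : GQ →* C)
    (hχ : GaloisFactorsThroughFiniteLevel χ) : IsOpen (χ.ker : Set GQ) := by
  obtain ⟨L, hL, h⟩ := hχ
  have h1 : L.fixingSubgroup ≤ χ.ker := fun σ hσ => by
    rw [MonoidHom.mem_ker]
    exact h σ fun x hx => (IntermediateField.mem_fixingSubgroup_iff L σ).1 hσ x hx
  exact Subgroup.isOpen_mono h1 (IntermediateField.fixingSubgroup_isOpen L)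

/-- **(M) Minkowski.**  A character of finite level unramified at every prime is trivial. -/
theorem eq_one_of_unramAt {C : Type} [Group C] (χ : GQ →* C)
    (hχ : GaloisFactorsThroughFiniteLevel χ) (h : ∀ q : ℕ, q.Prime → UnramAt χ q) : χ = 1 := by
  ext σ
  exact Fermat.Agent.Lib.helper1646.monoidHom_eq_one_of_inertia χ
    (isOpen_ker_of_finiteLevel χ hχ) (fun q hq A hA τ hτ => h q hq A hA τ hτ) σ

/-- For a commutative target it suffices to test one valuation subring over `q`. -/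
theorem unramAt_of_forall_mem {C : Type} [CommGroup C] (χ : GQ →* C) {q : ℕ} (hq : q.Prime)
    (A : ValuationSubring Qb) (hA : A.LiesOverPrime q)
    (h : ∀ σ ∈ A.inertiaSubgroupIn ℚ, χ σ = 1) : UnramAt χ q := by
  intro A' hA' σ hσ
  obtain ⟨τ, hτ⟩ := Fermat.Agent.Lib.helper954.exists_smul_eq hq A' A hA' hA
  have h1 := Fermat.Agent.Lib.helper1646.conj_mem_inertiaSubgroupIn A' τ σ hσ
  rw [hτ] at h1
  have h2 := h _ h1
  rwa [map_mul, map_mul, map_inv, mul_right_comm, mul_inv_cancel, one_mul] at h2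

theorem finiteLevel_prod {C₁ C₂ : Type} [Monoid C₁] [Monoid C₂] (χ₁ : GQ →* C₁) (χ₂ : GQ →* C₂)
    (h₁ : GaloisFactorsThroughFiniteLevel χ₁) (h₂ : GaloisFactorsThroughFiniteLevel χ₂) :
    GaloisFactorsThroughFiniteLevel (χ₁.prod χ₂) := by
  obtain ⟨L₁, hL₁, h₁⟩ := h₁
  obtain ⟨L₂, hL₂, h₂⟩ := h₂
  refine ⟨L₁ ⊔ L₂, IntermediateField.finiteDimensional_sup L₁ L₂, fun σ hσ => ?_⟩
  rw [MonoidHom.prod_apply, Prod.mk_eq_one]
  exact ⟨h₁ σ fun x hx => hσ x ((le_sup_left : L₁ ≤ L₁ ⊔ L₂) hx),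
    h₂ σ fun x hx => hσ x ((le_sup_right : L₂ ≤ L₁ ⊔ L₂) hx)⟩

/-- **(KW1).**  A character of finite level into a commutative group of exponent `r`, with `r`
prime to `p (p - 1)`, unramified outside `p`, is trivial. -/
theorem eq_one_of_unramAt_ne {C : Type} [CommGroup C] {p r : ℕ} (hp : p.Prime)
    (hr : ∀ c : C, c ^ r = 1) (hrp : r.Coprime p) (hrp1 : r.Coprime (p - 1))
    (χ : GQ →* C) (hχ : GaloisFactorsThroughFiniteLevel χ)
    (h : ∀ q : ℕ, q.Prime → q ≠ p → UnramAt χ q) : χ = 1 := by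
  obtain ⟨A, hA⟩ := Fermat.Agent.Lib.helper54.exists_liesOverPrime hp
  refine eq_one_of_unramAt χ hχ fun q hq => ?_
  by_cases hqp : q = p
  · subst hqp
    refine unramAt_of_forall_mem χ hq A hA fun σ hσ => ?_
    obtain ⟨φ, hφ⟩ := Fermat.Agent.Lib.helper54.exists_isFrobeniusAt hq A hA
    have hcop : ∀ τ ∈ A.inertiaSubgroupIn ℚ, ∃ n : ℕ, n.Coprime q ∧ χ τ ^ n = 1 :=
      fun τ _ => ⟨r, hrp, hr _⟩
    have h1 := Fermat.Agent.S56.helper6024.tame_frobenius hq A hA χ hχ hcop φ hφ σ hσ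
    have h2 : χ σ ^ q = χ σ := by
      rw [← h1, map_mul, map_mul, map_inv, mul_right_comm, mul_inv_cancel, one_mul]
    have h3 : χ σ ^ (q - 1) = 1 := by
      have h4 : χ σ ^ (q - 1) * χ σ = χ σ := by
        rw [← pow_succ, Nat.sub_add_cancel hq.one_le, h2]
      exact mul_eq_right.mp h4
    have hdvd : orderOf (χ σ) ∣ Nat.gcd r (q - 1) :=
      Nat.dvd_gcd (orderOf_dvd_of_pow_eq_one (hr _)) (orderOf_dvd_of_pow_eq_one h3)
    rw [Nat.Coprime.gcd_eq_one hrp1, Nat.dvd_one, orderOf_eq_one_iff] at hdvd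
    exact hdvd
  · exact h q hq hqp

theorem exists_pow_eq_of_ne_one {r : ℕ} [Fact r.Prime] {a : Multiplicative (ZMod r)}
    (ha : a ≠ 1) (b : Multiplicative (ZMod r)) : ∃ n : ℕ, b = a ^ n := by
  have ha' : Multiplicative.toAdd a ≠ 0 := fun h => ha (by
    rw [← ofAdd_toAdd a, h]; rfl)
  refine ⟨(Multiplicative.toAdd b / Multiplicative.toAdd a).val, ?_⟩
  apply Multiplicative.toAdd.injective
  rw [toAdd_pow, nsmul_eq_mul, ZMod.natCast_zmod_val, div_mul_cancel₀ _ ha']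

/-- **(KW2), pair form.**  Two `ℤ/r`-valued characters of finite level unramified outside `p`
(`r` a prime different from `p`) are proportional. -/
theorem exists_pow_eq_of_unramAt_ne {p r : ℕ} (hp : p.Prime) [hr : Fact r.Prime] (hrp : r ≠ p)
    (χ₁ χ₂ : GQ →* Multiplicative (ZMod r))
    (h₁ : GaloisFactorsThroughFiniteLevel χ₁) (h₂ : GaloisFactorsThroughFiniteLevel χ₂)
    (u₁ : ∀ q : ℕ, q.Prime → q ≠ p → UnramAt χ₁ q)
    (u₂ : ∀ q : ℕ, q.Prime → q ≠ p → UnramAt χ₂ q) (hne : χ₁ ≠ 1) :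
    ∃ n : ℕ, χ₂ = χ₁ ^ n := by
  obtain ⟨A, hA⟩ := Fermat.Agent.Lib.helper54.exists_liesOverPrime hp
  have hcopr : r.Coprime p := (Nat.coprime_primes hr.out hp).mpr hrp
  have hexp : ∀ c : Multiplicative (ZMod r), c ^ r = 1 := fun c => by
    apply Multiplicative.toAdd.injective
    rw [toAdd_pow, nsmul_eq_mul, ZMod.natCast_self, zero_mul]; rfl
  have hcop : ∀ τ ∈ A.inertiaSubgroupIn ℚ, ∃ n : ℕ, n.Coprime p ∧ (χ₁.prod χ₂) τ ^ n = 1 :=
    fun τ _ => ⟨r, hcopr, by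
      rw [MonoidHom.prod_apply, Prod.pow_mk, hexp, hexp]; rfl⟩
  obtain ⟨s, hs, hgen⟩ := Fermat.Agent.S56.helper6024.tame_cyclic hp A hA (χ₁.prod χ₂)
    (finiteLevel_prod χ₁ χ₂ h₁ h₂) hcop
  have hgen1 : ∀ σ ∈ A.inertiaSubgroupIn ℚ, ∃ n : ℕ, χ₁ σ = χ₁ s ^ n ∧ χ₂ σ = χ₂ s ^ n := by
    intro σ hσ
    obtain ⟨n, hn⟩ := hgen σ hσ
    rw [MonoidHom.prod_apply, MonoidHom.prod_apply, Prod.pow_mk, Prod.mk.injEq] at hn
    exact ⟨n, hn⟩
  have hs1 : χ₁ s ≠ 1 := by
    intro h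
    apply hne
    refine eq_one_of_unramAt χ₁ h₁ fun q hq => ?_
    by_cases hqp : q = p
    · subst hqp
      refine unramAt_of_forall_mem χ₁ hq A hA fun σ hσ => ?_
      obtain ⟨n, hn, -⟩ := hgen1 σ hσ
      rw [hn, h, one_pow]
    · exact u₁ q hq hqp
  obtain ⟨n, hn⟩ := exists_pow_eq_of_ne_one hs1 (χ₂ s)
  refine ⟨n, ?_⟩
  have hfl : GaloisFactorsThroughFiniteLevel (χ₂ / χ₁ ^ n) := by
    obtain ⟨L, hL, hL'⟩ := finiteLevel_prod χ₁ χ₂ h₁ h₂
    refine ⟨L, hL, fun σ hσ => ?_⟩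
    have h3 := hL' σ hσ
    rw [MonoidHom.prod_apply, Prod.mk_eq_one] at h3
    rw [MonoidHom.div_apply, MonoidHom.pow_apply, h3.1, h3.2, one_pow, div_one]
  have h4 : χ₂ / χ₁ ^ n = 1 := by
    refine eq_one_of_unramAt _ hfl fun q hq => ?_
    by_cases hqp : q = p
    · subst hqp
      refine unramAt_of_forall_mem _ hq A hA fun σ hσ => ?_
      obtain ⟨m, hm1, hm2⟩ := hgen1 σ hσ
      rw [MonoidHom.div_apply, MonoidHom.pow_apply, hm1, hm2, hn, ← pow_mul, ← pow_mul,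
        mul_comm, div_self']
    · intro A' hA' σ hσ
      rw [MonoidHom.div_apply, MonoidHom.pow_apply, u₁ q hq hqp A' hA' σ hσ,
        u₂ q hq hqp A' hA' σ hσ, one_pow, div_one]
  exact div_eq_one.mp h4

/-- **(KW2), cyclic form.**  The group of `ℤ/r`-valued characters of finite level unramified
outside `p` is cyclic (of order `1` or `r`). -/
theorem exists_generator_unramAt_ne {p r : ℕ} (hp : p.Prime) [hr : Fact r.Prime] (hrp : r ≠ p) :
    ∃ χ₀ : GQ →* Multiplicative (ZMod r), GaloisFactorsThroughFiniteLevel χ₀ ∧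
      (∀ q : ℕ, q.Prime → q ≠ p → UnramAt χ₀ q) ∧
      ∀ χ : GQ →* Multiplicative (ZMod r), GaloisFactorsThroughFiniteLevel χ →
        (∀ q : ℕ, q.Prime → q ≠ p → UnramAt χ q) → ∃ n : ℕ, χ = χ₀ ^ n := by
  by_cases hall : ∀ χ : GQ →* Multiplicative (ZMod r), GaloisFactorsThroughFiniteLevel χ →
      (∀ q : ℕ, q.Prime → q ≠ p → UnramAt χ q) → χ = 1
  · refine ⟨1, ⟨⊥, inferInstance, fun σ _ => rfl⟩, fun q _ _ A _ σ _ => rfl, fun χ h1 h2 => ?_⟩
    exact ⟨0, by rw [hall χ h1 h2, pow_zero]⟩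
  · push Not at hall
    obtain ⟨χ₀, h1, h2, h3⟩ := hall
    exact ⟨χ₀, h1, h2, fun χ h4 h5 => exists_pow_eq_of_unramAt_ne hp hrp χ₀ χ h1 h4 h2 h5 h3⟩

end Characters

/-! ## Kummer classes -/

section Kummer

/-- **(K1), unit-class form.**  If `u = U · z ^ r` with `U` a unit at `A` (over `q`) and `z`
fixed by the inertia group of `A`, then `r ∣ v_q(u)`.  (`q = r` is allowed.) -/
theorem dvd_padicValRat_of_unit_class {q : ℕ} (hq : q.Prime) (A : ValuationSubring Qb)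
    (hA : A.LiesOverPrime q) (r : ℕ) {u : ℚ} (hu : u ≠ 0) (U z : Qb)
    (hU : A.valuation U = 1) (hz : ∀ σ ∈ A.inertiaSubgroupIn ℚ, σ z = z)
    (h : (u : Qb) = U * z ^ r) : (r : ℤ) ∣ padicValRat q u := by
  have hu' : (u : Qb) ≠ 0 := by exact_mod_cast hu
  have h1 := Fermat.Agent.S55.helper1401.valuation_ratCast_eq_zpow hq A hA hu
  have hπ0 : 0 < A.valuation (q : Qb) := Fermat.Agent.S58.helper6024.valuation_natCast_pos A hq
  have hπ1 : A.valuation (q : Qb) ≠ 1 := (A.mem_nonunits_iff.mp hA).ne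
  by_cases hz0 : z = 0
  · subst hz0
    rcases Nat.eq_zero_or_pos r with hr | hr
    · subst hr
      rw [pow_zero, mul_one] at h
      rw [h, hU] at h1
      have h3 : padicValRat q u = 0 :=
        zpow_right_injective₀ hπ0 hπ1 (by simp only [zpow_zero]; exact h1.symm)
      rw [h3]
      exact dvd_zero _
    · rw [zero_pow hr.ne', mul_zero] at h
      exact absurd h hu'
  · obtain ⟨n, hn⟩ := Fermat.Agent.S58.helper6024.exists_zpow_valuation_eq A hq hA z hz hz0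
    have h2 : A.valuation ((u : ℚ) : Qb) = A.valuation (q : Qb) ^ (n * (r : ℤ)) := by
      rw [h, map_mul, hU, one_mul, map_pow, hn, zpow_mul, zpow_natCast]
    rw [h1] at h2
    have h3 := zpow_right_injective₀ hπ0 hπ1 h2
    exact ⟨n, by rw [h3, mul_comm]⟩

/-- **(K1).**  If `y ^ r = u` and `y` is fixed by the inertia group of one valuation subring over
`q`, then `r ∣ v_q(u)`. -/
theorem dvd_padicValRat_of_root_fixed {q : ℕ} (hq : q.Prime) (A : ValuationSubring Qb)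
    (hA : A.LiesOverPrime q) (r : ℕ) {u : ℚ} (hu : u ≠ 0) (y : Qb) (hy : y ^ r = (u : Qb))
    (hfix : ∀ σ ∈ A.inertiaSubgroupIn ℚ, σ y = y) : (r : ℤ) ∣ padicValRat q u :=
  dvd_padicValRat_of_unit_class hq A hA r hu 1 y (map_one _) hfix (by rw [one_mul, hy])

theorem natCast_eq_prod_pow (P : Finset ℕ) {a : ℕ} (ha : a ≠ 0) (hP : a.primeFactors ⊆ P) :
    (a : ℚ) = ∏ q ∈ P, (q : ℚ) ^ (if q.Prime then padicValNat q a else 0) := by
  have h1 : ∏ q ∈ P, (q : ℚ) ^ (if q.Prime then padicValNat q a else 0)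
      = ∏ q ∈ a.primeFactors, (q : ℚ) ^ (if q.Prime then padicValNat q a else 0) := by
    symm
    refine Finset.prod_subset hP fun q _ hq => ?_
    split_ifs with hqp
    · have : ¬ q ∣ a := fun hd => hq (Nat.mem_primeFactors.mpr ⟨hqp, hd, ha⟩)
      rw [padicValNat.eq_zero_of_not_dvd this, pow_zero]
    · rw [pow_zero]
  rw [h1]
  have h2 := Nat.prod_factorization_pow_eq_self ha
  rw [Nat.prod_factorization_eq_prod_primeFactors] at h2
  conv_lhs => rw [← h2]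
  push_cast
  refine Finset.prod_congr rfl fun q hq => ?_
  rw [if_pos (Nat.prime_of_mem_primeFactors hq), Nat.factorization_def a (Nat.prime_of_mem_primeFactors hq)]

/-- Every nonzero rational number is a sign times the product of `q ^ v_q(u)` over any finite
set of numbers containing the primes dividing its numerator or its denominator. -/
theorem rat_eq_sign_mul_prod (P : Finset ℕ) {u : ℚ} (hu : u ≠ 0)
    (hP : u.num.natAbs.primeFactors ∪ u.den.primeFactors ⊆ P) :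
    ∃ ε : ℚ, (ε = 1 ∨ ε = -1) ∧
      u = ε * ∏ q ∈ P, (q : ℚ) ^ (if q.Prime then padicValRat q u else 0) := by
  have hnum : u.num ≠ 0 := Rat.num_ne_zero.mpr hu
  have hnat : u.num.natAbs ≠ 0 := Int.natAbs_ne_zero.mpr hnum
  have h1 := natCast_eq_prod_pow P hnat (Finset.union_subset_left hP)
  have h2 := natCast_eq_prod_pow P u.den_nz (Finset.union_subset_right hP)
  have h3 : ∏ q ∈ P, (q : ℚ) ^ (if q.Prime then padicValRat q u else 0)
      = (u.num.natAbs : ℚ) / (u.den : ℚ) := by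
    rw [h1, h2, ← Finset.prod_div_distrib]
    refine Finset.prod_congr rfl fun q _ => ?_
    split_ifs with hqp
    · have hq0 : (q : ℚ) ≠ 0 := by exact_mod_cast hqp.ne_zero
      have h4 : padicValRat q u
          = (padicValNat q u.num.natAbs : ℤ) - (padicValNat q u.den : ℤ) := rfl
      rw [h4, zpow_sub₀ hq0, zpow_natCast, zpow_natCast]
    · simp
  have h5 : u = (u.num : ℚ) / (u.den : ℚ) := (Rat.num_div_den u).symm
  rcases Int.natAbs_eq u.num with h | h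
  · refine ⟨1, Or.inl rfl, ?_⟩
    have h6 : (u.num : ℚ) = (u.num.natAbs : ℚ) := by rw [← Int.cast_natCast, ← h]
    rw [one_mul, h3, ← h6]
    exact h5
  · refine ⟨-1, Or.inr rfl, ?_⟩
    have h6 : (u.num : ℚ) = -(u.num.natAbs : ℚ) := by
      rw [← Int.cast_natCast, ← Int.cast_neg, ← h]
    rw [h3]
    calc u = (u.num : ℚ) / (u.den : ℚ) := h5
      _ = -1 * ((u.num.natAbs : ℚ) / (u.den : ℚ)) := by rw [h6]; ring

/-- **(K2).**  If `r ∣ v_q(u)` for every prime `q` outside the finite set `S`, then `u` is a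
sign times an `S`-unit times an `r`-th power. -/
theorem exists_eq_sign_mul_prod_mul_pow (r : ℕ) (S : Finset ℕ) {u : ℚ} (hu : u ≠ 0)
    (h : ∀ q : ℕ, q.Prime → q ∉ S → (r : ℤ) ∣ padicValRat q u) :
    ∃ (ε : ℚ) (e : ℕ → ℤ) (w : ℚ), (ε = 1 ∨ ε = -1) ∧ w ≠ 0 ∧
      u = ε * (∏ q ∈ S, (q : ℚ) ^ e q) * w ^ r := by
  classical
  set T : Finset ℕ := (u.num.natAbs.primeFactors ∪ u.den.primeFactors) ∪ S with hT
  obtain ⟨ε, hε, hu'⟩ := rat_eq_sign_mul_prod T hu Finset.subset_union_left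
  set e : ℕ → ℤ := fun q => if q.Prime then padicValRat q u else 0 with he
  have hdvd : ∀ q, q ∉ S → (r : ℤ) ∣ e q := by
    intro q hq
    rw [he]
    dsimp only
    split_ifs with hqp
    · exact h q hqp hq
    · exact dvd_zero _
  refine ⟨ε, e, ∏ q ∈ T \ S, (q : ℚ) ^ (e q / (r : ℤ)), hε, ?_, ?_⟩
  · refine Finset.prod_ne_zero_iff.mpr fun q hq => ?_
    by_cases hq0 : q = 0
    · subst hq0
      have : e 0 = 0 := by rw [he]; exact if_neg Nat.not_prime_zero
      rw [this, Int.zero_ediv, zpow_zero]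
      exact one_ne_zero
    · exact zpow_ne_zero _ (by exact_mod_cast hq0)
  · have hST : S ⊆ T := Finset.subset_union_right
    have h1 : ∏ q ∈ T \ S, (q : ℚ) ^ e q = (∏ q ∈ T \ S, (q : ℚ) ^ (e q / (r : ℤ))) ^ r := by
      rw [← Finset.prod_pow]
      refine Finset.prod_congr rfl fun q hq => ?_
      rw [← zpow_natCast, ← zpow_mul, Int.ediv_mul_cancel (hdvd q (Finset.mem_sdiff.mp hq).2)]
    rw [← h1, mul_assoc, mul_comm (∏ q ∈ S, (q : ℚ) ^ e q), Finset.prod_sdiff hST]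
    exact hu'

/-- **(K3).**  If `y ^ 2 = u` and complex conjugation fixes `y`, then `u > 0`. -/
theorem pos_of_sq_eq_of_complexConjugation {u : ℚ} (hu : u ≠ 0) (y : Qb)
    (hy : y ^ 2 = (u : Qb)) (hc : complexConjugation y = y) : 0 < u := by
  have h1 : starRingEnd ℂ (complexEmbedding y) = complexEmbedding y := by
    rw [← complexEmbedding_complexConjugation, hc]
  have h2 : ((complexEmbedding y).re : ℂ) = complexEmbedding y := Complex.conj_eq_iff_re.mp h1
  have h3 : complexEmbedding y ^ 2 = (u : ℂ) := by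
    rw [← map_pow, hy, map_ratCast]
  rw [← h2] at h3
  have h4 : (complexEmbedding y).re ^ 2 = (u : ℝ) := by exact_mod_cast h3
  have h5 : (0 : ℝ) ≤ (u : ℝ) := by rw [← h4]; positivity
  have h6 : (0 : ℚ) ≤ u := by exact_mod_cast h5
  exact lt_of_le_of_ne h6 (Ne.symm hu)

/-- **(K5).**  If `u` is an odd integer, `y ^ 2 = u` and `y` is fixed by the inertia group of one
valuation subring over `2`, then `u ≡ 1 mod 4`. -/
theorem emod_four_of_sq_eq_of_inertia (A : ValuationSubring Qb) (hA : A.LiesOverPrime 2)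
    {u : ℤ} (hodd : ¬ (2 : ℤ) ∣ u) (y : Qb) (hy : y ^ 2 = (u : Qb))
    (hfix : ∀ σ ∈ A.inertiaSubgroupIn ℚ, σ y = y) : u % 4 = 1 := by
  have h2A : ((2 : ℕ) : Qb) ∈ A.nonunits := hA
  have h2v : A.valuation (2 : Qb) < 1 := by
    have := A.mem_nonunits_iff.mp h2A
    exact_mod_cast this
  have hu0 : (u : Qb) ≠ 0 := by
    have : u ≠ 0 := by rintro rfl; exact hodd (dvd_zero _)
    exact_mod_cast this
  have hy0 : y ≠ 0 := by
    rintro rfl
    rw [zero_pow two_ne_zero] at hy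
    exact hu0 hy.symm
  have huA : (u : Qb) ∈ A := Fermat.Agent.Lib.helper872.intCast_mem A u
  have hyA : y ∈ A := by
    rcases A.mem_or_inv_mem y with h | h
    · exact h
    · have : y = (u : Qb) * y⁻¹ := by
        rw [← hy, sq, mul_assoc, mul_inv_cancel₀ hy0, mul_one]
      rw [this]
      exact A.mul_mem _ _ huA h
  obtain ⟨k, hk⟩ : ∃ k : ℤ, u + 1 = 2 * k := by
    refine ⟨(u + 1) / 2, ?_⟩
    omega
  have hsq : (y - 1) ^ 2 = (2 : Qb) * ((k : Qb) - y) := by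
    have : ((u : Qb) + 1) = 2 * (k : Qb) := by exact_mod_cast congrArg (Int.cast : ℤ → Qb) hk
    calc (y - 1) ^ 2 = y ^ 2 + 1 - 2 * y := by ring
      _ = ((u : Qb) + 1) - 2 * y := by rw [hy]
      _ = (2 : Qb) * ((k : Qb) - y) := by rw [this]; ring
  have hkyA : (k : Qb) - y ∈ A := sub_mem (Fermat.Agent.Lib.helper872.intCast_mem A k) hyA
  have hy1A : y - 1 ∈ A := sub_mem hyA A.one_mem
  have hy1n : y - 1 ∈ A.nonunits := by
    rw [A.mem_nonunits_iff]
    by_contra hcon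
    rw [not_lt] at hcon
    have h1 : (1 : A.ValueGroup) ≤ A.valuation ((y - 1) ^ 2) := by
      rw [map_pow]
      exact one_le_pow₀ hcon
    rw [hsq, map_mul] at h1
    have h2 : A.valuation ((k : Qb) - y) ≤ 1 := (A.valuation_le_one_iff _).mpr hkyA
    have h3 : A.valuation (2 : Qb) * A.valuation ((k : Qb) - y) < 1 :=
      lt_of_le_of_lt (mul_le_of_le_one_right' h2) h2v
    exact absurd h1 (not_le.mpr h3)
  have hy1fix : y - 1 ∈ Fermat.Agent.S58.helper6024.inertiaFixedRing A :=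
    ⟨hy1A, fun σ hσ => by rw [map_sub, hfix σ hσ, map_one]⟩
  obtain ⟨w, hw, hyw⟩ := Fermat.Agent.S58.helper6024.exists_eq_natCast_mul A Nat.prime_two hA
    hy1fix hy1n
  have hwA : w ∈ A := hw.1
  have hyw' : y = 1 + 2 * w := by
    have : y - 1 = 2 * w := by rw [hyw]; norm_num
    rw [← this]; ring
  have hu4 : (u : Qb) = 1 + 4 * (w + w ^ 2) := by
    rw [← hy, hyw']; ring
  have hcases : u % 4 = 1 ∨ u % 4 = 3 := by omega
  rcases hcases with h | h
  · exact h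
  · exfalso
    obtain ⟨t, ht⟩ : ∃ t : ℤ, u = 4 * t + 3 := ⟨u / 4, by omega⟩
    have h1 : (u : Qb) = 4 * (t : Qb) + 3 := by exact_mod_cast congrArg (Int.cast : ℤ → Qb) ht
    have h2 : (2 : Qb) * (w + w ^ 2 - (t : Qb)) = 1 := by
      have h3 : (2 : Qb) * ((2 : Qb) * (w + w ^ 2 - (t : Qb))) = 2 * 1 := by
        linear_combination h1 - hu4
      exact mul_left_cancel₀ two_ne_zero h3
    have h4 : w + w ^ 2 - (t : Qb) ∈ A :=
      sub_mem (add_mem hwA (pow_mem hwA 2)) (Fermat.Agent.Lib.helper872.intCast_mem A t)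
    have h5 : A.valuation ((2 : Qb) * (w + w ^ 2 - (t : Qb))) < 1 := by
      rw [map_mul]
      exact lt_of_le_of_lt (mul_le_of_le_one_right' ((A.valuation_le_one_iff _).mpr h4)) h2v
    rw [h2, map_one] at h5
    exact lt_irrefl _ h5

/-- **(K2) at `S = {p}`.**  If `r ∣ v_q(u)` for every prime `q ≠ p`, then `u = ± p ^ b · w ^ r`. -/
theorem exists_eq_sign_mul_zpow_mul_pow (r p : ℕ) {u : ℚ} (hu : u ≠ 0)
    (h : ∀ q : ℕ, q.Prime → q ≠ p → (r : ℤ) ∣ padicValRat q u) :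
    ∃ (ε : ℚ) (b : ℤ) (w : ℚ), (ε = 1 ∨ ε = -1) ∧ w ≠ 0 ∧ u = ε * (p : ℚ) ^ b * w ^ r := by
  obtain ⟨ε, e, w, hε, hw, he⟩ := exists_eq_sign_mul_prod_mul_pow r {p} hu
    (fun q hq hqS => h q hq (fun hqp => hqS (Finset.mem_singleton.mpr hqp)))
  exact ⟨ε, e p, w, hε, hw, by rw [he, Finset.prod_singleton]⟩

/-- **(K2) at `S = ∅`.**  If `r ∣ v_q(u)` for every prime `q`, then `u = ± w ^ r`. -/
theorem exists_eq_sign_mul_pow (r : ℕ) {u : ℚ} (hu : u ≠ 0)
    (h : ∀ q : ℕ, q.Prime → (r : ℤ) ∣ padicValRat q u) :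
    ∃ (ε : ℚ) (w : ℚ), (ε = 1 ∨ ε = -1) ∧ w ≠ 0 ∧ u = ε * w ^ r := by
  obtain ⟨ε, e, w, hε, hw, he⟩ := exists_eq_sign_mul_prod_mul_pow r ∅ hu
    (fun q hq _ => h q hq)
  exact ⟨ε, w, hε, hw, by rw [he, Finset.prod_empty, mul_one]⟩

/-- For odd `r` the sign is an `r`-th power: if `r ∣ v_q(u)` for every prime `q ≠ p`, then
`u = p ^ b · w ^ r`. -/
theorem exists_eq_zpow_mul_pow_of_odd (r p : ℕ) (hr : Odd r) {u : ℚ} (hu : u ≠ 0)
    (h : ∀ q : ℕ, q.Prime → q ≠ p → (r : ℤ) ∣ padicValRat q u) :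
    ∃ (b : ℤ) (w : ℚ), w ≠ 0 ∧ u = (p : ℚ) ^ b * w ^ r := by
  obtain ⟨ε, b, w, hε, hw, he⟩ := exists_eq_sign_mul_zpow_mul_pow r p hu h
  rcases hε with rfl | rfl
  · exact ⟨b, w, hw, by rw [he, one_mul]⟩
  · refine ⟨b, -w, neg_ne_zero.mpr hw, ?_⟩
    rw [he, hr.neg_pow]
    ring

/-- Normal form of the exponent: if `r ∣ v_q(u)` for every prime `q ≠ p` (`r ≠ 0`, `p ≠ 0`), then
`u = ± p ^ d · w ^ r` with `d < r`. -/
theorem exists_eq_sign_mul_pow_lt_mul_pow (r p : ℕ) (hr : r ≠ 0) (hp0 : p ≠ 0) {u : ℚ}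
    (hu : u ≠ 0) (h : ∀ q : ℕ, q.Prime → q ≠ p → (r : ℤ) ∣ padicValRat q u) :
    ∃ (ε : ℚ) (d : ℕ) (w : ℚ), (ε = 1 ∨ ε = -1) ∧ d < r ∧ w ≠ 0 ∧
      u = ε * (p : ℚ) ^ d * w ^ r := by
  obtain ⟨ε, b, w, hε, hw, he⟩ := exists_eq_sign_mul_zpow_mul_pow r p hu h
  have hp' : (p : ℚ) ≠ 0 := by exact_mod_cast hp0
  have hr' : (r : ℤ) ≠ 0 := by exact_mod_cast hr
  have hrpos : (0 : ℤ) < r := by exact_mod_cast Nat.pos_of_ne_zero hr
  have hd0 : 0 ≤ b % (r : ℤ) := Int.emod_nonneg b hr'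
  have hd1 : b % (r : ℤ) < r := Int.emod_lt_of_pos b hrpos
  refine ⟨ε, (b % (r : ℤ)).toNat, (p : ℚ) ^ (b / (r : ℤ)) * w, hε, ?_, ?_, ?_⟩
  · have := (Int.toNat_lt hd0).mpr hd1
    exact this
  · exact mul_ne_zero (zpow_ne_zero _ hp') hw
  · have h1 : ((p : ℚ) ^ (b % (r : ℤ)).toNat) = (p : ℚ) ^ (b % (r : ℤ)) := by
      rw [← zpow_natCast, Int.toNat_of_nonneg hd0]
    have h2 : ((p : ℚ) ^ (b / (r : ℤ))) ^ r = (p : ℚ) ^ ((r : ℤ) * (b / (r : ℤ))) := by
      rw [← zpow_natCast, ← zpow_mul, mul_comm]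
    rw [he, h1, mul_pow, h2]
    have h3 : (p : ℚ) ^ b = (p : ℚ) ^ (b % (r : ℤ)) * (p : ℚ) ^ ((r : ℤ) * (b / (r : ℤ))) := by
      rw [← zpow_add₀ hp', Int.emod_add_mul_ediv]
    rw [h3]
    ring

/-- The quadratic star: `p* = p` if `p ≡ 1 mod 4`, `-p` otherwise. -/
def pStar (p : ℕ) : ℤ := if p % 4 = 1 then (p : ℤ) else -(p : ℤ)

/-- **Quadratic classes unramified at `2`** (`r = 2`, non-`2`-jump).  If `y ^ 2 = u`, the class
of `u` is unramified outside `p` (odd) and `y` is fixed by the inertia group of one valuation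
subring over `2`, then `u ∈ {1, p*} · ℚˣ²`. -/
theorem quad_unramified_two (p : ℕ) (hp : p.Prime) (hp2 : p ≠ 2) {u : ℚ} (hu : u ≠ 0)
    (y : Qb) (hy : y ^ 2 = (u : Qb))
    (hout : ∀ q : ℕ, q.Prime → q ≠ p → (2 : ℤ) ∣ padicValRat q u)
    (A : ValuationSubring Qb) (hA : A.LiesOverPrime 2)
    (hfix : ∀ σ ∈ A.inertiaSubgroupIn ℚ, σ y = y) :
    ∃ w : ℚ, w ≠ 0 ∧ (u = w ^ 2 ∨ u = (pStar p : ℚ) * w ^ 2) := by
  obtain ⟨ε, d, w, hε, hd, hw, he⟩ := exists_eq_sign_mul_pow_lt_mul_pow 2 p two_ne_zero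
    hp.ne_zero hu (by exact_mod_cast hout)
  have hodd : p % 2 = 1 := by
    rcases hp.eq_two_or_odd with h | h
    · exact absurd h hp2
    · exact h
  have hw' : ((w : ℚ) : Qb) ≠ 0 := by exact_mod_cast hw
  -- the normalised root
  have key : ∀ u' : ℤ, ¬ (2 : ℤ) ∣ u' → u = (u' : ℚ) * w ^ 2 → u' % 4 = 1 := by
    intro u' hu'odd hu'
    have h1 : (y / (w : Qb)) ^ 2 = (u' : Qb) := by
      rw [div_pow, hy, hu']
      push_cast
      field_simp
    refine emod_four_of_sq_eq_of_inertia A hA hu'odd (y / (w : Qb)) h1 fun σ hσ => ?_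
    rw [map_div₀, hfix σ hσ, map_ratCast]
  refine ⟨w, hw, ?_⟩
  have hd' : d = 0 ∨ d = 1 := by omega
  rcases hε with rfl | rfl <;> rcases hd' with rfl | rfl
  · left
    rw [he]; ring
  · right
    have h1 := key (p : ℤ) (by omega) (by rw [he]; push_cast; ring)
    have h2 : p % 4 = 1 := by omega
    rw [pStar, if_pos h2, he]
    push_cast
    ring
  · exfalso
    have h1 := key (-1) (by decide) (by rw [he]; push_cast; ring)
    omega
  · right
    have h1 := key (-(p : ℤ)) (by omega) (by rw [he]; push_cast; ring)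
    have h2 : ¬ p % 4 = 1 := by omega
    rw [pStar, if_neg h2, he]
    push_cast
    ring

/-- **Quadratic classes unramified at `2` and at the real place** (`r = 2`, non-`2`-jump and
non-`∞`-jump): `u ∈ ℚˣ²`, or `p ≡ 1 mod 4` and `u ∈ p · ℚˣ²`. -/
theorem quad_unramified_two_real (p : ℕ) (hp : p.Prime) (hp2 : p ≠ 2) {u : ℚ} (hu : u ≠ 0)
    (y : Qb) (hy : y ^ 2 = (u : Qb))
    (hout : ∀ q : ℕ, q.Prime → q ≠ p → (2 : ℤ) ∣ padicValRat q u)
    (A : ValuationSubring Qb) (hA : A.LiesOverPrime 2)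
    (hfix : ∀ σ ∈ A.inertiaSubgroupIn ℚ, σ y = y) (hc : complexConjugation y = y) :
    ∃ w : ℚ, w ≠ 0 ∧ (u = w ^ 2 ∨ (p % 4 = 1 ∧ u = (p : ℚ) * w ^ 2)) := by
  obtain ⟨w, hw, h⟩ := quad_unramified_two p hp hp2 hu y hy hout A hA hfix
  have hpos := pos_of_sq_eq_of_complexConjugation hu y hy hc
  refine ⟨w, hw, ?_⟩
  rcases h with h | h
  · exact Or.inl h
  · by_cases h4 : p % 4 = 1
    · right
      refine ⟨h4, ?_⟩
      rw [h, pStar, if_pos h4]
      push_cast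
      ring
    · exfalso
      rw [pStar, if_neg h4] at h
      have h1 : (0 : ℚ) < w ^ 2 := by positivity
      have h2 : (0 : ℚ) < (p : ℚ) := by exact_mod_cast hp.pos
      rw [h] at hpos
      push_cast at hpos
      nlinarith

end Kummer

end Fermat.Agent.S15.helper1476
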