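import Fermat.Agent.S19.helper2790_WeilJDual

set_option autoImplicit false

/-!
# S15, counts [P]/G2/R2: eigenvalue and isotropy lemmas for the Weil pairing on `J₀(N)` (helper1527)

Everything is stated for the landed bundled pairing `helper2790.weilJ N n x y`
(`S19/helper2790_WeilJ`), with the torsion hypotheses in its shape `n • x = 0`.

* `weilJ_pow_exponent`        : `e_{mn}(x, y)^m = e_n(m x, m y)`;
* `weilJ_pow_of_eigen`        : `σ x = a x`, `σ y = b y`, `σ = (·)^e` on `μ_n` ⟹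
                                `e_n(x, y)^(a b) = e_n(x, y)^e`;
* `weilJ_sq_eq_one_of_fixed/_of_neg`, `weilJ_eq_one_of_fixed/_of_neg` (`n` odd):
                                the `±1`-eigenspaces of a `σ` inverting `μ_n` are isotropic;
* `weilJ_two_nsmul_eq_one_of_neg/_of_fixed` : the doubling trick `e_n(2w, 2w') = e_{2n}(w, w')^2`;
* `exists_ne_one_of_adjoint`  : nondegeneracy on the image of a self-adjoint idempotent;
* `card_sq_le_of_isotropic_of_le` : an isotropic `L ≤ W`, `W ≤ J[n]` with nondegenerate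
                                restricted pairing, has `#L ^ 2 ≤ #W`.
-/

open AlgebraicCurve ModularCurve

namespace Fermat.Agent.S15.helper1527

open Fermat.Agent.S19.helper2790 Fermat.Agent.S19.helper2111

section

variable {N : ℕ} [NeZero N] {n : ℕ} {x y : JZero N}

/-- Change of exponent, symmetric form: `e_{mn}(x, y)^m = e_n(m x, m y)`. -/
theorem weilJ_pow_exponent {m : ℕ} (hx : (m * n) • x = 0) (hy : (m * n) • y = 0) :
    weilJ N (m * n) x y ^ m = weilJ N n (m • x) (m • y) := by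
  have hmy : n • (m • y) = 0 := by rw [← mul_nsmul, hy]
  rw [← weilJ_nsmul_right hx hy m, weilJ_mul_exponent hx hmy]

/-- If `σ x = a x`, `σ y = b y` and `σ` raises the `n`-th roots of unity to the power `e`, then
`e_n(x, y)^(a b) = e_n(x, y)^e`. -/
theorem weilJ_pow_of_eigen (σ : GQ) {a b e : ℕ} (hx : n • x = 0) (hy : n • y = 0)
    (hσx : σ • x = a • x) (hσy : σ • y = b • y)
    (hσ : ∀ ζ : Qb, ζ ^ n = 1 → σ ζ = ζ ^ e) :
    weilJ N n x y ^ (a * b) = weilJ N n x y ^ e := by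
  have h := weilJ_galois σ hx hy
  have hax : n • (a • x) = 0 := by rw [nsmul_left_comm, hx, nsmul_zero]
  rw [hσx, hσy, weilJ_nsmul_right hax hy, weilJ_nsmul_left hx hy, hσ _ (weilJ_pow hx hy),
    ← pow_mul] at h
  exact h

/-- If `σ` inverts the `n`-th roots of unity and fixes `x` and `y`, then `e_n(x, y)^2 = 1`. -/
theorem weilJ_sq_eq_one_of_fixed (σ : GQ) (hx : n • x = 0) (hy : n • y = 0)
    (hσx : σ • x = x) (hσy : σ • y = y) (hσ : ∀ ζ : Qb, ζ ^ n = 1 → σ ζ = ζ⁻¹) :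
    weilJ N n x y ^ 2 = 1 := by
  have h := weilJ_galois σ hx hy
  rw [hσx, hσy, hσ _ (weilJ_pow hx hy)] at h
  rw [sq]
  nth_rewrite 1 [h]
  exact inv_mul_cancel₀ (weilJ_ne_zero x y)

/-- If `σ` inverts the `n`-th roots of unity and negates `x` and `y`, then `e_n(x, y)^2 = 1`. -/
theorem weilJ_sq_eq_one_of_neg (σ : GQ) (hx : n • x = 0) (hy : n • y = 0)
    (hσx : σ • x = -x) (hσy : σ • y = -y) (hσ : ∀ ζ : Qb, ζ ^ n = 1 → σ ζ = ζ⁻¹) :
    weilJ N n x y ^ 2 = 1 := by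
  have h := weilJ_galois σ hx hy
  have hnx : n • (-x) = 0 := by rw [neg_nsmul, hx, neg_zero]
  rw [hσx, hσy, weilJ_neg_right hnx hy, weilJ_neg_left hx hy, inv_inv,
    hσ _ (weilJ_pow hx hy)] at h
  rw [sq]
  nth_rewrite 1 [h]
  exact inv_mul_cancel₀ (weilJ_ne_zero x y)

theorem eq_one_of_sq_of_pow_odd {K : Type*} [Monoid K] {c : K} {k : ℕ} (hk : Odd k)
    (h2 : c ^ 2 = 1) (hck : c ^ k = 1) : c = 1 := by
  obtain ⟨j, rfl⟩ := hk
  rw [pow_succ, pow_mul, h2, one_pow, one_mul] at hck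
  exact hck

/-- For `n` odd, the fixed space of a `σ` inverting `μ_n` is isotropic. -/
theorem weilJ_eq_one_of_fixed (σ : GQ) (hn : Odd n) (hx : n • x = 0) (hy : n • y = 0)
    (hσx : σ • x = x) (hσy : σ • y = y) (hσ : ∀ ζ : Qb, ζ ^ n = 1 → σ ζ = ζ⁻¹) :
    weilJ N n x y = 1 :=
  eq_one_of_sq_of_pow_odd hn (weilJ_sq_eq_one_of_fixed σ hx hy hσx hσy hσ) (weilJ_pow hx hy)

/-- For `n` odd, the `-1`-eigenspace of a `σ` inverting `μ_n` is isotropic. -/
theorem weilJ_eq_one_of_neg (σ : GQ) (hn : Odd n) (hx : n • x = 0) (hy : n • y = 0)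
    (hσx : σ • x = -x) (hσy : σ • y = -y) (hσ : ∀ ζ : Qb, ζ ^ n = 1 → σ ζ = ζ⁻¹) :
    weilJ N n x y = 1 :=
  eq_one_of_sq_of_pow_odd hn (weilJ_sq_eq_one_of_neg σ hx hy hσx hσy hσ) (weilJ_pow hx hy)

/-- The doubling trick (any `n`, in particular `n = 2`): if `σ` inverts `μ_{2n}` and negates
`w, w' ∈ J[2n]`, then `e_n(2w, 2w') = 1`. -/
theorem weilJ_two_nsmul_eq_one_of_neg (σ : GQ) {w w' : JZero N}
    (hw : (2 * n) • w = 0) (hw' : (2 * n) • w' = 0) (hσw : σ • w = -w) (hσw' : σ • w' = -w')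
    (hσ : ∀ ζ : Qb, ζ ^ (2 * n) = 1 → σ ζ = ζ⁻¹) : weilJ N n (2 • w) (2 • w') = 1 := by
  rw [← weilJ_pow_exponent hw hw']
  exact weilJ_sq_eq_one_of_neg σ hw hw' hσw hσw' hσ

/-- The doubling trick for fixed vectors. -/
theorem weilJ_two_nsmul_eq_one_of_fixed (σ : GQ) {w w' : JZero N}
    (hw : (2 * n) • w = 0) (hw' : (2 * n) • w' = 0) (hσw : σ • w = w) (hσw' : σ • w' = w')
    (hσ : ∀ ζ : Qb, ζ ^ (2 * n) = 1 → σ ζ = ζ⁻¹) : weilJ N n (2 • w) (2 • w') = 1 := by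
  rw [← weilJ_pow_exponent hw hw']
  exact weilJ_sq_eq_one_of_fixed σ hw hw' hσw hσw' hσ

/-- `(σ - 1) z` is negated by `σ` as soon as `σ (σ z) = z` (input of the doubling trick for the
archimedean isotropy `#3290 (d2)(i)`: `w := (c - 1)(y/2)` has `c w = -w`). -/
theorem neg_of_involution (σ : GQ) {z : JZero N} (hz : σ • σ • z = z) :
    σ • (σ • z - z) = -(σ • z - z) := by
  rw [smul_sub, hz, neg_sub]

/-- Nondegeneracy on the image of a self-adjoint additive map that is idempotent on `J[n]`: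
for `x ∈ J[n]` with `E x = x`, `x ≠ 0`, there is `y ∈ J[n]` with `E y = y` and
`e_n(x, y) ≠ 1`. -/
theorem exists_ne_one_of_adjoint (hn : 0 < n) (E : JZero N →+ JZero N)
    (hidem : ∀ z : JZero N, n • z = 0 → E (E z) = E z)
    (hadj : ∀ u v : JZero N, n • u = 0 → n • v = 0 → weilJ N n (E u) v = weilJ N n u (E v))
    (hx : n • x = 0) (hEx : E x = x) (hx0 : x ≠ 0) :
    ∃ y : JZero N, n • y = 0 ∧ E y = y ∧ weilJ N n x y ≠ 1 := by
  obtain ⟨y0, hy0, hne⟩ := weilJ_nondeg_left hn hx hx0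
  refine ⟨E y0, by rw [← map_nsmul, hy0, map_zero], hidem y0 hy0, ?_⟩
  rw [← hadj x y0 hx hy0, hEx]
  exact hne

/-- Relative isotropy count: `W ≤ J[n]` with nondegenerate restricted pairing, `L ≤ W`
isotropic. Then `#L ^ 2 ≤ #W`. -/
theorem card_sq_le_of_isotropic_of_le (hn : 0 < n) (W L : AddSubgroup (JZero N))
    (hWn : ∀ z ∈ W, n • z = 0) (hLW : L ≤ W)
    (hnd : ∀ v ∈ W, v ≠ 0 → ∃ u ∈ W, weilJ N n u v ≠ 1)
    (hL : ∀ u ∈ L, ∀ v ∈ L, weilJ N n u v = 1) : Nat.card L ^ 2 ≤ Nat.card W := by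
  have hfin : Finite W := by
    have h := Fermat.Agent.S29.helper288.finite_torsion_JZero N hn.ne'
    exact Set.finite_coe_iff.mpr (h.subset fun z hz => hWn z hz)
  have he : Pairing.IsBimul (fun u v : W => weilJ N n (u : JZero N) (v : JZero N)) :=
    { ne_zero := fun u v => weilJ_ne_zero _ _
      add_right := fun u v v' => weilJ_add_right (hWn u u.2) (hWn v v.2) (hWn v' v'.2)
      add_left := fun u u' v => weilJ_add_left (hWn u u.2) (hWn u' u'.2) (hWn v v.2) }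
  have hnd' : ∀ v : W, v ≠ 0 → ∃ u : W, weilJ N n (u : JZero N) (v : JZero N) ≠ 1 := by
    intro v hv
    obtain ⟨u, hu, hne⟩ := hnd v v.2 (fun h0 => hv (Subtype.ext h0))
    exact ⟨⟨u, hu⟩, hne⟩
  have key := Pairing.card_sq_le_of_isotropic he hasEnoughRootsOfUnity_Qb hnd'
    (L.addSubgroupOf W) (fun u hu v hv => hL _ (AddSubgroup.mem_addSubgroupOf.mp hu) _
      (AddSubgroup.mem_addSubgroupOf.mp hv))
  rwa [Nat.card_congr (AddSubgroup.addSubgroupOfEquivOfLe hLW).toEquiv] at key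

/-- The count on a Hecke piece: `E` additive, idempotent on `J[n]`, self-adjoint for `e_n`;
`L ≤ E J[n]` isotropic. Then `#L ^ 2 ≤ #(E J[n])`, where `E J[n]` is given as any subgroup `W`
with `W = {x ∈ J[n] | E x = x}`. -/
theorem card_sq_le_of_isotropic_piece (hn : 0 < n) (E : JZero N →+ JZero N)
    (hidem : ∀ z : JZero N, n • z = 0 → E (E z) = E z)
    (hadj : ∀ u v : JZero N, n • u = 0 → n • v = 0 → weilJ N n (E u) v = weilJ N n u (E v))
    (W L : AddSubgroup (JZero N)) (hW : ∀ z, z ∈ W ↔ n • z = 0 ∧ E z = z) (hLW : L ≤ W)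
    (hL : ∀ u ∈ L, ∀ v ∈ L, weilJ N n u v = 1) : Nat.card L ^ 2 ≤ Nat.card W := by
  refine card_sq_le_of_isotropic_of_le hn W L (fun z hz => ((hW z).mp hz).1) hLW ?_ hL
  intro v hv hv0
  obtain ⟨hvn, hEv⟩ := (hW v).mp hv
  obtain ⟨u, hun, hEu, hne⟩ := exists_ne_one_of_adjoint hn E hidem hadj hvn hEv hv0
  refine ⟨u, (hW u).mpr ⟨hun, hEu⟩, fun h1 => hne ?_⟩
  rw [weilJ_symm hun hvn, h1, inv_one]

end

end Fermat.Agent.S15.helper1527
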