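/-
S15 (Mazur's step three), block [R], item (LOC-r, UNIT) -- seat helper1908.

The Kummer class at the residue prime of a character step is a UNIT class, end to end in the
frozen vocabulary, from the S19 core interface `helper2111.IsCoordSystem` exactly as it is on
main (fields `stable`, `val`, `eqv`, `inj`, `law`, and `cen` for the second form).

Design (all over the valuation ring `A`, function level, no fixed ring, no duality):
* a finitely generated torsion-free module over a valuation ring has a basis extracted from any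
  finite generating family (drop the vector whose dependence coefficient has maximal valuation);
* the `A`-algebra `Λ` generated by separating integral coordinates on a finite set contains
  `π ^ n` times all integral functions, hence is `π`-adically closed;
* on a finite group with an approximate polynomial addition law, `Λ` is closed under the
  comultiplication, and every character lies in `Λ` (the coordinate of maximal valuation is
  integral because `w i * w j = ∑ k, w k * c k i j`);
* coordinates on a torsor which are approximately polynomial in each other generate the same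
  algebra; a character becomes an `A`-combination of independent equivariant integral functions
  on the torsor, and comparing coefficients under inertia gives the unit.
-/
import Mathlib

set_option autoImplicit false
set_option linter.unusedSectionVars false

namespace Fermat.Agent.S15.helper1908

open scoped BigOperators

/-! ### Part A: elimination over a valuation ring -/

section Elim

variable {K : Type*} [Field K] (A : ValuationSubring K)

/-- Among finitely many elements of the field, not all zero, one divides all the others in `A`. -/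
theorem exists_max_val {ι : Type*} (S : Finset ι) (c : ι → K) (h : ∃ i ∈ S, c i ≠ 0) :
    ∃ i0 ∈ S, c i0 ≠ 0 ∧ ∀ i ∈ S, c i / c i0 ∈ A := by
  obtain ⟨i1, hi1, hc1⟩ := h
  obtain ⟨i0, hi0, hmax⟩ := Finset.exists_max_image S (fun i => A.valuation (c i)) ⟨i1, hi1⟩
  have hpos : 0 < A.valuation (c i0) :=
    lt_of_lt_of_le (zero_lt_iff.mpr ((map_ne_zero _).mpr hc1)) (hmax i1 hi1)
  have hne : c i0 ≠ 0 := (map_ne_zero _).mp hpos.ne'
  refine ⟨i0, hi0, hne, fun i hi => ?_⟩
  rw [← A.valuation_le_one_iff, map_div₀, div_le_one₀ hpos]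
  exact hmax i hi

variable {V : Type*} [AddCommGroup V] [Module K V] {ι : Type*} [DecidableEq ι]

/-- Elimination step: in a linearly dependent finite family one vector is a combination of the
others with coefficients in `A`. -/
theorem exists_elim (S : Finset ι) (v : ι → V) (c : ι → K) (hc : ∃ i ∈ S, c i ≠ 0)
    (h0 : ∑ i ∈ S, c i • v i = 0) :
    ∃ i0 ∈ S, ∃ a : ι → K, (∀ i, a i ∈ A) ∧ v i0 = ∑ i ∈ S.erase i0, a i • v i := by
  obtain ⟨i0, hi0, hne, hdiv⟩ := exists_max_val A S c hc
  refine ⟨i0, hi0, fun i => if i ∈ S then -(c i / c i0) else 0, fun i => ?_, ?_⟩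
  · by_cases h : i ∈ S
    · simp only [if_pos h]
      exact neg_mem (hdiv i h)
    · simp only [if_neg h]
      exact zero_mem _
  · have h1 : c i0 • v i0 + ∑ i ∈ S.erase i0, c i • v i = 0 := by
      rw [Finset.add_sum_erase S (fun i => c i • v i) hi0]
      exact h0
    have h2 : v i0 = (c i0)⁻¹ • (c i0 • v i0) := by
      rw [smul_smul, inv_mul_cancel₀ hne, one_smul]
    rw [h2, eq_neg_of_add_eq_zero_left h1, smul_neg, Finset.smul_sum, ← Finset.sum_neg_distrib]
    refine Finset.sum_congr rfl fun i hi => ?_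
    dsimp only
    rw [if_pos (Finset.mem_of_mem_erase hi), smul_smul, neg_smul, div_eq_inv_mul]

/-- A finite family contains a linearly independent subfamily whose `A`-span contains every
member of the family. -/
theorem exists_basis_subfamily (S : Finset ι) (v : ι → V) :
    ∃ S' ⊆ S, (∀ c : ι → K, ∑ i ∈ S', c i • v i = 0 → ∀ i ∈ S', c i = 0) ∧
      ∀ i ∈ S, ∃ a : ι → K, (∀ j, a j ∈ A) ∧ v i = ∑ j ∈ S', a j • v j := by
  induction S using Finset.strongInduction with
  | H S ih =>
    by_cases hind : ∀ c : ι → K, ∑ i ∈ S, c i • v i = 0 → ∀ i ∈ S, c i = 0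
    · refine ⟨S, Finset.Subset.refl S, hind, fun i hi => ⟨fun j => if j = i then 1 else 0,
        fun j => ?_, ?_⟩⟩
      · by_cases h : j = i
        · simp only [if_pos h]; exact one_mem _
        · simp only [if_neg h]; exact zero_mem _
      · rw [Finset.sum_eq_single i]
        · simp
        · intro j _ hj
          simp [hj]
        · intro h
          exact absurd hi h
    · push Not at hind
      obtain ⟨c, hc0, i1, hi1, hc1⟩ := hind
      obtain ⟨i0, hi0, a, haA, ha⟩ := exists_elim A S v c ⟨i1, hi1, hc1⟩ hc0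
      obtain ⟨S', hS', hindep, hspan⟩ := ih (S.erase i0) (Finset.erase_ssubset hi0)
      refine ⟨S', hS'.trans (Finset.erase_subset _ _), hindep, ?_⟩
      -- every vector of `S.erase i0` is a combination of `S'`
      choose! a' ha'A ha' using hspan
      have hi0' : ∃ a0 : ι → K, (∀ j, a0 j ∈ A) ∧ v i0 = ∑ j ∈ S', a0 j • v j := by
        refine ⟨fun j => ∑ i ∈ S.erase i0, a i * a' i j, fun j => ?_, ?_⟩
        · exact sum_mem fun i hi => mul_mem (haA i) (ha'A i hi j)
        · rw [ha]
          calc ∑ i ∈ S.erase i0, a i • v i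
              = ∑ i ∈ S.erase i0, a i • ∑ j ∈ S', a' i j • v j :=
                Finset.sum_congr rfl fun i hi => by rw [← ha' i hi]
            _ = ∑ i ∈ S.erase i0, ∑ j ∈ S', (a i * a' i j) • v j :=
                Finset.sum_congr rfl fun i _ => by
                  rw [Finset.smul_sum]
                  exact Finset.sum_congr rfl fun j _ => by rw [smul_smul]
            _ = ∑ j ∈ S', ∑ i ∈ S.erase i0, (a i * a' i j) • v j := Finset.sum_comm
            _ = ∑ j ∈ S', (∑ i ∈ S.erase i0, a i * a' i j) • v j :=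
                Finset.sum_congr rfl fun j _ => by rw [Finset.sum_smul]
      intro i hi
      by_cases h : i = i0
      · rw [h]; exact hi0'
      · exact ⟨a' i, ha'A i (Finset.mem_erase.mpr ⟨h, hi⟩),
          ha' i (Finset.mem_erase.mpr ⟨h, hi⟩)⟩

/-- A vector in the `A`-span of a finite family lies in the `A`-span of the subfamily `S'`
as soon as every member of the family does. -/
theorem sum_smul_eq_sum_of_span (S S' : Finset ι) (v : ι → V)
    (hspan : ∀ i ∈ S, ∃ a : ι → K, (∀ j, a j ∈ A) ∧ v i = ∑ j ∈ S', a j • v j)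
    (α : ι → K) (hα : ∀ i, α i ∈ A) :
    ∃ α' : ι → K, (∀ j, α' j ∈ A) ∧ ∑ i ∈ S, α i • v i = ∑ j ∈ S', α' j • v j := by
  choose! a' ha'A ha' using hspan
  refine ⟨fun j => ∑ i ∈ S, α i * a' i j, fun j => ?_, ?_⟩
  · exact sum_mem fun i hi => mul_mem (hα i) (ha'A i hi j)
  · calc ∑ i ∈ S, α i • v i
        = ∑ i ∈ S, α i • ∑ j ∈ S', a' i j • v j :=
          Finset.sum_congr rfl fun i hi => by rw [← ha' i hi]
      _ = ∑ i ∈ S, ∑ j ∈ S', (α i * a' i j) • v j :=
          Finset.sum_congr rfl fun i _ => by
            rw [Finset.smul_sum]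
            exact Finset.sum_congr rfl fun j _ => by rw [smul_smul]
      _ = ∑ j ∈ S', ∑ i ∈ S, (α i * a' i j) • v j := Finset.sum_comm
      _ = ∑ j ∈ S', (∑ i ∈ S, α i * a' i j) • v j :=
          Finset.sum_congr rfl fun j _ => by rw [Finset.sum_smul]

end Elim

/-! ### Part B: the algebra generated by separating integral functions on a finite set -/

section Lattice

variable {K : Type*} [Field K] (A : ValuationSubring K) {X : Type*}

/-- Constant functions with value in `A` belong to every `A`-subalgebra of functions. -/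
theorem const_mem (Λ : Subalgebra A (X → K)) {a : K} (ha : a ∈ A) : (fun _ : X => a) ∈ Λ := by
  have h : (fun _ : X => a) = algebraMap A (X → K) ⟨a, ha⟩ := by
    funext x
    rfl
  rw [h]
  exact Λ.algebraMap_mem _

/-- Multiplication by a constant of `A` preserves every `A`-subalgebra of functions. -/
theorem mul_mem_of_mem (Λ : Subalgebra A (X → K)) {a : K} (ha : a ∈ A) {h : X → K}
    (hh : h ∈ Λ) : (fun x => a * h x) ∈ Λ := by
  have h' : (fun x => a * h x) = (⟨a, ha⟩ : A) • h := by
    funext x
    rfl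
  rw [h']
  exact Λ.smul_mem hh _

/-- Polynomials with coefficients in `A` in members of an `A`-subalgebra of functions. -/
theorem eval_mem {τ : Type*} [Fintype τ] (Λ : Subalgebra A (X → K)) (w : τ → X → K)
    (hw : ∀ t, w t ∈ Λ) (P : MvPolynomial τ K) (hP : ∀ d, P.coeff d ∈ A) :
    (fun x => MvPolynomial.eval (fun t => w t x) P) ∈ Λ := by
  have h : (fun x => MvPolynomial.eval (fun t => w t x) P) =
      ∑ d ∈ P.support, (fun x => P.coeff d * (∏ t, w t ^ d t) x) := by
    funext x
    rw [MvPolynomial.eval_eq', Finset.sum_apply]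
    refine Finset.sum_congr rfl fun d _ => ?_
    rw [Finset.prod_apply]
    rfl
  rw [h]
  exact sum_mem fun d _ => mul_mem_of_mem A Λ (hP d) (prod_mem fun t _ => pow_mem (hw t) _)

variable [Finite X]

/-- An `A`-valued function on a finite set is integral over `A`. -/
theorem isIntegral_of_valued (f : X → K) (hf : ∀ x, f x ∈ A) : IsIntegral A f := by
  classical
  cases nonempty_fintype X
  refine ⟨∏ x : X, (Polynomial.X - Polynomial.C (⟨f x, hf x⟩ : A)),
    Polynomial.monic_prod_of_monic _ _ (fun x _ => Polynomial.monic_X_sub_C _), ?_⟩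
  rw [← Polynomial.aeval_def, map_prod]
  funext y
  rw [Finset.prod_apply]
  apply Finset.prod_eq_zero (Finset.mem_univ y)
  simp only [map_sub, Polynomial.aeval_X, Polynomial.aeval_C, Pi.sub_apply, Pi.algebraMap_apply]
  exact sub_self _

variable (π : K) (hπA : π ∈ A) (hπ : ∀ γ : K, ∃ r : ℕ, π ^ r * γ ∈ A)
  {ι : Type*} (u : ι → X → K) (huA : ∀ i x, u i x ∈ A)
  (hsep : ∀ x x', (∀ i, u i x = u i x') → x = x')

open Classical in
include hπA hπ huA hsep in
/-- **Bounded denominators**: the algebra generated by separating integral functions contains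
`π ^ n` times every indicator function. -/
theorem exists_single_mem : ∃ n : ℕ, ∀ x : X,
    (fun y => if y = x then π ^ n else 0) ∈ Algebra.adjoin A (Set.range u) := by
  classical
  cases nonempty_fintype X
  set Λ := Algebra.adjoin A (Set.range u) with hΛ
  have huΛ : ∀ i, u i ∈ Λ := fun i => Algebra.subset_adjoin ⟨i, rfl⟩
  have hone : ∀ x : X, ∃ r : ℕ, (fun y => if y = x then π ^ r else 0) ∈ Λ := by
    intro x
    have hex : ∀ x' : {x' : X // x' ≠ x}, ∃ i, u i x ≠ u i x'.1 := by
      intro x'
      by_contra hcon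
      push Not at hcon
      exact x'.2 (hsep x x'.1 hcon).symm
    choose i hi using hex
    set g : X → K := ∏ x' : {x' : X // x' ≠ x}, (u (i x') - fun _ => u (i x') x'.1) with hg
    have hgΛ : g ∈ Λ := prod_mem fun x' _ => sub_mem (huΛ _) (const_mem A Λ (huA _ _))
    set D : K := ∏ x' : {x' : X // x' ≠ x}, (u (i x') x - u (i x') x'.1) with hD
    have hD0 : D ≠ 0 := Finset.prod_ne_zero_iff.mpr fun x' _ => sub_ne_zero.mpr (hi x')
    have hgx : g x = D := by
      rw [hg, Finset.prod_apply]
      rfl
    have hgy : ∀ y, y ≠ x → g y = 0 := by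
      intro y hy
      rw [hg, Finset.prod_apply]
      apply Finset.prod_eq_zero (Finset.mem_univ (⟨y, hy⟩ : {x' : X // x' ≠ x}))
      simp only [Pi.sub_apply, sub_self]
    obtain ⟨r, hr⟩ := hπ D⁻¹
    refine ⟨r, ?_⟩
    have h : (fun y => if y = x then π ^ r else 0) = fun y => (π ^ r * D⁻¹) * g y := by
      funext y
      by_cases hy : y = x
      · rw [if_pos hy, hy, hgx, mul_assoc, inv_mul_cancel₀ hD0, mul_one]
      · rw [if_neg hy, hgy y hy, mul_zero]
    rw [h]
    exact mul_mem_of_mem A Λ hr hgΛ
  choose r hr using hone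
  refine ⟨Finset.univ.sup r, fun x => ?_⟩
  have hle : r x ≤ Finset.univ.sup r := Finset.le_sup (Finset.mem_univ x)
  obtain ⟨d, hd⟩ := Nat.exists_eq_add_of_le hle
  have h : (fun y => if y = x then π ^ (Finset.univ.sup r) else 0) =
      fun y => π ^ d * (fun y => if y = x then π ^ r x else 0) y := by
    funext y
    by_cases hy : y = x
    · simp only [if_pos hy]
      rw [hd, pow_add, mul_comm]
    · simp only [if_neg hy, mul_zero]
  rw [h]
  exact mul_mem_of_mem A Λ (pow_mem hπA d) (hr x)

include hπA hπ huA hsep in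
/-- The algebra generated by separating integral functions contains `π ^ n` times every
integral function. -/
theorem exists_pow_mul_mem : ∃ n : ℕ, ∀ f : X → K, (∀ x, f x ∈ A) →
    (fun x => π ^ n * f x) ∈ Algebra.adjoin A (Set.range u) := by
  classical
  cases nonempty_fintype X
  obtain ⟨n, hn⟩ := exists_single_mem A π hπA hπ u huA hsep
  refine ⟨n, fun f hf => ?_⟩
  have h : (fun x => π ^ n * f x) =
      ∑ x0 : X, fun y => f x0 * (fun y => if y = x0 then π ^ n else 0) y := by
    funext y
    rw [Finset.sum_apply, Finset.sum_eq_single y]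
    · simp only [if_true, mul_comm]
    · intro x0 _ hx0
      simp only [if_neg (Ne.symm hx0), mul_zero]
    · intro hy
      exact absurd (Finset.mem_univ y) hy
  rw [h]
  exact sum_mem fun x0 _ => mul_mem_of_mem A _ (hf x0) (hn x0)

include hπA hπ huA hsep in
/-- **Closure**: a function which is, modulo every power of `π`, congruent to a member of the
algebra generated by separating integral functions, belongs to it. -/
theorem mem_of_approx (f : X → K)
    (hf : ∀ j : ℕ, ∃ h ∈ Algebra.adjoin A (Set.range u), ∀ x, ∃ w ∈ A, f x - h x = π ^ j * w) :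
    f ∈ Algebra.adjoin A (Set.range u) := by
  obtain ⟨n, hn⟩ := exists_pow_mul_mem A π hπA hπ u huA hsep
  obtain ⟨h, hh, hw⟩ := hf n
  choose w hwA hw using hw
  have h' : f = h + fun x => π ^ n * w x := by
    funext x
    rw [Pi.add_apply, ← hw x]
    ring
  rw [h']
  exact add_mem hh (hn w hwA)

end Lattice

/-! ### Part C: group-likes are integral -/

section Tens

open scoped Pointwise

variable {K : Type*} [Field K] (A : ValuationSubring K) {M : Type*}

/-- Products `a(x) b(y)` of members of `Λ`. -/
def tensSet (Λ : Subalgebra A (M → K)) : Set (M × M → K) :=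
  {H | ∃ a ∈ Λ, ∃ b ∈ Λ, H = fun p => a p.1 * b p.2}

theorem tensSet_mul (Λ : Subalgebra A (M → K)) : tensSet A Λ * tensSet A Λ ⊆ tensSet A Λ := by
  rintro _ ⟨H, ⟨a, ha, b, hb, rfl⟩, H', ⟨a', ha', b', hb', rfl⟩, rfl⟩
  refine ⟨a * a', mul_mem ha ha', b * b', mul_mem hb hb', ?_⟩
  funext p
  simp only [Pi.mul_apply]
  ring

/-- The `A`-algebra of functions on `M × M` spanned by the products `a(x) b(y)`. -/
def tens (Λ : Subalgebra A (M → K)) : Subalgebra A (M × M → K) :=
  (Submodule.span A (tensSet A Λ)).toSubalgebra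
    (Submodule.subset_span ⟨1, one_mem _, 1, one_mem _, by funext p; simp⟩)
    (fun x y hx hy => by
      have h := Submodule.mul_mem_mul hx hy
      rw [Submodule.span_mul_span] at h
      exact Submodule.span_mono (tensSet_mul A Λ) h)

theorem mem_tens {Λ : Subalgebra A (M → K)} {H : M × M → K} :
    H ∈ tens A Λ ↔ H ∈ Submodule.span A (tensSet A Λ) := Iff.rfl

theorem tmul_mem_tens {Λ : Subalgebra A (M → K)} {a b : M → K} (ha : a ∈ Λ) (hb : b ∈ Λ) :
    (fun p : M × M => a p.1 * b p.2) ∈ tens A Λ :=
  Submodule.subset_span ⟨a, ha, b, hb, rfl⟩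

theorem fst_mem_tens {Λ : Subalgebra A (M → K)} {a : M → K} (ha : a ∈ Λ) :
    (fun p : M × M => a p.1) ∈ tens A Λ := by
  have h := tmul_mem_tens A ha (one_mem Λ)
  simpa using h

theorem snd_mem_tens {Λ : Subalgebra A (M → K)} {b : M → K} (hb : b ∈ Λ) :
    (fun p : M × M => b p.2) ∈ tens A Λ := by
  have h := tmul_mem_tens A (one_mem Λ) hb
  simpa using h

/-- Members of `tens Λ` have coefficients in `A` with respect to a spanning family of `Λ`. -/
theorem exists_coeff_of_mem_tens {Λ : Subalgebra A (M → K)} (S' : Finset (M → K))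
    (hspan : ∀ h ∈ Λ, ∃ α : (M → K) → K, (∀ e, α e ∈ A) ∧ ∀ x, h x = ∑ e ∈ S', α e * e x)
    {H : M × M → K} (hH : H ∈ tens A Λ) :
    ∃ c : (M → K) → (M → K) → K, (∀ e e', c e e' ∈ A) ∧
      ∀ p, H p = ∑ e ∈ S', ∑ e' ∈ S', c e e' * (e p.1 * e' p.2) := by
  rw [mem_tens] at hH
  induction hH using Submodule.span_induction with
  | mem H hH =>
    obtain ⟨a, ha, b, hb, rfl⟩ := hH
    obtain ⟨α, hαA, hα⟩ := hspan a ha
    obtain ⟨β, hβA, hβ⟩ := hspan b hb
    refine ⟨fun e e' => α e * β e', fun e e' => mul_mem (hαA e) (hβA e'), fun p => ?_⟩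
    simp only
    rw [hα p.1, hβ p.2, Finset.sum_mul_sum]
    refine Finset.sum_congr rfl fun e _ => Finset.sum_congr rfl fun e' _ => ?_
    ring
  | zero =>
    exact ⟨fun _ _ => 0, fun _ _ => zero_mem _, fun p => by simp⟩
  | add H H' _ _ ih ih' =>
    obtain ⟨c, hcA, hc⟩ := ih
    obtain ⟨c', hc'A, hc'⟩ := ih'
    refine ⟨fun e e' => c e e' + c' e e', fun e e' => add_mem (hcA e e') (hc'A e e'), fun p => ?_⟩
    rw [Pi.add_apply, hc p, hc' p, ← Finset.sum_add_distrib]
    refine Finset.sum_congr rfl fun e _ => ?_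
    rw [← Finset.sum_add_distrib]
    refine Finset.sum_congr rfl fun e' _ => ?_
    ring
  | smul a H _ ih =>
    obtain ⟨c, hcA, hc⟩ := ih
    refine ⟨fun e e' => (a : K) * c e e', fun e e' => mul_mem a.2 (hcA e e'), fun p => ?_⟩
    have h1 : (a • H) p = (a : K) * H p := rfl
    rw [h1, hc p, Finset.mul_sum]
    refine Finset.sum_congr rfl fun e _ => ?_
    rw [Finset.mul_sum]
    refine Finset.sum_congr rfl fun e' _ => ?_
    ring

/-- Independence of the products `e(x) e'(y)` of an independent family. -/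
theorem tens_indep (S' : Finset (M → K))
    (hind : ∀ c : (M → K) → K, (∀ x, ∑ e ∈ S', c e * e x = 0) → ∀ e ∈ S', c e = 0)
    (d : (M → K) → (M → K) → K)
    (hd : ∀ p : M × M, ∑ e ∈ S', ∑ e' ∈ S', d e e' * (e p.1 * e' p.2) = 0) :
    ∀ e ∈ S', ∀ e' ∈ S', d e e' = 0 := by
  have h1 : ∀ y : M, ∀ e ∈ S', ∑ e' ∈ S', d e e' * e' y = 0 := by
    intro y
    apply hind (fun e => ∑ e' ∈ S', d e e' * e' y)
    intro x
    rw [← hd (x, y)]
    refine Finset.sum_congr rfl fun e _ => ?_
    rw [Finset.sum_mul]
    refine Finset.sum_congr rfl fun e' _ => ?_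
    ring
  intro e he
  exact hind (fun e' => d e e') (fun y => h1 y e he)

end Tens

section Basis

variable {K : Type*} [Field K] (A : ValuationSubring K) {X : Type*} [Finite X]
  {ι : Type*} [Finite ι] (u : ι → X → K) (huA : ∀ i x, u i x ∈ A)

include huA in
/-- The algebra generated by finitely many integral functions on a finite set has a basis over
the valuation ring: a finite independent family of members spanning it over `A`. -/
theorem exists_basis_adjoin : ∃ S' : Finset (X → K),
    (∀ e ∈ S', e ∈ Algebra.adjoin A (Set.range u)) ∧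
    (∀ c : (X → K) → K, (∀ x, ∑ e ∈ S', c e * e x = 0) → ∀ e ∈ S', c e = 0) ∧
    (∀ h ∈ Algebra.adjoin A (Set.range u), ∃ α : (X → K) → K, (∀ e, α e ∈ A) ∧
      ∀ x, h x = ∑ e ∈ S', α e * e x) := by
  classical
  have hfg : (Subalgebra.toSubmodule (Algebra.adjoin A (Set.range u))).FG :=
    fg_adjoin_of_finite (Set.finite_range u) (by
      rintro _ ⟨i, rfl⟩
      exact isIntegral_of_valued A (u i) (huA i))
  obtain ⟨S, hS⟩ := hfg
  obtain ⟨S', hS'S, hind, hsp⟩ := exists_basis_subfamily A S (fun e : X → K => e)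
  have hmemS : ∀ e ∈ S, e ∈ Algebra.adjoin A (Set.range u) := fun e he => by
    rw [← Subalgebra.mem_toSubmodule, ← hS]
    exact Submodule.subset_span he
  refine ⟨S', fun e he => hmemS e (hS'S he), fun c hc e he => ?_, fun h hh => ?_⟩
  · refine hind c ?_ e he
    funext x
    rw [Finset.sum_apply]
    exact hc x
  · rw [← Subalgebra.mem_toSubmodule, ← hS, Submodule.mem_span_finset] at hh
    obtain ⟨f, -, hf⟩ := hh
    obtain ⟨α', hα'A, hα'⟩ := sum_smul_eq_sum_of_span A S S' (fun e : X → K => e) hsp
      (fun e => (f e : K)) (fun e => (f e).2)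
    refine ⟨α', hα'A, fun x => ?_⟩
    have h1 : h = ∑ a ∈ S, (f a : K) • a := by
      rw [← hf]
      rfl
    rw [h1, hα', Finset.sum_apply]
    rfl

end Basis

section GroupLike

variable {K : Type*} [Field K] (A : ValuationSubring K) {M : Type*} [AddCommGroup M] [Finite M]
  (π : K) (hπ0 : π ≠ 0) (hπA : π ∈ A) (hπ : ∀ γ : K, ∃ r : ℕ, π ^ r * γ ∈ A)
  {ι : Type*} [Finite ι] (u : ι → M → K) (huA : ∀ i x, u i x ∈ A)
  (hsep : ∀ x x', (∀ i, u i x = u i x') → x = x')
  (hlaw : ∀ (j : ℕ) (k : ι), ∃ P : MvPolynomial (ι ⊕ ι) K, (∀ d, P.coeff d ∈ A) ∧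
    ∀ m m', ∃ w ∈ A, u k (m + m') -
      MvPolynomial.eval (Sum.elim (fun i => u i m) (fun i => u i m')) P = π ^ j * w)

/-- The comultiplication of functions on an additive group. -/
def comulHom : (M → K) →ₐ[A] (M × M → K) where
  toFun h := fun p => h (p.1 + p.2)
  map_one' := rfl
  map_mul' _ _ := rfl
  map_zero' := rfl
  map_add' _ _ := rfl
  commutes' _ := rfl

theorem comulHom_apply (h : M → K) (p : M × M) : comulHom A h p = h (p.1 + p.2) := rfl

include hπA hπ huA hsep in
/-- Bounded denominators on the square. -/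
theorem exists_pow_mul_mem_tens : ∃ n : ℕ, ∀ F : M × M → K, (∀ p, F p ∈ A) →
    (fun p => π ^ n * F p) ∈ tens A (Algebra.adjoin A (Set.range u)) := by
  classical
  cases nonempty_fintype M
  obtain ⟨n, hn⟩ := exists_single_mem A π hπA hπ u huA hsep
  refine ⟨n + n, fun F hF => ?_⟩
  have h : (fun p => π ^ (n + n) * F p) =
      ∑ q : M × M, fun p : M × M => F q *
        ((fun y => if y = q.1 then π ^ n else 0) p.1 * (fun y => if y = q.2 then π ^ n else 0) p.2) := by
    funext p
    rw [Finset.sum_apply, Finset.sum_eq_single p]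
    · simp only [if_true]
      rw [pow_add]
      ring
    · intro q _ hq
      by_cases h1 : p.1 = q.1
      · have h2 : p.2 ≠ q.2 := fun h2 => hq (Prod.ext h1 h2).symm
        simp only [if_neg h2, mul_zero]
      · simp only [if_neg h1, zero_mul, mul_zero]
    · intro hp
      exact absurd (Finset.mem_univ p) hp
  rw [h]
  exact sum_mem fun q _ => mul_mem_of_mem A _ (hF q) (tmul_mem_tens A (hn q.1) (hn q.2))

include hπA hπ huA hsep hlaw in
/-- The algebra generated by coordinates with an approximate polynomial addition law is closed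
under the comultiplication. -/
theorem comul_mem_tens : ∀ h ∈ Algebra.adjoin A (Set.range u),
    (fun p : M × M => h (p.1 + p.2)) ∈ tens A (Algebra.adjoin A (Set.range u)) := by
  classical
  cases nonempty_fintype ι
  set Λ := Algebra.adjoin A (Set.range u) with hΛ
  have huΛ : ∀ i, u i ∈ Λ := fun i => Algebra.subset_adjoin ⟨i, rfl⟩
  have key : ∀ k, comulHom A (u k) ∈ tens A Λ := by
    intro k
    obtain ⟨n, hn⟩ := exists_pow_mul_mem_tens A π hπA hπ u huA hsep
    obtain ⟨P, hPA, hP⟩ := hlaw n k
    choose w hwA hw using hP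
    have h1 : comulHom A (u k) =
        (fun p : M × M => MvPolynomial.eval
          (fun t => (Sum.elim (fun i (p : M × M) => u i p.1) (fun i (p : M × M) => u i p.2)) t p) P) +
        fun p : M × M => π ^ n * w p.1 p.2 := by
      funext p
      rw [Pi.add_apply, comulHom_apply, ← hw p.1 p.2]
      have h2 : (fun t => (Sum.elim (fun i (p : M × M) => u i p.1)
          (fun i (p : M × M) => u i p.2)) t p) =
          Sum.elim (fun i => u i p.1) (fun i => u i p.2) := by
        funext t
        cases t <;> rfl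
      rw [h2]
      ring
    rw [h1]
    refine add_mem (eval_mem A (tens A Λ) _ (fun t => ?_) P hPA) (hn _ fun p => hwA p.1 p.2)
    cases t with
    | inl i => exact fst_mem_tens A (huΛ i)
    | inr i => exact snd_mem_tens A (huΛ i)
  have hle : Λ ≤ (tens A Λ).comap (comulHom A) :=
    Algebra.adjoin_le (by
      rintro _ ⟨k, rfl⟩
      exact key k)
  exact fun h hh => hle hh

include hπ0 hπA hπ huA hsep hlaw in
/-- **Group-likes are integral**: every character of the finite group belongs to the algebra
generated by coordinates with an approximate polynomial addition law. -/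
theorem char_mem (ω : M → K) (hω0 : ω 0 = 1) (hωmul : ∀ m m', ω (m + m') = ω m * ω m') :
    ω ∈ Algebra.adjoin A (Set.range u) := by
  classical
  cases nonempty_fintype M
  set Λ := Algebra.adjoin A (Set.range u) with hΛ
  obtain ⟨S', hS'Λ, hind, hspan⟩ := exists_basis_adjoin A u huA
  obtain ⟨n, hn⟩ := exists_pow_mul_mem A π hπA hπ u huA hsep
  -- every function is a combination of the basis over the field
  have hK : ∀ F : M → K, ∃ w : (M → K) → K, ∀ x, F x = ∑ e ∈ S', w e * e x := by
    intro F
    have hδ : ∀ x0 : M, (fun y => π ^ n * (if y = x0 then (1 : K) else 0)) ∈ Λ :=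
      fun x0 => hn _ fun y => by
        by_cases h : y = x0
        · simp only [if_pos h]; exact one_mem _
        · simp only [if_neg h]; exact zero_mem _
    choose α _ hα using fun x0 => hspan _ (hδ x0)
    refine ⟨fun e => ∑ x0 : M, F x0 * (π ^ n)⁻¹ * α x0 e, fun x => ?_⟩
    have h1 : ∑ e ∈ S', (∑ x0 : M, F x0 * (π ^ n)⁻¹ * α x0 e) * e x =
        ∑ x0 : M, F x0 * (π ^ n)⁻¹ * ∑ e ∈ S', α x0 e * e x := by
      simp only [Finset.sum_mul, Finset.mul_sum]
      rw [Finset.sum_comm]
      refine Finset.sum_congr rfl fun x0 _ => Finset.sum_congr rfl fun e _ => ?_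
      ring
    rw [h1, Finset.sum_eq_single x]
    · rw [← hα x x, if_pos rfl, mul_one, mul_assoc, inv_mul_cancel₀ (pow_ne_zero n hπ0), mul_one]
    · intro x0 _ hx0
      rw [← hα x0 x, if_neg (Ne.symm hx0), mul_zero, mul_zero]
    · intro hx
      exact absurd (Finset.mem_univ x) hx
  obtain ⟨w, hw⟩ := hK ω
  -- structure constants of the comultiplication
  choose! c hcA hc using fun (e : M → K) (he : e ∈ S') =>
    exists_coeff_of_mem_tens A S' hspan
      (comul_mem_tens A π hπA hπ u huA hsep hlaw e (hS'Λ e he))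
  -- the quadratic relations
  have hrel : ∀ e ∈ S', ∀ e' ∈ S', ∑ k ∈ S', w k * c k e e' - w e * w e' = 0 := by
    apply tens_indep S' hind
    intro p
    have eA : ∑ e ∈ S', ∑ e' ∈ S', (∑ k ∈ S', w k * c k e e') * (e p.1 * e' p.2) =
        ∑ k ∈ S', w k * (∑ e ∈ S', ∑ e' ∈ S', c k e e' * (e p.1 * e' p.2)) := by
      calc ∑ e ∈ S', ∑ e' ∈ S', (∑ k ∈ S', w k * c k e e') * (e p.1 * e' p.2)
          = ∑ e ∈ S', ∑ e' ∈ S', ∑ k ∈ S', w k * (c k e e' * (e p.1 * e' p.2)) :=
            Finset.sum_congr rfl fun e _ => Finset.sum_congr rfl fun e' _ => by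
              rw [Finset.sum_mul]
              exact Finset.sum_congr rfl fun k _ => by ring
        _ = ∑ e ∈ S', ∑ k ∈ S', ∑ e' ∈ S', w k * (c k e e' * (e p.1 * e' p.2)) :=
            Finset.sum_congr rfl fun e _ => Finset.sum_comm
        _ = ∑ k ∈ S', ∑ e ∈ S', ∑ e' ∈ S', w k * (c k e e' * (e p.1 * e' p.2)) :=
            Finset.sum_comm
        _ = ∑ k ∈ S', w k * (∑ e ∈ S', ∑ e' ∈ S', c k e e' * (e p.1 * e' p.2)) :=
            Finset.sum_congr rfl fun k _ => by
              rw [Finset.mul_sum]
              exact Finset.sum_congr rfl fun e _ => by rw [Finset.mul_sum]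
    have eB : ∑ e ∈ S', ∑ e' ∈ S', (w e * w e') * (e p.1 * e' p.2) =
        (∑ e ∈ S', w e * e p.1) * (∑ e' ∈ S', w e' * e' p.2) := by
      rw [Finset.sum_mul_sum]
      exact Finset.sum_congr rfl fun e _ => Finset.sum_congr rfl fun e' _ => by ring
    have e1 : ∑ e ∈ S', ∑ e' ∈ S', (∑ k ∈ S', w k * c k e e' - w e * w e') * (e p.1 * e' p.2) =
        ∑ k ∈ S', w k * (∑ e ∈ S', ∑ e' ∈ S', c k e e' * (e p.1 * e' p.2)) -
          (∑ e ∈ S', w e * e p.1) * (∑ e' ∈ S', w e' * e' p.2) := by
      rw [← eA, ← eB, ← Finset.sum_sub_distrib]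
      refine Finset.sum_congr rfl fun e _ => ?_
      rw [← Finset.sum_sub_distrib]
      exact Finset.sum_congr rfl fun e' _ => by rw [sub_mul]
    rw [e1]
    have e2 : ∑ k ∈ S', w k * (∑ e ∈ S', ∑ e' ∈ S', c k e e' * (e p.1 * e' p.2)) =
        ω (p.1 + p.2) := by
      rw [hw (p.1 + p.2)]
      refine Finset.sum_congr rfl fun k hk => ?_
      rw [← hc k hk p]
    rw [e2, ← hw p.1, ← hw p.2, hωmul, sub_self]
  -- the coordinate of maximal valuation is integral
  have hne : ∃ e ∈ S', w e ≠ 0 := by
    by_contra hcon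
    push Not at hcon
    have h0 : ω 0 = 0 := by
      rw [hw 0]
      exact Finset.sum_eq_zero fun e he => by rw [hcon e he, zero_mul]
    rw [hω0] at h0
    exact one_ne_zero h0
  obtain ⟨e0, he0, hw0, hdiv⟩ := exists_max_val A S' w hne
  have hw0A : w e0 ∈ A := by
    have h1 : w e0 = ∑ k ∈ S', (w k / w e0) * c k e0 e0 := by
      have h2 := hrel e0 he0 e0 he0
      rw [sub_eq_zero] at h2
      have h3 : ∑ k ∈ S', (w k / w e0) * c k e0 e0 = (∑ k ∈ S', w k * c k e0 e0) / w e0 := by
        rw [Finset.sum_div]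
        exact Finset.sum_congr rfl fun k _ => by ring
      rw [h3, h2, mul_div_assoc, div_self hw0, mul_one]
    rw [h1]
    exact sum_mem fun k hk => mul_mem (hdiv k hk) (hcA k hk e0 e0)
  have hwA : ∀ e ∈ S', w e ∈ A := by
    intro e he
    have h1 : w e = (w e / w e0) * w e0 := by
      field_simp
    rw [h1]
    exact mul_mem (hdiv e he) hw0A
  have hω : ω = ∑ e ∈ S', fun x => w e * e x := by
    funext x
    rw [Finset.sum_apply]
    exact hw x
  rw [hω]
  exact sum_mem fun e he => mul_mem_of_mem A Λ (hwA e he) (hS'Λ e he)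

end GroupLike

/-! ### Part D: the unit -/

section Unit

variable {K : Type*} [Field K] (A : ValuationSubring K) {M : Type*} [AddCommGroup M] [Finite M]
  (π : K) (hπ0 : π ≠ 0) (hπA : π ∈ A) (hπ : ∀ γ : K, ∃ r : ℕ, π ^ r * γ ∈ A)
  {ι : Type*} [Finite ι] (u v : ι → M → K) (huA : ∀ i x, u i x ∈ A) (hvA : ∀ i x, v i x ∈ A)
  (husep : ∀ x x', (∀ i, u i x = u i x') → x = x')
  (hvsep : ∀ x x', (∀ i, v i x = v i x') → x = x')
  (hlaw : ∀ (j : ℕ) (k : ι), ∃ P : MvPolynomial (ι ⊕ ι) K, (∀ d, P.coeff d ∈ A) ∧
    ∀ m m', ∃ w ∈ A, u k (m + m') -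
      MvPolynomial.eval (Sum.elim (fun i => u i m) (fun i => u i m')) P = π ^ j * w)
  (htr : ∀ (j : ℕ) (k : ι), ∃ (P : MvPolynomial (ι ⊕ ι) K) (cst : ι → K),
    (∀ d, P.coeff d ∈ A) ∧ (∀ i, cst i ∈ A) ∧
    ∀ m, ∃ w ∈ A, u k m - MvPolynomial.eval (Sum.elim (fun i => v i m) cst) P = π ^ j * w)

include hπA hπ hvA hvsep htr in
/-- Coordinates which are approximately polynomial in other separating integral coordinates
belong to the algebra generated by the latter. -/
theorem adjoin_le_adjoin : Algebra.adjoin A (Set.range u) ≤ Algebra.adjoin A (Set.range v) := by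
  classical
  cases nonempty_fintype ι
  refine Algebra.adjoin_le ?_
  rintro _ ⟨k, rfl⟩
  refine mem_of_approx A π hπA hπ v hvA hvsep (u k) fun j => ?_
  obtain ⟨P, cst, hPA, hcst, hP⟩ := htr j k
  refine ⟨fun m => MvPolynomial.eval
    (fun t => (Sum.elim v (fun i (_ : M) => cst i)) t m) P, ?_, fun m => ?_⟩
  · refine eval_mem A _ _ (fun t => ?_) P hPA
    cases t with
    | inl i => exact Algebra.subset_adjoin ⟨i, rfl⟩
    | inr i => exact const_mem A _ (hcst i)
  · have h2 : (fun t => (Sum.elim v (fun i (_ : M) => cst i)) t m) =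
        Sum.elim (fun i => v i m) cst := by
      funext t
      cases t <;> rfl
    simp only [h2]
    exact hP m

include hπ0 hπA hπ huA hvA husep hvsep hlaw htr in
/-- **The unit.**  `u` are coordinates on a finite group with an approximate polynomial addition
law, `v` are coordinates on a torsor (parametrised by the group) in which the `u` are
approximately polynomial.  For every character `ω` there is a unit `β` of `A` such that every
semilinear symmetry `(σ, τ)` of the torsor coordinates which multiplies `ω` by a constant `c`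
satisfies `c = σ β / β`. -/
theorem exists_unit_of_char (ω : M → K) (hω0 : ω 0 = 1)
    (hωmul : ∀ m m', ω (m + m') = ω m * ω m') :
    ∃ β : K, β ∈ A ∧ β⁻¹ ∈ A ∧ ∀ (σ : K ≃+* K) (τ : M → M) (c : K),
      (∀ i m, v i (τ m) = σ (v i m)) → (∀ m, ω (τ m) = c * σ (ω m)) → c = σ β / β := by
  classical
  have hωu : ω ∈ Algebra.adjoin A (Set.range u) :=
    char_mem A π hπ0 hπA hπ u huA husep hlaw ω hω0 hωmul
  have hωv : ω ∈ Algebra.adjoin A (Set.range v) :=
    adjoin_le_adjoin A π hπA hπ u v hvA hvsep htr hωu
  rw [← Subalgebra.mem_toSubmodule, Algebra.adjoin_eq_span,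
    Submodule.mem_span_iff_exists_finset_subset] at hωv
  obtain ⟨f, t, htM, -, hft⟩ := hωv
  -- members of the monoid generated by the coordinates are integral and equivariant
  have hval : ∀ e ∈ Submonoid.closure (Set.range v), ∀ x, e x ∈ A := by
    intro e he
    induction he using Submonoid.closure_induction with
    | mem e he =>
      obtain ⟨i, rfl⟩ := he
      exact hvA i
    | one => exact fun x => one_mem _
    | mul e e' _ _ ih ih' => exact fun x => mul_mem (ih x) (ih' x)
  have heqv : ∀ e ∈ Submonoid.closure (Set.range v), ∀ (σ : K ≃+* K) (τ : M → M),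
      (∀ i m, v i (τ m) = σ (v i m)) → ∀ m, e (τ m) = σ (e m) := by
    intro e he
    induction he using Submonoid.closure_induction with
    | mem e he =>
      obtain ⟨i, rfl⟩ := he
      exact fun σ τ h m => h i m
    | one => exact fun σ τ h m => by simp
    | mul e e' _ _ ih ih' =>
      exact fun σ τ h m => by rw [Pi.mul_apply, Pi.mul_apply, ih σ τ h m, ih' σ τ h m, map_mul]
  -- an independent subfamily
  obtain ⟨S', hS't, hind, hsp⟩ := exists_basis_subfamily A t (fun e : M → K => e)
  obtain ⟨α, hαA, hα⟩ := sum_smul_eq_sum_of_span A t S' (fun e : M → K => e) hsp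
    (fun e => (f e : K)) (fun e => (f e).2)
  have hω : ∀ m, ω m = ∑ e ∈ S', α e * e m := by
    intro m
    have h1 : ω = ∑ a ∈ t, (f a : K) • a := by
      rw [← hft]
      rfl
    rw [h1, hα, Finset.sum_apply]
    rfl
  have hS'M : ∀ e ∈ S', e ∈ Submonoid.closure (Set.range v) := fun e he => htM (hS't he)
  -- one coefficient is a unit
  have hunit : ∃ e1 ∈ S', A.valuation (α e1) = 1 := by
    by_contra hcon
    push Not at hcon
    have hlt : ∀ e ∈ S', A.valuation (α e * e 0) < 1 := by
      intro e he
      have h1 : A.valuation (α e) < 1 :=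
        lt_of_le_of_ne ((A.valuation_le_one_iff _).mpr (hαA e)) (hcon e he)
      have h2 : A.valuation (e 0) ≤ 1 := (A.valuation_le_one_iff _).mpr (hval e (hS'M e he) 0)
      rw [map_mul, mul_comm]
      exact Right.mul_lt_one_of_le_of_lt h2 h1
    have h3 := A.valuation.map_sum_lt one_ne_zero hlt
    rw [← hω 0, hω0, map_one] at h3
    exact lt_irrefl _ h3
  obtain ⟨e1, he1, hv1⟩ := hunit
  have hα1 : α e1 ≠ 0 := by
    intro h0
    rw [h0, map_zero] at hv1
    exact zero_ne_one hv1
  refine ⟨(α e1)⁻¹, ?_, ?_, ?_⟩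
  · rw [← A.valuation_le_one_iff, map_inv₀, hv1, inv_one]
  · rw [inv_inv]
    exact hαA e1
  · intro σ τ c hτ hc
    -- comparison of coefficients
    have hcoef : ∀ e ∈ S', σ.symm (α e - c * σ (α e)) = 0 := by
      apply hind (fun e => σ.symm (α e - c * σ (α e)))
      funext m
      rw [Finset.sum_apply]
      have h1 : ∑ e ∈ S', (α e - c * σ (α e)) * σ (e m) = 0 := by
        have h2 : ∑ e ∈ S', α e * σ (e m) = ω (τ m) := by
          rw [hω (τ m)]
          exact Finset.sum_congr rfl fun e he => by rw [heqv e (hS'M e he) σ τ hτ m]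
        have h3 : ∑ e ∈ S', c * σ (α e) * σ (e m) = c * σ (ω m) := by
          rw [hω m, map_sum, Finset.mul_sum]
          exact Finset.sum_congr rfl fun e _ => by rw [map_mul, mul_assoc]
        simp only [sub_mul, Finset.sum_sub_distrib]
        rw [h2, h3, hc m, sub_self]
      have h4 := congrArg σ.symm h1
      rw [map_sum, map_zero] at h4
      show ∑ e ∈ S', σ.symm (α e - c * σ (α e)) * e m = 0
      rw [← h4]
      refine Finset.sum_congr rfl fun e _ => ?_
      rw [map_mul, RingEquiv.symm_apply_apply]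
    have h5 : α e1 = c * σ (α e1) := by
      have h6 := hcoef e1 he1
      rw [map_eq_zero_iff σ.symm σ.symm.injective, sub_eq_zero] at h6
      exact h6
    have hσ1 : σ (α e1) ≠ 0 := (map_ne_zero_iff σ σ.injective).mpr hα1
    rw [map_inv₀, inv_div_inv]
    rw [eq_div_iff hσ1]
    exact h5.symm

end Unit

end Fermat.Agent.S15.helper1908
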