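/-
S15 (Mazur's step three), block [R], item (LOC-r, UNIT) in the frozen vocabulary -- seat
helper1908.

From the S19 core interface `helper2111.IsCoordSystem` exactly as it is on main: for a finite
inertia-stable subgroup `F` of `J₀(N)`, an inertia-equivariant character `ω` of `F` and a point
`y` with `σ • y - y ∈ F` for all inertia `σ`, the cocycle `σ ↦ ω (σ • y - y)` is `σ β / β` for a
UNIT `β` of the valuation ring.  The coordinate system may live at another level `N'`, reached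
by an injective inertia-equivariant additive map (the auxiliary level for the primes 2 and 3).
-/
import Fermat.Agent.S15.helper1908_UnitClass
import Fermat.Agent.S19.helper2111_SpecCore
import Fermat.Agent.S19.helper2765_Closure

set_option autoImplicit false

namespace Fermat.Agent.S15.helper1908

open Fermat.Agent.S19.helper2111 ModularCurve

variable {ℓ N N' : ℕ} {A : ValuationSubring Qb} {g : ℕ} {J1 : AddSubgroup (JZero N')}
  {b : JZero N' → Fin g → Qb}

/-- (R1) Inertia moves every point inside its class modulo the kernel of reduction. -/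
theorem smul_sub_mem (hcs : IsCoordSystem ℓ N' A g J1 b) (σ : GQ)
    (hσ : σ ∈ A.inertiaSubgroupIn ℚ) (y : JZero N') : σ • y - y ∈ J1 := by
  obtain ⟨c, hc, hyc⟩ := hcs.cen y
  have h1 : σ • (y - c) ∈ J1 := hcs.stable σ hσ _ hyc
  have h2 : σ • y - y = σ • (y - c) - (y - c) := by
    rw [smul_sub, hc σ hσ]
    abel
  rw [h2]
  exact J1.sub_mem h1 hyc

/-- (R2) **Unit class**, level-agnostic form: the coordinate system lives at a level `N'`
receiving `J₀(N)` by an injective inertia-equivariant additive map. -/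
theorem unit_class_map (hℓ : ℓ.Prime) (hA : A.LiesOverPrime ℓ)
    (hcs : IsCoordSystem ℓ N' A g J1 b)
    (φ : JZero N →+ JZero N') (hφ : Function.Injective φ)
    (hgal : ∀ σ ∈ A.inertiaSubgroupIn ℚ, ∀ x : JZero N, φ (σ • x) = σ • φ x)
    (F : AddSubgroup (JZero N)) [Finite F]
    (hFI : ∀ σ ∈ A.inertiaSubgroupIn ℚ, ∀ x ∈ F, σ • x ∈ F)
    (ω : JZero N → Qb) (hω0 : ω 0 = 1)
    (hωmul : ∀ x ∈ F, ∀ x' ∈ F, ω (x + x') = ω x * ω x')
    (hωI : ∀ σ ∈ A.inertiaSubgroupIn ℚ, ∀ x ∈ F, ω (σ • x) = σ (ω x))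
    (y : JZero N) (hy : ∀ σ ∈ A.inertiaSubgroupIn ℚ, σ • y - y ∈ F) :
    ∃ β : Qb, β ∈ A ∧ β⁻¹ ∈ A ∧ ∀ σ ∈ A.inertiaSubgroupIn ℚ, ω (σ • y - y) = σ β / β := by
  classical
  -- the centre and the translated point
  obtain ⟨c, hc, hz0⟩ := hcs.cen (φ y)
  set z0 : JZero N' := φ y - c with hz0def
  -- the part of `F` inside the kernel of reduction
  let N0 : AddSubgroup (JZero N) := F ⊓ J1.comap φ
  have hN0F : ∀ m : N0, (m : JZero N) ∈ F := fun m => m.2.1
  have hN0J : ∀ m : N0, φ (m : JZero N) ∈ J1 := fun m => m.2.2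
  have : Finite N0 :=
    Finite.of_injective (fun m : N0 => (⟨m, hN0F m⟩ : F)) (fun m m' h => by
      apply Subtype.ext
      exact congrArg (fun t : F => (t : JZero N)) h)
  cases nonempty_fintype N0
  have hπ0 : (ℓ : Qb) ≠ 0 := Nat.cast_ne_zero.mpr hℓ.ne_zero
  have hπA : (ℓ : Qb) ∈ A := natCast_mem A ℓ
  have hπ : ∀ γ : Qb, ∃ r : ℕ, (ℓ : Qb) ^ r * γ ∈ A :=
    Fermat.Agent.S19.helper2765.exists_pow_mul_mem hℓ A hA
  let u : Fin g → N0 → Qb := fun i m => b (φ (m : JZero N)) i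
  let v : Fin g → N0 → Qb := fun i m => b (z0 + φ (m : JZero N)) i
  have hvJ : ∀ m : N0, z0 + φ (m : JZero N) ∈ J1 := fun m => J1.add_mem hz0 (hN0J m)
  have huA : ∀ i (m : N0), u i m ∈ A := fun i m => hcs.val _ (hN0J m) i
  have hvA : ∀ i (m : N0), v i m ∈ A := fun i m => hcs.val _ (hvJ m) i
  have husep : ∀ x x' : N0, (∀ i, u i x = u i x') → x = x' := by
    intro x x' h
    have h1 := hcs.inj _ (hN0J x) _ (hN0J x') (funext h)
    exact Subtype.ext (hφ h1)
  have hvsep : ∀ x x' : N0, (∀ i, v i x = v i x') → x = x' := by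
    intro x x' h
    have h1 := hcs.inj _ (hvJ x) _ (hvJ x') (funext h)
    exact Subtype.ext (hφ (add_left_cancel h1))
  have hlaw : ∀ (j : ℕ) (k : Fin g), ∃ P : MvPolynomial (Fin g ⊕ Fin g) Qb,
      (∀ d, P.coeff d ∈ A) ∧ ∀ m m' : N0, ∃ w ∈ A,
        u k (m + m') - MvPolynomial.eval (Sum.elim (fun i => u i m) (fun i => u i m')) P =
          (ℓ : Qb) ^ j * w := by
    intro j k
    obtain ⟨P, hPA, hP⟩ := hcs.law j (Finset.univ.image fun m : N0 => φ (m : JZero N))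
      (fun x hx => by
        obtain ⟨m, -, rfl⟩ := Finset.mem_image.mp hx
        exact hN0J m)
    refine ⟨P k, hPA k, fun m m' => ?_⟩
    obtain ⟨w, hwA, hw⟩ := hP _ (Finset.mem_image_of_mem _ (Finset.mem_univ m)) _
      (Finset.mem_image_of_mem _ (Finset.mem_univ m')) k
    refine ⟨w, hwA, ?_⟩
    rw [← hw]
    show b (φ ((m + m' : N0) : JZero N)) k - _ = _
    rw [AddSubgroup.coe_add, map_add]
  have htr : ∀ (j : ℕ) (k : Fin g), ∃ (P : MvPolynomial (Fin g ⊕ Fin g) Qb) (cst : Fin g → Qb),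
      (∀ d, P.coeff d ∈ A) ∧ (∀ i, cst i ∈ A) ∧ ∀ m : N0, ∃ w ∈ A,
        u k m - MvPolynomial.eval (Sum.elim (fun i => v i m) cst) P = (ℓ : Qb) ^ j * w := by
    intro j k
    obtain ⟨P, hPA, hP⟩ := hcs.law j
      (insert (-z0) (Finset.univ.image fun m : N0 => z0 + φ (m : JZero N)))
      (fun x hx => by
        rcases Finset.mem_insert.mp hx with rfl | hx
        · exact J1.neg_mem hz0
        · obtain ⟨m, -, rfl⟩ := Finset.mem_image.mp hx
          exact hvJ m)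
    refine ⟨P k, b (-z0), hPA k, fun i => hcs.val _ (J1.neg_mem hz0) i, fun m => ?_⟩
    obtain ⟨w, hwA, hw⟩ := hP _
      (Finset.mem_insert_of_mem (Finset.mem_image_of_mem _ (Finset.mem_univ m))) _
      (Finset.mem_insert_self _ _) k
    refine ⟨w, hwA, ?_⟩
    rw [← hw]
    have h1 : z0 + φ (m : JZero N) + -z0 = φ (m : JZero N) := by abel
    rw [h1]
  obtain ⟨β, hβA, hβA', hβ⟩ := exists_unit_of_char A (ℓ : Qb) hπ0 hπA hπ u v huA hvA husep hvsep
    hlaw htr (fun m : N0 => ω (m : JZero N)) hω0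
    (fun m m' => hωmul _ (hN0F m) _ (hN0F m'))
  refine ⟨β, hβA, hβA', fun σ hσ => ?_⟩
  -- the affine action of `σ` on the torsor
  have hdJ : φ (σ • y - y) ∈ J1 := by
    have h1 : φ (σ • y - y) = σ • z0 - z0 := by
      rw [map_sub, hgal σ hσ, hz0def, smul_sub, hc σ hσ]
      abel
    rw [h1]
    exact J1.sub_mem (hcs.stable σ hσ _ hz0) hz0
  have hτ : ∀ m : N0, σ • (m : JZero N) + (σ • y - y) ∈ N0 := by
    intro m
    refine ⟨F.add_mem (hFI σ hσ _ (hN0F m)) (hy σ hσ), ?_⟩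
    show φ (σ • (m : JZero N) + (σ • y - y)) ∈ J1
    rw [map_add, hgal σ hσ]
    exact J1.add_mem (hcs.stable σ hσ _ (hN0J m)) hdJ
  refine hβ (σ : Qb ≃+* Qb) (fun m => ⟨σ • (m : JZero N) + (σ • y - y), hτ m⟩)
    (ω (σ • y - y)) (fun i m => ?_) (fun m => ?_)
  · show b (z0 + φ (σ • (m : JZero N) + (σ • y - y))) i = σ (b (z0 + φ (m : JZero N)) i)
    rw [← hcs.eqv σ hσ _ (hvJ m) i]
    congr 2
    rw [map_add, map_sub, hgal σ hσ, hgal σ hσ, smul_add, hz0def, smul_sub, hc σ hσ]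
    abel
  · show ω (σ • (m : JZero N) + (σ • y - y)) = ω (σ • y - y) * σ (ω (m : JZero N))
    rw [hωmul _ (hFI σ hσ _ (hN0F m)) _ (hy σ hσ), hωI σ hσ _ (hN0F m), mul_comm]

/-- (R2) **Unit class** at the level of the coordinate system. -/
theorem unit_class (hℓ : ℓ.Prime) (hA : A.LiesOverPrime ℓ)
    (hcs : IsCoordSystem ℓ N' A g J1 b)
    (F : AddSubgroup (JZero N')) [Finite F]
    (hFI : ∀ σ ∈ A.inertiaSubgroupIn ℚ, ∀ x ∈ F, σ • x ∈ F)
    (ω : JZero N' → Qb) (hω0 : ω 0 = 1)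
    (hωmul : ∀ x ∈ F, ∀ x' ∈ F, ω (x + x') = ω x * ω x')
    (hωI : ∀ σ ∈ A.inertiaSubgroupIn ℚ, ∀ x ∈ F, ω (σ • x) = σ (ω x))
    (y : JZero N') (hy : ∀ σ ∈ A.inertiaSubgroupIn ℚ, σ • y - y ∈ F) :
    ∃ β : Qb, β ∈ A ∧ β⁻¹ ∈ A ∧ ∀ σ ∈ A.inertiaSubgroupIn ℚ, ω (σ • y - y) = σ β / β :=
  unit_class_map hℓ hA hcs (AddMonoidHom.id _) (fun _ _ h => h) (fun _ _ _ => rfl) F hFI ω hω0
    hωmul hωI y hy

end Fermat.Agent.S15.helper1908
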