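/-
S15 (Mazur's step three), block [R], item (LOC-r, UNIT): the closed theorem -- seat helper1908.

At EVERY level `N ≠ 0`, every prime `ℓ ∤ N` (`ℓ = 2, 3` included) and every place `A` of `ℚ̄`
over `ℓ`, with no hypothesis on coordinates: for a finite inertia-stable subgroup `F` of
`J₀(N)`, an inertia-equivariant character `ω` of `F` and a point `y` with `σ • y - y ∈ F` for
all inertia `σ`, the cocycle `σ ↦ ω (σ • y - y)` on inertia is `σ β / β` for a UNIT `β` of `A`.

Only landed S19 files are used: the core at the auxiliary level (`helper6256.stmt_CoreAt` with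
the gate `helper2111.stmt_GateLat_auxLevel`) and the level map `helper2289.exists_lcm`.
-/
import Fermat.Agent.S15.helper1908_UnitClassJ
import Fermat.Agent.S19.helper2111_Gate
import Fermat.Agent.S19.helper6256_CoreAt

set_option autoImplicit false

namespace Fermat.Agent.S15.helper1908

open Fermat.Agent.S19.helper2111 ModularCurve

/-- A full coordinate system at some level receiving `J₀(N)` by an injective Galois-equivariant
additive map; no hypothesis. -/
theorem exists_coords_map (N : ℕ) [NeZero N] (ℓ : ℕ) [Fact ℓ.Prime] (hℓN : ¬ ℓ ∣ N)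
    (A : ValuationSubring Qb) (hA : A.LiesOverPrime ℓ) :
    ∃ (N' : ℕ) (φ : JZero N →+ JZero N') (g : ℕ) (J1 : AddSubgroup (JZero N'))
      (b : JZero N' → Fin g → Qb),
      Function.Injective φ ∧ (∀ (σ : GQ) (x : JZero N), φ (σ • x) = σ • φ x) ∧
        IsCoordSystem ℓ N' A g J1 b := by
  have hφ : ∃ φ : JZero N →+ JZero (Fermat.Agent.S19.helper2289.auxLevel N ℓ),
      Function.Injective φ ∧ ∀ (σ : GQ) (x : JZero N), φ (σ • x) = σ • φ x := by
    by_cases h : ℓ = 2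
    · rw [show Fermat.Agent.S19.helper2289.auxLevel N ℓ = N.lcm 3 from if_pos h]
      exact Fermat.Agent.S19.helper2289.exists_lcm N 3 Nat.prime_three
    · rw [show Fermat.Agent.S19.helper2289.auxLevel N ℓ = N.lcm 2 from if_neg h]
      exact Fermat.Agent.S19.helper2289.exists_lcm N 2 Nat.prime_two
  obtain ⟨φ, hφi, hφg⟩ := hφ
  obtain ⟨g, J1, b, h⟩ := Fermat.Agent.S19.helper6256.stmt_CoreAt _ ℓ _ A hA
    (Fermat.Agent.S19.helper2111.stmt_GateLat_auxLevel N ℓ hℓN A hA)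
  exact ⟨_, φ, g, J1, b, hφi, hφg, h⟩

/-- (R2) **Unit class, closed form.**  No coordinates, no kernel of reduction, every level
`N ≠ 0` and every prime `ℓ ∤ N`. -/
theorem unit_class_closed (N : ℕ) [NeZero N] (ℓ : ℕ) [Fact ℓ.Prime] (hℓN : ¬ ℓ ∣ N)
    (A : ValuationSubring Qb) (hA : A.LiesOverPrime ℓ)
    (F : AddSubgroup (JZero N)) [Finite F]
    (hFI : ∀ σ ∈ A.inertiaSubgroupIn ℚ, ∀ x ∈ F, σ • x ∈ F)
    (ω : JZero N → Qb) (hω0 : ω 0 = 1)
    (hωmul : ∀ x ∈ F, ∀ x' ∈ F, ω (x + x') = ω x * ω x')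
    (hωI : ∀ σ ∈ A.inertiaSubgroupIn ℚ, ∀ x ∈ F, ω (σ • x) = σ (ω x))
    (y : JZero N) (hy : ∀ σ ∈ A.inertiaSubgroupIn ℚ, σ • y - y ∈ F) :
    ∃ β : Qb, β ∈ A ∧ β⁻¹ ∈ A ∧ ∀ σ ∈ A.inertiaSubgroupIn ℚ, ω (σ • y - y) = σ β / β := by
  obtain ⟨N', φ, g, J1, b, hφi, hφg, hcs⟩ := exists_coords_map N ℓ hℓN A hA
  exact unit_class_map (Fact.out : ℓ.Prime) hA hcs φ hφi (fun σ _ x => hφg σ x) F hFI ω hω0
    hωmul hωI y hy

end Fermat.Agent.S15.helper1908
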