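/-
Abstract, Mathlib-only cores for the Mazur block (S15):
* the Cassels chain count for relative invariants along a stable flag (C1)-(C4);
* the pointwise decomposition (E1) and the abstract endgame (E2).
Everything is stated with subgroups of one ambient group, never with quotient types or cocycles.
-/
import Mathlib

set_option autoImplicit false

namespace Fermat.Agent.S15.helper4190

section Cassels

variable (G : Type*) {J : Type*} [Group G] [AddCommGroup J] [DistribMulAction G J]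

/-- Relative invariants: the points whose class modulo `F` is fixed by `G`.
`relInv G F / F` is the group of invariants of `J / F`. -/
def relInv (F : AddSubgroup J) : AddSubgroup J where
  carrier := {y | ∀ s : G, s • y - y ∈ F}
  zero_mem' := by
    intro s
    simp
  add_mem' := by
    intro a b ha hb s
    have h : s • (a + b) - (a + b) = (s • a - a) + (s • b - b) := by
      rw [smul_add]; abel
    rw [h]
    exact F.add_mem (ha s) (hb s)
  neg_mem' := by
    intro a ha s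
    have h : s • (-a) - (-a) = -(s • a - a) := by
      rw [smul_neg]; abel
    rw [h]
    exact F.neg_mem (ha s)

theorem mem_relInv {F : AddSubgroup J} {y : J} :
    y ∈ relInv G F ↔ ∀ s : G, s • y - y ∈ F := Iff.rfl

theorem mem_relInv_bot {y : J} : y ∈ relInv G (⊥ : AddSubgroup J) ↔ ∀ s : G, s • y = y := by
  rw [mem_relInv]
  constructor
  · intro h s
    have := h s
    rw [AddSubgroup.mem_bot, sub_eq_zero] at this
    exact this
  · intro h s
    rw [AddSubgroup.mem_bot, sub_eq_zero]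
    exact h s

theorem relInv_mono {F F' : AddSubgroup J} (h : F ≤ F') : relInv G F ≤ relInv G F' :=
  fun _ hy s => h (hy s)

/-- `F` is stable under the action. -/
def IsStable (F : AddSubgroup J) : Prop := ∀ (s : G), ∀ y ∈ F, s • y ∈ F

theorem isStable_bot : IsStable G (⊥ : AddSubgroup J) := by
  intro s y hy
  rw [AddSubgroup.mem_bot] at hy ⊢
  rw [hy, smul_zero]

variable {G}

theorem IsStable.le_relInv {F : AddSubgroup J} (hF : IsStable G F) : F ≤ relInv G F :=
  fun y hy s => F.sub_mem (hF s y hy) hy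

theorem IsStable.relInv {F : AddSubgroup J} (hF : IsStable G F) : IsStable G (relInv G F) := by
  intro t y hy s
  have h : s • t • y - t • y = t • ((t⁻¹ * s * t) • y - y) := by
    rw [smul_sub, smul_smul, smul_smul]
    congr 2
    group
  rw [h]
  exact hF t _ (hy _)

variable (G)

/-- Order of the cokernel of `(J/F)^G → (J/F')^G` (`0` if infinite). -/
noncomputable def cokIdx (F F' : AddSubgroup J) : ℕ := (relInv G F ⊔ F').relIndex (relInv G F')

/-- Order of `(F'/F)^G`, the kernel of `(J/F)^G → (J/F')^G` (`0` if infinite). -/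
noncomputable def kerIdx (F F' : AddSubgroup J) : ℕ := F.relIndex (relInv G F ⊓ F')

variable {G}

/-- (C1) The three-term Cassels identity; no finiteness hypothesis. -/
theorem cokIdx_mul_kerIdx {F0 F1 F2 : AddSubgroup J} (h01 : F0 ≤ F1) (h12 : F1 ≤ F2)
    (hs0 : IsStable G F0) (hs1 : IsStable G F1) (hs2 : IsStable G F2) :
    cokIdx G F0 F2 * kerIdx G F0 F1 * kerIdx G F1 F2 =
      cokIdx G F0 F1 * cokIdx G F1 F2 * kerIdx G F0 F2 := by
  set I0 := relInv G F0 with hI0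
  set I1 := relInv G F1 with hI1
  set I2 := relInv G F2 with hI2
  have hI01 : I0 ≤ I1 := relInv_mono G h01
  have hI12 : I1 ≤ I2 := relInv_mono G h12
  have hF0 : F0 ≤ I0 := hs0.le_relInv
  have hF1 : F1 ≤ I1 := hs1.le_relInv
  have hF2 : F2 ≤ I2 := hs2.le_relInv
  -- the auxiliary indices
  set d := (I0 ⊔ I1 ⊓ F2).relIndex I1 with hd
  set e := (F1 ⊔ I0 ⊓ F2).relIndex (I1 ⊓ F2) with he
  set f := (I0 ⊓ F1).relIndex (I0 ⊓ F2) with hf
  -- Step 1 and 2
  have h1 : cokIdx G F0 F2 = d * cokIdx G F1 F2 := by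
    unfold cokIdx
    rw [← hI0, ← hI1, ← hI2]
    have hle1 : I0 ⊔ F2 ≤ I1 ⊔ F2 := sup_le_sup_right hI01 F2
    have hle2 : I1 ⊔ F2 ≤ I2 := sup_le hI12 hF2
    rw [← AddSubgroup.relIndex_mul_relIndex _ _ _ hle1 hle2]
    congr 1
    have hsup : I1 ⊔ (I0 ⊔ F2) = I1 ⊔ F2 := by
      rw [← sup_assoc, sup_eq_left.mpr hI01]
    have h2 := AddSubgroup.relIndex_sup_right (H := I1) (K := I0 ⊔ F2)
    rw [hsup] at h2
    rw [h2, ← AddSubgroup.inf_relIndex_right, sup_inf_assoc_of_le F2 hI01, inf_comm F2 I1]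
  -- Step 3 and 4
  have h3 : cokIdx G F0 F1 = e * d := by
    unfold cokIdx
    rw [← hI0, ← hI1]
    have hF1' : F1 ≤ I1 ⊓ F2 := le_inf hF1 h12
    have hle1 : I0 ⊔ F1 ≤ I0 ⊔ I1 ⊓ F2 := sup_le_sup_left hF1' I0
    have hle2 : I0 ⊔ I1 ⊓ F2 ≤ I1 := sup_le hI01 inf_le_left
    rw [← AddSubgroup.relIndex_mul_relIndex _ _ _ hle1 hle2]
    congr 1
    have hsup : (I1 ⊓ F2) ⊔ (I0 ⊔ F1) = I0 ⊔ I1 ⊓ F2 := by
      rw [sup_comm I0 F1, ← sup_assoc, sup_eq_left.mpr hF1', sup_comm]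
    have h4 := AddSubgroup.relIndex_sup_right (H := I1 ⊓ F2) (K := I0 ⊔ F1)
    rw [hsup] at h4
    rw [h4, ← AddSubgroup.inf_relIndex_right]
    have hmod : (I0 ⊔ F1) ⊓ (I1 ⊓ F2) = F1 ⊔ I0 ⊓ F2 := by
      rw [sup_comm I0 F1, sup_inf_assoc_of_le I0 hF1', ← inf_assoc, inf_eq_left.mpr hI01]
    rw [hmod]
  -- Step 5 and 6
  have h5 : kerIdx G F1 F2 = f * e := by
    unfold kerIdx
    rw [← hI1]
    have hF1' : F1 ≤ I1 ⊓ F2 := le_inf hF1 h12
    have hle1 : F1 ≤ F1 ⊔ I0 ⊓ F2 := le_sup_left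
    have hle2 : F1 ⊔ I0 ⊓ F2 ≤ I1 ⊓ F2 := sup_le hF1' (inf_le_inf_right F2 hI01)
    rw [← AddSubgroup.relIndex_mul_relIndex _ _ _ hle1 hle2]
    congr 1
    rw [AddSubgroup.relIndex_sup_left, ← AddSubgroup.inf_relIndex_right]
    have hinf : F1 ⊓ (I0 ⊓ F2) = I0 ⊓ F1 := by
      rw [inf_comm I0 F2, ← inf_assoc, inf_eq_left.mpr h12, inf_comm]
    rw [hinf]
  -- Step 7
  have h7 : kerIdx G F0 F2 = kerIdx G F0 F1 * f := by
    unfold kerIdx
    rw [← hI0]
    have hle1 : F0 ≤ I0 ⊓ F1 := le_inf hF0 h01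
    have hle2 : I0 ⊓ F1 ≤ I0 ⊓ F2 := inf_le_inf_left I0 h12
    rw [AddSubgroup.relIndex_mul_relIndex _ _ _ hle1 hle2]
  rw [h1, h3, h5, h7]
  ring

theorem cokIdx_self (F : AddSubgroup J) : cokIdx G F F = 1 := by
  unfold cokIdx
  rw [AddSubgroup.relIndex_eq_one]
  exact le_sup_left

theorem kerIdx_self (F : AddSubgroup J) : kerIdx G F F = 1 := by
  unfold kerIdx
  rw [AddSubgroup.relIndex_eq_one]
  exact inf_le_right

/-- `kerIdx` is the order of the step when the action on the step is trivial. -/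
theorem kerIdx_eq_relIndex_of_trivial {F F' : AddSubgroup J}
    (h : ∀ (s : G), ∀ y ∈ F', s • y - y ∈ F) : kerIdx G F F' = F.relIndex F' := by
  unfold kerIdx
  have : F' ≤ relInv G F := fun y hy s => h s y hy
  rw [inf_eq_right.mpr this]

theorem kerIdx_ne_zero {F F' : AddSubgroup J} (hle : F ≤ F') (hs : IsStable G F)
    (hfin : F.relIndex F' ≠ 0) : kerIdx G F F' ≠ 0 := by
  unfold kerIdx
  have h1 : F ≤ relInv G F ⊓ F' := le_inf hs.le_relInv hle
  have h2 : relInv G F ⊓ F' ≤ F' := inf_le_right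
  have h := AddSubgroup.relIndex_mul_relIndex _ _ _ h1 h2
  intro h0
  rw [h0, zero_mul] at h
  exact hfin h.symm

theorem kerIdx_bot (F' : AddSubgroup J) :
    kerIdx G (⊥ : AddSubgroup J) F' = Nat.card ↥(relInv G (⊥ : AddSubgroup J) ⊓ F') := by
  unfold kerIdx
  rw [AddSubgroup.relIndex_bot_left]

/-- (C2) The Cassels identity along a stable flag. -/
theorem cokIdx_chain (F : ℕ → AddSubgroup J) (hmono : Monotone F) (hst : ∀ i, IsStable G (F i))
    (L : ℕ) (hfin : ∀ i < L, kerIdx G (F 0) (F i) ≠ 0) :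
    cokIdx G (F 0) (F L) * ∏ i ∈ Finset.range L, kerIdx G (F i) (F (i + 1)) =
      kerIdx G (F 0) (F L) * ∏ i ∈ Finset.range L, cokIdx G (F i) (F (i + 1)) := by
  induction L with
  | zero => simp [cokIdx_self, kerIdx_self]
  | succ L ih =>
    have ih' := ih (fun i hi => hfin i (Nat.lt_succ_of_lt hi))
    have h3 := cokIdx_mul_kerIdx (G := G) (hmono (Nat.zero_le L)) (hmono (Nat.le_succ L))
      (hst 0) (hst L) (hst (L + 1))
    have hk0 : 0 < kerIdx G (F 0) (F L) := Nat.pos_of_ne_zero (hfin L (Nat.lt_succ_self L))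
    rw [Finset.prod_range_succ, Finset.prod_range_succ]
    apply Nat.eq_of_mul_eq_mul_left hk0
    calc kerIdx G (F 0) (F L) * (cokIdx G (F 0) (F (L + 1)) *
            ((∏ i ∈ Finset.range L, kerIdx G (F i) (F (i + 1))) * kerIdx G (F L) (F (L + 1))))
        = (cokIdx G (F 0) (F (L + 1)) * kerIdx G (F 0) (F L) * kerIdx G (F L) (F (L + 1))) *
            ∏ i ∈ Finset.range L, kerIdx G (F i) (F (i + 1)) := by ring
      _ = (cokIdx G (F 0) (F L) * cokIdx G (F L) (F (L + 1)) * kerIdx G (F 0) (F (L + 1))) *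
            ∏ i ∈ Finset.range L, kerIdx G (F i) (F (i + 1)) := by rw [h3]
      _ = (cokIdx G (F 0) (F L) * ∏ i ∈ Finset.range L, kerIdx G (F i) (F (i + 1))) *
            (cokIdx G (F L) (F (L + 1)) * kerIdx G (F 0) (F (L + 1))) := by ring
      _ = (kerIdx G (F 0) (F L) * ∏ i ∈ Finset.range L, cokIdx G (F i) (F (i + 1))) *
            (cokIdx G (F L) (F (L + 1)) * kerIdx G (F 0) (F (L + 1))) := by rw [ih']
      _ = kerIdx G (F 0) (F L) * (kerIdx G (F 0) (F (L + 1)) *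
            ((∏ i ∈ Finset.range L, cokIdx G (F i) (F (i + 1))) * cokIdx G (F L) (F (L + 1)))) := by
          ring

/-- (C2') The Cassels identity along a stable flag starting at `⊥` with finite top. -/
theorem cokIdx_bot_chain (F : ℕ → AddSubgroup J) (hmono : Monotone F)
    (hst : ∀ i, IsStable G (F i)) (h0 : F 0 = ⊥) (L : ℕ) [Finite ↥(F L)] :
    cokIdx G (⊥ : AddSubgroup J) (F L) * ∏ i ∈ Finset.range L, kerIdx G (F i) (F (i + 1)) =
      Nat.card ↥(relInv G (⊥ : AddSubgroup J) ⊓ F L) *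
        ∏ i ∈ Finset.range L, cokIdx G (F i) (F (i + 1)) := by
  have hfin : ∀ i < L, kerIdx G (F 0) (F i) ≠ 0 := by
    intro i hi
    rw [h0, kerIdx_bot]
    have hle : relInv G (⊥ : AddSubgroup J) ⊓ F i ≤ F L :=
      inf_le_right.trans (hmono hi.le)
    have : Finite ↥(relInv G (⊥ : AddSubgroup J) ⊓ F i) :=
      Finite.of_injective (AddSubgroup.inclusion hle) (AddSubgroup.inclusion_injective hle)
    exact Nat.card_pos.ne'
  have h := cokIdx_chain F hmono hst L hfin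
  rw [h0, kerIdx_bot] at h
  exact h

/-- (C3) Step bound interface: a map to a finite type that separates the classes modulo
`relInv G F ⊔ F'` bounds the cokernel index (and shows it is finite). -/
theorem cokIdx_ne_zero_and_le_card {F F' : AddSubgroup J} {X : Type*} [Finite X] (κ : J → X)
    (hκ : ∀ y ∈ relInv G F', ∀ y' ∈ relInv G F', κ y = κ y' → y - y' ∈ relInv G F ⊔ F') :
    cokIdx G F F' ≠ 0 ∧ cokIdx G F F' ≤ Nat.card X := by
  unfold cokIdx AddSubgroup.relIndex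
  set K := relInv G F' with hK
  set H := (relInv G F ⊔ F').addSubgroupOf K with hH
  let φ : (↥K ⧸ H) → X := fun q => κ (q.out : ↥K)
  have hφ : Function.Injective φ := by
    intro q q' hqq
    have h1 := hκ _ (q.out : ↥K).2 _ (q'.out : ↥K).2 hqq
    have h2 : (q.out : ↥K) - (q'.out : ↥K) ∈ H := by
      change (q.out : ↥K) - (q'.out : ↥K) ∈ (relInv G F ⊔ F').addSubgroupOf K
      rw [AddSubgroup.mem_addSubgroupOf, AddSubgroup.coe_sub]
      exact h1
    have h3 : ((q.out : ↥K) : ↥K ⧸ H) = ((q'.out : ↥K) : ↥K ⧸ H) := by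
      rw [QuotientAddGroup.eq]
      have : -(q.out : ↥K) + (q'.out : ↥K) = -((q.out : ↥K) - (q'.out : ↥K)) := by abel
      rw [this]
      exact H.neg_mem h2
    rw [QuotientAddGroup.out_eq', QuotientAddGroup.out_eq'] at h3
    exact h3
  have : Finite (↥K ⧸ H) := Finite.of_injective φ hφ
  refine ⟨?_, ?_⟩
  · rw [AddSubgroup.index_eq_card]
    exact Nat.card_pos.ne'
  · rw [AddSubgroup.index_eq_card]
    exact Nat.card_le_card_of_injective φ hφ

/-- (C3') Cocycle form: two points whose step cocycles differ by a coboundary are congruent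
modulo `relInv G F ⊔ F'`. -/
theorem sub_mem_of_cocycle_eq {F F' : AddSubgroup J} {y y' g : J} (hg : g ∈ F')
    (h : ∀ s : G, (s • y - y) - (s • y' - y') - (s • g - g) ∈ F) :
    y - y' ∈ relInv G F ⊔ F' := by
  have h1 : y - y' - g ∈ relInv G F := by
    intro s
    have : s • (y - y' - g) - (y - y' - g) = (s • y - y) - (s • y' - y') - (s • g - g) := by
      rw [smul_sub, smul_sub]; abel
    rw [this]
    exact h s
  have h2 : y - y' = (y - y' - g) + g := by abel
  rw [h2]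
  exact AddSubgroup.add_mem_sup h1 hg

/-- An element of a finite-index quotient killed by `r ^ k` is killed by `r ^ B` as soon as the
index is at most `r ^ B`. -/
theorem pow_smul_mem_of_relIndex_le {r : ℕ} (hr : r.Prime) {H K : AddSubgroup J} {k B : ℕ}
    (h0 : H.relIndex K ≠ 0) (hle : H.relIndex K ≤ r ^ B)
    (hk : ∀ u ∈ K, r ^ k • u ∈ H) : ∀ u ∈ K, r ^ B • u ∈ H := by
  intro u hu
  set H' := H.addSubgroupOf K with hH'
  have hidx : H'.index = H.relIndex K := rfl
  let u' : ↥K := ⟨u, hu⟩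
  let q : ↥K ⧸ H' := (u' : ↥K ⧸ H')
  have h1 : H'.index • q = 0 := by
    have : H'.index • u' ∈ H' := AddSubgroup.nsmul_index_mem H' u'
    change ((H'.index • u' : ↥K) : ↥K ⧸ H') = 0
    exact (QuotientAddGroup.eq_zero_iff _).mpr this
  have h2 : r ^ k • q = 0 := by
    have : r ^ k • u' ∈ H' := by
      change r ^ k • u' ∈ H.addSubgroupOf K
      rw [AddSubgroup.mem_addSubgroupOf]
      exact hk u hu
    change ((r ^ k • u' : ↥K) : ↥K ⧸ H') = 0
    exact (QuotientAddGroup.eq_zero_iff _).mpr this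
  have hd1 : addOrderOf q ∣ H'.index := addOrderOf_dvd_of_nsmul_eq_zero h1
  have hd2 : addOrderOf q ∣ r ^ k := addOrderOf_dvd_of_nsmul_eq_zero h2
  obtain ⟨j, -, hj⟩ := (Nat.dvd_prime_pow hr).mp hd2
  have hjB : j ≤ B := by
    have h3 : r ^ j ≤ r ^ B := by
      rw [← hj]
      exact (Nat.le_of_dvd (Nat.pos_of_ne_zero (hidx ▸ h0)) hd1).trans (hidx ▸ hle)
    exact (Nat.pow_le_pow_iff_right hr.one_lt).mp h3
  have h4 : r ^ B • q = 0 := by
    apply addOrderOf_dvd_iff_nsmul_eq_zero.mp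
    rw [hj]
    exact pow_dvd_pow r hjB
  have h5 : r ^ B • u' ∈ H' := by
    have : ((r ^ B • u' : ↥K) : ↥K ⧸ H') = 0 := h4
    exact (QuotientAddGroup.eq_zero_iff _).mp this
  change r ^ B • u' ∈ H.addSubgroupOf K at h5
  rw [AddSubgroup.mem_addSubgroupOf] at h5
  exact h5

/-- (C4) Bound package: from step bounds along a stable flag of a group killed by `r ^ k`,
the cokernel of `J^G → (J/W)^G` is killed by a power of `r` independent of `k`. -/
theorem pow_smul_mem_of_chain {r : ℕ} (hr : r.Prime) (F : ℕ → AddSubgroup J) (hmono : Monotone F)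
    (hst : ∀ i, IsStable G (F i)) (h0 : F 0 = ⊥) (L k : ℕ) [Finite ↥(F L)]
    (hk : ∀ w ∈ F L, r ^ k • w = 0) (a e : ℕ → ℕ) (B0 B' : ℕ)
    (hcok0 : ∀ i < L, cokIdx G (F i) (F (i + 1)) ≠ 0)
    (hcok : ∀ i < L, cokIdx G (F i) (F (i + 1)) ≤ r ^ a i)
    (hker : ∀ i < L, r ^ e i ≤ kerIdx G (F i) (F (i + 1)))
    (hsum : ∑ i ∈ Finset.range L, a i ≤ ∑ i ∈ Finset.range L, e i + B')
    (hinv : Nat.card ↥(relInv G (⊥ : AddSubgroup J) ⊓ F L) ≤ r ^ B0) :
    ∀ u ∈ relInv G (F L), r ^ (B0 + B') • u ∈ relInv G (⊥ : AddSubgroup J) ⊔ F L := by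
  have hchain := cokIdx_bot_chain F hmono hst h0 L
  set c := cokIdx G (⊥ : AddSubgroup J) (F L) with hc
  set N := Nat.card ↥(relInv G (⊥ : AddSubgroup J) ⊓ F L) with hN
  have hNpos : 0 < N := by
    have hle : relInv G (⊥ : AddSubgroup J) ⊓ F L ≤ F L := inf_le_right
    have : Finite ↥(relInv G (⊥ : AddSubgroup J) ⊓ F L) :=
      Finite.of_injective (AddSubgroup.inclusion hle) (AddSubgroup.inclusion_injective hle)
    exact Nat.card_pos
  have hcokprod0 : (∏ i ∈ Finset.range L, cokIdx G (F i) (F (i + 1))) ≠ 0 :=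
    Finset.prod_ne_zero_iff.mpr (fun i hi => hcok0 i (Finset.mem_range.mp hi))
  have hcokprod : (∏ i ∈ Finset.range L, cokIdx G (F i) (F (i + 1))) ≤
      r ^ ∑ i ∈ Finset.range L, a i := by
    rw [← Finset.prod_pow_eq_pow_sum]
    exact Finset.prod_le_prod' (fun i hi => hcok i (Finset.mem_range.mp hi))
  have hkerprod : r ^ ∑ i ∈ Finset.range L, e i ≤
      ∏ i ∈ Finset.range L, kerIdx G (F i) (F (i + 1)) := by
    rw [← Finset.prod_pow_eq_pow_sum]
    exact Finset.prod_le_prod' (fun i hi => hker i (Finset.mem_range.mp hi))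
  have hrpos : 0 < r := hr.pos
  have hc0 : c ≠ 0 := by
    intro h
    rw [h, zero_mul] at hchain
    exact (Nat.mul_ne_zero hNpos.ne' hcokprod0) hchain.symm
  have hcle : c ≤ r ^ (B0 + B') := by
    have h1 : c * r ^ ∑ i ∈ Finset.range L, e i ≤
        r ^ (B0 + B') * r ^ ∑ i ∈ Finset.range L, e i := by
      calc c * r ^ ∑ i ∈ Finset.range L, e i
          ≤ c * ∏ i ∈ Finset.range L, kerIdx G (F i) (F (i + 1)) :=
            Nat.mul_le_mul_left c hkerprod
        _ = N * ∏ i ∈ Finset.range L, cokIdx G (F i) (F (i + 1)) := hchain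
        _ ≤ r ^ B0 * r ^ ∑ i ∈ Finset.range L, a i := Nat.mul_le_mul hinv hcokprod
        _ ≤ r ^ B0 * r ^ (∑ i ∈ Finset.range L, e i + B') :=
            Nat.mul_le_mul_left _ (Nat.pow_le_pow_right hrpos hsum)
        _ = r ^ (B0 + B') * r ^ ∑ i ∈ Finset.range L, e i := by
            rw [pow_add, pow_add]; ring
    exact Nat.le_of_mul_le_mul_right h1 (Nat.pow_pos hrpos)
  have hkill : ∀ u ∈ relInv G (F L), r ^ k • u ∈ relInv G (⊥ : AddSubgroup J) ⊔ F L := by
    intro u hu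
    apply AddSubgroup.mem_sup_left
    rw [mem_relInv_bot]
    intro s
    have h1 : s • (r ^ k • u) - r ^ k • u = r ^ k • (s • u - u) := by
      rw [smul_sub, smul_comm s (r ^ k) u]
    have h2 := hk _ (hu s)
    rw [← h1, sub_eq_zero] at h2
    exact h2
  exact pow_smul_mem_of_relIndex_le hr hc0 hcle hkill

/-- (E1) Pointwise decomposition. -/
theorem exists_decomp {r k b : ℕ} (hbk : b ≤ k) (W : AddSubgroup J)
    (hW : ∀ w ∈ W, r ^ k • w = 0) (E : J →+ J) (hE : ∀ (s : G) (y : J), E (s • y) = s • E y)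
    (hEW : ∀ t : J, r ^ k • t = 0 → E t ∈ W)
    (hb : ∀ u ∈ relInv G W, r ^ b • u ∈ relInv G (⊥ : AddSubgroup J) ⊔ W)
    {D y : J} (hD : ∀ s : G, s • D = D) (hy : r ^ k • y = D) :
    ∃ τ x : J, (∀ s : G, s • τ = τ) ∧ (∀ s : G, s • x = x) ∧ r ^ b • τ = 0 ∧
      E D = τ + r ^ (k - b) • x := by
  have hu : E y ∈ relInv G W := by
    intro s
    have h1 : s • E y - E y = E (s • y - y) := by rw [map_sub, hE]
    rw [h1]
    apply hEW
    rw [smul_sub, smul_comm (r ^ k) s y, hy, hD, sub_self]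
  obtain ⟨m, hm, w, hw, hmw⟩ := AddSubgroup.mem_sup.mp (hb _ hu)
  rw [mem_relInv_bot] at hm
  have h2 : r ^ b • E D = r ^ b • (r ^ (k - b) • m) := by
    have h3 : r ^ k • (r ^ b • E y) = r ^ b • E D := by
      rw [smul_comm, ← map_nsmul, hy]
    have h4 : r ^ k • (r ^ b • E y) = r ^ k • m := by
      rw [← hmw, smul_add, hW w hw, add_zero]
    rw [← h3, h4, smul_smul, ← pow_add, Nat.add_sub_cancel' hbk]
  refine ⟨E D - r ^ (k - b) • m, m, ?_, hm, ?_, ?_⟩
  · intro s
    rw [smul_sub, ← hE, hD, smul_comm s (r ^ (k - b)) m, hm]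
  · rw [smul_sub, h2, sub_self]
  · abel

/-- (C4)+(E1): the pointwise decomposition directly from the step bounds along a flag. -/
theorem exists_decomp_of_chain {r : ℕ} (hr : r.Prime) (F : ℕ → AddSubgroup J) (hmono : Monotone F)
    (hst : ∀ i, IsStable G (F i)) (h0 : F 0 = ⊥) (L k : ℕ) [Finite ↥(F L)]
    (hk : ∀ w ∈ F L, r ^ k • w = 0) (a e : ℕ → ℕ) (B0 B' : ℕ)
    (hcok0 : ∀ i < L, cokIdx G (F i) (F (i + 1)) ≠ 0)
    (hcok : ∀ i < L, cokIdx G (F i) (F (i + 1)) ≤ r ^ a i)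
    (hker : ∀ i < L, r ^ e i ≤ kerIdx G (F i) (F (i + 1)))
    (hsum : ∑ i ∈ Finset.range L, a i ≤ ∑ i ∈ Finset.range L, e i + B')
    (hinv : Nat.card ↥(relInv G (⊥ : AddSubgroup J) ⊓ F L) ≤ r ^ B0)
    (hBk : B0 + B' ≤ k)
    (E : J →+ J) (hE : ∀ (s : G) (y : J), E (s • y) = s • E y)
    (hEW : ∀ t : J, r ^ k • t = 0 → E t ∈ F L)
    {D y : J} (hD : ∀ s : G, s • D = D) (hy : r ^ k • y = D) :
    ∃ τ x : J, (∀ s : G, s • τ = τ) ∧ (∀ s : G, s • x = x) ∧ r ^ (B0 + B') • τ = 0 ∧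
      E D = τ + r ^ (k - (B0 + B')) • x :=
  exists_decomp hBk (F L) hk E hE hEW
    (pow_smul_mem_of_chain hr F hmono hst h0 L k hk a e B0 B' hcok0 hcok hker hsum hinv) hD hy

end Cassels

section Endgame

/-- In a finite abelian group an element killed by a power of `r` and divisible by a high
power of `r` is zero. -/
theorem eq_zero_of_pow_smul {R : Type*} [AddCommGroup R] [Finite R] {r : ℕ} (hr : r.Prime)
    {b j : ℕ} (hj : Nat.card R ≤ j) {v z : R} (hv : r ^ b • v = 0) (hz : v = r ^ j • z) :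
    v = 0 := by
  have hN : Nat.card R ≠ 0 := Nat.card_pos.ne'
  obtain ⟨e, m, hm, hNe⟩ := Nat.exists_eq_pow_mul_and_not_dvd hN r hr.ne_one
  have hej : e ≤ j := by
    have h1 : r ^ e ≤ Nat.card R := by
      rw [hNe]
      exact Nat.le_mul_of_pos_right _ (Nat.pos_of_ne_zero (fun h => hm (h ▸ dvd_zero r)))
    have h2 : e < r ^ e := Nat.lt_pow_self hr.one_lt
    omega
  have h3 : m • v = 0 := by
    rw [hz, smul_smul]
    have : m * r ^ j = r ^ (j - e) * Nat.card R := by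
      rw [hNe, ← mul_assoc, ← pow_add, Nat.sub_add_cancel hej, mul_comm]
    rw [this, mul_smul, card_nsmul_eq_zero', smul_zero]
  have hd1 : addOrderOf v ∣ m := addOrderOf_dvd_of_nsmul_eq_zero h3
  have hd2 : addOrderOf v ∣ r ^ b := addOrderOf_dvd_of_nsmul_eq_zero hv
  have hcop : Nat.Coprime m (r ^ b) :=
    Nat.Coprime.pow_right b ((Nat.Prime.coprime_iff_not_dvd hr).mpr hm).symm
  have h1 : addOrderOf v = 1 := Nat.eq_one_of_dvd_coprimes hcop hd1 hd2
  exact AddMonoid.addOrderOf_eq_one_iff.mp h1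

/-- (E2) The abstract endgame: two reductions to finite groups, injective on `r`-power torsion,
a point `D` reducing to `0` at the first and to `- c0` at the second, and the pointwise
decompositions at every level, are contradictory. -/
theorem endgame {M Rs Rl : Type*} [AddCommGroup M] [AddCommGroup Rs] [AddCommGroup Rl]
    [Finite Rs] [Finite Rl] {r : ℕ} (hr : r.Prime) (ρs : M →+ Rs) (ρl : M →+ Rl)
    (hinjs : ∀ t : M, (∃ j : ℕ, r ^ j • t = 0) → ρs t = 0 → t = 0)
    (hinjl : ∀ t : M, (∃ j : ℕ, r ^ j • t = 0) → ρl t = 0 → t = 0)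
    {D c0 : M} {a b : ℕ} (hc0 : c0 ≠ 0) (hc0r : r ^ a • c0 = 0)
    (hDs : ρs D = 0) (hDl : ρl D = -ρl c0)
    (hk : ∀ k : ℕ, b ≤ k → ∃ (Ek : M →+ M) (Es : Rs →+ Rs) (El : Rl →+ Rl) (τ x : M),
      (∀ m, ρs (Ek m) = Es (ρs m)) ∧ (∀ m, ρl (Ek m) = El (ρl m)) ∧ Ek c0 = c0 ∧
        r ^ b • τ = 0 ∧ Ek D = τ + r ^ (k - b) • x) : False := by
  obtain ⟨Ek, Es, El, τ, x, hs, hl, hEc, hτ, hED⟩ :=
    hk (b + (Nat.card Rs + Nat.card Rl)) (Nat.le_add_right _ _)
  rw [Nat.add_sub_cancel_left] at hED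
  -- reduction at `s` kills `τ`
  have h1 : ρs τ = (r ^ (Nat.card Rs + Nat.card Rl)) • (-ρs x) := by
    have h := hs D
    rw [hDs, map_zero, hED, map_add, map_nsmul] at h
    rw [smul_neg]
    exact eq_neg_of_add_eq_zero_left h
  have h2 : r ^ b • ρs τ = 0 := by rw [← map_nsmul, hτ, map_zero]
  have h3 : ρs τ = 0 := eq_zero_of_pow_smul hr (Nat.le_add_right _ _) h2 h1
  have hτ0 : τ = 0 := hinjs τ ⟨b, hτ⟩ h3
  rw [hτ0, zero_add] at hED
  -- reduction at `l` kills `c0`
  have h4 : ρl c0 = (r ^ (Nat.card Rs + Nat.card Rl)) • (-ρl x) := by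
    have h := hl D
    rw [hDl, map_neg, ← hl c0, hEc, hED, map_nsmul] at h
    rw [smul_neg, h, neg_neg]
  have h5 : r ^ a • ρl c0 = 0 := by rw [← map_nsmul, hc0r, map_zero]
  have h6 : ρl c0 = 0 := eq_zero_of_pow_smul hr (Nat.le_add_left _ _) h5 h4
  exact hc0 (hinjl c0 ⟨a, hc0r⟩ h6)

end Endgame

end Fermat.Agent.S15.helper4190
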