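/-
S15 pre-brick (helper2063): the abstract core of the LEVEL-ONE descent ((D3) of findings #3364;
the descent layer under `Stmt_Div1` of the top Spec, at `k = 1` ONLY).

Everything is stated with subgroups of one ambient group `J` carrying an action of a group `G`
(no cocycles, no quotient types), on top of `helper4190_CasselsCore` (`relInv`, `cokIdx`,
`kerIdx`).  Notation in the comments: `M = J^G`, `T = J[r]`, `E : J →+ J` an endomorphism
commuting with `G`, `Θ = M[r^∞]` (finite), `W` the `E`-part of `T`.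

Flag-from-`⊥` form (carrier of helper4190, `F 0 = ⊥`, `F L = W`, at `k = 1`):
* `relIndex_dvd_cokIdx_bot`  : `[E M + r M : r M]` divides `cokIdx G ⊥ W`;
* `kerIdx_bot_le_card`       : `kerIdx G ⊥ W ≤ #{w ∈ Θ | r w = 0, E w = w}`;
* `card_fixed_le_relIndex`   : `#{w ∈ Θ | r w = 0, E w = w} ≤ [E Θ + r M : r M]` (Fitting);
* `exists_decomp_one_bot`, `div1_of_bound` : `cokIdx G ⊥ W ≤ kerIdx G ⊥ W` ⟹ `E D ∈ Θ + r M`
                               for every `D ∈ M`;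
* `div1_of_chain`            : the same in one call from step bounds `∑ a ≤ ∑ e` along a flag;
* `divK_of_div1`, `exists_decomp_pow_of_one` : iteration, `E^K D ∈ Θ + r^K M`;
* `finite_Theta_of_fg(')`    : `Θ` is finite when `M` is finitely generated (S17 shape).

Complement form (`W' = T ∩ ker E`, flag from `W'` to `T`, `E` idempotent on `T`):
* `relIndex_dvd_cokIdx`, `kerIdx_le_card`, `exists_decomp_one`, `exists_decomp_pow`,
  `cokIdx_le_kerIdx_of_chain(_pow)` (telescoping for a flag with arbitrary `F 0`).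

Endgame with finite targets (hedge; the f.g. endgame is helper9166_EndgameFG):
* `endgame_of_decomp`, `false_of_level_one`.
-/
import Mathlib
import Fermat.Agent.S15.helper4190_CasselsCore

set_option autoImplicit false

namespace Fermat.Agent.S15.helper2063

open Fermat.Agent.S15.helper4190

section Defs

variable (G : Type*) (J : Type*) [Group G] [AddCommGroup J] [DistribMulAction G J]

/-- The `r`-torsion subgroup `J[r]`. -/
def tors (r : ℕ) : AddSubgroup J := (nsmulAddMonoidHom (α := J) r).ker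

/-- The fixed points `M = J^G`. -/
abbrev fixedPts : AddSubgroup J := relInv G (⊥ : AddSubgroup J)

/-- `Θ = M[r^∞]`: the fixed points of `r`-power order. -/
def Theta (r : ℕ) : AddSubgroup J where
  carrier := {t | (∀ s : G, s • t = t) ∧ ∃ j : ℕ, r ^ j • t = 0}
  zero_mem' := ⟨fun s => smul_zero s, 0, by simp⟩
  add_mem' := by
    rintro a b ⟨ha, i, hi⟩ ⟨hb, j, hj⟩
    refine ⟨fun s => by rw [smul_add, ha, hb], i + j, ?_⟩
    have h1 : r ^ (i + j) • a = r ^ j • (r ^ i • a) := by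
      rw [smul_smul, ← pow_add, add_comm]
    have h2 : r ^ (i + j) • b = r ^ i • (r ^ j • b) := by
      rw [smul_smul, ← pow_add]
    rw [smul_add, h1, h2, hi, hj, smul_zero, smul_zero, add_zero]
  neg_mem' := by
    rintro a ⟨ha, i, hi⟩
    exact ⟨fun s => by rw [smul_neg, ha], i, by rw [smul_neg, hi, neg_zero]⟩

variable {G J}

theorem mem_tors {r : ℕ} {t : J} : t ∈ tors J r ↔ r • t = 0 := by
  rw [tors, AddMonoidHom.mem_ker]
  rfl

theorem mem_fixedPts {y : J} : y ∈ fixedPts G J ↔ ∀ s : G, s • y = y := mem_relInv_bot G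

theorem mem_Theta {r : ℕ} {t : J} :
    t ∈ Theta G J r ↔ (∀ s : G, s • t = t) ∧ ∃ j : ℕ, r ^ j • t = 0 := Iff.rfl

theorem Theta_le_fixedPts (r : ℕ) : Theta G J r ≤ fixedPts G J :=
  fun _ ht => mem_fixedPts.mpr ht.1

/-- `W' = J[r] ∩ ker E`. -/
def compl (r : ℕ) (E : J →+ J) : AddSubgroup J := tors J r ⊓ E.ker

theorem mem_compl {r : ℕ} {E : J →+ J} {t : J} : t ∈ compl r E ↔ r • t = 0 ∧ E t = 0 := by
  rw [compl, AddSubgroup.mem_inf, mem_tors, AddMonoidHom.mem_ker]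

theorem isStable_tors (r : ℕ) : IsStable G (tors J r) := by
  intro s y hy
  rw [mem_tors] at hy ⊢
  rw [smul_comm r s y, hy, smul_zero]

theorem isStable_compl (r : ℕ) {E : J →+ J} (hE : ∀ (s : G) (y : J), E (s • y) = s • E y) :
    IsStable G (compl r E) := by
  intro s y hy
  rw [mem_compl] at hy ⊢
  exact ⟨by rw [smul_comm r s y, hy.1, smul_zero], by rw [hE, hy.2, smul_zero]⟩

theorem mem_relInv_tors {r : ℕ} {y : J} :
    y ∈ relInv G (tors J r) ↔ ∀ s : G, s • (r • y) = r • y := by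
  rw [mem_relInv]
  refine forall_congr' fun s => ?_
  rw [mem_tors, smul_sub, sub_eq_zero, smul_comm r s y]

theorem mem_relInv_compl {r : ℕ} {E : J →+ J} (hE : ∀ (s : G) (y : J), E (s • y) = s • E y)
    {y : J} : y ∈ relInv G (compl r E) ↔
      (∀ s : G, s • (r • y) = r • y) ∧ (∀ s : G, s • E y = E y) := by
  rw [mem_relInv]
  constructor
  · intro h
    refine ⟨fun s => ?_, fun s => ?_⟩
    · have h1 := (mem_compl.mp (h s)).1
      rwa [smul_sub, sub_eq_zero, smul_comm r s y] at h1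
    · have h1 := (mem_compl.mp (h s)).2
      rwa [map_sub, sub_eq_zero, hE] at h1
  · rintro ⟨h1, h2⟩ s
    rw [mem_compl]
    exact ⟨by rw [smul_sub, sub_eq_zero, smul_comm r s y]; exact h1 s,
      by rw [map_sub, sub_eq_zero, hE]; exact h2 s⟩

end Defs

section Count

variable {G : Type*} {J : Type*} [Group G] [AddCommGroup J] [DistribMulAction G J]

/-- `E` preserves `Θ`. -/
theorem map_mem_Theta {r : ℕ} {E : J →+ J} (hE : ∀ (s : G) (y : J), E (s • y) = s • E y)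
    {t : J} (ht : t ∈ Theta G J r) : E t ∈ Theta G J r := by
  obtain ⟨h1, j, hj⟩ := ht
  exact ⟨fun s => by rw [← hE, h1], j, by rw [← map_nsmul, hj, map_zero]⟩

/-- A fixed point `m` with `r • m ∈ Θ` lies in `Θ`. -/
theorem mem_Theta_of_nsmul {r : ℕ} {m : J} (hm : ∀ s : G, s • m = m)
    (h : r • m ∈ Theta G J r) : m ∈ Theta G J r := by
  obtain ⟨-, j, hj⟩ := h
  exact ⟨hm, j + 1, by rw [pow_succ, mul_smul, hj]⟩

/-- (A) `[E M + r M : r M]` divides `cokIdx G W' T`. -/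
theorem relIndex_dvd_cokIdx {r : ℕ} {E : J →+ J} (hE : ∀ (s : G) (y : J), E (s • y) = s • E y)
    (hdiv : ∀ m : J, (∀ s : G, s • m = m) → ∃ y : J, r • y = m) :
    ((fixedPts G J).map (nsmulAddMonoidHom r)).relIndex ((fixedPts G J).map E) ∣
      cokIdx G (compl r E) (tors J r) := by
  set IT := relInv G (tors J r) with hIT
  let φ : ↥IT →+ J := (E.comp (nsmulAddMonoidHom r)).comp IT.subtype
  have hφ : ∀ y : ↥IT, φ y = E (r • (y : J)) := fun _ => rfl
  have hrange : φ.range = (fixedPts G J).map E := by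
    ext x
    constructor
    · rintro ⟨y, rfl⟩
      exact ⟨r • (y : J), mem_fixedPts.mpr (mem_relInv_tors.mp y.2), (hφ y).symm⟩
    · rintro ⟨m, hm, rfl⟩
      obtain ⟨y, hy⟩ := hdiv m (mem_fixedPts.mp hm)
      have hyIT : y ∈ IT := mem_relInv_tors.mpr (by rw [hy]; exact mem_fixedPts.mp hm)
      exact ⟨⟨y, hyIT⟩, by rw [hφ, hy]⟩
  have hle : (relInv G (compl r E) ⊔ tors J r).addSubgroupOf IT ≤
      ((fixedPts G J).map (nsmulAddMonoidHom r)).comap φ := by
    intro y hy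
    rw [AddSubgroup.mem_addSubgroupOf] at hy
    obtain ⟨y0, hy0, t, ht, hyt⟩ := AddSubgroup.mem_sup.mp hy
    rw [AddSubgroup.mem_comap, hφ, ← hyt, smul_add, mem_tors.mp ht, add_zero, map_nsmul]
    exact ⟨E y0, mem_fixedPts.mpr ((mem_relInv_compl hE).mp hy0).2, rfl⟩
  have h1 := AddSubgroup.index_dvd_of_le hle
  rw [AddSubgroup.index_comap, hrange] at h1
  exact h1

variable (G J) in
/-- The subgroup `{w ∈ Θ | r w = 0, E w = w}`. -/
def fixedE (r : ℕ) (E : J →+ J) : AddSubgroup J where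
  carrier := {w | w ∈ Theta G J r ∧ r • w = 0 ∧ E w = w}
  zero_mem' := ⟨zero_mem _, smul_zero _, map_zero _⟩
  add_mem' := by
    rintro a b ⟨ha1, ha2, ha3⟩ ⟨hb1, hb2, hb3⟩
    exact ⟨add_mem ha1 hb1, by rw [smul_add, ha2, hb2, add_zero], by rw [map_add, ha3, hb3]⟩
  neg_mem' := by
    rintro a ⟨ha1, ha2, ha3⟩
    exact ⟨neg_mem ha1, by rw [smul_neg, ha2, neg_zero], by rw [map_neg, ha3]⟩

theorem mem_fixedE {r : ℕ} {E : J →+ J} {w : J} :
    w ∈ fixedE G J r E ↔ w ∈ Theta G J r ∧ r • w = 0 ∧ E w = w := Iff.rfl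

theorem fixedE_le_Theta (r : ℕ) (E : J →+ J) : fixedE G J r E ≤ Theta G J r :=
  fun _ hw => hw.1

/-- (B) `kerIdx G W' T ≤ #{w ∈ Θ | r w = 0, E w = w}`. -/
theorem kerIdx_le_card {r : ℕ} {E : J →+ J} (hE : ∀ (s : G) (y : J), E (s • y) = s • E y)
    (hidem : ∀ t : J, r • t = 0 → E (E t) = E t) [Finite ↥(Theta G J r)] :
    kerIdx G (compl r E) (tors J r) ≤ Nat.card ↥(fixedE G J r E) := by
  unfold kerIdx
  set K := relInv G (compl r E) ⊓ tors J r with hK
  let ψ : ↥K →+ J := E.comp K.subtype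
  have hψ : ∀ x : ↥K, ψ x = E (x : J) := fun _ => rfl
  have hker : ψ.ker = (compl r E).addSubgroupOf K := by
    ext x
    rw [AddMonoidHom.mem_ker, AddSubgroup.mem_addSubgroupOf, mem_compl, hψ]
    have hx : r • (x : J) = 0 := mem_tors.mp x.2.2
    exact ⟨fun h => ⟨hx, h⟩, fun h => h.2⟩
  have hrange : ψ.range ≤ fixedE G J r E := by
    rintro _ ⟨x, rfl⟩
    have hx1 := (mem_relInv_compl hE).mp x.2.1
    have hx2 : r • (x : J) = 0 := mem_tors.mp x.2.2
    rw [hψ, mem_fixedE]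
    refine ⟨⟨hx1.2, 1, ?_⟩, ?_, hidem _ hx2⟩
    · rw [pow_one, ← map_nsmul, hx2, map_zero]
    · rw [← map_nsmul, hx2, map_zero]
  have h1 : (compl r E).relIndex K = Nat.card ↥ψ.range := by
    rw [AddSubgroup.relIndex, ← hker, AddSubgroup.index_ker]
  rw [h1]
  have hfin : Finite ↥(fixedE G J r E) :=
    Finite.of_injective (AddSubgroup.inclusion (fixedE_le_Theta r E))
      (AddSubgroup.inclusion_injective _)
  exact Nat.card_le_card_of_injective (AddSubgroup.inclusion hrange)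
    (AddSubgroup.inclusion_injective hrange)

/-- (C) Fitting: `#{w ∈ Θ | r w = 0, E w = w} ≤ [E Θ + r M : r M]`. -/
theorem card_fixed_le_relIndex {r : ℕ} {E : J →+ J} (hE : ∀ (s : G) (y : J), E (s • y) = s • E y)
    [Finite ↥(Theta G J r)] :
    Nat.card ↥(fixedE G J r E) ≤
      ((fixedPts G J).map (nsmulAddMonoidHom r)).relIndex ((Theta G J r).map E) := by
  set Θ := Theta G J r with hΘ
  have hiter : ∀ (n : ℕ) (t : J), t ∈ Θ → (⇑E)^[n] t ∈ Θ := by
    intro n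
    induction n with
    | zero => intro t ht; exact ht
    | succ n ih =>
      intro t ht
      rw [Function.iterate_succ_apply']
      exact map_mem_Theta hE (ih t ht)
  -- restriction of `E` to `Θ` as a `ℤ`-linear endomorphism
  let fA : ↥Θ →+ ↥Θ := (E.comp Θ.subtype).codRestrict Θ (fun t => map_mem_Theta hE t.2)
  let f : Module.End ℤ ↥Θ := fA.toIntLinearMap
  have hf : ∀ t : ↥Θ, ((f t : ↥Θ) : J) = E (t : J) := fun _ => rfl
  have hfpow : ∀ (n : ℕ) (t : ↥Θ), (((f ^ n) t : ↥Θ) : J) = (⇑E)^[n] (t : J) := by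
    intro n
    induction n with
    | zero => intro t; rfl
    | succ n ih =>
      intro t
      rw [pow_succ', Module.End.mul_apply, hf, ih, Function.iterate_succ_apply']
  obtain ⟨n0, hn0⟩ := Filter.eventually_atTop.mp f.eventually_disjoint_ker_pow_range_pow
  have hdisj := hn0 (n0 + 1) (Nat.le_succ n0)
  -- the iterate as a homomorphism of `J`
  let En : J →+ J := (show AddMonoid.End J from E) ^ (n0 + 1)
  have hEn : ∀ x : J, En x = (⇑E)^[n0 + 1] x := fun x => by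
    show ((show AddMonoid.End J from E) ^ (n0 + 1)) x = _
    rw [AddMonoid.End.coe_pow]
    rfl
  set R := Θ.map En with hR
  have hRΘ : R ≤ Θ := by
    rintro _ ⟨t, ht, rfl⟩
    rw [hEn]
    exact hiter _ t ht
  have hRE : R ≤ Θ.map E := by
    rintro _ ⟨t, ht, rfl⟩
    rw [hEn, Function.iterate_succ_apply']
    exact ⟨_, hiter n0 t ht, rfl⟩
  have hEnR : ∀ x ∈ R, En x ∈ R := fun x hx => ⟨x, hRΘ hx, rfl⟩
  -- injectivity of the iterate on its image
  have hinj : ∀ x ∈ R, En x = 0 → x = 0 := by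
    rintro _ ⟨t, ht, rfl⟩ h0
    have h1 : (f ^ (n0 + 1)) ⟨t, ht⟩ ∈ LinearMap.ker (f ^ (n0 + 1)) := by
      rw [LinearMap.mem_ker]
      apply Subtype.ext
      rw [hfpow, hfpow, ← hEn, ← hEn]
      exact h0
    have h2 : (f ^ (n0 + 1)) ⟨t, ht⟩ ∈ LinearMap.range (f ^ (n0 + 1)) :=
      LinearMap.mem_range_self _ _
    have h3 := Submodule.disjoint_def.mp hdisj _ h1 h2
    have h4 := congrArg (fun z : ↥Θ => (z : J)) h3
    simp only [hfpow, ← hEn] at h4
    exact h4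
  have hfinR : Finite ↥R :=
    Finite.of_injective (AddSubgroup.inclusion hRΘ) (AddSubgroup.inclusion_injective hRΘ)
  -- hence surjectivity
  let g : ↥R →+ ↥R := (En.comp R.subtype).codRestrict R (fun x => hEnR x x.2)
  have hg : ∀ x : ↥R, ((g x : ↥R) : J) = En (x : J) := fun _ => rfl
  have hginj : Function.Injective g := by
    rw [injective_iff_map_eq_zero]
    intro x hx
    apply Subtype.ext
    apply hinj x x.2
    rw [← hg, hx]
    rfl
  have hgsurj : Function.Surjective g := Finite.injective_iff_surjective.mp hginj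
  have hsurj : ∀ m ∈ Θ, ∃ ρ ∈ R, En m = En ρ := by
    intro m hm
    obtain ⟨ρ, hρ⟩ := hgsurj ⟨En m, m, hm, rfl⟩
    refine ⟨ρ, ρ.2, ?_⟩
    have := congrArg (fun z : ↥R => (z : J)) hρ
    simp only [hg] at this
    exact this.symm
  -- `r M ∩ R = r R`
  have hinf : (fixedPts G J).map (nsmulAddMonoidHom r) ⊓ R = R.map (nsmulAddMonoidHom r) := by
    apply le_antisymm
    · rintro x ⟨⟨m, hm, hmx⟩, hxR⟩
      have hmx' : r • m = x := hmx
      have hmΘ : m ∈ Θ := mem_Theta_of_nsmul (mem_fixedPts.mp hm) (by rw [hmx']; exact hRΘ hxR)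
      obtain ⟨ρ, hρ, hρm⟩ := hsurj m hmΘ
      have h0 : x - r • ρ = 0 := by
        apply hinj _ (sub_mem hxR (nsmul_mem hρ r))
        rw [map_sub, ← hmx', map_nsmul, map_nsmul, hρm, sub_self]
      exact ⟨ρ, hρ, (sub_eq_zero.mp h0).symm⟩
    · rintro _ ⟨ρ, hρ, rfl⟩
      exact ⟨⟨ρ, Theta_le_fixedPts r (hRΘ hρ), rfl⟩, nsmul_mem hρ r⟩
  -- counting in the finite group `R`
  let ν : ↥R →+ ↥R := nsmulAddMonoidHom r
  have hν : ∀ z : ↥R, ((ν z : ↥R) : J) = r • (z : J) := fun _ => rfl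
  have hνrange : ν.range = (R.map (nsmulAddMonoidHom r)).addSubgroupOf R := by
    ext y
    rw [AddSubgroup.mem_addSubgroupOf]
    constructor
    · rintro ⟨z, rfl⟩
      exact ⟨z, z.2, (hν z).symm⟩
    · rintro ⟨ρ, hρ, hρy⟩
      exact ⟨⟨ρ, hρ⟩, Subtype.ext hρy⟩
  have hcount : Nat.card ↥ν.ker = ν.range.index := by
    have h1 := AddSubgroup.card_mul_index ν.ker
    have h2 := AddSubgroup.card_mul_index ν.range
    rw [AddSubgroup.index_ker] at h1
    have hpos : 0 < Nat.card ↥ν.range := Nat.card_pos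
    apply Nat.eq_of_mul_eq_mul_left hpos
    rw [h2, mul_comm, h1]
  -- the fixed set injects into `ker ν`
  have hfix : ∀ w : ↥(fixedE G J r E), (w : J) ∈ R := by
    intro w
    refine ⟨w, w.2.1, ?_⟩
    rw [hEn]
    exact Function.iterate_fixed w.2.2.2 _
  let h : ↥(fixedE G J r E) → ↥ν.ker := fun w =>
    ⟨⟨(w : J), hfix w⟩, by
      rw [AddMonoidHom.mem_ker]
      apply Subtype.ext
      rw [hν]
      exact w.2.2.1⟩
  have hhinj : Function.Injective h := by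
    intro w w' hww
    apply Subtype.ext
    have := congrArg (fun z : ↥ν.ker => ((z : ↥R) : J)) hww
    exact this
  have hle1 : Nat.card ↥(fixedE G J r E) ≤ Nat.card ↥ν.ker :=
    Nat.card_le_card_of_injective h hhinj
  have hEΘ : Θ.map E ≤ Θ := by
    rintro _ ⟨t, ht, rfl⟩
    exact map_mem_Theta hE ht
  have hfinE : Finite ↥(Θ.map E) :=
    Finite.of_injective (AddSubgroup.inclusion hEΘ) (AddSubgroup.inclusion_injective hEΘ)
  have hne : ((fixedPts G J).map (nsmulAddMonoidHom r)).relIndex (Θ.map E) ≠ 0 := by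
    intro h0
    have hdvd := AddSubgroup.relIndex_dvd_card ((fixedPts G J).map (nsmulAddMonoidHom r)) (Θ.map E)
    rw [h0, zero_dvd_iff] at hdvd
    exact Nat.card_pos.ne' hdvd
  calc Nat.card ↥(fixedE G J r E) ≤ Nat.card ↥ν.ker := hle1
    _ = ν.range.index := hcount
    _ = (R.map (nsmulAddMonoidHom r)).relIndex R := by rw [hνrange]; rfl
    _ = ((fixedPts G J).map (nsmulAddMonoidHom r)).relIndex R := by
        rw [← hinf, AddSubgroup.inf_relIndex_right]
    _ ≤ ((fixedPts G J).map (nsmulAddMonoidHom r)).relIndex (Θ.map E) :=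
        AddSubgroup.relIndex_le_of_le_right hRE hne

/-- (L1), core: if `[E M + r M : r M]` is finite and at most `#{w ∈ Θ | r w = 0, E w = w}`,
then `E M ⊆ Θ + r M`. -/
theorem exists_decomp_of_relIndex_le {r : ℕ} {E : J →+ J}
    (hE : ∀ (s : G) (y : J), E (s • y) = s • E y) [Finite ↥(Theta G J r)]
    (ha0 : ((fixedPts G J).map (nsmulAddMonoidHom r)).relIndex ((fixedPts G J).map E) ≠ 0)
    (hale' : ((fixedPts G J).map (nsmulAddMonoidHom r)).relIndex ((fixedPts G J).map E) ≤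
      Nat.card ↥(fixedE G J r E))
    {m : J} (hm : ∀ s : G, s • m = m) :
    ∃ τ x : J, τ ∈ Theta G J r ∧ (∀ s : G, s • x = x) ∧ E m = τ + r • x := by
  set rM := (fixedPts G J).map (nsmulAddMonoidHom r) with hrM
  set EM := (fixedPts G J).map E with hEM
  set EΘ := (Theta G J r).map E with hEΘ
  have hΘM : EΘ ≤ EM := AddSubgroup.map_mono (Theta_le_fixedPts r)
  have hale : rM.relIndex EM ≤ rM.relIndex EΘ := hale'.trans (card_fixed_le_relIndex hE)
  have hNH : rM ⊓ EM ≤ EΘ ⊔ rM ⊓ EM := le_sup_right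
  have hHEM : EΘ ⊔ rM ⊓ EM ≤ EM := sup_le hΘM inf_le_right
  have h1 : (rM ⊓ EM).relIndex (EΘ ⊔ rM ⊓ EM) * (EΘ ⊔ rM ⊓ EM).relIndex EM =
      (rM ⊓ EM).relIndex EM := AddSubgroup.relIndex_mul_relIndex _ _ _ hNH hHEM
  have h2 : (rM ⊓ EM).relIndex EM = rM.relIndex EM := AddSubgroup.inf_relIndex_right rM EM
  have h3 : (rM ⊓ EM).relIndex (EΘ ⊔ rM ⊓ EM) = rM.relIndex EΘ := by
    rw [AddSubgroup.relIndex_sup_right, ← AddSubgroup.inf_relIndex_right (rM ⊓ EM) EΘ, inf_assoc,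
      inf_eq_right.mpr hΘM, AddSubgroup.inf_relIndex_right]
  rw [h2, h3] at h1
  have h4 : (EΘ ⊔ rM ⊓ EM).relIndex EM = 1 := by
    have hb0 : 0 < rM.relIndex EΘ := lt_of_lt_of_le (Nat.pos_of_ne_zero ha0) hale
    have hc0 : (EΘ ⊔ rM ⊓ EM).relIndex EM ≠ 0 := by
      intro h
      rw [h, mul_zero] at h1
      exact ha0 h1.symm
    have h5 : rM.relIndex EΘ * (EΘ ⊔ rM ⊓ EM).relIndex EM ≤ rM.relIndex EΘ * 1 := by
      rw [h1, mul_one]
      exact hale
    have h6 := Nat.le_of_mul_le_mul_left h5 hb0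
    omega
  have h5 : EM ≤ EΘ ⊔ rM ⊓ EM := AddSubgroup.relIndex_eq_one.mp h4
  have hEm : E m ∈ EΘ ⊔ rM ⊓ EM := h5 ⟨m, mem_fixedPts.mpr hm, rfl⟩
  obtain ⟨u, hu, v, hv, huv⟩ := AddSubgroup.mem_sup.mp hEm
  obtain ⟨t, ht, rfl⟩ := hu
  obtain ⟨x, hx, rfl⟩ := hv.1
  exact ⟨E t, x, map_mem_Theta hE ht, mem_fixedPts.mp hx, huv.symm⟩

/-- (L1) If `cokIdx G W' T` is nonzero and at most `kerIdx G W' T`, then `E M ⊆ Θ + r M`. -/
theorem exists_decomp_one {r : ℕ} {E : J →+ J} (hE : ∀ (s : G) (y : J), E (s • y) = s • E y)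
    (hidem : ∀ t : J, r • t = 0 → E (E t) = E t)
    (hdiv : ∀ m : J, (∀ s : G, s • m = m) → ∃ y : J, r • y = m)
    [Finite ↥(Theta G J r)]
    (hcok0 : cokIdx G (compl r E) (tors J r) ≠ 0)
    (hle : cokIdx G (compl r E) (tors J r) ≤ kerIdx G (compl r E) (tors J r))
    {m : J} (hm : ∀ s : G, s • m = m) :
    ∃ τ x : J, τ ∈ Theta G J r ∧ (∀ s : G, s • x = x) ∧ E m = τ + r • x := by
  have hA := relIndex_dvd_cokIdx (G := G) (r := r) hE hdiv
  refine exists_decomp_of_relIndex_le hE ?_ ?_ hm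
  · intro h
    rw [h, zero_dvd_iff] at hA
    exact hcok0 hA
  · exact (Nat.le_of_dvd (Nat.pos_of_ne_zero hcok0) hA).trans (hle.trans (kerIdx_le_card hE hidem))

/-- (A'), flag-from-`⊥` form: `[E M + r M : r M]` divides `cokIdx G ⊥ W` as soon as
`E (J[r]) ≤ W ≤ J[r]`. -/
theorem relIndex_dvd_cokIdx_bot {r : ℕ} {E : J →+ J}
    (hE : ∀ (s : G) (y : J), E (s • y) = s • E y)
    (hdiv : ∀ m : J, (∀ s : G, s • m = m) → ∃ y : J, r • y = m)
    {W : AddSubgroup J} (hWT : ∀ w ∈ W, r • w = 0) (hEW : ∀ t : J, r • t = 0 → E t ∈ W) :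
    ((fixedPts G J).map (nsmulAddMonoidHom r)).relIndex ((fixedPts G J).map E) ∣
      cokIdx G (⊥ : AddSubgroup J) W := by
  set IT := relInv G (tors J r) with hIT
  set IW := relInv G W with hIW
  have hθmem : ∀ y : ↥IT, E (y : J) ∈ IW := by
    intro y s
    have h1 : s • E (y : J) - E (y : J) = E (s • (y : J) - (y : J)) := by rw [map_sub, hE]
    rw [h1]
    exact hEW _ (mem_tors.mp (y.2 s))
  let θ : ↥IT →+ ↥IW := (E.comp IT.subtype).codRestrict IW hθmem
  have hθ : ∀ y : ↥IT, ((θ y : ↥IW) : J) = E (y : J) := fun _ => rfl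
  let φ : ↥IT →+ J := (E.comp (nsmulAddMonoidHom r)).comp IT.subtype
  have hφ : ∀ y : ↥IT, φ y = E (r • (y : J)) := fun _ => rfl
  have hrange : φ.range = (fixedPts G J).map E := by
    ext x
    constructor
    · rintro ⟨y, rfl⟩
      exact ⟨r • (y : J), mem_fixedPts.mpr (mem_relInv_tors.mp y.2), (hφ y).symm⟩
    · rintro ⟨m, hm, rfl⟩
      obtain ⟨y, hy⟩ := hdiv m (mem_fixedPts.mp hm)
      have hyIT : y ∈ IT := mem_relInv_tors.mpr (by rw [hy]; exact mem_fixedPts.mp hm)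
      exact ⟨⟨y, hyIT⟩, by rw [hφ, hy]⟩
  have hle : ((fixedPts G J ⊔ W).addSubgroupOf IW).comap θ ≤
      ((fixedPts G J).map (nsmulAddMonoidHom r)).comap φ := by
    intro y hy
    rw [AddSubgroup.mem_comap, AddSubgroup.mem_addSubgroupOf, hθ] at hy
    obtain ⟨m1, hm1, w, hw, hmw⟩ := AddSubgroup.mem_sup.mp hy
    rw [AddSubgroup.mem_comap, hφ, map_nsmul, ← hmw, smul_add, hWT w hw, add_zero]
    exact ⟨m1, hm1, rfl⟩
  have h1 := AddSubgroup.index_dvd_of_le hle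
  rw [AddSubgroup.index_comap, hrange] at h1
  have h2 : (((fixedPts G J ⊔ W).addSubgroupOf IW).comap θ).index ∣
      ((fixedPts G J ⊔ W).addSubgroupOf IW).index := by
    rw [AddSubgroup.index_comap]
    exact AddSubgroup.relIndex_dvd_index_of_normal _ _
  exact h1.trans h2

/-- (B'), flag-from-`⊥` form: `kerIdx G ⊥ W ≤ #{w ∈ Θ | r w = 0, E w = w}` when `W` is killed
by `r` and fixed by `E`. -/
theorem kerIdx_bot_le_card {r : ℕ} {E : J →+ J} [Finite ↥(Theta G J r)]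
    {W : AddSubgroup J} (hWT : ∀ w ∈ W, r • w = 0) (hWE : ∀ w ∈ W, E w = w) :
    kerIdx G (⊥ : AddSubgroup J) W ≤ Nat.card ↥(fixedE G J r E) := by
  rw [kerIdx_bot]
  have hle : fixedPts G J ⊓ W ≤ fixedE G J r E := by
    rintro w ⟨hw1, hw2⟩
    exact ⟨⟨mem_fixedPts.mp hw1, 1, by rw [pow_one]; exact hWT w hw2⟩, hWT w hw2, hWE w hw2⟩
  have hfin : Finite ↥(fixedE G J r E) :=
    Finite.of_injective (AddSubgroup.inclusion (fixedE_le_Theta r E))
      (AddSubgroup.inclusion_injective _)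
  exact Nat.card_le_card_of_injective (AddSubgroup.inclusion hle)
    (AddSubgroup.inclusion_injective hle)

/-- (L1'), flag-from-`⊥` form (the shape of the count along a flag `⊥ = F 0 ≤ … ≤ F L = W` of
the `E`-part `W` of `J[r]`): if `cokIdx G ⊥ W` is nonzero and at most `kerIdx G ⊥ W`
(`= #(M ∩ W)`), then `E M ⊆ Θ + r M`. -/
theorem exists_decomp_one_bot {r : ℕ} {E : J →+ J} (hE : ∀ (s : G) (y : J), E (s • y) = s • E y)
    (hdiv : ∀ m : J, (∀ s : G, s • m = m) → ∃ y : J, r • y = m)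
    [Finite ↥(Theta G J r)]
    {W : AddSubgroup J} (hWT : ∀ w ∈ W, r • w = 0) (hEW : ∀ t : J, r • t = 0 → E t ∈ W)
    (hWE : ∀ w ∈ W, E w = w)
    (hcok0 : cokIdx G (⊥ : AddSubgroup J) W ≠ 0)
    (hle : cokIdx G (⊥ : AddSubgroup J) W ≤ kerIdx G (⊥ : AddSubgroup J) W)
    {m : J} (hm : ∀ s : G, s • m = m) :
    ∃ τ x : J, τ ∈ Theta G J r ∧ (∀ s : G, s • x = x) ∧ E m = τ + r • x := by
  have hA := relIndex_dvd_cokIdx_bot (G := G) (r := r) hE hdiv hWT hEW
  refine exists_decomp_of_relIndex_le hE ?_ ?_ hm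
  · intro h
    rw [h, zero_dvd_iff] at hA
    exact hcok0 hA
  · exact (Nat.le_of_dvd (Nat.pos_of_ne_zero hcok0) hA).trans
      (hle.trans (kerIdx_bot_le_card hWT hWE))

/-- (LK), generic iteration: `E M ⊆ Θ + r M` implies `E^K M ⊆ Θ + r^K M` for every `K`. -/
theorem exists_decomp_pow_of_one {r : ℕ} {E : J →+ J}
    (hE : ∀ (s : G) (y : J), E (s • y) = s • E y)
    (h1 : ∀ m : J, (∀ s : G, s • m = m) →
      ∃ τ x : J, τ ∈ Theta G J r ∧ (∀ s : G, s • x = x) ∧ E m = τ + r • x)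
    (K : ℕ) {m : J} (hm : ∀ s : G, s • m = m) :
    ∃ τ x : J, τ ∈ Theta G J r ∧ (∀ s : G, s • x = x) ∧ (⇑E)^[K] m = τ + r ^ K • x := by
  induction K with
  | zero => exact ⟨0, m, zero_mem _, hm, by simp⟩
  | succ K ih =>
    obtain ⟨τ, x, hτ, hx, h⟩ := ih
    obtain ⟨τ1, x1, hτ1, hx1, h1'⟩ := h1 x hx
    refine ⟨E τ + r ^ K • τ1, x1, add_mem (map_mem_Theta hE hτ) (nsmul_mem hτ1 _), hx1, ?_⟩
    rw [Function.iterate_succ_apply', h, map_add, map_nsmul, h1', smul_add, smul_smul, ← pow_succ,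
      add_assoc]

/-- (LK) Under the hypothesis of `exists_decomp_one`, `E^K M ⊆ Θ + r^K M` for every `K`. -/
theorem exists_decomp_pow {r : ℕ} {E : J →+ J} (hE : ∀ (s : G) (y : J), E (s • y) = s • E y)
    (hidem : ∀ t : J, r • t = 0 → E (E t) = E t)
    (hdiv : ∀ m : J, (∀ s : G, s • m = m) → ∃ y : J, r • y = m)
    [Finite ↥(Theta G J r)]
    (hcok0 : cokIdx G (compl r E) (tors J r) ≠ 0)
    (hle : cokIdx G (compl r E) (tors J r) ≤ kerIdx G (compl r E) (tors J r))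
    (K : ℕ) {m : J} (hm : ∀ s : G, s • m = m) :
    ∃ τ x : J, τ ∈ Theta G J r ∧ (∀ s : G, s • x = x) ∧ (⇑E)^[K] m = τ + r ^ K • x :=
  exists_decomp_pow_of_one hE (fun _ hm' => exists_decomp_one hE hidem hdiv hcok0 hle hm') K hm

end Count

section Chain

variable {G : Type*} {J : Type*} [Group G] [AddCommGroup J] [DistribMulAction G J]

/-- Telescoping along ONE stable flag: if the product of the step cokernel indices is nonzero
and at most the product of the step kernel indices, the same holds end to end. -/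
theorem cokIdx_le_kerIdx_of_chain (F : ℕ → AddSubgroup J) (hmono : Monotone F)
    (hst : ∀ i, IsStable G (F i)) (L : ℕ) (hfin : ∀ i ≤ L, kerIdx G (F 0) (F i) ≠ 0)
    (hcok0 : ∀ i < L, cokIdx G (F i) (F (i + 1)) ≠ 0)
    (hprod : ∏ i ∈ Finset.range L, cokIdx G (F i) (F (i + 1)) ≤
      ∏ i ∈ Finset.range L, kerIdx G (F i) (F (i + 1))) :
    cokIdx G (F 0) (F L) ≠ 0 ∧ cokIdx G (F 0) (F L) ≤ kerIdx G (F 0) (F L) := by
  have hchain := cokIdx_chain F hmono hst L (fun i hi => hfin i hi.le)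
  have hc0 : (∏ i ∈ Finset.range L, cokIdx G (F i) (F (i + 1))) ≠ 0 :=
    Finset.prod_ne_zero_iff.mpr (fun i hi => hcok0 i (Finset.mem_range.mp hi))
  have hk0 : 0 < ∏ i ∈ Finset.range L, kerIdx G (F i) (F (i + 1)) :=
    lt_of_lt_of_le (Nat.pos_of_ne_zero hc0) hprod
  constructor
  · intro h
    rw [h, zero_mul] at hchain
    exact Nat.mul_ne_zero (hfin L le_rfl) hc0 hchain.symm
  · have h1 : cokIdx G (F 0) (F L) * ∏ i ∈ Finset.range L, kerIdx G (F i) (F (i + 1)) ≤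
        kerIdx G (F 0) (F L) * ∏ i ∈ Finset.range L, kerIdx G (F i) (F (i + 1)) := by
      rw [hchain]
      exact Nat.mul_le_mul_left _ hprod
    exact Nat.le_of_mul_le_mul_right h1 hk0

/-- Exponent form of `cokIdx_le_kerIdx_of_chain`: step bounds `cokIdx ≤ r ^ a i`,
`r ^ e i ≤ kerIdx` with `∑ a ≤ ∑ e`. -/
theorem cokIdx_le_kerIdx_of_chain_pow {r : ℕ} (hr : 0 < r) (F : ℕ → AddSubgroup J)
    (hmono : Monotone F) (hst : ∀ i, IsStable G (F i)) (L : ℕ)
    (hfin : ∀ i ≤ L, kerIdx G (F 0) (F i) ≠ 0) (a e : ℕ → ℕ)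
    (hcok0 : ∀ i < L, cokIdx G (F i) (F (i + 1)) ≠ 0)
    (hcok : ∀ i < L, cokIdx G (F i) (F (i + 1)) ≤ r ^ a i)
    (hker : ∀ i < L, r ^ e i ≤ kerIdx G (F i) (F (i + 1)))
    (hsum : ∑ i ∈ Finset.range L, a i ≤ ∑ i ∈ Finset.range L, e i) :
    cokIdx G (F 0) (F L) ≠ 0 ∧ cokIdx G (F 0) (F L) ≤ kerIdx G (F 0) (F L) := by
  apply cokIdx_le_kerIdx_of_chain F hmono hst L hfin hcok0
  calc ∏ i ∈ Finset.range L, cokIdx G (F i) (F (i + 1))
      ≤ ∏ i ∈ Finset.range L, r ^ a i :=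
        Finset.prod_le_prod' (fun i hi => hcok i (Finset.mem_range.mp hi))
    _ = r ^ ∑ i ∈ Finset.range L, a i := Finset.prod_pow_eq_pow_sum _ _ _
    _ ≤ r ^ ∑ i ∈ Finset.range L, e i := Nat.pow_le_pow_right hr hsum
    _ = ∏ i ∈ Finset.range L, r ^ e i := (Finset.prod_pow_eq_pow_sum _ _ _).symm
    _ ≤ ∏ i ∈ Finset.range L, kerIdx G (F i) (F (i + 1)) :=
        Finset.prod_le_prod' (fun i hi => hker i (Finset.mem_range.mp hi))

end Chain

section Endgame

/-- (END1) The level-one endgame: ONE endomorphism `EM` of the Mordell–Weil group `M`, two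
reductions to finite groups compatible with `EM` and injective on `r`-power torsion, a nonzero
`r`-power torsion point `c0` with `EM c0 = ε • c0`, `r ∤ ε`, a point `D` reducing to `0` at the
first and to `- c0` at the second, and the decompositions `EM^K D ∈ M[r^∞] + r^K M` for all `K`,
are contradictory. -/
theorem endgame_of_decomp {M Rs Rl : Type*} [AddCommGroup M] [AddCommGroup Rs] [AddCommGroup Rl]
    [Finite Rs] [Finite Rl] {r : ℕ} (hr : r.Prime) (EM : M →+ M) (ρs : M →+ Rs) (ρl : M →+ Rl)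
    (Es : Rs →+ Rs) (El : Rl →+ Rl)
    (hs : ∀ m, ρs (EM m) = Es (ρs m)) (hl : ∀ m, ρl (EM m) = El (ρl m))
    (hinjs : ∀ t : M, (∃ j : ℕ, r ^ j • t = 0) → ρs t = 0 → t = 0)
    (hinjl : ∀ t : M, (∃ j : ℕ, r ^ j • t = 0) → ρl t = 0 → t = 0)
    {D c0 : M} {a : ℕ} {ε : ℤ} (hε : ¬ (r : ℤ) ∣ ε) (hc0 : c0 ≠ 0) (hc0r : r ^ a • c0 = 0)
    (hEc : EM c0 = ε • c0) (hDs : ρs D = 0) (hDl : ρl D = -ρl c0)
    (hdec : ∀ K : ℕ, ∃ τ x : M, (∃ j : ℕ, r ^ j • τ = 0) ∧ (⇑EM)^[K] D = τ + r ^ K • x) :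
    False := by
  set K := Nat.card Rs + Nat.card Rl with hK
  obtain ⟨τ, x, ⟨j, hτ⟩, hED⟩ := hdec K
  have hsK : ∀ m, ρs ((⇑EM)^[K] m) = (⇑Es)^[K] (ρs m) :=
    Function.Semiconj.iterate_right (f := ρs) (ga := EM) (gb := Es) hs K
  have hlK : ∀ m, ρl ((⇑EM)^[K] m) = (⇑El)^[K] (ρl m) :=
    Function.Semiconj.iterate_right (f := ρl) (ga := EM) (gb := El) hl K
  have hcK : ∀ n : ℕ, (⇑EM)^[n] c0 = ε ^ n • c0 := by
    intro n
    induction n with
    | zero => simp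
    | succ n ih => rw [Function.iterate_succ_apply', ih, map_zsmul, hEc, smul_smul, ← pow_succ]
  -- reduction at `s` kills `τ`
  have h1 : ρs τ = r ^ K • (-ρs x) := by
    have h := hsK D
    rw [hDs, iterate_map_zero, hED, map_add, map_nsmul] at h
    rw [smul_neg]
    exact eq_neg_of_add_eq_zero_left h
  have h2 : r ^ j • ρs τ = 0 := by rw [← map_nsmul, hτ, map_zero]
  have h3 : ρs τ = 0 := eq_zero_of_pow_smul hr (Nat.le_add_right _ _) h2 h1
  have hτ0 : τ = 0 := hinjs τ ⟨j, hτ⟩ h3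
  rw [hτ0, zero_add] at hED
  -- reduction at `l` kills `c0`
  have h4 : ε ^ K • ρl c0 = r ^ K • (-ρl x) := by
    have h := hlK D
    rw [hDl, iterate_map_neg, ← hlK c0, hcK, hED, map_nsmul, map_zsmul] at h
    rw [smul_neg, h, neg_neg]
  have h5 : r ^ a • (ε ^ K • ρl c0) = 0 := by
    rw [smul_comm, ← map_nsmul, hc0r, map_zero, smul_zero]
  have h6 : ε ^ K • ρl c0 = 0 := eq_zero_of_pow_smul hr (Nat.le_add_left _ _) h5 h4
  have hcop : IsCoprime ((r : ℤ) ^ a) (ε ^ K) :=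
    IsCoprime.pow ((Nat.prime_iff_prime_int.mp hr).irreducible.coprime_iff_not_dvd.mpr hε)
  obtain ⟨u, v, huv⟩ := hcop
  have h7 : ρl c0 = 0 := by
    have h8 : ((r : ℤ) ^ a) • ρl c0 = 0 := by
      rw [← map_zsmul, ← Nat.cast_pow, natCast_zsmul, hc0r, map_zero]
    calc ρl c0 = (1 : ℤ) • ρl c0 := (one_smul _ _).symm
      _ = (u * (r : ℤ) ^ a + v * ε ^ K) • ρl c0 := by rw [huv]
      _ = u • (((r : ℤ) ^ a) • ρl c0) + v • (ε ^ K • ρl c0) := by
          rw [add_smul, mul_smul, mul_smul]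
      _ = 0 := by rw [h8, h6, smul_zero, smul_zero, add_zero]
  exact hc0 (hinjl c0 ⟨a, hc0r⟩ h7)

end Endgame

section Combined

variable {G : Type*} {J : Type*} [Group G] [AddCommGroup J] [DistribMulAction G J]

/-- The restriction of an equivariant endomorphism of `J` to the fixed points `M = J^G`. -/
def fixedEnd (E : J →+ J) (hE : ∀ (s : G) (y : J), E (s • y) = s • E y) :
    ↥(fixedPts G J) →+ ↥(fixedPts G J) :=
  (E.comp (fixedPts G J).subtype).codRestrict (fixedPts G J)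
    (fun m => mem_fixedPts.mpr (fun s => by
      show s • E (m : J) = E (m : J)
      rw [← hE, mem_fixedPts.mp m.2 s]))

theorem coe_fixedEnd (E : J →+ J) (hE : ∀ (s : G) (y : J), E (s • y) = s • E y)
    (m : ↥(fixedPts G J)) : ((fixedEnd E hE m : ↥(fixedPts G J)) : J) = E (m : J) := rfl

theorem coe_fixedEnd_iterate (E : J →+ J) (hE : ∀ (s : G) (y : J), E (s • y) = s • E y)
    (K : ℕ) (m : ↥(fixedPts G J)) :
    (((⇑(fixedEnd E hE))^[K] m : ↥(fixedPts G J)) : J) = (⇑E)^[K] (m : J) := by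
  induction K with
  | zero => rfl
  | succ K ih =>
    rw [Function.iterate_succ_apply', Function.iterate_succ_apply', coe_fixedEnd, ih]

/-- (D3), abstract form: the LEVEL-ONE descent and endgame combined.

`J` is an abelian group with an action of `G`, `M = J^G`, `E` an equivariant endomorphism of `J`
which is idempotent on `J[r]`, and `F 0 = J[r] ∩ ker E ≤ F 1 ≤ … ≤ F L = J[r]` ONE stable flag
with step bounds `cokIdx ≤ r ^ a i`, `r ^ e i ≤ kerIdx`, `∑ a ≤ ∑ e`.  Two reductions of `M` to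
finite groups, compatible with `E`, injective on `r`-power torsion, a nonzero `r`-power torsion
point `c0 ∈ M` with `E c0 = ε • c0`, `r ∤ ε`, and a point `D ∈ M` reducing to `0` at the first and
to `- c0` at the second cannot exist. -/
theorem false_of_level_one {Rs Rl : Type*} [AddCommGroup Rs] [AddCommGroup Rl] [Finite Rs]
    [Finite Rl] {r : ℕ} (hr : r.Prime) (E : J →+ J)
    (hE : ∀ (s : G) (y : J), E (s • y) = s • E y)
    (hidem : ∀ t : J, r • t = 0 → E (E t) = E t)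
    (hdiv : ∀ m : J, (∀ s : G, s • m = m) → ∃ y : J, r • y = m)
    [Finite ↥(tors J r)]
    (F : ℕ → AddSubgroup J) (hmono : Monotone F) (hst : ∀ i, IsStable G (F i)) (L : ℕ)
    (h0 : F 0 = compl r E) (hL : F L = tors J r) (a e : ℕ → ℕ)
    (hcok0 : ∀ i < L, cokIdx G (F i) (F (i + 1)) ≠ 0)
    (hcok : ∀ i < L, cokIdx G (F i) (F (i + 1)) ≤ r ^ a i)
    (hker : ∀ i < L, r ^ e i ≤ kerIdx G (F i) (F (i + 1)))
    (hsum : ∑ i ∈ Finset.range L, a i ≤ ∑ i ∈ Finset.range L, e i)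
    (ρs : ↥(fixedPts G J) →+ Rs) (ρl : ↥(fixedPts G J) →+ Rl) (Es : Rs →+ Rs) (El : Rl →+ Rl)
    (hs : ∀ m, ρs (fixedEnd E hE m) = Es (ρs m))
    (hl : ∀ m, ρl (fixedEnd E hE m) = El (ρl m))
    (hinjs : ∀ t : ↥(fixedPts G J), (∃ j : ℕ, r ^ j • t = 0) → ρs t = 0 → t = 0)
    (hinjl : ∀ t : ↥(fixedPts G J), (∃ j : ℕ, r ^ j • t = 0) → ρl t = 0 → t = 0)
    {D c0 : ↥(fixedPts G J)} {a0 : ℕ} {ε : ℤ} (hε : ¬ (r : ℤ) ∣ ε) (hc0 : c0 ≠ 0)
    (hc0r : r ^ a0 • c0 = 0) (hEc : E (c0 : J) = ε • (c0 : J))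
    (hDs : ρs D = 0) (hDl : ρl D = -ρl c0) : False := by
  -- `Θ` is finite, because the reduction at `s` is injective on it
  have hΘfin : Finite ↥(Theta G J r) := by
    let φ : ↥(Theta G J r) → Rs := fun t => ρs ⟨t, Theta_le_fixedPts r t.2⟩
    apply Finite.of_injective φ
    intro t t' htt
    have hmem : (t : J) - (t' : J) ∈ Theta G J r := sub_mem t.2 t'.2
    obtain ⟨j, hj⟩ := hmem.2
    have h1 : ρs (⟨t, Theta_le_fixedPts r t.2⟩ - ⟨t', Theta_le_fixedPts r t'.2⟩) = 0 := by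
      rw [map_sub, sub_eq_zero]
      exact htt
    have h2 := hinjs _ ⟨j, Subtype.ext hj⟩ h1
    have h3 : (t : J) - (t' : J) = 0 := congrArg (fun z : ↥(fixedPts G J) => (z : J)) h2
    exact Subtype.ext (sub_eq_zero.mp h3)
  -- the flag gives `cokIdx ≤ kerIdx` end to end
  have hfinF : ∀ i ≤ L, kerIdx G (F 0) (F i) ≠ 0 := by
    intro i hi
    apply kerIdx_ne_zero (hmono (Nat.zero_le i)) (hst 0)
    have hle : F i ≤ tors J r := hL ▸ hmono hi
    have hfin : Finite ↥(F i) :=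
      Finite.of_injective (AddSubgroup.inclusion hle) (AddSubgroup.inclusion_injective hle)
    intro h0'
    have hdvd := AddSubgroup.relIndex_dvd_card (F 0) (F i)
    rw [h0', zero_dvd_iff] at hdvd
    exact Nat.card_pos.ne' hdvd
  obtain ⟨hc, hle⟩ :=
    cokIdx_le_kerIdx_of_chain_pow hr.pos F hmono hst L hfinF a e hcok0 hcok hker hsum
  rw [h0, hL] at hc hle
  -- the endgame
  refine endgame_of_decomp hr (fixedEnd E hE) ρs ρl Es El hs hl hinjs hinjl hε hc0 hc0r ?_ hDs hDl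
    ?_
  · exact Subtype.ext hEc
  · intro K
    obtain ⟨τ, x, hτ, hx, h⟩ := exists_decomp_pow hE hidem hdiv hc hle K (mem_fixedPts.mp D.2)
    obtain ⟨hτ1, j, hj⟩ := hτ
    refine ⟨⟨τ, mem_fixedPts.mpr hτ1⟩, ⟨x, mem_fixedPts.mpr hx⟩, ⟨j, Subtype.ext hj⟩, ?_⟩
    apply Subtype.ext
    rw [coe_fixedEnd_iterate]
    exact h

/-- `Θ = M[r^∞]` is finite as soon as `M = J^G` is finitely generated. -/
theorem finite_Theta_of_fg {r : ℕ} (hr : 0 < r) (hfg : AddGroup.FG ↥(fixedPts G J)) :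
    Finite ↥(Theta G J r) := by
  have h1 : Module.Finite ℤ ↥(fixedPts G J) := Module.Finite.iff_addGroup_fg.mpr hfg
  have h2 : IsNoetherian ℤ ↥(fixedPts G J) := isNoetherian_of_isNoetherianRing_of_finite ℤ _
  set Θ' : AddSubgroup ↥(fixedPts G J) := (Theta G J r).addSubgroupOf (fixedPts G J) with hΘ'
  have h3 : (AddSubgroup.toIntSubmodule Θ').FG := IsNoetherian.noetherian _
  have h4 : Module.Finite ℤ ↥(AddSubgroup.toIntSubmodule Θ') := Module.Finite.iff_fg.mpr h3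
  have h5 : AddGroup.FG ↥Θ' := Module.Finite.iff_addGroup_fg.mp h4
  have h6 : Finite ↥Θ' := by
    refine AddCommGroup.finite_of_fg_isAddTorsion _ ?_
    intro x
    obtain ⟨-, j, hj⟩ := AddSubgroup.mem_addSubgroupOf.mp x.2
    rw [isOfFinAddOrder_iff_nsmul_eq_zero]
    exact ⟨r ^ j, pow_pos hr j, Subtype.ext (Subtype.ext hj)⟩
  let φ : ↥(Theta G J r) → ↥Θ' := fun t =>
    ⟨⟨t, Theta_le_fixedPts r t.2⟩, AddSubgroup.mem_addSubgroupOf.mpr t.2⟩
  exact Finite.of_injective φ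
    (fun a b h => Subtype.ext (congrArg (fun z : ↥Θ' => ((z : ↥(fixedPts G J)) : J)) h))

/-- The same from `FixedPoints.addSubgroup` (the shape of the landed S17). -/
theorem finite_Theta_of_fg' {r : ℕ} (hr : 0 < r)
    (hfg : AddGroup.FG ↥(FixedPoints.addSubgroup G J)) : Finite ↥(Theta G J r) := by
  apply finite_Theta_of_fg hr
  have h : fixedPts G J = FixedPoints.addSubgroup G J := by
    ext y
    rw [mem_fixedPts]
    rfl
  rw [h]
  exact hfg

/-- LEVEL-ONE (DIV) from the end-to-end count, in the shape of the inner part of `Stmt_Div1`: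
`W` is the `E`-part of `J[r]` (`E (J[r]) ≤ W ≤ J[r]`, `E = 1` on `W`), and
`cokIdx G ⊥ W ≤ kerIdx G ⊥ W` (i.e. `#coker (J^G → (J/W)^G) ≤ #W^G`). Then every fixed `D`
satisfies `E D = τ + r • x` with `τ`, `x` fixed and `τ` of `r`-power order. -/
theorem div1_of_bound {r : ℕ} {E : J →+ J} (hE : ∀ (s : G) (y : J), E (s • y) = s • E y)
    (hdiv : ∀ m : J, (∀ s : G, s • m = m) → ∃ y : J, r • y = m)
    [Finite ↥(Theta G J r)]
    {W : AddSubgroup J} (hWT : ∀ w ∈ W, r • w = 0) (hEW : ∀ t : J, r • t = 0 → E t ∈ W)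
    (hWE : ∀ w ∈ W, E w = w)
    (hcok0 : cokIdx G (⊥ : AddSubgroup J) W ≠ 0)
    (hle : cokIdx G (⊥ : AddSubgroup J) W ≤ kerIdx G (⊥ : AddSubgroup J) W)
    {D : J} (hD : ∀ s : G, s • D = D) :
    ∃ τ x : J, (∀ s : G, s • τ = τ) ∧ (∀ s : G, s • x = x) ∧ (∃ n : ℕ, r ^ n • τ = 0) ∧
      E D = τ + r • x := by
  obtain ⟨τ, x, hτ, hx, h⟩ := exists_decomp_one_bot hE hdiv hWT hEW hWE hcok0 hle hD
  exact ⟨τ, x, hτ.1, hx, hτ.2, h⟩

/-- LEVEL-ONE (DIV) in one call from the step bounds along ONE stable flag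
`⊥ = F 0 ≤ … ≤ F L = W` of the `E`-part of `J[r]` (carrier of `helper4190_CasselsCore`, at
`k = 1`, with NO loss: `∑ a ≤ ∑ e`; no bound on the invariants is needed). -/
theorem div1_of_chain {r : ℕ} (hr : 0 < r) {E : J →+ J}
    (hE : ∀ (s : G) (y : J), E (s • y) = s • E y)
    (hdiv : ∀ m : J, (∀ s : G, s • m = m) → ∃ y : J, r • y = m)
    [Finite ↥(Theta G J r)]
    (F : ℕ → AddSubgroup J) (hmono : Monotone F) (hst : ∀ i, IsStable G (F i)) (h0 : F 0 = ⊥)
    (L : ℕ) [Finite ↥(F L)]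
    (hWT : ∀ w ∈ F L, r • w = 0) (hEW : ∀ t : J, r • t = 0 → E t ∈ F L)
    (hWE : ∀ w ∈ F L, E w = w) (a e : ℕ → ℕ)
    (hcok0 : ∀ i < L, cokIdx G (F i) (F (i + 1)) ≠ 0)
    (hcok : ∀ i < L, cokIdx G (F i) (F (i + 1)) ≤ r ^ a i)
    (hker : ∀ i < L, r ^ e i ≤ kerIdx G (F i) (F (i + 1)))
    (hsum : ∑ i ∈ Finset.range L, a i ≤ ∑ i ∈ Finset.range L, e i)
    {D : J} (hD : ∀ s : G, s • D = D) :
    ∃ τ x : J, (∀ s : G, s • τ = τ) ∧ (∀ s : G, s • x = x) ∧ (∃ n : ℕ, r ^ n • τ = 0) ∧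
      E D = τ + r • x := by
  have hfin : ∀ i ≤ L, kerIdx G (F 0) (F i) ≠ 0 := by
    intro i hi
    rw [h0, kerIdx_bot]
    have hle : relInv G (⊥ : AddSubgroup J) ⊓ F i ≤ F L := inf_le_right.trans (hmono hi)
    have : Finite ↥(relInv G (⊥ : AddSubgroup J) ⊓ F i) :=
      Finite.of_injective (AddSubgroup.inclusion hle) (AddSubgroup.inclusion_injective hle)
    exact Nat.card_pos.ne'
  obtain ⟨hc, hle⟩ :=
    cokIdx_le_kerIdx_of_chain_pow hr F hmono hst L hfin a e hcok0 hcok hker hsum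
  rw [h0] at hc hle
  exact div1_of_bound hE hdiv hWT hEW hWE hc hle hD

/-- Iteration in the same shape: level-one (DIV) for every fixed point gives
`E^K D = τ + r^K • x` for every `K`. -/
theorem divK_of_div1 {r : ℕ} {E : J →+ J} (hE : ∀ (s : G) (y : J), E (s • y) = s • E y)
    (h1 : ∀ D : J, (∀ s : G, s • D = D) → ∃ τ x : J, (∀ s : G, s • τ = τ) ∧
      (∀ s : G, s • x = x) ∧ (∃ n : ℕ, r ^ n • τ = 0) ∧ E D = τ + r • x)
    (K : ℕ) {D : J} (hD : ∀ s : G, s • D = D) :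
    ∃ τ x : J, (∀ s : G, s • τ = τ) ∧ (∀ s : G, s • x = x) ∧ (∃ n : ℕ, r ^ n • τ = 0) ∧
      (⇑E)^[K] D = τ + r ^ K • x := by
  have h1' : ∀ m : J, (∀ s : G, s • m = m) →
      ∃ τ x : J, τ ∈ Theta G J r ∧ (∀ s : G, s • x = x) ∧ E m = τ + r • x := by
    intro m hm
    obtain ⟨τ, x, hτ, hx, hn, h⟩ := h1 m hm
    exact ⟨τ, x, ⟨hτ, hn⟩, hx, h⟩
  obtain ⟨τ, x, hτ, hx, h⟩ := exists_decomp_pow_of_one hE h1' K hD
  exact ⟨τ, x, hτ.1, hx, hτ.2, h⟩

end Combined

end Fermat.Agent.S15.helper2063
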