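/-
The (BND) assembly for the Mazur block (S15), abstract and Mathlib-only (on top of `CasselsCore`
and `FlagCount`): the step table and the counts are replaced by two subgroup orders.
* (K4, `r` odd)  types from a toric subgroup `Tor` and an involution `c`;
* (K4, `r = 2`)  types from two arbitrary subgroups `T₁`, `T₂`;
* (K5) the invariants of all torsion levels are uniformly bounded when the invariants are
  finitely generated.
-/
import Fermat.Agent.S15.helper4190_FlagCount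

set_option autoImplicit false

namespace Fermat.Agent.S15.helper4190

section Steps

variable {G : Type*} {J : Type*} [Group G] [AddCommGroup J] [DistribMulAction G J]

/-- A stable step of index `2` carries the trivial action. -/
theorem smul_sub_mem_of_step_two {F F' : AddSubgroup J} (hs : IsStable G F)
    (hs' : IsStable G F') (hstep : F.relIndex F' = 2) (s : G) {y : J} (hy : y ∈ F') :
    s • y - y ∈ F := by
  have hidx : (F.addSubgroupOf F').index = 2 := hstep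
  have hsy : s • y ∈ F' := hs' s y hy
  have h := AddSubgroup.add_mem_iff_of_index_two hidx
    (a := (⟨s • y, hsy⟩ : ↥F')) (b := (⟨-y, F'.neg_mem hy⟩ : ↥F'))
  rw [AddSubgroup.mem_addSubgroupOf, AddSubgroup.mem_addSubgroupOf,
    AddSubgroup.mem_addSubgroupOf] at h
  have h1 : s • y - y ∈ F ↔ (s • y ∈ F ↔ -y ∈ F) := by
    rw [sub_eq_add_neg]
    exact h
  rw [h1, neg_mem_iff]
  constructor
  · intro h2
    have h3 := hs s⁻¹ _ h2
    rwa [inv_smul_smul] at h3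
  · exact hs s y

/-- A stable step of index `2` has `kerIdx = 2`. -/
theorem kerIdx_eq_two_of_step {F F' : AddSubgroup J} (hs : IsStable G F)
    (hs' : IsStable G F') (hstep : F.relIndex F' = 2) : kerIdx G F F' = 2 := by
  rw [kerIdx_eq_relIndex_of_trivial (fun s y hy => smul_sub_mem_of_step_two hs hs' hstep s hy),
    hstep]

/-- On a step of odd prime index an involution cannot act both by `+1` and by `-1`. -/
theorem not_plus_and_minus {r : ℕ} (hr : r.Prime) (hr2 : r ≠ 2) {F F' : AddSubgroup J}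
    (hstep : F.relIndex F' = r) (c : J →+ J)
    (hplus : ∀ y ∈ F', c y - y ∈ F) (hminus : ∀ y ∈ F', c y + y ∈ F) : False := by
  have hodd : r % 2 = 1 := by
    rcases hr.eq_two_or_odd with h | h
    · exact absurd h hr2
    · exact h
  have hle : F' ≤ F := by
    intro y hy
    have h2y : 2 • y ∈ F := by
      have : 2 • y = (c y + y) - (c y - y) := by rw [two_nsmul]; abel
      rw [this]
      exact F.sub_mem (hminus y hy) (hplus y hy)
    have hry : r • y ∈ F := nsmul_mem_of_step hstep hy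
    have hyy : y = r • y - (r / 2) • (2 • y) := by
      rw [← mul_nsmul, eq_sub_iff_add_eq, ← succ_nsmul']
      congr 1
      omega
    rw [hyy]
    exact F.sub_mem hry (F.nsmul_mem h2y _)
  have h1 := AddSubgroup.relIndex_eq_one.mpr hle
  rw [hstep] at h1
  exact hr.one_lt.ne' h1

end Steps

section Orders

variable {G : Type*} {J : Type*} [Group G] [AddCommGroup J] [DistribMulAction G J]

open Classical in
theorem ncard_add_ncard_not (P : ℕ → Prop) (L : ℕ) :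
    Set.ncard {i | i < L ∧ P i} + Set.ncard {i | i < L ∧ ¬ P i} = L := by
  induction L with
  | zero => rw [ncard_lt_zero, ncard_lt_zero]
  | succ L ih =>
    rw [ncard_lt_succ, ncard_lt_succ]
    by_cases h : P L
    · rw [if_pos h, if_neg (not_not.mpr h)]
      omega
    · rw [if_neg h, if_pos h]
      omega

/-- (K4, `r` odd) The bound from two subgroup orders.  Types: a step is *toric* when it meets
`Tor` in a new point; by (JH) every step is either `G`-trivial or `c` acts on it by `-1`.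
Step inputs: cokernel `≤ 1` off toric steps, `≤ r` always. Count input: one inequality between
the orders of `F L ⊓ Tor` and of the `c`-fixed points of `F L`. -/
theorem pow_smul_mem_of_orders {r : ℕ} (hr : r.Prime) (hr2 : r ≠ 2) (F : ℕ → AddSubgroup J)
    (hmono : Monotone F) (hst : ∀ i, IsStable G (F i)) (h0 : F 0 = ⊥) (L k : ℕ)
    [Finite ↥(F L)] (hk : ∀ w ∈ F L, r ^ k • w = 0)
    (hstep : ∀ i < L, (F i).relIndex (F (i + 1)) = r)
    (Tor : AddSubgroup J) (c : J →+ J) (hc2 : ∀ y, c (c y) = y)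
    (hcF : ∀ i, ∀ y ∈ F i, c y ∈ F i)
    (htype : ∀ i < L, (∀ (s : G), ∀ y ∈ F (i + 1), s • y - y ∈ F i) ∨
      (∀ y ∈ F (i + 1), c y + y ∈ F i))
    (hcok0 : ∀ i < L, cokIdx G (F i) (F (i + 1)) ≠ 0)
    (hcokNT : ∀ i < L, F (i + 1) ⊓ Tor ≤ F i → cokIdx G (F i) (F (i + 1)) ≤ 1)
    (hcokT : ∀ i < L, cokIdx G (F i) (F (i + 1)) ≤ r)
    (B0 B' : ℕ)
    (hord : Nat.card ↥(F L ⊓ Tor) ≤ r ^ B' * Nat.card ↥(F L ⊓ fixPts c))
    (hinv : Nat.card ↥(relInv G (⊥ : AddSubgroup J) ⊓ F L) ≤ r ^ B0) :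
    ∀ u ∈ relInv G (F L), r ^ (B0 + B') • u ∈ relInv G (⊥ : AddSubgroup J) ⊔ F L := by
  refine pow_smul_mem_of_table hr F hmono hst h0 L k hk
    (fun i => ∀ y ∈ F (i + 1), c y - y ∈ F i) (fun i => ¬ (F (i + 1) ⊓ Tor ≤ F i))
    hcok0 ?_ ?_ ?_ ?_ B0 B' ?_ hinv
  · intro i hi h
    exact hcokNT i hi (not_not.mp h)
  · intro i hi _
    exact hcokT i hi
  · intro i hi
    refine kerIdx_ne_zero (hmono (Nat.le_succ i)) (hst i) ?_
    rw [hstep i hi]
    exact hr.ne_zero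
  · intro i hi htriv
    rcases htype i hi with h | h
    · rw [kerIdx_eq_relIndex_of_trivial h, hstep i hi]
    · exact absurd (not_plus_and_minus hr hr2 (hstep i hi) c htriv h) id
  · have h1 := card_inf_eq_pow_jumps hr F hmono h0 L hstep Tor
    have h2 := card_fixPts_eq_pow hr hr2 F hmono h0 L hstep c hc2 hcF
    rw [h1, h2, ← pow_add] at hord
    have h3 := (Nat.pow_le_pow_iff_right hr.one_lt).mp hord
    omega

/-- (K4, `r` odd), complex conjugation given as an element of the group. -/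
theorem pow_smul_mem_of_orders' {r : ℕ} (hr : r.Prime) (hr2 : r ≠ 2) (F : ℕ → AddSubgroup J)
    (hmono : Monotone F) (hst : ∀ i, IsStable G (F i)) (h0 : F 0 = ⊥) (L k : ℕ)
    [Finite ↥(F L)] (hk : ∀ w ∈ F L, r ^ k • w = 0)
    (hstep : ∀ i < L, (F i).relIndex (F (i + 1)) = r)
    (Tor : AddSubgroup J) (c : G) (hc2 : c * c = 1)
    (htype : ∀ i < L, (∀ (s : G), ∀ y ∈ F (i + 1), s • y - y ∈ F i) ∨
      (∀ y ∈ F (i + 1), c • y + y ∈ F i))
    (hcok0 : ∀ i < L, cokIdx G (F i) (F (i + 1)) ≠ 0)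
    (hcokNT : ∀ i < L, F (i + 1) ⊓ Tor ≤ F i → cokIdx G (F i) (F (i + 1)) ≤ 1)
    (hcokT : ∀ i < L, cokIdx G (F i) (F (i + 1)) ≤ r)
    (B0 B' : ℕ)
    (hord : Nat.card ↥(F L ⊓ Tor) ≤
      r ^ B' * Nat.card ↥(F L ⊓ fixPts (DistribSMul.toAddMonoidHom J c)))
    (hinv : Nat.card ↥(relInv G (⊥ : AddSubgroup J) ⊓ F L) ≤ r ^ B0) :
    ∀ u ∈ relInv G (F L), r ^ (B0 + B') • u ∈ relInv G (⊥ : AddSubgroup J) ⊔ F L := by
  refine pow_smul_mem_of_orders hr hr2 F hmono hst h0 L k hk hstep Tor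
    (DistribSMul.toAddMonoidHom J c) ?_ ?_ htype hcok0 hcokNT hcokT B0 B' hord hinv
  · intro y
    show c • c • y = y
    rw [smul_smul, hc2, one_smul]
  · intro i y hy
    exact hst i c y hy

/-- (K4, `r = 2`) The bound from two subgroup orders. Types: a step is a `T₁`-jump (resp.
`T₂`-jump) when it meets `T₁` (resp. `T₂`) in a new point. Step inputs: cokernel `≤ 1` without
jumps, `≤ 2` with at most one kind of jump, `≤ 4` always. Count input: one inequality.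
(`T₁ = Tor`, and `T₂` = the kernel of reduction at `2`, or the fixed points of complex
conjugation.) -/
theorem pow_smul_mem_of_orders_two (F : ℕ → AddSubgroup J)
    (hmono : Monotone F) (hst : ∀ i, IsStable G (F i)) (h0 : F 0 = ⊥) (L k : ℕ)
    [Finite ↥(F L)] (hk : ∀ w ∈ F L, 2 ^ k • w = 0)
    (hstep : ∀ i < L, (F i).relIndex (F (i + 1)) = 2)
    (T₁ T₂ : AddSubgroup J)
    (hcok0 : ∀ i < L, cokIdx G (F i) (F (i + 1)) ≠ 0)
    (h1 : ∀ i < L, F (i + 1) ⊓ T₁ ≤ F i → F (i + 1) ⊓ T₂ ≤ F i →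
      cokIdx G (F i) (F (i + 1)) ≤ 1)
    (h2 : ∀ i < L, F (i + 1) ⊓ T₂ ≤ F i → cokIdx G (F i) (F (i + 1)) ≤ 2)
    (h3 : ∀ i < L, F (i + 1) ⊓ T₁ ≤ F i → cokIdx G (F i) (F (i + 1)) ≤ 2)
    (h4 : ∀ i < L, cokIdx G (F i) (F (i + 1)) ≤ 4)
    (B0 B' : ℕ)
    (hord : Nat.card ↥(F L ⊓ T₁) * Nat.card ↥(F L ⊓ T₂) ≤ 2 ^ (L + B'))
    (hinv : Nat.card ↥(relInv G (⊥ : AddSubgroup J) ⊓ F L) ≤ 2 ^ B0) :
    ∀ u ∈ relInv G (F L), 2 ^ (B0 + B') • u ∈ relInv G (⊥ : AddSubgroup J) ⊔ F L := by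
  refine pow_smul_mem_of_table_two F hmono hst h0 L k hk
    (fun i => F (i + 1) ⊓ T₂ ≤ F i) (fun i => ¬ (F (i + 1) ⊓ T₁ ≤ F i))
    hcok0 ?_ ?_ ?_ ?_ ?_ B0 B' ?_ hinv
  · intro i hi he ht
    exact h1 i hi (not_not.mp ht) he
  · intro i hi he _
    exact h2 i hi he
  · intro i hi _ ht
    exact h3 i hi (not_not.mp ht)
  · intro i hi _ _
    exact h4 i hi
  · intro i hi
    rw [kerIdx_eq_two_of_step (hst i) (hst (i + 1)) (hstep i hi)]
  · have e1 := card_inf_eq_pow_jumps Nat.prime_two F hmono h0 L hstep T₁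
    have e2 := card_inf_eq_pow_jumps Nat.prime_two F hmono h0 L hstep T₂
    rw [e1, e2, ← pow_add] at hord
    have e3 := (Nat.pow_le_pow_iff_right (by norm_num : 1 < 2)).mp hord
    have e4 := ncard_add_ncard_not (fun i => F (i + 1) ⊓ T₂ ≤ F i) L
    omega

end Orders

section Invariants

variable (G : Type*) {J : Type*} [Group G] [AddCommGroup J] [DistribMulAction G J]

theorem relInv_bot_eq_fixedPoints :
    relInv G (⊥ : AddSubgroup J) = FixedPoints.addSubgroup G J := by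
  ext y
  rw [mem_relInv_bot]
  rfl

/-- The torsion subgroup of a finitely generated abelian group is finite. -/
theorem finite_torsion_of_fg (M : Type*) [AddCommGroup M] [hM : AddGroup.FG M] :
    Finite ↥(AddCommGroup.torsion M) := by
  have h1 : Module.Finite ℤ M := Module.Finite.iff_addGroup_fg.mpr hM
  have h2 : IsNoetherian ℤ M := isNoetherian_of_isNoetherianRing_of_finite ℤ M
  have h3 : (AddSubgroup.toIntSubmodule (AddCommGroup.torsion M)).FG :=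
    IsNoetherian.noetherian _
  have h4 : Module.Finite ℤ ↥(AddSubgroup.toIntSubmodule (AddCommGroup.torsion M)) :=
    Module.Finite.iff_fg.mpr h3
  have h5 : AddGroup.FG ↥(AddCommGroup.torsion M) := Module.Finite.iff_addGroup_fg.mp h4
  refine AddCommGroup.finite_of_fg_isAddTorsion _ ?_
  intro x
  have hx : IsOfFinAddOrder (x : M) := x.2
  obtain ⟨n, hn, hnx⟩ := isOfFinAddOrder_iff_nsmul_eq_zero.mp hx
  rw [isOfFinAddOrder_iff_nsmul_eq_zero]
  refine ⟨n, hn, ?_⟩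
  apply Subtype.ext
  rw [AddSubgroup.coe_nsmul]
  exact hnx

/-- (K5) If the invariants are finitely generated, the invariants of any torsion subgroup are
bounded by a constant that does not depend on the subgroup. -/
theorem exists_bound_card_inv (hfg : AddGroup.FG ↥(relInv G (⊥ : AddSubgroup J))) :
    ∃ B0 : ℕ, ∀ r : ℕ, 1 < r → ∀ W : AddSubgroup J,
      (∀ w ∈ W, ∃ n : ℕ, 0 < n ∧ n • w = 0) →
        Nat.card ↥(relInv G (⊥ : AddSubgroup J) ⊓ W) ≤ r ^ B0 := by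
  have hfin : Finite ↥(AddCommGroup.torsion ↥(relInv G (⊥ : AddSubgroup J))) :=
    finite_torsion_of_fg _
  refine ⟨Nat.card ↥(AddCommGroup.torsion ↥(relInv G (⊥ : AddSubgroup J))), ?_⟩
  intro r hr W hW
  have hmem : ∀ x : ↥(relInv G (⊥ : AddSubgroup J) ⊓ W),
      (⟨x.1, x.2.1⟩ : ↥(relInv G (⊥ : AddSubgroup J))) ∈
        AddCommGroup.torsion ↥(relInv G (⊥ : AddSubgroup J)) := by
    intro x
    obtain ⟨n, hn, hnx⟩ := hW x.1 x.2.2
    rw [AddCommGroup.mem_torsion, isOfFinAddOrder_iff_nsmul_eq_zero]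
    refine ⟨n, hn, ?_⟩
    apply Subtype.ext
    rw [AddSubgroup.coe_nsmul]
    exact hnx
  let φ : ↥(relInv G (⊥ : AddSubgroup J) ⊓ W) →
      ↥(AddCommGroup.torsion ↥(relInv G (⊥ : AddSubgroup J))) :=
    fun x => ⟨⟨x.1, x.2.1⟩, hmem x⟩
  have hφ : Function.Injective φ := by
    intro x x' h
    apply Subtype.ext
    have h1 := congrArg (fun t : ↥(AddCommGroup.torsion ↥(relInv G (⊥ : AddSubgroup J))) =>
      ((t : ↥(relInv G (⊥ : AddSubgroup J))) : J)) h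
    exact h1
  calc Nat.card ↥(relInv G (⊥ : AddSubgroup J) ⊓ W)
      ≤ Nat.card ↥(AddCommGroup.torsion ↥(relInv G (⊥ : AddSubgroup J))) :=
        Nat.card_le_card_of_injective φ hφ
    _ ≤ r ^ Nat.card ↥(AddCommGroup.torsion ↥(relInv G (⊥ : AddSubgroup J))) :=
        (Nat.lt_pow_self hr).le

/-- (K5') The same from `FixedPoints.addSubgroup` (the shape of the landed S17). -/
theorem exists_bound_card_inv' (hfg : AddGroup.FG ↥(FixedPoints.addSubgroup G J)) :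
    ∃ B0 : ℕ, ∀ r : ℕ, 1 < r → ∀ W : AddSubgroup J,
      (∀ w ∈ W, ∃ n : ℕ, 0 < n ∧ n • w = 0) →
        Nat.card ↥(relInv G (⊥ : AddSubgroup J) ⊓ W) ≤ r ^ B0 := by
  apply exists_bound_card_inv
  rw [relInv_bot_eq_fixedPoints]
  exact hfg

end Invariants

section Decomp

variable {G : Type*} {J : Type*} [Group G] [AddCommGroup J] [DistribMulAction G J]

/-- (K6, `r` odd) (K4) + (E1): the pointwise decomposition `E D = τ + r ^ (k - B) • x`. -/
theorem exists_decomp_of_orders {r : ℕ} (hr : r.Prime) (hr2 : r ≠ 2) (F : ℕ → AddSubgroup J)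
    (hmono : Monotone F) (hst : ∀ i, IsStable G (F i)) (h0 : F 0 = ⊥) (L k : ℕ)
    [Finite ↥(F L)] (hk : ∀ w ∈ F L, r ^ k • w = 0)
    (hstep : ∀ i < L, (F i).relIndex (F (i + 1)) = r)
    (Tor : AddSubgroup J) (c : J →+ J) (hc2 : ∀ y, c (c y) = y)
    (hcF : ∀ i, ∀ y ∈ F i, c y ∈ F i)
    (htype : ∀ i < L, (∀ (s : G), ∀ y ∈ F (i + 1), s • y - y ∈ F i) ∨
      (∀ y ∈ F (i + 1), c y + y ∈ F i))
    (hcok0 : ∀ i < L, cokIdx G (F i) (F (i + 1)) ≠ 0)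
    (hcokNT : ∀ i < L, F (i + 1) ⊓ Tor ≤ F i → cokIdx G (F i) (F (i + 1)) ≤ 1)
    (hcokT : ∀ i < L, cokIdx G (F i) (F (i + 1)) ≤ r)
    (B0 B' : ℕ)
    (hord : Nat.card ↥(F L ⊓ Tor) ≤ r ^ B' * Nat.card ↥(F L ⊓ fixPts c))
    (hinv : Nat.card ↥(relInv G (⊥ : AddSubgroup J) ⊓ F L) ≤ r ^ B0)
    (hBk : B0 + B' ≤ k)
    (E : J →+ J) (hE : ∀ (s : G) (y : J), E (s • y) = s • E y)
    (hEW : ∀ t : J, r ^ k • t = 0 → E t ∈ F L)
    {D y : J} (hD : ∀ s : G, s • D = D) (hy : r ^ k • y = D) :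
    ∃ τ x : J, (∀ s : G, s • τ = τ) ∧ (∀ s : G, s • x = x) ∧ r ^ (B0 + B') • τ = 0 ∧
      E D = τ + r ^ (k - (B0 + B')) • x :=
  exists_decomp hBk (F L) hk E hE hEW
    (pow_smul_mem_of_orders hr hr2 F hmono hst h0 L k hk hstep Tor c hc2 hcF htype hcok0
      hcokNT hcokT B0 B' hord hinv) hD hy

/-- (K6, `r = 2`) (K4) + (E1). -/
theorem exists_decomp_of_orders_two (F : ℕ → AddSubgroup J)
    (hmono : Monotone F) (hst : ∀ i, IsStable G (F i)) (h0 : F 0 = ⊥) (L k : ℕ)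
    [Finite ↥(F L)] (hk : ∀ w ∈ F L, 2 ^ k • w = 0)
    (hstep : ∀ i < L, (F i).relIndex (F (i + 1)) = 2)
    (T₁ T₂ : AddSubgroup J)
    (hcok0 : ∀ i < L, cokIdx G (F i) (F (i + 1)) ≠ 0)
    (h1 : ∀ i < L, F (i + 1) ⊓ T₁ ≤ F i → F (i + 1) ⊓ T₂ ≤ F i →
      cokIdx G (F i) (F (i + 1)) ≤ 1)
    (h2 : ∀ i < L, F (i + 1) ⊓ T₂ ≤ F i → cokIdx G (F i) (F (i + 1)) ≤ 2)
    (h3 : ∀ i < L, F (i + 1) ⊓ T₁ ≤ F i → cokIdx G (F i) (F (i + 1)) ≤ 2)
    (h4 : ∀ i < L, cokIdx G (F i) (F (i + 1)) ≤ 4)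
    (B0 B' : ℕ)
    (hord : Nat.card ↥(F L ⊓ T₁) * Nat.card ↥(F L ⊓ T₂) ≤ 2 ^ (L + B'))
    (hinv : Nat.card ↥(relInv G (⊥ : AddSubgroup J) ⊓ F L) ≤ 2 ^ B0)
    (hBk : B0 + B' ≤ k)
    (E : J →+ J) (hE : ∀ (s : G) (y : J), E (s • y) = s • E y)
    (hEW : ∀ t : J, 2 ^ k • t = 0 → E t ∈ F L)
    {D y : J} (hD : ∀ s : G, s • D = D) (hy : 2 ^ k • y = D) :
    ∃ τ x : J, (∀ s : G, s • τ = τ) ∧ (∀ s : G, s • x = x) ∧ 2 ^ (B0 + B') • τ = 0 ∧
      E D = τ + 2 ^ (k - (B0 + B')) • x :=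
  exists_decomp hBk (F L) hk E hE hEW
    (pow_smul_mem_of_orders_two F hmono hst h0 L k hk hstep T₁ T₂ hcok0 h1 h2 h3 h4 B0 B'
      hord hinv) hD hy

end Decomp

section SquareOrders

variable {G : Type*} {J : Type*} [Group G] [AddCommGroup J] [DistribMulAction G J]

/-- (K7, `r` odd) The bound with no loss, from the two isotropy counts:
`#(W ⊓ Tor)² ≤ #W ≤ #(W^{c = 1})²`. -/
theorem pow_smul_mem_of_sq_orders {r : ℕ} (hr : r.Prime) (hr2 : r ≠ 2) (F : ℕ → AddSubgroup J)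
    (hmono : Monotone F) (hst : ∀ i, IsStable G (F i)) (h0 : F 0 = ⊥) (L k : ℕ)
    [Finite ↥(F L)] (hk : ∀ w ∈ F L, r ^ k • w = 0)
    (hstep : ∀ i < L, (F i).relIndex (F (i + 1)) = r)
    (Tor : AddSubgroup J) (c : J →+ J) (hc2 : ∀ y, c (c y) = y)
    (hcF : ∀ i, ∀ y ∈ F i, c y ∈ F i)
    (htype : ∀ i < L, (∀ (s : G), ∀ y ∈ F (i + 1), s • y - y ∈ F i) ∨
      (∀ y ∈ F (i + 1), c y + y ∈ F i))
    (hcok0 : ∀ i < L, cokIdx G (F i) (F (i + 1)) ≠ 0)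
    (hcokNT : ∀ i < L, F (i + 1) ⊓ Tor ≤ F i → cokIdx G (F i) (F (i + 1)) ≤ 1)
    (hcokT : ∀ i < L, cokIdx G (F i) (F (i + 1)) ≤ r)
    (B0 : ℕ)
    (hT : Nat.card ↥(F L ⊓ Tor) ^ 2 ≤ Nat.card ↥(F L))
    (hc : Nat.card ↥(F L) ≤ Nat.card ↥(F L ⊓ fixPts c) ^ 2)
    (hinv : Nat.card ↥(relInv G (⊥ : AddSubgroup J) ⊓ F L) ≤ r ^ B0) :
    ∀ u ∈ relInv G (F L), r ^ B0 • u ∈ relInv G (⊥ : AddSubgroup J) ⊔ F L := by
  have hord : Nat.card ↥(F L ⊓ Tor) ≤ r ^ 0 * Nat.card ↥(F L ⊓ fixPts c) := by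
    rw [pow_zero, one_mul]
    exact (Nat.pow_le_pow_iff_left (by norm_num : (2 : ℕ) ≠ 0)).mp (hT.trans hc)
  exact pow_smul_mem_of_orders hr hr2 F hmono hst h0 L k hk hstep Tor c hc2 hcF htype hcok0
    hcokNT hcokT B0 0 hord hinv

/-- (K7, `r = 2`) The bound from two half-order estimates with bounded defects. -/
theorem pow_smul_mem_of_sq_orders_two (F : ℕ → AddSubgroup J)
    (hmono : Monotone F) (hst : ∀ i, IsStable G (F i)) (h0 : F 0 = ⊥) (L k : ℕ)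
    [Finite ↥(F L)] (hk : ∀ w ∈ F L, 2 ^ k • w = 0)
    (hstep : ∀ i < L, (F i).relIndex (F (i + 1)) = 2)
    (T₁ T₂ : AddSubgroup J)
    (hcok0 : ∀ i < L, cokIdx G (F i) (F (i + 1)) ≠ 0)
    (h1 : ∀ i < L, F (i + 1) ⊓ T₁ ≤ F i → F (i + 1) ⊓ T₂ ≤ F i →
      cokIdx G (F i) (F (i + 1)) ≤ 1)
    (h2 : ∀ i < L, F (i + 1) ⊓ T₂ ≤ F i → cokIdx G (F i) (F (i + 1)) ≤ 2)
    (h3 : ∀ i < L, F (i + 1) ⊓ T₁ ≤ F i → cokIdx G (F i) (F (i + 1)) ≤ 2)
    (h4 : ∀ i < L, cokIdx G (F i) (F (i + 1)) ≤ 4)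
    (B0 B1 B2 : ℕ)
    (hT₁ : Nat.card ↥(F L ⊓ T₁) ^ 2 ≤ 2 ^ B1 * Nat.card ↥(F L))
    (hT₂ : Nat.card ↥(F L ⊓ T₂) ^ 2 ≤ 2 ^ B2 * Nat.card ↥(F L))
    (hinv : Nat.card ↥(relInv G (⊥ : AddSubgroup J) ⊓ F L) ≤ 2 ^ B0) :
    ∀ u ∈ relInv G (F L), 2 ^ (B0 + (B1 + B2)) • u ∈ relInv G (⊥ : AddSubgroup J) ⊔ F L := by
  have hL := card_eq_pow_of_steps F hmono h0 L hstep
  have hord : Nat.card ↥(F L ⊓ T₁) * Nat.card ↥(F L ⊓ T₂) ≤ 2 ^ (L + (B1 + B2)) := by
    apply (Nat.pow_le_pow_iff_left (by norm_num : (2 : ℕ) ≠ 0)).mp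
    rw [hL] at hT₁ hT₂
    calc (Nat.card ↥(F L ⊓ T₁) * Nat.card ↥(F L ⊓ T₂)) ^ 2
        = Nat.card ↥(F L ⊓ T₁) ^ 2 * Nat.card ↥(F L ⊓ T₂) ^ 2 := mul_pow _ _ _
      _ ≤ (2 ^ B1 * 2 ^ L) * (2 ^ B2 * 2 ^ L) := Nat.mul_le_mul hT₁ hT₂
      _ = 2 ^ (2 * L + (B1 + B2)) := by ring
      _ ≤ 2 ^ (2 * (L + (B1 + B2))) := Nat.pow_le_pow_right (by norm_num) (by omega)
      _ = (2 ^ (L + (B1 + B2))) ^ 2 := by rw [mul_comm, pow_mul]
  exact pow_smul_mem_of_orders_two F hmono hst h0 L k hk hstep T₁ T₂ hcok0 h1 h2 h3 h4 B0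
    (B1 + B2) hord hinv

end SquareOrders

section JHType

variable {G : Type*} {J : Type*} [Group G] [AddCommGroup J] [DistribMulAction G J]

/-- On a step of index `r` on which `c` acts through an exponent `m ≡ -1 (mod r)`, `c` acts
by `-1`. -/
theorem add_mem_of_chi_type {r : ℕ} {F F' : AddSubgroup J} (hstep : F.relIndex F' = r)
    (c : J →+ J) (m : ℕ) (hm : r ∣ m + 1) (h : ∀ y ∈ F', c y - m • y ∈ F) :
    ∀ y ∈ F', c y + y ∈ F := by
  intro y hy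
  obtain ⟨d, hd⟩ := hm
  have h1 : c y + y = (c y - m • y) + d • (r • y) := by
    rw [← mul_nsmul', mul_comm d r, ← hd, succ_nsmul]
    abel
  rw [h1]
  exact F.add_mem (h y hy) (F.nsmul_mem (nsmul_mem_of_step hstep hy) d)

/-- (K7, `r` odd, (JH) form) The bound for a flag whose steps are trivial or cyclotomic, the
cyclotomic type being given by an exponent function `e` with `e c ≡ -1 (mod r)` at the
involution `c : G` (complex conjugation). -/
theorem pow_smul_mem_of_sq_orders_jh {r : ℕ} (hr : r.Prime) (hr2 : r ≠ 2)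
    (F : ℕ → AddSubgroup J) (hmono : Monotone F) (hst : ∀ i, IsStable G (F i)) (h0 : F 0 = ⊥)
    (L k : ℕ) [Finite ↥(F L)] (hk : ∀ w ∈ F L, r ^ k • w = 0)
    (hstep : ∀ i < L, (F i).relIndex (F (i + 1)) = r)
    (Tor : AddSubgroup J) (e : G → ℕ) (c : G) (hc2 : c * c = 1) (hec : r ∣ e c + 1)
    (htype : ∀ i < L, (∀ (s : G), ∀ y ∈ F (i + 1), s • y - y ∈ F i) ∨
      (∀ (s : G), ∀ y ∈ F (i + 1), s • y - e s • y ∈ F i))
    (hcok0 : ∀ i < L, cokIdx G (F i) (F (i + 1)) ≠ 0)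
    (hcokNT : ∀ i < L, F (i + 1) ⊓ Tor ≤ F i → cokIdx G (F i) (F (i + 1)) ≤ 1)
    (hcokT : ∀ i < L, cokIdx G (F i) (F (i + 1)) ≤ r)
    (B0 : ℕ)
    (hT : Nat.card ↥(F L ⊓ Tor) ^ 2 ≤ Nat.card ↥(F L))
    (hc : Nat.card ↥(F L) ≤ Nat.card ↥(F L ⊓ fixPts (DistribSMul.toAddMonoidHom J c)) ^ 2)
    (hinv : Nat.card ↥(relInv G (⊥ : AddSubgroup J) ⊓ F L) ≤ r ^ B0) :
    ∀ u ∈ relInv G (F L), r ^ B0 • u ∈ relInv G (⊥ : AddSubgroup J) ⊔ F L := by
  refine pow_smul_mem_of_sq_orders hr hr2 F hmono hst h0 L k hk hstep Tor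
    (DistribSMul.toAddMonoidHom J c) ?_ ?_ ?_ hcok0 hcokNT hcokT B0 hT hc hinv
  · intro y
    show c • c • y = y
    rw [smul_smul, hc2, one_smul]
  · intro i y hy
    exact hst i c y hy
  · intro i hi
    rcases htype i hi with h | h
    · exact Or.inl h
    · exact Or.inr (add_mem_of_chi_type (hstep i hi) (DistribSMul.toAddMonoidHom J c) (e c) hec
        (fun y hy => h c y hy))

end JHType

end Fermat.Agent.S15.helper4190
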