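/-
STEP-COORD for the Mazur block (S15): the step coordinates of a Galois-stable flag, from the
type of the step only.  A step of prime index `r` with trivial action gets a `ZMod r`-valued
coordinate (`TrivStep`), a step on which Galois acts through the `r`-th roots of unity gets a
root-of-unity valued coordinate (`ChiStep`).  This is the seam between the (JH) flags
(`trivial ∨ acts by χ`) and the step-class dictionary of `helper7259_StepClass`.
-/
import Fermat.Agent.S15.helper7259_StepClass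
import Fermat.Prelude.Def_ExtCitation_KummerBridge

set_option autoImplicit false

namespace Fermat.Agent.S15.helper4190

open Fermat.Agent.S15.helper7259

section Coord

variable {J : Type*} [AddCommGroup J]

/-- A `ZMod r`-valued additive coordinate of a step of prime index, with kernel the bottom of
the step. -/
theorem exists_coord {r : ℕ} (hr : r.Prime) {F F' : AddSubgroup J}
    (hidx : F.relIndex F' = r) :
    ∃ ψ : J → ZMod r, (∀ x ∈ F', ∀ x' ∈ F', ψ (x + x') = ψ x + ψ x') ∧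
      (∀ x ∈ F', ψ x = 0 ↔ x ∈ F) := by
  classical
  have : Fact r.Prime := ⟨hr⟩
  have hcard : Nat.card (↥F' ⧸ F.addSubgroupOf F') = r := by
    rw [← AddSubgroup.index_eq_card]
    exact hidx
  have hcyc : IsAddCyclic (↥F' ⧸ F.addSubgroupOf F') := isAddCyclic_of_prime_card hcard
  let e' : (↥F' ⧸ F.addSubgroupOf F') ≃+ ZMod r :=
    (zmodAddCyclicAddEquiv hcyc).symm.trans (ZMod.ringEquivCongr hcard).toAddEquiv
  refine ⟨fun x => if h : x ∈ F' then
    e' (QuotientAddGroup.mk (⟨x, h⟩ : ↥F')) else 0, ?_, ?_⟩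
  · intro x hx x' hx'
    simp only [dif_pos hx, dif_pos hx', dif_pos (F'.add_mem hx hx')]
    rw [← map_add]
    rfl
  · intro x hx
    simp only [dif_pos hx]
    rw [AddEquiv.map_eq_zero_iff, QuotientAddGroup.eq_zero_iff]
    rfl

/-- The coordinate of a multiple. -/
theorem coord_nsmul {r : ℕ} {F' : AddSubgroup J} {ψ : J → ZMod r}
    (hadd : ∀ x ∈ F', ∀ x' ∈ F', ψ (x + x') = ψ x + ψ x') {x : J} (hx : x ∈ F') (n : ℕ) :
    ψ (n • x) = (n : ZMod r) * ψ x := by
  have h0 : ψ 0 = 0 := by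
    have h := hadd 0 F'.zero_mem 0 F'.zero_mem
    rw [add_zero] at h
    exact left_eq_add.mp h
  induction n with
  | zero => rw [zero_nsmul, h0, Nat.cast_zero, zero_mul]
  | succ n ih =>
    rw [succ_nsmul, hadd _ (F'.nsmul_mem hx n) _ hx, ih, Nat.cast_succ, add_mul, one_mul]

end Coord

section Steps

variable {J : Type*} [AddCommGroup J] [DistribMulAction GQ J]

/-- (STEP-COORD, trivial type) A stable step of prime index with trivial Galois action is a
`TrivStep`. -/
theorem exists_trivStep {r : ℕ} (hr : r.Prime) {F F' : AddSubgroup J} (hle : F ≤ F')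
    (hst' : ∀ (σ : GQ), ∀ x ∈ F', σ • x ∈ F') (hidx : F.relIndex F' = r)
    (htriv : ∀ (σ : GQ), ∀ y ∈ F', σ • y - y ∈ F) : ∃ ψ : J → ZMod r, TrivStep r F F' ψ := by
  obtain ⟨ψ, hadd, hker⟩ := exists_coord hr hidx
  refine ⟨ψ, hle, hst', hadd, ?_, hker⟩
  intro σ x hx
  have h2 : σ • x - x ∈ F := htriv σ x hx
  have h1 : ψ (σ • x) = ψ ((σ • x - x) + x) := by rw [sub_add_cancel]
  rw [h1, hadd _ (hle h2) _ hx, (hker _ (hle h2)).mpr h2, zero_add]

/-- (STEP-COORD, cyclotomic type) A stable step of prime index on which Galois acts through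
the exponent `e` of its action on the `r`-th roots of unity is a `ChiStep`. -/
theorem exists_chiStep {r : ℕ} (hr : r.Prime) {F F' : AddSubgroup J} (hle : F ≤ F')
    (hst' : ∀ (σ : GQ), ∀ x ∈ F', σ • x ∈ F') (hidx : F.relIndex F' = r)
    (e : GQ → ℕ) (he : ∀ (σ : GQ) (ζ : Qb), ζ ^ r = 1 → σ ζ = ζ ^ e σ)
    (hchi : ∀ (σ : GQ), ∀ y ∈ F', σ • y - e σ • y ∈ F) : ∃ φ : J → Qb, ChiStep r F F' φ := by
  obtain ⟨ψ, hadd, hker⟩ := exists_coord hr hidx
  have : NeZero r := ⟨hr.ne_zero⟩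
  have : NeZero (r : Qb) := ⟨Nat.cast_ne_zero.mpr hr.ne_zero⟩
  obtain ⟨ζ, hζ⟩ := HasEnoughRootsOfUnity.exists_primitiveRoot Qb r
  have hζr : ζ ^ r = 1 := hζ.pow_eq_one
  refine ⟨fun x => ζ ^ (ψ x).val, hle, hst', ?_, ?_, ?_, ?_⟩
  · intro x hx x' hx'
    show ζ ^ (ψ (x + x')).val = ζ ^ (ψ x).val * ζ ^ (ψ x').val
    rw [hadd x hx x' hx', ZMod.val_add, ← pow_add, ← pow_eq_pow_mod _ hζr]
  · intro x _
    show (ζ ^ (ψ x).val) ^ r = 1
    rw [← pow_mul, mul_comm, pow_mul, hζr, one_pow]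
  · intro σ x hx
    show ζ ^ (ψ (σ • x)).val = σ (ζ ^ (ψ x).val)
    have h2 : σ • x - e σ • x ∈ F := hchi σ x hx
    have h3 : ψ (σ • x) = (e σ : ZMod r) * ψ x := by
      have h1 : ψ (σ • x) = ψ ((σ • x - e σ • x) + e σ • x) := by rw [sub_add_cancel]
      rw [h1, hadd _ (hle h2) _ (F'.nsmul_mem hx _), (hker _ (hle h2)).mpr h2, zero_add,
        coord_nsmul hadd hx]
    rw [h3, map_pow, he σ ζ hζr, ← pow_mul, ZMod.val_mul, ZMod.val_natCast,
      pow_eq_pow_mod (e σ * (ψ x).val) hζr, Nat.mod_mul_mod]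
  · intro x hx
    show ζ ^ (ψ x).val = 1 ↔ x ∈ F
    rw [← hker x hx, hζ.pow_eq_one_iff_dvd]
    constructor
    · intro h
      have hlt : (ψ x).val < r := ZMod.val_lt _
      exact (ZMod.val_eq_zero _).mp (Nat.eq_zero_of_dvd_of_lt h hlt)
    · intro h
      rw [h, ZMod.val_zero]
      exact dvd_zero r

end Steps

section Flag

variable {J : Type*} [AddCommGroup J] [DistribMulAction GQ J]

/-- (STEP-COORD, flag form) Every step of a stable flag with steps of prime index `r`, each of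
trivial or cyclotomic type, has a step coordinate. -/
theorem exists_step_coords {r : ℕ} (hr : r.Prime) (F : ℕ → AddSubgroup J) (hmono : Monotone F)
    (hst : ∀ (i : ℕ) (σ : GQ), ∀ y ∈ F i, σ • y ∈ F i) (L : ℕ)
    (hstep : ∀ i < L, (F i).relIndex (F (i + 1)) = r)
    (e : GQ → ℕ) (he : ∀ (σ : GQ) (ζ : Qb), ζ ^ r = 1 → σ ζ = ζ ^ e σ)
    (htype : ∀ i < L, (∀ (σ : GQ), ∀ y ∈ F (i + 1), σ • y - y ∈ F i) ∨
      (∀ (σ : GQ), ∀ y ∈ F (i + 1), σ • y - e σ • y ∈ F i)) :
    ∀ i < L, (∃ ψ : J → ZMod r, TrivStep r (F i) (F (i + 1)) ψ) ∨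
      (∃ φ : J → Qb, ChiStep r (F i) (F (i + 1)) φ) := by
  intro i hi
  rcases htype i hi with h | h
  · exact Or.inl (exists_trivStep hr (hmono (Nat.le_succ i)) (hst (i + 1)) (hstep i hi) h)
  · exact Or.inr (exists_chiStep hr (hmono (Nat.le_succ i)) (hst (i + 1)) (hstep i hi) e he h)

/-- The Prelude exponent `ExtCitation.cycloExp r` is the exponent of the action on the `r`-th
roots of unity (the hypothesis `he` of `exists_chiStep`). -/
theorem cycloExp_spec (r : ℕ) [Fact r.Prime] (σ : GQ) (ζ : Qb) (hζ : ζ ^ r = 1) :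
    σ ζ = ζ ^ ExtCitation.cycloExp r σ := by
  have : NeZero r := ⟨(Fact.out : r.Prime).ne_zero⟩
  have hζ0 : ζ ≠ 0 := by
    rintro rfl
    rw [zero_pow (NeZero.ne r)] at hζ
    exact zero_ne_one hζ
  have ht : Units.mk0 ζ hζ0 ∈ rootsOfUnity r Qb := by
    rw [mem_rootsOfUnity]
    apply Units.ext
    rw [Units.val_pow_eq_pow_val, Units.val_mk0, Units.val_one]
    exact hζ
  have h := modularCyclotomicCharacter.spec Qb (ExtCitation.card_rootsOfUnity_eq_self r)
    (σ : Qb ≃+* Qb) ht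
  exact h

/-- (STEP-COORD, Prelude form) the same with the cyclotomic type stated through a natural
exponent `m` of `ExtCitation.cycloChar r` (the `type` field of the (JH) flags). -/
theorem exists_step_coords_cyclo (r : ℕ) [hr : Fact r.Prime] (F : ℕ → AddSubgroup J)
    (hmono : Monotone F) (hst : ∀ (i : ℕ) (σ : GQ), ∀ y ∈ F i, σ • y ∈ F i) (L : ℕ)
    (hstep : ∀ i < L, (F i).relIndex (F (i + 1)) = r)
    (htype : ∀ i < L, (∀ (σ : GQ), ∀ y ∈ F (i + 1), σ • y - y ∈ F i) ∨
      (∀ (σ : GQ) (m : ℕ), (m : ZMod r) = ExtCitation.cycloChar r σ →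
        ∀ y ∈ F (i + 1), σ • y - m • y ∈ F i)) :
    ∀ i < L, (∃ ψ : J → ZMod r, TrivStep r (F i) (F (i + 1)) ψ) ∨
      (∃ φ : J → Qb, ChiStep r (F i) (F (i + 1)) φ) := by
  refine exists_step_coords hr.out F hmono hst L hstep (ExtCitation.cycloExp r)
    (cycloExp_spec r) ?_
  intro i hi
  rcases htype i hi with h | h
  · exact Or.inl h
  · exact Or.inr (fun σ y hy => h σ _ (ExtCitation.coe_cycloChar r σ).symm y hy)

end Flag

end Fermat.Agent.S15.helper4190
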