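import Mathlib

set_option autoImplicit false

/-!
# Abstract core of the arrow `(DIV) ⟸ (KUM) + (BND)` of the Mazur block (helper8205)

Mathlib-only.  Subgroup language (no quotient types, no cocycles).

* `exists_primary_projector` : a commutative ring `T` acting on a module `J`, `V` a finite
  `T`-submodule, `P` an ideal: there is `t ∈ 1 + P` mapping `V` into its `P^n`-torsion and
  acting as the identity on the `P`-primary part of `V`.
* `primaryPart P r k` : the `P`-primary part of the `r^k`-torsion of `J`.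
* `div_of_bnd` : if `J` is `r`-divisible with finite `r^k`-torsion and the cokernels of
  `J^G → (J / primaryPart P r k)^G` are killed by `e * m` (`e ∣ r ^ j`) for every `k`, then for
  every `k` and every `G`-fixed `D` there are `t ∈ m + P` and `G`-fixed `τ`, `z` with `e • τ = 0`
  and `t • D = τ + r ^ k • z`.
-/

namespace Fermat.Agent.S15.helper8205

section Projector

variable {T : Type*} [CommRing T] {J : Type*} [AddCommGroup J] [Module T J]

/-- **Primary projector.**  `V` a finite `T`-submodule of `J` and `P` an ideal of `T`.  There are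
`t ∈ 1 + P` and `n` such that `t • V` is killed by `P ^ n`, and `t` is the identity on every
element of `V` killed by some power of `P`. -/
theorem exists_primary_projector (V : Submodule T J) (hV : (V : Set J).Finite) (P : Ideal T) :
    ∃ (t : T) (n : ℕ), t - 1 ∈ P ∧ (∀ v ∈ V, ∀ a ∈ P ^ n, a • t • v = 0) ∧
      (∀ v ∈ V, (∃ m : ℕ, ∀ a ∈ P ^ m, a • v = 0) → t • v = v) := by
  classical
  have : Finite V := hV.to_subtype
  set A : Ideal T := Module.annihilator T V with hA
  have hAmem : ∀ {a : T}, a ∈ A → ∀ v ∈ V, a • v = 0 := by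
    intro a ha v hv
    have := (Module.mem_annihilator.mp ha) ⟨v, hv⟩
    simpa using congrArg Subtype.val this
  -- the quotient ring is finite
  have : Finite (AddMonoid.End V) :=
    Finite.of_injective (fun f : AddMonoid.End V => (f : V → V)) DFunLike.coe_injective
  have : Finite (T ⧸ A) := by
    have hinj : Function.Injective (RingHom.kerLift (Module.toAddMonoidEnd T V)) :=
      RingHom.kerLift_injective _
    exact Finite.of_injective _ hinj
  set mk : T →+* T ⧸ A := Ideal.Quotient.mk A with hmk
  have hmk_surj : Function.Surjective mk := Ideal.Quotient.mk_surjective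
  set I : Ideal (T ⧸ A) := P.map mk with hI
  -- the powers of `I` stabilise
  obtain ⟨a, hstab⟩ : ∃ a : ℕ, ∀ j : ℕ, I ^ (a + j) = I ^ a := by
    have : Finite (Ideal (T ⧸ A)) := Finite.of_injective (fun K : Ideal (T ⧸ A) => (K : Set (T ⧸ A)))
      SetLike.coe_injective
    obtain ⟨a, b, hab, h⟩ := Finite.exists_ne_map_eq_of_infinite (fun n : ℕ => I ^ n)
    wlog hlt : a < b generalizing a b
    · exact this b a hab.symm h.symm (lt_of_le_of_ne (not_lt.mp hlt) hab.symm)
    refine ⟨a, fun j => ?_⟩
    have h1 : I ^ (a + 1) = I ^ a := by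
      apply le_antisymm (Ideal.pow_le_pow_right (Nat.le_succ a))
      calc I ^ a = I ^ b := h
        _ ≤ I ^ (a + 1) := Ideal.pow_le_pow_right hlt
    induction j with
    | zero => rfl
    | succ j ih => rw [← add_assoc, pow_succ, ih, ← pow_succ, h1]
  -- `I ^ a` is idempotent and finitely generated, hence generated by an idempotent
  have hidem : IsIdempotentElem (I ^ a) := by
    show I ^ a * I ^ a = I ^ a
    rw [← pow_add, hstab a]
  have hfg : (I ^ a).FG := by
    have : IsNoetherianRing (T ⧸ A) := inferInstance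
    exact IsNoetherian.noetherian _
  obtain ⟨e, he, hIe⟩ := (Ideal.isIdempotentElem_iff_of_fg _ hfg).mp hidem
  have heI : ∀ m : ℕ, e ∈ I ^ m := by
    intro m
    have h1 : e ∈ I ^ (a + m) := by
      rw [hstab m, hIe]; exact Ideal.mem_span_singleton_self e
    exact Ideal.pow_le_pow_right (Nat.le_add_left m a) h1
  -- lift `e` to an element of `P`
  obtain ⟨e', he'P, he'⟩ : ∃ x ∈ P, mk x = e := by
    have : e ∈ I := by simpa using heI 1
    exact (Ideal.mem_map_iff_of_surjective mk hmk_surj).mp this
  refine ⟨1 - e', a, ?_, ?_, ?_⟩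
  · have : (1 - e') - 1 = -e' := by ring
    rw [this]; exact P.neg_mem he'P
  · intro v hv x hx
    have hx' : mk x ∈ I ^ a := by
      rw [hI, ← Ideal.map_pow]; exact Ideal.mem_map_of_mem mk hx
    rw [hIe, Ideal.mem_span_singleton'] at hx'
    obtain ⟨c, hc⟩ := hx'
    have hzero : mk (x * (1 - e')) = 0 := by
      rw [map_mul, map_sub, map_one, he', ← hc, mul_assoc, mul_sub, mul_one, he.eq, sub_self,
        mul_zero]
    have hmem : x * (1 - e') ∈ A := Ideal.Quotient.eq_zero_iff_mem.mp hzero
    have := hAmem hmem v hv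
    rwa [mul_smul] at this
  · rintro v hv ⟨m, hm⟩
    have h1 : e ∈ (P ^ m).map mk := by
      rw [Ideal.map_pow]; exact heI m
    obtain ⟨y, hyP, hy⟩ := (Ideal.mem_map_iff_of_surjective mk hmk_surj).mp h1
    have hmem : e' - y ∈ A := by
      apply Ideal.Quotient.eq_zero_iff_mem.mp
      rw [map_sub, he', hy, sub_self]
    have h2 := hAmem hmem v hv
    rw [sub_smul, hm y hyP, sub_zero] at h2
    rw [sub_smul, one_smul, h2, sub_zero]

end Projector

section Primary

variable {T : Type*} [CommRing T] {J : Type*} [AddCommGroup J] [Module T J]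

/-- The `P`-primary part of the `r ^ k`-torsion of `J`, as a `T`-submodule: the elements killed
by `r ^ k` and by some power of `P`. -/
def primaryPart (P : Ideal T) (r k : ℕ) : Submodule T J where
  carrier := {x | r ^ k • x = 0 ∧ ∃ n : ℕ, ∀ a ∈ P ^ n, a • x = 0}
  add_mem' := by
    rintro x y ⟨hx, n, hn⟩ ⟨hy, m, hm⟩
    refine ⟨by rw [smul_add, hx, hy, add_zero], n + m, fun a ha => ?_⟩
    rw [smul_add, hn a (Ideal.pow_le_pow_right (Nat.le_add_right n m) ha),
      hm a (Ideal.pow_le_pow_right (Nat.le_add_left m n) ha), add_zero]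
  zero_mem' := ⟨smul_zero _, 0, fun a _ => smul_zero a⟩
  smul_mem' := by
    rintro c x ⟨hx, n, hn⟩
    refine ⟨by rw [smul_comm, hx, smul_zero], n, fun a ha => ?_⟩
    rw [smul_comm, hn a ha, smul_zero]

theorem mem_primaryPart {P : Ideal T} {r k : ℕ} {x : J} :
    x ∈ primaryPart P r k ↔ r ^ k • x = 0 ∧ ∃ n : ℕ, ∀ a ∈ P ^ n, a • x = 0 := Iff.rfl

theorem primaryPart_mono (P : Ideal T) (r : ℕ) {k l : ℕ} (h : k ≤ l) :
    (primaryPart P r k : Submodule T J) ≤ primaryPart P r l := by
  rintro x ⟨hx, hn⟩
  refine ⟨?_, hn⟩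
  obtain ⟨d, rfl⟩ := Nat.exists_eq_add_of_le h
  rw [pow_add, mul_comm, mul_smul, hx, smul_zero]

theorem primaryPart_finite (P : Ideal T) (r k : ℕ) (hfin : {x : J | r ^ k • x = 0}.Finite) :
    ((primaryPart P r k : Submodule T J) : Set J).Finite :=
  hfin.subset fun _ hx => hx.1

/-- The primary part is stable under any group action commuting with `T`. -/
theorem smul_mem_primaryPart {G : Type*} [Group G] [DistribMulAction G J]
    (hGT : ∀ (s : G) (t : T) (x : J), s • t • x = t • s • x) (P : Ideal T) (r k : ℕ) (s : G)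
    {x : J} (hx : x ∈ primaryPart P r k) : s • x ∈ primaryPart P r k := by
  obtain ⟨hx, n, hn⟩ := hx
  refine ⟨by rw [smul_comm, hx, smul_zero], n, fun a ha => ?_⟩
  rw [← hGT, hn a ha, smul_zero]

/-- **Hecke projector on the `r ^ k`-torsion.**  If `J[r ^ k]` is finite, there is `t ∈ 1 + P`
mapping `J[r ^ k]` into its `P`-primary part and fixing the `P`-primary part pointwise. -/
theorem exists_projector_torsion (P : Ideal T) (r k : ℕ) (hfin : {x : J | r ^ k • x = 0}.Finite) :
    ∃ t : T, t - 1 ∈ P ∧ (∀ x : J, r ^ k • x = 0 → t • x ∈ primaryPart P r k) ∧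
      (∀ x ∈ (primaryPart P r k : Submodule T J), t • x = x) := by
  let V : Submodule T J :=
    { carrier := {x | r ^ k • x = 0}
      add_mem' := by
        intro x y hx hy
        show r ^ k • (x + y) = 0
        rw [smul_add, show r ^ k • x = 0 from hx, show r ^ k • y = 0 from hy, add_zero]
      zero_mem' := smul_zero _
      smul_mem' := by
        intro c x hx
        show r ^ k • c • x = 0
        rw [smul_comm, show r ^ k • x = 0 from hx, smul_zero] }
  obtain ⟨t, n, ht, h1, h2⟩ := exists_primary_projector V hfin P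
  refine ⟨t, ht, fun x hx => ⟨?_, n, fun a ha => h1 x hx a ha⟩, fun x hx => h2 x hx.1 hx.2⟩
  rw [smul_comm, hx, smul_zero]

/-- **The `r`-part of an eigenclass is primary.**  Let `c` have exact order `r ^ a` (`r` prime,
`a ≥ 1`) and span a `T`-stable cyclic group, and let `P` be an ideal killing the element
`r ^ (a - 1) • c` of order `r`.  Then `P ^ a` kills `c`; in particular `c` lies in the
`P`-primary part of `J[r ^ a]`. -/
theorem mem_primaryPart_of_eigen {r : ℕ} (hr : r.Prime) (P : Ideal T) {a : ℕ} {c : J}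
    (hca : r ^ a • c = 0) (hc : r ^ (a - 1) • c ≠ 0)
    (heig : ∀ t : T, ∃ n : ℕ, t • c = n • c)
    (hP : ∀ t ∈ P, t • r ^ (a - 1) • c = 0) : c ∈ primaryPart P r a := by
  have ha : 1 ≤ a := by
    rcases Nat.eq_zero_or_pos a with h | h
    · subst h; simp at hca hc; exact absurd hca hc
    · exact h
  -- an element of `P` multiplies `c` by a multiple of `r`
  have key : ∀ t ∈ P, ∃ n : ℕ, t • c = (r * n) • c := by
    intro t ht
    obtain ⟨n, hn⟩ := heig t
    have h1 : (r ^ (a - 1) * n) • c = 0 := by
      rw [mul_smul, ← hn, smul_comm]; exact hP t ht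
    -- the order of `c` is `r ^ a`
    have hord : addOrderOf c = r ^ a := by
      have hdvd : addOrderOf c ∣ r ^ a := addOrderOf_dvd_of_nsmul_eq_zero hca
      obtain ⟨j, hj, hj'⟩ := (Nat.dvd_prime_pow hr).mp hdvd
      rcases Nat.lt_or_ge j a with hlt | hge
      · exfalso; apply hc
        have : addOrderOf c ∣ r ^ (a - 1) := by
          rw [hj']; exact pow_dvd_pow r (by omega)
        exact (addOrderOf_dvd_iff_nsmul_eq_zero).mp this
      · have : j = a := le_antisymm hj hge
        rw [hj', this]
    have h2 : r ^ a ∣ r ^ (a - 1) * n := by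
      rw [← hord]; exact (addOrderOf_dvd_iff_nsmul_eq_zero).mpr h1
    have h3 : r ∣ n := by
      have : r ^ (a - 1) * r ∣ r ^ (a - 1) * n := by
        rw [← pow_succ, Nat.sub_add_cancel ha]; exact h2
      exact (Nat.mul_dvd_mul_iff_left (pow_pos hr.pos _)).mp this
    obtain ⟨q, rfl⟩ := h3
    exact ⟨q, hn⟩
  -- by induction, `P ^ j` maps `c` into `r ^ j • ℤ c`
  have hpow : ∀ j : ℕ, ∀ t ∈ P ^ j, ∃ n : ℕ, t • c = (r ^ j * n) • c := by
    intro j
    induction j with
    | zero =>
      intro t _
      obtain ⟨n, hn⟩ := heig t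
      exact ⟨n, by simpa using hn⟩
    | succ j ih =>
      intro t ht
      rw [pow_succ] at ht
      refine Submodule.mul_induction_on ht ?_ ?_
      · intro x hx y hy
        obtain ⟨n, hn⟩ := ih x hx
        obtain ⟨m, hm⟩ := key y hy
        refine ⟨m * n, ?_⟩
        calc (x * y) • c = x • y • c := mul_smul x y c
          _ = x • (r * m) • c := by rw [hm]
          _ = (r * m) • x • c := by rw [smul_comm]
          _ = (r * m) • (r ^ j * n) • c := by rw [hn]
          _ = (r ^ (j + 1) * (m * n)) • c := by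
            rw [← mul_smul]; congr 1; ring
      · rintro x y ⟨n, hn⟩ ⟨m, hm⟩
        exact ⟨n + m, by rw [add_smul, hn, hm, ← add_smul]; congr 1; ring⟩
  refine ⟨hca, a, fun t ht => ?_⟩
  obtain ⟨n, hn⟩ := hpow a t ht
  rw [hn, mul_comm, mul_smul, hca, smul_zero]

end Primary

section Div

variable {T : Type*} [CommRing T] {J : Type*} [AddCommGroup J] [Module T J]
variable {G : Type*} [Group G] [DistribMulAction G J]

/-- **(DIV) from (KUM) + (BND).**  `J` an abelian group with commuting actions of a group `G`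
and a commutative ring `T`; `J` is `r`-divisible with finite `r ^ k`-torsion; `P` an ideal of
`T` and `W k = primaryPart P r k`.  Suppose `r ^ B` kills the cokernels of
`J^G → (J / W k)^G` for all `k` (subgroup form: every `u` with `s • u - u ∈ W k` for all `s` has
`r ^ B • u ∈ J^G + W k`).  Then for every `k` and every `G`-fixed `D` there are `t ∈ 1 + P`,
fixing the `P`-primary part of `J[r ^ (k + B)]` pointwise, a `G`-fixed `τ` in the `P`-primary
part of `J[r ^ B]` and a `G`-fixed `z` with `t • D = τ + r ^ k • z`. -/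
theorem div_of_bnd (hGT : ∀ (s : G) (t : T) (x : J), s • t • x = t • s • x) (P : Ideal T)
    (r : ℕ) (hdiv : ∀ x : J, ∃ y : J, r • y = x)
    (hfin : ∀ k : ℕ, {x : J | r ^ k • x = 0}.Finite) (B : ℕ)
    (hbnd : ∀ (k : ℕ) (u : J), (∀ s : G, s • u - u ∈ primaryPart P r k) →
      ∃ z w : J, (∀ s : G, s • z = z) ∧ w ∈ primaryPart P r k ∧ r ^ B • u = z + w)
    (k : ℕ) (D : J) (hD : ∀ s : G, s • D = D) :
    ∃ (t : T) (τ z : J), t - 1 ∈ P ∧
      (∀ x ∈ (primaryPart P r (k + B) : Submodule T J), t • x = x) ∧
      (∀ s : G, s • τ = τ) ∧ τ ∈ primaryPart P r B ∧ (∀ s : G, s • z = z) ∧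
      t • D = τ + r ^ k • z := by
  -- divide `D` by `r ^ (k + B)`
  have hdivpow : ∀ (j : ℕ) (x : J), ∃ y : J, r ^ j • y = x := by
    intro j
    induction j with
    | zero => intro x; exact ⟨x, by simp⟩
    | succ j ih =>
      intro x
      obtain ⟨y, hy⟩ := ih x
      obtain ⟨y', hy'⟩ := hdiv y
      exact ⟨y', by rw [pow_succ, mul_smul, hy', hy]⟩
  obtain ⟨y, hy⟩ := hdivpow (k + B) D
  obtain ⟨t, htP, ht1, ht2⟩ := exists_projector_torsion P r (k + B) (hfin (k + B))
  -- `u = t • y` is invariant modulo the primary part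
  have hu : ∀ s : G, s • t • y - t • y ∈ primaryPart P r (k + B) := by
    intro s
    have h1 : s • t • y - t • y = t • (s • y - y) := by rw [hGT, smul_sub]
    rw [h1]
    apply ht1
    rw [smul_sub, smul_comm, hy, hD, sub_self]
  obtain ⟨z, w, hz, hw, hzw⟩ := hbnd (k + B) (t • y) hu
  have htD : t • D = r ^ k • w + r ^ k • z := by
    calc t • D = t • r ^ (k + B) • y := by rw [hy]
      _ = r ^ k • r ^ B • t • y := by rw [smul_comm t, pow_add, mul_smul]
      _ = r ^ k • (z + w) := by rw [hzw]
      _ = r ^ k • w + r ^ k • z := by rw [smul_add, add_comm]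
  have hτ : r ^ k • w = t • D - r ^ k • z := by rw [htD]; abel
  refine ⟨t, r ^ k • w, z, htP, ht2, ?_, ?_, hz, htD⟩
  · intro s
    rw [hτ, smul_sub, hGT, hD, smul_comm, hz]
  · refine ⟨?_, ?_⟩
    · rw [← mul_smul, ← pow_add, add_comm]; exact hw.1
    · obtain ⟨n, hn⟩ := hw.2
      exact ⟨n, fun a ha => by rw [smul_comm, hn a ha, smul_zero]⟩

end Div

end Fermat.Agent.S15.helper8205
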