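import Mathlib

set_option autoImplicit false

/-!
# Abstract Jordan–Hölder flag for Eisenstein-type modules (helper8205)

Mathlib-only.  Subgroup language (no quotient types in the statements).

`G` a group acting on an abelian group `J`, `r` a prime, `χ : G →* (ZMod r)ˣ`.

* `exists_eigen_of_rel` : a finite `G`-stable subgroup `S ≠ ⊥` killed by `r` on which every `g`
  satisfies `(g - 1)(g - χ g) = 0` contains a nonzero `v` with `g • v = v` for all `g` or
  `g • v = χ g • v` for all `g`.
* `exists_eigen_step` : the same relative to a stable subgroup `X`.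
* `IsJHFlag`, `exists_flag_of_step`, `exists_flag_primary` : the flag with steps of order `r`
  of trivial or `χ` type, for a finite `P`-primary `T[G]`-module satisfying an
  Eichler–Shimura relation modulo `P`.
-/

namespace Fermat.Agent.S15.helper8205

section Eigen

variable {G : Type*} [Group G] {V : Type*} [AddCommGroup V] [DistribMulAction G V]

/-- On an element killed by `r`, multiplication by a natural number depends only on its residue
modulo `r`. -/
theorem nsmul_eq_of_zmod_eq {r a b : ℕ} (h : (a : ZMod r) = (b : ZMod r)) {v : V}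
    (hv : r • v = 0) : a • v = b • v := by
  have key : ∀ {a b : ℕ}, a ≤ b → (a : ZMod r) = (b : ZMod r) → a • v = b • v := by
    intro a b hab h
    have h1 : r ∣ b - a := (Nat.modEq_iff_dvd' hab).mp ((ZMod.natCast_eq_natCast_iff a b r).mp h)
    obtain ⟨q, hq⟩ := h1
    have hb : b = a + r * q := by omega
    rw [hb, add_smul, mul_comm, mul_smul, hv, smul_zero, add_zero]
  rcases le_total a b with hab | hab
  · exact key hab h
  · exact (key hab h.symm).symm

/-- **Common eigenvector.**  `S` a finite `G`-stable subgroup killed by the prime `r`, `S ≠ ⊥`,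
such that every `g` satisfies `(g - 1)(g - m) = 0` on `S` for some `m ≡ χ g`.  Then `S` contains
a nonzero vector on which `G` acts trivially, or one on which `G` acts through `χ`. -/
theorem exists_eigen_of_rel {r : ℕ} (hr : r.Prime) (χ : G →* (ZMod r)ˣ) (S : AddSubgroup V)
    (hSfin : (S : Set V).Finite) (hSG : ∀ (g : G), ∀ v ∈ S, g • v ∈ S)
    (hrS : ∀ v ∈ S, r • v = 0)
    (hrel : ∀ g : G, ∃ m : ℕ, (m : ZMod r) = χ g ∧
      ∀ v ∈ S, g • (g • v - m • v) = g • v - m • v)
    (hne : S ≠ ⊥) :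
    ∃ v ∈ S, v ≠ 0 ∧ ((∀ g : G, g • v = v) ∨
      (∀ (g : G) (m : ℕ), (m : ZMod r) = χ g → g • v = m • v)) := by
  classical
  have : Fact r.Prime := ⟨hr⟩
  set H : Subgroup G := χ.ker with hH
  -- (a) elements of `H` are unipotent of level two on `S`
  have ha : ∀ h ∈ H, ∀ v ∈ S, h • (h • v - v) = h • v - v := by
    intro h hh v hv
    obtain ⟨m, hm, hrelm⟩ := hrel h
    have h1 : χ h = 1 := MonoidHom.mem_ker.mp hh
    have h2 : (m : ZMod r) = ((1 : ℕ) : ZMod r) := by rw [hm, h1]; simp
    have h3 : m • v = v := by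
      rw [nsmul_eq_of_zmod_eq h2 (hrS v hv), one_smul]
    have := hrelm v hv
    rwa [h3] at this
  -- (b) `h ^ j • v = v + j • (h • v - v)`
  have hb : ∀ h ∈ H, ∀ (j : ℕ), ∀ v ∈ S, h ^ j • v = v + j • (h • v - v) := by
    intro h hh j
    induction j with
    | zero => intro v _; simp
    | succ j ih =>
      intro v hv
      have h1 : h • (h • v) - h • v = h • v - v := by
        rw [← smul_sub]; exact ha h hh v hv
      rw [pow_succ, mul_smul, ih (h • v) (hSG h v hv), h1, add_smul, one_smul]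
      abel
  -- (c) `h ^ r` is the identity on `S`
  have hc : ∀ h ∈ H, ∀ v ∈ S, h ^ r • v = v := by
    intro h hh v hv
    rw [hb h hh r v hv, hrS _ (S.sub_mem (hSG h v hv) hv), add_zero]
  -- (d) the finite `G`-set `S` and the `r`-group image of `H` in its permutations
  let p : SubMulAction G V := { carrier := S, smul_mem' := fun g v hv => hSG g v hv }
  have : Finite p := hSfin.to_subtype
  let K : Subgroup (Equiv.Perm p) := H.map (MulAction.toPermHom G p)
  have hK : IsPGroup r K := by
    rintro ⟨σ, hσ⟩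
    obtain ⟨h, hh, rfl⟩ := Subgroup.mem_map.mp hσ
    refine ⟨1, ?_⟩
    apply Subtype.ext
    rw [pow_one]
    show (MulAction.toPermHom G p) h ^ r = 1
    rw [← map_pow]
    apply Equiv.ext
    intro x
    apply Subtype.ext
    show h ^ r • (x : V) = x
    exact hc h hh x x.2
  -- `r` divides the order of `S`
  have hcard : r ∣ Nat.card p := by
    obtain ⟨v, hv, hv0⟩ : ∃ v ∈ S, v ≠ 0 := by
      by_contra hcon
      push Not at hcon
      exact hne ((AddSubgroup.eq_bot_iff_forall S).mpr hcon)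
    have h1 : addOrderOf (⟨v, hv⟩ : S) = r := by
      have hdvd : addOrderOf (⟨v, hv⟩ : S) ∣ r := by
        apply addOrderOf_dvd_of_nsmul_eq_zero
        apply Subtype.ext
        simpa using hrS v hv
      rcases (Nat.dvd_prime hr).mp hdvd with h | h
      · exfalso
        rw [AddMonoid.addOrderOf_eq_one_iff] at h
        exact hv0 (congrArg Subtype.val h)
      · exact h
    have h2 : addOrderOf (⟨v, hv⟩ : S) ∣ Nat.card S := addOrderOf_dvd_natCard _
    rw [h1] at h2
    exact h2
  -- (e) a nonzero vector fixed by `H`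
  have hzero : (⟨0, S.zero_mem⟩ : p) ∈ MulAction.fixedPoints K p := by
    rintro ⟨σ, hσ⟩
    obtain ⟨h, hh, rfl⟩ := Subgroup.mem_map.mp hσ
    apply Subtype.ext
    show h • (0 : V) = 0
    exact smul_zero h
  obtain ⟨b, hbfix, hb0⟩ := hK.exists_fixed_point_of_prime_dvd_card_of_fixed_point p hcard hzero
  have hbS : (b : V) ∈ S := b.2
  have hbne : (b : V) ≠ 0 := by
    intro h
    apply hb0
    apply Subtype.ext
    exact h.symm
  have hbH : ∀ h ∈ H, h • (b : V) = b := by
    intro h hh
    have := hbfix ⟨MulAction.toPermHom G p h, Subgroup.mem_map_of_mem _ hh⟩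
    exact congrArg Subtype.val this
  -- (f) `H`-fixed vectors are `G`-stable
  have hf : ∀ (g : G) (v : V), (∀ h ∈ H, h • v = v) → ∀ h ∈ H, h • g • v = g • v := by
    intro g v hv h hh
    have hn : H.Normal := MonoidHom.normal_ker χ
    have h1 : g⁻¹ * h * g ∈ H := by
      have := hn.conj_mem h hh g⁻¹
      simpa using this
    have h2 : h • g • v = g • (g⁻¹ * h * g) • v := by
      rw [← mul_smul, ← mul_smul]; congr 1; group
    rw [h2, hv _ h1]
  -- (g) a generator of the image of `χ`
  obtain ⟨g0, hg0⟩ : ∃ g0 : G, ∀ g : G, ∃ j : ℕ, χ g0 ^ j = χ g := by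
    have : IsCyclic χ.range := Subgroup.isCyclic _
    obtain ⟨⟨c, hcr⟩, hc'⟩ := IsCyclic.exists_monoid_generator (α := χ.range)
    obtain ⟨g0, rfl⟩ := MonoidHom.mem_range.mp hcr
    refine ⟨g0, fun g => ?_⟩
    obtain ⟨j, hj⟩ := (Submonoid.mem_powers_iff _ _).mp (hc' ⟨χ g, MonoidHom.mem_range.mpr ⟨g, rfl⟩⟩)
    exact ⟨j, by simpa using congrArg Subtype.val hj⟩
  -- (h) every `g` is `g0 ^ j * h` with `h ∈ H`
  have hdec : ∀ g : G, ∃ (j : ℕ) (h : G), h ∈ H ∧ g = g0 ^ j * h ∧ χ g0 ^ j = χ g := by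
    intro g
    obtain ⟨j, hj⟩ := hg0 g
    refine ⟨j, (g0 ^ j)⁻¹ * g, ?_, by group, hj⟩
    rw [hH, MonoidHom.mem_ker, map_mul, map_inv, map_pow, hj, inv_mul_cancel]
  obtain ⟨m0, hm0, hrel0⟩ := hrel g0
  by_cases hA : ∀ u ∈ S, (∀ h ∈ H, h • u = u) → g0 • u = m0 • u
  · -- `χ`-type
    refine ⟨b, hbS, hbne, Or.inr ?_⟩
    intro g m hm
    obtain ⟨j, h, hh, rfl, hj⟩ := hdec g
    have h1 : ∀ j : ℕ, g0 ^ j • (b : V) = m0 ^ j • (b : V) := by
      intro j
      induction j with
      | zero => simp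
      | succ j ih =>
        rw [pow_succ', mul_smul, ih, smul_comm, hA b hbS hbH, ← mul_smul, ← pow_succ]
    rw [mul_smul, hbH h hh, h1 j]
    apply nsmul_eq_of_zmod_eq _ (hrS b hbS)
    rw [hm, ← hj, Nat.cast_pow, hm0, Units.val_pow_eq_pow_val]
  · -- trivial type
    push Not at hA
    obtain ⟨u, huS, huH, hu⟩ := hA
    have hwS : g0 • u - m0 • u ∈ S := S.sub_mem (hSG g0 u huS) (S.nsmul_mem huS m0)
    have hwH : ∀ h ∈ H, h • (g0 • u - m0 • u) = g0 • u - m0 • u := by
      intro h hh
      rw [smul_sub, hf g0 u huH h hh, smul_comm, huH h hh]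
    refine ⟨g0 • u - m0 • u, hwS, sub_ne_zero.mpr hu, Or.inl ?_⟩
    intro g
    obtain ⟨j, h, hh, rfl, -⟩ := hdec g
    have h1 : ∀ j : ℕ, g0 ^ j • (g0 • u - m0 • u) = g0 • u - m0 • u := by
      intro j
      induction j with
      | zero => simp
      | succ j ih => rw [pow_succ, mul_smul, hrel0 u huS, ih]
    rw [mul_smul, hwH h hh, h1 j]

end Eigen

section Step

variable {G : Type*} [Group G] {J : Type*} [AddCommGroup J] [DistribMulAction G J]

/-- The action induced on the quotient by a `G`-stable subgroup (a local instance only). -/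
@[reducible] noncomputable def quotAction (X : AddSubgroup J)
    (hX : ∀ (g : G), ∀ x ∈ X, g • x ∈ X) : DistribMulAction G (J ⧸ X) where
  smul g := QuotientAddGroup.map X X (DistribSMul.toAddMonoidHom J g)
    (fun x hx => AddSubgroup.mem_comap.mpr (hX g x hx))
  one_smul q := by
    induction q using QuotientAddGroup.induction_on with
    | H x => exact congrArg (fun z : J => (z : J ⧸ X)) (one_smul G x)
  mul_smul g h q := by
    induction q using QuotientAddGroup.induction_on with
    | H x => exact congrArg (fun z : J => (z : J ⧸ X)) (mul_smul g h x)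
  smul_zero g := map_zero _
  smul_add g a b := map_add _ a b

/-- **One step of the flag.**  `X`, `Y` `G`-stable subgroups, `Y` finite, `r • Y ≤ X`, `Y ≰ X`,
and every `g` satisfies `(g - 1)(g - m) Y ≤ X` for some `m ≡ χ g`.  Then there is `y ∈ Y`,
`y ∉ X`, on which `G` acts trivially modulo `X` or through `χ` modulo `X`. -/
theorem exists_eigen_step {r : ℕ} (hr : r.Prime) (χ : G →* (ZMod r)ˣ) (X Y : AddSubgroup J)
    (hX : ∀ (g : G), ∀ x ∈ X, g • x ∈ X) (hY : ∀ (g : G), ∀ y ∈ Y, g • y ∈ Y)
    (hYfin : (Y : Set J).Finite) (hrY : ∀ y ∈ Y, r • y ∈ X)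
    (hrel : ∀ g : G, ∃ m : ℕ, (m : ZMod r) = χ g ∧
      ∀ y ∈ Y, g • (g • y - m • y) - (g • y - m • y) ∈ X)
    (hne : ¬ Y ≤ X) :
    ∃ y ∈ Y, y ∉ X ∧ ((∀ g : G, g • y - y ∈ X) ∨
      (∀ (g : G) (m : ℕ), (m : ZMod r) = χ g → g • y - m • y ∈ X)) := by
  let _ : DistribMulAction G (J ⧸ X) := quotAction X hX
  have hmk : ∀ (g : G) (x : J), g • (x : J ⧸ X) = ((g • x : J) : J ⧸ X) := fun g x => rfl
  have heq : ∀ a b : J, (a : J ⧸ X) = (b : J ⧸ X) ↔ a - b ∈ X := by
    intro a b
    rw [← sub_eq_zero, ← QuotientAddGroup.mk_sub, QuotientAddGroup.eq_zero_iff]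
  set S : AddSubgroup (J ⧸ X) := Y.map (QuotientAddGroup.mk' X) with hS
  have hSmem : ∀ v ∈ S, ∃ y ∈ Y, (y : J ⧸ X) = v := fun v hv => AddSubgroup.mem_map.mp hv
  have hSfin : (S : Set (J ⧸ X)).Finite := by
    rw [hS, AddSubgroup.coe_map]; exact hYfin.image _
  have hSG : ∀ (g : G), ∀ v ∈ S, g • v ∈ S := by
    intro g v hv
    obtain ⟨y, hy, rfl⟩ := hSmem v hv
    rw [hmk]
    exact AddSubgroup.mem_map_of_mem _ (hY g y hy)
  have hrS : ∀ v ∈ S, r • v = 0 := by
    intro v hv
    obtain ⟨y, hy, rfl⟩ := hSmem v hv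
    rw [← QuotientAddGroup.mk_nsmul, QuotientAddGroup.eq_zero_iff]
    exact hrY y hy
  have hrelS : ∀ g : G, ∃ m : ℕ, (m : ZMod r) = χ g ∧
      ∀ v ∈ S, g • (g • v - m • v) = g • v - m • v := by
    intro g
    obtain ⟨m, hm, h⟩ := hrel g
    refine ⟨m, hm, fun v hv => ?_⟩
    obtain ⟨y, hy, rfl⟩ := hSmem v hv
    rw [hmk, ← QuotientAddGroup.mk_nsmul, ← QuotientAddGroup.mk_sub, hmk, heq]
    exact h y hy
  have hneS : S ≠ ⊥ := by
    intro hbot
    apply hne
    intro y hy
    have h1 : (y : J ⧸ X) ∈ S := AddSubgroup.mem_map_of_mem _ hy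
    rw [hbot, AddSubgroup.mem_bot, QuotientAddGroup.eq_zero_iff] at h1
    exact h1
  obtain ⟨v, hvS, hv0, hv⟩ := exists_eigen_of_rel hr χ S hSfin hSG hrS hrelS hneS
  obtain ⟨y, hy, rfl⟩ := hSmem v hvS
  refine ⟨y, hy, fun hyX => hv0 ((QuotientAddGroup.eq_zero_iff y).mpr hyX), ?_⟩
  rcases hv with h | h
  · left
    intro g
    have := h g
    rwa [hmk, heq] at this
  · right
    intro g m hm
    have := h g m hm
    rwa [hmk, ← QuotientAddGroup.mk_nsmul, heq] at this

/-- The subgroup generated by `X` and an element `y ∉ X` with `r • y ∈ X` (`r` prime) contains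
`X` with index `r`. -/
theorem relIndex_sup_zmultiples {r : ℕ} (hr : r.Prime) (X : AddSubgroup J) {y : J}
    (hy : y ∉ X) (hry : r • y ∈ X) : X.relIndex (X ⊔ AddSubgroup.zmultiples y) = r := by
  rw [AddSubgroup.relIndex_sup_left]
  have h1 : X.relIndex (AddSubgroup.zmultiples y) =
      Nat.card ((AddSubgroup.zmultiples y).map (QuotientAddGroup.mk' X)) := by
    conv_lhs => rw [← QuotientAddGroup.ker_mk' X]
    exact AddSubgroup.relIndex_ker _ _
  rw [h1, AddMonoidHom.map_zmultiples, Nat.card_zmultiples]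
  have hdvd : addOrderOf (QuotientAddGroup.mk' X y) ∣ r := by
    apply addOrderOf_dvd_of_nsmul_eq_zero
    show r • (y : J ⧸ X) = 0
    rw [← QuotientAddGroup.mk_nsmul, QuotientAddGroup.eq_zero_iff]
    exact hry
  rcases (Nat.dvd_prime hr).mp hdvd with h | h
  · exfalso
    rw [AddMonoid.addOrderOf_eq_one_iff] at h
    exact hy ((QuotientAddGroup.eq_zero_iff y).mp h)
  · exact h

end Step

section Flag

variable {G : Type*} [Group G] {J : Type*} [AddCommGroup J] [DistribMulAction G J]

/-- `F` is a `G`-flag of length `L` from `X` to `W` all of whose steps have order `r` and are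
of trivial type (`g • y - y ∈ F i`) or of `χ` type (`g • y - m • y ∈ F i` for `m ≡ χ g`). -/
structure IsJHFlag (r : ℕ) (χ : G →* (ZMod r)ˣ) (X W : AddSubgroup J) (L : ℕ)
    (F : ℕ → AddSubgroup J) : Prop where
  zero : F 0 = X
  last : F L = W
  mono : Monotone F
  le_last : ∀ i : ℕ, F i ≤ W
  stable : ∀ (i : ℕ) (g : G), ∀ y ∈ F i, g • y ∈ F i
  relIndex : ∀ i < L, (F i).relIndex (F (i + 1)) = r
  smul_mem : ∀ i < L, ∀ y ∈ F (i + 1), r • y ∈ F i
  type : ∀ i < L, (∀ (g : G), ∀ y ∈ F (i + 1), g • y - y ∈ F i) ∨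
    (∀ (g : G) (m : ℕ), (m : ZMod r) = χ g → ∀ y ∈ F (i + 1), g • y - m • y ∈ F i)

theorem IsJHFlag.relIndex_eq {r : ℕ} {χ : G →* (ZMod r)ˣ} {X W : AddSubgroup J} {L : ℕ}
    {F : ℕ → AddSubgroup J} (h : IsJHFlag r χ X W L F) : X.relIndex W = r ^ L := by
  have key : ∀ i : ℕ, i ≤ L → (F 0).relIndex (F i) = r ^ i := by
    intro i
    induction i with
    | zero => intro _; simp
    | succ i ih =>
      intro hi
      rw [← AddSubgroup.relIndex_mul_relIndex (F 0) (F i) (F (i + 1)) (h.mono (Nat.zero_le i))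
        (h.mono (Nat.le_succ i)), ih (Nat.le_of_succ_le hi), h.relIndex i hi, pow_succ]
  have := key L le_rfl
  rwa [h.zero, h.last] at this

/-- A flag starting at `⊥` of length `L` ends at a group of order `r ^ L`. -/
theorem IsJHFlag.card_eq {r : ℕ} {χ : G →* (ZMod r)ˣ} {W : AddSubgroup J} {L : ℕ}
    {F : ℕ → AddSubgroup J} (h : IsJHFlag r χ ⊥ W L F) : Nat.card W = r ^ L := by
  rw [← h.relIndex_eq, AddSubgroup.relIndex_bot_left]

/-- **Conjugation form of the step types.**  If `χ c = -1` (e.g. `c` a complex conjugation and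
`χ` the cyclotomic character), every step of a flag is of trivial type, or `c` acts on it
by `-1`. -/
theorem IsJHFlag.type_of_neg_one {r : ℕ} {χ : G →* (ZMod r)ˣ} {X W : AddSubgroup J} {L : ℕ}
    {F : ℕ → AddSubgroup J} (h : IsJHFlag r χ X W L F) (hr : 0 < r) (c : G) (hc : χ c = -1) :
    ∀ i < L, (∀ (s : G), ∀ y ∈ F (i + 1), s • y - y ∈ F i) ∨
      (∀ y ∈ F (i + 1), c • y + y ∈ F i) := by
  intro i hi
  rcases h.type i hi with ht | ht
  · exact Or.inl ht
  · right
    intro y hy
    have hm : ((r - 1 : ℕ) : ZMod r) = χ c := by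
      rw [hc, Nat.cast_sub hr, ZMod.natCast_self]; simp
    have h1 := ht c (r - 1) hm y hy
    have h2 := h.smul_mem i hi y hy
    have e : c • y + y = (c • y - (r - 1) • y) + r • y := by
      have : r • y = (r - 1) • y + y := by
        conv_lhs => rw [show r = (r - 1) + 1 by omega]
        rw [add_smul, one_smul]
      rw [this]; abel
    rw [e]
    exact (F i).add_mem h1 h2

theorem mem_sup_zmultiples {X : AddSubgroup J} {y z : J} :
    z ∈ X ⊔ AddSubgroup.zmultiples y ↔ ∃ x ∈ X, ∃ k : ℤ, z = x + k • y := by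
  rw [AddSubgroup.mem_sup]
  constructor
  · rintro ⟨x, hx, w, hw, rfl⟩
    obtain ⟨k, rfl⟩ := AddSubgroup.mem_zmultiples_iff.mp hw
    exact ⟨x, hx, k, rfl⟩
  · rintro ⟨x, hx, k, rfl⟩
    exact ⟨x, hx, k • y, AddSubgroup.mem_zmultiples_iff.mpr ⟨k, rfl⟩, rfl⟩

/-- **Flag from one-step data.**  `W` finite, `X ≤ W` a `G`-stable subgroup; suppose every
`G`-stable `X'` with `X ≤ X' < W` admits a `G`-stable `Y ≤ W`, `Y ≰ X'`, with `r • Y ≤ X'` on
which every `g` satisfies `(g - 1)(g - m) Y ≤ X'` for some `m ≡ χ g`.  Then there is a flag from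
`X` to `W` with steps of order `r` of trivial or `χ` type. -/
theorem exists_flag_of_step {r : ℕ} (hr : r.Prime) (χ : G →* (ZMod r)ˣ) (X₀ W : AddSubgroup J)
    (hWfin : (W : Set J).Finite) (hX₀W : X₀ ≤ W) (hX₀G : ∀ (g : G), ∀ x ∈ X₀, g • x ∈ X₀)
    (hstep : ∀ X : AddSubgroup J, X₀ ≤ X → X ≤ W → X ≠ W → (∀ (g : G), ∀ x ∈ X, g • x ∈ X) →
      ∃ Y : AddSubgroup J, Y ≤ W ∧ ¬ Y ≤ X ∧ (∀ (g : G), ∀ y ∈ Y, g • y ∈ Y) ∧
        (∀ y ∈ Y, r • y ∈ X) ∧
        ∀ g : G, ∃ m : ℕ, (m : ZMod r) = χ g ∧
          ∀ y ∈ Y, g • (g • y - m • y) - (g • y - m • y) ∈ X) :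
    ∃ (L : ℕ) (F : ℕ → AddSubgroup J), IsJHFlag r χ X₀ W L F := by
  have main : ∀ (n : ℕ) (X : AddSubgroup J), X₀ ≤ X → X ≤ W →
      (∀ (g : G), ∀ x ∈ X, g • x ∈ X) → (W : Set J).ncard - (X : Set J).ncard = n →
      ∃ (L : ℕ) (F : ℕ → AddSubgroup J), IsJHFlag r χ X W L F := by
    intro n
    induction n using Nat.strong_induction_on with
    | _ n ih =>
      intro X hX₀X hXW hXG hn
      by_cases hXeq : X = W
      · subst hXeq
        exact ⟨0, fun _ => X,
          { zero := rfl
            last := rfl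
            mono := monotone_const
            le_last := fun _ => le_rfl
            stable := fun _ => hXG
            relIndex := fun i hi => absurd hi (Nat.not_lt_zero i)
            smul_mem := fun i hi => absurd hi (Nat.not_lt_zero i)
            type := fun i hi => absurd hi (Nat.not_lt_zero i) }⟩
      · obtain ⟨Y, hYW, hYX, hYG, hrY, hrel⟩ := hstep X hX₀X hXW hXeq hXG
        obtain ⟨y, hyY, hyX, htype⟩ :=
          exists_eigen_step hr χ X Y hXG hYG (hWfin.subset hYW) hrY hrel hYX
        set Z : AddSubgroup J := X ⊔ AddSubgroup.zmultiples y with hZ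
        have hXZ : X ≤ Z := le_sup_left
        have hyZ : y ∈ Z := (le_sup_right : AddSubgroup.zmultiples y ≤ Z)
          (AddSubgroup.mem_zmultiples y)
        have hZW : Z ≤ W :=
          sup_le hXW ((AddSubgroup.zmultiples_le).mpr (hYW hyY))
        -- the step is killed by `r` modulo `X`
        have hrZ : ∀ z ∈ Z, r • z ∈ X := by
          intro z hz
          obtain ⟨x, hx, k, rfl⟩ := mem_sup_zmultiples.mp hz
          rw [smul_add, smul_comm r k y]
          exact X.add_mem (X.nsmul_mem hx r) (X.zsmul_mem (hrY y hyY) k)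
        -- the type of the step
        have htypeZ : (∀ (g : G), ∀ z ∈ Z, g • z - z ∈ X) ∨
            (∀ (g : G) (m : ℕ), (m : ZMod r) = χ g → ∀ z ∈ Z, g • z - m • z ∈ X) := by
          rcases htype with h | h
          · left
            intro g z hz
            obtain ⟨x, hx, k, rfl⟩ := mem_sup_zmultiples.mp hz
            have e : g • (x + k • y) - (x + k • y) = (g • x - x) + k • (g • y - y) := by
              rw [smul_add, smul_comm g k y, smul_sub]; abel
            rw [e]
            exact X.add_mem (X.sub_mem (hXG g x hx) hx) (X.zsmul_mem (h g) k)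
          · right
            intro g m hm z hz
            obtain ⟨x, hx, k, rfl⟩ := mem_sup_zmultiples.mp hz
            have e : g • (x + k • y) - m • (x + k • y) =
                (g • x - m • x) + k • (g • y - m • y) := by
              rw [smul_add, smul_comm g k y, smul_add, smul_comm m k y, smul_sub]; abel
            rw [e]
            exact X.add_mem (X.sub_mem (hXG g x hx) (X.nsmul_mem hx m)) (X.zsmul_mem (h g m hm) k)
        have hZG : ∀ (g : G), ∀ z ∈ Z, g • z ∈ Z := by
          intro g z hz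
          rcases htypeZ with h | h
          · have : g • z = (g • z - z) + z := by abel
            rw [this]
            exact Z.add_mem (hXZ (h g z hz)) hz
          · obtain ⟨m, hm, -⟩ := hrel g
            have : g • z = (g • z - m • z) + m • z := by abel
            rw [this]
            exact Z.add_mem (hXZ (h g m hm z hz)) (Z.nsmul_mem hz m)
        -- the measure decreases
        have hlt : (X : Set J).ncard < (Z : Set J).ncard := by
          apply Set.ncard_lt_ncard _ (hWfin.subset hZW)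
          refine ⟨hXZ, fun hcon => hyX (hcon hyZ)⟩
        have hle : (Z : Set J).ncard ≤ (W : Set J).ncard := Set.ncard_le_ncard hZW hWfin
        obtain ⟨L', F', hF'⟩ :=
          ih ((W : Set J).ncard - (Z : Set J).ncard) (by omega) Z (hX₀X.trans hXZ) hZW hZG rfl
        have hidx : X.relIndex Z = r := relIndex_sup_zmultiples hr X hyX (hrY y hyY)
        refine ⟨L' + 1, fun i => Nat.rec X (fun j _ => F' j) i, ?_⟩
        refine
          { zero := rfl
            last := hF'.last
            mono := ?_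
            le_last := ?_
            stable := ?_
            relIndex := ?_
            smul_mem := ?_
            type := ?_ }
        · apply monotone_nat_of_le_succ
          intro i
          cases i with
          | zero => show X ≤ F' 0; rw [hF'.zero]; exact hXZ
          | succ i => exact hF'.mono (Nat.le_succ i)
        · intro i
          cases i with
          | zero => exact hXW
          | succ i => exact hF'.le_last i
        · intro i
          cases i with
          | zero => exact hXG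
          | succ i => exact hF'.stable i
        · intro i hi
          cases i with
          | zero => show X.relIndex (F' 0) = r; rw [hF'.zero]; exact hidx
          | succ i => exact hF'.relIndex i (by omega)
        · intro i hi
          cases i with
          | zero => show ∀ y ∈ F' 0, r • y ∈ X; rw [hF'.zero]; exact hrZ
          | succ i => exact hF'.smul_mem i (by omega)
        · intro i hi
          cases i with
          | zero =>
            show (∀ (g : G), ∀ y ∈ F' 0, g • y - y ∈ X) ∨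
              (∀ (g : G) (m : ℕ), (m : ZMod r) = χ g → ∀ y ∈ F' 0, g • y - m • y ∈ X)
            rw [hF'.zero]; exact htypeZ
          | succ i => exact hF'.type i (by omega)
  exact main _ X₀ le_rfl hX₀W hX₀G rfl

/-- **Flag from the quadratic relation.**  `X ≤ Y` `G`-stable, `Y` finite, `r • Y ≤ X`, and
`g² - (1 + e g) g + e g` maps `Y` into `X` for every `g`, where `e g ≡ χ g`.  Then there is a
flag from `X` to `Y` with steps of order `r` of trivial or `χ` type. -/
theorem exists_flag_of_quad {r : ℕ} (hr : r.Prime) (χ : G →* (ZMod r)ˣ) (e : G → ℕ)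
    (he : ∀ g : G, (e g : ZMod r) = χ g) (X Y : AddSubgroup J) (hYfin : (Y : Set J).Finite)
    (hXY : X ≤ Y) (hX : ∀ (g : G), ∀ x ∈ X, g • x ∈ X) (hY : ∀ (g : G), ∀ y ∈ Y, g • y ∈ Y)
    (hrY : ∀ y ∈ Y, r • y ∈ X)
    (hq : ∀ (g : G), ∀ y ∈ Y, g • g • y - (1 + e g) • g • y + e g • y ∈ X) :
    ∃ (L : ℕ) (F : ℕ → AddSubgroup J), IsJHFlag r χ X Y L F := by
  refine exists_flag_of_step hr χ X Y hYfin hXY hX ?_
  intro X' hXX' hX'Y hne _
  refine ⟨Y, le_rfl, fun hcon => hne (le_antisymm hX'Y hcon), hY, fun y hy => hXX' (hrY y hy),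
    fun g => ⟨e g, he g, fun y hy => ?_⟩⟩
  have e1 : g • (g • y - e g • y) - (g • y - e g • y) =
      g • g • y - (1 + e g) • g • y + e g • y := by
    rw [smul_sub, smul_comm g (e g) y, add_smul, one_smul]; abel
  rw [e1]
  exact hXX' (hq g y hy)

/-- **Flag from a filtration.**  `Y 0 ≥ Y 1 ≥ … ≥ Y N = ⊥` a finite filtration by `G`-stable
subgroups of the finite group `Y 0` such that `r • Y i ≤ Y (i + 1)` and every `g` maps `Y i`
into `Y (i + 1)` by `g² - (1 + m) g + m` for some `m ≡ χ g` (`m` may depend on `i` and `g`).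
Then `Y 0` has a flag from `⊥` with steps of order `r` of trivial or `χ` type. -/
theorem exists_flag_of_filtration {r : ℕ} (hr : r.Prime) (χ : G →* (ZMod r)ˣ)
    (Y : ℕ → AddSubgroup J) (N : ℕ) (hfin : (Y 0 : Set J).Finite) (hN : Y N = ⊥)
    (hle : ∀ i : ℕ, Y i ≤ Y 0) (hG : ∀ (i : ℕ) (g : G), ∀ y ∈ Y i, g • y ∈ Y i)
    (hrY : ∀ i : ℕ, ∀ y ∈ Y i, r • y ∈ Y (i + 1))
    (hq : ∀ (i : ℕ) (g : G), ∃ m : ℕ, (m : ZMod r) = χ g ∧
      ∀ y ∈ Y i, g • g • y - (1 + m) • g • y + m • y ∈ Y (i + 1)) :
    ∃ (L : ℕ) (F : ℕ → AddSubgroup J), IsJHFlag r χ ⊥ (Y 0) L F := by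
  classical
  refine exists_flag_of_step hr χ ⊥ (Y 0) hfin bot_le ?_ ?_
  · intro g x hx
    rw [AddSubgroup.mem_bot] at hx ⊢
    rw [hx, smul_zero]
  · intro X _ hXW hXne hXG
    -- the first level of the filtration contained in `X`
    have hex : ∃ j : ℕ, Y j ≤ X := ⟨N, by rw [hN]; exact bot_le⟩
    have hj0 : Nat.find hex ≠ 0 := by
      intro h0
      have := Nat.find_spec hex
      rw [h0] at this
      exact hXne (le_antisymm hXW this)
    obtain ⟨i, hi⟩ := Nat.exists_eq_succ_of_ne_zero hj0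
    have hi1 : Y (i + 1) ≤ X := by
      have := Nat.find_spec hex
      rwa [hi] at this
    have hi0 : ¬ Y i ≤ X := Nat.find_min hex (by omega)
    have hmemY : ∀ z ∈ X ⊔ Y i, ∃ x ∈ X, ∃ y ∈ Y i, z = x + y := by
      intro z hz
      obtain ⟨x, hx, y, hy, rfl⟩ := AddSubgroup.mem_sup.mp hz
      exact ⟨x, hx, y, hy, rfl⟩
    refine ⟨X ⊔ Y i, sup_le hXW (hle i), fun hcon => hi0 (le_trans le_sup_right hcon),
      ?_, ?_, ?_⟩
    · intro g z hz
      obtain ⟨x, hx, y, hy, rfl⟩ := hmemY z hz
      rw [smul_add]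
      exact AddSubgroup.add_mem _ (AddSubgroup.mem_sup_left (hXG g x hx))
        (AddSubgroup.mem_sup_right (hG i g y hy))
    · intro z hz
      obtain ⟨x, hx, y, hy, rfl⟩ := hmemY z hz
      rw [smul_add]
      exact X.add_mem (X.nsmul_mem hx r) (hi1 (hrY i y hy))
    · intro g
      obtain ⟨m, hm, hrel⟩ := hq i g
      refine ⟨m, hm, fun z hz => ?_⟩
      obtain ⟨x, hx, y, hy, rfl⟩ := hmemY z hz
      have e : g • (g • (x + y) - m • (x + y)) - (g • (x + y) - m • (x + y)) =
          (g • (g • x - m • x) - (g • x - m • x)) +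
            (g • g • y - (1 + m) • g • y + m • y) := by
        simp only [smul_add, smul_sub, add_smul, one_smul, smul_comm g m]; abel
      rw [e]
      exact X.add_mem (X.sub_mem (hXG g _ (X.sub_mem (hXG g x hx) (X.nsmul_mem hx m)))
        (X.sub_mem (hXG g x hx) (X.nsmul_mem hx m))) (hi1 (hrel y hy))

end Flag

section Primary

variable {G : Type*} [Group G] {J : Type*} [AddCommGroup J] [DistribMulAction G J]
variable {T : Type*} [CommRing T] [Module T J]

/-- **(JH), abstract form.**  `J` an abelian group with commuting actions of a group `G` and a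
commutative ring `T`; `r` a prime, `P` an ideal of `T` containing `r`, `χ : G →* (ZMod r)ˣ`.
Let `W` be a finite `G`-stable `T`-submodule of `J` every element of which is killed by a power
of `P`, and suppose the Eichler–Shimura relation: every `g` satisfies
`g² - t g + m = 0` on `W` for some `m ≡ χ g` and some `t ≡ 1 + m` modulo `P`.
Then `W` has a `G`-flag from `⊥` with steps of order `r` of trivial or `χ` type. -/
theorem exists_flag_primary (hGT : ∀ (s : G) (t : T) (x : J), s • t • x = t • s • x)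
    {r : ℕ} (hr : r.Prime) (P : Ideal T) (hrP : (r : T) ∈ P) (χ : G →* (ZMod r)ˣ)
    (W : Submodule T J) (hWfin : (W : Set J).Finite)
    (hWG : ∀ (s : G), ∀ w ∈ W, s • w ∈ W)
    (hWP : ∀ w ∈ W, ∃ N : ℕ, ∀ a ∈ P ^ N, a • w = 0)
    (hES : ∀ g : G, ∃ (t : T) (m : ℕ), (m : ZMod r) = χ g ∧ t - (1 + (m : T)) ∈ P ∧
      ∀ x ∈ W, g • g • x - t • g • x + m • x = 0) :
    ∃ (L : ℕ) (F : ℕ → AddSubgroup J), IsJHFlag r χ ⊥ W.toAddSubgroup L F := by
  classical
  -- the `P`-adic filtration of `W`
  set Yf : ℕ → Submodule T J := fun i => P ^ i • W with hYf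
  have hY0 : Yf 0 = W := by
    show P ^ 0 • W = W
    rw [pow_zero, Ideal.one_eq_top, Submodule.top_smul]
  have hYle : ∀ i, Yf i ≤ W := fun i => Submodule.smul_le_right
  have hYsucc : ∀ i, Yf (i + 1) = P • Yf i := by
    intro i
    show P ^ (i + 1) • W = P • (P ^ i • W)
    rw [pow_succ', Submodule.mul_smul]
  have hYG : ∀ (i : ℕ) (s : G), ∀ y ∈ Yf i, s • y ∈ Yf i := by
    intro i s y hy
    refine Submodule.smul_induction_on hy ?_ ?_
    · intro a ha w hw
      rw [hGT]
      exact Submodule.smul_mem_smul ha (hWG s w hw)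
    · intro x y hx hy
      rw [smul_add]
      exact (Yf i).add_mem hx hy
  -- the filtration reaches `⊥`
  obtain ⟨N, hN⟩ : ∃ N : ℕ, Yf N = ⊥ := by
    let Nw : J → ℕ := fun w => if h : w ∈ W then Classical.choose (hWP w h) else 0
    refine ⟨hWfin.toFinset.sup Nw, ?_⟩
    rw [eq_bot_iff]
    show P ^ (hWfin.toFinset.sup Nw) • W ≤ ⊥
    rw [Submodule.smul_le]
    intro a ha w hw
    have h1 : Nw w ≤ hWfin.toFinset.sup Nw :=
      Finset.le_sup (f := Nw) ((Set.Finite.mem_toFinset hWfin).mpr hw)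
    have h2 : ∀ a ∈ P ^ Nw w, a • w = 0 := by
      have := Classical.choose_spec (hWP w hw)
      simpa [Nw, hw] using this
    rw [Submodule.mem_bot]
    exact h2 a (Ideal.pow_le_pow_right h1 ha)
  refine exists_flag_of_step hr χ ⊥ W.toAddSubgroup hWfin bot_le ?_ ?_
  rotate_left
  · intro X _ hXW hXne hXG
    -- the first level of the filtration contained in `X`
    have hex : ∃ j : ℕ, (Yf j).toAddSubgroup ≤ X := ⟨N, by rw [hN]; intro x hx; simp at hx; rw [hx]; exact X.zero_mem⟩
    have hj0 : Nat.find hex ≠ 0 := by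
      intro h0
      have := Nat.find_spec hex
      rw [h0, hY0] at this
      exact hXne (le_antisymm hXW this)
    obtain ⟨i, hi⟩ := Nat.exists_eq_succ_of_ne_zero hj0
    have hi1 : (Yf (i + 1)).toAddSubgroup ≤ X := by
      have := Nat.find_spec hex
      rwa [hi] at this
    have hi0 : ¬ (Yf i).toAddSubgroup ≤ X := Nat.find_min hex (by omega)
    have hPY : ∀ a ∈ P, ∀ y ∈ Yf i, a • y ∈ X := by
      intro a ha y hy
      apply hi1
      show a • y ∈ Yf (i + 1)
      rw [hYsucc]
      exact Submodule.smul_mem_smul ha hy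
    have hmemY : ∀ z ∈ X ⊔ (Yf i).toAddSubgroup, ∃ x ∈ X, ∃ y ∈ Yf i, z = x + y := by
      intro z hz
      obtain ⟨x, hx, y, hy, rfl⟩ := AddSubgroup.mem_sup.mp hz
      exact ⟨x, hx, y, hy, rfl⟩
    refine ⟨X ⊔ (Yf i).toAddSubgroup, sup_le hXW (fun y hy => hYle i hy),
      fun hcon => hi0 (le_trans le_sup_right hcon), ?_, ?_, ?_⟩
    · intro g z hz
      obtain ⟨x, hx, y, hy, rfl⟩ := hmemY z hz
      rw [smul_add]
      exact AddSubgroup.add_mem _ (AddSubgroup.mem_sup_left (hXG g x hx))
        (AddSubgroup.mem_sup_right (hYG i g y hy))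
    · intro z hz
      obtain ⟨x, hx, y, hy, rfl⟩ := hmemY z hz
      rw [smul_add]
      refine X.add_mem (X.nsmul_mem hx r) ?_
      rw [← Nat.cast_smul_eq_nsmul T r y]
      exact hPY _ hrP y hy
    · intro g
      obtain ⟨t, m, hm, htP, hrel⟩ := hES g
      refine ⟨m, hm, fun z hz => ?_⟩
      obtain ⟨x, hx, y, hy, rfl⟩ := hmemY z hz
      have hyW : y ∈ W := hYle i hy
      have h1 : g • g • y - t • g • y + m • y = 0 := hrel y hyW
      have h2 : g • (g • y - m • y) - (g • y - m • y) = (t - (1 + (m : T))) • g • y := by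
        have h3 : g • g • y = t • g • y - m • y := by
          rw [← sub_eq_zero, ← h1]; abel
        rw [smul_sub, smul_comm g m y, h3, sub_smul, add_smul, one_smul,
          Nat.cast_smul_eq_nsmul]
        abel
      have e : g • (g • (x + y) - m • (x + y)) - (g • (x + y) - m • (x + y)) =
          (g • (g • x - m • x) - (g • x - m • x)) + (g • (g • y - m • y) - (g • y - m • y)) := by
        simp only [smul_add, smul_sub]; abel
      rw [e, h2]
      refine X.add_mem (X.sub_mem (hXG g _ (X.sub_mem (hXG g x hx) (X.nsmul_mem hx m)))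
        (X.sub_mem (hXG g x hx) (X.nsmul_mem hx m))) ?_
      exact hPY _ htP _ (hYG i g y hy)
  · intro g x hx
    rw [AddSubgroup.mem_bot] at hx ⊢
    rw [hx, smul_zero]

end Primary

end Fermat.Agent.S15.helper8205
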