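/-
helper2113 — S15 (Mazur block), registry leaf BND-ASM, part 1.

THE (BND) ASSEMBLY AT `J = JZero p` FOR AN ODD PRIME `r`, FROM NAMED LEAF PROPS.

The abstract half is `helper7259.bound_of_flag_odd` (on `helper4190` CasselsCore / FlagCount).
This file instantiates its hypotheses at `JZero p` for a subgroup `W` carrying a Jordan–Hölder
flag in the sense of `helper8205.IsJHFlag` with `χ =` the mod-`r` cyclotomic character:

* flag, step coordinates         : `IsJHFlag` + `helper4190` STEP-COORD (inside);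
* finite level                   : landed `S29.helper8527.exists_finiteLevel_point` (inside);
* (LOC-v)                        : leaf Prop `LocV p r`;
* (LOC-r), trivial steps         : leaf Prop `LocRTriv p r`;
* (LOC-r), roots-of-unity steps  : leaf Prop `LocRChi p r`;
* (LOC-p)                        : hypothesis `hP` (shape `LocP p r Tor`): inertia at ONE place
                                   over `p` moves every `y` with `r ^ k • y` rational inside `Tor`;
* (CNT)                          : ONE inequality `#(W ⊓ Tor) ≤ r ^ B' * #(W ⊓ Fix(c))`,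
                                   `c` = the Prelude `complexConjugation`;
* (WG)                           : `#(W^G) ≤ r ^ B0`.

Conclusion (`pow_smul_mem_of_leaves`): `r ^ (B0 + B')` kills the cokernel of
`J^G → (J ⧸ W)^G`, and (`bnd_primaryPart_of_leaves`) the same for the whole tower
`W k = primaryPart P r k` in the exact binder `hbnd` of `helper8205.div_of_bnd`.

The leaf Props are discharged from the owners' compiled files in part 2
(`helper2113_BndInst.lean`).
-/
import Fermat.Agent.S15.helper7259_FlagBound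
import Fermat.Agent.S15.helper4190_StepCoord
import Fermat.Agent.S15.helper4190_BoundAsm
import Fermat.Agent.S15.helper8205_JHFlag
import Fermat.Agent.S15.helper8205_DivCore
import Fermat.Agent.S29.helper8527_FiniteLevel
import Fermat.Agent.S30.helper6350_CycloPkg

set_option autoImplicit false

namespace Fermat.Agent.S15.helper2113

open ModularCurve
open Fermat.Agent.S15.helper7259 Fermat.Agent.S15.helper4190 Fermat.Agent.S15.helper8205

/-! ### The leaf Props -/

section Leaves

variable (p r : ℕ) [NeZero p]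

/-- **(LOC-v)**: a step class of the `r`-power torsion of `J₀(p)` is unramified at every prime
`q ∉ {p, r}`. -/
def LocV : Prop :=
  ∀ (k : ℕ) (F F' : AddSubgroup (JZero p)), (∀ w ∈ F', r ^ k • w = 0) →
    ∀ y ∈ stepInv F', ∀ q : ℕ, q.Prime → q ≠ p → q ≠ r → UnramStepAt F y q

/-- **(LOC-r), trivial steps**: on a finite step of exponent `r` with trivial Galois action, every
step class is unramified at `r`. -/
def LocRTriv : Prop :=
  ∀ (F F' : AddSubgroup (JZero p)) (ψ : JZero p → ZMod r), TrivStep r F F' ψ → Finite ↥F' →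
    (∀ x ∈ F', r • x ∈ F) → ∀ y ∈ stepInv F', UnramStepAt F y r

/-- **(LOC-r), roots-of-unity steps**: on a finite step with a roots-of-unity coordinate, every
step class is a unit class at `r`. -/
def LocRChi : Prop :=
  ∀ (F F' : AddSubgroup (JZero p)) (φ : JZero p → Qb), ChiStep r F F' φ → Finite ↥F' →
    ∀ y ∈ stepInv F', UnitStepAt φ y r

/-- **(LOC-p)**: for ONE place over `p`, inertia moves every `y` with `r ^ k • y` rational inside
the toric part `Tor k`. -/
def LocP (Tor : ℕ → AddSubgroup (JZero p)) : Prop :=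
  ∀ (k : ℕ) (y : JZero p), (∀ σ : GQ, σ • (r ^ k • y) = r ^ k • y) →
    ∃ A : ValuationSubring Qb, A.LiesOverPrime p ∧
      ∀ σ ∈ A.inertiaSubgroupIn ℚ, σ • y - y ∈ Tor k

end Leaves

/-! ### Complex conjugation and the cyclotomic exponent -/

/-- Complex conjugation as an additive endomorphism of a Galois module. -/
noncomputable def conjHom (J : Type*) [AddCommGroup J] [DistribMulAction GQ J] : J →+ J :=
  DistribSMul.toAddMonoidHom J (complexConjugation : GQ)

theorem conjHom_apply {J : Type*} [AddCommGroup J] [DistribMulAction GQ J] (y : J) :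
    conjHom J y = (complexConjugation : GQ) • y := rfl

theorem conjHom_conjHom {J : Type*} [AddCommGroup J] [DistribMulAction GQ J] (y : J) :
    conjHom J (conjHom J y) = y := by
  rw [conjHom_apply, conjHom_apply, smul_smul, complexConjugation_mul_self, one_smul]

/-- The cyclotomic exponent of complex conjugation is `-1` modulo `r`. -/
theorem dvd_cycloExp_complexConjugation_add_one (r : ℕ) [hr : Fact r.Prime] :
    r ∣ ExtCitation.cycloExp r (complexConjugation : GQ) + 1 := by
  have hr0 : r ≠ 0 := hr.out.ne_zero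
  have : NeZero r := ⟨hr0⟩
  have : NeZero (r : Qb) := ⟨Nat.cast_ne_zero.mpr hr0⟩
  obtain ⟨ζ, hζ⟩ := HasEnoughRootsOfUnity.exists_primitiveRoot Qb r
  have hζr : ζ ^ r = 1 := hζ.pow_eq_one
  have h1 : (complexConjugation : GQ) ζ = ζ ^ ExtCitation.cycloExp r (complexConjugation : GQ) :=
    cycloExp_spec r complexConjugation ζ hζr
  have h2 : (complexConjugation : GQ) ζ = ζ⁻¹ :=
    Fermat.Agent.S30.helper6350.complexConjugation_root_of_unity hr0 hζr
  have hζ0 : ζ ≠ 0 := hζ.ne_zero hr0
  apply hζ.dvd_of_pow_eq_one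
  rw [pow_succ, ← h1, h2, inv_mul_cancel₀ hζ0]

/-! ### The assembly at one level -/

/-- **(BND) at one level, `r` odd.**  `W` a finite subgroup of `J₀(p)` killed by `r ^ k` with a
Jordan–Hölder flag whose steps are trivial or cyclotomic.  From the leaf Props (LOC-v),
(LOC-r), (LOC-p) for the subgroup `Tor`, the count `#(W ⊓ Tor) ≤ r ^ B' * #(W ⊓ Fix(c))` and
`#(W^G) ≤ r ^ B0`: every `u` which is Galois-invariant modulo `W` has
`r ^ (B0 + B') • u ∈ J^G + W`. -/
theorem pow_smul_mem_of_leaves {p r : ℕ} [NeZero p] (hp : p.Prime) [hr : Fact r.Prime]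
    (hodd : Odd r) (hrp : r ≠ p) (W Tor : AddSubgroup (JZero p)) (k : ℕ) [Finite ↥W]
    (hWk : ∀ w ∈ W, r ^ k • w = 0)
    (hJH : ∃ (L : ℕ) (F : ℕ → AddSubgroup (JZero p)),
      IsJHFlag r (ExtCitation.cycloChar r) ⊥ W L F)
    (hV : LocV p r) (hRT : LocRTriv p r) (hRC : LocRChi p r)
    (hP : ∀ y : JZero p, (∀ σ : GQ, σ • (r ^ k • y) = r ^ k • y) →
      ∃ A : ValuationSubring Qb, A.LiesOverPrime p ∧
        ∀ σ ∈ A.inertiaSubgroupIn ℚ, σ • y - y ∈ Tor)
    (B0 B' : ℕ)
    (hord : Nat.card ↥(W ⊓ Tor) ≤ r ^ B' * Nat.card ↥(W ⊓ fixPts (conjHom (JZero p))))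
    (hinv : Nat.card ↥(relInv GQ (⊥ : AddSubgroup (JZero p)) ⊓ W) ≤ r ^ B0) :
    ∀ u ∈ relInv GQ W, r ^ (B0 + B') • u ∈ relInv GQ (⊥ : AddSubgroup (JZero p)) ⊔ W := by
  classical
  obtain ⟨L, F, hF⟩ := hJH
  have hlast := hF.last
  subst hlast
  have hrP : r.Prime := hr.out
  have hr2 : r ≠ 2 := by
    rintro rfl
    exact absurd hodd (by decide)
  have hmono := hF.mono
  have hst : ∀ i, IsStable GQ (F i) := fun i g y hy => hF.stable i g y hy
  have h0 := hF.zero
  have hidx := hF.relIndex
  have hlev : ∀ y : JZero p, FinLevel y :=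
    fun y => Fermat.Agent.S29.helper8527.exists_finiteLevel_point p y
  have hfinStep : ∀ i < L, Finite ↥(F (i + 1)) := fun i hi =>
    Finite.of_injective (AddSubgroup.inclusion (hmono (Nat.succ_le_of_lt hi)))
      (AddSubgroup.inclusion_injective _)
  -- step coordinates
  have hT : ∀ i < L, (∀ σ : GQ, ∀ y ∈ F (i + 1), σ • y - y ∈ F i) →
      ∃ ψ : JZero p → ZMod r, TrivStep r (F i) (F (i + 1)) ψ :=
    fun i hi ht => exists_trivStep hrP (hmono (Nat.le_succ i)) (hF.stable (i + 1)) (hidx i hi) ht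
  have hC : ∀ i < L, ¬ (∀ σ : GQ, ∀ y ∈ F (i + 1), σ • y - y ∈ F i) →
      ∃ φ : JZero p → Qb, ChiStep r (F i) (F (i + 1)) φ := by
    intro i hi hnt
    rcases hF.type i hi with h | h
    · exact absurd h hnt
    · exact exists_chiStep hrP (hmono (Nat.le_succ i)) (hF.stable (i + 1)) (hidx i hi)
        (ExtCitation.cycloExp r) (cycloExp_spec r)
        (fun σ y hy => h σ (ExtCitation.cycloExp r σ) (ExtCitation.coe_cycloChar r σ).symm y hy)
  have hψ : ∀ i < L, (∀ σ : GQ, ∀ y ∈ F (i + 1), σ • y - y ∈ F i) →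
      TrivStep r (F i) (F (i + 1))
        ((fun i => if h : ∃ ψ : JZero p → ZMod r, TrivStep r (F i) (F (i + 1)) ψ
          then h.choose else 0) i) := by
    intro i hi ht
    have h := hT i hi ht
    simp only [dif_pos h]
    exact h.choose_spec
  have hφ : ∀ i < L, ¬ (∀ σ : GQ, ∀ y ∈ F (i + 1), σ • y - y ∈ F i) →
      ChiStep r (F i) (F (i + 1))
        ((fun i => if h : ∃ φ : JZero p → Qb, ChiStep r (F i) (F (i + 1)) φ
          then h.choose else 1) i) := by
    intro i hi ht
    have h := hC i hi ht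
    simp only [dif_pos h]
    exact h.choose_spec
  refine bound_of_flag_odd hrP hodd hp hrp F hmono hst h0 L k hWk hlev hidx
    (fun i => ∀ σ : GQ, ∀ y ∈ F (i + 1), σ • y - y ∈ F i)
    (fun i => ¬ (F (i + 1) ⊓ Tor ≤ F i)) _ _ hψ hφ ?_ ?_ ?_ ?_ B0 B' ?_ hinv
  · -- (LOC-v)
    intro i hi y hy q hq hqp hqr
    exact hV k (F i) (F (i + 1)) (fun w hw => hWk w (hmono (Nat.succ_le_of_lt hi) hw)) y hy q hq
      hqp hqr
  · -- (LOC-r), trivial steps
    intro i hi ht y hy
    exact hRT (F i) (F (i + 1)) _ (hψ i hi ht) (hfinStep i hi) (hF.smul_mem i hi) y hy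
  · -- (LOC-r), roots-of-unity steps
    intro i hi ht y hy
    exact hRC (F i) (F (i + 1)) _ (hφ i hi ht) (hfinStep i hi) y hy
  · -- (LOC-p), non-toric steps
    intro i hi hnt y hy
    have hle : F (i + 1) ⊓ Tor ≤ F i := not_not.mp hnt
    have hy' : ∀ σ : GQ, σ • (r ^ k • y) = r ^ k • y := by
      intro σ
      have h1 : r ^ k • (σ • y - y) = 0 := hWk _ (hmono (Nat.succ_le_of_lt hi) (hy σ))
      rw [nsmul_sub, sub_eq_zero] at h1
      exact (map_nsmul (DistribSMul.toAddMonoidHom (JZero p) σ) (r ^ k) y).trans h1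
    obtain ⟨A, hA, hI⟩ := hP y hy'
    exact ⟨A, hA, fun σ hσ => hle ⟨hy σ, hI σ hσ⟩⟩
  · -- the count
    have hcF : ∀ i, ∀ y ∈ F i, conjHom (JZero p) y ∈ F i :=
      fun i y hy => hF.stable i complexConjugation y hy
    have h1 := card_inf_eq_pow_jumps hrP F hmono h0 L hidx Tor
    have h2 := card_fixPts_eq_pow hrP hr2 F hmono h0 L hidx (conjHom (JZero p)) conjHom_conjHom hcF
    rw [h1, h2, ← pow_add] at hord
    have h3 := (Nat.pow_le_pow_iff_right hrP.one_lt).mp hord
    have hsub : {i | i < L ∧ ∀ y ∈ F (i + 1), conjHom (JZero p) y - y ∈ F i} ⊆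
        {i | i < L ∧ ∀ σ : GQ, ∀ y ∈ F (i + 1), σ • y - y ∈ F i} := by
      rintro i ⟨hi, hci⟩
      refine ⟨hi, ?_⟩
      rcases hF.type i hi with h | h
      · exact h
      · exfalso
        exact not_plus_and_minus hrP hr2 (hidx i hi) (conjHom (JZero p)) hci
          (add_mem_of_chi_type (hidx i hi) (conjHom (JZero p))
            (ExtCitation.cycloExp r (complexConjugation : GQ))
            (dvd_cycloExp_complexConjugation_add_one r)
            (fun y hy => h complexConjugation _
              (ExtCitation.coe_cycloChar r complexConjugation).symm y hy))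
    have hfin : {i | i < L ∧ ∀ σ : GQ, ∀ y ∈ F (i + 1), σ • y - y ∈ F i}.Finite :=
      (Set.finite_lt_nat L).subset (fun i hi => hi.1)
    have h4 := Set.ncard_le_ncard hsub hfin
    omega

/-! ### The tower `W k = primaryPart P r k`, in the binder of `helper8205.div_of_bnd` -/

/-- **(BND) for the Eisenstein tower, `r` odd**, in the exact shape of the hypothesis `hbnd` of
`helper8205.div_of_bnd` (with `B = B0 + B'`).  `T` is any commutative ring acting on `J₀(p)`,
`P` any ideal, `W k = primaryPart P r k`. -/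
theorem bnd_primaryPart_of_leaves {p r : ℕ} [NeZero p] (hp : p.Prime) [Fact r.Prime]
    (hodd : Odd r) (hrp : r ≠ p) {T : Type*} [CommRing T] [Module T (JZero p)] (P : Ideal T)
    (Tor : ℕ → AddSubgroup (JZero p))
    (hfin : ∀ k : ℕ, {x : JZero p | r ^ k • x = 0}.Finite)
    (hJH : ∀ k : ℕ, ∃ (L : ℕ) (F : ℕ → AddSubgroup (JZero p)),
      IsJHFlag r (ExtCitation.cycloChar r) ⊥
        (primaryPart P r k : Submodule T (JZero p)).toAddSubgroup L F)
    (hV : LocV p r) (hRT : LocRTriv p r) (hRC : LocRChi p r) (hP : LocP p r Tor)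
    (B0 B' : ℕ)
    (hord : ∀ k : ℕ,
      Nat.card ↥((primaryPart P r k : Submodule T (JZero p)).toAddSubgroup ⊓ Tor k) ≤
        r ^ B' * Nat.card ↥((primaryPart P r k : Submodule T (JZero p)).toAddSubgroup ⊓
          fixPts (conjHom (JZero p))))
    (hinv : ∀ k : ℕ, Nat.card ↥(relInv GQ (⊥ : AddSubgroup (JZero p)) ⊓
      (primaryPart P r k : Submodule T (JZero p)).toAddSubgroup) ≤ r ^ B0) :
    ∀ (k : ℕ) (u : JZero p), (∀ s : GQ, s • u - u ∈ (primaryPart P r k : Submodule T (JZero p))) →
      ∃ z w : JZero p, (∀ s : GQ, s • z = z) ∧ w ∈ (primaryPart P r k : Submodule T (JZero p)) ∧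
        r ^ (B0 + B') • u = z + w := by
  intro k u hu
  have hWfin : Finite ↥(primaryPart P r k : Submodule T (JZero p)).toAddSubgroup :=
    (primaryPart_finite P r k (hfin k)).to_subtype
  have h := pow_smul_mem_of_leaves hp hodd hrp
    (primaryPart P r k : Submodule T (JZero p)).toAddSubgroup (Tor k) k (fun w hw => hw.1)
    (hJH k) hV hRT hRC (hP k) B0 B' (hord k) (hinv k) u hu
  obtain ⟨z, hz, w, hw, hzw⟩ := AddSubgroup.mem_sup.mp h
  exact ⟨z, w, (mem_relInv_bot GQ).mp hz, hw, hzw.symm⟩

end Fermat.Agent.S15.helper2113
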