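import Fermat.Agent.S15.helper2532_SetOrder
import Fermat.Agent.S19.helper2532_SpineOrder
import Fermat.Agent.S33.helper7050_OrdFreeAdapter

set_option autoImplicit false
set_option linter.unusedSectionVars false

/-!
# The local block at the residue prime, from a coordinate system (S15 block [R])

`A` a valuation subring of `ℚ̄` over the prime `ℓ`, `I = A.inertiaSubgroupIn ℚ`, `J` a Galois
module with a coordinate system `X` on a subgroup `J1` ("kernel of reduction") in the shape of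
the S19 core `helper2111.IsCoordSystem`, plus (Loc): the coordinates take values in the maximal
ideal of `A`.

* `IsLocCoord ℓ A J1 X` : the hypotheses (for an arbitrary Galois module `J`);
  `isLocCoord_of_isCoordSystem` : from `helper2111.IsCoordSystem` and (Loc).
* `setOrder ℓ A X κ` : the order of coordinate functions on a finite inertia-set `T` mapped to
  `J1` by a family `κ`;  `orderHyp_setOrder` : for a finite subgroup `M ⊆ J1` it satisfies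
  `S33.helper2784.OrderHyp` (the input of LOCAL-ORD).
* `exists_unit_of_cocycle`, `exists_unit_of_step` : UNIT.  For a finite inertia-stable subgroup
  `F'`, an inertia-equivariant character `φ` of `F'` and a point `y` with `σ y - y ∈ F'` for all
  `σ ∈ I`, the cocycle `σ ↦ φ (σ y - y)` is `σ β / β` with `β` a UNIT of `A`.
* `mem_of_trivial_step_of_coord`, `smul_sub_mem_of_trivial_step` : ETALE (`ℓ` odd).  If `I` acts
  trivially on `F' / F` and `ℓ F' ⊆ F`, then `σ y - y ∈ F'` for all `σ ∈ I` implies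
  `σ y - y ∈ F` for all `σ ∈ I`.
* `smul_sub_mem_J1` : `σ y - y ∈ J1` for all `y` and `σ ∈ I`.
-/

namespace Fermat.Agent.S15.helper2532

open Fermat.Agent.S19.helper2111 Fermat.Agent.S19.helper2532 Fermat.Agent.S33

/-- A coordinate system on the subgroup `J1` of a Galois module `J`, at the valuation subring `A`
over `ℓ`: the fields of `helper2111.IsCoordSystem` (for an arbitrary module) and (Loc). -/
structure IsLocCoord (ℓ : ℕ) (A : ValuationSubring Qb) {J : Type*} [AddCommGroup J]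
    [DistribMulAction GQ J] (J1 : AddSubgroup J) {g : ℕ} (X : J → Fin g → Qb) : Prop where
  /-- `J1` is stable under inertia. -/
  stable : ∀ σ ∈ A.inertiaSubgroupIn ℚ, ∀ x ∈ J1, σ • x ∈ J1
  /-- The coordinates are integral on `J1`. -/
  val : ∀ x ∈ J1, ∀ i, X x i ∈ A
  /-- The coordinates are inertia-equivariant on `J1`. -/
  eqv : ∀ σ ∈ A.inertiaSubgroupIn ℚ, ∀ x ∈ J1, ∀ i, X (σ • x) i = σ (X x i)
  /-- The coordinates are injective on `J1`. -/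
  inj : ∀ x ∈ J1, ∀ y ∈ J1, X x = X y → x = y
  /-- Every class modulo `J1` contains an inertia-fixed point. -/
  cen : ∀ x : J, ∃ y : J, (∀ σ ∈ A.inertiaSubgroupIn ℚ, σ • y = y) ∧ x - y ∈ J1
  /-- The addition law: modulo `ℓ^j`, on a finite subset of `J1`, polynomial over `A`. -/
  law : ∀ (j : ℕ) (T : Finset J), (∀ x ∈ T, x ∈ J1) →
    ∃ P : Fin g → MvPolynomial (Fin g ⊕ Fin g) Qb, (∀ i d, (P i).coeff d ∈ A) ∧
      ∀ x ∈ T, ∀ y ∈ T, ∀ i, ∃ w ∈ A,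
        X (x + y) i - MvPolynomial.eval (Sum.elim (X x) (X y)) (P i) = (ℓ : Qb) ^ j * w
  /-- (Loc): the coordinates take values in the maximal ideal. -/
  loc : ∀ x ∈ J1, ∀ i, X x i ∈ A.nonunits

/-- The S19 core `IsCoordSystem` together with (Loc). -/
theorem isLocCoord_of_isCoordSystem {ℓ N : ℕ} {A : ValuationSubring Qb} {g : ℕ}
    {J1 : AddSubgroup (ModularCurve.JZero N)} {b : ModularCurve.JZero N → Fin g → Qb}
    (hc : IsCoordSystem ℓ N A g J1 b) (hloc : ∀ x ∈ J1, ∀ i, b x i ∈ A.nonunits) :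
    IsLocCoord ℓ A J1 b :=
  ⟨hc.stable, hc.val, hc.eqv, hc.inj, hc.cen, hc.law, hloc⟩

section Generic

variable {ℓ : ℕ} {A : ValuationSubring Qb} {J : Type*} [AddCommGroup J] [DistribMulAction GQ J]
  {J1 : AddSubgroup J} {g : ℕ} {X : J → Fin g → Qb}

/-- `σ y - y ∈ J1` for every `y` and every `σ` in the inertia group. -/
theorem smul_sub_mem_J1 (hX : IsLocCoord ℓ A J1 X) (y : J) (σ : GQ)
    (hσ : σ ∈ A.inertiaSubgroupIn ℚ) : σ • y - y ∈ J1 := by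
  obtain ⟨y0, hy0, hz0⟩ := hX.cen y
  have h : σ • y - y = σ • (y - y0) - (y - y0) := by
    rw [smul_sub, hy0 σ hσ]
    abel
  rw [h]
  exact J1.sub_mem (hX.stable σ hσ _ hz0) hz0

/-- The order of coordinate functions on an inertia-set `T` mapped to `J` by the family `κ`. -/
noncomputable def setOrder (ℓ : ℕ) (A : ValuationSubring Qb) (X : J → Fin g → Qb) {E T : Type*}
    [MulAction ↥(A.inertiaSubgroupIn ℚ) T] (κ : E → T → J) : Subring (T → Qb) :=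
  approxOrder A (ℓ : Qb) (natCast_mem A ℓ) ↥(A.inertiaSubgroupIn ℚ) T (coordGens X κ)

theorem harch_Qb (hℓ : ℓ.Prime) (hA : A.LiesOverPrime ℓ) :
    ∀ d ∈ A, d ≠ 0 → ∃ r : ℕ, (ℓ : Qb) ^ r * d⁻¹ ∈ A :=
  fun d _ _ => exists_pow_mul_inv_mem_of_isAlgebraic isAlgebraic_int_Qb A ℓ hℓ hA d

theorem hunr_Qb (hℓ : ℓ.Prime) (hA : A.LiesOverPrime ℓ) :
    ∀ x ∈ A, (∀ s : ↥(A.inertiaSubgroupIn ℚ), s • x = x) → x⁻¹ ∉ A → ∃ y ∈ A, x = (ℓ : Qb) * y :=
  fun x hxA hx hxinv => unr_inertia ℓ hℓ A hA x hxA hx hxinv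

/-- The order of coordinate functions on a finite inertia-stable subgroup `M` of `J1` satisfies
the hypotheses `OrderHyp` of LOCAL-ORD. -/
theorem orderHyp_setOrder (hℓ : ℓ.Prime) (hA : A.LiesOverPrime ℓ) (hX : IsLocCoord ℓ A J1 X)
    {M : Type*} [AddCommGroup M] [Finite M] [DistribMulAction ↥(A.inertiaSubgroupIn ℚ) M]
    (ι : M →+ J) (hιinj : Function.Injective ι)
    (hι : ∀ (s : ↥(A.inertiaSubgroupIn ℚ)) (m : M), ι (s • m) = s • ι m)
    (hιJ1 : ∀ m, ι m ∈ J1) :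
    helper2784.OrderHyp ↥(A.inertiaSubgroupIn ℚ) A.toSubring (helper2784.nonunitsAddSubgroup A)
      (setOrder ℓ A X (fun _ : Unit => (ι : M → J))) where
  val φ hφ m := approxOrder_val hφ m
  eqv φ hφ s m := approxOrder_eqv hφ s m
  smul c hc hfix φ hφ := smul_mem_approxOrder hc hfix hφ
  sep := coordOrder_sep hX.val (fun s x hx i => hX.eqv s s.2 x hx i) hX.inj (fun _ m => hιJ1 m)
    (fun _ s m => hι s m) ⟨(), hιinj⟩
  law φ hφ := coordOrder_transfer A (ℓ : Qb) (Nat.cast_ne_zero.mpr hℓ.ne_zero) (natCast_mem A ℓ)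
    (harch_Qb hℓ hA) (hunr_Qb hℓ hA) J1 X hX.val (fun s x hx i => hX.eqv s s.2 x hx i) hX.inj
    hX.law (fun _ : Unit => (ι : M → J)) (fun _ : Unit => (ι : M → J))
    (fun _ : Unit => (ι : M → J)) (fun _ m => hιJ1 m) (fun _ s m => hι s m) ⟨(), hιinj⟩
    (fun _ m => hιJ1 m) (fun _ s m => hι s m) ⟨(), hιinj⟩ (fun p => p.1 + p.2)
    (fun s p => by rw [Prod.smul_fst, Prod.smul_snd, smul_add])
    (fun _ => ⟨(), (), fun t₁ t₂ => map_add ι t₁ t₂⟩) hφ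
  loc φ hφ m := A.mem_nonunits_iff.mp
    (coordOrder_loc hA hX.loc (fun _ m => hιJ1 m) hφ m 0)

/-- ETALE, core form (`ℓ` odd): in a finite inertia-stable subgroup `M` of `J1`, an element
fixed by inertia modulo a stable subgroup `M'` and with `ℓ • m₁ ∈ M'` lies in `M'`. -/
theorem mem_of_trivial_step_of_coord (hℓ : ℓ.Prime) (hℓ2 : ℓ ≠ 2) (hA : A.LiesOverPrime ℓ)
    (hX : IsLocCoord ℓ A J1 X)
    {M : Type*} [AddCommGroup M] [Finite M] [DistribMulAction ↥(A.inertiaSubgroupIn ℚ) M]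
    (ι : M →+ J) (hιinj : Function.Injective ι)
    (hι : ∀ (s : ↥(A.inertiaSubgroupIn ℚ)) (m : M), ι (s • m) = s • ι m)
    (hιJ1 : ∀ m, ι m ∈ J1)
    (M' : AddSubgroup M) (hM' : ∀ (s : ↥(A.inertiaSubgroupIn ℚ)), ∀ x ∈ M', s • x ∈ M')
    (m₁ : M) (hpm : ℓ • m₁ ∈ M') (hg : ∀ s : ↥(A.inertiaSubgroupIn ℚ), s • m₁ - m₁ ∈ M') :
    m₁ ∈ M' :=
  helper7050.mem_of_trivial_step_inertia hℓ hℓ2 A hA _
    (orderHyp_setOrder hℓ hA hX ι hιinj hι hιJ1) M' hM' m₁ hpm hg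

/-- UNIT, core form.  `M` a finite inertia-stable subgroup of `J1`, `η` an inertia-equivariant
character of `M`, `z0 ∈ J1` a point with `s z0 - z0 ∈ M` for all `s` in the inertia group (`c`
the cocycle).  Then `η (c s) = s β / β` with `β` a unit of `A`. -/
theorem exists_unit_of_cocycle (hℓ : ℓ.Prime) (hA : A.LiesOverPrime ℓ) (hX : IsLocCoord ℓ A J1 X)
    {M : Type*} [AddCommGroup M] [Finite M] [DistribMulAction ↥(A.inertiaSubgroupIn ℚ) M]
    (ι : M →+ J) (hιinj : Function.Injective ι)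
    (hι : ∀ (s : ↥(A.inertiaSubgroupIn ℚ)) (m : M), ι (s • m) = s • ι m)
    (hιJ1 : ∀ m, ι m ∈ J1)
    (η : M → Qb) (hη : helper2784.IsChar η)
    (hηeqv : ∀ (s : ↥(A.inertiaSubgroupIn ℚ)) (m : M), η (s • m) = s • η m)
    (z0 : J) (hz0 : z0 ∈ J1) (c : ↥(A.inertiaSubgroupIn ℚ) → M)
    (hc : ∀ s, ι (c s) = s • z0 - z0) :
    ∃ β : Qb, β ∈ A ∧ β⁻¹ ∈ A ∧ ∀ s : ↥(A.inertiaSubgroupIn ℚ), η (c s) = s • β / β := by
  classical
  have hXeq : ∀ (s : ↥(A.inertiaSubgroupIn ℚ)), ∀ x ∈ J1, ∀ i, X (s • x) i = s • X x i :=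
    fun s x hx i => hX.eqv s s.2 x hx i
  -- the torsor `z0 + M`
  let Zs : SubMulAction ↥(A.inertiaSubgroupIn ℚ) J :=
    { carrier := {z | ∃ m : M, z = z0 + ι m}
      smul_mem' := by
        rintro s z ⟨m, rfl⟩
        refine ⟨c s + s • m, ?_⟩
        rw [smul_add, map_add, hc, hι]
        abel }
  have hZfin : Finite Zs := by
    have hsurj : Function.Surjective (fun m : M => (⟨z0 + ι m, m, rfl⟩ : Zs)) := by
      rintro ⟨z, m, rfl⟩
      exact ⟨m, rfl⟩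
    exact Finite.of_surjective _ hsurj
  have hZJ1 : ∀ z : Zs, (z : J) ∈ J1 := by
    rintro ⟨z, m, rfl⟩
    exact J1.add_mem hz0 (hιJ1 m)
  let κ : Bool → Zs → J := fun e z => bif e then (z : J) else -(z : J)
  have hκ : ∀ e z, κ e z ∈ J1 := by
    intro e z
    cases e
    · exact J1.neg_mem (hZJ1 z)
    · exact hZJ1 z
  have hκΓ : ∀ e (s : ↥(A.inertiaSubgroupIn ℚ)) z, κ e (s • z) = s • κ e z := by
    intro e s z
    cases e
    · show -((s • z : Zs) : J) = s • -(z : J)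
      rw [SubMulAction.val_smul, smul_neg]
    · show ((s • z : Zs) : J) = s • (z : J)
      rw [SubMulAction.val_smul]
  have hκinj : ∃ e, Function.Injective (κ e) := ⟨true, fun z z' h => Subtype.ext h⟩
  -- the difference map
  have hdiff : ∀ p : Zs × Zs, ∃ m : M, ι m = (p.2 : J) - (p.1 : J) := by
    rintro ⟨⟨z, m, rfl⟩, ⟨z', m', rfl⟩⟩
    refine ⟨m' - m, ?_⟩
    show ι (m' - m) = (z0 + ι m') - (z0 + ι m)
    rw [map_sub]
    abel
  choose δ hδ using hdiff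
  have hδΓ : ∀ (s : ↥(A.inertiaSubgroupIn ℚ)) (p : Zs × Zs), δ (s • p) = s • δ p := by
    intro s p
    apply hιinj
    rw [hδ, hι, hδ, Prod.smul_snd, Prod.smul_fst, SubMulAction.val_smul, SubMulAction.val_smul,
      smul_sub]
  -- the character lies in the order of `M`
  have hH := orderHyp_setOrder hℓ hA hX ι hιinj hι hιJ1
  obtain ⟨hbasH, hBH, -⟩ := helper7050.exists_fixedBasis_inertia' hℓ A hA _ hH
  have hηH : η ∈ setOrder ℓ A X (fun _ : Unit => (ι : M → J)) :=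
    helper2784.char_mem_of_eqv (helper7050.baseHyp_inertia hℓ A hA) hH hBH η hη hηeqv
  -- the difference law
  obtain ⟨n, a, b', ha, hb', hab⟩ := coordOrder_transfer A (ℓ : Qb)
    (Nat.cast_ne_zero.mpr hℓ.ne_zero) (natCast_mem A ℓ) (harch_Qb hℓ hA) (hunr_Qb hℓ hA) J1 X
    hX.val hXeq hX.inj hX.law κ κ (fun _ : Unit => (ι : M → J)) hκ hκΓ hκinj hκ hκΓ hκinj δ hδΓ
    (fun _ => ⟨false, true, fun t₁ t₂ => by
      rw [hδ]
      show (t₂ : J) - (t₁ : J) = -(t₁ : J) + (t₂ : J)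
      abel⟩) hηH
  -- a basis of the order of the torsor
  obtain ⟨bas, hbas, hbasR⟩ := helper7050.exists_basis_smul (G := ↥(A.inertiaSubgroupIn ℚ)) hℓ A hA
    (fun s => s.1) (fun s hs => ⟨⟨s, hs⟩, rfl⟩)
    (approxOrder A (ℓ : Qb) (natCast_mem A ℓ) ↥(A.inertiaSubgroupIn ℚ) Zs (coordGens X κ))
    (fun φ hφ m => approxOrder_val hφ m)
    (fun φ hφ s m => approxOrder_eqv hφ s m)
    (fun c hc hfix φ hφ => smul_mem_approxOrder hc (fun s => hfix s.1 s.2) hφ)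
    (coordOrder_sep hX.val hXeq hX.inj hκ hκΓ hκinj)
  let zb : Zs := ⟨z0, 0, by simp⟩
  let f : Zs → Qb := fun z => η (δ (zb, z))
  have hf : f = ∑ i, a i zb • b' i := by
    funext z
    simp only [f, hab zb z, Finset.sum_apply, Pi.smul_apply, smul_eq_mul]
  have hγA : ∀ j, bas.repr f j ∈ A := by
    intro j
    rw [hf, map_sum, Finsupp.coe_finsetSum, Finset.sum_apply]
    refine A.sum_mem fun i _ => ?_
    rw [map_smul, Finsupp.smul_apply, smul_eq_mul]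
    exact A.mul_mem _ _ (approxOrder_val (ha i) zb) ((hbasR _).mp (hb' i) j).1
  have hδzb : ∀ (s : ↥(A.inertiaSubgroupIn ℚ)) (z : Zs), δ (zb, s • z) = s • δ (zb, z) + c s := by
    intro s z
    apply hιinj
    rw [hδ, map_add, hι, hδ, hc]
    show ((s • z : Zs) : J) - z0 = s • ((z : J) - z0) + (s • z0 - z0)
    rw [SubMulAction.val_smul, smul_sub]
    abel
  have hftw : ∀ (s : ↥(A.inertiaSubgroupIn ℚ)) (z : Zs), f (s • z) = η (c s) * s • f z := by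
    intro s z
    show η (δ (zb, s • z)) = η (c s) * s • η (δ (zb, z))
    rw [hδzb, hη.2, hηeqv, mul_comm]
  have hexp : ∀ (φ : Zs → Qb) (z : Zs), φ z = ∑ j, bas.repr φ j * bas j z := by
    intro φ z
    conv_lhs => rw [← bas.sum_repr φ]
    simp [Finset.sum_apply]
  have hcoord : ∀ (s : ↥(A.inertiaSubgroupIn ℚ)) j,
      bas.repr f j = η (c s) * s • bas.repr f j := by
    intro s j
    have h1 : f = ∑ j, (η (c s) * s • bas.repr f j) • bas j := by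
      funext z
      have h2 := hftw s (s⁻¹ • z)
      rw [smul_inv_smul] at h2
      rw [h2, hexp f (s⁻¹ • z), Finset.smul_sum, Finset.mul_sum, Finset.sum_apply]
      refine Finset.sum_congr rfl fun j _ => ?_
      rw [smul_mul', ← approxOrder_eqv (hbas j) s (s⁻¹ • z), smul_inv_smul, Pi.smul_apply,
        smul_eq_mul, mul_assoc]
    have h3 := congrFun (bas.repr_sum_self (fun j => η (c s) * s • bas.repr f j)) j
    rw [← h1] at h3
    exact h3
  have hf1 : f zb = 1 := by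
    have h0 : δ (zb, zb) = 0 := by
      apply hιinj
      rw [hδ, map_zero, sub_self]
    show η (δ (zb, zb)) = 1
    rw [h0, hη.1]
  have hex : ∃ j, A.valuation (bas.repr f j) = 1 := by
    by_contra hne
    push Not at hne
    have hlt : ∀ j, A.valuation (bas.repr f j * bas j zb) < 1 := by
      intro j
      rw [map_mul]
      have h1 : A.valuation (bas.repr f j) < 1 :=
        lt_of_le_of_ne ((A.valuation_le_one_iff _).mpr (hγA j)) (hne j)
      exact Left.mul_lt_one_of_lt_of_le h1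
        ((A.valuation_le_one_iff _).mpr (approxOrder_val (hbas j) zb))
    have hsum : A.valuation (∑ j, bas.repr f j * bas j zb) < 1 :=
      Valuation.map_sum_lt _ one_ne_zero (fun j _ => hlt j)
    rw [← hexp f zb, hf1, map_one] at hsum
    exact lt_irrefl _ hsum
  obtain ⟨j, hj⟩ := hex
  have hγ0 : bas.repr f j ≠ 0 := by
    intro h0
    rw [h0, map_zero] at hj
    exact zero_ne_one hj
  refine ⟨(bas.repr f j)⁻¹, ?_, ?_, fun s => ?_⟩
  · rw [← A.valuation_le_one_iff, map_inv₀, hj, inv_one]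
  · rw [inv_inv]
    exact hγA j
  · have h1 := hcoord s j
    have hs0 : s • bas.repr f j ≠ 0 := by
      intro h0
      rw [h0, mul_zero] at h1
      exact hγ0 h1
    rw [smul_inv'', div_eq_mul_inv, inv_inv]
    calc η (c s) = (s • bas.repr f j)⁻¹ * (η (c s) * s • bas.repr f j) := by
          field_simp
      _ = (s • bas.repr f j)⁻¹ * bas.repr f j := by rw [← h1]

/-- The action of the inertia group on an inertia-stable subgroup of a Galois module. -/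
@[reducible] noncomputable def stableAction {Jp : Type*} [AddCommGroup Jp] [DistribMulAction GQ Jp]
    (A : ValuationSubring Qb) (K : AddSubgroup Jp)
    (hK : ∀ σ ∈ A.inertiaSubgroupIn ℚ, ∀ x ∈ K, σ • x ∈ K) :
    DistribMulAction ↥(A.inertiaSubgroupIn ℚ) K where
  smul s x := ⟨s.1 • (x : Jp), hK s.1 s.2 x x.2⟩
  one_smul x := Subtype.ext (one_smul GQ (x : Jp))
  mul_smul s t x := Subtype.ext (mul_smul s.1 t.1 (x : Jp))
  smul_zero s := Subtype.ext (smul_zero s.1)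
  smul_add s x y := Subtype.ext (smul_add s.1 (x : Jp) (y : Jp))

/-- UNIT (block [R], every step with an equivariant character).  `Jp` a Galois module mapped
injectively and inertia-equivariantly to `J` (a level map; `ψ = id` is allowed), `F' ≤ Jp` a
finite inertia-stable subgroup, `φ` an inertia-equivariant character of `F'`, and `y : Jp` with
`σ y - y ∈ F'` for all `σ` in the inertia group.  Then there is a UNIT `β` of `A` with
`φ (σ y - y) = σ β / β` for all `σ` in the inertia group. -/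
theorem exists_unit_of_step (hℓ : ℓ.Prime) (hA : A.LiesOverPrime ℓ) (hX : IsLocCoord ℓ A J1 X)
    {Jp : Type*} [AddCommGroup Jp] [DistribMulAction GQ Jp] (ψ : Jp →+ J)
    (hψinj : Function.Injective ψ)
    (hψ : ∀ σ ∈ A.inertiaSubgroupIn ℚ, ∀ x : Jp, ψ (σ • x) = σ • ψ x)
    (F' : AddSubgroup Jp) [Finite F']
    (hF' : ∀ σ ∈ A.inertiaSubgroupIn ℚ, ∀ x ∈ F', σ • x ∈ F')
    (φ : Jp → Qb) (hφ0 : φ 0 = 1) (hφmul : ∀ x ∈ F', ∀ x' ∈ F', φ (x + x') = φ x * φ x')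
    (hφeqv : ∀ σ ∈ A.inertiaSubgroupIn ℚ, ∀ x ∈ F', φ (σ • x) = σ (φ x))
    (y : Jp) (hy : ∀ σ ∈ A.inertiaSubgroupIn ℚ, σ • y - y ∈ F') :
    ∃ β : Qb, β ∈ A ∧ β⁻¹ ∈ A ∧ ∀ σ ∈ A.inertiaSubgroupIn ℚ, φ (σ • y - y) = σ β / β := by
  classical
  obtain ⟨y0, hy0, hz0⟩ := hX.cen (ψ y)
  have hKst : ∀ σ ∈ A.inertiaSubgroupIn ℚ, ∀ x ∈ F' ⊓ J1.comap ψ, σ • x ∈ F' ⊓ J1.comap ψ := by
    intro σ hσ x hx
    refine ⟨hF' σ hσ x hx.1, ?_⟩
    show ψ (σ • x) ∈ J1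
    rw [hψ σ hσ]
    exact hX.stable σ hσ _ hx.2
  let _inst : DistribMulAction ↥(A.inertiaSubgroupIn ℚ) ↥(F' ⊓ J1.comap ψ) :=
    stableAction A (F' ⊓ J1.comap ψ) hKst
  have _fin : Finite ↥(F' ⊓ J1.comap ψ) :=
    Finite.of_injective (fun x : ↥(F' ⊓ J1.comap ψ) => (⟨x.1, x.2.1⟩ : F'))
      (fun x x' h => Subtype.ext
        (show (x : Jp) = (x' : Jp) from congrArg (fun z : ↥F' => (z : Jp)) h))
  have hcoc : ∀ s : ↥(A.inertiaSubgroupIn ℚ), ψ (s.1 • y - y) = s.1 • (ψ y - y0) - (ψ y - y0) := by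
    intro s
    rw [map_sub, hψ s.1 s.2, smul_sub, hy0 s.1 s.2]
    abel
  have hcK : ∀ s : ↥(A.inertiaSubgroupIn ℚ), s.1 • y - y ∈ F' ⊓ J1.comap ψ := by
    intro s
    refine ⟨hy s.1 s.2, ?_⟩
    show ψ (s.1 • y - y) ∈ J1
    rw [hcoc s]
    exact J1.sub_mem (hX.stable s.1 s.2 _ hz0) hz0
  obtain ⟨β, hβ, hβ', h⟩ := exists_unit_of_cocycle hℓ hA hX
    (ψ.comp (F' ⊓ J1.comap ψ).subtype) (hψinj.comp Subtype.val_injective)
    (fun s m => hψ s.1 s.2 m.1) (fun m => m.2.2) (fun m => φ m.1)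
    ⟨hφ0, fun m m' => hφmul _ m.2.1 _ m'.2.1⟩
    (fun s m => hφeqv s.1 s.2 _ m.2.1) (ψ y - y0) hz0 (fun s => ⟨s.1 • y - y, hcK s⟩)
    (fun s => hcoc s)
  exact ⟨β, hβ, hβ', fun σ hσ => h ⟨σ, hσ⟩⟩

/-- UNIT, Kummer form: if moreover `φ ^ r = 1` on `F'`, then `u := β ^ r` is an inertia-fixed unit
of `A` (a unit of `R0 = A^I`): the Kummer class of the cocycle `σ ↦ φ (σ y - y)` is the class of
a unit. -/
theorem exists_unit_pow_of_step (hℓ : ℓ.Prime) (hA : A.LiesOverPrime ℓ)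
    (hX : IsLocCoord ℓ A J1 X)
    {Jp : Type*} [AddCommGroup Jp] [DistribMulAction GQ Jp] (ψ : Jp →+ J)
    (hψinj : Function.Injective ψ)
    (hψ : ∀ σ ∈ A.inertiaSubgroupIn ℚ, ∀ x : Jp, ψ (σ • x) = σ • ψ x)
    (F' : AddSubgroup Jp) [Finite F']
    (hF' : ∀ σ ∈ A.inertiaSubgroupIn ℚ, ∀ x ∈ F', σ • x ∈ F')
    (φ : Jp → Qb) (hφ0 : φ 0 = 1) (hφmul : ∀ x ∈ F', ∀ x' ∈ F', φ (x + x') = φ x * φ x')
    (hφeqv : ∀ σ ∈ A.inertiaSubgroupIn ℚ, ∀ x ∈ F', φ (σ • x) = σ (φ x))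
    (r : ℕ) (hφr : ∀ x ∈ F', φ x ^ r = 1)
    (y : Jp) (hy : ∀ σ ∈ A.inertiaSubgroupIn ℚ, σ • y - y ∈ F') :
    ∃ β : Qb, β ∈ A ∧ β⁻¹ ∈ A ∧ (∀ σ ∈ A.inertiaSubgroupIn ℚ, φ (σ • y - y) = σ β / β) ∧
      (∀ σ ∈ A.inertiaSubgroupIn ℚ, σ (β ^ r) = β ^ r) ∧
      (∀ σ ∈ A.inertiaSubgroupIn ℚ, σ ((β ^ r)⁻¹) = (β ^ r)⁻¹) := by
  obtain ⟨β, hβ, hβ', h⟩ := exists_unit_of_step hℓ hA hX ψ hψinj hψ F' hF' φ hφ0 hφmul hφeqv y hy
  have hβ0 : β ≠ 0 := by
    rintro rfl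
    have h1 := h 1 (Subgroup.one_mem _)
    rw [one_smul, sub_self, hφ0] at h1
    simp at h1
  have hfix : ∀ σ ∈ A.inertiaSubgroupIn ℚ, σ (β ^ r) = β ^ r := by
    intro σ hσ
    have h1 := h σ hσ
    have h2 : σ β = φ (σ • y - y) * β := by
      rw [h1]
      field_simp
    rw [map_pow, h2, mul_pow, hφr _ (hy σ hσ), one_mul]
  exact ⟨β, hβ, hβ', h, hfix, fun σ hσ => by rw [map_inv₀, hfix σ hσ]⟩

/-- ETALE (block [R], trivial steps, `ℓ` odd).  `F ≤ F'` inertia-stable subgroups of `Jp`, `F'`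
finite, `ℓ F' ⊆ F`, inertia acting trivially on `F' / F`.  If `σ y - y ∈ F'` for all `σ` in the
inertia group, then `σ y - y ∈ F` for all `σ` in the inertia group: the class of `y` in the step
is unramified. -/
theorem smul_sub_mem_of_trivial_step (hℓ : ℓ.Prime) (hℓ2 : ℓ ≠ 2) (hA : A.LiesOverPrime ℓ)
    (hX : IsLocCoord ℓ A J1 X)
    {Jp : Type*} [AddCommGroup Jp] [DistribMulAction GQ Jp] (ψ : Jp →+ J)
    (hψinj : Function.Injective ψ)
    (hψ : ∀ σ ∈ A.inertiaSubgroupIn ℚ, ∀ x : Jp, ψ (σ • x) = σ • ψ x)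
    (F F' : AddSubgroup Jp) [Finite F']
    (hF : ∀ σ ∈ A.inertiaSubgroupIn ℚ, ∀ x ∈ F, σ • x ∈ F)
    (hF' : ∀ σ ∈ A.inertiaSubgroupIn ℚ, ∀ x ∈ F', σ • x ∈ F')
    (hkill : ∀ x ∈ F', ℓ • x ∈ F)
    (htriv : ∀ σ ∈ A.inertiaSubgroupIn ℚ, ∀ x ∈ F', σ • x - x ∈ F)
    (y : Jp) (hy : ∀ σ ∈ A.inertiaSubgroupIn ℚ, σ • y - y ∈ F') :
    ∀ σ ∈ A.inertiaSubgroupIn ℚ, σ • y - y ∈ F := by
  classical
  intro σ hσ
  have hKst : ∀ σ ∈ A.inertiaSubgroupIn ℚ, ∀ x ∈ F' ⊓ J1.comap ψ, σ • x ∈ F' ⊓ J1.comap ψ := by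
    intro σ hσ x hx
    refine ⟨hF' σ hσ x hx.1, ?_⟩
    show ψ (σ • x) ∈ J1
    rw [hψ σ hσ]
    exact hX.stable σ hσ _ hx.2
  let _inst : DistribMulAction ↥(A.inertiaSubgroupIn ℚ) ↥(F' ⊓ J1.comap ψ) :=
    stableAction A (F' ⊓ J1.comap ψ) hKst
  have _fin : Finite ↥(F' ⊓ J1.comap ψ) :=
    Finite.of_injective (fun x : ↥(F' ⊓ J1.comap ψ) => (⟨x.1, x.2.1⟩ : F'))
      (fun x x' h => Subtype.ext
        (show (x : Jp) = (x' : Jp) from congrArg (fun z : ↥F' => (z : Jp)) h))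
  have hm : σ • y - y ∈ F' ⊓ J1.comap ψ := by
    refine ⟨hy σ hσ, ?_⟩
    show ψ (σ • y - y) ∈ J1
    rw [map_sub, hψ σ hσ]
    exact smul_sub_mem_J1 hX (ψ y) σ hσ
  have h := mem_of_trivial_step_of_coord hℓ hℓ2 hA hX
    (ψ.comp (F' ⊓ J1.comap ψ).subtype) (hψinj.comp Subtype.val_injective)
    (fun s m => hψ s.1 s.2 m.1) (fun m => m.2.2)
    (F.comap (F' ⊓ J1.comap ψ).subtype) (fun s x hx => hF s.1 s.2 _ hx)
    ⟨σ • y - y, hm⟩ (hkill _ hm.1) (fun s => htriv s.1 s.2 _ hm.1)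
  exact h

end Generic

section Jacobian

open ModularCurve

variable {ℓ N : ℕ} {A : ValuationSubring Qb} {g : ℕ} {J1 : AddSubgroup (JZero N)}
  {b : JZero N → Fin g → Qb}

/-- UNIT at the level of the coordinate system: for a finite inertia-stable subgroup `F'` of
`J₀(N)`, an inertia-equivariant character `φ` of `F'` and `y` with `σ y - y ∈ F'` for all `σ` in
the inertia group of `A`, the cocycle `σ ↦ φ (σ y - y)` is `σ β / β` with `β` a unit of `A`. -/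
theorem exists_unit_of_isCoordSystem (hℓ : ℓ.Prime) (hA : A.LiesOverPrime ℓ)
    (hc : IsCoordSystem ℓ N A g J1 b) (hloc : ∀ x ∈ J1, ∀ i, b x i ∈ A.nonunits)
    (F' : AddSubgroup (JZero N)) [Finite F']
    (hF' : ∀ σ ∈ A.inertiaSubgroupIn ℚ, ∀ x ∈ F', σ • x ∈ F')
    (φ : JZero N → Qb) (hφ0 : φ 0 = 1) (hφmul : ∀ x ∈ F', ∀ x' ∈ F', φ (x + x') = φ x * φ x')
    (hφeqv : ∀ σ ∈ A.inertiaSubgroupIn ℚ, ∀ x ∈ F', φ (σ • x) = σ (φ x))
    (y : JZero N) (hy : ∀ σ ∈ A.inertiaSubgroupIn ℚ, σ • y - y ∈ F') :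
    ∃ β : Qb, β ∈ A ∧ β⁻¹ ∈ A ∧ ∀ σ ∈ A.inertiaSubgroupIn ℚ, φ (σ • y - y) = σ β / β :=
  exists_unit_of_step hℓ hA (isLocCoord_of_isCoordSystem hc hloc) (AddMonoidHom.id (JZero N))
    Function.injective_id (fun _ _ _ => rfl) F' hF' φ hφ0 hφmul hφeqv y hy

/-- ETALE at the level of the coordinate system (`ℓ` odd). -/
theorem smul_sub_mem_of_isCoordSystem (hℓ : ℓ.Prime) (hℓ2 : ℓ ≠ 2) (hA : A.LiesOverPrime ℓ)
    (hc : IsCoordSystem ℓ N A g J1 b) (hloc : ∀ x ∈ J1, ∀ i, b x i ∈ A.nonunits)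
    (F F' : AddSubgroup (JZero N)) [Finite F']
    (hF : ∀ σ ∈ A.inertiaSubgroupIn ℚ, ∀ x ∈ F, σ • x ∈ F)
    (hF' : ∀ σ ∈ A.inertiaSubgroupIn ℚ, ∀ x ∈ F', σ • x ∈ F')
    (hkill : ∀ x ∈ F', ℓ • x ∈ F)
    (htriv : ∀ σ ∈ A.inertiaSubgroupIn ℚ, ∀ x ∈ F', σ • x - x ∈ F)
    (y : JZero N) (hy : ∀ σ ∈ A.inertiaSubgroupIn ℚ, σ • y - y ∈ F') :
    ∀ σ ∈ A.inertiaSubgroupIn ℚ, σ • y - y ∈ F :=
  smul_sub_mem_of_trivial_step hℓ hℓ2 hA (isLocCoord_of_isCoordSystem hc hloc)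
    (AddMonoidHom.id (JZero N)) Function.injective_id (fun _ _ _ => rfl) F F' hF hF' hkill htriv
    y hy

end Jacobian

end Fermat.Agent.S15.helper2532
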