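/-
S15 (Mazur block), registry leaf BND-CNT-G2 = G2-CONJ (helper3281): the count
"#trivial steps = L/2" for an odd Eisenstein prime, from the WEIL ISOTROPY of the two eigenspaces
of complex conjugation.  UNCONDITIONAL on top of the landed bundled Weil pairing
`S19.helper2790.weilJ` (reciprocity and nondegeneracy are theorems there).

Let `W₀` be a finite group of odd exponent `n` with a nondegenerate bimultiplicative pairing `e`
and an involution `c` such that `e (c x) (c y) = (e x y)⁻¹` (complex conjugation inverts roots of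
unity and the Weil pairing is Galois-equivariant).  Then both eigenspaces

  `W₀⁺ = {x ∈ W₀ | c x = x}`,   `W₀⁻ = {x ∈ W₀ | c x = - x}`

are isotropic (`e(x,y) = e(cx,cy) = e(x,y)⁻¹`, so `e(x,y)² = 1 = e(x,y)ⁿ`), `W₀ = W₀⁺ ⊕ W₀⁻`
because `2` is invertible modulo `n`, and therefore `#W₀⁺ ^ 2 = #W₀ = #W₀⁻ ^ 2`.

* `card_eigen_sq_core`, `card_eigen_sq_of_le` : abstract forms (on `helper2790.Pairing`);
* `card_eigen_sq_complexConjugation` : `J₀(N)`, `c =` the Prelude `complexConjugation`, `W₀` any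
  conjugation-stable subgroup of `J₀(N)[n]` (`n` odd) on which `weilJ N n` is nondegenerate;
* `weilJ_nondeg_on_of_selfAdjoint` : nondegeneracy on the image `W₀` of a self-adjoint projector
  (Hecke idempotent) of `J₀(N)[n]`;
* `card_eigen_sq_complexConjugation_of_proj` : the two combined, no hypothesis left except the
  projector data;
* `card_le_card_fix_sq_of_proj` : the inequality in the shape consumed by the abstract count.

The eigenspaces are taken as ARBITRARY subgroups `Lp`, `Lm` with the membership characterisation,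
so any carrier (`fixIn`, `fixPts`, kernels, `⊓`) can be plugged in.
-/
import Fermat.Agent.S19.helper2790_WeilJDual
import Fermat.Agent.S30.helper6350_CycloPkg

set_option autoImplicit false

open AlgebraicCurve ModularCurve

namespace Fermat.Agent.S15.helper3281

open Fermat.Agent.S19.helper2790 Fermat.Agent.S19.helper2111

/-! ### Abstract count -/

section Abstract

variable {W : Type*} [AddCommGroup W] {K : Type*} [Field K]

/-- `a² = 1` and `aⁿ = 1` with `n` odd force `a = 1`. -/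
theorem eq_one_of_sq_of_pow_odd {a : K} {n : ℕ} (hn : Odd n) (h2 : a ^ 2 = 1) (h : a ^ n = 1) :
    a = 1 := by
  obtain ⟨k, rfl⟩ := hn
  rwa [pow_succ, pow_mul, h2, one_pow, one_mul] at h

/-- `2 z = 0` and `n z = 0` with `n` odd force `z = 0`. -/
theorem eq_zero_of_two_nsmul_of_odd {n : ℕ} (hn : Odd n) {z : W} (h2 : 2 • z = 0)
    (h : n • z = 0) : z = 0 := by
  obtain ⟨k, rfl⟩ := hn
  rwa [add_nsmul, mul_nsmul, h2, nsmul_zero, zero_add, one_nsmul] at h

theorem bimul_nsmul_left {e : W → W → K} (he : Pairing.IsBimul e) (k : ℕ) (x y : W) :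
    e (k • x) y = e x y ^ k := by
  induction k with
  | zero => rw [zero_smul, he.zero_left, pow_zero]
  | succ k ih => rw [succ_nsmul, he.add_left, ih, pow_succ]

/-- **Core count.**  A finite abelian group `W` of odd exponent with a nondegenerate
bimultiplicative pairing `e` and an involution `c` with `e (c x) (c y) = (e x y)⁻¹`: both
eigenspaces of `c` have exactly `√#W` elements. -/
theorem card_eigen_sq_core [Finite W] (e : W → W → K) (he : Pairing.IsBimul e)
    (hK : ∀ m : ℕ, m ≠ 0 → HasEnoughRootsOfUnity K m)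
    (hnd : ∀ y, y ≠ 0 → ∃ x, e x y ≠ 1) (c : W →+ W) (hcc : ∀ x, c (c x) = x)
    (hce : ∀ x y, e (c x) (c y) = (e x y)⁻¹) {n : ℕ} (hn : Odd n) (hW : ∀ x : W, n • x = 0)
    (Lp Lm : AddSubgroup W) (hLp : ∀ y, y ∈ Lp ↔ c y = y) (hLm : ∀ y, y ∈ Lm ↔ c y = -y) :
    Nat.card Lp ^ 2 = Nat.card W ∧ Nat.card Lm ^ 2 = Nat.card W := by
  have hpown : ∀ x y, e x y ^ n = 1 := fun x y => by
    rw [← bimul_nsmul_left he, hW, he.zero_left]
  have hsq_of : ∀ x y, e x y = (e x y)⁻¹ → e x y = 1 := fun x y hxy => by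
    refine eq_one_of_sq_of_pow_odd hn ?_ (hpown x y)
    rw [sq]
    nth_rewrite 1 [hxy]
    exact inv_mul_cancel₀ (he.ne_zero x y)
  have isoP : ∀ x ∈ Lp, ∀ y ∈ Lp, e x y = 1 := fun x hx y hy => by
    refine hsq_of x y ?_
    have h1 := hce x y
    rwa [(hLp x).mp hx, (hLp y).mp hy] at h1
  have isoM : ∀ x ∈ Lm, ∀ y ∈ Lm, e x y = 1 := fun x hx y hy => by
    refine hsq_of x y ?_
    have h1 := hce x y
    rwa [(hLm x).mp hx, (hLm y).mp hy, he.neg_left, he.neg_right, inv_inv] at h1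
  have hP := Pairing.card_sq_le_of_isotropic he hK hnd Lp isoP
  have hM := Pairing.card_sq_le_of_isotropic he hK hnd Lm isoM
  have hprod : Nat.card W = Nat.card Lp * Nat.card Lm := by
    obtain ⟨k, hk⟩ := hn
    let f : Lp × Lm → W := fun p => (p.1 : W) + (p.2 : W)
    have hf : Function.Bijective f := by
      constructor
      · rintro ⟨a, b⟩ ⟨a', b'⟩ hab
        have hab' : (a : W) + b = a' + b' := hab
        have hz1 : c ((a : W) - a') = (a : W) - a' := by
          rw [map_sub, (hLp a).mp a.2, (hLp a').mp a'.2]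
        have hz2 : c ((a : W) - a') = -((a : W) - a') := by
          have hzb : (a : W) - a' = b' - b := by
            rw [sub_eq_sub_iff_add_eq_add, hab', add_comm]
          rw [hzb, map_sub, (hLm b').mp b'.2, (hLm b).mp b.2]
          abel
        have h2z : 2 • ((a : W) - a') = 0 := by
          rw [two_nsmul]
          nth_rewrite 1 [← hz1]
          rw [hz2]
          exact neg_add_cancel _
        have hz : (a : W) - a' = 0 :=
          eq_zero_of_two_nsmul_of_odd ⟨k, hk⟩ h2z (hW _)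
        have ha : (a : W) = a' := sub_eq_zero.mp hz
        have hb : (b : W) = b' := by
          rw [ha] at hab'
          exact add_left_cancel hab'
        exact Prod.ext (Subtype.ext ha) (Subtype.ext hb)
      · intro x
        have hxx : (k + 1) • (2 • x) = x := by
          rw [← mul_nsmul, show 2 * (k + 1) = n + 1 by omega, add_nsmul, hW, zero_add,
            one_nsmul]
        refine ⟨(⟨(k + 1) • (x + c x), ?_⟩, ⟨(k + 1) • (x - c x), ?_⟩), ?_⟩
        · rw [hLp, map_nsmul, map_add, hcc, add_comm (c x) x]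
        · rw [hLm, map_nsmul, map_sub, hcc, ← neg_nsmul, neg_sub]
        · show (k + 1) • (x + c x) + (k + 1) • (x - c x) = x
          rw [← nsmul_add, show x + c x + (x - c x) = 2 • x by rw [two_nsmul]; abel]
          exact hxx
    rw [← Nat.card_prod]
    exact (Nat.card_congr (Equiv.ofBijective f hf)).symm
  have hPpos : 0 < Nat.card Lp := Nat.card_pos
  have hMpos : 0 < Nat.card Lm := Nat.card_pos
  rw [hprod, sq] at hP hM
  have h1 : Nat.card Lp ≤ Nat.card Lm := Nat.le_of_mul_le_mul_left hP hPpos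
  have h2 : Nat.card Lm ≤ Nat.card Lp := by
    rw [mul_comm (Nat.card Lp)] at hM
    exact Nat.le_of_mul_le_mul_left hM hMpos
  have heq := le_antisymm h1 h2
  exact ⟨by rw [hprod, sq, ← heq], by rw [hprod, sq, heq]⟩

/-- **Relative form.**  `W₀` a finite subgroup of `V` of odd exponent `n`; all hypotheses are only
required on `W₀` (the pairing need not be bimultiplicative outside `W₀`, `c` need not be additive
outside `W₀`). -/
theorem card_eigen_sq_of_le {V : Type*} [AddCommGroup V] (e : V → V → K)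
    (hK : ∀ m : ℕ, m ≠ 0 → HasEnoughRootsOfUnity K m)
    (W₀ : AddSubgroup V) [Finite W₀]
    (hadd_l : ∀ x ∈ W₀, ∀ x' ∈ W₀, ∀ y ∈ W₀, e (x + x') y = e x y * e x' y)
    (hadd_r : ∀ x ∈ W₀, ∀ y ∈ W₀, ∀ y' ∈ W₀, e x (y + y') = e x y * e x y')
    (hne : ∀ x ∈ W₀, ∀ y ∈ W₀, e x y ≠ 0)
    (hnd : ∀ y ∈ W₀, y ≠ 0 → ∃ x ∈ W₀, e x y ≠ 1)
    (c : V → V) (hcW : ∀ x ∈ W₀, c x ∈ W₀)
    (hcadd : ∀ x ∈ W₀, ∀ y ∈ W₀, c (x + y) = c x + c y)
    (hcc : ∀ x ∈ W₀, c (c x) = x)
    (hce : ∀ x ∈ W₀, ∀ y ∈ W₀, e (c x) (c y) = (e x y)⁻¹)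
    {n : ℕ} (hn : Odd n) (hW : ∀ x ∈ W₀, n • x = 0)
    (Lp Lm : AddSubgroup V) (hLp : ∀ y, y ∈ Lp ↔ y ∈ W₀ ∧ c y = y)
    (hLm : ∀ y, y ∈ Lm ↔ y ∈ W₀ ∧ c y = -y) :
    Nat.card Lp ^ 2 = Nat.card W₀ ∧ Nat.card Lm ^ 2 = Nat.card W₀ := by
  have hc0 : c 0 = 0 := by
    have h1 := hcadd 0 W₀.zero_mem 0 W₀.zero_mem
    rw [add_zero] at h1
    exact left_eq_add.mp h1
  let c' : W₀ →+ W₀ :=
    { toFun := fun x => ⟨c x, hcW x x.2⟩
      map_zero' := Subtype.ext hc0
      map_add' := fun x y => Subtype.ext (hcadd x x.2 y y.2) }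
  have h' : Pairing.IsBimul (fun x y : W₀ => e (x : V) (y : V)) :=
    ⟨fun x y => hne x x.2 y y.2, fun x y y' => hadd_r x x.2 y y.2 y' y'.2,
      fun x x' y => hadd_l x x.2 x' x'.2 y y.2⟩
  have hnd' : ∀ y : W₀, y ≠ 0 → ∃ x : W₀, e (x : V) (y : V) ≠ 1 := by
    intro y hy
    obtain ⟨x, hx, hne1⟩ := hnd y y.2 (fun h0 => hy (Subtype.ext h0))
    exact ⟨⟨x, hx⟩, hne1⟩
  have hLpW : Lp ≤ W₀ := fun y hy => ((hLp y).mp hy).1
  have hLmW : Lm ≤ W₀ := fun y hy => ((hLm y).mp hy).1
  have key := card_eigen_sq_core (fun x y : W₀ => e (x : V) (y : V)) h' hK hnd' c'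
    (fun x => Subtype.ext (hcc x x.2)) (fun x y => hce x x.2 y y.2) hn
    (fun x => Subtype.ext (by
      rw [AddSubgroup.coe_nsmul, AddSubgroup.coe_zero]
      exact hW x x.2))
    (Lp.addSubgroupOf W₀) (Lm.addSubgroupOf W₀)
    (fun y => by
      rw [AddSubgroup.mem_addSubgroupOf, hLp]
      constructor
      · rintro ⟨-, hy⟩
        exact Subtype.ext hy
      · intro hy
        exact ⟨y.2, congrArg Subtype.val hy⟩)
    (fun y => by
      rw [AddSubgroup.mem_addSubgroupOf, hLm]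
      constructor
      · rintro ⟨-, hy⟩
        exact Subtype.ext hy
      · intro hy
        exact ⟨y.2, congrArg Subtype.val hy⟩)
  rwa [Nat.card_congr (AddSubgroup.addSubgroupOfEquivOfLe hLpW).toEquiv,
    Nat.card_congr (AddSubgroup.addSubgroupOfEquivOfLe hLmW).toEquiv] at key

/-- Exponent form for the flag count: if `#W₀ = r ^ L` and the fixed part has `r ^ t` elements
(`t =` number of trivial steps of a `c`-stable flag with steps of order `r`), then `2 * t = L`. -/
theorem two_mul_eq_of_card_sq {r t L a b : ℕ} (hr : 2 ≤ r) (ha : a = r ^ t) (hb : b = r ^ L)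
    (h : a ^ 2 = b) : 2 * t = L := by
  rw [ha, hb, ← pow_mul, mul_comm] at h
  exact Nat.pow_right_injective hr h

end Abstract

/-! ### The instance `J₀(N)`, complex conjugation -/

section Modular

variable (N : ℕ) [NeZero N]

/-- A subgroup of `J₀(N)` killed by `n > 0` is finite. -/
theorem finite_of_nsmul_eq_zero {n : ℕ} (hn : 0 < n) (W₀ : AddSubgroup (JZero N))
    (hW : ∀ x ∈ W₀, n • x = 0) : Finite W₀ := by
  have := finite_torsJ N hn
  refine Finite.of_injective (fun x : W₀ => (⟨(x : JZero N), ?_⟩ : TorsJ N n)) ?_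
  · rw [Submodule.mem_torsionBy_iff, natCast_zsmul]
    exact hW x x.2
  · intro a b hab
    have h1 : ((⟨(a : JZero N), _⟩ : TorsJ N n) : JZero N)
        = ((⟨(b : JZero N), _⟩ : TorsJ N n) : JZero N) := congrArg Subtype.val hab
    exact Subtype.ext h1

variable {N}

/-- Complex conjugation inverts the Weil pairing: `e_n(c x, c y) = e_n(x, y)⁻¹`. -/
theorem weilJ_complexConjugation {n : ℕ} (hn : n ≠ 0) {x y : JZero N} (hx : n • x = 0)
    (hy : n • y = 0) :
    weilJ N n (complexConjugation • x) (complexConjugation • y) = (weilJ N n x y)⁻¹ := by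
  rw [weilJ_galois complexConjugation hx hy]
  exact Fermat.Agent.S30.helper6350.complexConjugation_root_of_unity hn (weilJ_pow hx hy)

/-- Relation-level adjointness (the shape `IsWeilValue n (E x) y c → IsWeilValue n x (E y) c`)
gives adjointness for `weilJ`. -/
theorem weilJ_adj_of_rel {n : ℕ} {E : JZero N → JZero N} {x y : JZero N} (hEx : n • E x = 0)
    (hy : n • y = 0)
    (h : ∀ c : Qb, IsWeilValue n (E x) y c → IsWeilValue n x (E y) c) :
    weilJ N n (E x) y = weilJ N n x (E y) :=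
  (weilJ_eq (h _ (weilJ_spec hEx hy))).symm

/-- Nondegeneracy of the Weil pairing on the image `W₀` of a self-adjoint projector `E` of the
`n`-torsion (e.g. a Hecke idempotent: `W₀ = E J₀(N)[n]`). -/
theorem weilJ_nondeg_on_of_selfAdjoint {n : ℕ} (hn : 0 < n) (W₀ : AddSubgroup (JZero N))
    (hW : ∀ x ∈ W₀, n • x = 0) (E : JZero N → JZero N)
    (hEW : ∀ y : JZero N, n • y = 0 → E y ∈ W₀) (hEid : ∀ x ∈ W₀, E x = x)
    (hEadj : ∀ x y : JZero N, n • x = 0 → n • y = 0 →
      weilJ N n (E x) y = weilJ N n x (E y)) :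
    ∀ y ∈ W₀, y ≠ 0 → ∃ x ∈ W₀, weilJ N n x y ≠ 1 := by
  intro y hy hy0
  obtain ⟨x, hx, hne⟩ := weilJ_nondeg hn (hW y hy) hy0
  refine ⟨E x, hEW x hx, ?_⟩
  rw [hEadj x y hx (hW y hy), hEid y hy]
  exact hne

variable (N)

/-- **(G2-CONJ).**  `W₀` a subgroup of `J₀(N)[n]`, `n` odd, stable under complex conjugation, on
which the Weil pairing `weilJ N n` is nondegenerate.  Then the fixed part and the anti-fixed part
of complex conjugation on `W₀` both have `√#W₀` elements. -/
theorem card_eigen_sq_complexConjugation {n : ℕ} (hn : Odd n) (W₀ : AddSubgroup (JZero N))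
    (hW : ∀ x ∈ W₀, n • x = 0) (hcW : ∀ x ∈ W₀, complexConjugation • x ∈ W₀)
    (hnd : ∀ y ∈ W₀, y ≠ 0 → ∃ x ∈ W₀, weilJ N n x y ≠ 1)
    (Lp Lm : AddSubgroup (JZero N))
    (hLp : ∀ y, y ∈ Lp ↔ y ∈ W₀ ∧ complexConjugation • y = y)
    (hLm : ∀ y, y ∈ Lm ↔ y ∈ W₀ ∧ complexConjugation • y = -y) :
    Nat.card Lp ^ 2 = Nat.card W₀ ∧ Nat.card Lm ^ 2 = Nat.card W₀ := by
  have hn0 : n ≠ 0 := hn.pos.ne'
  have := finite_of_nsmul_eq_zero N hn.pos W₀ hW
  exact card_eigen_sq_of_le (weilJ N n) hasEnoughRootsOfUnity_Qb W₀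
    (fun x hx x' hx' y hy => weilJ_add_left (hW x hx) (hW x' hx') (hW y hy))
    (fun x hx y hy y' hy' => weilJ_add_right (hW x hx) (hW y hy) (hW y' hy'))
    (fun x _ y _ => weilJ_ne_zero x y) hnd (fun x => complexConjugation • x) hcW
    (fun x _ y _ => smul_add complexConjugation x y)
    (fun x _ => by
      show complexConjugation • complexConjugation • x = x
      rw [← mul_smul, complexConjugation_mul_self, one_smul])
    (fun x hx y hy => weilJ_complexConjugation hn0 (hW x hx) (hW y hy))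
    hn hW Lp Lm hLp hLm

/-- **(G2-CONJ), projector form.**  `W₀ = E (J₀(N)[n])` for a map `E` that is the identity on
`W₀` and self-adjoint for the Weil pairing (a Hecke idempotent); no nondegeneracy hypothesis. -/
theorem card_eigen_sq_complexConjugation_of_proj {n : ℕ} (hn : Odd n)
    (W₀ : AddSubgroup (JZero N))
    (hW : ∀ x ∈ W₀, n • x = 0) (hcW : ∀ x ∈ W₀, complexConjugation • x ∈ W₀)
    (E : JZero N → JZero N) (hEW : ∀ y : JZero N, n • y = 0 → E y ∈ W₀)
    (hEid : ∀ x ∈ W₀, E x = x)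
    (hEadj : ∀ x y : JZero N, n • x = 0 → n • y = 0 →
      weilJ N n (E x) y = weilJ N n x (E y))
    (Lp Lm : AddSubgroup (JZero N))
    (hLp : ∀ y, y ∈ Lp ↔ y ∈ W₀ ∧ complexConjugation • y = y)
    (hLm : ∀ y, y ∈ Lm ↔ y ∈ W₀ ∧ complexConjugation • y = -y) :
    Nat.card Lp ^ 2 = Nat.card W₀ ∧ Nat.card Lm ^ 2 = Nat.card W₀ :=
  card_eigen_sq_complexConjugation N hn W₀ hW hcW
    (weilJ_nondeg_on_of_selfAdjoint hn.pos W₀ hW E hEW hEid hEadj) Lp Lm hLp hLm

/-- Consumer shape of the abstract count (`hc : #(F L) ≤ #(F L ⊓ fix c) ^ 2`): for any subgroup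
`Fix` containing the conjugation-fixed elements of `W₀`. -/
theorem card_le_card_fix_sq {n : ℕ} (hn : Odd n) (W₀ : AddSubgroup (JZero N))
    (hW : ∀ x ∈ W₀, n • x = 0) (hcW : ∀ x ∈ W₀, complexConjugation • x ∈ W₀)
    (hnd : ∀ y ∈ W₀, y ≠ 0 → ∃ x ∈ W₀, weilJ N n x y ≠ 1)
    (Fix : AddSubgroup (JZero N)) (hFix : ∀ y, y ∈ Fix ↔ complexConjugation • y = y) :
    Nat.card W₀ ≤ Nat.card ↥(W₀ ⊓ Fix) ^ 2 := by
  let Lm : AddSubgroup (JZero N) :=
    { carrier := {y | y ∈ W₀ ∧ complexConjugation • y = -y}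
      zero_mem' := ⟨W₀.zero_mem, by rw [smul_zero, neg_zero]⟩
      add_mem' := fun {a b} ha hb => ⟨W₀.add_mem ha.1 hb.1, by
        rw [smul_add, ha.2, hb.2, neg_add]⟩
      neg_mem' := fun {a} ha => ⟨W₀.neg_mem ha.1, by rw [smul_neg, ha.2]⟩ }
  have h := (card_eigen_sq_complexConjugation N hn W₀ hW hcW hnd (W₀ ⊓ Fix) Lm
    (fun y => by rw [AddSubgroup.mem_inf, hFix]) (fun y => Iff.rfl)).1
  exact h.ge

end Modular

end Fermat.Agent.S15.helper3281
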