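import Fermat.Agent.S35.helper1687_UqCong
import Fermat.Agent.S35.helper1073_AtkinLehnerBridge
import Fermat.Agent.S17.helper3753_RedStab

/-!
# S15 (P1), backup copy (helper5418): the free half for NON-torsion points

`τ` in the inertia group of a valuation subring `A` of `ℚ̄` (any residue characteristic, no
relation to the level `M` or to `n`), `y ∈ J₀(M)(ℚ̄)` arbitrary with `n • y` rational.  Then
`τ y - y` lies in the toric part `K^∞_n ⊓ K^0_n` of the S35 geometry leaf
(`helper1687.kInfty`, `helper1687.kZero`, the carriers of `helper2039.Stmt_TorFrob` /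
`Stmt_TorFix`).

* `kummer_of_fixed_divisor` : **(P1-abs)** for a semilinear automorphism `g`, a degree-zero
  divisor `E`, a `g`-fixed divisor `D` and `u ≠ 0` with `n E - D = div u`: `g u / u` is an
  `n`-Kummer element with class `g [E] - [E]`.
* `inertia_sub_mem_kInfty_of_divisor`, `inertia_sub_mem_inf_of_divisor` : **(P1)** with the
  explicit hypothesis "the class `n • y` contains a `τ`-fixed degree-zero divisor".
* `exists_fixed_divisor_of_fixed` : a Galois-fixed class of `J₀(M)` contains a Galois-fixed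
  degree-zero divisor (landed S17 reduced divisors, base place the cusp `∞`).
* `inertia_sub_mem_kInfty_of_fixed`, `inertia_sub_mem_inf_of_fixed` : **(P1-rat)** for every `y`
  with `n • y` Galois-fixed.
* `inertia_sub_mem_inf_atkinLehnerBar` : **(P1-W)** the instance `W = W_q`
  (`helper1073.atkinLehnerBar`), i.e. exactly the carriers of `Stmt_TorFrob` / `Stmt_TorFix`.
-/

set_option autoImplicit false

open ModularCurve AlgebraicCurve

namespace Fermat.Agent.S15.helper5418

noncomputable section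

local notation "Kbar" => AlgebraicClosure ℚ
local notation "GQ" => (AlgebraicClosure ℚ ≃ₐ[ℚ] AlgebraicClosure ℚ)

open Fermat.Agent.S29.helper8217
open Fermat.Agent.S35.helper1687 (kInfty kZero IsOneAt exists_isOneAt_inertia mem_kZero_iff_exists)

/-! ### The abstract statement -/

section Abstract

variable {K F : Type*} [Field K] [Field F] [Algebra K F] [HasPrincipalDivisors K F]

/-- **(P1-abs).**  If `n E - D = div u` with `D` fixed by the semilinear automorphism `g`, then
`g u / u` is an `n`-Kummer element and its Kummer class is `g [E] - [E]`. -/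
theorem kummer_of_fixed_divisor {n : ℕ} (hn : n ≠ 0) (g : SemilinearAut K F)
    (E : Divisor.degZero (K := K) (F := F)) (D : Divisor K F) (hD : g • D = D) {u : F}
    (hu : u ≠ 0)
    (h : ∀ v : Place K F, (n : ℤ) * (E : Divisor K F) v - D v = v.ord u) :
    IsKummer K n (g • u / u) ∧ kummerClass K n (g • u / u) = g • Pic0.mk E - Pic0.mk E := by
  have hgu : g • u ≠ 0 := by
    rw [SemilinearAut.smul_def]
    exact (map_ne_zero _).mpr hu
  have hq : g • u / u ≠ 0 := div_ne_zero hgu hu
  have key : ∀ v : Place K F,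
      (n : ℤ) * ((SemilinearAut.degZeroSMulHom g E - E : Divisor.degZero (K := K) (F := F)) :
        Divisor K F) v = v.ord (g • u / u) := by
    intro v
    have h1 := h (g⁻¹ • v)
    have h2 := h v
    have h3 : D (g⁻¹ • v) = D v := by
      rw [← SemilinearAut.divisor_smul_apply, hD]
    have h4 : (g⁻¹ • v).ord u = v.ord (g • u) := by
      have := SemilinearAut.ord_smul g (g⁻¹ • v) u
      rw [smul_inv_smul] at this
      exact this.symm
    have h5 : v.ord (g • u / u) = v.ord (g • u) - v.ord u := by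
      rw [div_eq_mul_inv, v.ord_mul hgu (inv_ne_zero hu), v.ord_inv]
      ring
    have h6 : ((SemilinearAut.degZeroSMulHom g E - E : Divisor.degZero (K := K) (F := F)) :
        Divisor K F) v = (E : Divisor K F) (g⁻¹ • v) - (E : Divisor K F) v := by
      rw [AddSubgroup.coe_sub, SemilinearAut.coe_degZeroSMulHom, Finsupp.sub_apply,
        SemilinearAut.divisor_smul_apply]
    rw [h6, h5, ← h4, ← h1, ← h2, h3]
    ring
  obtain ⟨hk, hkd⟩ := isKummer_of_zsmul_eq hn hq key
  refine ⟨hk, ?_⟩
  rw [kummerClass_eq_mk_of_eq hk _ hkd.symm, SemilinearAut.pic0_smul_mk]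
  rfl

end Abstract

/-! ### (P1) on `J₀(M)`, explicit fixed divisor -/

section Concrete

variable {A : ValuationSubring Kbar} {M n : ℕ} [NeZero M]

/-- The function behind (P1): `τ y - y` is the Kummer class of `τ u / u`, where
`n E - D = div u`, `y = [E]`. -/
theorem exists_kummer_of_divisor {τ : GQ} (hn : n ≠ 0) {y : JZero M}
    (D : Divisor.degZero (K := Kbar) (F := modularFunctionFieldBar M))
    (hD : arithmeticGalois (modularFunctionFieldFull M) τ •
      (D : Divisor Kbar (modularFunctionFieldBar M)) = D)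
    (hy : (n : ℤ) • y = Pic0.mk D) :
    ∃ u : modularFunctionFieldBar M, u ≠ 0 ∧
      IsKummer Kbar n (arithmeticGalois (modularFunctionFieldFull M) τ • u / u) ∧
      kummerClass Kbar n (arithmeticGalois (modularFunctionFieldFull M) τ • u / u) =
        τ • y - y := by
  obtain ⟨E, rfl⟩ := Pic0.mk_surjective y
  have h0 : Pic0.mk ((n : ℤ) • E - D) = 0 := by
    have e : Pic0.mk ((n : ℤ) • E - D) = (n : ℤ) • Pic0.mk E - Pic0.mk D := rfl
    rw [e, hy]
    exact sub_self _
  rw [mk_eq_zero_iff] at h0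
  obtain ⟨u, hu, hu'⟩ := h0
  have h : ∀ v : Place Kbar (modularFunctionFieldBar M),
      (n : ℤ) * (E : Divisor Kbar (modularFunctionFieldBar M)) v -
        (D : Divisor Kbar (modularFunctionFieldBar M)) v = v.ord u := by
    intro v
    rw [← hu' v, AddSubgroup.coe_sub, Finsupp.sub_apply, AddSubgroup.coe_zsmul,
      Finsupp.smul_apply, smul_eq_mul]
  obtain ⟨hk, hc⟩ := kummer_of_fixed_divisor hn
    (arithmeticGalois (modularFunctionFieldFull M) τ) E D hD hu h
  refine ⟨u, hu, hk, ?_⟩
  rw [hc, galois_smul_pic0_def]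

/-- **(P1), `K^∞` half.**  `τ` in the inertia group of `A`, the class `n • y` containing a
`τ`-fixed degree-zero divisor: `τ y - y ∈ K^∞_n`. -/
theorem inertia_sub_mem_kInfty_of_divisor {τ : GQ} (hτ : τ ∈ A.inertiaSubgroupIn ℚ) (hn : n ≠ 0)
    {y : JZero M} (D : Divisor.degZero (K := Kbar) (F := modularFunctionFieldBar M))
    (hD : arithmeticGalois (modularFunctionFieldFull M) τ •
      (D : Divisor Kbar (modularFunctionFieldBar M)) = D)
    (hy : (n : ℤ) • y = Pic0.mk D) : τ • y - y ∈ kInfty A M n := by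
  obtain ⟨u, hu, hk, hc⟩ := exists_kummer_of_divisor hn D hD hy
  obtain ⟨c, hc0, ho⟩ := exists_isOneAt_inertia (A := A) hτ hu
  have hck : IsKummer Kbar n (algebraMap Kbar (modularFunctionFieldBar M) c) :=
    isKummer_of_ord_eq_zero n ((map_ne_zero _).mpr hc0) (fun v => ord_algebraMap v c)
  have e : arithmeticGalois (modularFunctionFieldFull M) τ • u /
      (algebraMap Kbar (modularFunctionFieldBar M) c * u) =
      (arithmeticGalois (modularFunctionFieldFull M) τ • u / u) /
        algebraMap Kbar (modularFunctionFieldBar M) c := by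
    rw [div_mul_eq_div_div_swap]
  rw [e] at ho
  refine ⟨_, hk.div hck, ho, ?_⟩
  rw [kummerClass_div hk hck, kummerClass_algebraMap, sub_zero, hc]

/-- **(P1).**  `τ` in the inertia group of `A`, `W` a `ℚ̄`-automorphism of `F_M` commuting with
the arithmetic Galois action, the class `n • y` containing a `τ`-fixed degree-zero divisor:
`τ y - y ∈ K^∞_n ⊓ K^0_n`. -/
theorem inertia_sub_mem_inf_of_divisor {τ : GQ} (hτ : τ ∈ A.inertiaSubgroupIn ℚ)
    (W : modularFunctionFieldBar M ≃ₐ[Kbar] modularFunctionFieldBar M)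
    (hW : ∀ (σ : GQ) (z : modularFunctionFieldBar M),
      W (arithmeticGalois (modularFunctionFieldFull M) σ • z) =
        arithmeticGalois (modularFunctionFieldFull M) σ • W z)
    (hn : n ≠ 0) {y : JZero M}
    (D : Divisor.degZero (K := Kbar) (F := modularFunctionFieldBar M))
    (hD : arithmeticGalois (modularFunctionFieldFull M) τ •
      (D : Divisor Kbar (modularFunctionFieldBar M)) = D)
    (hy : (n : ℤ) • y = Pic0.mk D) : τ • y - y ∈ kInfty A M n ⊓ kZero A M n W := by
  refine ⟨inertia_sub_mem_kInfty_of_divisor hτ hn D hD hy, ?_⟩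
  obtain ⟨u, hu, hk, hc⟩ := exists_kummer_of_divisor hn D hD hy
  have hWu : W.symm u ≠ 0 := (map_ne_zero _).mpr hu
  obtain ⟨c, hc0, ho⟩ := exists_isOneAt_inertia (A := A) hτ hWu
  have hck : IsKummer Kbar n (algebraMap Kbar (modularFunctionFieldBar M) c) :=
    isKummer_of_ord_eq_zero n ((map_ne_zero _).mpr hc0) (fun v => ord_algebraMap v c)
  have hsymm : arithmeticGalois (modularFunctionFieldFull M) τ • W.symm u =
      W.symm (arithmeticGalois (modularFunctionFieldFull M) τ • u) := by
    apply W.injective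
    rw [hW, AlgEquiv.apply_symm_apply, AlgEquiv.apply_symm_apply]
  have e : W.symm ((arithmeticGalois (modularFunctionFieldFull M) τ • u / u) /
        algebraMap Kbar (modularFunctionFieldBar M) c) =
      arithmeticGalois (modularFunctionFieldFull M) τ • W.symm u /
        (algebraMap Kbar (modularFunctionFieldBar M) c * W.symm u) := by
    rw [map_div₀, map_div₀, AlgEquiv.commutes, hsymm, div_mul_eq_div_div_swap]
  refine mem_kZero_iff_exists.mpr ⟨_, hk.div hck, ?_, ?_⟩
  · rw [e]
    exact ho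
  · rw [kummerClass_div hk hck, kummerClass_algebraMap, sub_zero, hc]

end Concrete

/-! ### (P1-rat): the fixed divisor from the landed S17 reduced divisors -/

section Rational

variable {A : ValuationSubring Kbar} {M n : ℕ} [NeZero M]

/-- A Galois-fixed class of `J₀(M)` contains a Galois-fixed degree-zero divisor
(`E - deg E • ∞` with `E` the reduced divisor of the class for the base place `∞`). -/
theorem exists_fixed_divisor_of_fixed (ξ : JZero M) (hξ : ∀ σ : GQ, σ • ξ = ξ) :
    ∃ D : Divisor.degZero (K := Kbar) (F := modularFunctionFieldBar M),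
      (∀ σ : GQ, arithmeticGalois (modularFunctionFieldFull M) σ •
        (D : Divisor Kbar (modularFunctionFieldBar M)) = D) ∧ ξ = Pic0.mk D := by
  obtain ⟨E, hE, -, hdeg, hcls⟩ := Fermat.Agent.S17.helper3753.exists_isRat_rep_qPlaceL M ξ hξ
    (le_refl _)
  have := Fermat.Agent.S29.helper36.finiteDimensional_jL Kbar M
  have hp : Fermat.Agent.S17.helper1298.RedPkg Kbar (modularFunctionFieldBar M) :=
    Fermat.Agent.S17.helper1298.redPkg_of_finite (Fermat.Agent.S29.helper36.jL Kbar M)
      (Fermat.Agent.S29.helper36.transcendental_jL Kbar M)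
  have hd0 : Divisor.degree (E - Divisor.degree E •
      Fermat.Agent.S27.helper6247.pt (Fermat.Agent.S29.helper36.qPlaceL Kbar M)) = 0 :=
    Fermat.Agent.S17.helper1298.degree_sub_degree_smul_pt hp.deg _ E
  refine ⟨⟨_, hd0⟩, fun σ => ?_, ?_⟩
  · show arithmeticGalois (modularFunctionFieldFull M) σ • (E - Divisor.degree E •
      Fermat.Agent.S27.helper6247.pt (Fermat.Agent.S29.helper36.qPlaceL Kbar M)) = _
    rw [smul_sub, hE σ, smul_comm, Fermat.Agent.S17.helper1298.smul_pt,
      Fermat.Agent.S17.helper3753.isRatPlace_qPlaceL M σ]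
  · rw [← hcls]
    exact Fermat.Agent.S17.helper1298.cls_of_degree hd0

/-- **(P1-rat), `K^∞` half.**  `n • y` Galois-fixed, `τ` in the inertia group of `A`:
`τ y - y ∈ K^∞_n`. -/
theorem inertia_sub_mem_kInfty_of_fixed {τ : GQ} (hτ : τ ∈ A.inertiaSubgroupIn ℚ) (hn : n ≠ 0)
    {y : JZero M} (hy : ∀ σ : GQ, σ • ((n : ℤ) • y) = (n : ℤ) • y) :
    τ • y - y ∈ kInfty A M n := by
  obtain ⟨D, hD, hyD⟩ := exists_fixed_divisor_of_fixed ((n : ℤ) • y) hy
  exact inertia_sub_mem_kInfty_of_divisor hτ hn D (hD τ) hyD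

/-- **(P1-rat).**  `n • y` Galois-fixed, `τ` in the inertia group of `A`, `W` commuting with
Galois: `τ y - y ∈ K^∞_n ⊓ K^0_n`. -/
theorem inertia_sub_mem_inf_of_fixed {τ : GQ} (hτ : τ ∈ A.inertiaSubgroupIn ℚ)
    (W : modularFunctionFieldBar M ≃ₐ[Kbar] modularFunctionFieldBar M)
    (hW : ∀ (σ : GQ) (z : modularFunctionFieldBar M),
      W (arithmeticGalois (modularFunctionFieldFull M) σ • z) =
        arithmeticGalois (modularFunctionFieldFull M) σ • W z)
    (hn : n ≠ 0) {y : JZero M} (hy : ∀ σ : GQ, σ • ((n : ℤ) • y) = (n : ℤ) • y) :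
    τ • y - y ∈ kInfty A M n ⊓ kZero A M n W := by
  obtain ⟨D, hD, hyD⟩ := exists_fixed_divisor_of_fixed ((n : ℤ) • y) hy
  exact inertia_sub_mem_inf_of_divisor hτ W hW hn D (hD τ) hyD

/-- **(P1-W).**  The instance `W = W_q` (`helper1073.atkinLehnerBar`), `q ∥ M`: for `τ` in the
inertia group of ANY valuation subring `A` of `ℚ̄` and `n • y` Galois-fixed, `τ y - y` lies in
the carrier `K^∞ ⊓ W_q K^∞` of `helper2039.Stmt_TorFrob` / `Stmt_TorFix`. -/
theorem inertia_sub_mem_inf_atkinLehnerBar (q : ℕ) (hq : q.Prime) (hqM : q ∣ M)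
    (hq2 : ¬ q ^ 2 ∣ M) {τ : GQ} (hτ : τ ∈ A.inertiaSubgroupIn ℚ) (hn : n ≠ 0) {y : JZero M}
    (hy : ∀ σ : GQ, σ • ((n : ℤ) • y) = (n : ℤ) • y) :
    τ • y - y ∈ kInfty A M n ⊓
      kZero A M n (Fermat.Agent.S35.helper1073.atkinLehnerBar M q hq hqM hq2) :=
  inertia_sub_mem_inf_of_fixed hτ _
    (fun σ z => Fermat.Agent.S35.helper1073.atkinLehnerBar_arithmeticGalois_smul M q hq hqM hq2
      σ z) hn hy

/-- (P1-W) with the hypothesis written with the `ℕ`-multiple `n • y`. -/
theorem inertia_sub_mem_inf_atkinLehnerBar_nsmul (q : ℕ) (hq : q.Prime) (hqM : q ∣ M)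
    (hq2 : ¬ q ^ 2 ∣ M) {τ : GQ} (hτ : τ ∈ A.inertiaSubgroupIn ℚ) (hn : n ≠ 0) {y : JZero M}
    (hy : ∀ σ : GQ, σ • (n • y) = n • y) :
    τ • y - y ∈ kInfty A M n ⊓
      kZero A M n (Fermat.Agent.S35.helper1073.atkinLehnerBar M q hq hqM hq2) :=
  inertia_sub_mem_inf_atkinLehnerBar q hq hqM hq2 hτ hn (fun σ => by
    rw [natCast_zsmul]
    exact hy σ)

/-- `τ y - y` is `n`-torsion when `n • y` is Galois-fixed (recorded for consumers: the
membership in `K^∞_n` already implies it). -/
theorem nsmul_inertia_sub_eq_zero {τ : GQ} (hτ : τ ∈ A.inertiaSubgroupIn ℚ) (hn : n ≠ 0)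
    {y : JZero M} (hy : ∀ σ : GQ, σ • ((n : ℤ) • y) = (n : ℤ) • y) :
    (n : ℤ) • (τ • y - y) = 0 :=
  Pic0.mem_torsion.mp
    (Fermat.Agent.S35.helper1687.kInfty_le_torsion (inertia_sub_mem_kInfty_of_fixed hτ hn hy))

end Rational

end

end Fermat.Agent.S15.helper5418
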