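/-
S15 (Mazur block), registry row EXT-S35-TOR (helper578, liaison seat to S34/S35).

SEAM PRE-FLIGHT between the S35 geometry module and block [P] of S15 (`BND-LOC-P`, `BND-CNT-P2`).
Nothing new is proved here: this file only INSTANTIATES, at the prime level `M = q = p`, what is
on main in `Fermat/Agent/S35`, so that the S15 Spec can name the ONE open S35 Prop
(`S35.helper2039.Stmt_TorFrobAux`) once, and so that the plug is type-checked before S35 lands.

* `wP p hp` : the Atkin–Lehner (Fricke) involution `W_p` of `F_p = ℚ̄(X₀(p))`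
  (`S35.helper1073.atkinLehnerBar p p`);
* `tor A p hp n` : the toric part `K^∞_n ⊓ W_p K^∞_n` of `J₀(p)` at the valuation subring `A ∣ p`
  (classes of `n`-Kummer functions `≡ 1` at both Gauss valuations over `A`);
* `inertia_sub_mem_tor` : the free half for TORSION points (landed `helper1687.inertia_sub_mem_inf`):
  `τ x - x ∈ tor A p hp n` for `τ` in the inertia group of `A` and `n x = 0`;
* `frobSq_of_mem_tor` : `σ² = p²` on `tor A p hp (r ^ k)` for a Frobenius lift `σ` at `A ∣ p`,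
  `r ≠ p` prime, FROM `Stmt_TorFrobAux` (through the landed descent
  `S35.helper1270.stmt_TorFrob_of_aux'`; the auxiliary level is `lcm(p, auxPrime r p) ∈ {2p, 3p}`);
* `Stmt_TorFrobP`, `stmt_TorFrobP_of_aux`, `stmt_TorFrobP_of_torFrob` : the same as one Prop;
* `inertia_smul_of_mem_tor` : the S34 twin (inertia at `p` acts trivially on `tor`) from the
  aux-level form of (TORFIX) (`S35.helper1270.stmt_TorFix_of_aux`), in case a consumer wants it.
-/
import Fermat.Agent.S35.helper1270_TorFrobDesc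

set_option autoImplicit false

noncomputable section

namespace Fermat.Agent.S15.helper578

open ModularCurve AlgebraicCurve

local notation "Kbar" => AlgebraicClosure ℚ
local notation "GQ" => (AlgebraicClosure ℚ ≃ₐ[ℚ] AlgebraicClosure ℚ)

/-- A prime is exactly divisible by itself. -/
theorem not_sq_dvd_self_of_prime {p : ℕ} (hp : p.Prime) : ¬ p ^ 2 ∣ p := by
  intro h
  have h1 : p ^ 2 ≤ p := Nat.le_of_dvd hp.pos h
  have h2 : 2 ≤ p := hp.two_le
  nlinarith

/-- The Atkin–Lehner involution `W_p` of the function field of `X₀(p)`. -/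
def wP (p : ℕ) [NeZero p] (hp : p.Prime) :
    modularFunctionFieldBar p ≃ₐ[Kbar] modularFunctionFieldBar p :=
  Fermat.Agent.S35.helper1073.atkinLehnerBar p p hp dvd_rfl (not_sq_dvd_self_of_prime hp)

/-- `W_p` commutes with the arithmetic Galois action. -/
theorem wP_arithmeticGalois_smul (p : ℕ) [NeZero p] (hp : p.Prime) (σ : GQ)
    (z : modularFunctionFieldBar p) :
    wP p hp (arithmeticGalois (modularFunctionFieldFull p) σ • z) =
      arithmeticGalois (modularFunctionFieldFull p) σ • wP p hp z :=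
  Fermat.Agent.S35.helper1073.atkinLehnerBar_arithmeticGalois_smul p p hp dvd_rfl
    (not_sq_dvd_self_of_prime hp) σ z

/-- **The toric part of `J₀(p)` at `A ∣ p`, level `n`**: `K^∞_n ⊓ W_p K^∞_n`. -/
def tor (A : ValuationSubring Kbar) (p : ℕ) [NeZero p] (hp : p.Prime) (n : ℕ) :
    AddSubgroup (JZero p) :=
  Fermat.Agent.S35.helper1687.kInfty A p n ⊓
    Fermat.Agent.S35.helper1687.kZero A p n (wP p hp)

theorem mem_tor_iff {A : ValuationSubring Kbar} {p : ℕ} [NeZero p] {hp : p.Prime} {n : ℕ}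
    {y : JZero p} :
    y ∈ tor A p hp n ↔ y ∈ Fermat.Agent.S35.helper1687.kInfty A p n ∧
      y ∈ Fermat.Agent.S35.helper1687.kZero A p n (wP p hp) := Iff.rfl

/-- **Free half for torsion points** (landed): `τ x - x ∈ Tor_n` for `τ` in the inertia group of
`A` and `n x = 0`. -/
theorem inertia_sub_mem_tor {A : ValuationSubring Kbar} {p : ℕ} [NeZero p] (hp : p.Prime)
    {τ : GQ} (hτ : τ ∈ A.inertiaSubgroupIn ℚ) {n : ℕ} (hn : n ≠ 0) {x : JZero p}
    (hx : (n : ℤ) • x = 0) : τ • x - x ∈ tor A p hp n :=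
  Fermat.Agent.S35.helper1687.inertia_sub_mem_inf (A := A) hτ (wP p hp)
    (wP_arithmeticGalois_smul p hp) hn hx

/-- **The S35 export that block [P] of S15 consumes**, at `(M, q, lam) = (p, p, r)`. -/
def Stmt_TorFrobP : Prop :=
  ∀ (p : ℕ) [NeZero p] (hp : p.Prime) (r : ℕ), r.Prime → r ≠ p → ∀ (k : ℕ)
    (A : ValuationSubring Kbar), A.LiesOverPrime p → ∀ σ : GQ, A.IsFrobeniusAt σ p →
    ∀ y : JZero p, y ∈ tor A p hp (r ^ k) → σ • σ • y = p ^ 2 • y

/-- From the level-general S35 leaf (TORFROB). -/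
theorem stmt_TorFrobP_of_torFrob (hT : Fermat.Agent.S35.helper2039.Stmt_TorFrob) :
    Stmt_TorFrobP := by
  intro p _ hp r hr hrp k A hA σ hσ y hy
  exact hT p p hp dvd_rfl (not_sq_dvd_self_of_prime hp) r hr hrp k A hA σ hσ y hy.1 hy.2

/-- From the ONE open S35 Prop (TORFROB-AUX), through the landed level descent. -/
theorem stmt_TorFrobP_of_aux (hT : Fermat.Agent.S35.helper2039.Stmt_TorFrobAux) :
    Stmt_TorFrobP :=
  stmt_TorFrobP_of_torFrob (Fermat.Agent.S35.helper1270.stmt_TorFrob_of_aux' hT)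

/-- Pointwise form: `σ² = p²` on `Tor_{r^k}` of `J₀(p)`, for a Frobenius lift `σ` at `A ∣ p`. -/
theorem frobSq_of_mem_tor (hT : Fermat.Agent.S35.helper2039.Stmt_TorFrobAux) {p : ℕ} [NeZero p]
    (hp : p.Prime) {r : ℕ} (hr : r.Prime) (hrp : r ≠ p) (k : ℕ) {A : ValuationSubring Kbar}
    (hA : A.LiesOverPrime p) {σ : GQ} (hσ : A.IsFrobeniusAt σ p) {y : JZero p}
    (hy : y ∈ tor A p hp (r ^ k)) : σ • σ • y = p ^ 2 • y :=
  stmt_TorFrobP_of_aux hT p hp r hr hrp k A hA σ hσ y hy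

/-- Composite form used by the isotropy count: for a torsion point `x` (`r^k x = 0`), inertia
elements `τ` at `A ∣ p` and a Frobenius lift `σ` at `A`: `σ² (τ x - x) = p² (τ x - x)`. -/
theorem frobSq_inertia_sub (hT : Fermat.Agent.S35.helper2039.Stmt_TorFrobAux) {p : ℕ} [NeZero p]
    (hp : p.Prime) {r : ℕ} (hr : r.Prime) (hrp : r ≠ p) (k : ℕ) {A : ValuationSubring Kbar}
    (hA : A.LiesOverPrime p) {σ : GQ} (hσ : A.IsFrobeniusAt σ p) {τ : GQ}
    (hτ : τ ∈ A.inertiaSubgroupIn ℚ) {x : JZero p} (hx : ((r ^ k : ℕ) : ℤ) • x = 0) :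
    σ • σ • (τ • x - x) = p ^ 2 • (τ • x - x) :=
  frobSq_of_mem_tor hT hp hr hrp k hA hσ
    (inertia_sub_mem_tor hp hτ (pow_ne_zero k hr.ne_zero) hx)

/-- The S34 twin at prime level: the inertia group of `A ∣ p` acts trivially on `Tor_{r^k}`,
from the aux-level form of (TORFIX). -/
theorem inertia_smul_of_mem_tor
    (hAux : ∀ (M : ℕ) [NeZero M] (q : ℕ) (hq : q.Prime) (hqM : q ∣ M) (hq2 : ¬ q ^ 2 ∣ M)
      (r : ℕ) (_hr : r = 2 ∨ r = 3) (_hrq : r ≠ q) (_hrM : r ∣ M)
      (lam : ℕ) (_hlam : lam.Prime) (_hlamq : lam ≠ q) (k : ℕ)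
      (A : ValuationSubring Kbar) (_hA : A.LiesOverPrime q) (τ : GQ)
      (_hτ : τ ∈ A.inertiaSubgroupIn ℚ) (y : JZero M),
      y ∈ Fermat.Agent.S35.helper1687.kInfty A M (lam ^ k) →
      y ∈ Fermat.Agent.S35.helper1687.kZero A M (lam ^ k)
          (Fermat.Agent.S35.helper1073.atkinLehnerBar M q hq hqM hq2) →
      τ • y = y)
    {p : ℕ} [NeZero p] (hp : p.Prime) {r : ℕ} (hr : r.Prime) (hrp : r ≠ p) (k : ℕ)
    {A : ValuationSubring Kbar} (hA : A.LiesOverPrime p) {τ : GQ}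
    (hτ : τ ∈ A.inertiaSubgroupIn ℚ) {y : JZero p} (hy : y ∈ tor A p hp (r ^ k)) :
    τ • y = y :=
  Fermat.Agent.S35.helper1270.stmt_TorFix_of_aux hAux p p hp dvd_rfl
    (not_sq_dvd_self_of_prime hp) r hr hrp k A hA τ hτ y hy.1 hy.2

end Fermat.Agent.S15.helper578
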