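/-
S15 (Mazur block), deltas (D1), (D2) of findings #3364 (helper8357): two FORMAL consequences of the
Weil pairing relation `IsWeilValue` on `J₀(N)` (S19 route W, `helper1527_WeilPairing`), stated
against the names that are on main.  The only hypothesis beyond landed theorems is Weil
reciprocity `Reciprocity ℚ̄ F_N` (leaf W1b of S19 route W).

* (D1) `weil_pow_eq_one_of_frobSq` : if a Frobenius lift `σ` at `q` satisfies `σ² = q²` on `x`
  and on `y` (this is the conclusion of the S35 geometry leaf `S35.helper2039.Stmt_TorFrob` on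
  the toric part `K^∞ ⊓ W_q K^∞`), then `e_n(x, y)^(q² - 1) = 1` for every `n` prime to `q`.
  So the toric part is isotropic up to the bounded exponent `gcd(n, q² - 1)`.
  `weil_eq_one_of_frobSq_lift` : the exact statement at level `r`: if `x`, `y` are of level
  `r^(v+1)`, `r^(v+1) ∤ q² - 1`, then `e_r(r^v x, r^v y) = 1`.

* (D2) `weil_adjoint_of_es` : an operator `T` satisfying the Eichler–Shimura relation
  `σ² - T σ + ℓ = 0` on `J₀(N)[n]` for ONE Frobenius lift `σ` at `ℓ ∤ n` is self-adjoint for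
  `e_n` (`T = σ + ℓ σ⁻¹`, and the adjoint of `σ` is `ℓ σ⁻¹`).  No transpose correspondence.
  `weil_heckeOperatorBar_adjoint` : the instance `T = heckeOperatorBar N ℓ`, with the relation
  in the shape of the landed `S29.helper405.stmt_ESMod_of_kf0`.

Everything is relation-level (`IsWeilValue n x y c` reads `c = e_n(x, y)`).
-/
import Fermat.Agent.S19.helper1527_WeilModular
import Fermat.Agent.S30.helper6350_CycloPkg
import Fermat.Agent.Lib.helper54_Frobenius

set_option autoImplicit false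

open AlgebraicCurve ModularCurve

namespace Fermat.Agent.S15.helper8357

open Fermat.Agent.S19.helper2790 Fermat.Agent.S19.helper2111 Fermat.Agent.S19.helper1527

noncomputable section

variable {N : ℕ} [NeZero N]

/-! ### Working API of the pairing relation on `J₀(N)` -/

/-- The pairing is defined on the `n`-torsion. -/
theorem wv_exists {n : ℕ} {x y : JZero N} (hx : n • x = 0) (hy : n • y = 0) :
    ∃ c : Qb, IsWeilValue n x y c :=
  weilExists_FN N n x y (by rw [natCast_zsmul]; exact hx) (by rw [natCast_zsmul]; exact hy)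

/-- The value is unique. -/
theorem wv_unique (hR : Reciprocity Qb (modularFunctionFieldBar N)) {n : ℕ} {x y : JZero N}
    {c c' : Qb} (h : IsWeilValue n x y c) (h' : IsWeilValue n x y c') : c = c' :=
  weilUnique_FN N hR n x y c c' h h'

theorem wv_add_right (hR : Reciprocity Qb (modularFunctionFieldBar N)) {n : ℕ}
    {x y y' : JZero N} {c c' : Qb} (h : IsWeilValue n x y c) (h' : IsWeilValue n x y' c') :
    IsWeilValue n x (y + y') (c * c') :=
  weilMul_FN N hR n x y y' c c' h h'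

theorem wv_add_left (hR : Reciprocity Qb (modularFunctionFieldBar N)) {n : ℕ}
    {x x' y : JZero N} {c c' : Qb} (h : IsWeilValue n x y c) (h' : IsWeilValue n x' y c') :
    IsWeilValue n (x + x') y (c * c') :=
  haveI := hasPrincipalDivisors_FN N
  weilMulLeft (hasValues_FN N) hR n x x' y c c' h h'

theorem wv_nsmul_right {n : ℕ} {x y : JZero N} {c : Qb} (h : IsWeilValue n x y c) (k : ℕ) :
    IsWeilValue n x (k • y) (c ^ k) :=
  isWeilValue_nsmul_right (hasValues_FN N) h k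

theorem wv_nsmul_left {n : ℕ} {x y : JZero N} {c : Qb} (h : IsWeilValue n x y c) (k : ℕ) :
    IsWeilValue n (k • x) y (c ^ k) := by
  have h1 := isWeilValue_symm (wv_nsmul_right (isWeilValue_symm h) k)
  rwa [inv_pow, inv_inv] at h1

/-- The values are `n`-th roots of unity. -/
theorem wv_pow_eq_one (hR : Reciprocity Qb (modularFunctionFieldBar N)) {n : ℕ} {x y : JZero N}
    {c : Qb} (h : IsWeilValue n x y c) : c ^ n = 1 :=
  isWeilValue_pow_eq_one (hasValues_FN N) hR h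

omit [NeZero N] in
/-- Galois equivariance: `e_n(σ x, σ y) = σ (e_n(x, y))`. -/
theorem wv_galois {n : ℕ} {x y : JZero N} {c : Qb} (h : IsWeilValue n x y c) (σ : GQ) :
    IsWeilValue n (σ • x) (σ • y) (σ c) :=
  weilSemilinear n (arithmeticGalois (modularFunctionFieldFull N) σ) x y c h

/-! ### (D1) Isotropy from `σ² = q²` -/

/-- **(D1)** If a Frobenius lift `σ` at `q` acts on `x` and on `y` with `σ² = q²`, then
`e_n(x, y)^(q² - 1) = 1` for every `n` prime to `q`. -/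
theorem weil_pow_eq_one_of_frobSq (hR : Reciprocity Qb (modularFunctionFieldBar N))
    {q n : ℕ} (hqn : Nat.Coprime q n) {A : ValuationSubring Qb} (hA : A.LiesOverPrime q)
    {σ : GQ} (hσ : A.IsFrobeniusAt σ q) {x y : JZero N}
    (hx : σ • σ • x = q ^ 2 • x) (hy : σ • σ • y = q ^ 2 • y) {c : Qb}
    (h : IsWeilValue n x y c) : c ^ (q ^ 2 - 1) = 1 := by
  rcases Nat.eq_zero_or_pos q with hq0 | hq0
  · subst hq0
    simp
  have hc : c ^ n = 1 := wv_pow_eq_one hR h
  have hσc : σ c = c ^ q :=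
    Fermat.Agent.S30.helper6350.IsFrobeniusAt.apply_root_of_unity hσ hA hqn hc
  have h1 := wv_galois (wv_galois h σ) σ
  rw [hx, hy] at h1
  have h2 := wv_nsmul_left (wv_nsmul_right h (q ^ 2)) (q ^ 2)
  have h3 : σ (σ c) = (c ^ q ^ 2) ^ q ^ 2 := wv_unique hR h1 h2
  have h4 : σ (σ c) = c ^ q ^ 2 := by rw [hσc, map_pow, hσc, ← pow_mul, sq]
  have hc0 : c ≠ 0 := h.ne_zero
  have hq1 : 1 ≤ q ^ 2 := Nat.one_le_pow _ _ hq0
  have h5 : c ^ (q ^ 2 * (q ^ 2 - 1)) = 1 := by
    have e : q ^ 2 * (q ^ 2 - 1) + q ^ 2 = q ^ 2 * q ^ 2 := by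
      have e1 : q ^ 2 - 1 + 1 = q ^ 2 := Nat.sub_add_cancel hq1
      calc q ^ 2 * (q ^ 2 - 1) + q ^ 2 = q ^ 2 * (q ^ 2 - 1 + 1) := by ring
        _ = q ^ 2 * q ^ 2 := by rw [e1]
    have h6 : c ^ (q ^ 2 * (q ^ 2 - 1)) * c ^ q ^ 2 = 1 * c ^ q ^ 2 := by
      rw [← pow_add, e, pow_mul, ← h3, h4, one_mul]
    exact mul_right_cancel₀ (pow_ne_zero _ hc0) h6
  have hd1 : orderOf c ∣ n := orderOf_dvd_of_pow_eq_one hc
  have hd2 : orderOf c ∣ q ^ 2 * (q ^ 2 - 1) := orderOf_dvd_of_pow_eq_one h5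
  have hcop : Nat.Coprime (orderOf c) (q ^ 2) :=
    Nat.Coprime.coprime_dvd_left hd1 (hqn.symm.pow_right 2)
  exact orderOf_dvd_iff_pow_eq_one.mp (hcop.dvd_of_dvd_mul_left hd2)

/-- **(D1), exact at level `r`.**  If `x`, `y` are killed by `r^(v+1)`, a Frobenius lift `σ` at
`q ≠ r` acts on both with `σ² = q²`, and `r^(v+1) ∤ q² - 1`, then `e_r(r^v x, r^v y) = 1`. -/
theorem weil_eq_one_of_frobSq_lift (hR : Reciprocity Qb (modularFunctionFieldBar N))
    {q r v : ℕ} (hr : r.Prime) (hqr : Nat.Coprime q r) (hv : ¬ r ^ (v + 1) ∣ q ^ 2 - 1)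
    {A : ValuationSubring Qb} (hA : A.LiesOverPrime q) {σ : GQ} (hσ : A.IsFrobeniusAt σ q)
    {x y : JZero N} (hxt : r ^ (v + 1) • x = 0) (hyt : r ^ (v + 1) • y = 0)
    (hx : σ • σ • x = q ^ 2 • x) (hy : σ • σ • y = q ^ 2 • y) {c : Qb}
    (h : IsWeilValue r (r ^ v • x) (r ^ v • y) c) : c = 1 := by
  obtain ⟨c', hc'⟩ := wv_exists hxt hyt
  have h1 : c' ^ (q ^ 2 - 1) = 1 :=
    weil_pow_eq_one_of_frobSq hR (Nat.Coprime.pow_right _ hqr) hA hσ hx hy hc'
  have h2 : c' ^ r ^ (v + 1) = 1 := wv_pow_eq_one hR hc'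
  have h3 : c' ^ r ^ v = 1 := by
    have hd : orderOf c' ∣ r ^ (v + 1) := orderOf_dvd_of_pow_eq_one h2
    obtain ⟨j, hj, hjeq⟩ := (Nat.dvd_prime_pow hr).mp hd
    have hjv : j ≤ v := by
      by_contra hlt
      have hj1 : j = v + 1 := by omega
      apply hv
      rw [← hj1, ← hjeq]
      exact orderOf_dvd_of_pow_eq_one h1
    apply orderOf_dvd_iff_pow_eq_one.mp
    rw [hjeq]
    exact pow_dvd_pow r hjv
  have h4 : IsWeilValue (r ^ v * r) x (r ^ v • y) (c' ^ r ^ v) := by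
    rw [← pow_succ]
    exact wv_nsmul_right hc' (r ^ v)
  have hy1 : (r : ℤ) • (r ^ v • y) = 0 := by
    rw [natCast_zsmul, ← mul_nsmul', ← pow_succ']
    exact hyt
  have := hasPrincipalDivisors_FN N
  have h5 := isWeilValue_of_mul_exponent (hasValues_FN N) hR h4 hy1
  rw [h3] at h5
  exact wv_unique hR h h5

/-! ### (D2) Self-adjointness from the Eichler–Shimura relation -/

/-- **(D2)** An operator `T` satisfying the Eichler–Shimura relation `σ²x - T(σx) + ℓx = 0` on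
the `n`-torsion, for ONE Frobenius lift `σ` at a prime `ℓ ∤ n`, is self-adjoint for the Weil
pairing `e_n`: `e_n(T x, y) = e_n(x, T y)`. -/
theorem weil_adjoint_of_es (hR : Reciprocity Qb (modularFunctionFieldBar N))
    {n ℓ : ℕ} (hℓn : Nat.Coprime ℓ n) {A : ValuationSubring Qb} (hA : A.LiesOverPrime ℓ)
    {σ : GQ} (hσ : A.IsFrobeniusAt σ ℓ) (T : JZero N → JZero N)
    (hES : ∀ x : JZero N, n • x = 0 → σ • σ • x - T (σ • x) + ℓ • x = 0)
    {x y : JZero N} (hx : n • x = 0) (hy : n • y = 0) :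
    ∃ C : Qb, IsWeilValue n (T x) y C ∧ IsWeilValue n x (T y) C := by
  have htor : ∀ z : JZero N, n • z = 0 → n • (σ⁻¹ • z) = 0 := by
    intro z hz
    rw [smul_comm, hz]
    exact smul_zero (A := JZero N) σ⁻¹
  have hform : ∀ z : JZero N, n • z = 0 → T z = σ • z + ℓ • (σ⁻¹ • z) := by
    intro z hz
    have h1 := hES (σ⁻¹ • z) (htor z hz)
    rw [smul_inv_smul] at h1
    have h2 : T z = σ • z + ℓ • (σ⁻¹ • z) - (σ • z - T z + ℓ • (σ⁻¹ • z)) := by abel
    rw [h2, h1, sub_zero]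
  have hroot : ∀ {u v : JZero N} {a : Qb}, IsWeilValue n u v a → σ a = a ^ ℓ := fun h =>
    Fermat.Agent.S30.helper6350.IsFrobeniusAt.apply_root_of_unity hσ hA hℓn (wv_pow_eq_one hR h)
  obtain ⟨a, ha⟩ := wv_exists hx (htor y hy)
  obtain ⟨b, hb⟩ := wv_exists (htor x hx) hy
  have ha1 : IsWeilValue n (σ • x) y (a ^ ℓ) := by
    have h1 := wv_galois ha σ
    rwa [smul_inv_smul, hroot ha] at h1
  have ha2 : IsWeilValue n x (ℓ • (σ⁻¹ • y)) (a ^ ℓ) := wv_nsmul_right ha ℓ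
  have hb1 : IsWeilValue n x (σ • y) (b ^ ℓ) := by
    have h1 := wv_galois hb σ
    rwa [smul_inv_smul, hroot hb] at h1
  have hb2 : IsWeilValue n (ℓ • (σ⁻¹ • x)) y (b ^ ℓ) := wv_nsmul_left hb ℓ
  refine ⟨a ^ ℓ * b ^ ℓ, ?_, ?_⟩
  · rw [hform x hx]
    exact wv_add_left hR ha1 hb2
  · rw [hform y hy, mul_comm]
    exact wv_add_right hR hb1 ha2

/-- **(D2) for the Hecke operators.**  `T_ℓ` is self-adjoint for `e_n` whenever `ℓ ∤ n` and the
Eichler–Shimura relation holds on `J₀(N)[n]` (the hypothesis `hES` is the conclusion of the landed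
`S29.helper405.stmt_ESMod_of_kf0` at `(N, n, ℓ)`, `ℓ ∤ N`). -/
theorem weil_heckeOperatorBar_adjoint (hR : Reciprocity Qb (modularFunctionFieldBar N))
    {n ℓ : ℕ} (hℓ : ℓ.Prime) (hℓn : ¬ ℓ ∣ n)
    (hES : ∀ A : ValuationSubring Qb, A.LiesOverPrime ℓ → ∀ σ : GQ, A.IsFrobeniusAt σ ℓ →
      ∀ x : JZero N, n • x = 0 →
        σ • σ • x - heckeOperatorBar N ⟨ℓ, hℓ⟩ (σ • x) + ℓ • x = 0)
    {x y : JZero N} (hx : n • x = 0) (hy : n • y = 0) {c : Qb}
    (h : IsWeilValue n (heckeOperatorBar N ⟨ℓ, hℓ⟩ x) y c) :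
    IsWeilValue n x (heckeOperatorBar N ⟨ℓ, hℓ⟩ y) c := by
  obtain ⟨A, σ, hA, hσ⟩ := Fermat.Agent.Lib.helper54.exists_liesOverPrime_isFrobeniusAt hℓ
  obtain ⟨C, h1, h2⟩ := weil_adjoint_of_es hR ((Nat.Prime.coprime_iff_not_dvd hℓ).mpr hℓn) hA hσ
    (fun z => heckeOperatorBar N ⟨ℓ, hℓ⟩ z) (hES A hA σ hσ) hx hy
  rw [wv_unique hR h h1]
  exact h2

end

end Fermat.Agent.S15.helper8357
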