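/-
S15 (Mazur block), local input at the GOOD primes — item (LOC-v) of the consolidated route:
"for `v ∤ r p` the step classes are unramified at `v`".  UNCONDITIONAL, every level `N`.

Since `Fermat.Agent.S18` is proved (track A: `helper789.stmt_KFr_two`, `helper789.stmt_KFr_three`),
the Kummer field form `Stmt_KF N ℓ` holds at every level `N` and every prime `ℓ ∤ N`, and
`helper5530.inertia_smul_eq_of_kf` (the S17 weak Mordell–Weil input `hunr`) gives: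

* `inertia_smul_eq_of_nsmul` : `σ ∈ I_A`, `A ∣ ℓ`, `ℓ ∤ N m`, `σ • (m • y) = m • y` ⟹ `σ • y = y`;
* `inertia_smul_eq_of_nsmul_sub` : the same from `m • (σ • y - y) = 0`
  (the shape of a devissage step: `σ • y - y ∈ W`, `W` killed by `m`);
* `inertia_smul_eq_of_torsion` : inertia at `ℓ ∤ N m` acts trivially on the `m`-torsion;
* `inertia_smul_eq_of_sub_mem` : subgroup form — if `σ • y - y ∈ W` and `m • W = 0`, then
  `σ • y = y`, in particular `σ • y - y ∈ F` for EVERY subgroup `F` (the local condition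
  "unramified at `ℓ`" of the step class of `y` in `relInv W`, for any step `F ≤ F' ≤ W`).
-/
import Fermat.Agent.S17.helper5530_InertiaKF
import Fermat.Agent.S18.helper789_LineInst
import Fermat.Agent.S18.helper2118_Spec

set_option autoImplicit false

namespace Fermat.Agent.S15.helper9541

open ModularCurve

/-- The Kummer field form of S18 at every level `N` and every prime `ℓ ∤ N`, unconditional. -/
theorem stmt_KF (N ℓ : ℕ) [NeZero N] (hℓ : ℓ.Prime) (hℓN : ¬ ℓ ∣ N) :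
    Fermat.Agent.S18.helper3054.Stmt_KF N ℓ :=
  Fermat.Agent.S18.helper3054.kf_of_kf0 N ℓ
    (fun A _ => Fermat.Agent.Lib.helper3858.isAlgClosed_residueField A)
    (Fermat.Agent.S18.helper2118.kf0_of_kfr Fermat.Agent.S18.helper789.stmt_KFr_two
      Fermat.Agent.S18.helper789.stmt_KFr_three N ℓ hℓ hℓN)

/-- **(LOC-v), division form.** `ℓ ∤ N m`, `A` over `ℓ`, `σ` in the inertia group of `A`:
if `σ` fixes `m • y` then `σ` fixes `y`. -/
theorem inertia_smul_eq_of_nsmul {N : ℕ} [NeZero N] {ℓ : ℕ} (hℓ : ℓ.Prime) (hℓN : ¬ ℓ ∣ N)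
    (A : ValuationSubring (AlgebraicClosure ℚ)) (hA : A.LiesOverPrime ℓ)
    {σ : AlgebraicClosure ℚ ≃ₐ[ℚ] AlgebraicClosure ℚ} (hσ : σ ∈ A.inertiaSubgroupIn ℚ)
    {m : ℕ} (hm : ¬ ℓ ∣ m) (y : JZero N) (hy : σ • (m • y) = m • y) : σ • y = y :=
  Fermat.Agent.S17.helper5530.inertia_smul_eq_of_kf hℓ hℓN (stmt_KF N ℓ hℓ hℓN) A hA hσ hm y hy

/-- **(LOC-v), difference form.** `ℓ ∤ N m`, `A` over `ℓ`, `σ` in the inertia group of `A`:
if `σ • y - y` is killed by `m` then `σ • y = y`. -/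
theorem inertia_smul_eq_of_nsmul_sub {N : ℕ} [NeZero N] {ℓ : ℕ} (hℓ : ℓ.Prime) (hℓN : ¬ ℓ ∣ N)
    (A : ValuationSubring (AlgebraicClosure ℚ)) (hA : A.LiesOverPrime ℓ)
    {σ : AlgebraicClosure ℚ ≃ₐ[ℚ] AlgebraicClosure ℚ} (hσ : σ ∈ A.inertiaSubgroupIn ℚ)
    {m : ℕ} (hm : ¬ ℓ ∣ m) (y : JZero N) (hy : m • (σ • y - y) = 0) : σ • y = y := by
  refine inertia_smul_eq_of_nsmul hℓ hℓN A hA hσ hm y ?_
  have h4 : σ • (m • y) = m • (σ • y) :=
    map_nsmul (DistribSMul.toAddMonoidHom (JZero N) σ) m y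
  rw [h4]
  rw [nsmul_sub] at hy
  exact sub_eq_zero.mp hy

/-- **Inertia at `ℓ ∤ N m` acts trivially on the `m`-torsion of `JZero N`.** -/
theorem inertia_smul_eq_of_torsion {N : ℕ} [NeZero N] {ℓ : ℕ} (hℓ : ℓ.Prime) (hℓN : ¬ ℓ ∣ N)
    (A : ValuationSubring (AlgebraicClosure ℚ)) (hA : A.LiesOverPrime ℓ)
    {σ : AlgebraicClosure ℚ ≃ₐ[ℚ] AlgebraicClosure ℚ} (hσ : σ ∈ A.inertiaSubgroupIn ℚ)
    {m : ℕ} (hm : ¬ ℓ ∣ m) (x : JZero N) (hx : m • x = 0) : σ • x = x :=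
  inertia_smul_eq_of_nsmul hℓ hℓN A hA hσ hm x
    (by rw [hx]; exact smul_zero (A := JZero N) σ)

/-- **(LOC-v), subgroup form.** Let `W` be a subgroup of `JZero N` killed by `m`, `ℓ ∤ N m`,
`A` over `ℓ`, `σ` in the inertia group of `A`. If `σ • y - y ∈ W` then `σ • y = y`. -/
theorem inertia_smul_eq_of_sub_mem {N : ℕ} [NeZero N] {ℓ : ℕ} (hℓ : ℓ.Prime) (hℓN : ¬ ℓ ∣ N)
    (A : ValuationSubring (AlgebraicClosure ℚ)) (hA : A.LiesOverPrime ℓ)
    {σ : AlgebraicClosure ℚ ≃ₐ[ℚ] AlgebraicClosure ℚ} (hσ : σ ∈ A.inertiaSubgroupIn ℚ)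
    {m : ℕ} (hm : ¬ ℓ ∣ m) (W : AddSubgroup (JZero N)) (hW : ∀ w ∈ W, m • w = 0)
    (y : JZero N) (hy : σ • y - y ∈ W) : σ • y = y :=
  inertia_smul_eq_of_nsmul_sub hℓ hℓN A hA hσ hm y (hW _ hy)

/-- **(LOC-v), step form.** In the situation of `inertia_smul_eq_of_sub_mem`, the step class of
`y` is trivial on inertia for every subgroup `F`: `σ • y - y ∈ F`. -/
theorem inertia_smul_sub_mem {N : ℕ} [NeZero N] {ℓ : ℕ} (hℓ : ℓ.Prime) (hℓN : ¬ ℓ ∣ N)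
    (A : ValuationSubring (AlgebraicClosure ℚ)) (hA : A.LiesOverPrime ℓ)
    {σ : AlgebraicClosure ℚ ≃ₐ[ℚ] AlgebraicClosure ℚ} (hσ : σ ∈ A.inertiaSubgroupIn ℚ)
    {m : ℕ} (hm : ¬ ℓ ∣ m) (W : AddSubgroup (JZero N)) (hW : ∀ w ∈ W, m • w = 0)
    (F : AddSubgroup (JZero N)) (y : JZero N) (hy : σ • y - y ∈ W) : σ • y - y ∈ F := by
  rw [inertia_smul_eq_of_sub_mem hℓ hℓN A hA hσ hm W hW y hy, sub_self]
  exact F.zero_mem

end Fermat.Agent.S15.helper9541
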