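/-
S15 (Mazur block), leaf BND-LOC-V in the CONSUMER shapes of the step-bound files
(`helper7259_StepBound.UnramStepAt F y q` unfolds, by `Iff.rfl`, to the conclusion of
`exists_unramStep` below; `helper4190.relInv GQ W` unfolds to the hypothesis `hy`).

Everything is a corollary of `helper9541_LocGood.inertia_smul_eq_of_sub_mem` (unconditional).
-/
import Fermat.Agent.S15.helper9541_LocGood
import Fermat.Agent.Lib.helper54_Frobenius

set_option autoImplicit false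

namespace Fermat.Agent.S15.helper9541

open ModularCurve

/-- A prime `q ≠ r` does not divide `r ^ k` (`r` prime). -/
theorem not_dvd_pow_of_ne {q r : ℕ} (hq : q.Prime) (hr : r.Prime) (hqr : q ≠ r) (k : ℕ) :
    ¬ q ∣ r ^ k := fun h =>
  hqr ((Nat.prime_dvd_prime_iff_eq hq hr).mp (hq.dvd_of_dvd_pow h))

/-- **(LOC-v), every place.** `W` killed by `m`, `y` with `σ • y - y ∈ W` for all `σ`
(`y ∈ relInv GQ W`), `q ∤ N m`: at EVERY valuation ring `A` over `q`, inertia fixes `y`. -/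
theorem forall_inertia_smul_eq {N : ℕ} [NeZero N] {q : ℕ} (hq : q.Prime) (hqN : ¬ q ∣ N)
    {m : ℕ} (hm : ¬ q ∣ m) (W : AddSubgroup (JZero N)) (hW : ∀ w ∈ W, m • w = 0)
    (y : JZero N) (hy : ∀ σ : AlgebraicClosure ℚ ≃ₐ[ℚ] AlgebraicClosure ℚ, σ • y - y ∈ W) :
    ∀ A : ValuationSubring (AlgebraicClosure ℚ), A.LiesOverPrime q →
      ∀ σ ∈ A.inertiaSubgroupIn ℚ, σ • y = y :=
  fun A hA _ hσ => inertia_smul_eq_of_sub_mem hq hqN A hA hσ hm W hW y (hy _)

/-- **(LOC-v), every place, step form**: the step cocycle of `y` vanishes on inertia at every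
`A` over `q ∤ N m`, for every step subgroup `F`. -/
theorem forall_inertia_smul_sub_mem {N : ℕ} [NeZero N] {q : ℕ} (hq : q.Prime) (hqN : ¬ q ∣ N)
    {m : ℕ} (hm : ¬ q ∣ m) (W : AddSubgroup (JZero N)) (hW : ∀ w ∈ W, m • w = 0)
    (F : AddSubgroup (JZero N))
    (y : JZero N) (hy : ∀ σ : AlgebraicClosure ℚ ≃ₐ[ℚ] AlgebraicClosure ℚ, σ • y - y ∈ W) :
    ∀ A : ValuationSubring (AlgebraicClosure ℚ), A.LiesOverPrime q →
      ∀ σ ∈ A.inertiaSubgroupIn ℚ, σ • y - y ∈ F :=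
  fun A hA _ hσ => inertia_smul_sub_mem hq hqN A hA hσ hm W hW F y (hy _)

/-- **(LOC-v) in the shape `UnramStepAt F y q`** (one place over `q` suffices): for `q ∤ N m`
there is a valuation ring `A` over `q` whose inertia group kills the step cocycle of `y`. -/
theorem exists_unramStep {N : ℕ} [NeZero N] {q : ℕ} (hq : q.Prime) (hqN : ¬ q ∣ N)
    {m : ℕ} (hm : ¬ q ∣ m) (W : AddSubgroup (JZero N)) (hW : ∀ w ∈ W, m • w = 0)
    (F : AddSubgroup (JZero N))
    (y : JZero N) (hy : ∀ σ : AlgebraicClosure ℚ ≃ₐ[ℚ] AlgebraicClosure ℚ, σ • y - y ∈ W) :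
    ∃ A : ValuationSubring (AlgebraicClosure ℚ), A.LiesOverPrime q ∧
      ∀ σ ∈ A.inertiaSubgroupIn ℚ, σ • y - y ∈ F := by
  obtain ⟨A, hA⟩ := Fermat.Agent.Lib.helper54.exists_liesOverPrime hq
  exact ⟨A, hA, forall_inertia_smul_sub_mem hq hqN hm W hW F y hy A hA⟩

/-- **(LOC-v) at prime level `p` for the `r`-power tower**: `W` killed by `r ^ k`, `q` a prime
different from `p` and `r`. Shape `UnramStepAt F y q`. -/
theorem exists_unramStep_prime_level {p r k q : ℕ} [NeZero p] (hp : p.Prime) (hr : r.Prime)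
    (hq : q.Prime) (hqp : q ≠ p) (hqr : q ≠ r)
    (W : AddSubgroup (JZero p)) (hW : ∀ w ∈ W, r ^ k • w = 0) (F : AddSubgroup (JZero p))
    (y : JZero p) (hy : ∀ σ : AlgebraicClosure ℚ ≃ₐ[ℚ] AlgebraicClosure ℚ, σ • y - y ∈ W) :
    ∃ A : ValuationSubring (AlgebraicClosure ℚ), A.LiesOverPrime q ∧
      ∀ σ ∈ A.inertiaSubgroupIn ℚ, σ • y - y ∈ F :=
  exists_unramStep hq (fun h => hqp ((Nat.prime_dvd_prime_iff_eq hq hp).mp h))
    (not_dvd_pow_of_ne hq hr hqr k) W hW F y hy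

/-- The same for every `y'` in a smaller relative-invariant group: if `F' ≤ W` and
`σ • y - y ∈ F'` for all `σ`, the conclusion holds (monotonicity in the step). -/
theorem exists_unramStep_of_le {p r k q : ℕ} [NeZero p] (hp : p.Prime) (hr : r.Prime)
    (hq : q.Prime) (hqp : q ≠ p) (hqr : q ≠ r)
    (W : AddSubgroup (JZero p)) (hW : ∀ w ∈ W, r ^ k • w = 0) (F F' : AddSubgroup (JZero p))
    (hF' : F' ≤ W)
    (y : JZero p) (hy : ∀ σ : AlgebraicClosure ℚ ≃ₐ[ℚ] AlgebraicClosure ℚ, σ • y - y ∈ F') :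
    ∃ A : ValuationSubring (AlgebraicClosure ℚ), A.LiesOverPrime q ∧
      ∀ σ ∈ A.inertiaSubgroupIn ℚ, σ • y - y ∈ F :=
  exists_unramStep_prime_level hp hr hq hqp hqr W hW F y fun σ => hF' (hy σ)

end Fermat.Agent.S15.helper9541
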