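import Mathlib
import Fermat.Agent.S18.helper789_KF0All
import Fermat.Agent.S29.helper405_ESFinal
import Fermat.Agent.S29.helper4878_CycFrob
import Fermat.Agent.S29.helper8527_FiniteLevel
import Fermat.Agent.S30.helper3994_CycloFrob

/-!
# S15 pre-brick (helper991): the quadratic relation on Eisenstein steps of `J₀(N)`

Concrete half of (JH)/(W4) of the Mazur block: on a finite Galois-stable subquotient `Y / X` of
`J₀(N)(ℚ̄)` on which the Hecke operators act through the Eisenstein character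
(`T_ℓ ≡ 1 + ℓ` for almost all `ℓ`), EVERY element `g` of `G_ℚ` satisfies
`(g - 1)(g - χ(g)) = 0`, where `χ` is the cyclotomic character.

Inputs (all landed and unconditional):
* the Eichler–Shimura relation on torsion points at Frobenius lifts
  (`Fermat.Agent.S29.helper405.stmt_ESMod_of_kf0` fed by `Fermat.Agent.S18.helper789.stmt_KF0_all`);
* generator-Chebotarev (`Fermat.Agent.S29.helper4878.stmt_CycFrob`);
* open stabilisers of the points of `J₀(N)`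
  (`Fermat.Agent.S29.helper8527.exists_finiteLevel_of_finite`);
* Frobenius lifts on roots of unity
  (`Fermat.Agent.S30.helper3994.frobenius_apply_rootOfUnity`).

Main results (`GQ := AlgebraicClosure ℚ ≃ₐ[ℚ] AlgebraicClosure ℚ`):
* `quad_pow_mem` (Mathlib only): the Lucas step `(s - 1)(s - ℓ) = 0 ⟹ (sⁿ - 1)(sⁿ - ℓⁿ) = 0`
  on a subquotient, in subgroup language;
* `exists_quad` : for every `g` there is `c : ℕ` with `g ζ = ζ ^ c` on the `m`-th roots of unity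
  and `g • g • y - (1 + c) • g • y + c • y ∈ X` for all `y ∈ Y`;
* `quad_cycloExp` : if moreover `r • Y ≤ X` for a prime `r`, the same with
  `c := ExtCitation.cycloExp r g` (the Prelude's mod-`r` cyclotomic character).
-/

set_option autoImplicit false

namespace Fermat.Agent.S15.helper991

open ModularCurve

/-- The absolute Galois group of `ℚ`. -/
abbrev GQ : Type := AlgebraicClosure ℚ ≃ₐ[ℚ] AlgebraicClosure ℚ

/-! ### Abstract part (Mathlib only) -/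

section Abstract

variable {J : Type*} [AddCommGroup J]

/-- The additive endomorphisms of `J` that preserve the subgroups `X` and `Y`. -/
def stabSubring (X Y : AddSubgroup J) : Subring (AddMonoid.End J) where
  carrier := {φ | (∀ x ∈ X, φ x ∈ X) ∧ (∀ y ∈ Y, φ y ∈ Y)}
  mul_mem' := fun ha hb =>
    ⟨fun x hx => ha.1 _ (hb.1 x hx), fun y hy => ha.2 _ (hb.2 y hy)⟩
  one_mem' := ⟨fun _ hx => hx, fun _ hy => hy⟩
  add_mem' := fun ha hb =>
    ⟨fun x hx => X.add_mem (ha.1 x hx) (hb.1 x hx), fun y hy => Y.add_mem (ha.2 y hy) (hb.2 y hy)⟩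
  zero_mem' := ⟨fun _ _ => X.zero_mem, fun _ _ => Y.zero_mem⟩
  neg_mem' := fun ha =>
    ⟨fun x hx => X.neg_mem (ha.1 x hx), fun y hy => Y.neg_mem (ha.2 y hy)⟩

theorem mem_stabSubring {X Y : AddSubgroup J} {φ : AddMonoid.End J} :
    φ ∈ stabSubring X Y ↔ (∀ x ∈ X, φ x ∈ X) ∧ (∀ y ∈ Y, φ y ∈ Y) :=
  Iff.rfl

/-- `(t - 1)(t - c)` evaluated at a point. -/
theorem sub_one_mul_sub_natCast_apply (t : AddMonoid.End J) (c : ℕ) (z : J) :
    ((t - 1) * (t - (c : AddMonoid.End J))) z = t (t z) - (1 + c) • t z + c • z := by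
  have h1 : ((t - 1) * (t - (c : AddMonoid.End J))) z
      = (t - 1) ((t - (c : AddMonoid.End J)) z) := rfl
  have h2 : (t - (c : AddMonoid.End J)) z = t z - c • z := rfl
  have h3 : ∀ w : J, (t - 1) w = t w - w := fun _ => rfl
  rw [h1, h2, h3, map_sub, map_nsmul, add_smul, one_smul]
  abel

/-- **Lucas step on a subquotient.**  If `s` preserves `X` and `Y` and `(s - 1)(s - ℓ)` maps `Y`
into `X`, then `(sⁿ - 1)(sⁿ - ℓⁿ)` maps `Y` into `X`. -/
theorem quad_pow_mem (X Y : AddSubgroup J) (s : AddMonoid.End J)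
    (hsX : ∀ x ∈ X, s x ∈ X) (hsY : ∀ y ∈ Y, s y ∈ Y) (ℓ : ℕ)
    (h : ∀ y ∈ Y, s (s y) - (1 + ℓ) • s y + ℓ • y ∈ X) (n : ℕ) :
    ∀ y ∈ Y, (s ^ n) ((s ^ n) y) - (1 + ℓ ^ n) • (s ^ n) y + ℓ ^ n • y ∈ X := by
  intro y hy
  have hs : s ∈ stabSubring X Y := ⟨hsX, hsY⟩
  have h0 : ∀ z ∈ Y, ((s - 1) * (s - (ℓ : AddMonoid.End J))) z ∈ X := fun z hz => by
    rw [sub_one_mul_sub_natCast_apply]
    exact h z hz
  have h1 : s ^ n - 1 = (∑ i ∈ Finset.range n, s ^ i) * (s - 1) := (geom_sum_mul s n).symm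
  have h2 : s ^ n - (ℓ : AddMonoid.End J) ^ n =
      (s - (ℓ : AddMonoid.End J)) *
        ∑ i ∈ Finset.range n, s ^ i * (ℓ : AddMonoid.End J) ^ (n - 1 - i) :=
    ((Nat.cast_commute ℓ s).symm.mul_geom_sum₂ n).symm
  have hG1 : (∑ i ∈ Finset.range n, s ^ i) ∈ stabSubring X Y :=
    sum_mem fun i _ => pow_mem hs i
  have hG2 : (∑ i ∈ Finset.range n, s ^ i * (ℓ : AddMonoid.End J) ^ (n - 1 - i))
      ∈ stabSubring X Y :=
    sum_mem fun i _ => mul_mem (pow_mem hs i) (pow_mem (natCast_mem _ ℓ) _)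
  have h3 : ((s ^ n - 1) * (s ^ n - (ℓ : AddMonoid.End J) ^ n)) y ∈ X := by
    rw [h1, h2, mul_assoc, ← mul_assoc (s - 1)]
    exact hG1.1 _ (h0 _ (hG2.2 y hy))
  have h4 := sub_one_mul_sub_natCast_apply (s ^ n) (ℓ ^ n) y
  rw [Nat.cast_pow] at h4
  rw [← h4]
  exact h3

end Abstract

/-! ### The `m`-th roots of unity of `ℚ̄` -/

/-- The `m`-th roots of unity of `ℚ̄` are fixed by an open subgroup of `G_ℚ`. -/
theorem exists_finiteLevel_rootsOfUnity {m : ℕ} (hm : m ≠ 0) :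
    ∃ L : IntermediateField ℚ (AlgebraicClosure ℚ), FiniteDimensional ℚ L ∧
      ∀ σ : GQ, (∀ y ∈ L, σ y = y) → ∀ ζ : AlgebraicClosure ℚ, ζ ^ m = 1 → σ ζ = ζ := by
  classical
  have hfin : {ζ : AlgebraicClosure ℚ | ζ ^ m = 1}.Finite := by
    refine (Polynomial.nthRoots m (1 : AlgebraicClosure ℚ)).toFinset.finite_toSet.subset ?_
    intro ζ hζ
    simpa [Polynomial.mem_nthRoots (Nat.pos_of_ne_zero hm)] using hζ
  obtain ⟨L, hL, hσ⟩ := Fermat.Agent.S29.helper8527.HasFiniteLevel.finset hfin.toFinset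
    (P := fun ζ σ => σ ζ = ζ) (fun ζ _ => Fermat.Agent.S29.helper8527.hasFiniteLevel_fix ζ)
  exact ⟨L, hL, fun σ h ζ hζ => hσ σ h ζ (hfin.mem_toFinset.mpr hζ)⟩

/-- Powers of a Frobenius lift at `ℓ ∤ m` on the `m`-th roots of unity. -/
theorem frobenius_pow_apply_rootOfUnity {ℓ : ℕ} {A : ValuationSubring (AlgebraicClosure ℚ)}
    (hA : A.LiesOverPrime ℓ) {σ : GQ} (hσ : A.IsFrobeniusAt σ ℓ) {m : ℕ}
    (hcop : Nat.Coprime ℓ m) (k : ℕ) :
    ∀ ζ : AlgebraicClosure ℚ, ζ ^ m = 1 → (σ ^ k) ζ = ζ ^ (ℓ ^ k) := by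
  induction k with
  | zero =>
    intro ζ _
    rw [pow_zero, pow_zero, pow_one]
    rfl
  | succ k ih =>
    intro ζ hζ
    have h1 : σ ζ = ζ ^ ℓ :=
      Fermat.Agent.S30.helper3994.frobenius_apply_rootOfUnity hA hσ hcop hζ
    have h2 : (ζ ^ ℓ) ^ m = 1 := by rw [← pow_mul, mul_comm, pow_mul, hζ, one_pow]
    have h3 : (σ ^ (k + 1)) ζ = (σ ^ k) (σ ζ) := by
      rw [pow_succ]
      rfl
    rw [h3, h1, ih (ζ ^ ℓ) h2, ← pow_mul, ← pow_succ']

/-! ### The quadratic relation -/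

/-- **Eichler–Shimura + Chebotarev on an Eisenstein step.**  Let `Y` be a finite `G_ℚ`-stable
subgroup of `J₀(N)(ℚ̄)` killed by `m ≠ 0`, and `X` a `G_ℚ`-stable subgroup such that
`T_ℓ y - (1 + ℓ) y ∈ X` for all `y ∈ Y` and all primes `ℓ ∤ N m` outside a finite set `T`.  Then
for every `g ∈ G_ℚ` there is `c : ℕ` such that `g` raises the `m`-th roots of unity to the `c`-th
power and `(g - 1)(g - c)` maps `Y` into `X`. -/
theorem exists_quad (N : ℕ) [NeZero N] (m : ℕ) (hm : m ≠ 0) (T : Finset ℕ)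
    (X Y : AddSubgroup (JZero N)) (hYfin : (Y : Set (JZero N)).Finite)
    (hYm : ∀ y ∈ Y, m • y = 0)
    (hX : ∀ g : GQ, ∀ x ∈ X, g • x ∈ X) (hY : ∀ g : GQ, ∀ y ∈ Y, g • y ∈ Y)
    (hEis : ∀ (ℓ : ℕ) (hℓ : ℓ.Prime), ¬ ℓ ∣ N * m → ℓ ∉ T → ∀ y ∈ Y,
      heckeOperatorBar N ⟨ℓ, hℓ⟩ y - (1 + ℓ) • y ∈ X) (g : GQ) :
    ∃ c : ℕ, (∀ ζ : AlgebraicClosure ℚ, ζ ^ m = 1 → g ζ = ζ ^ c) ∧
      ∀ y ∈ Y, g • g • y - (1 + c) • g • y + c • y ∈ X := by
  classical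
  obtain ⟨L₁, hL₁, h₁⟩ := Fermat.Agent.S29.helper8527.exists_finiteLevel_of_finite N hYfin
  obtain ⟨L₂, hL₂, h₂⟩ := exists_finiteLevel_rootsOfUnity hm
  have hL : FiniteDimensional ℚ (L₁ ⊔ L₂ : IntermediateField ℚ (AlgebraicClosure ℚ)) :=
    IntermediateField.finiteDimensional_sup L₁ L₂
  obtain ⟨ℓ, hℓ, hℓB, A, hA, σ, hσ, n, hn⟩ :=
    Fermat.Agent.S29.helper4878.stmt_CycFrob (L₁ ⊔ L₂) hL g ((N * m).primeFactors ∪ T)
  have hNm : N * m ≠ 0 := mul_ne_zero (NeZero.ne N) hm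
  have hℓNm : ¬ ℓ ∣ N * m := fun hd =>
    hℓB (Finset.mem_union_left _ (Nat.mem_primeFactors.mpr ⟨hℓ, hd, hNm⟩))
  have hℓT : ℓ ∉ T := fun h => hℓB (Finset.mem_union_right _ h)
  have hℓN : ¬ ℓ ∣ N := fun hd => hℓNm (Dvd.dvd.mul_right hd m)
  have hℓm : ¬ ℓ ∣ m := fun hd => hℓNm (Dvd.dvd.mul_left hd N)
  have hfix : ∀ x ∈ (L₁ ⊔ L₂ : IntermediateField ℚ (AlgebraicClosure ℚ)),
      (g⁻¹ * σ ^ n) x = x := fun x hx => by
    have h1 : (g⁻¹ * σ ^ n) x = g⁻¹ ((σ ^ n) x) := rfl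
    rw [h1, hn x hx]
    exact g.symm_apply_apply x
  have hY' : ∀ y ∈ Y, (σ ^ n) • y = g • y := fun y hy => by
    have h1 := h₁ (g⁻¹ * σ ^ n) (fun x hx => hfix x ((le_sup_left : L₁ ≤ L₁ ⊔ L₂) hx)) y hy
    rw [mul_smul, inv_smul_eq_iff] at h1
    exact h1
  have hζ' : ∀ ζ : AlgebraicClosure ℚ, ζ ^ m = 1 → (σ ^ n) ζ = g ζ := fun ζ hζ => by
    have h1 := h₂ (g⁻¹ * σ ^ n) (fun x hx => hfix x ((le_sup_right : L₂ ≤ L₁ ⊔ L₂) hx)) ζ hζ
    have h2 : (g⁻¹ * σ ^ n) ζ = g⁻¹ ((σ ^ n) ζ) := rfl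
    rw [h2] at h1
    have h3 := congrArg g h1
    rw [show g (g⁻¹ ((σ ^ n) ζ)) = (σ ^ n) ζ from g.apply_symm_apply _] at h3
    exact h3
  have hcop : Nat.Coprime ℓ m := (Nat.Prime.coprime_iff_not_dvd hℓ).mpr hℓm
  refine ⟨ℓ ^ n, fun ζ hζ => ?_, ?_⟩
  · rw [← hζ' ζ hζ, frobenius_pow_apply_rootOfUnity hA hσ hcop n ζ hζ]
  · have hES := Fermat.Agent.S29.helper405.stmt_ESMod_of_kf0
      (fun N _ ℓ hℓ hℓN => Fermat.Agent.S18.helper789.stmt_KF0_all N ℓ hℓ hℓN)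
      N m ℓ hℓ hℓN hℓm A hA σ hσ
    let s : AddMonoid.End (JZero N) := DistribMulAction.toAddMonoidEnd GQ (JZero N) σ
    have hs : ∀ z : JZero N, s z = σ • z := fun _ => rfl
    have hsn : ∀ z : JZero N, (s ^ n) z = (σ ^ n) • z := fun z => by
      have h1 : s ^ n = DistribMulAction.toAddMonoidEnd GQ (JZero N) (σ ^ n) :=
        (map_pow (DistribMulAction.toAddMonoidEnd GQ (JZero N)) σ n).symm
      rw [h1]
      rfl
    have hrel : ∀ y ∈ Y, s (s y) - (1 + ℓ) • s y + ℓ • y ∈ X := by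
      intro y hy
      have e1 := hES y (hYm y hy)
      have e2 := hEis ℓ hℓ hℓNm hℓT (σ • y) (hY σ y hy)
      rw [hs, hs]
      have e3 : σ • σ • y - (1 + ℓ) • σ • y + ℓ • y
          = heckeOperatorBar N ⟨ℓ, hℓ⟩ (σ • y) - (1 + ℓ) • σ • y := by
        rw [← sub_eq_zero, ← e1]
        abel
      rw [e3]
      exact e2
    have hpow := quad_pow_mem X Y s (hX σ) (hY σ) ℓ hrel n
    intro y hy
    have e := hpow y hy
    rw [hsn, hsn, hY' y hy, hY' (g • y) (hY g y hy)] at e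
    exact e

/-- **The quadratic relation with the Prelude's mod-`r` cyclotomic character.**  In the situation
of `exists_quad`, if moreover `r • Y ≤ X` for a prime `r`, then for every `g ∈ G_ℚ` the operator
`(g - 1)(g - χ_r(g))` maps `Y` into `X`, where `χ_r(g) = ExtCitation.cycloExp r g`
(`= ((ExtCitation.cycloChar r g : ZMod r)).val`). -/
theorem quad_cycloExp (N : ℕ) [NeZero N] (r : ℕ) [Fact r.Prime] (m : ℕ) (hm : m ≠ 0)
    (T : Finset ℕ) (X Y : AddSubgroup (JZero N)) (hYfin : (Y : Set (JZero N)).Finite)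
    (hYm : ∀ y ∈ Y, m • y = 0) (hrY : ∀ y ∈ Y, r • y ∈ X)
    (hX : ∀ g : GQ, ∀ x ∈ X, g • x ∈ X) (hY : ∀ g : GQ, ∀ y ∈ Y, g • y ∈ Y)
    (hEis : ∀ (ℓ : ℕ) (hℓ : ℓ.Prime), ¬ ℓ ∣ N * m → ℓ ∉ T → ∀ y ∈ Y,
      heckeOperatorBar N ⟨ℓ, hℓ⟩ y - (1 + ℓ) • y ∈ X) (g : GQ) :
    ∀ y ∈ Y, g • g • y - (1 + ExtCitation.cycloExp r g) • g • y
      + ExtCitation.cycloExp r g • y ∈ X := by
  have hr : r.Prime := Fact.out
  have : NeZero r := ⟨hr.ne_zero⟩
  obtain ⟨c, hcζ, hc⟩ := exists_quad N (m * r) (mul_ne_zero hm hr.ne_zero) T X Y hYfin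
    (fun y hy => by rw [mul_comm, mul_smul, hYm y hy, smul_zero]) hX hY
    (fun ℓ hℓ hℓNm hℓT y hy => hEis ℓ hℓ
      (fun hd => hℓNm (by rw [← mul_assoc]; exact Dvd.dvd.mul_right hd r)) hℓT y hy) g
  -- `c` is the cyclotomic exponent modulo `r`
  have h1 : (c : ZMod r) = ((ExtCitation.cycloChar r g : (ZMod r)ˣ) : ZMod r) := by
    refine modularCyclotomicCharacter.unique (AlgebraicClosure ℚ)
      (ExtCitation.card_rootsOfUnity_eq_self r) (g : AlgebraicClosure ℚ ≃+* AlgebraicClosure ℚ) ?_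
    intro t ht
    have ht' : (t : AlgebraicClosure ℚ) ^ r = 1 := by
      have h0 := (mem_rootsOfUnity r t).mp ht
      simpa using congrArg Units.val h0
    have h2 : (t : AlgebraicClosure ℚ) ^ (m * r) = 1 := by
      rw [mul_comm, pow_mul, ht', one_pow]
    rw [ZMod.val_natCast, ← pow_eq_pow_mod c ht']
    exact hcζ _ h2
  rw [ExtCitation.coe_cycloChar] at h1
  have h3 : (r : ℤ) ∣ (ExtCitation.cycloExp r g : ℤ) - (c : ℤ) :=
    (Nat.modEq_iff_dvd).mp ((ZMod.natCast_eq_natCast_iff c _ r).mp h1)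
  obtain ⟨k, hk⟩ := h3
  intro y hy
  have e0 := hc y hy
  have e1 : (r : ℤ) • (g • y) ∈ X := by
    rw [natCast_zsmul]
    exact hrY _ (hY g y hy)
  have e2 : (r : ℤ) • y ∈ X := by
    rw [natCast_zsmul]
    exact hrY y hy
  have key : g • g • y - (1 + ExtCitation.cycloExp r g) • g • y + ExtCitation.cycloExp r g • y
      = (g • g • y - (1 + c) • g • y + c • y) - k • ((r : ℤ) • (g • y)) + k • ((r : ℤ) • y) := by
    have hk' : (ExtCitation.cycloExp r g : ℤ) = c + r * k := by linarith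
    rw [← natCast_zsmul (g • y) (1 + ExtCitation.cycloExp r g),
      ← natCast_zsmul y (ExtCitation.cycloExp r g), ← natCast_zsmul (g • y) (1 + c),
      ← natCast_zsmul y c]
    push_cast
    rw [hk']
    generalize g • g • y = a
    generalize g • y = b
    module
  rw [key]
  exact X.add_mem (X.sub_mem e0 (X.zsmul_mem e1 k)) (X.zsmul_mem e2 k)

end Fermat.Agent.S15.helper991
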