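import Mathlib
import Fermat.Agent.S15.helper991_QuadES

/-!
# S15 pre-brick (helper991): the Eichler–Shimura form at EVERY element of `G_ℚ`

Supplier of the hypothesis of the abstract Jordan–Hölder flag (helper8205, findings #3598):

`∀ g, ∃ (t : T) (c : ℕ), (c : ZMod r) = χ g ∧ t - (1 + (c : T)) ∈ P ∧
    ∀ x ∈ W, g • g • x - t • g • x + c • x = 0`

for a finite set `W` of torsion points of `J₀(N)(ℚ̄)`, ANY commutative ring `T` acting on `J₀(N)`
compatibly with `G_ℚ` through which the Hecke operators `T_ℓ` act, and any ideal `P` containing the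
`T_ℓ - (1 + ℓ)` (the Eisenstein ideal), with `χ` the Prelude's mod-`r` cyclotomic character.

* `lucas_step` (Mathlib only): `s² - a s + b = 0` on `V` implies
  `(sⁿ)² - D_n(a, b) sⁿ + bⁿ = 0` on `V`, where `D_n(a, b) = (dickson 1 b n).eval a`;
* `dickson_eval_sub_mem` : `a ≡ 1 + b (mod P)` implies `D_n(a, b) ≡ 1 + bⁿ (mod P)`;
* `exists_esForm`, `exists_esForm_cycloChar` : the statement above.
-/

set_option autoImplicit false

namespace Fermat.Agent.S15.helper991

open ModularCurve Polynomial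

/-! ### Abstract Lucas step (Mathlib only) -/

section AbstractLucas

/-- `D_n(x + y, x y) = xⁿ + yⁿ` for the Dickson polynomials of the first kind. -/
theorem dickson_eval_add_mul {A : Type*} [CommRing A] (x y : A) (n : ℕ) :
    (dickson 1 (x * y) n).eval (x + y) = x ^ n + y ^ n := by
  induction n using Nat.twoStepInduction with
  | zero =>
    rw [dickson_zero, pow_zero, pow_zero]
    simp only [Nat.cast_one, eval_sub, eval_ofNat, eval_one]
    norm_num
  | one => rw [dickson_one, eval_X, pow_one, pow_one]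
  | more n ih0 ih1 =>
    rw [dickson_add_two, eval_sub, eval_mul, eval_mul, eval_X, eval_C, ih0, ih1]
    ring

variable {T : Type*} [CommRing T]

/-- `a ≡ 1 + b (mod P)` implies `D_n(a, b) ≡ 1 + bⁿ (mod P)`. -/
theorem dickson_eval_sub_mem (P : Ideal T) (a b : T) (h : a - (1 + b) ∈ P) (n : ℕ) :
    (dickson 1 b n).eval a - (1 + b ^ n) ∈ P := by
  rw [← Ideal.Quotient.eq] at h ⊢
  have h1 : Ideal.Quotient.mk P ((dickson 1 b n).eval a)
      = (dickson 1 (Ideal.Quotient.mk P b) n).eval (Ideal.Quotient.mk P a) := by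
    rw [← map_dickson (Ideal.Quotient.mk P), eval_map, eval₂_at_apply]
  rw [h1, h]
  simp only [map_add, map_one, map_pow]
  have h2 := dickson_eval_add_mul (1 : T ⧸ P) (Ideal.Quotient.mk P b) n
  rw [one_mul, one_pow] at h2
  exact h2

variable {J : Type*} [AddCommGroup J] [Module T J]

/-- The polynomials in `s` that kill the set `V` pointwise. -/
def annIdeal (s : Module.End T J) (V : Set J) : Ideal T[X] where
  carrier := {q | ∀ x ∈ V, aeval s q x = 0}
  add_mem' := fun hp hq x hx => by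
    rw [map_add, LinearMap.add_apply, hp x hx, hq x hx, add_zero]
  zero_mem' := fun x _ => by rw [map_zero, LinearMap.zero_apply]
  smul_mem' := fun c q hq x hx => by
    rw [smul_eq_mul, map_mul, Module.End.mul_apply, hq x hx, map_zero]

theorem mem_annIdeal {s : Module.End T J} {V : Set J} {q : T[X]} :
    q ∈ annIdeal s V ↔ ∀ x ∈ V, aeval s q x = 0 :=
  Iff.rfl

/-- **Lucas step with explicit trace.**  If `s² - a s + b` kills `V` pointwise, then
`(sⁿ)² - D_n(a, b) sⁿ + bⁿ` kills `V` pointwise, `D_n(a, b) = (dickson 1 b n).eval a`.  No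
stability of `V` is needed. -/
theorem lucas_step (s : Module.End T J) (V : Set J) (a b : T)
    (h : ∀ x ∈ V, s (s x) - a • s x + b • x = 0) (n : ℕ) :
    ∀ x ∈ V, (s ^ n) ((s ^ n) x) - (dickson 1 b n).eval a • (s ^ n) x + b ^ n • x = 0 := by
  -- the quadratic polynomial kills `V`
  have hP0 : (X ^ 2 - C a * X + C b : T[X]) ∈ annIdeal s V := by
    intro x hx
    have e : aeval s (X ^ 2 - C a * X + C b : T[X]) x = s (s x) - a • s x + b • x := by
      simp only [map_add, map_sub, map_mul, aeval_X, aeval_C, LinearMap.add_apply,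
        LinearMap.sub_apply, Module.End.mul_apply, Module.algebraMap_end_apply, pow_two]
    rw [e]
    exact h x hx
  -- divisibility in `T[X]`, checked in the quotient ring
  have hQ : (X ^ n * X ^ n - C ((dickson 1 b n).eval a) * X ^ n + C (b ^ n) : T[X])
      ∈ Ideal.span {(X ^ 2 - C a * X + C b : T[X])} := by
    rw [← Ideal.Quotient.eq_zero_iff_mem]
    set I : Ideal T[X] := Ideal.span {(X ^ 2 - C a * X + C b : T[X])} with hI
    set π : T[X] →+* T[X] ⧸ I := Ideal.Quotient.mk I with hπ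
    have hrel : π X ^ 2 - π (C a) * π X + π (C b) = 0 := by
      have h0 : π (X ^ 2 - C a * X + C b) = 0 :=
        Ideal.Quotient.eq_zero_iff_mem.mpr (Ideal.mem_span_singleton_self _)
      rw [map_add, map_sub, map_mul, map_pow] at h0
      exact h0
    have hsum : π X + (π (C a) - π X) = π (C a) := by ring
    have hprod : π X * (π (C a) - π X) = π (C b) := by
      linear_combination (-1 : T[X] ⧸ I) * hrel
    have hD : π (C ((dickson 1 b n).eval a)) = π X ^ n + (π (C a) - π X) ^ n := by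
      have h1 : π (C ((dickson 1 b n).eval a))
          = (dickson 1 (π (C b)) n).eval (π (C a)) := by
        have h2 : π (C ((dickson 1 b n).eval a)) = (π.comp C) ((dickson 1 b n).eval a) := rfl
        have h3 : π (C b) = (π.comp C) b := rfl
        have h4 : π (C a) = (π.comp C) a := rfl
        rw [h2, h3, h4, ← map_dickson (π.comp C), eval_map, eval₂_at_apply]
      rw [h1, ← hsum, ← hprod, dickson_eval_add_mul, hsum]
    simp only [map_add, map_sub, map_mul, map_pow]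
    rw [hD, ← hprod, mul_pow]
    ring
  have hle : Ideal.span {(X ^ 2 - C a * X + C b : T[X])} ≤ annIdeal s V :=
    (Ideal.span_singleton_le_iff_mem _).mpr hP0
  intro x hx
  have e := hle hQ x hx
  have e' : aeval s (X ^ n * X ^ n - C ((dickson 1 b n).eval a) * X ^ n + C (b ^ n) : T[X]) x
      = (s ^ n) ((s ^ n) x) - (dickson 1 b n).eval a • (s ^ n) x + b ^ n • x := by
    simp only [map_add, map_sub, map_mul, map_pow, aeval_X, aeval_C, LinearMap.add_apply,
      LinearMap.sub_apply, Module.End.mul_apply, Module.algebraMap_end_apply]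
    rw [← map_pow, Module.algebraMap_end_apply]
  rw [e'] at e
  exact e

end AbstractLucas

/-! ### The cyclotomic character -/

/-- If `g` raises the `r`-th roots of unity to the `c`-th power, then `c` is the value of the
Prelude's mod-`r` cyclotomic character at `g`. -/
theorem natCast_eq_cycloChar (r : ℕ) [Fact r.Prime] (g : GQ) (c : ℕ)
    (h : ∀ ζ : AlgebraicClosure ℚ, ζ ^ r = 1 → g ζ = ζ ^ c) :
    (c : ZMod r) = ((ExtCitation.cycloChar r g : (ZMod r)ˣ) : ZMod r) := by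
  have hr : r.Prime := Fact.out
  have : NeZero r := ⟨hr.ne_zero⟩
  refine modularCyclotomicCharacter.unique (AlgebraicClosure ℚ)
    (ExtCitation.card_rootsOfUnity_eq_self r) (g : AlgebraicClosure ℚ ≃+* AlgebraicClosure ℚ) ?_
  intro t ht
  have ht' : (t : AlgebraicClosure ℚ) ^ r = 1 := by
    have h0 := (mem_rootsOfUnity r t).mp ht
    simpa using congrArg Units.val h0
  rw [ZMod.val_natCast, ← pow_eq_pow_mod c ht']
  exact h _ ht'

/-! ### The Eichler–Shimura form at every element -/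

/-- **Eichler–Shimura form at every `g ∈ G_ℚ`.**  `T` is any commutative ring acting on
`J₀(N)(ℚ̄)` compatibly with `G_ℚ`; for the primes `ℓ ∤ N m` outside a finite set `S` the element
`τ ℓ` acts as the Hecke operator `T_ℓ` and is congruent to `1 + ℓ` modulo the ideal `P`; `W` is a
finite set of `m`-torsion points.  Then for every `g` there are `t ∈ T` and `c : ℕ` such that `g`
raises the `m`-th roots of unity to the `c`-th power, `t ≡ 1 + c (mod P)` and
`g² - t g + c` kills `W`. -/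
theorem exists_esForm (N : ℕ) [NeZero N] {T : Type*} [CommRing T] [Module T (JZero N)]
    (hGT : ∀ (g : GQ) (t : T) (x : JZero N), g • t • x = t • g • x)
    (P : Ideal T) (m : ℕ) (hm : m ≠ 0) (S : Finset ℕ) (τ : ℕ → T)
    (hτ : ∀ (ℓ : ℕ) (hℓ : ℓ.Prime), ¬ ℓ ∣ N * m → ℓ ∉ S →
      (∀ x : JZero N, τ ℓ • x = heckeOperatorBar N ⟨ℓ, hℓ⟩ x) ∧ τ ℓ - (1 + (ℓ : T)) ∈ P)
    (W : Set (JZero N)) (hWfin : W.Finite) (hWm : ∀ x ∈ W, m • x = 0) (g : GQ) :
    ∃ (t : T) (c : ℕ), (∀ ζ : AlgebraicClosure ℚ, ζ ^ m = 1 → g ζ = ζ ^ c) ∧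
      t - (1 + (c : T)) ∈ P ∧ ∀ x ∈ W, g • g • x - t • g • x + c • x = 0 := by
  classical
  obtain ⟨L₁, hL₁, h₁⟩ := Fermat.Agent.S29.helper8527.exists_finiteLevel_of_finite N
    (hWfin.union (hWfin.image (fun x => g • x)))
  obtain ⟨L₂, hL₂, h₂⟩ := exists_finiteLevel_rootsOfUnity hm
  have hL : FiniteDimensional ℚ (L₁ ⊔ L₂ : IntermediateField ℚ (AlgebraicClosure ℚ)) :=
    IntermediateField.finiteDimensional_sup L₁ L₂
  obtain ⟨ℓ, hℓ, hℓB, A, hA, σ, hσ, n, hn⟩ :=
    Fermat.Agent.S29.helper4878.stmt_CycFrob (L₁ ⊔ L₂) hL g ((N * m).primeFactors ∪ S)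
  have hNm : N * m ≠ 0 := mul_ne_zero (NeZero.ne N) hm
  have hℓNm : ¬ ℓ ∣ N * m := fun hd =>
    hℓB (Finset.mem_union_left _ (Nat.mem_primeFactors.mpr ⟨hℓ, hd, hNm⟩))
  have hℓS : ℓ ∉ S := fun h => hℓB (Finset.mem_union_right _ h)
  have hℓN : ¬ ℓ ∣ N := fun hd => hℓNm (Dvd.dvd.mul_right hd m)
  have hℓm : ¬ ℓ ∣ m := fun hd => hℓNm (Dvd.dvd.mul_left hd N)
  obtain ⟨hτ1, hτ2⟩ := hτ ℓ hℓ hℓNm hℓS
  have hfix : ∀ x ∈ (L₁ ⊔ L₂ : IntermediateField ℚ (AlgebraicClosure ℚ)),
      (g⁻¹ * σ ^ n) x = x := fun x hx => by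
    have h1 : (g⁻¹ * σ ^ n) x = g⁻¹ ((σ ^ n) x) := rfl
    rw [h1, hn x hx]
    exact g.symm_apply_apply x
  have hW' : ∀ y ∈ W ∪ (fun x => g • x) '' W, (σ ^ n) • y = g • y := fun y hy => by
    have h1 := h₁ (g⁻¹ * σ ^ n) (fun x hx => hfix x ((le_sup_left : L₁ ≤ L₁ ⊔ L₂) hx)) y hy
    rw [mul_smul, inv_smul_eq_iff] at h1
    exact h1
  have hζ' : ∀ ζ : AlgebraicClosure ℚ, ζ ^ m = 1 → (σ ^ n) ζ = g ζ := fun ζ hζ => by
    have h1 := h₂ (g⁻¹ * σ ^ n) (fun x hx => hfix x ((le_sup_right : L₂ ≤ L₁ ⊔ L₂) hx)) ζ hζ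
    have h2 : (g⁻¹ * σ ^ n) ζ = g⁻¹ ((σ ^ n) ζ) := rfl
    rw [h2] at h1
    have h3 := congrArg g h1
    rw [show g (g⁻¹ ((σ ^ n) ζ)) = (σ ^ n) ζ from g.apply_symm_apply _] at h3
    exact h3
  have hcop : Nat.Coprime ℓ m := (Nat.Prime.coprime_iff_not_dvd hℓ).mpr hℓm
  have hES := Fermat.Agent.S29.helper405.stmt_ESMod_of_kf0
    (fun N _ ℓ hℓ hℓN => Fermat.Agent.S18.helper789.stmt_KF0_all N ℓ hℓ hℓN)
    N m ℓ hℓ hℓN hℓm A hA σ hσ
  -- `σ` as a `T`-linear endomorphism
  let s : Module.End T (JZero N) :=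
    { toFun := fun x => σ • x
      map_add' := fun x y => smul_add σ x y
      map_smul' := fun t x => hGT σ t x }
  have hs : ∀ z : JZero N, s z = σ • z := fun _ => rfl
  have hsn : ∀ (k : ℕ) (z : JZero N), (s ^ k) z = (σ ^ k) • z := by
    intro k
    induction k with
    | zero => intro z; rw [pow_zero, pow_zero, one_smul]; rfl
    | succ k ih =>
      intro z
      rw [pow_succ, pow_succ, Module.End.mul_apply, ih, hs, mul_smul]
  have hrel : ∀ x ∈ {x : JZero N | m • x = 0},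
      s (s x) - τ ℓ • s x + (ℓ : T) • x = 0 := by
    intro x hx
    rw [hs, hs, hτ1, Nat.cast_smul_eq_nsmul T ℓ x]
    exact hES x hx
  have hpow := lucas_step s {x : JZero N | m • x = 0} (τ ℓ) (ℓ : T) hrel n
  refine ⟨(dickson 1 (ℓ : T) n).eval (τ ℓ), ℓ ^ n, fun ζ hζ => ?_, ?_, ?_⟩
  · rw [← hζ' ζ hζ, frobenius_pow_apply_rootOfUnity hA hσ hcop n ζ hζ]
  · rw [Nat.cast_pow]
    exact dickson_eval_sub_mem P (τ ℓ) (ℓ : T) hτ2 n
  · intro x hx
    have e := hpow x (hWm x hx)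
    rw [hsn, hsn, hW' x (Or.inl hx), hW' (g • x) (Or.inr ⟨x, hx, rfl⟩), ← Nat.cast_pow,
      Nat.cast_smul_eq_nsmul T (ℓ ^ n) x] at e
    exact e

/-- **The hypothesis of the abstract Jordan–Hölder flag**, with the Prelude's mod-`r` cyclotomic
character: in the situation of `exists_esForm` with `r ∣ m`, for every `g` there are `t ∈ T` and
`c : ℕ` with `(c : ZMod r) = χ_r(g)`, `t ≡ 1 + c (mod P)` and `g² - t g + c` killing `W`. -/
theorem exists_esForm_cycloChar (N : ℕ) [NeZero N] {T : Type*} [CommRing T] [Module T (JZero N)]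
    (hGT : ∀ (g : GQ) (t : T) (x : JZero N), g • t • x = t • g • x)
    (P : Ideal T) (r : ℕ) [Fact r.Prime] (m : ℕ) (hm : m ≠ 0) (hrm : r ∣ m) (S : Finset ℕ)
    (τ : ℕ → T)
    (hτ : ∀ (ℓ : ℕ) (hℓ : ℓ.Prime), ¬ ℓ ∣ N * m → ℓ ∉ S →
      (∀ x : JZero N, τ ℓ • x = heckeOperatorBar N ⟨ℓ, hℓ⟩ x) ∧ τ ℓ - (1 + (ℓ : T)) ∈ P)
    (W : Set (JZero N)) (hWfin : W.Finite) (hWm : ∀ x ∈ W, m • x = 0) (g : GQ) :
    ∃ (t : T) (c : ℕ), (c : ZMod r) = ((ExtCitation.cycloChar r g : (ZMod r)ˣ) : ZMod r) ∧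
      t - (1 + (c : T)) ∈ P ∧ ∀ x ∈ W, g • g • x - t • g • x + c • x = 0 := by
  obtain ⟨t, c, hc, ht, hW⟩ := exists_esForm N hGT P m hm S τ hτ W hWfin hWm g
  refine ⟨t, c, natCast_eq_cycloChar r g c (fun ζ hζ => hc ζ ?_), ht, hW⟩
  obtain ⟨d, rfl⟩ := hrm
  rw [pow_mul, hζ, one_pow]

end Fermat.Agent.S15.helper991
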