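import Mathlib
import Fermat.Agent.S15.helper991_ESForm
import Fermat.Agent.S15.helper8205_DivCore
import Fermat.Agent.S15.helper8205_JHFlag
import Fermat.Agent.S29.helper288_FinTorsion

/-!
# S15 (helper991): the Jordan–Hölder flag of the Eisenstein-primary part of `J₀(N)[r ^ k]`

Instantiation of the abstract flag `Fermat.Agent.S15.helper8205.exists_flag_primary` at
`J = J₀(N)(ℚ̄)`, `G = G_ℚ`, `χ =` the Prelude's mod-`r` cyclotomic character, with its
Eichler–Shimura hypothesis discharged by `exists_esForm_cycloChar` and the finiteness of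
`J₀(N)[r ^ k]` by the landed `Fermat.Agent.S29.helper288.finite_torsion_JZero`.

`T` is ANY commutative ring acting on `J₀(N)(ℚ̄)` compatibly with `G_ℚ`, `P` any ideal containing
`r` and the elements `τ ℓ - (1 + ℓ)` where `τ ℓ` acts as the Hecke operator `T_ℓ`
(`ℓ ∤ N r` outside a finite set).  No open hypothesis about `J₀(N)` remains.
-/

set_option autoImplicit false

namespace Fermat.Agent.S15.helper991

open ModularCurve Fermat.Agent.S15.helper8205

/-- **(JH) at `J₀(N)`.**  The `P`-primary part `W_k` of `J₀(N)[r ^ k]` has a `G_ℚ`-stable flag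
`0 = F 0 < F 1 < ⋯ < F L = W_k` with all steps of order `r` on which `G_ℚ` acts trivially or
through the mod-`r` cyclotomic character. -/
theorem exists_jhFlag_primaryPart (N : ℕ) [NeZero N] {T : Type*} [CommRing T]
    [Module T (JZero N)]
    (hGT : ∀ (g : GQ) (t : T) (x : JZero N), g • t • x = t • g • x)
    (r : ℕ) [Fact r.Prime] (P : Ideal T) (hrP : (r : T) ∈ P) (S : Finset ℕ) (τ : ℕ → T)
    (hτ : ∀ (ℓ : ℕ) (hℓ : ℓ.Prime), ¬ ℓ ∣ N * r → ℓ ∉ S →
      (∀ x : JZero N, τ ℓ • x = heckeOperatorBar N ⟨ℓ, hℓ⟩ x) ∧ τ ℓ - (1 + (ℓ : T)) ∈ P)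
    (k : ℕ) :
    ∃ (L : ℕ) (F : ℕ → AddSubgroup (JZero N)),
      IsJHFlag r (ExtCitation.cycloChar r) ⊥
        (primaryPart P r k : Submodule T (JZero N)).toAddSubgroup L F := by
  have hr : r.Prime := Fact.out
  have hfin : {x : JZero N | r ^ k • x = 0}.Finite :=
    Fermat.Agent.S29.helper288.finite_torsion_JZero N (pow_ne_zero k hr.ne_zero)
  have hWfin : ((primaryPart P r k : Submodule T (JZero N)) : Set (JZero N)).Finite :=
    primaryPart_finite P r k hfin
  refine exists_flag_primary hGT hr P hrP (ExtCitation.cycloChar r) (primaryPart P r k) hWfin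
    (fun s w hw => smul_mem_primaryPart hGT P r k s hw) (fun w hw => hw.2) ?_
  intro g
  exact exists_esForm_cycloChar N hGT P r (r ^ (k + 1)) (pow_ne_zero _ hr.ne_zero)
    (dvd_pow_self r (Nat.succ_ne_zero k)) S τ
    (fun ℓ hℓ hℓN hℓS => hτ ℓ hℓ
      (fun hd => hℓN (hd.trans (mul_dvd_mul_left N (dvd_pow_self r (Nat.succ_ne_zero k))))) hℓS)
    _ hWfin (fun x hx => by rw [pow_succ, mul_comm, mul_smul, hx.1, smul_zero]) g

end Fermat.Agent.S15.helper991
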