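/-
helper2113 — S15 (Mazur block), registry leaf BND-ASM, part 2.

THE LEAF PROPS OF `helper2113_BndAsm` DISCHARGED FROM THE OWNERS' COMPILED FILES, and the final
statement (BND) for an odd prime `r ≠ p` at `J = JZero p`:

* `locV`      : (LOC-v)  from `helper9541.exists_unramStep_prime_level` (unconditional);
* `locRTriv`  : (LOC-r, trivial steps, `r` odd) from `helper2532.smul_sub_mem_of_trivial_step`
                and the S19 core at the auxiliary level `helper9075.exists_coordSystem_loc_aux_map`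
                (unconditional);
* `locRChi`   : (LOC-r, roots-of-unity steps) from `helper2532.exists_unit_of_step` and the same
                core (unconditional);
* `locP`      : (LOC-p) for `Tor k = helper578.tor A p hp (r ^ k)` from
                `helper5418.inertia_sub_mem_inf_atkinLehnerBar_nsmul` (unconditional);
* `card_inf_tor_sq_le` : (CNT, toric half, uniform in `k`) from the S35 export
                `helper578.Stmt_TorFrobP`, `helper8357.weil_pow_eq_one_of_frobSq` and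
                `helper1527.card_sq_le_of_isotropic_of_le`;
* `card_inf_tor_le`    : the count `#(W ⊓ Tor) ≤ r ^ B' * #(W ⊓ Fix(c))` with
                `helper3281.card_le_card_fix_sq` (complex conjugation half);
* `exists_bound_inv`   : (WG) from the landed `Fermat.Agent.S17.result`;
* `bnd_primaryPart_odd_of_nondeg`, `bnd_primaryPart_odd` : **(BND)** in the binder `hbnd` of
  `helper8205.div_of_bnd`.  Hypotheses beyond landed theorems: the S35 export
  `helper578.Stmt_TorFrobP` and the Weil nondegeneracy on `W k` (resp. the Weil self-adjointness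
  of the Hecke ring `T`, which gives it through the Hecke projector).
-/
import Fermat.Agent.S15.helper2113_BndAsm
import Fermat.Agent.S15.helper991_JHInst
import Fermat.Agent.S15.helper9541_LocGoodStep
import Fermat.Agent.S15.helper2532_LocalUnit
import Fermat.Agent.S19.helper9075_CoordsLocAux
import Fermat.Agent.S15.helper5418_FreeHalfRat
import Fermat.Agent.S15.helper578_TorSeam
import Fermat.Agent.S15.helper8357_TorIsotropy
import Fermat.Agent.S15.helper1527_WeilEigen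
import Fermat.Agent.S15.helper3281_ConjCount
import Fermat.Agent.S17

set_option autoImplicit false

namespace Fermat.Agent.S15.helper2113

open ModularCurve
open Fermat.Agent.S15.helper7259 Fermat.Agent.S15.helper4190 Fermat.Agent.S15.helper8205
open Fermat.Agent.S19.helper2790 (weilJ)

/-! ### (LOC-v) -/

/-- **(LOC-v)** at prime level, unconditional. -/
theorem locV {p r : ℕ} [NeZero p] (hp : p.Prime) (hr : r.Prime) : LocV p r := by
  intro k F F' hk y hy q hq hqp hqr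
  exact Fermat.Agent.S15.helper9541.exists_unramStep_prime_level hp hr hq hqp hqr F' hk F y hy

/-! ### (LOC-r) -/

/-- **(LOC-r), trivial steps** (`r` odd, `r ∤ p`), unconditional. -/
theorem locRTriv {p r : ℕ} [NeZero p] [hr : Fact r.Prime] (hr2 : r ≠ 2) (hrp : ¬ r ∣ p) :
    LocRTriv p r := by
  intro F F' ψ hstep hfin hkill y hy
  obtain ⟨A, hA⟩ := Fermat.Agent.Lib.helper54.exists_liesOverPrime hr.out
  obtain ⟨φm, g, J1, b, hinj, hgal, hcs, hloc, -, -⟩ :=
    Fermat.Agent.S19.helper9075.exists_coordSystem_loc_aux_map p r hrp A hA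
  have hX := Fermat.Agent.S15.helper2532.isLocCoord_of_isCoordSystem hcs hloc
  have := hfin
  have hF : ∀ σ ∈ A.inertiaSubgroupIn ℚ, ∀ x ∈ F, σ • x ∈ F := by
    intro σ _ x hx
    have h1 : σ • x - x ∈ F := hstep.smul_sub_mem σ (hstep.le hx)
    have h2 : σ • x = (σ • x - x) + x := by abel
    rw [h2]
    exact F.add_mem h1 hx
  exact ⟨A, hA, Fermat.Agent.S15.helper2532.smul_sub_mem_of_trivial_step hr.out hr2 hA hX φm hinj
    (fun σ _ x => hgal σ x) F F' hF (fun σ _ x hx => hstep.stable σ x hx) hkill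
    (fun σ _ x hx => hstep.smul_sub_mem σ hx) y (fun σ _ => hy σ)⟩

/-- **(LOC-r), roots-of-unity steps** (`r ∤ p`; `r = 2` allowed), unconditional. -/
theorem locRChi {p r : ℕ} [NeZero p] [hr : Fact r.Prime] (hrp : ¬ r ∣ p) : LocRChi p r := by
  intro F F' φ hstep hfin y hy
  obtain ⟨A, hA⟩ := Fermat.Agent.Lib.helper54.exists_liesOverPrime hr.out
  obtain ⟨φm, g, J1, b, hinj, hgal, hcs, hloc, -, -⟩ :=
    Fermat.Agent.S19.helper9075.exists_coordSystem_loc_aux_map p r hrp A hA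
  have hX := Fermat.Agent.S15.helper2532.isLocCoord_of_isCoordSystem hcs hloc
  have := hfin
  obtain ⟨β, hβ, hβ', hI⟩ := Fermat.Agent.S15.helper2532.exists_unit_of_step hr.out hA hX φm hinj
    (fun σ _ x => hgal σ x) F' (fun σ _ x hx => hstep.stable σ x hx) φ hstep.map_zero hstep.mul
    (fun σ _ x hx => hstep.equi σ x hx) y (fun σ _ => hy σ)
  have hβ0 : β ≠ 0 := by
    rintro rfl
    have h1 := hI 1 (Subgroup.one_mem _)
    rw [one_smul, sub_self, hstep.map_zero] at h1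
    simp at h1
  refine ⟨A, hA, β, ?_, hI⟩
  have h1 : A.valuation β ≤ 1 := (A.valuation_le_one_iff β).mpr hβ
  have h2 : A.valuation β⁻¹ ≤ 1 := (A.valuation_le_one_iff β⁻¹).mpr hβ'
  rw [map_inv₀] at h2
  have h0 : A.valuation β ≠ 0 := (map_ne_zero _).mpr hβ0
  exact le_antisymm h1 ((inv_le_one₀ (zero_lt_iff.mpr h0)).mp h2)

/-! ### (LOC-p) -/

/-- **(LOC-p)** for the toric part `K^∞ ⊓ W_p K^∞` of `J₀(p)` at ANY place `A` over `p`,
unconditional. -/
theorem locP {p r : ℕ} [NeZero p] (hp : p.Prime) (hr : r.Prime) (A : ValuationSubring Qb)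
    (hA : A.LiesOverPrime p) :
    LocP p r (fun k => Fermat.Agent.S15.helper578.tor A p hp (r ^ k)) := by
  intro k y hy
  exact ⟨A, hA, fun σ hσ =>
    Fermat.Agent.S15.helper5418.inertia_sub_mem_inf_atkinLehnerBar_nsmul p hp dvd_rfl
      (Fermat.Agent.S15.helper578.not_sq_dvd_self_of_prime hp) hσ (pow_ne_zero k hr.ne_zero) hy⟩

/-! ### (CNT) -/

/-- A root of unity of `r`-power order killed by `m` is killed by `r ^ v` as soon as
`r ^ (v + 1) ∤ m`. -/
theorem pow_eq_one_of_not_dvd {K : Type*} [Monoid K] {r : ℕ} (hr : r.Prime) {c : K} {k m v : ℕ}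
    (h1 : c ^ r ^ k = 1) (h2 : c ^ m = 1) (hv : ¬ r ^ (v + 1) ∣ m) : c ^ r ^ v = 1 := by
  have hd : orderOf c ∣ r ^ k := orderOf_dvd_of_pow_eq_one h1
  obtain ⟨j, -, hjeq⟩ := (Nat.dvd_prime_pow hr).mp hd
  have hjv : j ≤ v := by
    by_contra hlt
    apply hv
    have h3 : r ^ (v + 1) ∣ r ^ j := pow_dvd_pow r (by omega)
    rw [← hjeq] at h3
    exact h3.trans (orderOf_dvd_of_pow_eq_one h2)
  apply orderOf_dvd_iff_pow_eq_one.mp
  rw [hjeq]
  exact pow_dvd_pow r hjv

/-- **(CNT), toric half, uniform in `k`.**  `W` killed by `r ^ k` with nondegenerate Weil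
pairing, `Tor = helper578.tor A p hp (r ^ k)` at a place `A ∣ p` with a Frobenius lift `σ`.
From the S35 export `Stmt_TorFrobP`: `#(W ⊓ Tor)² ≤ C² · #W`, `C = #J₀(p)[r ^ v]`, for any `v`
with `r ^ (v + 1) ∤ p² - 1`. -/
theorem card_inf_tor_sq_le {p r : ℕ} [NeZero p] (hp : p.Prime) (hr : r.Prime) (hrp : r ≠ p)
    (hTF : Fermat.Agent.S15.helper578.Stmt_TorFrobP) (A : ValuationSubring Qb)
    (hA : A.LiesOverPrime p) (σ : GQ) (hσ : A.IsFrobeniusAt σ p)
    (v : ℕ) (hv : ¬ r ^ (v + 1) ∣ p ^ 2 - 1) (k : ℕ) (W : AddSubgroup (JZero p))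
    (hWk : ∀ w ∈ W, r ^ k • w = 0)
    (hnd : ∀ y ∈ W, y ≠ 0 → ∃ x ∈ W, weilJ p (r ^ k) x y ≠ 1) :
    Nat.card ↥(W ⊓ Fermat.Agent.S15.helper578.tor A p hp (r ^ k)) ^ 2 ≤
      Nat.card {x : JZero p // r ^ v • x = 0} ^ 2 * Nat.card ↥W := by
  classical
  set X : AddSubgroup (JZero p) := W ⊓ Fermat.Agent.S15.helper578.tor A p hp (r ^ k) with hX
  have hrk : 0 < r ^ k := pow_pos hr.pos k
  have hWfin : Finite ↥W :=
    Set.finite_coe_iff.mpr ((Fermat.Agent.S29.helper288.finite_torsion_JZero p hrk.ne').subset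
      fun z hz => hWk z hz)
  have hXfin : Finite ↥X := Finite.of_injective (AddSubgroup.inclusion (inf_le_left : X ≤ W))
    (AddSubgroup.inclusion_injective _)
  have hKfin : Finite {x : JZero p // r ^ v • x = 0} :=
    (Fermat.Agent.S29.helper288.finite_torsion_JZero p (pow_ne_zero v hr.ne_zero)).to_subtype
  -- the multiplication by `r ^ v` on `X`
  let f : ↥X →+ JZero p := (nsmulAddMonoidHom (r ^ v)).comp X.subtype
  have hf : ∀ x : ↥X, f x = r ^ v • (x : JZero p) := fun x => rfl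
  -- its range is inside `W` and isotropic
  have hrangeW : f.range ≤ W := by
    rintro _ ⟨x, rfl⟩
    rw [hf]
    exact W.nsmul_mem x.2.1 _
  have hpair : ∀ x ∈ X, ∀ x' ∈ X, weilJ p (r ^ k) x x' ^ r ^ v = 1 := by
    intro x hx x' hx'
    have hxk : r ^ k • x = 0 := hWk x hx.1
    have hxk' : r ^ k • x' = 0 := hWk x' hx'.1
    have h1 : weilJ p (r ^ k) x x' ^ r ^ k = 1 := Fermat.Agent.S19.helper2790.weilJ_pow hxk hxk'
    have h2 : weilJ p (r ^ k) x x' ^ (p ^ 2 - 1) = 1 :=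
      Fermat.Agent.S15.helper8357.weil_pow_eq_one_of_frobSq
        (Fermat.Agent.S19.helper2790.reciprocity_FN p)
        (Nat.Coprime.pow_right k ((Nat.coprime_primes hp hr).mpr (Ne.symm hrp))) hA hσ
        (hTF p hp r hr hrp k A hA σ hσ x hx.2) (hTF p hp r hr hrp k A hA σ hσ x' hx'.2)
        (Fermat.Agent.S19.helper2790.weilJ_spec hxk hxk')
    exact pow_eq_one_of_not_dvd hr h1 h2 hv
  have hiso : ∀ u ∈ f.range, ∀ u' ∈ f.range, weilJ p (r ^ k) u u' = 1 := by
    rintro _ ⟨x, rfl⟩ _ ⟨x', rfl⟩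
    have hxk : r ^ k • (x : JZero p) = 0 := hWk _ x.2.1
    have hxk' : r ^ k • (x' : JZero p) = 0 := hWk _ x'.2.1
    have hxk'' : r ^ k • (r ^ v • (x' : JZero p)) = 0 := by
      rw [nsmul_left_comm, hxk', nsmul_zero]
    rw [hf, hf, Fermat.Agent.S19.helper2790.weilJ_nsmul_left hxk hxk'',
      Fermat.Agent.S19.helper2790.weilJ_nsmul_right hxk hxk', ← pow_mul, pow_mul',
      hpair _ x.2 _ x'.2, one_pow]
  have hsq : Nat.card ↥f.range ^ 2 ≤ Nat.card ↥W :=
    Fermat.Agent.S15.helper1527.card_sq_le_of_isotropic_of_le hrk W f.range hWk hrangeW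
      (fun y hy hy0 => hnd y hy hy0) hiso
  -- the kernel is inside `J[r ^ v]`
  have hker : Nat.card ↥f.ker ≤ Nat.card {x : JZero p // r ^ v • x = 0} := by
    refine Nat.card_le_card_of_injective
      (fun x : ↥f.ker => (⟨(x : ↥X), by
        have h := x.2
        rw [AddMonoidHom.mem_ker, hf] at h
        exact h⟩ : {x : JZero p // r ^ v • x = 0})) ?_
    intro x x' h
    apply Subtype.ext
    apply Subtype.ext
    exact congrArg (fun z : {x : JZero p // r ^ v • x = 0} => (z : JZero p)) h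
  have hcard : Nat.card ↥X = Nat.card ↥f.ker * Nat.card ↥f.range := by
    rw [← AddSubgroup.index_ker f, mul_comm]
    exact (AddSubgroup.index_mul_card f.ker).symm
  calc Nat.card ↥X ^ 2 = Nat.card ↥f.ker ^ 2 * Nat.card ↥f.range ^ 2 := by
        rw [hcard, mul_pow]
    _ ≤ Nat.card {x : JZero p // r ^ v • x = 0} ^ 2 * Nat.card ↥W :=
        Nat.mul_le_mul (Nat.pow_le_pow_left hker 2) hsq

/-- **(CNT), `r` odd**: the single inequality consumed by `pow_smul_mem_of_leaves`, uniform in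
`k`, with `B' = #J₀(p)[r ^ v]`. -/
theorem card_inf_tor_le {p r : ℕ} [NeZero p] (hp : p.Prime) (hr : r.Prime) (hodd : Odd r)
    (hrp : r ≠ p) (hTF : Fermat.Agent.S15.helper578.Stmt_TorFrobP) (A : ValuationSubring Qb)
    (hA : A.LiesOverPrime p) (σ : GQ) (hσ : A.IsFrobeniusAt σ p)
    (v : ℕ) (hv : ¬ r ^ (v + 1) ∣ p ^ 2 - 1) (k : ℕ) (W : AddSubgroup (JZero p))
    (hWk : ∀ w ∈ W, r ^ k • w = 0)
    (hcW : ∀ x ∈ W, (complexConjugation : GQ) • x ∈ W)
    (hnd : ∀ y ∈ W, y ≠ 0 → ∃ x ∈ W, weilJ p (r ^ k) x y ≠ 1) :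
    Nat.card ↥(W ⊓ Fermat.Agent.S15.helper578.tor A p hp (r ^ k)) ≤
      r ^ Nat.card {x : JZero p // r ^ v • x = 0} *
        Nat.card ↥(W ⊓ fixPts (conjHom (JZero p))) := by
  have h1 := card_inf_tor_sq_le hp hr hrp hTF A hA σ hσ v hv k W hWk hnd
  have h2 : Nat.card ↥W ≤ Nat.card ↥(W ⊓ fixPts (conjHom (JZero p))) ^ 2 :=
    Fermat.Agent.S15.helper3281.card_le_card_fix_sq p (Odd.pow hodd) W hWk hcW hnd
      (fixPts (conjHom (JZero p))) (fun y => Iff.rfl)
  have h3 : Nat.card ↥(W ⊓ Fermat.Agent.S15.helper578.tor A p hp (r ^ k)) ^ 2 ≤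
      (Nat.card {x : JZero p // r ^ v • x = 0} *
        Nat.card ↥(W ⊓ fixPts (conjHom (JZero p)))) ^ 2 := by
    rw [mul_pow]
    exact h1.trans (Nat.mul_le_mul_left _ h2)
  have h4 := (Nat.pow_le_pow_iff_left (by norm_num : (2 : ℕ) ≠ 0)).mp h3
  exact h4.trans (Nat.mul_le_mul_right _ (Nat.lt_pow_self hr.one_lt).le)

/-! ### (WG) -/

/-- **(WG)** at `JZero p` from the landed Mordell–Weil theorem S17: one `B0` bounds the
Galois invariants of every torsion subgroup. -/
theorem exists_bound_inv (p : ℕ) [NeZero p] (hp : p.Prime) (hp5 : 5 ≤ p) :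
    ∃ B0 : ℕ, ∀ r : ℕ, 1 < r → ∀ W : AddSubgroup (JZero p),
      (∀ w ∈ W, ∃ n : ℕ, 0 < n ∧ n • w = 0) →
        Nat.card ↥(relInv GQ (⊥ : AddSubgroup (JZero p)) ⊓ W) ≤ r ^ B0 :=
  exists_bound_card_inv' GQ (Fermat.Agent.S17.result p hp hp5)

/-! ### (BND) -/

/-- **(BND) at `J₀(p)`, `r` odd, from Weil nondegeneracy on the tower.**  `T` any commutative
ring acting on `J₀(p)` compatibly with Galois, `P` an ideal containing `r` and the Eisenstein
elements `τ ℓ - (1 + ℓ)` (`τ ℓ` acting as `T_ℓ`, `ℓ ∤ p r` outside a finite set `S`),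
`W k = primaryPart P r k`.  Hypotheses beyond landed theorems: the S35 export
`helper578.Stmt_TorFrobP` and the nondegeneracy of the Weil pairing on `W k`.
Conclusion: the hypothesis `hbnd` of `helper8205.div_of_bnd`, for some `B`. -/
theorem bnd_primaryPart_odd_of_nondeg (p : ℕ) [NeZero p] (hp : p.Prime) (hp5 : 5 ≤ p)
    {T : Type*} [CommRing T] [Module T (JZero p)]
    (hGT : ∀ (g : GQ) (t : T) (x : JZero p), g • t • x = t • g • x)
    (r : ℕ) [hr : Fact r.Prime] (hodd : Odd r) (hrp : r ≠ p) (P : Ideal T) (hrP : (r : T) ∈ P)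
    (S : Finset ℕ) (τ : ℕ → T)
    (hτ : ∀ (ℓ : ℕ) (hℓ : ℓ.Prime), ¬ ℓ ∣ p * r → ℓ ∉ S →
      (∀ x : JZero p, τ ℓ • x = heckeOperatorBar p ⟨ℓ, hℓ⟩ x) ∧ τ ℓ - (1 + (ℓ : T)) ∈ P)
    (hnd : ∀ k : ℕ, ∀ y ∈ (primaryPart P r k : Submodule T (JZero p)), y ≠ 0 →
      ∃ x ∈ (primaryPart P r k : Submodule T (JZero p)), weilJ p (r ^ k) x y ≠ 1)
    (hTF : Fermat.Agent.S15.helper578.Stmt_TorFrobP) :
    ∃ B : ℕ, ∀ (k : ℕ) (u : JZero p),
      (∀ s : GQ, s • u - u ∈ (primaryPart P r k : Submodule T (JZero p))) →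
      ∃ z w : JZero p, (∀ s : GQ, s • z = z) ∧
        w ∈ (primaryPart P r k : Submodule T (JZero p)) ∧ r ^ B • u = z + w := by
  have hrP' : r.Prime := hr.out
  have hrp' : ¬ r ∣ p := fun h => hrp ((Nat.prime_dvd_prime_iff_eq hrP' hp).mp h)
  have hr2 : r ≠ 2 := by
    rintro rfl
    exact absurd hodd (by decide)
  obtain ⟨A, σ, hA, hσ⟩ := Fermat.Agent.Lib.helper54.exists_liesOverPrime_isFrobeniusAt hp
  obtain ⟨B0, hB0⟩ := exists_bound_inv p hp hp5
  -- an exponent `v` with `r ^ (v + 1) ∤ p² - 1`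
  have hp1 : 0 < p ^ 2 - 1 := by
    have : 2 ≤ p := hp.two_le
    have : 4 ≤ p ^ 2 := by nlinarith
    omega
  have hv : ¬ r ^ (p ^ 2 + 1) ∣ p ^ 2 - 1 := by
    intro h
    have h1 := Nat.le_of_dvd hp1 h
    have h2 : p ^ 2 + 1 < r ^ (p ^ 2 + 1) := Nat.lt_pow_self hrP'.one_lt
    omega
  have hfin : ∀ k : ℕ, {x : JZero p | r ^ k • x = 0}.Finite := fun k =>
    Fermat.Agent.S29.helper288.finite_torsion_JZero p (pow_ne_zero k hrP'.ne_zero)
  refine ⟨B0 + Nat.card {x : JZero p // r ^ (p ^ 2) • x = 0}, ?_⟩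
  refine bnd_primaryPart_of_leaves hp hodd hrp P
    (fun k => Fermat.Agent.S15.helper578.tor A p hp (r ^ k)) hfin
    (fun k => Fermat.Agent.S15.helper991.exists_jhFlag_primaryPart p hGT r P hrP S τ hτ k)
    (locV hp hrP') (locRTriv hr2 hrp') (locRChi hrp') (locP hp hrP' A hA) B0 _ ?_ ?_
  · intro k
    exact card_inf_tor_le hp hrP' hodd hrp hTF A hA σ hσ (p ^ 2) hv k _ (fun w hw => hw.1)
      (fun x hx => smul_mem_primaryPart hGT P r k complexConjugation hx) (hnd k)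
  · intro k
    exact hB0 r hrP'.one_lt _ (fun w hw => ⟨r ^ k, pow_pos hrP'.pos k, hw.1⟩)

/-- **(BND) at `J₀(p)`, `r` odd, for a Weil-self-adjoint Hecke ring.**  As
`bnd_primaryPart_odd_of_nondeg`, with the nondegeneracy on `W k` derived from the Hecke projector
(`helper8205.exists_projector_torsion`) when every element of `T` is self-adjoint for the Weil
pairing on the `r`-power torsion (true for polynomials in the `T_ℓ`, `ℓ ∤ p r`:
`helper8357.weil_heckeOperatorBar_adjoint`). -/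
theorem bnd_primaryPart_odd (p : ℕ) [NeZero p] (hp : p.Prime) (hp5 : 5 ≤ p)
    {T : Type*} [CommRing T] [Module T (JZero p)]
    (hGT : ∀ (g : GQ) (t : T) (x : JZero p), g • t • x = t • g • x)
    (r : ℕ) [hr : Fact r.Prime] (hodd : Odd r) (hrp : r ≠ p) (P : Ideal T) (hrP : (r : T) ∈ P)
    (S : Finset ℕ) (τ : ℕ → T)
    (hτ : ∀ (ℓ : ℕ) (hℓ : ℓ.Prime), ¬ ℓ ∣ p * r → ℓ ∉ S →
      (∀ x : JZero p, τ ℓ • x = heckeOperatorBar p ⟨ℓ, hℓ⟩ x) ∧ τ ℓ - (1 + (ℓ : T)) ∈ P)
    (hadj : ∀ (t : T) (k : ℕ) (x y : JZero p), r ^ k • x = 0 → r ^ k • y = 0 →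
      weilJ p (r ^ k) (t • x) y = weilJ p (r ^ k) x (t • y))
    (hTF : Fermat.Agent.S15.helper578.Stmt_TorFrobP) :
    ∃ B : ℕ, ∀ (k : ℕ) (u : JZero p),
      (∀ s : GQ, s • u - u ∈ (primaryPart P r k : Submodule T (JZero p))) →
      ∃ z w : JZero p, (∀ s : GQ, s • z = z) ∧
        w ∈ (primaryPart P r k : Submodule T (JZero p)) ∧ r ^ B • u = z + w := by
  have hrP' : r.Prime := hr.out
  refine bnd_primaryPart_odd_of_nondeg p hp hp5 hGT r hodd hrp P hrP S τ hτ ?_ hTF
  intro k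
  have hfin : {x : JZero p | r ^ k • x = 0}.Finite :=
    Fermat.Agent.S29.helper288.finite_torsion_JZero p (pow_ne_zero k hrP'.ne_zero)
  obtain ⟨t, -, ht1, ht2⟩ := exists_projector_torsion P r k hfin
  exact Fermat.Agent.S15.helper3281.weilJ_nondeg_on_of_selfAdjoint (pow_pos hrP'.pos k)
    (primaryPart P r k : Submodule T (JZero p)).toAddSubgroup (fun x hx => hx.1)
    (fun x => t • x) ht1 ht2 (fun x y hx hy => hadj t k x y hx hy)

end Fermat.Agent.S15.helper2113
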