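import Mathlib
import Fermat.Prelude.Def_ModularCurve_HeckeModule
import Fermat.Agent.S15.helper8205_DivCore
import Fermat.Agent.S17.helper958_Divisible
import Fermat.Agent.S29.helper288_FinTorsion
import Fermat.Agent.S29.helper2378_HeckeComm
import Fermat.Agent.S29.helper5500_GalHecke

set_option autoImplicit false

/-!
# (KUM) instantiation at `JZero N` (helper9563; backup copy of the registry leaf KUM-INST)

The abstract arrow `(DIV) ⟸ (KUM) + (BND)` of `helper8205_DivCore` is stated for an abelian group
`J` with commuting actions of a group `G` and of a commutative ring `T`, such that `J` is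
`r`-divisible with finite `r ^ k`-torsion.  Here all of these hypotheses are discharged for

* `J := JZero N` (every level `N ≠ 0`),
* `G := AlgebraicClosure ℚ ≃ₐ[ℚ] AlgebraicClosure ℚ`,
* `T := HeckeAlg = MvPolynomial Nat.Primes ℤ`, acting through the Prelude structure
  `heckeModuleBar N` (so `heckeGen ℓ` acts as `heckeOperatorBar N ℓ`),

from bricks that are on main: divisibility (`S17.helper958.divisible_JZero_final`), finiteness of
torsion (`S29.helper288.finite_torsion_JZero`), commutativity of the Hecke operators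
(`S29.helper2378.heckeOperatorsCommuteBar`) and their Galois equivariance
(`S29.helper5500.smulCommClass_heckeModuleBar`).

Nothing here depends on the ideal `P`: it is an arbitrary ideal of `HeckeAlg` (in the Mazur block:
the Eisenstein prime `(r, T_q - 1 - q : q ≠ p, r)`).
-/

namespace Fermat.Agent.S15.helper9563

open ModularCurve

/-- The absolute Galois group of `ℚ`. -/
local notation "GQ" => AlgebraicClosure ℚ ≃ₐ[ℚ] AlgebraicClosure ℚ

section Kum

variable (N : ℕ) [NeZero N]

/-- `heckeGen ℓ` acts on `JZero N` as the Prelude Hecke operator (unconditionally). -/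
theorem heckeGen_smul (ℓ : Nat.Primes) (x : JZero N) :
    (letI := heckeModuleBar N; heckeGen ℓ • x) = heckeOperatorBar N ℓ x :=
  heckeModuleBar_heckeGen_smul (Fermat.Agent.S29.helper2378.heckeOperatorsCommuteBar N) ℓ x

/-- An integer constant of `HeckeAlg` acts on `JZero N` as that integer. -/
theorem C_smul (a : ℤ) (x : JZero N) :
    (letI := heckeModuleBar N; (MvPolynomial.C a : HeckeAlg) • x) = a • x :=
  heckeModuleBar_C_smul a x

/-- A natural number, viewed in `HeckeAlg`, acts on `JZero N` as that natural number. -/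
theorem natCast_smul (a : ℕ) (x : JZero N) :
    (letI := heckeModuleBar N; ((a : HeckeAlg)) • x) = a • x := by
  letI := heckeModuleBar N
  exact Nat.cast_smul_eq_nsmul HeckeAlg a x

/-- **(KUM-1)** the Galois action on `JZero N` commutes with the Hecke module structure. -/
theorem galois_smul_comm (s : GQ) (t : HeckeAlg) (x : JZero N) :
    (letI := heckeModuleBar N; s • t • x = t • s • x) := by
  letI := heckeModuleBar N
  haveI := Fermat.Agent.S29.helper5500.smulCommClass_heckeModuleBar N
    (Fermat.Agent.S29.helper2378.heckeOperatorsCommuteBar N)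
  exact smul_comm s t x

/-- **(KUM-2)** `JZero N` is `r`-divisible for every `r ≥ 1`. -/
theorem divisible (r : ℕ) (hr : 0 < r) : ∀ x : JZero N, ∃ y : JZero N, r • y = x :=
  Fermat.Agent.S17.helper958.divisible_JZero_final N r hr

/-- **(KUM-3)** the `r ^ k`-torsion of `JZero N` is finite for every `r ≥ 1`. -/
theorem finite_torsion_pow (r : ℕ) (hr : 0 < r) (k : ℕ) :
    {x : JZero N | r ^ k • x = 0}.Finite :=
  Fermat.Agent.S29.helper288.finite_torsion_JZero N (pow_ne_zero k hr.ne')

/-- The `P`-primary part of `JZero N [r ^ k]` (the subgroup `W_k` of the Mazur block), for an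
arbitrary ideal `P` of `HeckeAlg`. -/
noncomputable def W (P : Ideal HeckeAlg) (r k : ℕ) :
    (letI := heckeModuleBar N; Submodule HeckeAlg (JZero N)) :=
  letI := heckeModuleBar N
  Fermat.Agent.S15.helper8205.primaryPart P r k

theorem mem_W {P : Ideal HeckeAlg} {r k : ℕ} {x : JZero N} :
    (letI := heckeModuleBar N
     x ∈ W N P r k ↔ r ^ k • x = 0 ∧ ∃ n : ℕ, ∀ a ∈ P ^ n, a • x = 0) :=
  Iff.rfl

/-- `W_k` is finite. -/
theorem W_finite (P : Ideal HeckeAlg) (r : ℕ) (hr : 0 < r) (k : ℕ) :
    (letI := heckeModuleBar N; ((W N P r k : Submodule HeckeAlg (JZero N)) : Set (JZero N)).Finite) := by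
  letI := heckeModuleBar N
  exact Fermat.Agent.S15.helper8205.primaryPart_finite P r k (finite_torsion_pow N r hr k)

/-- `W_k` is Galois stable. -/
theorem smul_mem_W (P : Ideal HeckeAlg) (r k : ℕ) (s : GQ) {x : JZero N}
    (hx : (letI := heckeModuleBar N; x ∈ W N P r k)) :
    (letI := heckeModuleBar N; s • x ∈ W N P r k) := by
  letI := heckeModuleBar N
  exact Fermat.Agent.S15.helper8205.smul_mem_primaryPart (galois_smul_comm N) P r k s hx

/-- `W_k` is increasing in `k`. -/
theorem W_mono (P : Ideal HeckeAlg) (r : ℕ) {k l : ℕ} (h : k ≤ l) :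
    (letI := heckeModuleBar N; W N P r k ≤ W N P r l) := by
  letI := heckeModuleBar N
  exact Fermat.Agent.S15.helper8205.primaryPart_mono P r h

/-- **(KUM-4), the `P`-primary splitting of `JZero N [r ^ k]`**: there is a Hecke element
`t ∈ 1 + P` mapping the `r ^ k`-torsion into `W_k` and fixing `W_k` pointwise; hence
`J[r ^ k] = W_k ⊕ (1 - t) J[r ^ k]`. -/
theorem exists_projector (P : Ideal HeckeAlg) (r : ℕ) (hr : 0 < r) (k : ℕ) :
    (letI := heckeModuleBar N
     ∃ t : HeckeAlg, t - 1 ∈ P ∧ (∀ x : JZero N, r ^ k • x = 0 → t • x ∈ W N P r k) ∧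
      (∀ x ∈ W N P r k, t • x = x)) := by
  letI := heckeModuleBar N
  exact Fermat.Agent.S15.helper8205.exists_projector_torsion P r k (finite_torsion_pow N r hr k)

/-- **(DIV) ⟸ (BND) at `JZero N`.**  Suppose `r ^ B` kills the cokernels of
`J^G → (J / W_k)^G` for all `k` (subgroup form).  Then for every `k` and every Galois-fixed `D`
there are `t ∈ 1 + P` fixing `W_(k + B)` pointwise, a Galois-fixed `τ ∈ W_B` and a Galois-fixed
`z` with `t • D = τ + r ^ k • z`. -/
theorem div_of_bnd (P : Ideal HeckeAlg) (r : ℕ) (hr : 0 < r) (B : ℕ)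
    (hbnd : (letI := heckeModuleBar N
      ∀ (k : ℕ) (u : JZero N), (∀ s : GQ, s • u - u ∈ W N P r k) →
        ∃ z w : JZero N, (∀ s : GQ, s • z = z) ∧ w ∈ W N P r k ∧ r ^ B • u = z + w))
    (k : ℕ) (D : JZero N) (hD : ∀ s : GQ, s • D = D) :
    (letI := heckeModuleBar N
     ∃ (t : HeckeAlg) (τ z : JZero N), t - 1 ∈ P ∧
      (∀ x ∈ W N P r (k + B), t • x = x) ∧
      (∀ s : GQ, s • τ = τ) ∧ τ ∈ W N P r B ∧ (∀ s : GQ, s • z = z) ∧
      t • D = τ + r ^ k • z) := by
  letI := heckeModuleBar N
  exact Fermat.Agent.S15.helper8205.div_of_bnd (galois_smul_comm N) P r (divisible N r hr)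
    (fun k => finite_torsion_pow N r hr k) B hbnd k D hD

end Kum

end Fermat.Agent.S15.helper9563
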