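import Mathlib
import Fermat.Prelude.Def_ModularCurve_HeckeModule
import Fermat.Agent.S15.helper8205_DivCore
import Fermat.Agent.S15.helper9563_KumInst

set_option autoImplicit false

/-!
# The junction `(DIV), level one  ⟸  (BND)` at `JZero p` (helper9563)

Target shape (top Spec of the Mazur block, `Stmt_Div1 p c e S0`): for every Galois-fixed
`D : JZero p` there are

* `f` in the subring of `Module.End ℤ (JZero p)` generated by the Hecke operators
  `heckeOperatorBar p q`, `q ∉ S0`, `q ≠ p`,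
* an integer `m` prime to `e` with `f c = m • c`,
* Galois-fixed `τ`, `z` with `τ` of `e`-power order and `f D = τ + e • z`.

This file derives it from the abstract arrow `helper8205.div_of_bnd` and the `(KUM)` facts of
`helper9563_KumInst`, with

* `T := HeckeT p S0 = MvPolynomial {q : Nat.Primes // q ∉ S0 ∧ q ≠ p} ℤ`, acting on `JZero p`
  through the Prelude module structure `heckeModuleBar p` (`moduleT p S0`);
* `P := eisIdeal p S0 e = (e, T_q - (1 + q) : q ∉ S0, q ≠ p)`.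

The only open input is `(BND)` for this pair `(T, P)` (`BndAt p S0 e B`), or for every pair
`(T, P)` of the shape used by the Jordan–Hölder instance (`BndFor p e S0`).
-/

namespace Fermat.Agent.S15.helper9563

open ModularCurve

/-- The absolute Galois group of `ℚ`. -/
local notation "GQ" => AlgebraicClosure ℚ ≃ₐ[ℚ] AlgebraicClosure ℚ

section Generic

variable {p : ℕ} [NeZero p] {T : Type*} [CommRing T] [Module T (JZero p)]

/-- **Generic junction.**  `T` a commutative ring acting on `JZero p` compatibly with Galois,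
`P` an ideal all of whose elements act on `c` through multiples of `e`, `R` a subring of
endomorphisms through which all of `T` acts.  Then `(BND)` with exponent `B` for `(T, P, e)`
gives the level-one divisibility statement. -/
theorem div1_of_bnd_generic
    (hGT : ∀ (s : GQ) (t : T) (x : JZero p), s • t • x = t • s • x)
    (P : Ideal T) (e : ℕ) (he : 0 < e) (c : JZero p)
    (hPc : ∀ t ∈ P, ∃ n : ℤ, t • c = ((e : ℤ) * n) • c)
    (R : Subring (Module.End ℤ (JZero p)))
    (hR : ∀ t : T, ∃ f ∈ R, ∀ x : JZero p, t • x = f x)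
    (B : ℕ)
    (hbnd : ∀ (k : ℕ) (u : JZero p),
      (∀ s : GQ, s • u - u ∈ (helper8205.primaryPart P e k : Submodule T (JZero p))) →
        ∃ z w : JZero p, (∀ s : GQ, s • z = z) ∧
          w ∈ (helper8205.primaryPart P e k : Submodule T (JZero p)) ∧ e ^ B • u = z + w)
    (D : JZero p) (hD : ∀ s : GQ, s • D = D) :
    ∃ f ∈ R, ∃ m : ℤ, IsCoprime m (e : ℤ) ∧ f c = m • c ∧
      ∃ τ z : JZero p, (∀ s : GQ, s • τ = τ) ∧ (∀ s : GQ, s • z = z) ∧
        (∃ n : ℕ, e ^ n • τ = 0) ∧ f D = τ + e • z := by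
  obtain ⟨t, τ, z, htP, -, hτfix, hτW, hzfix, htD⟩ :=
    helper8205.div_of_bnd hGT P e (divisible p e he) (fun k => finite_torsion_pow p e he k) B
      hbnd 1 D hD
  obtain ⟨f, hfR, hf⟩ := hR t
  obtain ⟨n, hn⟩ := hPc (t - 1) htP
  refine ⟨f, hfR, 1 + (e : ℤ) * n, ⟨1, -n, by ring⟩, ?_, τ, z, hτfix, hzfix, ⟨B, hτW.1⟩, ?_⟩
  · rw [← hf c]
    have h1 : t • c = c + (t - 1) • c := by rw [sub_smul, one_smul]; abel
    rw [h1, hn, add_zsmul, one_zsmul]
  · rw [← hf D, htD, pow_one]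

end Generic

section Concrete

variable (p : ℕ) [NeZero p] (S0 : Finset ℕ)

/-- The good primes: outside `S0` and different from the level `p`. -/
abbrev Idx : Type := {q : Nat.Primes // (q : ℕ) ∉ S0 ∧ (q : ℕ) ≠ p}

/-- The polynomial Hecke ring on the good primes. -/
abbrev HeckeT : Type := MvPolynomial (Idx p S0) ℤ

/-- Its inclusion into the Prelude's `HeckeAlg`. -/
noncomputable def inclT : HeckeT p S0 →+* HeckeAlg :=
  (MvPolynomial.rename (Subtype.val : Idx p S0 → Nat.Primes)).toRingHom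

omit [NeZero p] in
theorem inclT_C (a : ℤ) : inclT p S0 (MvPolynomial.C a) = MvPolynomial.C a := by
  simp [inclT]

omit [NeZero p] in
theorem inclT_X (i : Idx p S0) : inclT p S0 (MvPolynomial.X i) = heckeGen i.1 := by
  simp [inclT, heckeGen]

/-- The action of `HeckeT p S0` on `JZero p` through the Prelude structure `heckeModuleBar p`. -/
@[reducible] noncomputable def moduleT : Module (HeckeT p S0) (JZero p) :=
  letI := heckeModuleBar p
  Module.compHom (JZero p) (inclT p S0)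

attribute [local instance] moduleT

theorem moduleT_smul_def (t : HeckeT p S0) (x : JZero p) :
    t • x = (letI := heckeModuleBar p; inclT p S0 t • x) := rfl

theorem C_smulT (a : ℤ) (x : JZero p) : (MvPolynomial.C a : HeckeT p S0) • x = a • x := by
  rw [moduleT_smul_def, inclT_C]
  exact C_smul p a x

theorem X_smulT (i : Idx p S0) (x : JZero p) :
    (MvPolynomial.X i : HeckeT p S0) • x = heckeOperatorBar p i.1 x := by
  rw [moduleT_smul_def, inclT_X]
  exact heckeGen_smul p i.1 x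

/-- Galois commutes with `HeckeT p S0`. -/
theorem galois_smul_commT (s : GQ) (t : HeckeT p S0) (x : JZero p) : s • t • x = t • s • x := by
  rw [moduleT_smul_def, moduleT_smul_def]
  exact galois_smul_comm p s (inclT p S0 t) x

/-- The generators of the Hecke ring of the top Spec. -/
def gens : Set (Module.End ℤ (JZero p)) :=
  {f | ∃ q : Nat.Primes, (q : ℕ) ∉ S0 ∧ (q : ℕ) ≠ p ∧ f = heckeOperatorBar p q}

/-- Every element of `HeckeT p S0` acts through the subring generated by the good Hecke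
operators. -/
theorem exists_mem_closure_gens (t : HeckeT p S0) :
    ∃ f ∈ Subring.closure (gens p S0), ∀ x : JZero p, t • x = f x := by
  induction t using MvPolynomial.induction_on with
  | C a =>
    refine ⟨(a : Module.End ℤ (JZero p)), intCast_mem _ a, fun x => ?_⟩
    rw [C_smulT, Module.End.intCast_apply]
  | add s t hs ht =>
    obtain ⟨f, hf, hf'⟩ := hs
    obtain ⟨g, hg, hg'⟩ := ht
    refine ⟨f + g, add_mem hf hg, fun x => ?_⟩
    rw [add_smul, hf', hg', LinearMap.add_apply]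
  | mul_X t i ht =>
    obtain ⟨f, hf, hf'⟩ := ht
    refine ⟨f * heckeOperatorBar p i.1, mul_mem hf
      (Subring.subset_closure ⟨i.1, i.2.1, i.2.2, rfl⟩), fun x => ?_⟩
    rw [mul_smul, X_smulT, hf', Module.End.mul_apply]

/-- On an eigenclass `c` every element of `HeckeT p S0` acts through an integer. -/
theorem exists_int_smul_eq (c : JZero p)
    (hc : ∀ q : Nat.Primes, (q : ℕ) ∉ S0 → (q : ℕ) ≠ p →
      heckeOperatorBar p q c = (1 + (q : ℕ)) • c)
    (t : HeckeT p S0) : ∃ m : ℤ, t • c = m • c := by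
  induction t using MvPolynomial.induction_on with
  | C a => exact ⟨a, C_smulT p S0 a c⟩
  | add s t hs ht =>
    obtain ⟨m, hm⟩ := hs
    obtain ⟨n, hn⟩ := ht
    exact ⟨m + n, by rw [add_smul, hm, hn, add_zsmul]⟩
  | mul_X t i ht =>
    obtain ⟨m, hm⟩ := ht
    refine ⟨((1 + (i.1 : ℕ) : ℕ) : ℤ) * m, ?_⟩
    rw [mul_smul, X_smulT, hc i.1 i.2.1 i.2.2, ← natCast_zsmul, smul_comm, hm, mul_zsmul]

/-- The Eisenstein ideal at `e` of the polynomial Hecke ring on the good primes. -/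
noncomputable def eisIdeal (e : ℕ) : Ideal (HeckeT p S0) :=
  Ideal.span ({(e : HeckeT p S0)} ∪
    Set.range fun i : Idx p S0 => MvPolynomial.X i - (1 + ((i.1 : ℕ) : HeckeT p S0)))

omit [NeZero p] in
theorem natCast_mem_eisIdeal (e : ℕ) : (e : HeckeT p S0) ∈ eisIdeal p S0 e :=
  Ideal.subset_span (Or.inl rfl)

omit [NeZero p] in
theorem X_sub_mem_eisIdeal (e : ℕ) (i : Idx p S0) :
    MvPolynomial.X i - (1 + ((i.1 : ℕ) : HeckeT p S0)) ∈ eisIdeal p S0 e :=
  Ideal.subset_span (Or.inr ⟨i, rfl⟩)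

theorem natCast_smulT (a : ℕ) (x : JZero p) : (a : HeckeT p S0) • x = a • x :=
  Nat.cast_smul_eq_nsmul (HeckeT p S0) a x

/-- The Eisenstein ideal acts on an eigenclass through multiples of `e`. -/
theorem eisIdeal_smul_eq (c : JZero p)
    (hc : ∀ q : Nat.Primes, (q : ℕ) ∉ S0 → (q : ℕ) ≠ p →
      heckeOperatorBar p q c = (1 + (q : ℕ)) • c)
    (e : ℕ) (t : HeckeT p S0) (ht : t ∈ eisIdeal p S0 e) :
    ∃ n : ℤ, t • c = ((e : ℤ) * n) • c := by
  unfold eisIdeal at ht
  induction ht using Submodule.span_induction with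
  | mem x hx =>
    rcases hx with hx | ⟨i, rfl⟩
    · rw [Set.mem_singleton_iff] at hx
      subst hx
      exact ⟨1, by rw [natCast_smulT, mul_one, natCast_zsmul]⟩
    · refine ⟨0, ?_⟩
      have h1 : (1 + ((i.1 : ℕ) : HeckeT p S0)) = (((1 + (i.1 : ℕ) : ℕ)) : HeckeT p S0) := by
        push_cast; rfl
      rw [sub_smul, X_smulT, hc i.1 i.2.1 i.2.2, h1, natCast_smulT, sub_self, mul_zero, zero_zsmul]
  | zero => exact ⟨0, by rw [zero_smul (HeckeT p S0) c, mul_zero, zero_zsmul]⟩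
  | add x y _ _ hx hy =>
    obtain ⟨m, hm⟩ := hx
    obtain ⟨n, hn⟩ := hy
    exact ⟨m + n, by rw [add_smul, hm, hn, mul_add, add_zsmul]⟩
  | smul a x _ hx =>
    obtain ⟨n, hn⟩ := hx
    obtain ⟨m, hm⟩ := exists_int_smul_eq p S0 c hc a
    refine ⟨n * m, ?_⟩
    rw [smul_eq_mul, mul_smul, hn, smul_comm, hm, ← mul_assoc, mul_zsmul c ((e : ℤ) * n) m]

/-- The generators `τ ℓ` in the shape used by the Jordan–Hölder instance. -/
noncomputable def tauT (ℓ : ℕ) : HeckeT p S0 :=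
  if h : ℓ.Prime ∧ ℓ ∉ S0 ∧ ℓ ≠ p then MvPolynomial.X ⟨⟨ℓ, h.1⟩, h.2.1, h.2.2⟩ else 0

theorem tauT_spec (e : ℕ) (ℓ : ℕ) (hℓ : ℓ.Prime) (hℓp : ¬ ℓ ∣ p * e) (hℓS : ℓ ∉ S0) :
    (∀ x : JZero p, tauT p S0 ℓ • x = heckeOperatorBar p ⟨ℓ, hℓ⟩ x) ∧
      tauT p S0 ℓ - (1 + (ℓ : HeckeT p S0)) ∈ eisIdeal p S0 e := by
  have hne : ℓ ≠ p := fun h => hℓp (h ▸ dvd_mul_right ℓ e)
  have hτ : tauT p S0 ℓ = MvPolynomial.X ⟨⟨ℓ, hℓ⟩, hℓS, hne⟩ := dif_pos ⟨hℓ, hℓS, hne⟩
  refine ⟨fun x => ?_, ?_⟩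
  · rw [hτ, X_smulT]
  · rw [hτ]
    exact X_sub_mem_eisIdeal p S0 e ⟨⟨ℓ, hℓ⟩, hℓS, hne⟩

/-- `(BND)` with exponent `B` for the concrete pair `(HeckeT p S0, eisIdeal p S0 e)`. -/
def BndAt (e B : ℕ) : Prop :=
  ∀ (k : ℕ) (u : JZero p),
    (∀ s : GQ, s • u - u ∈
      (helper8205.primaryPart (eisIdeal p S0 e) e k : Submodule (HeckeT p S0) (JZero p))) →
      ∃ z w : JZero p, (∀ s : GQ, s • z = z) ∧
        w ∈ (helper8205.primaryPart (eisIdeal p S0 e) e k : Submodule (HeckeT p S0) (JZero p)) ∧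
        e ^ B • u = z + w

/-- **Level-one divisibility from `(BND)`, concrete form.** -/
theorem div1_of_bndAt (c : JZero p)
    (hc : ∀ q : Nat.Primes, (q : ℕ) ∉ S0 → (q : ℕ) ≠ p →
      heckeOperatorBar p q c = (1 + (q : ℕ)) • c)
    (e : ℕ) (he : 0 < e) (B : ℕ) (hbnd : BndAt p S0 e B)
    (D : JZero p) (hD : ∀ s : GQ, s • D = D) :
    ∃ f ∈ Subring.closure (gens p S0), ∃ m : ℤ, IsCoprime m (e : ℤ) ∧ f c = m • c ∧
      ∃ τ z : JZero p, (∀ s : GQ, s • τ = τ) ∧ (∀ s : GQ, s • z = z) ∧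
        (∃ n : ℕ, e ^ n • τ = 0) ∧ f D = τ + e • z :=
  div1_of_bnd_generic (galois_smul_commT p S0) (eisIdeal p S0 e) e he c
    (eisIdeal_smul_eq p S0 c hc e) (Subring.closure (gens p S0)) (exists_mem_closure_gens p S0)
    B hbnd D hD

/-- Enlarging the exceptional set shrinks the Hecke ring. -/
theorem closure_gens_anti {S0 S1 : Finset ℕ} (h : S0 ⊆ S1) :
    Subring.closure (gens p S1) ≤ Subring.closure (gens p S0) :=
  Subring.closure_mono fun _ ⟨q, hq, hqp, hf⟩ => ⟨q, fun hq0 => hq (h hq0), hqp, hf⟩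

/-- The level-one projector: a Hecke element `t ∈ 1 + eisIdeal` mapping `JZero p [e]` into its
Eisenstein-primary part `W_1` and fixing `W_1` pointwise. -/
theorem exists_projector_one (e : ℕ) (he : 0 < e) :
    ∃ t : HeckeT p S0, t - 1 ∈ eisIdeal p S0 e ∧
      (∀ x : JZero p, e • x = 0 → t • x ∈
        (helper8205.primaryPart (eisIdeal p S0 e) e 1 : Submodule (HeckeT p S0) (JZero p))) ∧
      (∀ x ∈ (helper8205.primaryPart (eisIdeal p S0 e) e 1 : Submodule (HeckeT p S0) (JZero p)),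
        t • x = x) := by
  obtain ⟨t, ht, h1, h2⟩ := helper8205.exists_projector_torsion (J := JZero p)
    (eisIdeal p S0 e) e 1 (finite_torsion_pow p e he 1)
  exact ⟨t, ht, fun x hx => h1 x (by rwa [pow_one]), h2⟩

/-- The level-one statement consumed by the junction: every level-one projector `t` decomposes
every Galois-fixed `D` as `t • D = τ + e • z` with `τ`, `z` fixed and `τ` of `e`-power order.
(This is the conclusion of the level-one count `div1_of_sq_orders` with `E := (t • ·)`.) -/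
def LevelOneAt (e : ℕ) : Prop :=
  ∀ t : HeckeT p S0, t - 1 ∈ eisIdeal p S0 e →
    (∀ x : JZero p, e • x = 0 → t • x ∈
      (helper8205.primaryPart (eisIdeal p S0 e) e 1 : Submodule (HeckeT p S0) (JZero p))) →
    (∀ x ∈ (helper8205.primaryPart (eisIdeal p S0 e) e 1 : Submodule (HeckeT p S0) (JZero p)),
      t • x = x) →
    ∀ D : JZero p, (∀ s : GQ, s • D = D) →
      ∃ τ z : JZero p, (∀ s : GQ, s • τ = τ) ∧ (∀ s : GQ, s • z = z) ∧
        (∃ n : ℕ, e ^ n • τ = 0) ∧ t • D = τ + e • z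

/-- **Level-one divisibility in the Spec shape from the level-one count** (design of record:
no tower).  `S0` is the exceptional set of the Spec, `S1 ⊇ S0` the (possibly larger) set used by
the descent, e.g. `S1 = S0 ∪ (p - 1).primeFactors`, so that the eigen-hypothesis `hc` is only
needed at primes `q ∉ S1`. -/
theorem div1_of_levelOne {S1 : Finset ℕ} (hS : S0 ⊆ S1) (c : JZero p)
    (hc : ∀ q : Nat.Primes, (q : ℕ) ∉ S1 → (q : ℕ) ≠ p →
      heckeOperatorBar p q c = (1 + (q : ℕ)) • c)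
    (e : ℕ) (he : 0 < e) (hL : LevelOneAt p S1 e)
    (D : JZero p) (hD : ∀ s : GQ, s • D = D) :
    ∃ f ∈ Subring.closure (gens p S0), ∃ m : ℤ, IsCoprime m (e : ℤ) ∧ f c = m • c ∧
      ∃ τ z : JZero p, (∀ s : GQ, s • τ = τ) ∧ (∀ s : GQ, s • z = z) ∧
        (∃ n : ℕ, e ^ n • τ = 0) ∧ f D = τ + e • z := by
  obtain ⟨t, htP, h1, h2⟩ := exists_projector_one p S1 e he
  obtain ⟨τ, z, hτ, hz, hn, htD⟩ := hL t htP h1 h2 D hD
  obtain ⟨f, hfR, hf⟩ := exists_mem_closure_gens p S1 t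
  obtain ⟨n, hn'⟩ := eisIdeal_smul_eq p S1 c hc e (t - 1) htP
  refine ⟨f, closure_gens_anti p hS hfR, 1 + (e : ℤ) * n, ⟨1, -n, by ring⟩, ?_, τ, z, hτ, hz,
    hn, ?_⟩
  · rw [← hf c]
    have h1 : t • c = c + (t - 1) • c := by rw [sub_smul, one_smul]; abel
    rw [h1, hn', add_zsmul, one_zsmul]
  · rw [← hf D, htD]

end Concrete

section ForAll

/-- `(BND)` in the generality of the Jordan–Hölder instance: for every commutative ring `T`
acting on `JZero p` compatibly with Galois and every ideal `P` containing `e` and the Eisenstein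
elements `τ ℓ - (1 + ℓ)` (`ℓ ∤ p e`, `ℓ ∉ S0`), the cokernels of `J^G → (J / W_k)^G` are killed
by a power of `e` independent of `k`. -/
def BndFor (p : ℕ) [NeZero p] (e : ℕ) (S0 : Finset ℕ) : Prop :=
  ∀ (T : Type) [CommRing T] [Module T (JZero p)],
    (∀ (s : GQ) (t : T) (x : JZero p), s • t • x = t • s • x) →
    ∀ (P : Ideal T), (e : T) ∈ P → ∀ τ : ℕ → T,
      (∀ (ℓ : ℕ) (hℓ : ℓ.Prime), ¬ ℓ ∣ p * e → ℓ ∉ S0 →
        (∀ x : JZero p, τ ℓ • x = heckeOperatorBar p ⟨ℓ, hℓ⟩ x) ∧ τ ℓ - (1 + (ℓ : T)) ∈ P) →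
      ∃ B : ℕ, ∀ (k : ℕ) (u : JZero p),
        (∀ s : GQ, s • u - u ∈ (helper8205.primaryPart P e k : Submodule T (JZero p))) →
          ∃ z w : JZero p, (∀ s : GQ, s • z = z) ∧
            w ∈ (helper8205.primaryPart P e k : Submodule T (JZero p)) ∧ e ^ B • u = z + w

/-- **Level-one divisibility from `(BND)`, generic-input form.** -/
theorem div1_of_bndFor (p : ℕ) [NeZero p] (S0 : Finset ℕ) (c : JZero p)
    (hc : ∀ q : Nat.Primes, (q : ℕ) ∉ S0 → (q : ℕ) ≠ p →
      heckeOperatorBar p q c = (1 + (q : ℕ)) • c)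
    (e : ℕ) (he : 0 < e) (hbnd : BndFor p e S0)
    (D : JZero p) (hD : ∀ s : GQ, s • D = D) :
    ∃ f ∈ Subring.closure (gens p S0), ∃ m : ℤ, IsCoprime m (e : ℤ) ∧ f c = m • c ∧
      ∃ τ z : JZero p, (∀ s : GQ, s • τ = τ) ∧ (∀ s : GQ, s • z = z) ∧
        (∃ n : ℕ, e ^ n • τ = 0) ∧ f D = τ + e • z := by
  obtain ⟨B, hB⟩ := @hbnd (HeckeT p S0) _ (moduleT p S0) (galois_smul_commT p S0)
    (eisIdeal p S0 e) (natCast_mem_eisIdeal p S0 e) (tauT p S0) (tauT_spec p S0 e)
  exact div1_of_bndAt p S0 c hc e he B hB D hD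

end ForAll

end Fermat.Agent.S15.helper9563
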