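/-
helper2113 — S15 (Mazur block), registry leaf BND-ASM, part 3.

THE ODD INSTANCE OF THE [DIV] TARGET AT `JZero p`, in the carrier of record of KUM-INST
(`helper9563.HeckeT p S0`, `helper9563.eisIdeal p S0 r`):

* `weilJ_heckeOperatorBar_adj` : a good Hecke operator `T_ℓ` (`ℓ ∤ N n`) is self-adjoint for the
  Weil pairing `weilJ N n` (landed Eichler–Shimura `S30.helper54.stmt_ESMod` +
  `helper8357.weil_heckeOperatorBar_adjoint`);
* `weilJ_heckeT_adj` : every element of `HeckeT p S0` is self-adjoint for `weilJ p (r ^ k)` when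
  `r ∈ S0`;
* `exists_bndAt_odd` : **(BND)** `∃ B, helper9563.BndAt p S0 r B` for an odd prime `r ≠ p`,
  `r ∈ S0`, from the S35 export `helper578.Stmt_TorFrobP`;
* `levelOneAt_of_bndAt` : `helper9563.LevelOneAt p S0 e ⟸ helper9563.BndAt p S0 e B`
  (every level-one projector agrees on `J[e]` with the projector of level `1 + B`);
* `levelOneAt_odd`, `levelOneAt_odd_of_aux` : **the odd twin of the `e = 2` instance**:
  `helper9563.LevelOneAt p S0 r` for every odd prime `r ≠ p`, `r ∈ S0`, `p ≥ 5` prime, from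
  `helper578.Stmt_TorFrobP` (resp. the one open S35 Prop `S35.helper2039.Stmt_TorFrobAux`);
* `levelOneAt_odd_all`, `exists_bndAt_odd_all` : the same in the funnel binders of
  `helper5233.stmt_Div1_of_odd_of_two`.
-/
import Fermat.Agent.S15.helper2113_BndInst
import Fermat.Agent.S15.helper9563_Div1
import Fermat.Agent.S30.helper54_MachineExport

set_option autoImplicit false

namespace Fermat.Agent.S15.helper2113

open ModularCurve
open Fermat.Agent.S15.helper7259 Fermat.Agent.S15.helper4190 Fermat.Agent.S15.helper8205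
open Fermat.Agent.S19.helper2790 (weilJ)

attribute [local instance] Fermat.Agent.S15.helper9563.moduleT

/-! ### Weil self-adjointness of the good Hecke ring -/

/-- Integer multiples move across the Weil pairing. -/
theorem weilJ_zsmul_comm {N : ℕ} [NeZero N] {n : ℕ} {x y : JZero N} (hx : n • x = 0)
    (hy : n • y = 0) (a : ℤ) : weilJ N n (a • x) y = weilJ N n x (a • y) := by
  obtain ⟨m, rfl | rfl⟩ := Int.eq_nat_or_neg a
  · rw [natCast_zsmul, natCast_zsmul, Fermat.Agent.S19.helper2790.weilJ_nsmul_left hx hy,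
      Fermat.Agent.S19.helper2790.weilJ_nsmul_right hx hy]
  · have hmx : n • (m • x) = 0 := by rw [nsmul_left_comm, hx, nsmul_zero]
    have hmy : n • (m • y) = 0 := by rw [nsmul_left_comm, hy, nsmul_zero]
    rw [neg_smul, neg_smul, natCast_zsmul, natCast_zsmul,
      Fermat.Agent.S19.helper2790.weilJ_neg_left hmx hy,
      Fermat.Agent.S19.helper2790.weilJ_neg_right hx hmy,
      Fermat.Agent.S19.helper2790.weilJ_nsmul_left hx hy,
      Fermat.Agent.S19.helper2790.weilJ_nsmul_right hx hy]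

/-- **A good Hecke operator is self-adjoint for the Weil pairing**: `ℓ ∤ N n`. -/
theorem weilJ_heckeOperatorBar_adj (N : ℕ) [NeZero N] {n ℓ : ℕ} (hℓ : ℓ.Prime) (hℓN : ¬ ℓ ∣ N)
    (hℓn : ¬ ℓ ∣ n) {x y : JZero N} (hx : n • x = 0) (hy : n • y = 0) :
    weilJ N n (heckeOperatorBar N ⟨ℓ, hℓ⟩ x) y = weilJ N n x (heckeOperatorBar N ⟨ℓ, hℓ⟩ y) := by
  have hTx : n • heckeOperatorBar N ⟨ℓ, hℓ⟩ x = 0 := by rw [← map_nsmul, hx, map_zero]
  have h := Fermat.Agent.S15.helper8357.weil_heckeOperatorBar_adjoint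
    (Fermat.Agent.S19.helper2790.reciprocity_FN N) hℓ hℓn
    (fun A hA σ hσ z hz =>
      Fermat.Agent.S30.helper54.stmt_ESMod N n ℓ hℓ hℓN hℓn A hA σ hσ z hz)
    hx hy (Fermat.Agent.S19.helper2790.weilJ_spec hTx hy)
  exact (Fermat.Agent.S19.helper2790.weilJ_eq h).symm

/-- **Every element of the good Hecke ring `HeckeT p S0` is self-adjoint** for the Weil pairing
on the `r ^ k`-torsion, when `r ∈ S0` (so that all generators are `T_ℓ` with `ℓ ∤ p r`). -/
theorem weilJ_heckeT_adj (p : ℕ) [NeZero p] (hp : p.Prime) (S0 : Finset ℕ) {r : ℕ}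
    (hr : r.Prime) (hrS : r ∈ S0) (k : ℕ) (t : Fermat.Agent.S15.helper9563.HeckeT p S0) :
    ∀ x y : JZero p, r ^ k • x = 0 → r ^ k • y = 0 →
      weilJ p (r ^ k) (t • x) y = weilJ p (r ^ k) x (t • y) := by
  have htor : ∀ (s : Fermat.Agent.S15.helper9563.HeckeT p S0) (z : JZero p), r ^ k • z = 0 →
      r ^ k • (s • z) = 0 := by
    intro s z hz
    rw [smul_comm, hz, smul_zero]
  induction t using MvPolynomial.induction_on with
  | C a =>
    intro x y hx hy
    rw [Fermat.Agent.S15.helper9563.C_smulT, Fermat.Agent.S15.helper9563.C_smulT]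
    exact weilJ_zsmul_comm hx hy a
  | add s t hs ht =>
    intro x y hx hy
    rw [add_smul, add_smul,
      Fermat.Agent.S19.helper2790.weilJ_add_left (htor s x hx) (htor t x hx) hy,
      Fermat.Agent.S19.helper2790.weilJ_add_right hx (htor s y hy) (htor t y hy),
      hs x y hx hy, ht x y hx hy]
  | mul_X t i ht =>
    intro x y hx hy
    have hi : ∀ z : JZero p, (MvPolynomial.X i : Fermat.Agent.S15.helper9563.HeckeT p S0) • z =
        heckeOperatorBar p ⟨(i.1 : ℕ), i.1.2⟩ z :=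
      fun z => Fermat.Agent.S15.helper9563.X_smulT p S0 i z
    have hip : ¬ (i.1 : ℕ) ∣ p := fun h => i.2.2 ((Nat.prime_dvd_prime_iff_eq i.1.2 hp).mp h)
    have hir : ¬ (i.1 : ℕ) ∣ r ^ k := by
      intro h
      have h1 := (Nat.prime_dvd_prime_iff_eq i.1.2 hr).mp (i.1.2.dvd_of_dvd_pow h)
      exact i.2.1 (h1 ▸ hrS)
    have hXx : r ^ k • ((MvPolynomial.X i : Fermat.Agent.S15.helper9563.HeckeT p S0) • x) = 0 :=
      htor _ x hx
    calc weilJ p (r ^ k) ((t * MvPolynomial.X i) • x) y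
        = weilJ p (r ^ k) (t • ((MvPolynomial.X i : Fermat.Agent.S15.helper9563.HeckeT p S0) • x))
            y := by rw [mul_smul]
      _ = weilJ p (r ^ k) ((MvPolynomial.X i : Fermat.Agent.S15.helper9563.HeckeT p S0) • x)
            (t • y) := ht _ y hXx hy
      _ = weilJ p (r ^ k) x
            ((MvPolynomial.X i : Fermat.Agent.S15.helper9563.HeckeT p S0) • (t • y)) := by
          rw [hi, hi]
          exact weilJ_heckeOperatorBar_adj p i.1.2 hip hir hx (htor t y hy)
      _ = weilJ p (r ^ k) x ((t * MvPolynomial.X i) • y) := by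
          rw [← mul_smul, mul_comm]

/-! ### (BND) in the carrier of record -/

/-- **(BND) at `J₀(p)` for an odd prime `r ≠ p`, carrier of record**: `helper9563.BndAt p S0 r B`
for some `B`, whenever `r ∈ S0`.  Only open input: the S35 export `helper578.Stmt_TorFrobP`. -/
theorem exists_bndAt_odd (hTF : Fermat.Agent.S15.helper578.Stmt_TorFrobP) (p : ℕ) [NeZero p]
    (hp : p.Prime) (hp5 : 5 ≤ p) (r : ℕ) [hr : Fact r.Prime] (hodd : Odd r) (hrp : r ≠ p)
    (S0 : Finset ℕ) (hrS : r ∈ S0) : ∃ B : ℕ, Fermat.Agent.S15.helper9563.BndAt p S0 r B :=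
  bnd_primaryPart_odd p hp hp5 (Fermat.Agent.S15.helper9563.galois_smul_commT p S0) r hodd hrp
    (Fermat.Agent.S15.helper9563.eisIdeal p S0 r)
    (Fermat.Agent.S15.helper9563.natCast_mem_eisIdeal p S0 r) S0
    (Fermat.Agent.S15.helper9563.tauT p S0) (Fermat.Agent.S15.helper9563.tauT_spec p S0 r)
    (fun t k x y hx hy => weilJ_heckeT_adj p hp S0 hr.out hrS k t x y hx hy) hTF

/-! ### Level one from the tower -/

/-- **`LevelOneAt ⟸ BndAt`.**  The tower bound gives the level-one decomposition for the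
projector `t'` of level `1 + B`; any level-one projector `t` agrees with `t'` on `J[e]`, so
`t • D - t' • D ∈ e • J(ℚ)` for every rational `D`. -/
theorem levelOneAt_of_bndAt (p : ℕ) [NeZero p] (S0 : Finset ℕ) (e : ℕ) (he : 0 < e) (B : ℕ)
    (hbnd : Fermat.Agent.S15.helper9563.BndAt p S0 e B) :
    Fermat.Agent.S15.helper9563.LevelOneAt p S0 e := by
  intro t _ h1 h2 D hD
  have hGT := Fermat.Agent.S15.helper9563.galois_smul_commT p S0
  have hfin : {x : JZero p | e ^ (1 + B) • x = 0}.Finite :=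
    Fermat.Agent.S15.helper9563.finite_torsion_pow p e he (1 + B)
  obtain ⟨t', -, h1', h2'⟩ :=
    exists_projector_torsion (Fermat.Agent.S15.helper9563.eisIdeal p S0 e) e (1 + B) hfin
  obtain ⟨y, hy⟩ := Fermat.Agent.S15.helper9563.divisible p (e ^ (1 + B)) (pow_pos he _) D
  have hsn : ∀ (s : AlgebraicClosure ℚ ≃ₐ[ℚ] AlgebraicClosure ℚ) (n : ℕ) (z : JZero p),
      s • (n • z) = n • (s • z) :=
    fun s n z => map_nsmul (DistribSMul.toAddMonoidHom (JZero p) s) n z
  -- `u = t' • y` is invariant modulo `W (1 + B)`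
  have hu : ∀ s : AlgebraicClosure ℚ ≃ₐ[ℚ] AlgebraicClosure ℚ, s • t' • y - t' • y ∈
      (primaryPart (Fermat.Agent.S15.helper9563.eisIdeal p S0 e) e (1 + B) :
        Submodule (Fermat.Agent.S15.helper9563.HeckeT p S0) (JZero p)) := by
    intro s
    have e1 : s • t' • y - t' • y = t' • (s • y - y) := by rw [hGT, smul_sub]
    rw [e1]
    apply h1'
    rw [nsmul_sub, ← hsn, hy, hD, sub_self]
  obtain ⟨z, w, hz, hw, hzw⟩ := hbnd (1 + B) (t' • y) hu
  have hpow : e ^ (1 + B) = e * e ^ B := by rw [pow_add, pow_one]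
  have htD : t' • D = e • w + e • z := by
    calc t' • D = t' • (e ^ (1 + B) • y) := by rw [hy]
      _ = e • (e ^ B • (t' • y)) := by rw [smul_comm t', hpow, mul_smul]
      _ = e • (z + w) := by rw [hzw]
      _ = e • w + e • z := by rw [nsmul_add, add_comm]
  -- `y₁ = e ^ B • y` is an `e`-th root of `D`
  have hy₁ : e • (e ^ B • y) = D := by rw [← mul_smul, ← hpow, hy]
  -- `t` and `t'` agree on `J[e]`
  have hagree : ∀ x : JZero p, e • x = 0 → t • x = t' • x := by
    intro x hx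
    have hx' : e ^ (1 + B) • x = 0 := by rw [hpow, mul_comm, mul_smul, hx, smul_zero]
    have ht'x : t' • x ∈ (primaryPart (Fermat.Agent.S15.helper9563.eisIdeal p S0 e) e 1 :
        Submodule (Fermat.Agent.S15.helper9563.HeckeT p S0) (JZero p)) := by
      obtain ⟨-, n, hn⟩ := h1' x hx'
      refine ⟨?_, n, hn⟩
      rw [pow_one, smul_comm, hx, smul_zero]
    have htx : t • x ∈ (primaryPart (Fermat.Agent.S15.helper9563.eisIdeal p S0 e) e (1 + B) :
        Submodule (Fermat.Agent.S15.helper9563.HeckeT p S0) (JZero p)) :=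
      primaryPart_mono _ e (Nat.le_add_right 1 B) (h1 x hx)
    calc t • x = t' • (t • x) := (h2' _ htx).symm
      _ = t • (t' • x) := by rw [← mul_smul, mul_comm, mul_smul]
      _ = t' • x := h2 _ ht'x
  -- `v = t • y₁ - t' • y₁` is rational
  have hv : ∀ s : AlgebraicClosure ℚ ≃ₐ[ℚ] AlgebraicClosure ℚ,
      s • (t • (e ^ B • y) - t' • (e ^ B • y)) = t • (e ^ B • y) - t' • (e ^ B • y) := by
    intro s
    have hs : e • (s • (e ^ B • y) - e ^ B • y) = 0 := by
      rw [nsmul_sub, ← hsn, hy₁, hD, sub_self]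
    have h3 := hagree _ hs
    rw [smul_sub, smul_sub] at h3
    rw [smul_sub, hGT, hGT]
    have h4 : t • s • (e ^ B • y) - t' • s • (e ^ B • y) =
        (t • s • (e ^ B • y) - t • (e ^ B • y)) - (t' • s • (e ^ B • y) - t' • (e ^ B • y)) +
          (t • (e ^ B • y) - t' • (e ^ B • y)) := by abel
    rw [h4, h3, sub_self, zero_add]
  have hτ : e • w = t' • D - e • z := by rw [htD]; abel
  refine ⟨e • w, z + (t • (e ^ B • y) - t' • (e ^ B • y)), ?_, ?_, ⟨B, ?_⟩, ?_⟩
  · intro s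
    rw [hτ, smul_sub, hGT, hD, hsn, hz]
  · intro s
    rw [smul_add, hz, hv]
  · rw [← mul_smul, mul_comm, ← hpow]
    exact hw.1
  · have e1 : t • D = e • (t • (e ^ B • y)) := by rw [← hy₁, smul_comm]
    have e2 : t' • D = e • (t' • (e ^ B • y)) := by rw [← hy₁, smul_comm]
    rw [nsmul_add, nsmul_sub, ← e1, ← e2, htD]
    abel

/-! ### The odd instance of the [DIV] target -/

/-- **The odd instance at `JZero p`**: `helper9563.LevelOneAt p S0 r` for every odd prime `r ≠ p`
with `r ∈ S0` (`p ≥ 5` prime), from the S35 export `helper578.Stmt_TorFrobP`. -/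
theorem levelOneAt_odd (hTF : Fermat.Agent.S15.helper578.Stmt_TorFrobP) (p : ℕ) [NeZero p]
    (hp : p.Prime) (hp5 : 5 ≤ p) (r : ℕ) [hr : Fact r.Prime] (hodd : Odd r) (hrp : r ≠ p)
    (S0 : Finset ℕ) (hrS : r ∈ S0) : Fermat.Agent.S15.helper9563.LevelOneAt p S0 r := by
  obtain ⟨B, hB⟩ := exists_bndAt_odd hTF p hp hp5 r hodd hrp S0 hrS
  exact levelOneAt_of_bndAt p S0 r hr.out.pos B hB

/-- The same from the ONE open S35 Prop `S35.helper2039.Stmt_TorFrobAux`. -/
theorem levelOneAt_odd_of_aux (hTF : Fermat.Agent.S35.helper2039.Stmt_TorFrobAux) (p : ℕ)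
    [NeZero p] (hp : p.Prime) (hp5 : 5 ≤ p) (r : ℕ) [Fact r.Prime] (hodd : Odd r) (hrp : r ≠ p)
    (S0 : Finset ℕ) (hrS : r ∈ S0) : Fermat.Agent.S15.helper9563.LevelOneAt p S0 r :=
  levelOneAt_odd (Fermat.Agent.S15.helper578.stmt_TorFrobP_of_aux hTF) p hp hp5 r hodd hrp S0 hrS

/-- **Funnel form (`hodd` of `helper5233.stmt_Div1_of_odd_of_two`, verbatim).** -/
theorem levelOneAt_odd_all (hTF : Fermat.Agent.S35.helper2039.Stmt_TorFrobAux) :
    ∀ (p : ℕ) [NeZero p], p.Prime → 5 ≤ p → ∀ r : ℕ, r.Prime → Odd r → r ≠ p →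
      ∀ S : Finset ℕ, r ∈ S → Fermat.Agent.S15.helper9563.LevelOneAt p S r :=
  fun p _ hp hp5 r hr hodd hrp S hrS =>
    haveI : Fact r.Prime := ⟨hr⟩
    levelOneAt_odd_of_aux hTF p hp hp5 r hodd hrp S hrS

/-- **Funnel form, tower shape**: `∃ B, helper9563.BndAt p S r B` for every odd prime `r ≠ p`,
`r ∈ S`. -/
theorem exists_bndAt_odd_all (hTF : Fermat.Agent.S35.helper2039.Stmt_TorFrobAux) :
    ∀ (p : ℕ) [NeZero p], p.Prime → 5 ≤ p → ∀ r : ℕ, r.Prime → Odd r → r ≠ p →
      ∀ S : Finset ℕ, r ∈ S → ∃ B : ℕ, Fermat.Agent.S15.helper9563.BndAt p S r B :=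
  fun p _ hp hp5 r hr hodd hrp S hrS =>
    haveI : Fact r.Prime := ⟨hr⟩
    exists_bndAt_odd (Fermat.Agent.S15.helper578.stmt_TorFrobP_of_aux hTF) p hp hp5 r hodd hrp S hrS

end Fermat.Agent.S15.helper2113
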