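import Mathlib
import Fermat.Prelude.Def_ModularCurve_ReductionModL

/-!
# S15 (moduli bridge), brick PLACE-RED: where does a place reduce?

Prelude vocabulary only (`IsPlaceReductionAlong`, `reductionModL`).

Let `r` be a place reduction along `π : A →+* k` at level `N`, let `f` be a function of the
level-`N` function field over `L` with `A`-integral `q`-expansion, and let `x` be a place at which
`f` takes the value `c` (i.e. `0 < ord_x (f - c)`).

* `place_reduction_eq_of_value_not_mem`: if `c ∉ A` ("the value of `f` at `x` is not integral")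
  and `f` has no pole outside one place `P₀`, then `r x = r P₀`.
* `place_reduction_mem_of_value_not_mem`: the same with a set `S` of places carrying the poles:
  `r x ∈ r '' S`.
* `reductionModL_single_sub_single`: consequently the class of `(x) - (P₀)` dies under the
  Prelude reduction map `reductionModL A N` (for places of degree one).

The proof uses a single integral function: `c⁻¹ • f - 1` has `A`-integral expansion and reduces
to the constant `-1`, so the reduction of its divisor is `0`; its zeros contain `x` and its poles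
are the poles of `f`.
-/

set_option autoImplicit false

open HahnSeries IntermediateField AlgebraicCurve ModularCurve

namespace Fermat.Agent.S15.helper2393

noncomputable section

section OrdBasics

variable {K F : Type*} [Field K] [Field F] [Algebra K F]

/-- A function with nonnegative order at a place lies in its valuation ring. -/
theorem mem_of_ord_nonneg (v : Place K F) {f : F} (h : 0 ≤ v.ord f) :
    f ∈ v.toValuationSubring := by
  rcases eq_or_ne f 0 with rfl | hf
  · exact zero_mem _
  obtain ⟨ϖ, hϖ⟩ := IsDiscreteValuationRing.exists_irreducible v.toValuationSubring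
  obtain ⟨u, hu⟩ := v.exists_unit_mul_zpow hf hϖ
  rw [hu]
  refine mul_mem (u : v.toValuationSubring).2 ?_
  obtain ⟨n, hn⟩ := Int.eq_ofNat_of_zero_le h
  rw [hn, zpow_natCast]
  exact pow_mem ϖ.2 n

/-- An element of the valuation ring of a place has nonnegative order. -/
theorem ord_nonneg_of_mem (v : Place K F) {f : F} (h : f ∈ v.toValuationSubring) :
    0 ≤ v.ord f := by
  rcases eq_or_ne f 0 with rfl | hf
  · simp
  obtain ⟨ϖ, hϖ⟩ := IsDiscreteValuationRing.exists_irreducible v.toValuationSubring
  obtain ⟨u, hu⟩ := v.exists_unit_mul_zpow hf hϖ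
  by_contra hneg
  rw [not_le] at hneg
  -- `f * ϖ ^ (-ord f) = u` with `-ord f > 0`: a unit in the maximal ideal
  obtain ⟨m, hm⟩ := Int.eq_ofNat_of_zero_le (le_of_lt (neg_pos.mpr hneg))
  have hm0 : m ≠ 0 := by
    rintro rfl
    simp at hm
    omega
  have hϖF : (ϖ : F) ≠ 0 := by
    simpa [ne_eq, ZeroMemClass.coe_eq_zero] using hϖ.ne_zero
  have hprod : (⟨f, h⟩ : v.toValuationSubring) * ϖ ^ m = (u : v.toValuationSubring) := by
    apply Subtype.ext
    push_cast
    have h1 : v.ord f = -(m : ℤ) := by omega
    conv_lhs => rw [hu, h1, zpow_neg, zpow_natCast]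
    field_simp
  have hunit : IsUnit (ϖ ^ m) := isUnit_of_mul_isUnit_right (hprod ▸ u.isUnit)
  exact hϖ.not_isUnit ((isUnit_pow_iff hm0).mp hunit)

theorem ord_nonneg_iff_mem (v : Place K F) {f : F} :
    0 ≤ v.ord f ↔ f ∈ v.toValuationSubring :=
  ⟨mem_of_ord_nonneg v, ord_nonneg_of_mem v⟩

/-- Nonzero constants have order zero at every place. -/
theorem ord_algebraMap (v : Place K F) {a : K} (ha : a ≠ 0) : v.ord (algebraMap K F a) = 0 := by
  have h1 : (algebraMap K v.toValuationSubring a) * (algebraMap K v.toValuationSubring a⁻¹) = 1 := by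
    rw [← map_mul, mul_inv_cancel₀ ha, map_one]
  have hu : IsUnit (algebraMap K v.toValuationSubring a) := IsUnit.of_mul_eq_one _ h1
  have := v.ord_coe_unit hu.unit
  simpa using this

/-- The order of `f - 1` is nonnegative as soon as the order of `f` is. -/
theorem ord_sub_one_nonneg (v : Place K F) {f : F} (h : 0 ≤ v.ord f) : 0 ≤ v.ord (f - 1) :=
  ord_nonneg_of_mem v (sub_mem (mem_of_ord_nonneg v h) (one_mem _))

end OrdBasics

section Main

variable {L : Type*} [Field L] [Algebra ℚ L] {A : ValuationSubring L}
variable {k : Type*} [Field k] {π : A →+* k} {N : ℕ}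

local notation "FL(" L ", " N ")" => laurentBaseChange L (modularFunctionFieldFull N)

/-- **PLACE-RED, set form.** If an `A`-integral function `f = coeffMap A.subtype y` takes at the
place `x` a value `c` whose inverse `cinv ∈ A` is killed by `π` (so `c` is not integral), and all
poles of `f` lie in `S`, then `x` reduces to the reduction of a place of `S`. -/
theorem place_reduction_mem_of_value_not_mem
    [HasPrincipalDivisors L (laurentBaseChange L (modularFunctionFieldFull N))]
    {r : Place L (laurentBaseChange L (modularFunctionFieldFull N)) →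
      Place k (modularFunctionFieldFullC k N)}
    (hr : IsPlaceReductionAlong A π N r)
    (y : LaurentSeries A)
    (hy : coeffMap A.subtype y ∈ laurentBaseChange L (modularFunctionFieldFull N))
    (c : L) (cinv : A) (hc : (cinv : L) * c = 1) (hπ : π cinv = 0)
    (x : Place L (laurentBaseChange L (modularFunctionFieldFull N)))
    (S : Set (Place L (laurentBaseChange L (modularFunctionFieldFull N))))
    (hx : 0 < x.ord ((⟨coeffMap A.subtype y, hy⟩ :
      laurentBaseChange L (modularFunctionFieldFull N)) -
        algebraMap L (laurentBaseChange L (modularFunctionFieldFull N)) c))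
    (hpole : ∀ P : Place L (laurentBaseChange L (modularFunctionFieldFull N)), P ∉ S →
      0 ≤ P.ord (⟨coeffMap A.subtype y, hy⟩ :
        laurentBaseChange L (modularFunctionFieldFull N))) :
    ∃ P ∈ S, r x = r P := by
  classical
  set f : FL(L, N) := ⟨coeffMap A.subtype y, hy⟩ with hf
  have hc0 : c ≠ 0 := by
    rintro rfl
    simp at hc
  have hcinv : (cinv : L) = c⁻¹ := eq_inv_of_mul_eq_one_left hc
  have hcinv0 : (cinv : L) ≠ 0 := by rw [hcinv]; exact inv_ne_zero hc0
  -- the auxiliary integral series `y' = cinv • y - 1`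
  set y' : LaurentSeries A := HahnSeries.C cinv * y - 1 with hy'
  have hC : coeffMap A.subtype (HahnSeries.C cinv) = algebraMap L (LaurentSeries L) (cinv : L) := by
    rw [algebraMap_laurentSeries_eq_single]
    show coeffMap A.subtype (HahnSeries.single 0 cinv) = _
    rw [coeffMap_single]
    rfl
  have hval : coeffMap A.subtype y' =
      ((algebraMap L FL(L, N) (cinv : L) * f - 1 : FL(L, N)) : LaurentSeries L) := by
    rw [hy', map_sub, map_mul, map_one, hC]
    rfl
  have hy'mem : coeffMap A.subtype y' ∈ FL(L, N) := by
    rw [hval]; exact SetLike.coe_mem _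
  have hred : coeffMap π y' = -1 := by
    have hC' : coeffMap π (HahnSeries.C cinv) = 0 := by
      show coeffMap π (HahnSeries.single 0 cinv) = 0
      rw [coeffMap_single, hπ, HahnSeries.single_eq_zero]
    rw [hy', map_sub, map_mul, map_one, hC', zero_mul, zero_sub]
  have hredmem : coeffMap π y' ∈ modularFunctionFieldFullC k N := by
    rw [hred]; exact neg_mem (one_mem _)
  have hredne : coeffMap π y' ≠ 0 := by
    rw [hred]; exact neg_ne_zero.mpr one_ne_zero
  -- the function `g = c⁻¹ f - 1 = c⁻¹ (f - c)`
  set g : FL(L, N) := algebraMap L FL(L, N) (cinv : L) * f - 1 with hg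
  have hgeq : g = algebraMap L FL(L, N) (cinv : L) * (f - algebraMap L FL(L, N) c) := by
    rw [hg, mul_sub, ← map_mul, hc, map_one]
  have hfc : f - algebraMap L FL(L, N) c ≠ 0 := by
    intro h0
    rw [h0] at hx
    simp at hx
  have hcu : algebraMap L FL(L, N) (cinv : L) ≠ 0 := by
    rw [Ne, map_eq_zero_iff _ (algebraMap L FL(L, N)).injective]
    exact hcinv0
  have hg0 : g ≠ 0 := by rw [hgeq]; exact mul_ne_zero hcu hfc
  obtain ⟨D, hD, -⟩ := HasPrincipalDivisors.exists_divisor (K := L) g hg0
  have hD' : ∀ P : Place L FL(L, N), D P = P.ord (⟨coeffMap A.subtype y', hy'mem⟩ : FL(L, N)) := by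
    intro P
    rw [hD P]
    congr 1
    exact Subtype.ext hval.symm
  -- the reduction of the divisor vanishes
  have hzero : ∀ Q, Finsupp.mapDomain r D Q = 0 := by
    intro Q
    rw [hr.2 y' hy'mem hredmem hredne D hD' Q]
    have h1 : (⟨coeffMap π y', hredmem⟩ : modularFunctionFieldFullC k N) =
        algebraMap k (modularFunctionFieldFullC k N) (-1) := by
      apply Subtype.ext
      show coeffMap π y' = algebraMap k (LaurentSeries k) (-1)
      rw [hred, map_neg, map_one]
    rw [h1]
    exact ord_algebraMap Q (neg_ne_zero.mpr one_ne_zero)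
  -- order of `g` at `x` is positive, and nonnegative off `S`
  have hDx : 0 < D x := by
    rw [hD x, hgeq, x.ord_mul hcu hfc, ord_algebraMap x hcinv0, zero_add]
    exact hx
  have hDP : ∀ P : Place L FL(L, N), P ∉ S → 0 ≤ D P := by
    intro P hP
    rw [hD P, hg]
    refine ord_sub_one_nonneg P ?_
    rcases eq_or_ne f 0 with hf0 | hf0
    · rw [hf0, mul_zero]; simp
    · rw [P.ord_mul hcu hf0, ord_algebraMap P hcinv0, zero_add]
      exact hpole P hP
  by_contra hcon
  push Not at hcon
  have hsum : Finsupp.mapDomain r D (r x) = ∑ P ∈ D.support, if r P = r x then D P else 0 := by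
    rw [Finsupp.mapDomain, Finsupp.sum, Finsupp.finsetSum_apply]
    refine Finset.sum_congr rfl fun P _ => ?_
    rw [Finsupp.single_apply]
  have hpos : 0 < ∑ P ∈ D.support, if r P = r x then D P else 0 := by
    have hxs : x ∈ D.support := Finsupp.mem_support_iff.mpr (ne_of_gt hDx)
    refine Finset.sum_pos' (fun P _ => ?_) ⟨x, hxs, ?_⟩
    · split_ifs with hP
      · exact hDP P (fun hPS => hcon P hPS hP.symm)
      · exact le_rfl
    · rw [if_pos rfl]; exact hDx
  rw [← hsum, hzero] at hpos
  exact lt_irrefl _ hpos

/-- **PLACE-RED.** If an `A`-integral function `f` takes a non-integral value at the place `x`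
and has no pole outside the place `P₀`, then `x` and `P₀` have the same reduction. -/
theorem place_reduction_eq_of_value_not_mem
    [HasPrincipalDivisors L (laurentBaseChange L (modularFunctionFieldFull N))]
    {r : Place L (laurentBaseChange L (modularFunctionFieldFull N)) →
      Place k (modularFunctionFieldFullC k N)}
    (hr : IsPlaceReductionAlong A π N r)
    (y : LaurentSeries A)
    (hy : coeffMap A.subtype y ∈ laurentBaseChange L (modularFunctionFieldFull N))
    (c : L) (cinv : A) (hc : (cinv : L) * c = 1) (hπ : π cinv = 0)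
    (x P₀ : Place L (laurentBaseChange L (modularFunctionFieldFull N)))
    (hx : 0 < x.ord ((⟨coeffMap A.subtype y, hy⟩ :
      laurentBaseChange L (modularFunctionFieldFull N)) -
        algebraMap L (laurentBaseChange L (modularFunctionFieldFull N)) c))
    (hpole : ∀ P : Place L (laurentBaseChange L (modularFunctionFieldFull N)), P ≠ P₀ →
      0 ≤ P.ord (⟨coeffMap A.subtype y, hy⟩ :
        laurentBaseChange L (modularFunctionFieldFull N))) :
    r x = r P₀ := by
  obtain ⟨P, hP, h⟩ := place_reduction_mem_of_value_not_mem hr y hy c cinv hc hπ x {P₀} hx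
    (fun P hP => hpole P (by simpa using hP))
  rw [Set.mem_singleton_iff] at hP
  rw [h, hP]

end Main

section ModL

variable (A : ValuationSubring (AlgebraicClosure ℚ)) (N : ℕ)

/-- A non-integral element of `ℚ̄` has an inverse in `A` that dies in the residue field. -/
theorem exists_inv_residue_eq_zero {c : AlgebraicClosure ℚ} (hc : c ∉ A) :
    ∃ cinv : A, (cinv : AlgebraicClosure ℚ) * c = 1 ∧ IsLocalRing.residue A cinv = 0 := by
  have hc0 : c ≠ 0 := fun h => hc (h ▸ A.zero_mem)
  have hinv : c⁻¹ ∈ A := (A.mem_or_inv_mem c).resolve_left hc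
  refine ⟨⟨c⁻¹, hinv⟩, inv_mul_cancel₀ hc0, ?_⟩
  rw [IsLocalRing.residue_eq_zero_iff, IsLocalRing.mem_maximalIdeal, mem_nonunits_iff]
  rintro ⟨u, hu⟩
  apply hc
  have h1 : ((u⁻¹ : Aˣ) : A) * (⟨c⁻¹, hinv⟩ : A) = 1 := by
    rw [← hu]; exact u.inv_mul
  have h2 : (((u⁻¹ : Aˣ) : A) : AlgebraicClosure ℚ) * c⁻¹ = 1 := by
    have := congrArg (Subtype.val) h1
    simpa using this
  have h3 : (((u⁻¹ : Aˣ) : A) : AlgebraicClosure ℚ) = c := by
    field_simp at h2
    exact h2
  rw [← h3]
  exact ((u⁻¹ : Aˣ) : A).2

variable {A N}

/-- **PLACE-RED for the Prelude reduction modulo `ℓ`.** With reduction inputs at level `N`: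
if a function with `A`-integral `q`-expansion takes a non-integral value `c` at the place `x`
and has no pole outside `P₀`, then the place reduction of `x` is that of `P₀`. -/
theorem placeReductionModL_eq_of_value_not_mem
    [HasPrincipalDivisors (AlgebraicClosure ℚ) (modularFunctionFieldBar N)]
    (h : ReductionInputsModL A N)
    (y : LaurentSeries A)
    (hy : coeffMap A.subtype y ∈ modularFunctionFieldBar N)
    (c : AlgebraicClosure ℚ) (hc : c ∉ A)
    (x P₀ : Place (AlgebraicClosure ℚ) (modularFunctionFieldBar N))
    (hx : 0 < x.ord ((⟨coeffMap A.subtype y, hy⟩ : modularFunctionFieldBar N) -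
        algebraMap (AlgebraicClosure ℚ) (modularFunctionFieldBar N) c))
    (hpole : ∀ P : Place (AlgebraicClosure ℚ) (modularFunctionFieldBar N), P ≠ P₀ →
      0 ≤ P.ord (⟨coeffMap A.subtype y, hy⟩ : modularFunctionFieldBar N)) :
    placeReductionModL h x = placeReductionModL h P₀ := by
  obtain ⟨cinv, hcinv, hres⟩ := exists_inv_residue_eq_zero A hc
  exact place_reduction_eq_of_value_not_mem (isPlaceReductionModL_placeReductionModL h)
    y hy c cinv hcinv hres x P₀ hx hpole

/-- The divisor `(x) - (P₀)` for two places of the same degree has degree zero. -/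
theorem single_sub_single_mem_degZero
    (x P₀ : Place (AlgebraicClosure ℚ) (modularFunctionFieldBar N)) (hdeg : x.deg = P₀.deg) :
    (Finsupp.single x (1 : ℤ) - Finsupp.single P₀ 1 :
      Divisor (AlgebraicClosure ℚ) (modularFunctionFieldBar N)) ∈
        Divisor.degZero (K := AlgebraicClosure ℚ) (F := modularFunctionFieldBar N) := by
  rw [Divisor.mem_degZero, map_sub, Divisor.degree_single, Divisor.degree_single, hdeg, sub_self]

/-- **PLACE-RED, class form.** Under the hypotheses of `placeReductionModL_eq_of_value_not_mem`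
the class of `(x) - (P₀)` in `J₀(N)` is killed by the Prelude reduction map `reductionModL`. -/
theorem reductionModL_single_sub_single
    [HasPrincipalDivisors (AlgebraicClosure ℚ) (modularFunctionFieldBar N)]
    (h : ReductionInputsModL A N)
    (y : LaurentSeries A)
    (hy : coeffMap A.subtype y ∈ modularFunctionFieldBar N)
    (c : AlgebraicClosure ℚ) (hc : c ∉ A)
    (x P₀ : Place (AlgebraicClosure ℚ) (modularFunctionFieldBar N)) (hdeg : x.deg = P₀.deg)
    (hx : 0 < x.ord ((⟨coeffMap A.subtype y, hy⟩ : modularFunctionFieldBar N) -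
        algebraMap (AlgebraicClosure ℚ) (modularFunctionFieldBar N) c))
    (hpole : ∀ P : Place (AlgebraicClosure ℚ) (modularFunctionFieldBar N), P ≠ P₀ →
      0 ≤ P.ord (⟨coeffMap A.subtype y, hy⟩ : modularFunctionFieldBar N)) :
    reductionModL A N (Pic0.mk ⟨Finsupp.single x (1 : ℤ) - Finsupp.single P₀ 1,
      single_sub_single_mem_degZero x P₀ hdeg⟩) = 0 := by
  have hr := placeReductionModL_eq_of_value_not_mem h y hy c hc x P₀ hx hpole
  rw [reductionModL_mk h]
  have h0 : reductionDegZeroAlong (placeReductionModL h)
      (isPlaceReductionModL_placeReductionModL h).1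
      ⟨Finsupp.single x (1 : ℤ) - Finsupp.single P₀ 1,
        single_sub_single_mem_degZero x P₀ hdeg⟩ = 0 := by
    apply Subtype.ext
    rw [coe_reductionDegZeroAlong]
    show Finsupp.mapDomain (placeReductionModL h)
      (Finsupp.single x (1 : ℤ) - Finsupp.single P₀ 1) = 0
    rw [Finsupp.mapDomain_sub, Finsupp.mapDomain_single, Finsupp.mapDomain_single, hr, sub_self]
  rw [h0]
  rfl

end ModL

end

end Fermat.Agent.S15.helper2393
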