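/-
S15 (Mazur's step three), the count at the EVEN Eisenstein prime: the ARCHIMEDEAN supplier
(registry leaf G2-CONJ-TWO).  Seat helper2449.  Abstract layer: Mathlib + the LANDED finite
duality `Fermat.Agent.S19.helper2790_PairingDual` only.

`V` an additive commutative group (`J₀(p)(ℚ̄)`), `K` a field with enough roots of unity (`ℚ̄`),
`e : V → V → K` a pairing that is bimultiplicative on a finite subgroup `W₀` and nondegenerate
there (the Weil pairing on the Eisenstein part of the `2^k`-torsion), `c : V →+ V` (complex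
conjugation).

* `IsBimulOn e S` : bimultiplicativity on a subgroup; `card_sq_le_of_isotropic_on`,
  `card_mul_card_le_of_orth_on` : the counts of `helper2790.Pairing` in this relative form.
* TOWER FORM `card_sq_le_mul_of_sq_eq_one` : if `e x y ^ 2 = 1` on a subgroup `T ≤ W₀` then
  `#T ^ 2 ≤ #Z * #W₀` for every finite `Z` containing the `2`-torsion of `T`  (`2T ⊥ T`).
  Instances `card_sq_le_mul_of_conj_neg`, `card_sq_le_mul_of_conj_fixed` for the `-1`- and the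
  `+1`-eigenspace of a `c` with `e (c x) (c y) = (e x y)⁻¹`.
* LEVEL-ONE FORM (the `e₄`-trick): `lamConj c = {2 • w | 4 • w = 0 ∧ c w = - w}` is a subgroup of
  `V[2]`, stable under every additive map commuting with `c`, contains `c y - y` whenever
  `c (2 • y) = 2 • y` (if `V` is `2`-divisible and `c` is an involution), is isotropic for `e₂` as
  soon as `e₂ (2 • w) (2 • w') = 1` on the `-1`-eigenspace of `c` in `V[4]`
  (`lamConj_isotropic`, `dbl_of_four`), and so `#(W₀ ⊓ lamConj c) ^ 2 ≤ #W₀`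
  (`card_inf_lamConj_sq_le`).
-/
import Fermat.Agent.S19.helper2790_PairingDual

set_option autoImplicit false

namespace Fermat.Agent.S15.helper2449

open Fermat.Agent.S19.helper2790

section Abstract

variable {V : Type*} [AddCommGroup V] {K : Type*} [Field K]

/-- A pairing that is bimultiplicative and nowhere zero on a subgroup `S`. -/
structure IsBimulOn (e : V → V → K) (S : AddSubgroup V) : Prop where
  add_left : ∀ x ∈ S, ∀ x' ∈ S, ∀ y ∈ S, e (x + x') y = e x y * e x' y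
  add_right : ∀ x ∈ S, ∀ y ∈ S, ∀ y' ∈ S, e x (y + y') = e x y * e x y'
  ne_zero : ∀ x ∈ S, ∀ y ∈ S, e x y ≠ 0

namespace IsBimulOn

variable {e : V → V → K} {S S' : AddSubgroup V}

theorem restrict (h : IsBimulOn e S) : Pairing.IsBimul (fun x y : S => e (x : V) (y : V)) :=
  ⟨fun x y => h.ne_zero x x.2 y y.2, fun x y y' => h.add_right x x.2 y y.2 y' y'.2,
    fun x x' y => h.add_left x x.2 x' x'.2 y y.2⟩

/-- The transposed pairing on the subgroup. -/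
theorem restrictSwap (h : IsBimulOn e S) :
    Pairing.IsBimul (fun x y : S => e (y : V) (x : V)) :=
  ⟨fun x y => h.ne_zero y y.2 x x.2, fun x y y' => h.add_left y y.2 y' y'.2 x x.2,
    fun x x' y => h.add_right y y.2 x x.2 x' x'.2⟩

theorem mono (h : IsBimulOn e S) (hS : S' ≤ S) : IsBimulOn e S' :=
  ⟨fun x hx x' hx' y hy => h.add_left x (hS hx) x' (hS hx') y (hS hy),
    fun x hx y hy y' hy' => h.add_right x (hS hx) y (hS hy) y' (hS hy'),
    fun x hx y hy => h.ne_zero x (hS hx) y (hS hy)⟩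

theorem two_nsmul_left (h : IsBimulOn e S) {x y : V} (hx : x ∈ S) (hy : y ∈ S) :
    e (2 • x) y = e x y ^ 2 := by
  rw [two_nsmul, h.add_left x hx x hx y hy, sq]

end IsBimulOn

theorem isBimulOn_of_isBimul {e : V → V → K} (h : Pairing.IsBimul e) (S : AddSubgroup V) :
    IsBimulOn e S :=
  ⟨fun x _ x' _ y _ => h.add_left x x' y, fun x _ y _ y' _ => h.add_right x y y',
    fun x _ y _ => h.ne_zero x y⟩

/-- Relative isotropy count: `L ≤ W₀` isotropic for a pairing that is bimultiplicative and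
nondegenerate on the finite subgroup `W₀` has `#L ^ 2 ≤ #W₀`. -/
theorem card_sq_le_of_isotropic_on (hK : ∀ n : ℕ, n ≠ 0 → HasEnoughRootsOfUnity K n)
    (e : V → V → K) (W₀ L : AddSubgroup V)
    [Finite W₀] (he : IsBimulOn e W₀) (hLW : L ≤ W₀)
    (hnd : ∀ x ∈ W₀, x ≠ 0 → ∃ y ∈ W₀, e x y ≠ 1)
    (hL : ∀ x ∈ L, ∀ y ∈ L, e x y = 1) : Nat.card L ^ 2 ≤ Nat.card W₀ := by
  have hnd' : ∀ x : W₀, x ≠ 0 → ∃ y : W₀, e (x : V) (y : V) ≠ 1 := by
    intro x hx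
    obtain ⟨y, hy, hne⟩ := hnd x x.2 (fun h0 => hx (Subtype.ext h0))
    exact ⟨⟨y, hy⟩, hne⟩
  have key := Pairing.card_sq_le_of_isotropic he.restrictSwap hK hnd'
    (L.addSubgroupOf W₀) (fun x hx y hy => hL _ (AddSubgroup.mem_addSubgroupOf.mp hy) _
      (AddSubgroup.mem_addSubgroupOf.mp hx))
  rwa [Nat.card_congr (AddSubgroup.addSubgroupOfEquivOfLe hLW).toEquiv] at key

/-- Relative orthogonality count: `D, T ≤ W₀` with `D ⊥ T` have `#D * #T ≤ #W₀`. -/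
theorem card_mul_card_le_of_orth_on (hK : ∀ n : ℕ, n ≠ 0 → HasEnoughRootsOfUnity K n)
    (e : V → V → K) (W₀ D T : AddSubgroup V)
    [Finite W₀] (he : IsBimulOn e W₀) (hDW : D ≤ W₀) (hTW : T ≤ W₀)
    (hnd : ∀ x ∈ W₀, x ≠ 0 → ∃ y ∈ W₀, e x y ≠ 1)
    (horth : ∀ x ∈ D, ∀ y ∈ T, e x y = 1) : Nat.card D * Nat.card T ≤ Nat.card W₀ := by
  have hnd' : ∀ x : W₀, x ≠ 0 → ∃ y : W₀, e (x : V) (y : V) ≠ 1 := by
    intro x hx
    obtain ⟨y, hy, hne⟩ := hnd x x.2 (fun h0 => hx (Subtype.ext h0))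
    exact ⟨⟨y, hy⟩, hne⟩
  have key := Pairing.card_mul_card_orthL_le he.restrictSwap hK hnd' (D.addSubgroupOf W₀)
  rw [Nat.card_congr (AddSubgroup.addSubgroupOfEquivOfLe hDW).toEquiv] at key
  refine le_trans (Nat.mul_le_mul_left _ ?_) key
  refine Nat.card_le_card_of_injective
    (fun y : T => (⟨⟨(y : V), hTW y.2⟩, fun x hx =>
      horth _ (AddSubgroup.mem_addSubgroupOf.mp hx) _ y.2⟩ :
        Pairing.orthL _ he.restrictSwap (D.addSubgroupOf W₀))) ?_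
  intro a b hab
  have h1 := congrArg (fun z : Pairing.orthL _ he.restrictSwap (D.addSubgroupOf W₀) =>
    ((z : W₀) : V)) hab
  exact Subtype.ext h1

/-- **TOWER FORM.**  If `e x y ^ 2 = 1` on a subgroup `T ≤ W₀`, then `2T ⊥ T`, hence
`#T ^ 2 ≤ #Z * #W₀` for every finite subgroup `Z` containing the `2`-torsion of `T`. -/
theorem card_sq_le_mul_of_sq_eq_one (hK : ∀ n : ℕ, n ≠ 0 → HasEnoughRootsOfUnity K n)
    (e : V → V → K) (W₀ T Z : AddSubgroup V)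
    [Finite W₀] [Finite Z] (he : IsBimulOn e W₀) (hTW : T ≤ W₀)
    (hnd : ∀ x ∈ W₀, x ≠ 0 → ∃ y ∈ W₀, e x y ≠ 1)
    (hT : ∀ x ∈ T, ∀ y ∈ T, e x y ^ 2 = 1)
    (hZ : ∀ x ∈ T, 2 • x = 0 → x ∈ Z) : Nat.card T ^ 2 ≤ Nat.card Z * Nat.card W₀ := by
  classical
  have : Finite T := Finite.of_injective (fun x : T => (⟨(x : V), hTW x.2⟩ : W₀))
    (fun a b hab => Subtype.ext (congrArg (fun z : W₀ => (z : V)) hab))
  -- the doubling map on `T`
  let f : T →+ V := (nsmulAddMonoidHom 2 : V →+ V).comp T.subtype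
  have hf : ∀ x : T, f x = 2 • (x : V) := fun x => rfl
  have hDT : f.range ≤ T := by
    rintro _ ⟨x, rfl⟩
    rw [hf]
    exact T.nsmul_mem x.2 2
  have hDW : f.range ≤ W₀ := hDT.trans hTW
  have horth : ∀ x ∈ f.range, ∀ y ∈ T, e x y = 1 := by
    rintro _ ⟨x, rfl⟩ y hy
    rw [hf, he.two_nsmul_left (hTW x.2) (hTW hy)]
    exact hT x x.2 y hy
  have h1 : Nat.card f.range * Nat.card T ≤ Nat.card W₀ :=
    card_mul_card_le_of_orth_on hK e W₀ f.range T he hDW hTW hnd horth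
  have h2 : Nat.card f.ker * Nat.card f.range = Nat.card T := by
    rw [← AddSubgroup.index_ker f]
    exact AddSubgroup.card_mul_index f.ker
  have h3 : Nat.card f.ker ≤ Nat.card Z := by
    refine Nat.card_le_card_of_injective
      (fun x : f.ker => (⟨((x : T) : V), hZ _ (x : T).2 (by
        have := x.2
        rw [AddMonoidHom.mem_ker, hf] at this
        exact this)⟩ : Z)) ?_
    intro a b hab
    have h4 := congrArg (fun z : Z => (z : V)) hab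
    exact Subtype.ext (Subtype.ext h4)
  calc Nat.card T ^ 2 = Nat.card f.ker * (Nat.card f.range * Nat.card T) := by
        rw [sq, ← mul_assoc, h2]
    _ ≤ Nat.card Z * Nat.card W₀ := Nat.mul_le_mul h3 h1

/-- TOWER FORM for the `-1`-eigenspace of an additive map `c` with `e (c x) (c y) = (e x y)⁻¹`:
`#T ^ 2 ≤ #Z * #W₀`. -/
theorem card_sq_le_mul_of_conj_neg (hK : ∀ n : ℕ, n ≠ 0 → HasEnoughRootsOfUnity K n)
    (e : V → V → K) (c : V → V)
    (W₀ T Z : AddSubgroup V) [Finite W₀] [Finite Z] (he : IsBimulOn e W₀) (hTW : T ≤ W₀)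
    (hnd : ∀ x ∈ W₀, x ≠ 0 → ∃ y ∈ W₀, e x y ≠ 1)
    (hc : ∀ x ∈ W₀, ∀ y ∈ W₀, e (c x) (c y) = (e x y)⁻¹)
    (hTc : ∀ x ∈ T, c x = -x) (hZ : ∀ x ∈ T, 2 • x = 0 → x ∈ Z) :
    Nat.card T ^ 2 ≤ Nat.card Z * Nat.card W₀ := by
  refine card_sq_le_mul_of_sq_eq_one hK e W₀ T Z he hTW hnd ?_ hZ
  intro x hx y hy
  have hxW := hTW hx
  have hyW := hTW hy
  have h1 := hc x hxW y hyW
  rw [hTc x hx, hTc y hy] at h1
  -- `e (-x) (-y) = e x y`
  have h2 : e (-x) (-y) = e x y := by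
    have hr := he.restrict
    have e1 := hr.neg_left ⟨x, hxW⟩ (-⟨y, hyW⟩)
    have e2 := hr.neg_right ⟨x, hxW⟩ ⟨y, hyW⟩
    simp only [AddSubgroup.coe_neg] at e1 e2
    rw [e1, e2, inv_inv]
  rw [h2] at h1
  rw [sq]
  nth_rewrite 1 [h1]
  exact inv_mul_cancel₀ (he.ne_zero x hxW y hyW)

/-- TOWER FORM for the fixed points of a map `c` with `e (c x) (c y) = (e x y)⁻¹`. -/
theorem card_sq_le_mul_of_conj_fixed (hK : ∀ n : ℕ, n ≠ 0 → HasEnoughRootsOfUnity K n)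
    (e : V → V → K) (c : V → V)
    (W₀ T Z : AddSubgroup V) [Finite W₀] [Finite Z] (he : IsBimulOn e W₀) (hTW : T ≤ W₀)
    (hnd : ∀ x ∈ W₀, x ≠ 0 → ∃ y ∈ W₀, e x y ≠ 1)
    (hc : ∀ x ∈ W₀, ∀ y ∈ W₀, e (c x) (c y) = (e x y)⁻¹)
    (hTc : ∀ x ∈ T, c x = x) (hZ : ∀ x ∈ T, 2 • x = 0 → x ∈ Z) :
    Nat.card T ^ 2 ≤ Nat.card Z * Nat.card W₀ := by
  refine card_sq_le_mul_of_sq_eq_one hK e W₀ T Z he hTW hnd ?_ hZ
  intro x hx y hy
  have h1 := hc x (hTW hx) y (hTW hy)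
  rw [hTc x hx, hTc y hy] at h1
  rw [sq]
  nth_rewrite 1 [h1]
  exact inv_mul_cancel₀ (he.ne_zero x (hTW hx) y (hTW hy))

/-! ### Level one: the `e₄`-trick -/

/-- The `-1`-eigenspace of `c` in the `4`-torsion. -/
def minusFour (c : V →+ V) : AddSubgroup V where
  carrier := {w | 4 • w = 0 ∧ c w = -w}
  zero_mem' := ⟨smul_zero _, by rw [map_zero, neg_zero]⟩
  add_mem' := by
    rintro a b ⟨ha, hac⟩ ⟨hb, hbc⟩
    exact ⟨by rw [smul_add, ha, hb, add_zero], by rw [map_add, hac, hbc, neg_add]⟩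
  neg_mem' := by
    rintro a ⟨ha, hac⟩
    exact ⟨by rw [smul_neg, ha, neg_zero], by rw [map_neg, hac]⟩

theorem mem_minusFour {c : V →+ V} {w : V} : w ∈ minusFour c ↔ 4 • w = 0 ∧ c w = -w := Iff.rfl

/-- `Λ_c = {2 • w | 4 • w = 0, c w = - w}`: the subgroup of `V[2]` that carries the signs at the
real place. -/
def lamConj (c : V →+ V) : AddSubgroup V := (minusFour c).map (nsmulAddMonoidHom 2)

theorem mem_lamConj {c : V →+ V} {x : V} :
    x ∈ lamConj c ↔ ∃ w, 4 • w = 0 ∧ c w = -w ∧ 2 • w = x := by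
  constructor
  · rintro ⟨w, hw, rfl⟩
    exact ⟨w, hw.1, hw.2, rfl⟩
  · rintro ⟨w, h4, hc, rfl⟩
    exact ⟨w, ⟨h4, hc⟩, rfl⟩

theorem two_nsmul_eq_zero_of_mem_lamConj {c : V →+ V} {x : V} (hx : x ∈ lamConj c) :
    2 • x = 0 := by
  obtain ⟨w, h4, -, rfl⟩ := mem_lamConj.mp hx
  rw [← mul_nsmul]
  exact h4

/-- `Λ_c` is stable under every additive map commuting with `c`. -/
theorem map_mem_lamConj {c : V →+ V} (E : V →+ V) (hE : ∀ x, E (c x) = c (E x)) {x : V}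
    (hx : x ∈ lamConj c) : E x ∈ lamConj c := by
  obtain ⟨w, h4, hc, rfl⟩ := mem_lamConj.mp hx
  refine mem_lamConj.mpr ⟨E w, ?_, ?_, ?_⟩
  · rw [← map_nsmul, h4, map_zero]
  · rw [← hE, hc, map_neg]
  · rw [map_nsmul]

/-- `c y - y ∈ Λ_c` as soon as `c` fixes `2 • y` (for `c` an involution of a `2`-divisible
group): halve `y`. -/
theorem conj_sub_mem_lamConj {c : V →+ V} (hc2 : ∀ y, c (c y) = y)
    (hdiv : ∀ y : V, ∃ z : V, 2 • z = y) (y : V) (hy : c (2 • y) = 2 • y) :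
    c y - y ∈ lamConj c := by
  obtain ⟨z, rfl⟩ := hdiv y
  refine mem_lamConj.mpr ⟨c z - z, ?_, ?_, ?_⟩
  · have h4 : (4 : ℕ) • z = 2 • (2 • z) := by rw [← mul_nsmul]
    rw [smul_sub, ← map_nsmul, h4, hy, sub_self]
  · rw [map_sub, hc2, neg_sub]
  · rw [smul_sub, map_nsmul]

/-- `Λ_c` is isotropic for a pairing `e₂` that is trivial on the doubles of the `-1`-eigenspace
of `c` in the `4`-torsion. -/
theorem lamConj_isotropic {c : V →+ V} (e₂ : V → V → K)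
    (hdbl : ∀ w w' : V, 4 • w = 0 → 4 • w' = 0 → c w = -w → c w' = -w' →
      e₂ (2 • w) (2 • w') = 1) :
    ∀ x ∈ lamConj c, ∀ y ∈ lamConj c, e₂ x y = 1 := by
  intro x hx y hy
  obtain ⟨w, h4, hc, rfl⟩ := mem_lamConj.mp hx
  obtain ⟨w', h4', hc', rfl⟩ := mem_lamConj.mp hy
  exact hdbl w w' h4 h4' hc hc'

/-- The `e₄`-trick: the hypothesis of `lamConj_isotropic` from a pairing `e₄` on the `4`-torsion
with `e₄ w w' ^ 2 = e₂ (2 • w) (2 • w')`, `e₄ (- w) (- w') = e₄ w w'` and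
`e₄ (c w) (c w') = (e₄ w w')⁻¹`. -/
theorem dbl_of_four {c : V →+ V} (e₂ e₄ : V → V → K)
    (h24 : ∀ w w' : V, 4 • w = 0 → 4 • w' = 0 → e₄ w w' ^ 2 = e₂ (2 • w) (2 • w'))
    (hneg : ∀ w w' : V, 4 • w = 0 → 4 • w' = 0 → e₄ (-w) (-w') = e₄ w w')
    (hc4 : ∀ w w' : V, 4 • w = 0 → 4 • w' = 0 → e₄ (c w) (c w') = (e₄ w w')⁻¹)
    (hne : ∀ w w' : V, 4 • w = 0 → 4 • w' = 0 → e₄ w w' ≠ 0) :
    ∀ w w' : V, 4 • w = 0 → 4 • w' = 0 → c w = -w → c w' = -w' → e₂ (2 • w) (2 • w') = 1 := by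
  intro w w' h4 h4' hc hc'
  have h1 := hc4 w w' h4 h4'
  rw [hc, hc', hneg w w' h4 h4'] at h1
  rw [← h24 w w' h4 h4', sq]
  nth_rewrite 1 [h1]
  exact inv_mul_cancel₀ (hne w w' h4 h4')

/-- **LEVEL-ONE FORM.**  For a finite subgroup `W₀` on which `e₂` is bimultiplicative and
nondegenerate: `#(W₀ ⊓ Λ_c) ^ 2 ≤ #W₀`. -/
theorem card_inf_lamConj_sq_le (hK : ∀ n : ℕ, n ≠ 0 → HasEnoughRootsOfUnity K n)
    {c : V →+ V} (e₂ : V → V → K) (W₀ : AddSubgroup V)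
    [Finite W₀] (he : IsBimulOn e₂ W₀)
    (hnd : ∀ x ∈ W₀, x ≠ 0 → ∃ y ∈ W₀, e₂ x y ≠ 1)
    (hdbl : ∀ w w' : V, 4 • w = 0 → 4 • w' = 0 → c w = -w → c w' = -w' →
      e₂ (2 • w) (2 • w') = 1) :
    Nat.card ↥(W₀ ⊓ lamConj c) ^ 2 ≤ Nat.card W₀ :=
  card_sq_le_of_isotropic_on hK e₂ W₀ (W₀ ⊓ lamConj c) he inf_le_left hnd
    (fun x hx y hy => lamConj_isotropic e₂ hdbl x hx.2 y hy.2)

end Abstract

end Fermat.Agent.S15.helper2449
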