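/-
S15, the count at the EVEN Eisenstein prime: the ARCHIMEDEAN supplier (registry leaf
G2-CONJ-TWO / the `T₂`-input of BND-CNT-R2), CONCRETE FORM on `J₀(N)(ℚ̄)` with the Prelude
`complexConjugation` and the LANDED Weil pairing `helper2790.weilJ`.  Seat helper2449.
Hypothesis-free except for nondegeneracy of the pairing on the piece `W₀` (supplied by the
Hecke-idempotent argument of the [P]-block).

* `conjJ N`, `minusJ N`, `lamConjJ N` : complex conjugation `c` on `J₀(N)`, its `-1`-eigenspace,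
  and `Λ_c = {2 • w | 4 • w = 0 ∧ c • w = - w} ≤ J₀(N)[2]`.
* `conj_smul_sub_mem_minusJ` : `c • y - y ∈ minusJ N` for every `y`.
* `conj_smul_sub_mem_lamConjJ(_of_two/_of_fixed)` : `c • y - y ∈ Λ_c` whenever `c` fixes `2 • y`
  (in particular when `2 • (c • y - y) = 0`, or when `2 • y` is rational).
* `map_mem_lamConjJ`, `map_mem_minusJ` : stability under additive maps commuting with `c`.
* `weilJ_conj_eq_inv`, `weilJ_sq_eq_one_of_conj_neg/_fixed`, `weilJ_two_dbl`,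
  `weilJ_lamConjJ_isotropic` : eigenvalue lemmas; `Λ_c` is isotropic for `e₂` (the `e₄`-trick).
* LEVEL ONE `card_inf_lamConjJ_sq_le` : `#(W₀ ⊓ Λ_c) ^ 2 ≤ #W₀` for `W₀ ≤ J₀(N)[2]` finite with
  `e₂` nondegenerate on `W₀`  (`B₂ = 0`).
* TOWER `card_sq_le_mul_of_conj_neg_J`, `card_sq_le_mul_of_conj_fixed_J`,
  `card_inf_minusJ_sq_le`, `exists_bound_minusJ` : `#(W₀ ⊓ minusJ) ^ 2 ≤ #J₀(N)[2] * #W₀` for
  `W₀ ≤ J₀(N)[n]` finite with `e_n` nondegenerate on `W₀`; the bound `2 ^ B₂` is uniform in `n`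
  and `W₀`.
* HECKE PIECE `weilJ_nondeg_on_piece`, `card_inf_lamConjJ_sq_le_of_adjoint`,
  `card_inf_minusJ_sq_le_of_adjoint` : the same counts for `W = E · J₀(N)[n]`, `E` an idempotent
  that is self-adjoint for `e_n` (nondegeneracy on `W` is then automatic).
-/
import Fermat.Agent.S19.helper2790_WeilJDual
import Fermat.Agent.S30.helper6350_CycloPkg
import Fermat.Agent.S15.helper2449_ConjTwo

set_option autoImplicit false

open AlgebraicCurve ModularCurve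

namespace Fermat.Agent.S15.helper2449

open Fermat.Agent.S19.helper2790 Fermat.Agent.S19.helper2111

noncomputable section

variable (N : ℕ)

/-- Complex conjugation on `J₀(N)`. -/
def conjJ : JZero N →+ JZero N := DistribSMul.toAddMonoidHom (JZero N) complexConjugation

theorem conjJ_apply (x : JZero N) : conjJ N x = complexConjugation • x := rfl

theorem conjJ_conjJ (x : JZero N) : conjJ N (conjJ N x) = x := by
  rw [conjJ_apply, conjJ_apply, ← mul_smul, complexConjugation_mul_self, one_smul]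

/-- The `-1`-eigenspace of complex conjugation on `J₀(N)`. -/
def minusJ : AddSubgroup (JZero N) := (conjJ N + AddMonoidHom.id (JZero N)).ker

/-- `Λ_c = {2 • w | 4 • w = 0 ∧ c • w = - w}`. -/
def lamConjJ : AddSubgroup (JZero N) := lamConj (conjJ N)

variable {N}

theorem mem_minusJ {x : JZero N} : x ∈ minusJ N ↔ complexConjugation • x = -x := by
  show conjJ N x + x = 0 ↔ _
  rw [conjJ_apply, add_eq_zero_iff_eq_neg]

theorem mem_lamConjJ {x : JZero N} :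
    x ∈ lamConjJ N ↔ ∃ w : JZero N, 4 • w = 0 ∧ complexConjugation • w = -w ∧ 2 • w = x :=
  mem_lamConj

theorem two_nsmul_eq_zero_of_mem_lamConjJ {x : JZero N} (hx : x ∈ lamConjJ N) : 2 • x = 0 :=
  two_nsmul_eq_zero_of_mem_lamConj hx

/-- `c • y - y` lies in the `-1`-eigenspace, for every `y`. -/
theorem conj_smul_sub_mem_minusJ (y : JZero N) : complexConjugation • y - y ∈ minusJ N := by
  rw [mem_minusJ, ← conjJ_apply, ← conjJ_apply, map_sub, conjJ_conjJ, neg_sub]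

/-- The `-1`-eigenspace is stable under every additive map commuting with `c`. -/
theorem map_mem_minusJ (E : JZero N →+ JZero N)
    (hE : ∀ x, E (complexConjugation • x) = complexConjugation • E x) {x : JZero N}
    (hx : x ∈ minusJ N) : E x ∈ minusJ N := by
  rw [mem_minusJ, ← hE, mem_minusJ.mp hx, map_neg]

/-- `Λ_c` is stable under every additive map commuting with complex conjugation (for instance
under every Galois-equivariant one: Hecke operators and their polynomials). -/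
theorem map_mem_lamConjJ (E : JZero N →+ JZero N)
    (hE : ∀ x, E (complexConjugation • x) = complexConjugation • E x) {x : JZero N}
    (hx : x ∈ lamConjJ N) : E x ∈ lamConjJ N :=
  map_mem_lamConj E hE hx

section Div

variable [NeZero N]

/-- `c • y - y ∈ Λ_c` as soon as `c` fixes `2 • y`. -/
theorem conj_smul_sub_mem_lamConjJ (y : JZero N)
    (hy : complexConjugation • (2 • y) = 2 • y) : complexConjugation • y - y ∈ lamConjJ N :=
  conj_sub_mem_lamConj (c := conjJ N) (conjJ_conjJ N)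
    (Fermat.Agent.S17.helper2219.jzero_nsmul_surjective N 2 (by norm_num)) y hy

/-- `c • y - y ∈ Λ_c` as soon as it is killed by `2`. -/
theorem conj_smul_sub_mem_lamConjJ_of_two (y : JZero N)
    (hy : 2 • (complexConjugation • y - y) = 0) : complexConjugation • y - y ∈ lamConjJ N := by
  refine conj_smul_sub_mem_lamConjJ y ?_
  have h1 : complexConjugation • (2 • y) = 2 • (complexConjugation • y) := by
    rw [two_nsmul, two_nsmul, smul_add]
  rw [nsmul_sub, sub_eq_zero] at hy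
  rw [h1]
  exact hy

/-- `c • y - y ∈ Λ_c` when `2 • y` is a rational point. -/
theorem conj_smul_sub_mem_lamConjJ_of_fixed (y : JZero N) (hy : ∀ σ : GQ, σ • (2 • y) = 2 • y) :
    complexConjugation • y - y ∈ lamConjJ N :=
  conj_smul_sub_mem_lamConjJ y (hy complexConjugation)

/-- The Weil pairing is bimultiplicative on every subgroup of the `n`-torsion. -/
theorem isBimulOn_weilJ (n : ℕ) (W₀ : AddSubgroup (JZero N)) (hW : ∀ x ∈ W₀, n • x = 0) :
    IsBimulOn (weilJ N n) W₀ where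
  add_left _ hx _ hx' _ hy := weilJ_add_left (hW _ hx) (hW _ hx') (hW _ hy)
  add_right _ hx _ hy _ hy' := weilJ_add_right (hW _ hx) (hW _ hy) (hW _ hy')
  ne_zero _ _ _ _ := weilJ_ne_zero _ _

/-- `e_n (c x, c y) = e_n (x, y)⁻¹`. -/
theorem weilJ_conj_eq_inv {n : ℕ} (hn : n ≠ 0) {x y : JZero N} (hx : n • x = 0)
    (hy : n • y = 0) :
    weilJ N n (complexConjugation • x) (complexConjugation • y) = (weilJ N n x y)⁻¹ := by
  rw [weilJ_galois complexConjugation hx hy]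
  exact Fermat.Agent.S30.helper6350.complexConjugation_root_of_unity hn (weilJ_pow hx hy)

/-- `e_n (x, y) ^ 2 = 1` on the `-1`-eigenspace of complex conjugation. -/
theorem weilJ_sq_eq_one_of_conj_neg {n : ℕ} (hn : n ≠ 0) {x y : JZero N} (hx : n • x = 0)
    (hy : n • y = 0) (hcx : complexConjugation • x = -x) (hcy : complexConjugation • y = -y) :
    weilJ N n x y ^ 2 = 1 := by
  have h := weilJ_conj_eq_inv hn hx hy
  have hnx : n • (-x) = 0 := by rw [neg_nsmul, hx, neg_zero]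
  rw [hcx, hcy, weilJ_neg_right hnx hy, weilJ_neg_left hx hy, inv_inv] at h
  rw [sq]
  nth_rewrite 1 [h]
  exact inv_mul_cancel₀ (weilJ_ne_zero x y)

/-- `e_n (x, y) ^ 2 = 1` on the fixed points of complex conjugation. -/
theorem weilJ_sq_eq_one_of_conj_fixed {n : ℕ} (hn : n ≠ 0) {x y : JZero N} (hx : n • x = 0)
    (hy : n • y = 0) (hcx : complexConjugation • x = x) (hcy : complexConjugation • y = y) :
    weilJ N n x y ^ 2 = 1 := by
  have h := weilJ_conj_eq_inv hn hx hy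
  rw [hcx, hcy] at h
  rw [sq]
  nth_rewrite 1 [h]
  exact inv_mul_cancel₀ (weilJ_ne_zero x y)

/-- The doubling trick at level two: `e₂ (2 w, 2 w') = e₄ (w, w') ^ 2 = 1` for `w, w'` in the
`-1`-eigenspace of complex conjugation on the `4`-torsion. -/
theorem weilJ_two_dbl :
    ∀ w w' : JZero N, 4 • w = 0 → 4 • w' = 0 → conjJ N w = -w → conjJ N w' = -w' →
      weilJ N 2 (2 • w) (2 • w') = 1 := by
  intro w w' h4 h4' hc hc'
  have hw : (2 * 2) • w = 0 := h4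
  have hw' : (2 * 2) • w' = 0 := h4'
  have h2w' : 2 • (2 • w') = 0 := by rw [← mul_nsmul]; exact h4'
  rw [← weilJ_mul_exponent hw h2w', weilJ_nsmul_right hw hw']
  exact weilJ_sq_eq_one_of_conj_neg (by norm_num) hw hw' hc hc'

/-- `Λ_c` is isotropic for the Weil pairing `e₂`. -/
theorem weilJ_lamConjJ_isotropic :
    ∀ x ∈ lamConjJ N, ∀ y ∈ lamConjJ N, weilJ N 2 x y = 1 :=
  lamConj_isotropic (weilJ N 2) weilJ_two_dbl

/-- **LEVEL ONE.**  For a finite subgroup `W₀` of `J₀(N)[2]` on which `e₂` is nondegenerate: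
`#(W₀ ⊓ Λ_c) ^ 2 ≤ #W₀`. -/
theorem card_inf_lamConjJ_sq_le (W₀ : AddSubgroup (JZero N)) [Finite W₀]
    (hW : ∀ x ∈ W₀, 2 • x = 0) (hnd : ∀ x ∈ W₀, x ≠ 0 → ∃ y ∈ W₀, weilJ N 2 x y ≠ 1) :
    Nat.card ↥(W₀ ⊓ lamConjJ N) ^ 2 ≤ Nat.card W₀ :=
  card_inf_lamConj_sq_le hasEnoughRootsOfUnity_Qb (weilJ N 2) W₀ (isBimulOn_weilJ 2 W₀ hW) hnd
    weilJ_two_dbl

/-- LEVEL ONE in the shape of the `r = 2` table (`B₂ = 0`). -/
theorem card_inf_lamConjJ_sq_le' (W₀ : AddSubgroup (JZero N)) [Finite W₀]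
    (hW : ∀ x ∈ W₀, 2 • x = 0) (hnd : ∀ x ∈ W₀, x ≠ 0 → ∃ y ∈ W₀, weilJ N 2 x y ≠ 1) :
    Nat.card ↥(W₀ ⊓ lamConjJ N) ^ 2 ≤ 2 ^ 0 * Nat.card W₀ := by
  rw [pow_zero, one_mul]
  exact card_inf_lamConjJ_sq_le W₀ hW hnd

/-- **TOWER, `-1`-eigenspace.**  `T ≤ W₀ ≤ J₀(N)[n]`, `c = -1` on `T`, `e_n` nondegenerate on the
finite group `W₀`, `Z` finite containing `T[2]`: `#T ^ 2 ≤ #Z * #W₀`. -/
theorem card_sq_le_mul_of_conj_neg_J {n : ℕ} (hn : n ≠ 0) (W₀ T Z : AddSubgroup (JZero N))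
    [Finite W₀] [Finite Z] (hW : ∀ x ∈ W₀, n • x = 0) (hTW : T ≤ W₀)
    (hnd : ∀ x ∈ W₀, x ≠ 0 → ∃ y ∈ W₀, weilJ N n x y ≠ 1)
    (hTc : ∀ x ∈ T, complexConjugation • x = -x) (hZ : ∀ x ∈ T, 2 • x = 0 → x ∈ Z) :
    Nat.card T ^ 2 ≤ Nat.card Z * Nat.card W₀ :=
  card_sq_le_mul_of_sq_eq_one hasEnoughRootsOfUnity_Qb (weilJ N n) W₀ T Z
    (isBimulOn_weilJ n W₀ hW) hTW hnd
    (fun x hx y hy => weilJ_sq_eq_one_of_conj_neg hn (hW x (hTW hx)) (hW y (hTW hy))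
      (hTc x hx) (hTc y hy)) hZ

/-- **TOWER, fixed points.** -/
theorem card_sq_le_mul_of_conj_fixed_J {n : ℕ} (hn : n ≠ 0) (W₀ T Z : AddSubgroup (JZero N))
    [Finite W₀] [Finite Z] (hW : ∀ x ∈ W₀, n • x = 0) (hTW : T ≤ W₀)
    (hnd : ∀ x ∈ W₀, x ≠ 0 → ∃ y ∈ W₀, weilJ N n x y ≠ 1)
    (hTc : ∀ x ∈ T, complexConjugation • x = x) (hZ : ∀ x ∈ T, 2 • x = 0 → x ∈ Z) :
    Nat.card T ^ 2 ≤ Nat.card Z * Nat.card W₀ :=
  card_sq_le_mul_of_sq_eq_one hasEnoughRootsOfUnity_Qb (weilJ N n) W₀ T Z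
    (isBimulOn_weilJ n W₀ hW) hTW hnd
    (fun x hx y hy => weilJ_sq_eq_one_of_conj_fixed hn (hW x (hTW hx)) (hW y (hTW hy))
      (hTc x hx) (hTc y hy)) hZ

/-- The `2`-torsion of `J₀(N)` as an additive subgroup. -/
def torsTwoJ (N : ℕ) : AddSubgroup (JZero N) :=
  (Submodule.torsionBy ℤ (JZero N) ((2 : ℕ) : ℤ)).toAddSubgroup

omit [NeZero N] in
theorem mem_torsTwoJ {x : JZero N} : x ∈ torsTwoJ N ↔ 2 • x = 0 := by
  show x ∈ Submodule.torsionBy ℤ (JZero N) ((2 : ℕ) : ℤ) ↔ _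
  rw [Submodule.mem_torsionBy_iff, natCast_zsmul]

instance finite_torsTwoJ : Finite (torsTwoJ N) :=
  finite_torsJ N (by norm_num : 0 < 2)

/-- **TOWER FORM** for the `-1`-eigenspace: `#(W₀ ⊓ minusJ) ^ 2 ≤ #J₀(N)[2] * #W₀`. -/
theorem card_inf_minusJ_sq_le {n : ℕ} (hn : n ≠ 0) (W₀ : AddSubgroup (JZero N)) [Finite W₀]
    (hW : ∀ x ∈ W₀, n • x = 0) (hnd : ∀ x ∈ W₀, x ≠ 0 → ∃ y ∈ W₀, weilJ N n x y ≠ 1) :
    Nat.card ↥(W₀ ⊓ minusJ N) ^ 2 ≤ Nat.card (torsTwoJ N) * Nat.card W₀ :=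
  card_sq_le_mul_of_conj_neg_J hn W₀ (W₀ ⊓ minusJ N) (torsTwoJ N) hW inf_le_left hnd
    (fun _ hx => mem_minusJ.mp hx.2) (fun _ _ h2 => mem_torsTwoJ.mpr h2)

/-- **TOWER FORM**, in the shape of the `r = 2` table: a bound `2 ^ B₂`, uniform in the level
`n` and in the piece `W₀`. -/
theorem exists_bound_minusJ (N : ℕ) [NeZero N] :
    ∃ B₂ : ℕ, ∀ (n : ℕ), n ≠ 0 → ∀ (W₀ : AddSubgroup (JZero N)) [Finite W₀],
      (∀ x ∈ W₀, n • x = 0) → (∀ x ∈ W₀, x ≠ 0 → ∃ y ∈ W₀, weilJ N n x y ≠ 1) →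
      Nat.card ↥(W₀ ⊓ minusJ N) ^ 2 ≤ 2 ^ B₂ * Nat.card W₀ := by
  refine ⟨Nat.card (torsTwoJ N), fun n hn W₀ _ hW hnd => ?_⟩
  refine le_trans (card_inf_minusJ_sq_le hn W₀ hW hnd) (Nat.mul_le_mul_right _ ?_)
  exact (Nat.lt_two_pow_self).le

/-! ### The same counts on a Hecke piece `W = E · J₀(N)[n]` -/

/-- The Weil pairing is nondegenerate on the image `W = {z | n • z = 0 ∧ E z = z}` of an
idempotent `E` of `J₀(N)[n]` that is self-adjoint for `e_n`. -/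
theorem weilJ_nondeg_on_piece {n : ℕ} (hn : n ≠ 0) (E : JZero N →+ JZero N)
    (hidem : ∀ z, n • z = 0 → E (E z) = E z)
    (hadj : ∀ u v, n • u = 0 → n • v = 0 → weilJ N n (E u) v = weilJ N n u (E v))
    (W : AddSubgroup (JZero N)) (hW : ∀ z, z ∈ W ↔ n • z = 0 ∧ E z = z) :
    ∀ x ∈ W, x ≠ 0 → ∃ y ∈ W, weilJ N n x y ≠ 1 := by
  intro x hx hx0
  obtain ⟨hxn, hEx⟩ := (hW x).mp hx
  obtain ⟨y, hy, hne⟩ := weilJ_nondeg_left (Nat.pos_of_ne_zero hn) hxn hx0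
  have hEy : n • E y = 0 := by rw [← map_nsmul, hy, map_zero]
  refine ⟨E y, (hW _).mpr ⟨hEy, hidem y hy⟩, ?_⟩
  rw [← hadj x y hxn hy, hEx]
  exact hne

/-- A subgroup of the `n`-torsion of `J₀(N)` is finite. -/
theorem finite_of_torsion {n : ℕ} (hn : n ≠ 0) (W : AddSubgroup (JZero N))
    (hW : ∀ z ∈ W, n • z = 0) : Finite W := by
  haveI := finite_torsJ N (Nat.pos_of_ne_zero hn)
  refine Finite.of_injective (fun z : W => (⟨(z : JZero N), by
    rw [Submodule.mem_torsionBy_iff, natCast_zsmul]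
    exact hW z z.2⟩ : TorsJ N n)) ?_
  intro a b hab
  exact Subtype.ext (congrArg (fun t : TorsJ N n => (t : JZero N)) hab)

/-- **LEVEL ONE on a Hecke piece**: `W = E · J₀(N)[2]` for an idempotent `E` self-adjoint for
`e₂`: `#(W ⊓ Λ_c) ^ 2 ≤ #W`. -/
theorem card_inf_lamConjJ_sq_le_of_adjoint (E : JZero N →+ JZero N)
    (hidem : ∀ z, 2 • z = 0 → E (E z) = E z)
    (hadj : ∀ u v, 2 • u = 0 → 2 • v = 0 → weilJ N 2 (E u) v = weilJ N 2 u (E v))
    (W : AddSubgroup (JZero N)) (hW : ∀ z, z ∈ W ↔ 2 • z = 0 ∧ E z = z) :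
    Nat.card ↥(W ⊓ lamConjJ N) ^ 2 ≤ Nat.card W :=
  haveI := finite_of_torsion (by norm_num : (2 : ℕ) ≠ 0) W (fun z hz => ((hW z).mp hz).1)
  card_inf_lamConjJ_sq_le W (fun z hz => ((hW z).mp hz).1)
    (weilJ_nondeg_on_piece (by norm_num) E hidem hadj W hW)

/-- **TOWER on a Hecke piece**: `W = E · J₀(N)[n]` for an idempotent `E` self-adjoint for `e_n`:
`#(W ⊓ minusJ) ^ 2 ≤ #J₀(N)[2] * #W`. -/
theorem card_inf_minusJ_sq_le_of_adjoint {n : ℕ} (hn : n ≠ 0) (E : JZero N →+ JZero N)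
    (hidem : ∀ z, n • z = 0 → E (E z) = E z)
    (hadj : ∀ u v, n • u = 0 → n • v = 0 → weilJ N n (E u) v = weilJ N n u (E v))
    (W : AddSubgroup (JZero N)) (hW : ∀ z, z ∈ W ↔ n • z = 0 ∧ E z = z) :
    Nat.card ↥(W ⊓ minusJ N) ^ 2 ≤ Nat.card (torsTwoJ N) * Nat.card W :=
  haveI := finite_of_torsion hn W (fun z hz => ((hW z).mp hz).1)
  card_inf_minusJ_sq_le hn W (fun z hz => ((hW z).mp hz).1)
    (weilJ_nondeg_on_piece hn E hidem hadj W hW)

end Div

end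

end Fermat.Agent.S15.helper2449
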