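import Fermat.Agent.S19.helper2532_CoordOrder

set_option autoImplicit false
set_option linter.unusedSectionVars false

/-!
# Orders of coordinate functions on finite `Γ`-sets, with the transfer law

Forward brick for the local block at the residue prime of S15 (and a second producer for the
LOCAL-ORD vocabulary of S33).  Abstract part (Mathlib + the lattice closure
`Fermat.Agent.S19.helper2532.mem_of_approx_adjoin`).

* `approxOrder A ℓ hℓA Γ T S` : the subring of the `A`-valued `Γ`-equivariant functions on the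
  `Γ`-set `T` which are, for every `n`, congruent modulo `ℓ ^ n` to an element of the `A`-algebra
  generated by the set `S` of functions.
* `tensorSubring₂ H₁ H₂` : finite sums `∑ a i (t₁) * b i (t₂)` with `a i ∈ H₁`, `b i ∈ H₂`.
* `comp_mem_tensorSubring₂` : TRANSFER.  If `μ : T₁ × T₂ → T₃` is equivariant and every generator
  of `S₃`, composed with `μ`, is approximated by the `A`-algebra generated by
  `tensorSubring₂ (order T₁) (order T₂)`, then `F ∘ μ ∈ tensorSubring₂ (order T₁) (order T₂)` for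
  every `F` in the order of `T₃`.
-/

namespace Fermat.Agent.S15.helper2532

open Fermat.Agent.S19.helper2532

section Approx

variable {Ω : Type*} [Field Ω]

/-- The order generated by a set `S` of functions on a `Γ`-set `T`: the `A`-valued equivariant
functions which are `ℓ`-adic limits of elements of the `A`-algebra generated by `S`. -/
def approxOrder (A : ValuationSubring Ω) (ℓ : Ω) (hℓA : ℓ ∈ A)
    (Γ : Type*) [Group Γ] [MulSemiringAction Γ Ω]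
    (T : Type*) [MulAction Γ T] (S : Set (T → Ω)) : Subring (T → Ω) where
  carrier := {F | (∀ t, F t ∈ A) ∧ (∀ (s : Γ) (t : T), F (s • t) = s • F t) ∧
    ∀ n : ℕ, ∃ Φ ∈ Algebra.adjoin A S, ∀ t, ∃ a ∈ A, F t - Φ t = ℓ ^ n * a}
  mul_mem' := by
    rintro F₁ F₂ ⟨h1A, h1Γ, h1⟩ ⟨h2A, h2Γ, h2⟩
    refine ⟨fun t => A.mul_mem _ _ (h1A t) (h2A t), fun s t => ?_, fun n => ?_⟩
    · simp only [Pi.mul_apply, h1Γ s t, h2Γ s t, smul_mul']
    · obtain ⟨Φ₁, hΦ₁, e₁⟩ := h1 n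
      obtain ⟨Φ₂, hΦ₂, e₂⟩ := h2 n
      refine ⟨Φ₁ * Φ₂, Subalgebra.mul_mem _ hΦ₁ hΦ₂, fun t => ?_⟩
      obtain ⟨a₁, ha₁, f₁⟩ := e₁ t
      obtain ⟨a₂, ha₂, f₂⟩ := e₂ t
      have g₁ : Φ₁ t = F₁ t - ℓ ^ n * a₁ := by rw [← f₁]; ring
      have g₂ : Φ₂ t = F₂ t - ℓ ^ n * a₂ := by rw [← f₂]; ring
      refine ⟨a₁ * F₂ t + (F₁ t - ℓ ^ n * a₁) * a₂, A.add_mem _ _ (A.mul_mem _ _ ha₁ (h2A t))
        (A.mul_mem _ _ (sub_mem (h1A t) (A.mul_mem _ _ (pow_mem hℓA n) ha₁)) ha₂), ?_⟩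
      rw [Pi.mul_apply, Pi.mul_apply, g₁, g₂]
      ring
  one_mem' := ⟨fun _ => A.one_mem, fun s t => by simp, fun n =>
    ⟨1, Subalgebra.one_mem _, fun t => ⟨0, A.zero_mem, by simp⟩⟩⟩
  add_mem' := by
    rintro F₁ F₂ ⟨h1A, h1Γ, h1⟩ ⟨h2A, h2Γ, h2⟩
    refine ⟨fun t => A.add_mem _ _ (h1A t) (h2A t), fun s t => ?_, fun n => ?_⟩
    · simp only [Pi.add_apply, h1Γ s t, h2Γ s t, smul_add]
    · obtain ⟨Φ₁, hΦ₁, e₁⟩ := h1 n
      obtain ⟨Φ₂, hΦ₂, e₂⟩ := h2 n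
      refine ⟨Φ₁ + Φ₂, Subalgebra.add_mem _ hΦ₁ hΦ₂, fun t => ?_⟩
      obtain ⟨a₁, ha₁, f₁⟩ := e₁ t
      obtain ⟨a₂, ha₂, f₂⟩ := e₂ t
      refine ⟨a₁ + a₂, A.add_mem _ _ ha₁ ha₂, ?_⟩
      rw [Pi.add_apply, Pi.add_apply, mul_add, ← f₁, ← f₂]
      ring
  zero_mem' := ⟨fun _ => A.zero_mem, fun s t => by simp, fun n =>
    ⟨0, Subalgebra.zero_mem _, fun t => ⟨0, A.zero_mem, by simp⟩⟩⟩
  neg_mem' := by
    rintro F ⟨hA, hΓ, h⟩
    refine ⟨fun t => A.neg_mem _ (hA t), fun s t => ?_, fun n => ?_⟩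
    · simp only [Pi.neg_apply, hΓ s t, smul_neg]
    · obtain ⟨Φ, hΦ, e⟩ := h n
      refine ⟨-Φ, Subalgebra.neg_mem _ hΦ, fun t => ?_⟩
      obtain ⟨a, ha, f⟩ := e t
      refine ⟨-a, A.neg_mem _ ha, ?_⟩
      rw [Pi.neg_apply, Pi.neg_apply, mul_neg, ← f]
      ring

variable {A : ValuationSubring Ω} {ℓ : Ω} {hℓA : ℓ ∈ A}
variable {Γ : Type*} [Group Γ] [MulSemiringAction Γ Ω]
variable {T : Type*} [MulAction Γ T] {S : Set (T → Ω)}

theorem mem_approxOrder {F : T → Ω} : F ∈ approxOrder A ℓ hℓA Γ T S ↔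
    (∀ t, F t ∈ A) ∧ (∀ (s : Γ) (t : T), F (s • t) = s • F t) ∧
      ∀ n : ℕ, ∃ Φ ∈ Algebra.adjoin A S, ∀ t, ∃ a ∈ A, F t - Φ t = ℓ ^ n * a :=
  Iff.rfl

theorem approxOrder_val {F : T → Ω} (hF : F ∈ approxOrder A ℓ hℓA Γ T S) (t : T) : F t ∈ A :=
  hF.1 t

theorem approxOrder_eqv {F : T → Ω} (hF : F ∈ approxOrder A ℓ hℓA Γ T S) (s : Γ) (t : T) :
    F (s • t) = s • F t :=
  hF.2.1 s t

/-- An `A`-valued equivariant generator lies in the order. -/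
theorem subset_approxOrder {F : T → Ω} (hF : F ∈ S) (hFA : ∀ t, F t ∈ A)
    (hFΓ : ∀ (s : Γ) (t : T), F (s • t) = s • F t) : F ∈ approxOrder A ℓ hℓA Γ T S :=
  ⟨hFA, hFΓ, fun _ => ⟨F, Algebra.subset_adjoin hF, fun _ => ⟨0, A.zero_mem, by simp⟩⟩⟩

/-- The `Γ`-fixed constants of `A` lie in the order. -/
theorem const_mem_approxOrder {c : Ω} (hc : c ∈ A) (hcΓ : ∀ s : Γ, s • c = c) :
    (fun _ : T => c) ∈ approxOrder A ℓ hℓA Γ T S :=
  ⟨fun _ => hc, fun s _ => (hcΓ s).symm, fun _ =>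
    ⟨algebraMap A (T → Ω) ⟨c, hc⟩, Subalgebra.algebraMap_mem _ _, fun _ =>
      ⟨0, A.zero_mem, by
        show c - (algebraMap A (T → Ω) ⟨c, hc⟩) _ = _
        rw [Pi.algebraMap_apply]
        show c - c = _
        simp⟩⟩⟩

/-- The order is stable under multiplication by the `Γ`-fixed constants of `A`. -/
theorem smul_mem_approxOrder {c : Ω} (hc : c ∈ A) (hcΓ : ∀ s : Γ, s • c = c) {F : T → Ω}
    (hF : F ∈ approxOrder A ℓ hℓA Γ T S) : (fun t => c * F t) ∈ approxOrder A ℓ hℓA Γ T S :=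
  (approxOrder A ℓ hℓA Γ T S).mul_mem (const_mem_approxOrder hc hcΓ) hF

/-- Elements of the `A`-algebra generated by `A`-valued functions are `A`-valued. -/
theorem adjoin_val {T : Type*} (A : ValuationSubring Ω) (S : Set (T → Ω))
    (hS : ∀ f ∈ S, ∀ t, f t ∈ A) {Φ : T → Ω} (hΦ : Φ ∈ Algebra.adjoin A S) (t : T) :
    Φ t ∈ A := by
  induction hΦ using Algebra.adjoin_induction with
  | mem x hx => exact hS x hx t
  | algebraMap r => exact r.2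
  | add x y _ _ hx hy => exact A.add_mem _ _ hx hy
  | mul x y _ _ hx hy => exact A.mul_mem _ _ hx hy

/-- A polynomial with coefficients in `A`, evaluated at functions of the `A`-algebra generated
by `S`, is a function of that algebra. -/
theorem eval_mem_adjoin {σ T : Type*} (A : ValuationSubring Ω) (S : Set (T → Ω))
    (u : σ → T → Ω) (hu : ∀ k, u k ∈ Algebra.adjoin A S) (P : MvPolynomial σ Ω)
    (hP : ∀ d, P.coeff d ∈ A) :
    (fun t => MvPolynomial.eval (fun k => u k t) P) ∈ Algebra.adjoin A S := by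
  have h : (fun t => MvPolynomial.eval (fun k => u k t) P) =
      ∑ d ∈ P.support, algebraMap A (T → Ω) ⟨P.coeff d, hP d⟩ *
        ∏ k ∈ d.support, u k ^ d k := by
    funext t
    rw [MvPolynomial.eval_eq, Finset.sum_apply]
    refine Finset.sum_congr rfl fun d _ => ?_
    rw [Pi.mul_apply, Finset.prod_apply]
    rfl
  rw [h]
  exact Subalgebra.sum_mem _ fun d _ => Subalgebra.mul_mem _ (Subalgebra.algebraMap_mem _ _)
    (Subalgebra.prod_mem _ fun k _ => Subalgebra.pow_mem _ (hu k) _)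

/-- The order separates the points which are separated by its (`A`-valued, equivariant)
generators. -/
theorem approxOrder_sep
    (hS : ∀ t t' : T, t ≠ t' → ∃ f ∈ S, (∀ u, f u ∈ A) ∧
      (∀ (s : Γ) (u : T), f (s • u) = s • f u) ∧ f t ≠ f t') (t t' : T) (htt : t ≠ t') :
    ∃ F ∈ approxOrder A ℓ hℓA Γ T S, F t ≠ F t' := by
  obtain ⟨f, hf, hfA, hfΓ, hne⟩ := hS t t' htt
  exact ⟨f, subset_approxOrder hf hfA hfΓ, hne⟩

/-- (Loc) for the order: if `ℓ` is a non-unit of `A` and the generators are `A`-valued with all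
their values congruent modulo the maximal ideal, then the same holds for every element of the
order. -/
theorem approxOrder_loc (hℓm : ℓ ∈ A.nonunits) (hSA : ∀ f ∈ S, ∀ t, f t ∈ A)
    (hS : ∀ f ∈ S, ∀ t t', f t - f t' ∈ A.nonunits)
    {F : T → Ω} (hF : F ∈ approxOrder A ℓ hℓA Γ T S) (t t' : T) : F t - F t' ∈ A.nonunits := by
  have hadj : ∀ Φ ∈ Algebra.adjoin A S, ∀ u u', A.valuation (Φ u - Φ u') < 1 := by
    intro Φ hΦ
    induction hΦ using Algebra.adjoin_induction with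
    | mem x hx => exact fun u u' => A.mem_nonunits_iff.mp (hS x hx u u')
    | algebraMap r =>
      intro u u'
      have h0 : (algebraMap A (T → Ω) r) u - (algebraMap A (T → Ω) r) u' = 0 := by
        rw [Pi.algebraMap_apply, Pi.algebraMap_apply, sub_self]
      rw [h0, map_zero]
      exact zero_lt_one
    | add x y _ _ hx hy =>
      intro u u'
      have h0 : (x + y) u - (x + y) u' = (x u - x u') + (y u - y u') := by
        simp only [Pi.add_apply]; ring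
      rw [h0]
      exact A.valuation.map_add_lt (hx u u') (hy u u')
    | mul x y hxm hym hx hy =>
      intro u u'
      have h0 : (x * y) u - (x * y) u' = x u * (y u - y u') + y u' * (x u - x u') := by
        simp only [Pi.mul_apply]; ring
      rw [h0]
      refine A.valuation.map_add_lt ?_ ?_
      · rw [map_mul]
        exact Right.mul_lt_one_of_le_of_lt
          ((A.valuation_le_one_iff _).mpr (adjoin_val A S hSA hxm u)) (hy u u')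
      · rw [map_mul]
        exact Right.mul_lt_one_of_le_of_lt
          ((A.valuation_le_one_iff _).mpr (adjoin_val A S hSA hym u')) (hx u u')
  obtain ⟨Φ, hΦ, e⟩ := hF.2.2 1
  obtain ⟨a, ha, f⟩ := e t
  obtain ⟨a', ha', f'⟩ := e t'
  rw [A.mem_nonunits_iff]
  have hℓv : A.valuation ℓ < 1 := A.mem_nonunits_iff.mp hℓm
  have h0 : F t - F t' = (Φ t - Φ t') + (ℓ * a + ℓ * (-a')) := by
    rw [pow_one] at f f'
    rw [← f, mul_neg, ← f']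
    ring
  rw [h0]
  refine A.valuation.map_add_lt (hadj Φ hΦ t t') (A.valuation.map_add_lt ?_ ?_)
  · rw [map_mul]
    exact Left.mul_lt_one_of_lt_of_le hℓv ((A.valuation_le_one_iff _).mpr ha)
  · rw [map_mul]
    exact Left.mul_lt_one_of_lt_of_le hℓv ((A.valuation_le_one_iff _).mpr (A.neg_mem _ ha'))

end Approx

section Transfer

variable {Ω : Type*} [Field Ω]

/-- Functions on `T₁ × T₂` which are finite sums of products `a(t₁) * b(t₂)` with `a ∈ H₁` and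
`b ∈ H₂`. -/
def tensorSubring₂ {T₁ T₂ : Type*} (H₁ : Subring (T₁ → Ω)) (H₂ : Subring (T₂ → Ω)) :
    Subring (T₁ × T₂ → Ω) where
  carrier := {Φ | ∃ (ι : Type) (_ : Fintype ι) (a : ι → T₁ → Ω) (b : ι → T₂ → Ω),
    (∀ i, a i ∈ H₁) ∧ (∀ i, b i ∈ H₂) ∧ ∀ p : T₁ × T₂, Φ p = ∑ i, a i p.1 * b i p.2}
  mul_mem' := by
    rintro Φ Ψ ⟨ι₁, _, a₁, b₁, ha₁, hb₁, h₁⟩ ⟨ι₂, _, a₂, b₂, ha₂, hb₂, h₂⟩
    refine ⟨ι₁ × ι₂, inferInstance, fun i => a₁ i.1 * a₂ i.2, fun i => b₁ i.1 * b₂ i.2,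
      fun i => H₁.mul_mem (ha₁ _) (ha₂ _), fun i => H₂.mul_mem (hb₁ _) (hb₂ _), fun p => ?_⟩
    rw [Pi.mul_apply, h₁ p, h₂ p, Finset.sum_mul_sum, Fintype.sum_prod_type]
    refine Finset.sum_congr rfl fun i _ => Finset.sum_congr rfl fun j _ => ?_
    simp only [Pi.mul_apply]
    ring
  one_mem' := ⟨Unit, inferInstance, fun _ => 1, fun _ => 1, fun _ => H₁.one_mem,
    fun _ => H₂.one_mem, fun p => by simp⟩
  add_mem' := by
    rintro Φ Ψ ⟨ι₁, _, a₁, b₁, ha₁, hb₁, h₁⟩ ⟨ι₂, _, a₂, b₂, ha₂, hb₂, h₂⟩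
    refine ⟨ι₁ ⊕ ι₂, inferInstance, Sum.elim a₁ a₂, Sum.elim b₁ b₂, ?_, ?_, fun p => ?_⟩
    · rintro (i | i)
      · exact ha₁ i
      · exact ha₂ i
    · rintro (i | i)
      · exact hb₁ i
      · exact hb₂ i
    · rw [Pi.add_apply, h₁ p, h₂ p, Fintype.sum_sum_type]
      simp
  zero_mem' := ⟨Empty, inferInstance, fun i => i.elim, fun i => i.elim, fun i => i.elim,
    fun i => i.elim, fun p => by simp⟩
  neg_mem' := by
    rintro Φ ⟨ι₁, _, a₁, b₁, ha₁, hb₁, h₁⟩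
    refine ⟨ι₁, inferInstance, fun i => -a₁ i, b₁, fun i => H₁.neg_mem (ha₁ i), hb₁, fun p => ?_⟩
    rw [Pi.neg_apply, h₁ p, ← Finset.sum_neg_distrib]
    refine Finset.sum_congr rfl fun i _ => ?_
    simp

theorem fst_mem_tensorSubring₂ {T₁ T₂ : Type*} (H₁ : Subring (T₁ → Ω)) (H₂ : Subring (T₂ → Ω))
    {a : T₁ → Ω} (ha : a ∈ H₁) : (fun p : T₁ × T₂ => a p.1) ∈ tensorSubring₂ H₁ H₂ :=
  ⟨Unit, inferInstance, fun _ => a, fun _ => 1, fun _ => ha, fun _ => H₂.one_mem,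
    fun p => by simp⟩

theorem snd_mem_tensorSubring₂ {T₁ T₂ : Type*} (H₁ : Subring (T₁ → Ω)) (H₂ : Subring (T₂ → Ω))
    {b : T₂ → Ω} (hb : b ∈ H₂) : (fun p : T₁ × T₂ => b p.2) ∈ tensorSubring₂ H₁ H₂ :=
  ⟨Unit, inferInstance, fun _ => 1, fun _ => b, fun _ => H₁.one_mem, fun _ => hb,
    fun p => by simp⟩

theorem exists_fin_of_mem_tensorSubring₂ {T₁ T₂ : Type*} (H₁ : Subring (T₁ → Ω))
    (H₂ : Subring (T₂ → Ω)) {Φ : T₁ × T₂ → Ω} (hΦ : Φ ∈ tensorSubring₂ H₁ H₂) :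
    ∃ (n : ℕ) (a : Fin n → T₁ → Ω) (b : Fin n → T₂ → Ω), (∀ i, a i ∈ H₁) ∧ (∀ i, b i ∈ H₂) ∧
      ∀ t₁ t₂, Φ (t₁, t₂) = ∑ i, a i t₁ * b i t₂ := by
  obtain ⟨ι, _, a, b, ha, hb, h⟩ := hΦ
  refine ⟨Fintype.card ι, fun i => a ((Fintype.equivFin ι).symm i),
    fun i => b ((Fintype.equivFin ι).symm i), fun i => ha _, fun i => hb _, fun t₁ t₂ => ?_⟩
  rw [h (t₁, t₂)]
  exact (Equiv.sum_comp (Fintype.equivFin ι).symm (fun i => a i t₁ * b i t₂)).symm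

/-- TRANSFER, abstract form.  `H₁`, `H₂` orders (`A`-valued, equivariant, separating; `H₁`
contains the fixed constants of `A`) on the finite `Γ`-sets `T₁`, `T₂`; `μ : T₁ × T₂ → T₃`
equivariant; every generator of the order of `T₃`, composed with `μ`, is congruent modulo every
power of `ℓ` to an element of the `A`-algebra generated by the products `a(t₁) * b(t₂)`.  Then
`F ∘ μ` is a finite sum of products `a(t₁) * b(t₂)`, `a ∈ H₁`, `b ∈ H₂`, for every `F` in the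
order of `T₃`. -/
theorem comp_mem_tensorSubring₂ (A : ValuationSubring Ω) (ℓ : Ω) (hℓ0 : ℓ ≠ 0) (hℓA : ℓ ∈ A)
    (harch : ∀ d ∈ A, d ≠ 0 → ∃ r : ℕ, ℓ ^ r * d⁻¹ ∈ A)
    {Γ : Type*} [Group Γ] [MulSemiringAction Γ Ω]
    (hunr : ∀ x ∈ A, (∀ s : Γ, s • x = x) → x⁻¹ ∉ A → ∃ y ∈ A, x = ℓ * y)
    {T₁ T₂ T₃ : Type*} [Finite T₁] [Finite T₂] [MulAction Γ T₁] [MulAction Γ T₂]
    [MulAction Γ T₃]
    (H₁ : Subring (T₁ → Ω)) (H₂ : Subring (T₂ → Ω))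
    (h₁A : ∀ φ ∈ H₁, ∀ t, φ t ∈ A)
    (h₁Γ : ∀ φ ∈ H₁, ∀ (s : Γ) (t : T₁), φ (s • t) = s • φ t)
    (h₁c : ∀ c ∈ A, (∀ s : Γ, s • c = c) → (fun _ : T₁ => c) ∈ H₁)
    (h₁sep : ∀ t t' : T₁, t ≠ t' → ∃ φ ∈ H₁, φ t ≠ φ t')
    (h₂A : ∀ φ ∈ H₂, ∀ t, φ t ∈ A)
    (h₂Γ : ∀ φ ∈ H₂, ∀ (s : Γ) (t : T₂), φ (s • t) = s • φ t)
    (h₂sep : ∀ t t' : T₂, t ≠ t' → ∃ φ ∈ H₂, φ t ≠ φ t')
    (S₃ : Set (T₃ → Ω)) (μ : T₁ × T₂ → T₃)
    (hμ : ∀ (s : Γ) (p : T₁ × T₂), μ (s • p) = s • μ p)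
    (hgen : ∀ f ∈ S₃, ∀ n : ℕ,
      ∃ φ ∈ Algebra.adjoin A (tensorSubring₂ H₁ H₂ : Set (T₁ × T₂ → Ω)),
        ∀ p, ∃ a ∈ A, f (μ p) - φ p = ℓ ^ n * a)
    {F : T₃ → Ω} (hF : F ∈ approxOrder A ℓ hℓA Γ T₃ S₃) :
    (fun p => F (μ p)) ∈ tensorSubring₂ H₁ H₂ := by
  classical
  have hΛA : ∀ Φ ∈ tensorSubring₂ H₁ H₂, ∀ p, Φ p ∈ A := by
    rintro Φ ⟨ι, _, a, b, ha, hb, h⟩ p
    rw [h p]
    exact A.sum_mem fun i _ => A.mul_mem _ _ (h₁A _ (ha i) _) (h₂A _ (hb i) _)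
  have hΛΓ : ∀ Φ ∈ tensorSubring₂ H₁ H₂, ∀ (s : Γ) (p : T₁ × T₂), Φ (s • p) = s • Φ p := by
    rintro Φ ⟨ι, _, a, b, ha, hb, h⟩ s p
    rw [h p, h (s • p), Finset.smul_sum]
    refine Finset.sum_congr rfl fun i _ => ?_
    rw [Prod.smul_fst, Prod.smul_snd, h₁Γ _ (ha i), h₂Γ _ (hb i), smul_mul']
  have hΛc : ∀ c ∈ A, (∀ s : Γ, s • c = c) → (fun _ : T₁ × T₂ => c) ∈ tensorSubring₂ H₁ H₂ :=
    fun c hc hcΓ => fst_mem_tensorSubring₂ H₁ H₂ (h₁c c hc hcΓ)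
  have hΛsep : ∀ p p' : T₁ × T₂, p ≠ p' → ∃ Φ ∈ tensorSubring₂ H₁ H₂, Φ p ≠ Φ p' := by
    intro p p' hpp
    by_cases h1 : p.1 = p'.1
    · have h2 : p.2 ≠ p'.2 := fun h2 => hpp (Prod.ext h1 h2)
      obtain ⟨φ, hφ, hne⟩ := h₂sep _ _ h2
      exact ⟨_, snd_mem_tensorSubring₂ H₁ H₂ hφ, hne⟩
    · obtain ⟨φ, hφ, hne⟩ := h₁sep _ _ h1
      exact ⟨_, fst_mem_tensorSubring₂ H₁ H₂ hφ, hne⟩
  -- approximation of compositions
  have key : ∀ Φ ∈ Algebra.adjoin A S₃, ∀ n : ℕ,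
      ∃ φ ∈ Algebra.adjoin A (tensorSubring₂ H₁ H₂ : Set (T₁ × T₂ → Ω)),
        ∀ p, ∃ a ∈ A, Φ (μ p) - φ p = ℓ ^ n * a := by
    intro Φ hΦ n
    induction hΦ using Algebra.adjoin_induction with
    | mem f hf => exact hgen f hf n
    | algebraMap r =>
      refine ⟨algebraMap A (T₁ × T₂ → Ω) r, Subalgebra.algebraMap_mem _ r, fun p =>
        ⟨0, A.zero_mem, ?_⟩⟩
      rw [Pi.algebraMap_apply, Pi.algebraMap_apply, sub_self, mul_zero]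
    | add x y _ _ hx hy =>
      obtain ⟨φ₁, hφ₁, e₁⟩ := hx
      obtain ⟨φ₂, hφ₂, e₂⟩ := hy
      refine ⟨φ₁ + φ₂, Subalgebra.add_mem _ hφ₁ hφ₂, fun p => ?_⟩
      obtain ⟨a₁, ha₁, f₁⟩ := e₁ p
      obtain ⟨a₂, ha₂, f₂⟩ := e₂ p
      refine ⟨a₁ + a₂, A.add_mem _ _ ha₁ ha₂, ?_⟩
      rw [Pi.add_apply, Pi.add_apply, mul_add, ← f₁, ← f₂]
      ring
    | mul x y _ _ hx hy =>
      obtain ⟨φ₁, hφ₁, e₁⟩ := hx
      obtain ⟨φ₂, hφ₂, e₂⟩ := hy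
      refine ⟨φ₁ * φ₂, Subalgebra.mul_mem _ hφ₁ hφ₂, fun p => ?_⟩
      obtain ⟨a₁, ha₁, f₁⟩ := e₁ p
      obtain ⟨a₂, ha₂, f₂⟩ := e₂ p
      have hφ₁A : φ₁ p ∈ A := adjoin_val A _ hΛA hφ₁ p
      have hφ₂A : φ₂ p ∈ A := adjoin_val A _ hΛA hφ₂ p
      refine ⟨a₁ * (φ₂ p + ℓ ^ n * a₂) + φ₁ p * a₂, A.add_mem _ _ (A.mul_mem _ _ ha₁
        (A.add_mem _ _ hφ₂A (A.mul_mem _ _ (pow_mem hℓA n) ha₂))) (A.mul_mem _ _ hφ₁A ha₂), ?_⟩
      have g₁ : x (μ p) = φ₁ p + ℓ ^ n * a₁ := by rw [← f₁]; ring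
      have g₂ : y (μ p) = φ₂ p + ℓ ^ n * a₂ := by rw [← f₂]; ring
      rw [Pi.mul_apply, Pi.mul_apply, g₁, g₂]
      ring
  obtain ⟨-, hFΓ, hFn⟩ := hF
  refine mem_of_approx_adjoin A ℓ hℓ0 hℓA harch hunr (tensorSubring₂ H₁ H₂) hΛA hΛΓ hΛc hΛsep _
    (fun s p => ?_) (fun n => ?_)
  · rw [hμ, hFΓ]
  · obtain ⟨Φ, hΦ, e⟩ := hFn n
    obtain ⟨φ, hφ, e'⟩ := key Φ hΦ n
    refine ⟨φ, hφ, fun p => ?_⟩
    obtain ⟨a, ha, f⟩ := e (μ p)
    obtain ⟨a', ha', f'⟩ := e' p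
    exact ⟨a + a', A.add_mem _ _ ha ha', by rw [mul_add, ← f, ← f']; ring⟩

end Transfer

section Coord

variable {Ω : Type*} [Field Ω]

/-- The coordinate functions `t ↦ X (κ e t) i` of a family `κ` of maps of `T` into `J`. -/
def coordGens {J : Type*} {g : ℕ} (X : J → Fin g → Ω) {E T : Type*} (κ : E → T → J) :
    Set (T → Ω) :=
  {f | ∃ (e : E) (i : Fin g), f = fun t => X (κ e t) i}

theorem mem_coordGens {J : Type*} {g : ℕ} (X : J → Fin g → Ω) {E T : Type*} (κ : E → T → J)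
    (e : E) (i : Fin g) : (fun t => X (κ e t) i) ∈ coordGens X κ :=
  ⟨e, i, rfl⟩

variable {A : ValuationSubring Ω} {ℓ : Ω} {hℓA : ℓ ∈ A}
variable {Γ : Type*} [Group Γ] [MulSemiringAction Γ Ω]
variable {J : Type*} [AddCommGroup J] [DistribMulAction Γ J] {J1 : AddSubgroup J}
variable {g : ℕ} {X : J → Fin g → Ω}
variable {E T : Type*} [MulAction Γ T] {κ : E → T → J}

/-- The coordinate functions are `A`-valued. -/
theorem coordGens_val (hXval : ∀ x ∈ J1, ∀ i, X x i ∈ A) (hκ : ∀ e t, κ e t ∈ J1) :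
    ∀ f ∈ coordGens X κ, ∀ t, f t ∈ A := by
  rintro f ⟨e, i, rfl⟩ t
  exact hXval _ (hκ e t) i

/-- The coordinate functions are equivariant. -/
theorem coordGens_eqv (hXeq : ∀ (s : Γ), ∀ x ∈ J1, ∀ i, X (s • x) i = s • X x i)
    (hκ : ∀ e t, κ e t ∈ J1) (hκΓ : ∀ e (s : Γ) t, κ e (s • t) = s • κ e t) :
    ∀ f ∈ coordGens X κ, ∀ (s : Γ) (t : T), f (s • t) = s • f t := by
  rintro f ⟨e, i, rfl⟩ s t
  show X (κ e (s • t)) i = s • X (κ e t) i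
  rw [hκΓ, hXeq s _ (hκ e t) i]

/-- The coordinate functions belong to the order they generate. -/
theorem coord_mem_approxOrder (hXval : ∀ x ∈ J1, ∀ i, X x i ∈ A)
    (hXeq : ∀ (s : Γ), ∀ x ∈ J1, ∀ i, X (s • x) i = s • X x i)
    (hκ : ∀ e t, κ e t ∈ J1) (hκΓ : ∀ e (s : Γ) t, κ e (s • t) = s • κ e t) (e : E)
    (i : Fin g) : (fun t => X (κ e t) i) ∈ approxOrder A ℓ hℓA Γ T (coordGens X κ) :=
  subset_approxOrder (mem_coordGens X κ e i)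
    (coordGens_val hXval hκ _ (mem_coordGens X κ e i))
    (coordGens_eqv hXeq hκ hκΓ _ (mem_coordGens X κ e i))

/-- The order of coordinate functions separates the points as soon as one member of the family
is injective. -/
theorem coordOrder_sep (hXval : ∀ x ∈ J1, ∀ i, X x i ∈ A)
    (hXeq : ∀ (s : Γ), ∀ x ∈ J1, ∀ i, X (s • x) i = s • X x i)
    (hXinj : ∀ x ∈ J1, ∀ x' ∈ J1, X x = X x' → x = x')
    (hκ : ∀ e t, κ e t ∈ J1) (hκΓ : ∀ e (s : Γ) t, κ e (s • t) = s • κ e t)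
    (hκinj : ∃ e, Function.Injective (κ e)) (t t' : T) (htt : t ≠ t') :
    ∃ F ∈ approxOrder A ℓ hℓA Γ T (coordGens X κ), F t ≠ F t' := by
  obtain ⟨e, he⟩ := hκinj
  have h1 : X (κ e t) ≠ X (κ e t') := fun h => htt (he (hXinj _ (hκ e t) _ (hκ e t') h))
  obtain ⟨i, hi⟩ := Function.ne_iff.mp h1
  exact ⟨_, coord_mem_approxOrder hXval hXeq hκ hκΓ e i, hi⟩

/-- (Loc) for the order of coordinate functions. -/
theorem coordOrder_loc (hℓm : ℓ ∈ A.nonunits) (hXloc : ∀ x ∈ J1, ∀ i, X x i ∈ A.nonunits)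
    (hκ : ∀ e t, κ e t ∈ J1) {F : T → Ω} (hF : F ∈ approxOrder A ℓ hℓA Γ T (coordGens X κ))
    (t t' : T) : F t - F t' ∈ A.nonunits := by
  refine approxOrder_loc hℓm ?_ ?_ hF t t'
  · rintro f ⟨e, i, rfl⟩ u
    exact ((A.valuation_le_one_iff _).mp
      (le_of_lt (A.mem_nonunits_iff.mp (hXloc _ (hκ e u) i))))
  · rintro f ⟨e, i, rfl⟩ u u'
    rw [A.mem_nonunits_iff, sub_eq_add_neg]
    refine A.valuation.map_add_lt (A.mem_nonunits_iff.mp (hXloc _ (hκ e u) i)) ?_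
    rw [Valuation.map_neg]
    exact A.mem_nonunits_iff.mp (hXloc _ (hκ e u') i)

/-- TRANSFER for orders of coordinate functions.  `X` an `A`-valued, `Γ`-equivariant, injective
coordinate system on the subgroup `J1 ≤ J` whose addition law is, on every finite subset of `J1`
and modulo every power of `ℓ`, polynomial with coefficients in `A`.  `T₁`, `T₂` finite `Γ`-sets
with families `κ₁`, `κ₂` of equivariant maps into `J1` (one member of each family injective),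
`T₃` a `Γ`-set with a family `κ₃`, and `μ : T₁ × T₂ → T₃` an equivariant map such that every
`κ₃ e₃ (μ (t₁, t₂))` is a sum `κ₁ e₁ t₁ + κ₂ e₂ t₂`.  Then for every `F` in the order of `T₃` the
function `F (μ (t₁, t₂))` is a finite sum of products `a(t₁) * b(t₂)` with `a`, `b` in the
orders of `T₁`, `T₂`. -/
theorem coordOrder_transfer (A : ValuationSubring Ω) (ℓ : Ω) (hℓ0 : ℓ ≠ 0) (hℓA : ℓ ∈ A)
    (harch : ∀ d ∈ A, d ≠ 0 → ∃ r : ℕ, ℓ ^ r * d⁻¹ ∈ A)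
    {Γ : Type*} [Group Γ] [MulSemiringAction Γ Ω]
    (hunr : ∀ x ∈ A, (∀ s : Γ, s • x = x) → x⁻¹ ∉ A → ∃ y ∈ A, x = ℓ * y)
    {J : Type*} [AddCommGroup J] [DistribMulAction Γ J] (J1 : AddSubgroup J)
    {g : ℕ} (X : J → Fin g → Ω)
    (hXval : ∀ x ∈ J1, ∀ i, X x i ∈ A)
    (hXeq : ∀ (s : Γ), ∀ x ∈ J1, ∀ i, X (s • x) i = s • X x i)
    (hXinj : ∀ x ∈ J1, ∀ x' ∈ J1, X x = X x' → x = x')
    (hlaw : ∀ (n : ℕ) (T : Finset J), (∀ x ∈ T, x ∈ J1) →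
      ∃ P : Fin g → MvPolynomial (Fin g ⊕ Fin g) Ω, (∀ i d, (P i).coeff d ∈ A) ∧
        ∀ x ∈ T, ∀ y ∈ T, ∀ i, ∃ w ∈ A,
          X (x + y) i - MvPolynomial.eval (Sum.elim (X x) (X y)) (P i) = ℓ ^ n * w)
    {T₁ T₂ T₃ : Type*} [Finite T₁] [Finite T₂] [MulAction Γ T₁] [MulAction Γ T₂]
    [MulAction Γ T₃]
    {E₁ E₂ E₃ : Type*} (κ₁ : E₁ → T₁ → J) (κ₂ : E₂ → T₂ → J) (κ₃ : E₃ → T₃ → J)
    (hκ₁ : ∀ e t, κ₁ e t ∈ J1) (hκ₁Γ : ∀ e (s : Γ) t, κ₁ e (s • t) = s • κ₁ e t)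
    (hκ₁inj : ∃ e, Function.Injective (κ₁ e))
    (hκ₂ : ∀ e t, κ₂ e t ∈ J1) (hκ₂Γ : ∀ e (s : Γ) t, κ₂ e (s • t) = s • κ₂ e t)
    (hκ₂inj : ∃ e, Function.Injective (κ₂ e))
    (μ : T₁ × T₂ → T₃) (hμ : ∀ (s : Γ) (p : T₁ × T₂), μ (s • p) = s • μ p)
    (hadd : ∀ e₃, ∃ e₁ e₂, ∀ t₁ t₂, κ₃ e₃ (μ (t₁, t₂)) = κ₁ e₁ t₁ + κ₂ e₂ t₂)
    {F : T₃ → Ω} (hF : F ∈ approxOrder A ℓ hℓA Γ T₃ (coordGens X κ₃)) :
    ∃ (n : ℕ) (a : Fin n → T₁ → Ω) (b : Fin n → T₂ → Ω),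
      (∀ i, a i ∈ approxOrder A ℓ hℓA Γ T₁ (coordGens X κ₁)) ∧
      (∀ i, b i ∈ approxOrder A ℓ hℓA Γ T₂ (coordGens X κ₂)) ∧
      ∀ t₁ t₂, F (μ (t₁, t₂)) = ∑ i, a i t₁ * b i t₂ := by
  classical
  cases nonempty_fintype T₁
  cases nonempty_fintype T₂
  set H₁ := approxOrder A ℓ hℓA Γ T₁ (coordGens X κ₁) with hH₁
  set H₂ := approxOrder A ℓ hℓA Γ T₂ (coordGens X κ₂) with hH₂
  have hmem : (fun p => F (μ p)) ∈ tensorSubring₂ H₁ H₂ := by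
    refine comp_mem_tensorSubring₂ A ℓ hℓ0 hℓA harch hunr H₁ H₂
      (fun φ hφ t => approxOrder_val hφ t) (fun φ hφ s t => approxOrder_eqv hφ s t)
      (fun c hc hcΓ => const_mem_approxOrder hc hcΓ)
      (coordOrder_sep hXval hXeq hXinj hκ₁ hκ₁Γ hκ₁inj)
      (fun φ hφ t => approxOrder_val hφ t) (fun φ hφ s t => approxOrder_eqv hφ s t)
      (coordOrder_sep hXval hXeq hXinj hκ₂ hκ₂Γ hκ₂inj)
      (coordGens X κ₃) μ hμ ?_ hF
    rintro f ⟨e₃, i, rfl⟩ n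
    obtain ⟨e₁, e₂, hsum⟩ := hadd e₃
    obtain ⟨P, hP, hPlaw⟩ := hlaw n
      (Finset.univ.image (κ₁ e₁) ∪ Finset.univ.image (κ₂ e₂)) (by
        intro x hx
        rcases Finset.mem_union.mp hx with h | h
        · obtain ⟨t, -, rfl⟩ := Finset.mem_image.mp h
          exact hκ₁ e₁ t
        · obtain ⟨t, -, rfl⟩ := Finset.mem_image.mp h
          exact hκ₂ e₂ t)
    let u : Fin g ⊕ Fin g → T₁ × T₂ → Ω :=
      Sum.elim (fun j p => X (κ₁ e₁ p.1) j) (fun j p => X (κ₂ e₂ p.2) j)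
    have hu : ∀ k, u k ∈ Algebra.adjoin A (tensorSubring₂ H₁ H₂ : Set (T₁ × T₂ → Ω)) := by
      rintro (j | j)
      · exact Algebra.subset_adjoin (fst_mem_tensorSubring₂ H₁ H₂
          (coord_mem_approxOrder hXval hXeq hκ₁ hκ₁Γ e₁ j))
      · exact Algebra.subset_adjoin (snd_mem_tensorSubring₂ H₁ H₂
          (coord_mem_approxOrder hXval hXeq hκ₂ hκ₂Γ e₂ j))
    refine ⟨_, eval_mem_adjoin A _ u hu (P i) (hP i), fun p => ?_⟩
    obtain ⟨w, hw, hwe⟩ := hPlaw (κ₁ e₁ p.1)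
      (Finset.mem_union_left _ (Finset.mem_image_of_mem _ (Finset.mem_univ _))) (κ₂ e₂ p.2)
      (Finset.mem_union_right _ (Finset.mem_image_of_mem _ (Finset.mem_univ _))) i
    refine ⟨w, hw, ?_⟩
    have h1 : (fun k => u k p) = Sum.elim (X (κ₁ e₁ p.1)) (X (κ₂ e₂ p.2)) := by
      funext k
      rcases k with j | j <;> rfl
    have h2 : κ₃ e₃ (μ p) = κ₁ e₁ p.1 + κ₂ e₂ p.2 := hsum p.1 p.2
    show X (κ₃ e₃ (μ p)) i - MvPolynomial.eval (fun k => u k p) (P i) = ℓ ^ n * w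
    rw [h1, h2]
    exact hwe
  exact exists_fin_of_mem_tensorSubring₂ H₁ H₂ hmem

end Coord

end Fermat.Agent.S15.helper2532
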