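import Mathlib
import Fermat.Agent.S37.helper117_FunctionRigidity

/-!
# S15 / END-SP-HECKE, abstract half (B): the good subgroup is the kernel of a place reduction

Setting of `S37/helper117_FunctionRigidity`: `K ⊆ F`, `k ⊆ Fk` two function fields, `S ⊆ F × Fk`
a submonoid of integral pairs.  In addition a map `r : Place K F → Place k Fk` which *conserves*
`S`: the push-forward of the divisor of `p.1` is the divisor of `p.2` for every `p ∈ S`.

* `mapDomain_eq_zero_of_good` (B1): a good divisor has push-forward zero.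
* `good_of_mapDomain_eq_zero` (B2): a divisor of degree zero with push-forward zero is good,
  given a Riemann bound on `F`, finite-dimensional Riemann–Roch spaces on `Fk`, the normal form
  of principal divisors, surjectivity of the reduction and lifting of linear combinations.
-/

set_option autoImplicit false

noncomputable section

namespace Fermat.Agent.S15.helper2639

open AlgebraicCurve Module
open Fermat.Agent.S37.helper117 (IntegralPairs OneUnit Good)

/-! ### Push-forward of finitely supported integer functions -/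

theorem abs_mapDomain_apply_le {α β : Type*} (r : α → β) (B : α →₀ ℤ) (Q : β) :
    |Finsupp.mapDomain r B Q| ≤ ∑ P ∈ B.support, |B P| := by
  classical
  rw [Finsupp.mapDomain, Finsupp.sum_apply]
  unfold Finsupp.sum
  refine (Finset.abs_sum_le_sum_abs _ _).trans (Finset.sum_le_sum fun P _ => ?_)
  show |(Finsupp.single (r P) (B P)) Q| ≤ |B P|
  rw [Finsupp.single_apply]
  split_ifs
  · exact le_rfl
  · simp

theorem mapDomain_nonneg' {α β : Type*} (r : α → β) {B : α →₀ ℤ} (hB : 0 ≤ B) :
    0 ≤ Finsupp.mapDomain r B := by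
  classical
  intro Q
  rw [Finsupp.mapDomain, Finsupp.sum_apply]
  refine Finset.sum_nonneg fun P _ => ?_
  show 0 ≤ (Finsupp.single (r P) (B P)) Q
  rw [Finsupp.single_apply]
  split_ifs
  · exact hB P
  · exact le_rfl

variable {K F k Fk : Type*} [Field K] [Field F] [Algebra K F] [Field k] [Field Fk] [Algebra k Fk]

/-- The push-forward of an effective divisor has coefficients between `0` and the degree. -/
theorem mapDomain_apply_le_degree (hdeg : ∀ v : Place K F, v.deg = 1) {β : Type*} (r : Place K F → β)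
    {B : Divisor K F} (hB : 0 ≤ B) (Q : β) :
    0 ≤ Finsupp.mapDomain r B Q ∧ Finsupp.mapDomain r B Q ≤ Divisor.degree B := by
  refine ⟨mapDomain_nonneg' r hB Q, ?_⟩
  refine (le_abs_self _).trans ((abs_mapDomain_apply_le r B Q).trans ?_)
  rw [Fermat.Agent.S18.helper981.degree_eq_sum hdeg, Finsupp.sum]
  refine Finset.sum_le_sum fun P _ => ?_
  rw [abs_of_nonneg (hB P)]

/-- `r` conserves the integral pairs: the push-forward of `div p.1` is `div p.2`. -/
def Conserves (S : Submonoid (F × Fk)) (r : Place K F → Place k Fk) : Prop :=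
  ∀ p ∈ S, ∀ D : Divisor K F, (∀ P : Place K F, D P = P.ord p.1) →
    ∀ Q : Place k Fk, Finsupp.mapDomain r D Q = Q.ord p.2

/-- An integer all of whose multiples are bounded is zero. -/
theorem int_eq_zero_of_forall_abs_mul_le {x C : ℤ} (h : ∀ n : ℕ, |(n : ℤ) * x| ≤ C) : x = 0 := by
  by_contra hx
  have hC0 : 0 ≤ C := (abs_nonneg _).trans (h 0)
  have h1 := h (C.toNat + 1)
  rw [abs_mul] at h1
  have h2 : (1 : ℤ) ≤ |x| := Int.one_le_abs hx
  have h3 : ((C.toNat + 1 : ℕ) : ℤ) = C + 1 := by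
    push_cast
    rw [Int.toNat_of_nonneg hC0]
  rw [h3, abs_of_nonneg (by linarith : (0 : ℤ) ≤ C + 1)] at h1
  nlinarith

/-- **(B1)** A good divisor has push-forward zero under a conserving place map. -/
theorem mapDomain_eq_zero_of_good [HasPrincipalDivisors K F]
    (hdeg : ∀ v : Place K F, v.deg = 1)
    {S : Submonoid (F × Fk)} (hS : IntegralPairs K k S)
    {r : Place K F → Place k Fk} (hcons : Conserves S r)
    {E : Divisor K F} (hE : Good K S E) : Finsupp.mapDomain r E = 0 := by
  obtain ⟨C, hC⟩ := hE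
  ext Q
  rw [Finsupp.zero_apply]
  refine int_eq_zero_of_forall_abs_mul_le (C := C) fun n => ?_
  obtain ⟨Bp, Bn, H, ⟨f₁, f₂, ρ, h₁, h₂, rfl⟩, hBp, hBn, hBpC, hBnC, hH⟩ := hC n
  obtain ⟨hf₁, -⟩ := hS.ne_zero _ h₁
  obtain ⟨hf₂, -⟩ := hS.ne_zero _ h₂
  simp only at hf₁ hf₂
  obtain ⟨D₁, hD₁, -⟩ := HasPrincipalDivisors.exists_divisor (K := K) f₁ hf₁
  obtain ⟨D₂, hD₂, -⟩ := HasPrincipalDivisors.exists_divisor (K := K) f₂ hf₂
  have hdiv : n • E = Bp - Bn + D₁ - D₂ := by
    ext v
    simp only [Finsupp.smul_apply, nsmul_eq_mul, Finsupp.sub_apply, Finsupp.add_apply]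
    rw [hH v, hD₁ v, hD₂ v, div_eq_mul_inv, v.ord_mul hf₁ (inv_ne_zero hf₂), v.ord_inv]
    ring
  have h1 : (n : ℤ) * Finsupp.mapDomain r E Q
      = Finsupp.mapDomain r Bp Q - Finsupp.mapDomain r Bn Q := by
    have h0 := congrArg (fun D => (Finsupp.mapDomain.addMonoidHom r D) Q) hdiv
    simp only [map_nsmul, map_sub, map_add, Finsupp.mapDomain.addMonoidHom_apply,
      Finsupp.smul_apply, Finsupp.sub_apply, Finsupp.add_apply, nsmul_eq_mul] at h0
    rw [h0, hcons _ h₁ D₁ hD₁ Q, hcons _ h₂ D₂ hD₂ Q]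
    ring
  obtain ⟨hp0, hpd⟩ := mapDomain_apply_le_degree hdeg r hBp Q
  obtain ⟨hn0, hnd⟩ := mapDomain_apply_le_degree hdeg r hBn Q
  rw [h1, abs_le]
  constructor <;> linarith

/-- A finite family of nonzero functions lies in one Riemann–Roch space of an effective divisor. -/
theorem exists_effective_bound [HasPrincipalDivisors K F] {ι : Type*} [Fintype ι] (x : ι → F)
    (hx : ∀ i, x i ≠ 0) : ∃ D2 : Divisor K F, 0 ≤ D2 ∧ ∀ i, x i ∈ riemannRochSpace D2 := by
  classical
  choose Di hDi using fun i => HasPrincipalDivisors.exists_divisor (K := K) (x i) (hx i)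
  have hnn : ∀ i, (0 : Divisor K F) ≤ (Di i).mapRange (fun z => |z|) abs_zero := by
    intro i v
    simp only [Finsupp.mapRange_apply, Finsupp.coe_zero, Pi.zero_apply]
    positivity
  refine ⟨∑ i, (Di i).mapRange (fun z => |z|) abs_zero, Finset.sum_nonneg fun i _ => hnn i,
    fun i => ?_⟩
  rw [mem_riemannRochSpace_iff]
  intro v
  right
  rw [Finsupp.finsetSum_apply]
  have h1 : (Di i).mapRange (fun z => |z|) abs_zero v ≤
      ∑ j, (Di j).mapRange (fun z => |z|) abs_zero v :=
    Finset.single_le_sum (f := fun j => (Di j).mapRange (fun z => |z|) abs_zero v)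
      (fun j _ => hnn j v) (Finset.mem_univ i)
  rw [Finsupp.mapRange_apply] at h1
  have h2 := neg_abs_le (Di i v)
  rw [← (hDi i).1 v]
  linarith

/-- **(B2)** A divisor of degree zero with push-forward zero is good. -/
theorem good_of_mapDomain_eq_zero [HasPrincipalDivisors K F] [HasPrincipalDivisors k Fk]
    (hdegk : ∀ v : Place k Fk, v.deg = 1)
    {S : Submonoid (F × Fk)} (hS : IntegralPairs K k S)
    {r : Place K F → Place k Fk} (hcons : Conserves S r)
    (hnf : ∀ P ∈ Divisor.principal (K := K) (F := F), ∃ p q : F × Fk, p ∈ S ∧ q ∈ S ∧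
      ∀ v : Place K F, P v = v.ord p.1 - v.ord q.1)
    (hsurj : ∀ w : Fk, w ≠ 0 → ∃ x : F, (x, w) ∈ S)
    (hlin : ∀ {ι : Type} [Fintype ι] (p : ι → F × Fk), (∀ i, p i ∈ S) → ∀ d : ι → k,
      ∑ i, d i • (p i).2 ≠ 0 → ∃ c : ι → K, (∑ i, c i • (p i).1, ∑ i, d i • (p i).2) ∈ S)
    {D0 : Divisor K F} (hRB : Fermat.Agent.S37.helper6267.RiemannBound D0)
    {E : Divisor K F} (hE0 : Divisor.degree E = 0) (hrE : Finsupp.mapDomain r E = 0) :
    Good K S E := by
  classical
  rcases isEmpty_or_nonempty (Place K F) with hemp | ⟨⟨P₀⟩⟩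
  · have : E = 0 := Subsingleton.elim _ _
    rw [this]
    exact Good.zero S
  obtain ⟨D1, hD1, hD01⟩ := Fermat.Agent.S37.helper117.exists_effective_ge D0
  -- the fixed finite-dimensional space on the special fibre
  set D1k : Divisor k Fk := Finsupp.mapDomain r D1 with hD1k
  have hfin : Module.Finite k (riemannRochSpace D1k) :=
    Fermat.Agent.S18.helper981.finite_riemannRochSpace hdegk (r P₀) D1k
  let b := Module.finBasis k (riemannRochSpace D1k)
  have hb : ∀ i, ((b i : riemannRochSpace D1k) : Fk) ≠ 0 := fun i h =>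
    b.ne_zero i (Subtype.ext h)
  choose x hx using fun i => hsurj ((b i : riemannRochSpace D1k) : Fk) (hb i)
  have hx0 : ∀ i, x i ≠ 0 := fun i => (hS.ne_zero _ (hx i)).1
  obtain ⟨D2, hD2, hxD2⟩ := exists_effective_bound (K := K) x hx0
  refine ⟨Divisor.degree D1 + Divisor.degree D2, fun n => ?_⟩
  have hZ : Divisor.degree (n • E) = 0 := by rw [map_nsmul, hE0, smul_zero]
  obtain ⟨P, hP, hPZ⟩ := hRB (n • E) hZ
  have hB : 0 ≤ P + n • E + D1 := le_trans hPZ (add_le_add_right hD01 (P + n • E))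
  have hPdeg : Divisor.degree P = 0 :=
    Fermat.Agent.S37.helper6267.degree_eq_zero_of_mem_principal hP
  obtain ⟨p, q, hp, hq, hpq⟩ := hnf P hP
  obtain ⟨hp1, hp2⟩ := hS.ne_zero p hp
  obtain ⟨hq1, hq2⟩ := hS.ne_zero q hq
  obtain ⟨Dp, hDp, -⟩ := HasPrincipalDivisors.exists_divisor (K := K) p.1 hp1
  obtain ⟨Dq, hDq, -⟩ := HasPrincipalDivisors.exists_divisor (K := K) q.1 hq1
  have hPeq : P = Dp - Dq := by
    ext v
    rw [Finsupp.sub_apply, hpq v, hDp v, hDq v]
  -- the reduction of `p / q` lies in the fixed space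
  have hrB : ∀ Q : Place k Fk, 0 ≤ Q.ord p.2 - Q.ord q.2 + D1k Q := by
    intro Q
    have h0 := mapDomain_nonneg' r hB Q
    have h1 : Finsupp.mapDomain r (P + n • E + D1) Q
        = Q.ord p.2 - Q.ord q.2 + D1k Q := by
      have h2 : Finsupp.mapDomain r (P + n • E + D1)
          = Finsupp.mapDomain r Dp - Finsupp.mapDomain r Dq + n • Finsupp.mapDomain r E
            + Finsupp.mapDomain r D1 := by
        rw [hPeq]
        simp only [← Finsupp.mapDomain.addMonoidHom_apply, map_add, map_sub, map_nsmul]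
      rw [h2, hrE, smul_zero, add_zero, Finsupp.add_apply, Finsupp.sub_apply,
        hcons p hp Dp hDp Q, hcons q hq Dq hDq Q]
    rw [h1] at h0
    exact h0
  set w : Fk := p.2 / q.2 with hw
  have hw0 : w ≠ 0 := div_ne_zero hp2 hq2
  have hwmem : w ∈ riemannRochSpace D1k := by
    rw [mem_riemannRochSpace_iff]
    intro Q
    right
    rw [hw, div_eq_mul_inv, Q.ord_mul hp2 (inv_ne_zero hq2), Q.ord_inv]
    have := hrB Q
    linarith
  -- lift `w` with bounded poles
  have hsum : ∑ i, (b.repr ⟨w, hwmem⟩ i) • ((b i : riemannRochSpace D1k) : Fk) = w := by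
    have h0 := congrArg (Subtype.val) (b.sum_repr ⟨w, hwmem⟩)
    simpa only [Submodule.coe_sum, Submodule.coe_smul] using h0
  obtain ⟨c, hc⟩ := hlin (fun i => (x i, ((b i : riemannRochSpace D1k) : Fk))) hx
    (fun i => b.repr ⟨w, hwmem⟩ i) (by simp only; rw [hsum]; exact hw0)
  simp only at hc
  rw [hsum] at hc
  set X : F := ∑ i, c i • x i with hX
  have hX0 : X ≠ 0 := (hS.ne_zero _ hc).1
  have hXD2 : X ∈ riemannRochSpace D2 :=
    Submodule.sum_mem _ fun i _ => Submodule.smul_mem _ _ (hxD2 i)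
  obtain ⟨DX, hDX, hDXdeg⟩ := HasPrincipalDivisors.exists_divisor (K := K) X hX0
  have hXord : ∀ v : Place K F, 0 ≤ DX v + D2 v := by
    intro v
    rcases (mem_riemannRochSpace_iff.mp hXD2) v with h | h
    · exact absurd h hX0
    · rw [hDX v]; linarith
  -- the one-unit
  have hqX : (q.1 * X, p.2) ∈ S := by
    have h0 : q * (X, w) ∈ S := S.mul_mem hq hc
    have h1 : q * (X, w) = (q.1 * X, p.2) := by
      refine Prod.ext rfl ?_
      show q.2 * w = p.2
      rw [hw]
      field_simp
    rwa [h1] at h0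
  have hone : OneUnit S (q.1 * X / p.1) := ⟨q.1 * X, p.1, p.2, hqX, hp, rfl⟩
  refine ⟨P + n • E + D1 + D2, D1 + DX + D2, q.1 * X / p.1, hone, add_nonneg hB hD2, ?_, ?_, ?_,
    fun v => ?_⟩
  · intro v
    have h1 : (0 : ℤ) ≤ D1 v := hD1 v
    have h2 := hXord v
    simp only [Finsupp.coe_zero, Pi.zero_apply, Finsupp.coe_add, Pi.add_apply]
    linarith
  · rw [map_add, map_add, map_add, hPdeg, hZ]
    linarith
  · rw [map_add, map_add, hDXdeg]
    linarith
  · rw [div_eq_mul_inv, v.ord_mul (mul_ne_zero hq1 hX0) (inv_ne_zero hp1), v.ord_inv,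
      v.ord_mul hq1 hX0]
    simp only [Finsupp.add_apply, Finsupp.smul_apply, nsmul_eq_mul]
    rw [hpq v, hDX v]
    ring

end Fermat.Agent.S15.helper2639

end
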