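import Mathlib
import Fermat.Agent.S15.helper2639_GoodKernel
import Fermat.Agent.S37.helper117_FrigCore
import Fermat.Agent.S37.helper5162_HeckeUnfold
import Fermat.Agent.S18.helper4307_PlacesFullC
import Fermat.Agent.S18.helper508_GaussMod
import Fermat.Agent.S18.helper3054_Top

/-!
# S15 / END-SP-HECKE (backup copy, helper2639): halves (B) and (C)

On `F_N = modularFunctionFieldBar N` with the integral pairs `intPairs A N` of the S37 T-FRIG
chain and `r = placeReductionModL h`:

* `mapDomain_placeReductionModL_eq_zero_of_good` (B1): a good divisor reduces to zero;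
* `good_of_mapDomain_placeReductionModL_eq_zero` (B2): a divisor of degree zero which reduces to
  zero is good;
* `good_iff_mapDomain_placeReductionModL_eq_zero` : the two together;
* `exists_good_rep_of_reductionModL_eq_zero` : every class in the kernel of `reductionModL A N`
  is the class of a good divisor, and `reductionModL_mk_eq_zero_of_good` the converse;
* `reductionModL_hecke_of_good` (C): if `T_q` preserves the good divisors (half (A)), then
  the kernel of `reductionModL A N` is stable under `heckeOperatorBar N q`.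
-/

set_option autoImplicit false
set_option synthInstance.maxHeartbeats 400000

noncomputable section

namespace Fermat.Agent.S15.helper2639

open ModularCurve AlgebraicCurve HahnSeries
open Fermat.Agent.S18.helper3054 (IntegralFn)
open Fermat.Agent.S37.helper117 (intPairs integralPairs Good OneUnit mk_mem_intPairs)
open Fermat.Agent.S37.helper5162 (heckeAlphaBarIntegral heckeBetaBarIntegral)

local notation "Qb" => AlgebraicClosure ℚ

section Inputs

variable {N : ℕ} {A : ValuationSubring Qb}

/-- The place reduction conserves the integral pairs. -/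
theorem conserves_of_isPlaceReduction
    {r : Place Qb (modularFunctionFieldBar N) →
      Place (IsLocalRing.ResidueField A) (modularFunctionFieldFullC (IsLocalRing.ResidueField A) N)}
    (hr : IsPlaceReductionModL A N r) : Conserves (intPairs A N) r := by
  rintro _ ⟨a, rfl⟩ D hD Q
  exact hr.2 a.y a.mem a.memk a.ne D hD Q

/-- Normal form of principal divisors, from `PrincipalGeneratedByIntegral`. -/
theorem normalForm_of_inputs (h : ReductionInputsModL A N) :
    ∀ P ∈ Divisor.principal (K := Qb) (F := modularFunctionFieldBar N),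
      ∃ p q : ↥(modularFunctionFieldBar N) ×
          ↥(modularFunctionFieldFullC (IsLocalRing.ResidueField A) N),
        p ∈ intPairs A N ∧ q ∈ intPairs A N ∧
          ∀ v : Place Qb (modularFunctionFieldBar N), P v = v.ord p.1 - v.ord q.1 := by
  intro P hP
  obtain ⟨a, b, hab, -⟩ := Fermat.Agent.S18.helper3054.exists_integralFn_of_mem_closure
    (isPlaceReductionModL_placeReductionModL h) (h.choose_spec.2 hP)
  exact ⟨(a.gen, a.red), (b.gen, b.red), mk_mem_intPairs a, mk_mem_intPairs b, hab⟩

end Inputs

section Lift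

variable (N : ℕ) [NeZero N] {ℓ : ℕ} (hℓ : ℓ.Prime) (hℓN : ¬ ℓ ∣ N) (A : ValuationSubring Qb)
  (hA : A.LiesOverPrime ℓ)

include hℓ hℓN hA in
/-- Every nonzero function on the special fibre is the reduction of an integral function. -/
theorem exists_mem_intPairs_of_ne_zero
    (w : modularFunctionFieldFullC (IsLocalRing.ResidueField A) N) (hw : w ≠ 0) :
    ∃ x : modularFunctionFieldBar N, (x, w) ∈ intPairs A N := by
  haveI : Fact ℓ.Prime := ⟨hℓ⟩
  obtain ⟨y, hy, hyw⟩ := Fermat.Agent.S18.helper508.exists_coeffMap_residue_eq N ℓ hℓN A hA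
    (w : LaurentSeries (IsLocalRing.ResidueField A)) w.2
  let a : IntegralFn A N := ⟨y, hy, by rw [hyw]; exact w.2,
    by rw [hyw]; exact fun h => hw (Subtype.ext h)⟩
  exact ⟨a.gen, a, Prod.ext rfl (Subtype.ext hyw.symm)⟩

omit [NeZero N] in
/-- A linear combination of reductions of integral functions which is nonzero is the reduction
of a linear combination of the integral functions. -/
theorem lin_intPairs {ι : Type} [Fintype ι]
    (p : ι → ↥(modularFunctionFieldBar N) ×
      ↥(modularFunctionFieldFullC (IsLocalRing.ResidueField A) N))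
    (hp : ∀ i, p i ∈ intPairs A N) (d : ι → IsLocalRing.ResidueField A)
    (hd : ∑ i, d i • (p i).2 ≠ 0) :
    ∃ c : ι → Qb, (∑ i, c i • (p i).1, ∑ i, d i • (p i).2) ∈ intPairs A N := by
  classical
  choose a ha using hp
  have h1 : ∀ i, (p i).1 = (a i).gen := fun i => by rw [ha i]
  have h2 : ∀ i, (p i).2 = (a i).red := fun i => by rw [ha i]
  simp_rw [h2] at hd
  simp_rw [h1, h2]
  choose c' hc' using fun i => IsLocalRing.residue_surjective (d i)
  let y : LaurentSeries A := ∑ i, c' i • (a i).y
  have hgen : coeffMap A.subtype y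
      = ((∑ i, (c' i : Qb) • (a i).gen : modularFunctionFieldBar N) : LaurentSeries Qb) := by
    ext n
    rw [Fermat.Agent.S37.helper117.coeff_sum_smul_coe, coeffMap_coeff]
    simp only [y, HahnSeries.coeff_sum, HahnSeries.coeff_smul, map_sum, smul_eq_mul, map_mul]
    rfl
  have hred : coeffMap (IsLocalRing.residue A) y
      = ((∑ i, d i • (a i).red :
          modularFunctionFieldFullC (IsLocalRing.ResidueField A) N) :
            LaurentSeries (IsLocalRing.ResidueField A)) := by
    ext n
    rw [Fermat.Agent.S37.helper117.coeff_sum_smul_coe, coeffMap_coeff]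
    simp only [y, HahnSeries.coeff_sum, HahnSeries.coeff_smul, map_sum, smul_eq_mul, map_mul,
      hc']
    rfl
  have hmem : coeffMap A.subtype y ∈ modularFunctionFieldBar N := by
    rw [hgen]; exact SetLike.coe_mem _
  have hmemk : coeffMap (IsLocalRing.residue A) y ∈
      modularFunctionFieldFullC (IsLocalRing.ResidueField A) N := by
    rw [hred]; exact SetLike.coe_mem _
  have hne : coeffMap (IsLocalRing.residue A) y ≠ 0 := by
    rw [hred]
    exact fun h => hd (Subtype.ext h)
  refine ⟨fun i => (c' i : Qb), ⟨⟨y, hmem, hmemk, hne⟩, Prod.ext ?_ ?_⟩⟩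
  · exact Subtype.ext hgen.symm
  · exact Subtype.ext hred.symm

end Lift

/-! ### (B): the good divisors are the kernel of the place reduction -/

section B

variable (N : ℕ) [NeZero N] (A : ValuationSubring Qb)

/-- **(B1)** A good divisor reduces to zero. -/
theorem mapDomain_placeReductionModL_eq_zero_of_good (h : ReductionInputsModL A N)
    {E : Divisor Qb (modularFunctionFieldBar N)} (hE : Good Qb (intPairs A N) E) :
    Finsupp.mapDomain (placeReductionModL h) E = 0 :=
  mapDomain_eq_zero_of_good (fun P => Fermat.Agent.S37.helper5162.place_deg_eq_one N P)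
    (integralPairs A N) (conserves_of_isPlaceReduction (isPlaceReductionModL_placeReductionModL h))
    hE

/-- **(B2)** A divisor of degree zero which reduces to zero is good. -/
theorem good_of_mapDomain_placeReductionModL_eq_zero {ℓ : ℕ} (hℓ : ℓ.Prime) (hℓN : ¬ ℓ ∣ N)
    (hA : A.LiesOverPrime ℓ) (h : ReductionInputsModL A N)
    {E : Divisor Qb (modularFunctionFieldBar N)} (hE0 : Divisor.degree E = 0)
    (hrE : Finsupp.mapDomain (placeReductionModL h) E = 0) : Good Qb (intPairs A N) E := by
  haveI := Fermat.Agent.S18.helper4307.hasPrincipalDivisors_residue N hℓ hℓN A hA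
  obtain ⟨D0, hD0⟩ := Fermat.Agent.S37.helper6267.exists_riemannBound_FN N
  exact good_of_mapDomain_eq_zero
    (Fermat.Agent.S18.helper4307.place_deg_eq_one_residue N hℓ hℓN A hA) (integralPairs A N)
    (conserves_of_isPlaceReduction (isPlaceReductionModL_placeReductionModL h))
    (normalForm_of_inputs h) (exists_mem_intPairs_of_ne_zero N hℓ hℓN A hA)
    (fun p hp d hd => lin_intPairs N A p hp d hd) hD0 hE0 hrE

/-- **(B)** On divisors of degree zero: good `↔` reduction zero. -/
theorem good_iff_mapDomain_placeReductionModL_eq_zero {ℓ : ℕ} (hℓ : ℓ.Prime) (hℓN : ¬ ℓ ∣ N)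
    (hA : A.LiesOverPrime ℓ) (h : ReductionInputsModL A N)
    {E : Divisor Qb (modularFunctionFieldBar N)} (hE0 : Divisor.degree E = 0) :
    Good Qb (intPairs A N) E ↔ Finsupp.mapDomain (placeReductionModL h) E = 0 :=
  ⟨mapDomain_placeReductionModL_eq_zero_of_good N A h,
    good_of_mapDomain_placeReductionModL_eq_zero N A hℓ hℓN hA h hE0⟩

/-- The class of a good divisor of degree zero is in the kernel of `reductionModL`. -/
theorem reductionModL_mk_eq_zero_of_good (h : ReductionInputsModL A N)
    (D : Divisor.degZero (K := Qb) (F := modularFunctionFieldBar N))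
    (hD : Good Qb (intPairs A N) (D : Divisor Qb (modularFunctionFieldBar N))) :
    reductionModL A N (Pic0.mk D) = 0 := by
  rw [reductionModL_mk h]
  have h0 : reductionDegZeroAlong (placeReductionModL h)
      (isPlaceReductionModL_placeReductionModL h).1 D = 0 :=
    Subtype.ext (by
      rw [coe_reductionDegZeroAlong]
      exact mapDomain_placeReductionModL_eq_zero_of_good N A h hD)
  rw [h0]
  rfl

/-- Every class in the kernel of `reductionModL` is the class of a good divisor. -/
theorem exists_good_rep_of_reductionModL_eq_zero {ℓ : ℕ} (hℓ : ℓ.Prime) (hℓN : ¬ ℓ ∣ N)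
    (hA : A.LiesOverPrime ℓ) (h : ReductionInputsModL A N) (z : JZero N)
    (hz : reductionModL A N z = 0) :
    ∃ D : Divisor.degZero (K := Qb) (F := modularFunctionFieldBar N),
      Good Qb (intPairs A N) (D : Divisor Qb (modularFunctionFieldBar N)) ∧ z = Pic0.mk D := by
  obtain ⟨⟨E, hE⟩, rfl⟩ := Pic0.mk_surjective z
  rw [reductionModL_mk h] at hz
  have hprin : Finsupp.mapDomain (placeReductionModL h) E ∈
      Divisor.principal (K := IsLocalRing.ResidueField A)
        (F := modularFunctionFieldFullC (IsLocalRing.ResidueField A) N) := by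
    have h0 := (QuotientAddGroup.eq_zero_iff _).mp hz
    rw [AddSubgroup.mem_addSubgroupOf] at h0
    exact h0
  obtain ⟨w, hw0, hw⟩ := hprin
  obtain ⟨x, hx⟩ := exists_mem_intPairs_of_ne_zero N hℓ hℓN A hA w hw0
  have hx0 : x ≠ 0 := ((integralPairs A N).ne_zero _ hx).1
  obtain ⟨Dx, hDx, hDxdeg⟩ := HasPrincipalDivisors.exists_divisor (K := Qb) x hx0
  have hE'0 : Divisor.degree (E - Dx) = 0 := by
    rw [map_sub, hDxdeg, sub_zero]
    exact hE
  have hrE' : Finsupp.mapDomain (placeReductionModL h) (E - Dx) = 0 := by
    ext Q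
    rw [Finsupp.mapDomain_sub, Finsupp.sub_apply, hw Q,
      conserves_of_isPlaceReduction (isPlaceReductionModL_placeReductionModL h) _ hx Dx hDx Q]
    simp
  refine ⟨⟨E - Dx, hE'0⟩,
    good_of_mapDomain_placeReductionModL_eq_zero N A hℓ hℓN hA h hE'0 hrE', ?_⟩
  refine (QuotientAddGroup.eq_iff_sub_mem).mpr ?_
  rw [AddSubgroup.mem_addSubgroupOf]
  have h1 : (((⟨E, hE⟩ : Divisor.degZero (K := Qb) (F := modularFunctionFieldBar N))
      - ⟨E - Dx, hE'0⟩ : Divisor.degZero (K := Qb) (F := modularFunctionFieldBar N)) :
        Divisor Qb (modularFunctionFieldBar N)) = Dx := by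
    rw [AddSubgroupClass.coe_sub]
    simp
  rw [h1]
  exact ⟨x, hx0, hDx⟩

end B

/-! ### (C): Hecke stability of the kernel, given half (A) -/

/-- **(C)** If `T_q` preserves the good divisors, the kernel of `reductionModL A N` is stable
under `heckeOperatorBar N q`. -/
theorem reductionModL_hecke_of_good (N : ℕ) [NeZero N] {ℓ q : ℕ} [NeZero q] (hℓ : ℓ.Prime)
    (hℓN : ¬ ℓ ∣ N) (hq : q.Prime) (A : ValuationSubring Qb) (hA : A.LiesOverPrime ℓ)
    (h : ReductionInputsModL A N)
    (hgood : ∀ E : Divisor Qb (modularFunctionFieldBar N), Good Qb (intPairs A N) E →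
      Good Qb (intPairs A N)
        (heckeDivBar (heckeAlphaBarIntegral N q) (heckeBetaBarIntegral N q) E))
    (z : JZero N) (hz : reductionModL A N z = 0) :
    reductionModL A N (heckeOperatorBar N ⟨q, hq⟩ z) = 0 := by
  obtain ⟨D, hD, rfl⟩ := exists_good_rep_of_reductionModL_eq_zero N A hℓ hℓN hA h z hz
  rw [Fermat.Agent.S37.helper5162.heckeOperatorBar_mk]
  exact reductionModL_mk_eq_zero_of_good N A h _ (hgood _ hD)

end Fermat.Agent.S15.helper2639

end
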