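import Mathlib
import Fermat.Agent.S15.helper2639_RedHecke
import Fermat.Agent.S37.helper3298_FrigHalves
import Fermat.Agent.S37.helper6826_KroneckerNorm
import Fermat.Agent.S37.helper6807_Frig

/-!
# S15 / END-SP-HECKE (spare copy of half (A), helper2639): `T_q` preserves the good divisors

* `heckeNormSeries_mul`, `heckeNormSeries_one`, `heckeNormSeries_ne_zero` : the norm series
  `helper6826.heckeNorm q` (defined over every commutative ring, compatible with base change) is
  multiplicative, hence nonzero on nonzero Laurent series over a field;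
* `exists_integralFn_heckeNorm` : for an integral function `a` of level `N` and a prime `q`
  coprime to `N`, the function `ν a = Norm_α (β a)` (with `T_q (div a) = div (ν a)`) is an integral
  function whose reduction `heckeNorm q ā` depends only on the reduction of `a`;
* `good_heckeDivBar` (A): `T_q` maps good divisors to good divisors;
* `reductionModL_hecke` : the kernel of `reductionModL A N` is stable under
  `heckeOperatorBar N q`, `q` prime coprime to `N` (`q` = residue characteristic allowed).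
-/

set_option autoImplicit false
set_option synthInstance.maxHeartbeats 400000

noncomputable section

namespace Fermat.Agent.S15.helper2639

open ModularCurve AlgebraicCurve HahnSeries
open Fermat.Agent.S18.helper3054 (IntegralFn)
open Fermat.Agent.S37.helper117 (intPairs integralPairs Good OneUnit mk_mem_intPairs)
open Fermat.Agent.S37.helper5162 (heckeAlphaBarIntegral heckeBetaBarIntegral)
open Fermat.Agent.S28.helper2082 (secMat secMat_mul secMat_one)

local notation "Qb" => AlgebraicClosure ℚ

/-! ### The norm series is multiplicative -/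

section Series

variable {R : Type*} [CommRing R] (q : ℕ) [NeZero q]

theorem heckeNormSeries_mul (f g : LaurentSeries R) :
    Fermat.Agent.S37.helper6826.heckeNorm q (f * g) =
      Fermat.Agent.S37.helper6826.heckeNorm q f * Fermat.Agent.S37.helper6826.heckeNorm q g := by
  unfold Fermat.Agent.S37.helper6826.heckeNorm
  rw [map_mul, secMat_mul, Matrix.det_mul]
  ring

theorem heckeNormSeries_one :
    Fermat.Agent.S37.helper6826.heckeNorm q (1 : LaurentSeries R) = 1 := by
  unfold Fermat.Agent.S37.helper6826.heckeNorm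
  rw [map_one, secMat_one, Matrix.det_one, one_mul]

theorem heckeNormSeries_ne_zero {k : Type*} [Field k] {f : LaurentSeries k} (hf : f ≠ 0) :
    Fermat.Agent.S37.helper6826.heckeNorm q f ≠ 0 := by
  intro h0
  have h1 := heckeNormSeries_mul q f f⁻¹
  rw [mul_inv_cancel₀ hf, heckeNormSeries_one, h0, zero_mul] at h1
  exact one_ne_zero h1

end Series

/-! ### The norm `ν a` of an integral function -/

/-- For an integral function `a` and a prime `q` coprime to the level, `ν a = Norm_α (β a)` is an
integral function, with reduction the norm series of the reduction of `a`. -/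
theorem exists_integralFn_heckeNorm (N q : ℕ) [NeZero N] [NeZero q] (hq : q.Prime)
    (hqN : Nat.Coprime q N) {ℓ : ℕ} (hℓ : ℓ.Prime) (hℓN : ¬ ℓ ∣ N) (A : ValuationSubring Qb)
    (hA : A.LiesOverPrime ℓ) (a : IntegralFn A N) :
    ∃ X : IntegralFn A N, X.gen = Fermat.Agent.S37.helper3298.heckeNorm N q a.gen ∧
      (X.red : LaurentSeries (IsLocalRing.ResidueField A)) =
        Fermat.Agent.S37.helper6826.heckeNorm q
          (a.red : LaurentSeries (IsLocalRing.ResidueField A)) := by
  haveI : Fact ℓ.Prime := ⟨hℓ⟩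
  have hz1 : coeffMap A.subtype (Fermat.Agent.S37.helper6826.heckeNorm q a.y)
      = ((Fermat.Agent.S37.helper3298.heckeNorm N q a.gen : modularFunctionFieldBar N) :
          LaurentSeries Qb) := by
    rw [← Fermat.Agent.S37.helper6826.heckeNorm_coeffMap]
    exact (Fermat.Agent.S37.helper6826.norm_beta_over_alpha hq hqN a.gen).symm
  have hmem : coeffMap A.subtype (Fermat.Agent.S37.helper6826.heckeNorm q a.y)
      ∈ modularFunctionFieldBar N := by
    rw [hz1]; exact SetLike.coe_mem _
  have hz2 : coeffMap (IsLocalRing.residue A) (Fermat.Agent.S37.helper6826.heckeNorm q a.y)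
      = Fermat.Agent.S37.helper6826.heckeNorm q
          (a.red : LaurentSeries (IsLocalRing.ResidueField A)) := by
    rw [← Fermat.Agent.S37.helper6826.heckeNorm_coeffMap]
    rfl
  have hne : coeffMap (IsLocalRing.residue A) (Fermat.Agent.S37.helper6826.heckeNorm q a.y)
      ≠ 0 := by
    rw [hz2]
    exact heckeNormSeries_ne_zero q a.ne
  exact ⟨⟨Fermat.Agent.S37.helper6826.heckeNorm q a.y, hmem,
    Fermat.Agent.S18.helper508.coeffMap_residue_mem_fullC N ℓ hℓN A hA _ hmem, hne⟩,
    Subtype.ext hz1, hz2⟩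

/-! ### (A): `T_q` preserves the good divisors -/

/-- **(A)** `T_q = α_* β^*` maps good divisors to good divisors (`q` prime, coprime to `N`;
`q = ℓ` allowed). -/
theorem good_heckeDivBar (N q : ℕ) [NeZero N] [NeZero q] (hq : q.Prime) (hqN : Nat.Coprime q N)
    {ℓ : ℕ} (hℓ : ℓ.Prime) (hℓN : ¬ ℓ ∣ N) (A : ValuationSubring Qb) (hA : A.LiesOverPrime ℓ)
    {E : Divisor Qb (modularFunctionFieldBar N)} (hE : Good Qb (intPairs A N) E) :
    Good Qb (intPairs A N)
      (heckeDivBar (heckeAlphaBarIntegral N q) (heckeBetaBarIntegral N q) E) := by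
  obtain ⟨C, hC⟩ := hE
  refine ⟨(finrankAlong Qb (heckeBetaBar Qb N q) : ℤ) * C, fun n => ?_⟩
  obtain ⟨Bp, Bn, H, ⟨f₁, f₂, ρ, ⟨a, ha⟩, ⟨b, hb⟩, rfl⟩, hBp, hBn, hBpC, hBnC, hH⟩ := hC n
  obtain ⟨hf₁, hρa⟩ := Prod.ext_iff.mp ha
  obtain ⟨hf₂, hρb⟩ := Prod.ext_iff.mp hb
  simp only at hf₁ hρa hf₂ hρb
  subst hf₁ hf₂
  obtain ⟨Xa, hXa1, hXa2⟩ := exists_integralFn_heckeNorm N q hq hqN hℓ hℓN A hA a
  obtain ⟨Xb, hXb1, hXb2⟩ := exists_integralFn_heckeNorm N q hq hqN hℓ hℓN A hA b
  have hred : Xa.red = Xb.red := Subtype.ext (by rw [hXa2, hXb2, ← hρa, ← hρb])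
  obtain ⟨D₁, hD₁, -⟩ := HasPrincipalDivisors.exists_divisor (K := Qb) a.gen a.gen_ne_zero
  obtain ⟨D₂, hD₂, -⟩ := HasPrincipalDivisors.exists_divisor (K := Qb) b.gen b.gen_ne_zero
  have hdiv : n • E = Bp - Bn + D₁ - D₂ := by
    ext v
    simp only [Finsupp.smul_apply, nsmul_eq_mul, Finsupp.sub_apply, Finsupp.add_apply]
    rw [hH v, hD₁ v, hD₂ v, div_eq_mul_inv, v.ord_mul a.gen_ne_zero (inv_ne_zero b.gen_ne_zero),
      v.ord_inv]
    ring
  have hT1 := Fermat.Agent.S37.helper3298.isDivOf_heckeDivBar N q (D := D₁) (f := a.gen) hD₁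
    a.gen_ne_zero
  have hT2 := Fermat.Agent.S37.helper3298.isDivOf_heckeDivBar N q (D := D₂) (f := b.gen) hD₂
    b.gen_ne_zero
  have hc0 : (0 : ℤ) ≤ (finrankAlong Qb (heckeBetaBar Qb N q) : ℤ) := Int.natCast_nonneg _
  refine ⟨heckeDivBar (heckeAlphaBarIntegral N q) (heckeBetaBarIntegral N q) Bp,
    heckeDivBar (heckeAlphaBarIntegral N q) (heckeBetaBarIntegral N q) Bn,
    Xa.gen / Xb.gen, ⟨Xa.gen, Xb.gen, Xa.red, mk_mem_intPairs Xa, by
      rw [hred]; exact mk_mem_intPairs Xb, rfl⟩,
    Fermat.Agent.S37.helper6807.heckeDivBar_nonneg q _ _ hBp,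
    Fermat.Agent.S37.helper6807.heckeDivBar_nonneg q _ _ hBn, ?_, ?_, fun v => ?_⟩
  · rw [Fermat.Agent.S37.helper5162.degree_heckeDivBar]
    exact mul_le_mul_of_nonneg_left hBpC hc0
  · rw [Fermat.Agent.S37.helper5162.degree_heckeDivBar]
    exact mul_le_mul_of_nonneg_left hBnC hc0
  · have h0 := congrArg
      (fun D => heckeDivBar (heckeAlphaBarIntegral N q) (heckeBetaBarIntegral N q) D v) hdiv
    simp only [map_nsmul, map_sub, map_add, Finsupp.smul_apply, Finsupp.sub_apply,
      Finsupp.add_apply, nsmul_eq_mul] at h0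
    rw [h0, hT1 v, hT2 v, ← hXa1, ← hXb1, div_eq_mul_inv,
      v.ord_mul Xa.gen_ne_zero (inv_ne_zero Xb.gen_ne_zero), v.ord_inv]
    ring

/-! ### The leaf END-SP-HECKE -/

/-- **END-SP-HECKE.**  The kernel of the reduction `reductionModL A N` (`A` over a prime
`l ∤ N`) is stable under the Hecke operator `T_q`, for every prime `q` coprime to `N`. -/
theorem reductionModL_hecke (N : ℕ) [NeZero N] {l q : ℕ} (hl : l.Prime) (hlN : ¬ l ∣ N)
    (hq : q.Prime) (hqN : q.Coprime N) (A : ValuationSubring (AlgebraicClosure ℚ))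
    (hA : A.LiesOverPrime l) (h : ModularCurve.ReductionInputsModL A N)
    (z : ModularCurve.JZero N) (hz : ModularCurve.reductionModL A N z = 0) :
    ModularCurve.reductionModL A N (ModularCurve.heckeOperatorBar N ⟨q, hq⟩ z) = 0 := by
  haveI : NeZero q := ⟨hq.ne_zero⟩
  exact reductionModL_hecke_of_good N hl hlN hq A hA h
    (fun E hE => good_heckeDivBar N q hq hqN hl hlN A hA hE) z hz

end Fermat.Agent.S15.helper2639

end
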