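import Mathlib
import Fermat.Agent.S15.helper2639_HeckeGood
import Fermat.Agent.S37.helper1138_Assembly

/-!
# S15 / END-SP-HECKE: consumer shapes of the Hecke stability of the kernel of reduction

* `reductionModL_hecke'` : `reductionModL_hecke` without the hypothesis `ReductionInputsModL`
  (if it fails, the Prelude reduction is `0`);
* `stmt_HeckeKer_prime` : the plain kernel-stability Prop of the S15 top Spec at a prime level
  (`Stmt_HeckeKer p` of `helper505_TopSpec`, body verbatim);
* `reductionModL_heckeClosure` : the same for the ring generated by the `T_q`, `q ∉ S₀ ∪ {p}`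
  (`heckeRing p S₀` of `helper505_TopSpec`, body verbatim), for every `S₀`;
* `heckeOperatorBar_mem_classesOf_good` : the subgroup of classes of good divisors of degree
  zero is `T_q`-stable (no `ReductionInputsModL`);
* `ker_reductionModL_eq_classesOf_good` : that subgroup IS the kernel of `reductionModL A N`.
-/

set_option autoImplicit false
set_option synthInstance.maxHeartbeats 400000

noncomputable section

namespace Fermat.Agent.S15.helper2639

open ModularCurve AlgebraicCurve
open Fermat.Agent.S37.helper117 (intPairs integralPairs Good goodSubgroup)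
open Fermat.Agent.S37.helper1138 (classesOf)

local notation "Qb" => AlgebraicClosure ℚ

/-- `reductionModL_hecke` without `ReductionInputsModL`. -/
theorem reductionModL_hecke' (N : ℕ) [NeZero N] {l q : ℕ} (hl : l.Prime) (hlN : ¬ l ∣ N)
    (hq : q.Prime) (hqN : q.Coprime N) (A : ValuationSubring (AlgebraicClosure ℚ))
    (hA : A.LiesOverPrime l) (z : ModularCurve.JZero N)
    (hz : ModularCurve.reductionModL A N z = 0) :
    ModularCurve.reductionModL A N (ModularCurve.heckeOperatorBar N ⟨q, hq⟩ z) = 0 := by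
  by_cases h : ReductionInputsModL A N
  · exact reductionModL_hecke N hl hlN hq hqN A hA h z hz
  · rw [reductionModL_of_not h]
    rfl

/-- **Kernel stability at a prime level** (the body of `Stmt_HeckeKer p` of the S15 top Spec,
verbatim). -/
theorem stmt_HeckeKer_prime (p : ℕ) [NeZero p] (hp : p.Prime) :
    ∀ ℓ : ℕ, ℓ.Prime → ℓ ≠ p →
      ∀ A : ValuationSubring (AlgebraicClosure ℚ), A.LiesOverPrime ℓ →
        ∀ q : Nat.Primes, (q : ℕ) ≠ p → (q : ℕ) ≠ ℓ →
          ∀ x : JZero p, reductionModL A p x = 0 →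
            reductionModL A p (heckeOperatorBar p q x) = 0 := by
  intro ℓ hℓ hℓp A hA q hqp _ x hx
  exact reductionModL_hecke' p hℓ (fun hd => hℓp ((Nat.prime_dvd_prime_iff_eq hℓ hp).mp hd)) q.2
    ((Nat.coprime_primes q.2 hp).mpr hqp) A hA x hx

/-- **Kernel stability for the Hecke ring** generated by the `T_q`, `q ∉ S₀ ∪ {p}` (the body of
`heckeRing p S₀` of the S15 top Spec, verbatim), for every finite set `S₀`. -/
theorem reductionModL_heckeClosure (p : ℕ) [NeZero p] (hp : p.Prime) {ℓ : ℕ} (hℓ : ℓ.Prime)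
    (hℓp : ℓ ≠ p) (A : ValuationSubring (AlgebraicClosure ℚ)) (hA : A.LiesOverPrime ℓ)
    (S₀ : Finset ℕ) {t : Module.End ℤ (JZero p)}
    (ht : t ∈ Subring.closure {T : Module.End ℤ (JZero p) |
      ∃ q : Nat.Primes, (q : ℕ) ∉ S₀ ∧ (q : ℕ) ≠ p ∧ T = heckeOperatorBar p q}) :
    ∀ x : JZero p, reductionModL A p x = 0 → reductionModL A p (t x) = 0 := by
  induction ht using Subring.closure_induction with
  | mem T hT =>
    obtain ⟨q, -, hqp, rfl⟩ := hT
    intro x hx
    exact reductionModL_hecke' p hℓ (fun hd => hℓp ((Nat.prime_dvd_prime_iff_eq hℓ hp).mp hd))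
      q.2 ((Nat.coprime_primes q.2 hp).mpr hqp) A hA x hx
  | zero => intro x _; rw [LinearMap.zero_apply, map_zero]
  | one => intro x hx; exact hx
  | add T₁ T₂ _ _ h₁ h₂ =>
    intro x hx; rw [LinearMap.add_apply, map_add, h₁ x hx, h₂ x hx, add_zero]
  | neg T _ h => intro x hx; rw [LinearMap.neg_apply, map_neg, h x hx, neg_zero]
  | mul T₁ T₂ _ _ h₁ h₂ => intro x hx; exact h₁ _ (h₂ x hx)

/-- The classes of good divisors of degree zero are stable under `T_q` (no
`ReductionInputsModL`). -/
theorem heckeOperatorBar_mem_classesOf_good (N : ℕ) [NeZero N] {ℓ q : ℕ} (hℓ : ℓ.Prime)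
    (hℓN : ¬ ℓ ∣ N) (hq : q.Prime) (hqN : q.Coprime N) (A : ValuationSubring Qb)
    (hA : A.LiesOverPrime ℓ) {z : JZero N}
    (hz : z ∈ classesOf (goodSubgroup (integralPairs A N))) :
    heckeOperatorBar N ⟨q, hq⟩ z ∈ classesOf (goodSubgroup (integralPairs A N)) := by
  obtain ⟨D, hD, rfl⟩ := hz
  haveI : NeZero q := ⟨hq.ne_zero⟩
  rw [Fermat.Agent.S37.helper5162.heckeOperatorBar_mk]
  refine ⟨_, ?_, rfl⟩
  exact good_heckeDivBar N q hq hqN hℓ hℓN A hA hD

/-- The kernel of `reductionModL A N` is the subgroup of classes of good divisors. -/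
theorem ker_reductionModL_eq_classesOf_good (N : ℕ) [NeZero N] {ℓ : ℕ} (hℓ : ℓ.Prime)
    (hℓN : ¬ ℓ ∣ N) (A : ValuationSubring Qb) (hA : A.LiesOverPrime ℓ)
    (h : ReductionInputsModL A N) :
    (reductionModL A N).ker = classesOf (goodSubgroup (integralPairs A N)) := by
  ext z
  constructor
  · intro hz
    obtain ⟨D, hD, rfl⟩ := exists_good_rep_of_reductionModL_eq_zero N A hℓ hℓN hA h z hz
    exact ⟨D, hD, rfl⟩
  · rintro ⟨D, hD, rfl⟩
    exact reductionModL_mk_eq_zero_of_good N A h D hD

end Fermat.Agent.S15.helper2639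

end
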