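import Fermat.Agent.S15.helper3201_Spec
import Fermat.Agent.S15.helper2639_HeckeKerForms

/-!
# S15: the block Prop [RED-HECKE] of the top Spec of record (`helper3201_Spec`) is a theorem

* `stmt_RedHecke`  : `helper3201.Stmt_RedHecke` (plain kernel stability, every class);
* `stmt_RedHeckeW` : `helper3201.Stmt_RedHeckeW`, the hypothesis `hRH` of `helper3201.result_of`.
-/

set_option autoImplicit false

namespace Fermat.Agent.S15.helper2639

/-- **[RED-HECKE]**, plain form, of the S15 top Spec of record. -/
theorem stmt_RedHecke : Fermat.Agent.S15.helper3201.Stmt_RedHecke :=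
  fun p _ hp => stmt_HeckeKer_prime p hp

/-- **[RED-HECKE]**, weak form of record: the hypothesis `hRH` of `helper3201.result_of`. -/
theorem stmt_RedHeckeW : Fermat.Agent.S15.helper3201.Stmt_RedHeckeW :=
  Fermat.Agent.S15.helper3201.redHeckeW_of_redHecke stmt_RedHecke

end Fermat.Agent.S15.helper2639
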