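import Mathlib

/-!
# S15 (Mazur block) — abstract endgame core (helper3201)

Pure group theory, `import Mathlib` only.

* `exists_pow_kill` : in a finitely generated subgroup `H` of an abelian group, the `r`-power
  torsion is killed by one power `r ^ a`.
* `eq_zero_of_pow_smul` : hence a torsion element of `H` of `r`-power order which is `r ^ K`
  times an element of `H` (`K ≥ a`) is zero.
* `iterate_desc` : the level-one descent `e m ∈ Θ + r M` iterates to `e^K m ∈ Θ + r^K M`.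
* `endgame` : the contradiction of the Eisenstein descent (two reduction maps, injective on
  `r`-power torsion, whose kernels are stable under `e`; a class `D` with `ρs D = 0` and
  `ρl (D + c) = 0`, `c` a torsion class of order divisible by `r` with `e c = E • c`,
  `E ≡ 1 mod r`).
-/

set_option autoImplicit false

namespace Fermat.Agent.S15.helper3201

section FG

variable {G : Type*} [AddCommGroup G]

/-- In a finitely generated subgroup the `r`-power torsion is killed by a single power of `r`. -/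
theorem exists_pow_kill (H : AddSubgroup G) (hH : H.FG) (r : ℕ) :
    ∃ a : ℕ, ∀ z ∈ H, (∃ j : ℕ, r ^ j • z = 0) → r ^ a • z = 0 := by
  classical
  -- the `r`-power torsion of `H`, as a `ℤ`-submodule
  let T : Submodule ℤ G :=
    { carrier := {z | z ∈ H ∧ ∃ j : ℕ, r ^ j • z = 0}
      add_mem' := by
        rintro x y ⟨hx, j, hj⟩ ⟨hy, k, hk⟩
        refine ⟨H.add_mem hx hy, j + k, ?_⟩
        have h1 : r ^ (j + k) • x = 0 := by
          rw [pow_add, mul_comm, mul_smul, hj, smul_zero]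
        have h2 : r ^ (j + k) • y = 0 := by
          rw [pow_add, mul_smul, hk, smul_zero]
        rw [smul_add, h1, h2, add_zero]
      zero_mem' := ⟨H.zero_mem, 0, by simp⟩
      smul_mem' := by
        rintro c x ⟨hx, j, hj⟩
        refine ⟨H.zsmul_mem hx c, j, ?_⟩
        rw [smul_comm, hj, smul_zero] }
  have hHfg : (AddSubgroup.toIntSubmodule H).FG := by
    rw [Submodule.fg_iff_addSubgroup_fg]
    simpa using hH
  have hNoeth : IsNoetherian ℤ (AddSubgroup.toIntSubmodule H) :=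
    isNoetherian_of_fg_of_noetherian _ hHfg
  have hTle : T ≤ AddSubgroup.toIntSubmodule H := fun z hz => hz.1
  have hTfg : T.FG := (isNoetherian_submodule.mp hNoeth) T hTle
  obtain ⟨s, hs⟩ := hTfg
  -- exponents for the generators
  have hgen : ∀ g ∈ s, ∃ j : ℕ, r ^ j • g = 0 := by
    intro g hg
    have : g ∈ T := hs ▸ Submodule.subset_span hg
    exact this.2
  choose! jf hjf using hgen
  refine ⟨s.sup jf, ?_⟩
  have key : ∀ z ∈ Submodule.span ℤ (s : Set G), r ^ s.sup jf • z = 0 := by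
    intro z hz
    induction hz using Submodule.span_induction with
    | mem x hx =>
      have hle : jf x ≤ s.sup jf := Finset.le_sup hx
      obtain ⟨d, hd⟩ := Nat.exists_eq_add_of_le hle
      rw [hd, pow_add, mul_comm, mul_smul, hjf x hx, smul_zero]
    | zero => simp
    | add x y _ _ hx hy => rw [smul_add, hx, hy, add_zero]
    | smul c x _ hx => rw [smul_comm, hx, smul_zero]
  intro z hz hzj
  have hzT : z ∈ T := ⟨hz, hzj⟩
  rw [← hs] at hzT
  exact key z hzT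

/-- The image of a finitely generated subgroup is finitely generated. -/
theorem fg_map {J : Type*} [AddCommGroup J] (M : AddSubgroup J) (hM : M.FG) (ρ : J →+ G) :
    (M.map ρ).FG := by
  classical
  obtain ⟨S, hS⟩ := hM
  refine ⟨S.image ρ, ?_⟩
  rw [Finset.coe_image, ← AddMonoidHom.map_closure, hS]

/-- A torsion element of `r`-power order in a finitely generated subgroup which is `r ^ K`-divisible
inside the subgroup, `K` large, vanishes. -/
theorem exists_bound_eq_zero (H : AddSubgroup G) (hH : H.FG) (r : ℕ) :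
    ∃ a : ℕ, ∀ K : ℕ, a ≤ K → ∀ z ∈ H, (∃ j : ℕ, r ^ j • (r ^ K • z) = 0) → r ^ K • z = 0 := by
  obtain ⟨a, ha⟩ := exists_pow_kill H hH r
  refine ⟨a, fun K hK z hz ⟨j, hj⟩ => ?_⟩
  have h1 : r ^ a • z = 0 := ha z hz ⟨j + K, by rw [pow_add, mul_smul]; exact hj⟩
  obtain ⟨d, rfl⟩ := Nat.exists_eq_add_of_le hK
  rw [pow_add, mul_comm, mul_smul, h1, smul_zero]

end FG

section Desc

variable {J : Type*} [AddCommGroup J]

/-- Iteration of the level-one descent. -/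
theorem iterate_desc (M : AddSubgroup J) (r : ℕ) (e : J →+ J)
    (heM : ∀ m ∈ M, e m ∈ M)
    (hdiv : ∀ m ∈ M, ∃ θ ∈ M, ∃ m' ∈ M, (∃ j : ℕ, r ^ j • θ = 0) ∧ e m = θ + r • m') :
    ∀ (K : ℕ), ∀ m ∈ M, ∃ θ ∈ M, ∃ z ∈ M, (∃ j : ℕ, r ^ j • θ = 0) ∧
      (e^[K]) m = θ + r ^ K • z := by
  have hiterM : ∀ (K : ℕ), ∀ m ∈ M, (e^[K]) m ∈ M := by
    intro K
    induction K with
    | zero => intro m hm; exact hm
    | succ K ih =>
      intro m hm
      rw [Function.iterate_succ_apply']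
      exact heM _ (ih m hm)
  have hiter_add : ∀ (K : ℕ) (x y : J), (e^[K]) (x + y) = (e^[K]) x + (e^[K]) y := by
    intro K
    induction K with
    | zero => intro x y; rfl
    | succ K ih =>
      intro x y
      rw [Function.iterate_succ_apply', Function.iterate_succ_apply', Function.iterate_succ_apply',
        ih, map_add]
  have hiter_nsmul : ∀ (K n : ℕ) (x : J), (e^[K]) (n • x) = n • (e^[K]) x := by
    intro K
    induction K with
    | zero => intro n x; rfl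
    | succ K ih =>
      intro n x
      rw [Function.iterate_succ_apply', Function.iterate_succ_apply', ih, map_nsmul]
  intro K
  induction K with
  | zero =>
    intro m hm
    exact ⟨0, M.zero_mem, m, hm, ⟨0, by simp⟩, by simp⟩
  | succ K ih =>
    intro m hm
    obtain ⟨θ₁, hθ₁, m₁, hm₁, ⟨j₁, hj₁⟩, hem⟩ := hdiv m hm
    obtain ⟨θ₂, hθ₂, z₂, hz₂, ⟨j₂, hj₂⟩, hem₁⟩ := ih m₁ hm₁
    refine ⟨(e^[K]) θ₁ + r • θ₂, M.add_mem (hiterM K θ₁ hθ₁) (M.nsmul_mem hθ₂ r), z₂, hz₂,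
      ⟨j₁ + j₂, ?_⟩, ?_⟩
    · rw [smul_add, pow_add]
      have h1 : (r ^ j₁ * r ^ j₂) • (e^[K]) θ₁ = 0 := by
        rw [mul_comm, mul_smul, ← hiter_nsmul, hj₁]
        have : (e^[K]) (0 : J) = 0 := by
          have h0 := hiter_nsmul K 0 (0 : J)
          rw [zero_smul, zero_smul] at h0
          exact h0
        rw [this, smul_zero]
      have h2 : (r ^ j₁ * r ^ j₂) • r • θ₂ = 0 := by
        rw [smul_comm, mul_smul, hj₂, smul_zero, smul_zero]
      rw [h1, h2, add_zero]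
    · rw [Function.iterate_succ_apply, hem, hiter_add, hiter_nsmul, hem₁, smul_add, pow_succ,
        mul_comm, mul_smul, add_assoc]

end Desc

section End

variable {J Gs Gl : Type*} [AddCommGroup J] [AddCommGroup Gs] [AddCommGroup Gl]

/-- **Abstract endgame of the Eisenstein descent.** -/
theorem endgame (M : AddSubgroup J) (hM : M.FG) (r : ℕ) (hr : r.Prime)
    (e : J →+ J) (E : ℤ) (hE : E ≡ 1 [ZMOD r])
    (ρs : J →+ Gs) (ρl : J →+ Gl)
    (hes : ∀ x, ρs x = 0 → ρs (e x) = 0) (hel : ∀ x, ρl x = 0 → ρl (e x) = 0)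
    (hinjs : ∀ x : J, (∃ j : ℕ, r ^ j • x = 0) → ρs x = 0 → x = 0)
    (hinjl : ∀ x : J, (∃ j : ℕ, r ^ j • x = 0) → ρl x = 0 → x = 0)
    (heM : ∀ m ∈ M, e m ∈ M)
    (hdiv : ∀ m ∈ M, ∃ θ ∈ M, ∃ m' ∈ M, (∃ j : ℕ, r ^ j • θ = 0) ∧ e m = θ + r • m')
    (c : J) (hc0 : addOrderOf c ≠ 0) (hrc : r ∣ addOrderOf c)
    (hec : e c = E • c)
    (D : J) (hD : D ∈ M) (hDs : ρs D = 0) (hDl : ρl (D + c) = 0) : False := by
  -- bounds from finite generation of the two images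
  obtain ⟨as, has⟩ := exists_bound_eq_zero (M.map ρs) (fg_map M hM ρs) r
  obtain ⟨al, hal⟩ := exists_bound_eq_zero (M.map ρl) (fg_map M hM ρl) r
  set K := max as al with hK
  obtain ⟨θ, hθ, z, hz, ⟨j, hj⟩, hKD⟩ := iterate_desc M r e heM hdiv K D hD
  -- iterates of `e`
  have hiter_s : ∀ (n : ℕ) (x : J), ρs x = 0 → ρs ((e^[n]) x) = 0 := by
    intro n
    induction n with
    | zero => intro x hx; simpa using hx
    | succ n ih => intro x hx; rw [Function.iterate_succ_apply']; exact hes _ (ih x hx)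
  have hiter_l : ∀ (n : ℕ) (x : J), ρl x = 0 → ρl ((e^[n]) x) = 0 := by
    intro n
    induction n with
    | zero => intro x hx; simpa using hx
    | succ n ih => intro x hx; rw [Function.iterate_succ_apply']; exact hel _ (ih x hx)
  have hiter_add : ∀ (n : ℕ) (x y : J), (e^[n]) (x + y) = (e^[n]) x + (e^[n]) y := by
    intro n
    induction n with
    | zero => intro x y; rfl
    | succ n ih =>
      intro x y
      rw [Function.iterate_succ_apply', Function.iterate_succ_apply', Function.iterate_succ_apply',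
        ih, map_add]
  have hiter_c : ∀ n : ℕ, (e^[n]) c = E ^ n • c := by
    intro n
    induction n with
    | zero => simp
    | succ n ih =>
      rw [Function.iterate_succ_apply', ih, map_zsmul, hec, smul_smul, pow_succ]
  -- step 1: the torsion term vanishes
  have hθ0 : θ = 0 := by
    refine hinjs θ ⟨j, hj⟩ ?_
    have h0 : ρs ((e^[K]) D) = 0 := hiter_s K D hDs
    rw [hKD, map_add, map_nsmul] at h0
    have h1 : ρs θ = r ^ K • ρs (-z) := by
      rw [map_neg, smul_neg]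
      exact eq_neg_of_add_eq_zero_left h0
    have h2 : r ^ K • ρs (-z) = 0 := by
      refine has K (le_max_left _ _) (ρs (-z)) ⟨-z, M.neg_mem hz, rfl⟩ ⟨j, ?_⟩
      rw [← h1, ← map_nsmul, hj, map_zero]
    rw [h1, h2]
  -- step 2: at the second place
  have hKD' : (e^[K]) D = r ^ K • z := by rw [hKD, hθ0, zero_add]
  have hl0 : ρl ((e^[K]) (D + c)) = 0 := hiter_l K _ hDl
  rw [hiter_add, hKD', hiter_c, map_add, map_nsmul, map_zsmul] at hl0
  -- the element of order `r`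
  obtain ⟨n₁, hn₁⟩ := hrc
  have hn₁pos : 0 < n₁ := by
    rcases Nat.eq_zero_or_pos n₁ with h | h
    · rw [h, mul_zero] at hn₁; exact absurd hn₁ hc0
    · exact h
  set c₁ := n₁ • c with hc₁
  have hrc₁ : r • c₁ = 0 := by
    rw [hc₁, smul_smul, ← hn₁]
    exact addOrderOf_nsmul_eq_zero c
  have hc₁ne : c₁ ≠ 0 := by
    intro h
    have hdvd : addOrderOf c ∣ n₁ := addOrderOf_dvd_of_nsmul_eq_zero h
    rw [hn₁] at hdvd
    have hle : r * n₁ ≤ n₁ := Nat.le_of_dvd hn₁pos hdvd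
    have : 2 * n₁ ≤ r * n₁ := Nat.mul_le_mul_right _ hr.two_le
    omega
  have hx0 : ρl (E ^ K • c₁) = 0 := by
    have h1 : ρl (E ^ K • c₁) = r ^ K • ρl (-(n₁ • z)) := by
      have h3 : E ^ K • ρl c = -(r ^ K • ρl z) := eq_neg_of_add_eq_zero_right hl0
      rw [hc₁, map_zsmul, map_nsmul, smul_comm, h3, map_neg, map_nsmul, smul_neg, smul_neg,
        smul_comm]
    have h2 : r ^ K • ρl (-(n₁ • z)) = 0 := by
      refine hal K (le_max_right _ _) (ρl (-(n₁ • z))) ⟨-(n₁ • z), M.neg_mem (M.nsmul_mem hz n₁), rfl⟩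
        ⟨1, ?_⟩
      rw [← h1, pow_one, ← map_nsmul, smul_comm, hrc₁, smul_zero, map_zero]
    rw [h1, h2]
  have hEc₁ : E ^ K • c₁ = 0 :=
    hinjl _ ⟨1, by rw [pow_one, smul_comm, hrc₁, smul_zero]⟩ hx0
  -- `E ^ K ≡ 1 mod r`
  have hEK : E ^ K ≡ 1 [ZMOD r] := by
    have := hE.pow K
    simpa using this
  obtain ⟨t, ht⟩ := (Int.modEq_iff_dvd.mp hEK.symm)
  have hEK' : E ^ K = 1 + (r : ℤ) * t := by linarith
  rw [hEK', add_smul, one_smul, mul_comm, mul_smul] at hEc₁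
  have : ((r : ℤ) • c₁) = 0 := by
    rw [natCast_zsmul]; exact hrc₁
  rw [this, smul_zero, add_zero] at hEc₁
  exact hc₁ne hEc₁

end End

section EndWeak

variable {J Gs Gl : Type*} [AddCommGroup J] [AddCommGroup Gs] [AddCommGroup Gl]

/-- The operators allowed in the descent: they preserve `M` and the two kernels and act on `c`
by an integer prime to `r`. -/
def GoodOp (M : AddSubgroup J) (r : ℕ) (ρs : J →+ Gs) (ρl : J →+ Gl) (c : J) (t : J →+ J) : Prop :=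
  (∀ m ∈ M, t m ∈ M) ∧ (∀ x, ρs x = 0 → ρs (t x) = 0) ∧ (∀ x, ρl x = 0 → ρl (t x) = 0) ∧
    ∃ E : ℤ, IsCoprime E (r : ℤ) ∧ t c = E • c

theorem GoodOp.comp {M : AddSubgroup J} {r : ℕ} {ρs : J →+ Gs} {ρl : J →+ Gl} {c : J}
    {t₁ t₂ : J →+ J} (h₂ : GoodOp M r ρs ρl c t₂) (h₁ : GoodOp M r ρs ρl c t₁) :
    GoodOp M r ρs ρl c (t₂.comp t₁) := by
  obtain ⟨a₁, b₁, c₁, E₁, hE₁, e₁⟩ := h₁
  obtain ⟨a₂, b₂, c₂, E₂, hE₂, e₂⟩ := h₂
  refine ⟨fun m hm => a₂ _ (a₁ m hm), fun x hx => b₂ _ (b₁ x hx), fun x hx => c₂ _ (c₁ x hx),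
    E₁ * E₂, IsCoprime.mul_left hE₁ hE₂, ?_⟩
  rw [AddMonoidHom.comp_apply, e₁, map_zsmul, e₂, smul_smul]

/-- Iteration of the level-one descent, operator depending on the point. -/
theorem iterate_desc_weak (M : AddSubgroup J) (r : ℕ) (ρs : J →+ Gs) (ρl : J →+ Gl) (c : J)
    (hdiv : ∀ m ∈ M, ∃ t : J →+ J, GoodOp M r ρs ρl c t ∧ ∃ θ ∈ M, ∃ m' ∈ M,
      (∃ j : ℕ, r ^ j • θ = 0) ∧ t m = θ + r • m') :
    ∀ (K : ℕ), ∀ m ∈ M, ∃ t : J →+ J, GoodOp M r ρs ρl c t ∧ ∃ θ ∈ M, ∃ z ∈ M,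
      (∃ j : ℕ, r ^ j • θ = 0) ∧ t m = θ + r ^ K • z := by
  intro K
  induction K with
  | zero =>
    intro m hm
    refine ⟨AddMonoidHom.id J, ⟨fun m hm => hm, fun x hx => hx, fun x hx => hx, 1, isCoprime_one_left,
      by simp⟩, 0, M.zero_mem, m, hm, ⟨0, by simp⟩, by simp⟩
  | succ K ih =>
    intro m hm
    obtain ⟨t₁, ht₁, θ₁, hθ₁, m₁, hm₁, ⟨j₁, hj₁⟩, hem⟩ := hdiv m hm
    obtain ⟨t₂, ht₂, θ₂, hθ₂, z₂, hz₂, ⟨j₂, hj₂⟩, hem₁⟩ := ih m₁ hm₁
    refine ⟨t₂.comp t₁, ht₂.comp ht₁, t₂ θ₁ + r • θ₂,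
      M.add_mem (ht₂.1 θ₁ hθ₁) (M.nsmul_mem hθ₂ r), z₂, hz₂, ⟨j₁ + j₂, ?_⟩, ?_⟩
    · have h1 : r ^ (j₁ + j₂) • t₂ θ₁ = 0 := by
        rw [pow_add, mul_comm, mul_smul, ← map_nsmul, hj₁, map_zero, smul_zero]
      have h2 : r ^ (j₁ + j₂) • r • θ₂ = 0 := by
        rw [smul_comm, pow_add, mul_smul, hj₂, smul_zero, smul_zero]
      rw [smul_add, h1, h2, add_zero]
    · rw [AddMonoidHom.comp_apply, hem, map_add, map_nsmul, hem₁, smul_add, pow_succ, mul_comm,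
        mul_smul, add_assoc]

/-- **Abstract endgame, weak form**: the descent operator may depend on the point. -/
theorem endgame_weak (M : AddSubgroup J) (hM : M.FG) (r : ℕ) (hr : r.Prime)
    (ρs : J →+ Gs) (ρl : J →+ Gl)
    (hinjs : ∀ x : J, (∃ j : ℕ, r ^ j • x = 0) → ρs x = 0 → x = 0)
    (hinjl : ∀ x : J, (∃ j : ℕ, r ^ j • x = 0) → ρl x = 0 → x = 0)
    (c : J) (hc0 : addOrderOf c ≠ 0) (hrc : r ∣ addOrderOf c)
    (hdiv : ∀ m ∈ M, ∃ t : J →+ J, GoodOp M r ρs ρl c t ∧ ∃ θ ∈ M, ∃ m' ∈ M,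
      (∃ j : ℕ, r ^ j • θ = 0) ∧ t m = θ + r • m')
    (D : J) (hD : D ∈ M) (hDs : ρs D = 0) (hDl : ρl (D + c) = 0) : False := by
  obtain ⟨as, has⟩ := exists_bound_eq_zero (M.map ρs) (fg_map M hM ρs) r
  obtain ⟨al, hal⟩ := exists_bound_eq_zero (M.map ρl) (fg_map M hM ρl) r
  set K := max as al with hK
  obtain ⟨t, ⟨_, hts, htl, E, hE, htc⟩, θ, hθ, z, hz, ⟨j, hj⟩, hKD⟩ :=
    iterate_desc_weak M r ρs ρl c hdiv K D hD
  -- step 1: the torsion term vanishes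
  have hθ0 : θ = 0 := by
    refine hinjs θ ⟨j, hj⟩ ?_
    have h0 : ρs (t D) = 0 := hts D hDs
    rw [hKD, map_add, map_nsmul] at h0
    have h1 : ρs θ = r ^ K • ρs (-z) := by
      rw [map_neg, smul_neg]
      exact eq_neg_of_add_eq_zero_left h0
    have h2 : r ^ K • ρs (-z) = 0 := by
      refine has K (le_max_left _ _) (ρs (-z)) ⟨-z, M.neg_mem hz, rfl⟩ ⟨j, ?_⟩
      rw [← h1, ← map_nsmul, hj, map_zero]
    rw [h1, h2]
  -- step 2: at the second place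
  have hKD' : t D = r ^ K • z := by rw [hKD, hθ0, zero_add]
  have hl0 : ρl (t (D + c)) = 0 := htl _ hDl
  rw [map_add, hKD', htc, map_add, map_nsmul, map_zsmul] at hl0
  obtain ⟨n₁, hn₁⟩ := hrc
  have hn₁pos : 0 < n₁ := by
    rcases Nat.eq_zero_or_pos n₁ with h | h
    · rw [h, mul_zero] at hn₁; exact absurd hn₁ hc0
    · exact h
  set c₁ := n₁ • c with hc₁
  have hrc₁ : r • c₁ = 0 := by
    rw [hc₁, smul_smul, ← hn₁]
    exact addOrderOf_nsmul_eq_zero c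
  have hc₁ne : c₁ ≠ 0 := by
    intro h
    have hdvd : addOrderOf c ∣ n₁ := addOrderOf_dvd_of_nsmul_eq_zero h
    rw [hn₁] at hdvd
    have hle : r * n₁ ≤ n₁ := Nat.le_of_dvd hn₁pos hdvd
    have : 2 * n₁ ≤ r * n₁ := Nat.mul_le_mul_right _ hr.two_le
    omega
  have hx0 : ρl (E • c₁) = 0 := by
    have h1 : ρl (E • c₁) = r ^ K • ρl (-(n₁ • z)) := by
      have h3 : E • ρl c = -(r ^ K • ρl z) := eq_neg_of_add_eq_zero_right hl0
      rw [hc₁, map_zsmul, map_nsmul, smul_comm, h3, map_neg, map_nsmul, smul_neg, smul_neg,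
        smul_comm]
    have h2 : r ^ K • ρl (-(n₁ • z)) = 0 := by
      refine hal K (le_max_right _ _) (ρl (-(n₁ • z))) ⟨-(n₁ • z), M.neg_mem (M.nsmul_mem hz n₁), rfl⟩
        ⟨1, ?_⟩
      rw [← h1, pow_one, ← map_nsmul, smul_comm, hrc₁, smul_zero, map_zero]
    rw [h1, h2]
  have hEc₁ : E • c₁ = 0 :=
    hinjl _ ⟨1, by rw [pow_one, smul_comm, hrc₁, smul_zero]⟩ hx0
  obtain ⟨a, b, hab⟩ := hE
  have hone : c₁ = (a * E + b * (r : ℤ)) • c₁ := by rw [hab, one_smul]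
  rw [add_smul, mul_smul, hEc₁, smul_zero, mul_smul, natCast_zsmul, hrc₁, smul_zero, add_zero]
    at hone
  exact hc₁ne hone

end EndWeak

section EndW

variable {J Gs Gl : Type*} [AddCommGroup J] [AddCommGroup Gs] [AddCommGroup Gl]

/-- An element killed by a power of the prime `r` and by an integer prime to `r` is zero. -/
theorem eq_zero_of_pow_smul_of_coprime_smul {x : J} {r : ℕ} {j : ℕ}
    (hj : r ^ j • x = 0) {m : ℤ} (hm : IsCoprime m (r : ℤ)) (hmx : m • x = 0) : x = 0 := by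
  have hc : IsCoprime m ((r : ℤ) ^ j) := hm.pow_right
  obtain ⟨a, b, hab⟩ := hc
  have h1 : x = (a * m + b * (r : ℤ) ^ j) • x := by rw [hab, one_smul]
  have h2 : ((r : ℤ) ^ j) • x = 0 := by
    have : ((r : ℤ) ^ j) = ((r ^ j : ℕ) : ℤ) := by push_cast; rfl
    rw [this, natCast_zsmul]; exact hj
  rw [add_smul, mul_smul, hmx, smul_zero, mul_smul, h2, smul_zero, add_zero] at h1
  exact h1

/-- Iteration of the level-one descent inside a class `P` of operators closed under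
composition. -/
theorem iterate_desc_w (M : AddSubgroup J) (r : ℕ) (c : J) (P : (J →+ J) → Prop)
    (hP1 : P (AddMonoidHom.id J)) (hPc : ∀ t₁ t₂ : J →+ J, P t₁ → P t₂ → P (t₂.comp t₁))
    (hPM : ∀ t : J →+ J, P t → ∀ m ∈ M, t m ∈ M)
    (hdiv : ∀ m ∈ M, ∃ t : J →+ J, P t ∧ ∃ E : ℤ, IsCoprime E (r : ℤ) ∧ t c = E • c ∧
      ∃ θ ∈ M, ∃ m' ∈ M, (∃ j : ℕ, r ^ j • θ = 0) ∧ t m = θ + r • m') :
    ∀ (K : ℕ), ∀ m ∈ M, ∃ t : J →+ J, P t ∧ ∃ E : ℤ, IsCoprime E (r : ℤ) ∧ t c = E • c ∧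
      ∃ θ ∈ M, ∃ z ∈ M, (∃ j : ℕ, r ^ j • θ = 0) ∧ t m = θ + r ^ K • z := by
  intro K
  induction K with
  | zero =>
    intro m hm
    exact ⟨AddMonoidHom.id J, hP1, 1, isCoprime_one_left, by simp, 0, M.zero_mem, m, hm,
      ⟨0, by simp⟩, by simp⟩
  | succ K ih =>
    intro m hm
    obtain ⟨t₁, ht₁, E₁, hE₁, e₁, θ₁, hθ₁, m₁, hm₁, ⟨j₁, hj₁⟩, hem⟩ := hdiv m hm
    obtain ⟨t₂, ht₂, E₂, hE₂, e₂, θ₂, hθ₂, z₂, hz₂, ⟨j₂, hj₂⟩, hem₁⟩ := ih m₁ hm₁
    refine ⟨t₂.comp t₁, hPc t₁ t₂ ht₁ ht₂, E₁ * E₂, IsCoprime.mul_left hE₁ hE₂, ?_, t₂ θ₁ + r • θ₂,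
      M.add_mem (hPM t₂ ht₂ θ₁ hθ₁) (M.nsmul_mem hθ₂ r), z₂, hz₂, ⟨j₁ + j₂, ?_⟩, ?_⟩
    · rw [AddMonoidHom.comp_apply, e₁, map_zsmul, e₂, smul_smul]
    · have h1 : r ^ (j₁ + j₂) • t₂ θ₁ = 0 := by
        rw [pow_add, mul_comm, mul_smul, ← map_nsmul, hj₁, map_zero, smul_zero]
      have h2 : r ^ (j₁ + j₂) • r • θ₂ = 0 := by
        rw [smul_comm, pow_add, mul_smul, hj₂, smul_zero, smul_zero]
      rw [smul_add, h1, h2, add_zero]
    · rw [AddMonoidHom.comp_apply, hem, map_add, map_nsmul, hem₁, smul_add, pow_succ, mul_comm,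
        mul_smul, add_assoc]

/-- **Abstract endgame, form of record.**  The descent operators live in a class `P` closed
under composition; they preserve `M`; the two kernels are stable under them only on `M` and only
up to integers `ms`, `ml` prime to `r`. -/
theorem endgame_w (M : AddSubgroup J) (hM : M.FG) (r : ℕ) (hr : r.Prime)
    (ρs : J →+ Gs) (ρl : J →+ Gl)
    (hinjs : ∀ x : J, (∃ j : ℕ, r ^ j • x = 0) → ρs x = 0 → x = 0)
    (hinjl : ∀ x : J, (∃ j : ℕ, r ^ j • x = 0) → ρl x = 0 → x = 0)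
    (P : (J →+ J) → Prop)
    (hP1 : P (AddMonoidHom.id J)) (hPc : ∀ t₁ t₂ : J →+ J, P t₁ → P t₂ → P (t₂.comp t₁))
    (hPM : ∀ t : J →+ J, P t → ∀ m ∈ M, t m ∈ M)
    (hs : ∃ ms : ℕ, ¬ r ∣ ms ∧ ∀ x ∈ M, ρs x = 0 → ∀ t : J →+ J, P t → ρs (ms • t x) = 0)
    (hl : ∃ ml : ℕ, ¬ r ∣ ml ∧ ∀ x ∈ M, ρl x = 0 → ∀ t : J →+ J, P t → ρl (ml • t x) = 0)
    (c : J) (hcM : c ∈ M) (hc0 : addOrderOf c ≠ 0) (hrc : r ∣ addOrderOf c)
    (hdiv : ∀ m ∈ M, ∃ t : J →+ J, P t ∧ ∃ E : ℤ, IsCoprime E (r : ℤ) ∧ t c = E • c ∧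
      ∃ θ ∈ M, ∃ m' ∈ M, (∃ j : ℕ, r ^ j • θ = 0) ∧ t m = θ + r • m')
    (D : J) (hD : D ∈ M) (hDs : ρs D = 0) (hDl : ρl (D + c) = 0) : False := by
  obtain ⟨as, has⟩ := exists_bound_eq_zero (M.map ρs) (fg_map M hM ρs) r
  obtain ⟨al, hal⟩ := exists_bound_eq_zero (M.map ρl) (fg_map M hM ρl) r
  obtain ⟨ms, hms, hks⟩ := hs
  obtain ⟨ml, hml, hkl⟩ := hl
  have hcop : ∀ n : ℕ, ¬ r ∣ n → IsCoprime (n : ℤ) (r : ℤ) := by
    intro n hn
    have h1 : Nat.Coprime r n := (Nat.Prime.coprime_iff_not_dvd hr).mpr hn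
    exact (Nat.isCoprime_iff_coprime.mpr h1).symm
  set K := max as al with hK
  obtain ⟨t, hPt, E, hE, htc, θ, hθ, z, hz, ⟨j, hj⟩, hKD⟩ :=
    iterate_desc_w M r c P hP1 hPc hPM hdiv K D hD
  -- step 1: the torsion term vanishes
  have hθ0 : θ = 0 := by
    have h0 : ρs (ms • t D) = 0 := hks D hD hDs t hPt
    rw [hKD, smul_add, map_add] at h0
    have h1 : ρs (ms • θ) = r ^ K • ρs (-(ms • z)) := by
      have h1' : ρs (ms • θ) = -ρs (ms • r ^ K • z) := eq_neg_of_add_eq_zero_left h0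
      rw [h1', map_neg, smul_neg, ← map_nsmul (ρs) (r ^ K), smul_comm]
    have h2 : r ^ K • ρs (-(ms • z)) = 0 := by
      refine has K (le_max_left _ _) (ρs (-(ms • z))) ⟨-(ms • z), M.neg_mem (M.nsmul_mem hz ms), rfl⟩
        ⟨j, ?_⟩
      rw [← h1, ← map_nsmul, smul_comm, hj, smul_zero, map_zero]
    have h3 : ms • θ = 0 :=
      hinjs _ ⟨j, by rw [smul_comm, hj, smul_zero]⟩ (by rw [h1, h2])
    refine eq_zero_of_pow_smul_of_coprime_smul hj (hcop ms hms) ?_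
    rw [natCast_zsmul]; exact h3
  -- step 2: at the second place
  have hKD' : t D = r ^ K • z := by rw [hKD, hθ0, zero_add]
  have hl0 : ρl (ml • t (D + c)) = 0 := hkl _ (M.add_mem hD hcM) hDl t hPt
  rw [map_add, hKD', htc, smul_add, map_add] at hl0
  obtain ⟨n₁, hn₁⟩ := hrc
  have hn₁pos : 0 < n₁ := by
    rcases Nat.eq_zero_or_pos n₁ with h | h
    · rw [h, mul_zero] at hn₁; exact absurd hn₁ hc0
    · exact h
  set c₁ := n₁ • c with hc₁
  have hrc₁ : r • c₁ = 0 := by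
    rw [hc₁, smul_smul, ← hn₁]
    exact addOrderOf_nsmul_eq_zero c
  have hc₁ne : c₁ ≠ 0 := by
    intro h
    have hdvd : addOrderOf c ∣ n₁ := addOrderOf_dvd_of_nsmul_eq_zero h
    rw [hn₁] at hdvd
    have hle : r * n₁ ≤ n₁ := Nat.le_of_dvd hn₁pos hdvd
    have : 2 * n₁ ≤ r * n₁ := Nat.mul_le_mul_right _ hr.two_le
    omega
  have hx0 : ρl (ml • E • c₁) = 0 := by
    have h1 : ρl (ml • E • c₁) = r ^ K • ρl (-(n₁ • ml • z)) := by
      have h3 : ρl (ml • E • c) = -ρl (ml • r ^ K • z) := eq_neg_of_add_eq_zero_right hl0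
      have h4 : ml • E • c₁ = n₁ • (ml • E • c) := by
        rw [hc₁, smul_comm E n₁ c, smul_comm ml n₁ (E • c)]
      have h5 : n₁ • ml • r ^ K • z = r ^ K • (n₁ • ml • z) := by
        rw [smul_comm ml (r ^ K) z, smul_comm n₁ (r ^ K)]
      calc ρl (ml • E • c₁) = n₁ • ρl (ml • E • c) := by rw [h4, map_nsmul]
        _ = n₁ • -ρl (ml • r ^ K • z) := by rw [h3]
        _ = -ρl (n₁ • ml • r ^ K • z) := by rw [smul_neg, ← map_nsmul ρl n₁]
        _ = -ρl (r ^ K • (n₁ • ml • z)) := by rw [h5]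
        _ = r ^ K • ρl (-(n₁ • ml • z)) := by rw [map_nsmul, map_neg, smul_neg]
    have h2 : r ^ K • ρl (-(n₁ • ml • z)) = 0 := by
      refine hal K (le_max_right _ _) (ρl (-(n₁ • ml • z)))
        ⟨-(n₁ • ml • z), M.neg_mem (M.nsmul_mem (M.nsmul_mem hz ml) n₁), rfl⟩ ⟨1, ?_⟩
      rw [← h1, pow_one, ← map_nsmul, smul_comm r ml, smul_comm r E, hrc₁, smul_zero, smul_zero,
        map_zero]
    rw [h1, h2]
  have hEc₁ : ml • E • c₁ = 0 :=
    hinjl _ ⟨1, by rw [pow_one, smul_comm r ml, smul_comm r E, hrc₁, smul_zero, smul_zero]⟩ hx0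
  refine hc₁ne (eq_zero_of_pow_smul_of_coprime_smul (j := 1) (by rw [pow_one]; exact hrc₁)
    (IsCoprime.mul_left (hcop ml hml) hE) ?_)
  rw [mul_smul, natCast_zsmul]
  exact hEc₁

end EndW

end Fermat.Agent.S15.helper3201
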