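import Mathlib
import Fermat.Prelude.Def_EllipticCurve_ZeroComponentAt
import Fermat.Prelude.Def_FLTPrelim_Ramification
import Fermat.Prelude.Def_ModularCurve_HeckeModule
import Fermat.Prelude.Def_ModularCurve_ReductionModL
import Fermat.Agent.S15.helper3201_EndCore

/-!
# S15 (Mazur block) — TOP SPEC OF RECORD (captain helper3201)

`result_of` : the frozen statement S15 from the block Props below, stated in the Prelude
vocabulary at level `p` only (`JZero p`, the Galois action, `heckeOperatorBar p q`,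
`reductionModL A p`), plus four statements that are THEOREMS on main and are passed as hypotheses
only to keep the import closure of this file small:
`Stmt_S17` (`Fermat.Agent.S17.result`), `Stmt_S18` (`Fermat.Agent.S18.result`),
`Stmt_Places` (`Lib.helper54.exists_liesOverPrime`),
`Stmt_GalHecke` (`S29.helper5500.galois_smul_heckeOperatorBar`).

Block Props (registry table `s15_leaves`):

* `Stmt_CuspBridge` [CB]  — the cuspidal class `c = (0) - (∞)` and the moduli bridge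
  (registry END-CUSP + BR-ASM).  The shapes `IsCuspClass`, `BridgeFor` of chat #68 imply it:
  `cuspBridge_of_bridgeFor`.
* `Stmt_LPM`        [LPM] — `Q` in the zero component at `ℓ`  ⟹  `p ∣ ℓ - 1 ∨ p ∣ ℓ + 1`
  (registry END-LPM).
* `Stmt_RedInputs`  [RED-IN] — place reduction with conservation exists at prime level
  (registry END-RED-ALL).
* `Stmt_RedHeckeW`  [RED-HECKE] — Hecke stability of the kernel of reduction on rational
  classes, up to an integer prime to `r` (registry END-KS form KS3); the plain form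
  `Stmt_RedHecke` (registry END-SP-HECKE) implies it: `redHeckeW_of_redHecke`.
* `Stmt_Div1`       [DIV] — the level-one Eisenstein descent, operator may depend on the point
  (registry DIV-CORE / KUM-INST / BND-ASM); `Stmt_Div1Strong` (one projector) implies it:
  `stmt_Div1_of_strong`.

The endgame (iteration of the level-one descent, finite generation of `J₀(p)(ℚ)`, two
reductions) is proved here on top of `helper3201_EndCore` (`endgame_w`).
-/

set_option autoImplicit false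

open WeierstrassCurve WeierstrassCurve.Affine
open ModularCurve

namespace Fermat.Agent.S15.helper3201

/-- `ℚ̄`. -/
abbrev Qb : Type := AlgebraicClosure ℚ

/-- The absolute Galois group of `ℚ`. -/
abbrev GQ : Type := Qb ≃ₐ[ℚ] Qb

/-- A class of `J₀(N)` fixed by the Galois group. -/
def IsRat (N : ℕ) (x : JZero N) : Prop := ∀ σ : GQ, σ • x = x

/-- An Eisenstein eigenvector at level `p`: `T_q x = (1 + q) x` for all primes `q ≠ p`. -/
def IsEis (p : ℕ) [NeZero p] (x : JZero p) : Prop :=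
  ∀ q : Nat.Primes, (q : ℕ) ≠ p → heckeOperatorBar p q x = (1 + (q : ℕ)) • x

/-- The Hecke operators of level `p` at the primes `q ≠ p`, `q ∉ S`. -/
def heckeAway (p : ℕ) [NeZero p] (S : Finset ℕ) : Set (Module.End ℤ (JZero p)) :=
  {T | ∃ q : Nat.Primes, (q : ℕ) ≠ p ∧ (q : ℕ) ∉ S ∧ T = heckeOperatorBar p q}

/-! ### The block Props -/

/-- **[CB] Cusp + bridge, class level.**  There is a nonzero rational Eisenstein class `c` killed
by `p - 1` [the class of `(0) - (∞)`], such that for frozen-S15 data `(W, Q)` and a prime `ℓ` of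
multiplicative reduction at which `Q` DOES lie in the zero component, there is a rational class
`D` [the class of `(x) - (0)`, `x` the moduli point of `(W, ⟨Q⟩)`] which reduces to `0` at every
place over `2` and over `3` and to the reduction of `-c` at the given place over `ℓ`. -/
def Stmt_CuspBridge : Prop :=
  ∀ (p : ℕ) [NeZero p], p.Prime → p ∉ ({2, 3, 5, 7, 13} : Finset ℕ) →
    ∃ c : JZero p, c ≠ 0 ∧ (p - 1) • c = 0 ∧ IsRat p c ∧ IsEis p c ∧
      ∀ (W : WeierstrassCurve ℤ), W.Δ ≠ 0 →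
        ∀ (Q : ((W.map (Int.castRingHom ℚ))⁄Qb).Point),
        (∀ σ : GQ, σ • Q = Q) → addOrderOf Q = p →
        (2 : ℤ) ∣ W.Δ → ¬ (2 : ℤ) ∣ W.c₄ →
        (∀ A : ValuationSubring Qb, A.LiesOverPrime 2 → ¬ W.InZeroComponentAt A Q) →
        (3 : ℤ) ∣ W.Δ → ¬ (3 : ℤ) ∣ W.c₄ →
        (∀ A : ValuationSubring Qb, A.LiesOverPrime 3 → ¬ W.InZeroComponentAt A Q) →
        ∀ (ℓ : ℕ), ℓ.Prime → ℓ ≠ p → (ℓ : ℤ) ∣ W.Δ → ¬ (ℓ : ℤ) ∣ W.c₄ →
        ∀ (A : ValuationSubring Qb), A.LiesOverPrime ℓ → W.InZeroComponentAt A Q →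
          ∃ D : JZero p, IsRat p D ∧
            (∀ A₂ : ValuationSubring Qb, A₂.LiesOverPrime 2 → reductionModL A₂ p D = 0) ∧
            (∀ A₃ : ValuationSubring Qb, A₃.LiesOverPrime 3 → reductionModL A₃ p D = 0) ∧
            reductionModL A p (D + c) = 0

/-- **[LPM]** A rational point of order `p` in the zero component at a prime `ℓ ≠ p` of
multiplicative reduction forces `p ∣ ℓ - 1` or `p ∣ ℓ + 1`. -/
def Stmt_LPM : Prop :=
  ∀ (p : ℕ), p.Prime → 5 ≤ p →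
    ∀ (W : WeierstrassCurve ℤ), W.Δ ≠ 0 →
      ∀ (Q : ((W.map (Int.castRingHom ℚ))⁄Qb).Point),
      (∀ σ : GQ, σ • Q = Q) → addOrderOf Q = p →
      ∀ (ℓ : ℕ), ℓ.Prime → ℓ ≠ p → (ℓ : ℤ) ∣ W.Δ → ¬ (ℓ : ℤ) ∣ W.c₄ →
      ∀ (A : ValuationSubring Qb), A.LiesOverPrime ℓ → W.InZeroComponentAt A Q →
        p ∣ ℓ - 1 ∨ p ∣ ℓ + 1

/-- **[RED-IN]** Place reduction with conservation of number exists at every prime level `p`
and every place of `ℚ̄` of residue characteristic `ℓ ≠ p`. -/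
def Stmt_RedInputs : Prop :=
  ∀ (p : ℕ) [NeZero p], p.Prime → ∀ (ℓ : ℕ), ℓ.Prime → ℓ ≠ p →
    ∀ A : ValuationSubring Qb, A.LiesOverPrime ℓ → ReductionInputsModL A p

/-- **[RED-HECKE]** The kernel of reduction on `J₀(p)` is stable under `T_q`, `q ∤ p ℓ`. -/
def Stmt_RedHecke : Prop :=
  ∀ (p : ℕ) [NeZero p], p.Prime → ∀ (ℓ : ℕ), ℓ.Prime → ℓ ≠ p →
    ∀ A : ValuationSubring Qb, A.LiesOverPrime ℓ →
      ∀ q : Nat.Primes, (q : ℕ) ≠ p → (q : ℕ) ≠ ℓ →
        ∀ x : JZero p, reductionModL A p x = 0 → reductionModL A p (heckeOperatorBar p q x) = 0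

/-- **[RED-HECKE], weak form of record** (what the endgame consumes; `Stmt_RedHecke` implies
it with `m' = 1`, see `redHeckeW_of_redHecke`).  For a prime `r` and a place `A` of residue
characteristic `ℓ ≠ p, r` there is an integer `m'` prime to `r` such that for every RATIONAL
class `D` in the kernel of reduction and every `t ∈ ℤ[T_q : q ≠ p, ℓ]`, the class `m' • t D`
is in the kernel of reduction. -/
def Stmt_RedHeckeW : Prop :=
  ∀ (p : ℕ) [NeZero p], p.Prime → ∀ (r : ℕ), r.Prime → ∀ (ℓ : ℕ), ℓ.Prime → ℓ ≠ p → ℓ ≠ r →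
    ∀ A : ValuationSubring Qb, A.LiesOverPrime ℓ →
      ∃ m' : ℕ, ¬ r ∣ m' ∧ ∀ D : JZero p, IsRat p D → reductionModL A p D = 0 →
        ∀ t ∈ Algebra.adjoin ℤ (heckeAway p {ℓ}), reductionModL A p (m' • t D) = 0

/-- **[DIV] Level-one Eisenstein descent** (form of record; the shape of chat #68).  For a
nonzero rational Eisenstein class `c` killed by `p - 1` there is a prime `r ∣ ord c` such that
for every finite set `S` of primes and every rational class `m` there are a Hecke operator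
`t ∈ ℤ[T_q : q ≠ p, q ∉ S]` (it may depend on `m`), acting on `c` by an integer prime to `r`,
and rational classes `θ` (of `r`-power order) and `m'` with `t m = θ + r • m'`. -/
def Stmt_Div1 : Prop :=
  ∀ (p : ℕ) [NeZero p], p.Prime → p ∉ ({2, 3, 5, 7, 13} : Finset ℕ) →
    ∀ c : JZero p, c ≠ 0 → (p - 1) • c = 0 → IsRat p c → IsEis p c →
      ∃ r : ℕ, r.Prime ∧ r ∣ addOrderOf c ∧ ∀ S : Finset ℕ, ∀ m : JZero p, IsRat p m →
        ∃ t : Module.End ℤ (JZero p), t ∈ Algebra.adjoin ℤ (heckeAway p S) ∧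
          ∃ E : ℤ, IsCoprime E (r : ℤ) ∧ t c = E • c ∧
            ∃ θ m' : JZero p, IsRat p θ ∧ (∃ j : ℕ, r ^ j • θ = 0) ∧ IsRat p m' ∧
              t m = θ + r • m'

/-- **[DIV], uniform form** (implies `Stmt_Div1`, see `stmt_Div1_of_strong`): for every prime
`r ≠ p` and every finite set `S` of primes there is ONE Hecke operator
`e ∈ ℤ[T_q : q ≠ p, q ∉ S]` acting on Eisenstein eigenvectors by an integer `E ≡ 1 mod r`, with
`e m ∈ Θ + r • M` for every rational class `m`. -/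
def Stmt_Div1Strong : Prop :=
  ∀ (p : ℕ) [NeZero p], p.Prime → p ∉ ({2, 3, 5, 7, 13} : Finset ℕ) →
    ∀ (r : ℕ), r.Prime → r ≠ p → ∀ S : Finset ℕ,
      ∃ (e : Module.End ℤ (JZero p)) (E : ℤ),
        e ∈ Algebra.adjoin ℤ (heckeAway p S) ∧
        E ≡ 1 [ZMOD r] ∧
        (∀ x : JZero p, IsEis p x → e x = E • x) ∧
        ∀ m : JZero p, IsRat p m →
          ∃ θ m' : JZero p, IsRat p θ ∧ (∃ j : ℕ, r ^ j • θ = 0) ∧ IsRat p m' ∧
            e m = θ + r • m'

/-! ### The shapes of chat #68 (helper505), accepted through `cuspBridge_of_bridgeFor` -/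

/-- The cuspidal class data. -/
def IsCuspClass (p : ℕ) [NeZero p] (c : JZero p) : Prop :=
  IsRat p c ∧ (p - 1) • c = 0 ∧ c ≠ 0 ∧ IsEis p c

/-- The bridge in its unconditional form: ONE rational class `D` with both cusp types at every
prime of multiplicative reduction. -/
def BridgeFor (p : ℕ) [NeZero p] (c : JZero p) : Prop :=
  ∀ (W : WeierstrassCurve ℤ), W.Δ ≠ 0 →
    ∀ (Q : ((W.map (Int.castRingHom ℚ))⁄Qb).Point),
    (∀ σ : GQ, σ • Q = Q) → addOrderOf Q = p →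
      ∃ D : JZero p, IsRat p D ∧
        ∀ (s : ℕ), s.Prime → s ≠ p → (s : ℤ) ∣ W.Δ → ¬ (s : ℤ) ∣ W.c₄ →
          ∀ A : ValuationSubring Qb, A.LiesOverPrime s →
            (¬ W.InZeroComponentAt A Q → reductionModL A p D = 0) ∧
            (W.InZeroComponentAt A Q → reductionModL A p (D + c) = 0)

/-! ### Landed statements, passed as hypotheses -/

/-- The frozen S17 at prime level (a theorem on main: `Fermat.Agent.S17.result`). -/
def Stmt_S17 : Prop :=
  ∀ (N : ℕ) [NeZero N], N.Prime → 5 ≤ N →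
    AddGroup.FG ↥(FixedPoints.addSubgroup GQ (JZero N))

/-- The frozen S18 (a theorem on main: `Fermat.Agent.S18.result`). -/
def Stmt_S18 : Prop :=
  ∀ (N : ℕ) [NeZero N] {ℓ : ℕ} [Fact ℓ.Prime], ¬ ℓ ∣ N →
    ∀ (A : ValuationSubring Qb), A.LiesOverPrime ℓ → ReductionInputsModL A N →
      ∀ (m : ℕ), ¬ ℓ ∣ m → ∀ z : JZero N, m • z = 0 → reductionModL A N z = 0 → z = 0

/-- Places of `ℚ̄` over every prime (a theorem on main: `Lib.helper54.exists_liesOverPrime`). -/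
def Stmt_Places : Prop :=
  ∀ ℓ : ℕ, ℓ.Prime → ∃ A : ValuationSubring Qb, A.LiesOverPrime ℓ

/-- Galois-equivariance of the Hecke operators (a theorem on main:
`S29.helper5500.galois_smul_heckeOperatorBar`). -/
def Stmt_GalHecke : Prop :=
  ∀ (N : ℕ) [NeZero N] (q : Nat.Primes) (σ : GQ) (x : JZero N),
    σ • heckeOperatorBar N q x = heckeOperatorBar N q (σ • x)

/-! ### The assembly -/

/-- The kernel of an additive map is stable under the subalgebra generated by operators that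
stabilise it. -/
theorem ker_stable_of_mem_adjoin {J G : Type*} [AddCommGroup J] [AddCommGroup G] (ρ : J →+ G)
    (𝒯 : Set (Module.End ℤ J)) (h𝒯 : ∀ T ∈ 𝒯, ∀ x, ρ x = 0 → ρ (T x) = 0)
    {e : Module.End ℤ J} (he : e ∈ Algebra.adjoin ℤ 𝒯) : ∀ x, ρ x = 0 → ρ (e x) = 0 := by
  induction he using Algebra.adjoin_induction with
  | mem T hT => exact h𝒯 T hT
  | algebraMap n =>
    intro x hx
    rw [Algebra.algebraMap_eq_smul_one, LinearMap.smul_apply, Module.End.one_apply, map_zsmul, hx,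
      smul_zero]
  | add a b _ _ ha hb =>
    intro x hx
    rw [LinearMap.add_apply, map_add, ha x hx, hb x hx, add_zero]
  | mul a b _ _ ha hb =>
    intro x hx
    rw [Module.End.mul_apply]
    exact ha _ (hb x hx)

/-- Operators in the subalgebra generated by Galois-equivariant operators are
Galois-equivariant. -/
theorem galois_comm_of_mem_adjoin {p : ℕ} [NeZero p] (hGH : Stmt_GalHecke) (S : Finset ℕ)
    {t : Module.End ℤ (JZero p)} (ht : t ∈ Algebra.adjoin ℤ (heckeAway p S)) :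
    ∀ (σ : GQ) (x : JZero p), t (σ • x) = σ • t x := by
  induction ht using Algebra.adjoin_induction with
  | mem T hT =>
    obtain ⟨q, -, -, rfl⟩ := hT
    intro σ x
    exact (hGH p q σ x).symm
  | algebraMap n =>
    intro σ x
    rw [Algebra.algebraMap_eq_smul_one, LinearMap.smul_apply, LinearMap.smul_apply,
      Module.End.one_apply, Module.End.one_apply, smul_comm]
  | add a b _ _ ha hb =>
    intro σ x
    rw [LinearMap.add_apply, LinearMap.add_apply, ha, hb, smul_add]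
  | mul a b _ _ ha hb =>
    intro σ x
    rw [Module.End.mul_apply, Module.End.mul_apply, hb, ha]

/-- The uniform form of the descent implies the form of record. -/
theorem stmt_Div1_of_strong (h : Stmt_Div1Strong) : Stmt_Div1 := by
  intro p _ hp hp' c hc0 hpc _ hcEis
  have hp2 := hp.two_le
  have hp1 : p - 1 ≠ 0 := by omega
  have hord1 : addOrderOf c ≠ 1 := fun h => hc0 (AddMonoid.addOrderOf_eq_one_iff.mp h)
  obtain ⟨r, hr, hrc⟩ := Nat.exists_prime_and_dvd hord1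
  have hrp1 : r ∣ p - 1 := hrc.trans (addOrderOf_dvd_of_nsmul_eq_zero hpc)
  have hrle : r ≤ p - 1 := Nat.le_of_dvd (by omega) hrp1
  have hrp : r ≠ p := by omega
  refine ⟨r, hr, hrc, fun S m hm => ?_⟩
  obtain ⟨e, E, he, hE, heEis, hdiv⟩ := h p hp hp' r hr hrp S
  obtain ⟨θ, m', hθ, hθj, hm', hem⟩ := hdiv m hm
  refine ⟨e, he, E, ?_, heEis c hcEis, θ, m', hθ, hθj, hm', hem⟩
  obtain ⟨k, hk⟩ := Int.modEq_iff_dvd.mp hE.symm
  exact ⟨1, -k, by rw [one_mul]; linarith⟩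

/-- The plain Hecke kernel-stability implies the weak form of record (`m' = 1`). -/
theorem redHeckeW_of_redHecke (h : Stmt_RedHecke) : Stmt_RedHeckeW := by
  intro p _ hp r _ ℓ hℓ hℓp _ A hA
  refine ⟨1, fun hd => ?_, fun D _ hD t ht => ?_⟩
  · have := Nat.le_of_dvd Nat.one_pos hd
    have := ‹r.Prime›.two_le
    omega
  · rw [one_smul]
    refine ker_stable_of_mem_adjoin (reductionModL A p) (heckeAway p {ℓ}) ?_ ht D hD
    rintro T ⟨q, hqp, hqS, rfl⟩ x hx
    exact h p hp ℓ hℓ hℓp A hA q hqp (fun hq => hqS (by simp [hq])) x hx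

/-- The shapes of chat #68 give `Stmt_CuspBridge`. -/
theorem cuspBridge_of_bridgeFor
    (h : ∀ (p : ℕ) [NeZero p], p.Prime → p ∉ ({2, 3, 5, 7, 13} : Finset ℕ) →
      ∃ c : JZero p, IsCuspClass p c ∧ BridgeFor p c) : Stmt_CuspBridge := by
  intro p _ hp hp'
  have hp2ne : (2 : ℕ) ≠ p := by
    rintro rfl; exact hp' (by simp)
  have hp3ne : (3 : ℕ) ≠ p := by
    rintro rfl; exact hp' (by simp)
  obtain ⟨c, ⟨hcRat, hpc, hc0, hcEis⟩, hbr⟩ := h p hp hp'
  refine ⟨c, hc0, hpc, hcRat, hcEis, ?_⟩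
  intro W hΔ Q hQfix hQord h2Δ h2c₄ h2 h3Δ h3c₄ h3 ℓ hℓ hℓp hℓΔ hℓc₄ A hA hQ0
  obtain ⟨D, hD, hDs⟩ := hbr W hΔ Q hQfix hQord
  refine ⟨D, hD, fun A₂ hA₂ => ?_, fun A₃ hA₃ => ?_, ?_⟩
  · exact (hDs 2 Nat.prime_two hp2ne (by exact_mod_cast h2Δ) (by exact_mod_cast h2c₄) A₂ hA₂).1
      (h2 A₂ hA₂)
  · exact (hDs 3 Nat.prime_three hp3ne (by exact_mod_cast h3Δ) (by exact_mod_cast h3c₄) A₃ hA₃).1
      (h3 A₃ hA₃)
  · exact (hDs ℓ hℓ hℓp hℓΔ hℓc₄ A hA).2 hQ0

/-- **TOP SPEC of the Mazur block**: the frozen statement S15 from the block Props and the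
landed S17, S18 (+ two landed facts). -/
theorem result_of (hCB : Stmt_CuspBridge) (hLPM : Stmt_LPM) (hRI : Stmt_RedInputs)
    (hRH : Stmt_RedHeckeW) (hDIV : Stmt_Div1) (hS17 : Stmt_S17) (hS18 : Stmt_S18)
    (hPl : Stmt_Places) (hGH : Stmt_GalHecke)
    {p : ℕ} (hp : p.Prime) (hp' : p ∉ ({2, 3, 5, 7, 13} : Finset ℕ))
    (W : WeierstrassCurve ℤ) (hΔ : W.Δ ≠ 0)
    (Q : ((W.map (Int.castRingHom ℚ))⁄(AlgebraicClosure ℚ)).Point)
    (hQfix : ∀ σ : AlgebraicClosure ℚ ≃ₐ[ℚ] AlgebraicClosure ℚ, σ • Q = Q)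
    (hQord : addOrderOf Q = p)
    (h2Δ : (2 : ℤ) ∣ W.Δ) (h2c₄ : ¬ (2 : ℤ) ∣ W.c₄)
    (h2 : ∀ A : ValuationSubring (AlgebraicClosure ℚ), A.LiesOverPrime 2 → ¬ W.InZeroComponentAt A Q)
    (h3Δ : (3 : ℤ) ∣ W.Δ) (h3c₄ : ¬ (3 : ℤ) ∣ W.c₄)
    (h3 : ∀ A : ValuationSubring (AlgebraicClosure ℚ), A.LiesOverPrime 3 → ¬ W.InZeroComponentAt A Q)
    {ℓ : ℕ} (hℓ : ℓ.Prime) (hℓp : ℓ ≠ p) (hℓΔ : (ℓ : ℤ) ∣ W.Δ) (hℓc₄ : ¬ (ℓ : ℤ) ∣ W.c₄)
    (A : ValuationSubring (AlgebraicClosure ℚ)) (hA : A.LiesOverPrime ℓ) :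
    ¬ W.InZeroComponentAt A Q := by
  intro hQ0
  have : NeZero p := ⟨hp.ne_zero⟩
  -- small primes
  have hp5 : 5 ≤ p := by
    have h2 := hp.two_le
    simp only [Finset.mem_insert, Finset.mem_singleton, not_or] at hp'
    obtain ⟨n2, n3, n5, n7, n13⟩ := hp'
    by_contra hlt
    have : p = 2 ∨ p = 3 ∨ p = 4 := by omega
    rcases this with h | h | h
    · exact n2 h
    · exact n3 h
    · rw [h] at hp; exact absurd hp (by decide)
  -- the cuspidal class and the bridge class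
  obtain ⟨c, hc0, hpc, hcRat, hcEis, hbridge⟩ := hCB p hp hp'
  obtain ⟨D, hDrat, hD2, hD3, hDℓ⟩ :=
    hbridge W hΔ Q hQfix hQord h2Δ h2c₄ h2 h3Δ h3c₄ h3 ℓ hℓ hℓp hℓΔ hℓc₄ A hA hQ0
  -- the order of `c` and the Eisenstein prime `r`
  have hp1 : p - 1 ≠ 0 := by omega
  have hord0 : addOrderOf c ≠ 0 := by
    intro h
    have hdvd : addOrderOf c ∣ p - 1 := addOrderOf_dvd_of_nsmul_eq_zero hpc
    rw [h] at hdvd
    exact hp1 (Nat.eq_zero_of_zero_dvd hdvd)
  obtain ⟨r, hr, hrc, hdivr⟩ := hDIV p hp hp' c hc0 hpc hcRat hcEis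
  have hrp1 : r ∣ p - 1 := hrc.trans (addOrderOf_dvd_of_nsmul_eq_zero hpc)
  have hrle : r ≤ p - 1 := Nat.le_of_dvd (by omega) hrp1
  have hrp : r ≠ p := by omega
  -- `ℓ` is large
  have hℓbig : p ∣ ℓ - 1 ∨ p ∣ ℓ + 1 := hLPM p hp hp5 W hΔ Q hQfix hQord ℓ hℓ hℓp hℓΔ hℓc₄ A hA hQ0
  have hℓge : p ≤ ℓ + 1 := by
    rcases hℓbig with h | h
    · have hpos : 0 < ℓ - 1 := by have := hℓ.two_le; omega
      have := Nat.le_of_dvd hpos h
      omega
    · exact Nat.le_of_dvd (by omega) h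
  have hℓne : ℓ ≠ p - 1 := by
    intro h
    have hodd : p % 2 = 1 := by
      rcases hp.eq_two_or_odd with h2' | h2'
      · omega
      · exact h2'
    have h2dvd : 2 ∣ ℓ := by rw [h]; omega
    have : ℓ = 2 := ((Nat.prime_dvd_prime_iff_eq Nat.prime_two hℓ).mp h2dvd).symm
    omega
  have hℓr : ℓ ≠ r := by omega
  have hℓ2 : ℓ ≠ 2 := by omega
  have hℓ3 : ℓ ≠ 3 := by omega
  -- the auxiliary prime `s ∈ {2, 3}`, `s ≠ r`, and a place over it
  obtain ⟨s, hs, hsr, hsp, hsℓ, hDs⟩ : ∃ s : ℕ, s.Prime ∧ s ≠ r ∧ s ≠ p ∧ s ≠ ℓ ∧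
      ∀ As : ValuationSubring Qb, As.LiesOverPrime s → reductionModL As p D = 0 := by
    by_cases hr2 : r = 2
    · exact ⟨3, Nat.prime_three, by omega, by omega, fun h => hℓ3 h.symm, hD3⟩
    · exact ⟨2, Nat.prime_two, fun h => hr2 h.symm, by omega, fun h => hℓ2 h.symm, hD2⟩
  obtain ⟨As, hAs⟩ := hPl s hs
  -- kernel stability (weak form)
  have hmono : ∀ ℓ' ∈ ({s, ℓ} : Finset ℕ),
      Algebra.adjoin ℤ (heckeAway p {s, ℓ}) ≤ Algebra.adjoin ℤ (heckeAway p {ℓ'}) := by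
    intro ℓ' hℓ'S
    refine Algebra.adjoin_mono ?_
    rintro T ⟨q, hqp, hqS, rfl⟩
    exact ⟨q, hqp, fun hq => hqS (by rw [Finset.mem_singleton] at hq; rw [hq]; exact hℓ'S), rfl⟩
  -- injectivity on `r`-power torsion
  have hinj : ∀ (ℓ' : ℕ), ℓ'.Prime → ℓ' ≠ p → ℓ' ≠ r →
      ∀ A' : ValuationSubring Qb, A'.LiesOverPrime ℓ' →
        ∀ x : JZero p, (∃ j : ℕ, r ^ j • x = 0) → reductionModL A' p x = 0 → x = 0 := by
    intro ℓ' hℓ' hℓ'p hℓ'r A' hA' x ⟨j, hj⟩ hx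
    have : Fact ℓ'.Prime := ⟨hℓ'⟩
    refine hS18 p (fun h => hℓ'p ((Nat.prime_dvd_prime_iff_eq hℓ' hp).mp h)) A' hA'
      (hRI p hp ℓ' hℓ' hℓ'p A' hA') (r ^ j) ?_ x hj hx
    intro h
    exact hℓ'r ((Nat.prime_dvd_prime_iff_eq hℓ' hr).mp (hℓ'.dvd_of_dvd_pow h))
  -- the Mordell–Weil group
  have hMfg : (FixedPoints.addSubgroup GQ (JZero p)).FG :=
    (AddGroup.fg_iff_addSubgroup_fg _).mp (hS17 p hp hp5)
  have hmem : ∀ x : JZero p, x ∈ FixedPoints.addSubgroup GQ (JZero p) ↔ IsRat p x :=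
    fun x => Iff.rfl
  -- the class of descent operators
  let P : (JZero p →+ JZero p) → Prop := fun t =>
    ∃ t' ∈ Algebra.adjoin ℤ (heckeAway p {s, ℓ}), t = (t' : Module.End ℤ (JZero p)).toAddMonoidHom
  have hP1 : P (AddMonoidHom.id (JZero p)) :=
    ⟨1, Subalgebra.one_mem _, by ext x; rfl⟩
  have hPc : ∀ t₁ t₂ : JZero p →+ JZero p, P t₁ → P t₂ → P (t₂.comp t₁) := by
    rintro _ _ ⟨a, ha, rfl⟩ ⟨b, hb, rfl⟩
    exact ⟨b * a, Subalgebra.mul_mem _ hb ha, by ext x; rfl⟩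
  have hPM : ∀ t : JZero p →+ JZero p, P t →
      ∀ m ∈ FixedPoints.addSubgroup GQ (JZero p), t m ∈ FixedPoints.addSubgroup GQ (JZero p) := by
    rintro _ ⟨a, ha, rfl⟩ x hx σ
    have := galois_comm_of_mem_adjoin hGH {s, ℓ} ha σ x
    rw [(hmem x).mp hx σ] at this
    exact this.symm
  have hker : ∀ (ℓ' : ℕ), ℓ'.Prime → ℓ' ≠ p → ℓ' ≠ r → ℓ' ∈ ({s, ℓ} : Finset ℕ) →
      ∀ A' : ValuationSubring Qb, A'.LiesOverPrime ℓ' →
        ∃ m' : ℕ, ¬ r ∣ m' ∧ ∀ x ∈ FixedPoints.addSubgroup GQ (JZero p),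
          reductionModL A' p x = 0 → ∀ t : JZero p →+ JZero p, P t →
            reductionModL A' p (m' • t x) = 0 := by
    intro ℓ' hℓ' hℓ'p hℓ'r hℓ'S A' hA'
    obtain ⟨m', hm', hk⟩ := hRH p hp r hr ℓ' hℓ' hℓ'p hℓ'r A' hA'
    refine ⟨m', hm', ?_⟩
    rintro x hx hx0 _ ⟨a, ha, rfl⟩
    exact hk x ((hmem x).mp hx) hx0 a (hmono ℓ' hℓ'S ha)
  refine endgame_w (FixedPoints.addSubgroup GQ (JZero p)) hMfg r hr
    (reductionModL As p) (reductionModL A p)
    (hinj s hs hsp hsr As hAs) (hinj ℓ hℓ hℓp hℓr A hA) P hP1 hPc hPM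
    (hker s hs hsp hsr (by simp) As hAs) (hker ℓ hℓ hℓp hℓr (by simp) A hA)
    c ((hmem c).mpr hcRat) hord0 hrc ?_ D ((hmem D).mpr hDrat) (hDs As hAs) hDℓ
  intro m hm
  obtain ⟨t, ht, E, hE, htc, θ, m', hθ, hθj, hm', hem⟩ := hdivr {s, ℓ} m ((hmem m).mp hm)
  exact ⟨t.toAddMonoidHom, ⟨t, ht, rfl⟩, E, hE, htc, θ, (hmem θ).mpr hθ, m', (hmem m').mpr hm',
    hθj, hem⟩

end Fermat.Agent.S15.helper3201
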