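import Mathlib
import Fermat.Agent.S52.helper3042_RedHom
import Fermat.Agent.S13.helper149_KerB

/-!
# S15 pre-work (helper4637): the local dictionary "zero component <-> unit" at a node

`K` an algebraically closed field, `A : ValuationSubring K`, `π : A →+* k` a surjection onto a
field, `W : WeierstrassCurve A`.  A point `P` of `W` over `K` is *in the zero component* when it
reduces to a nonsingular point of `W.map π` (`helper3042.Red`).

For a point `P` of prime order `p` (odd, invertible in `k`):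

* `isUnit_sub_of_red`   : if `P` is in the zero component, then `x(mP) - x(nP)` is a unit of `A`
                          whenever `p ∤ m`, `p ∤ n`, `p ∤ m + n`, `m ≢ n mod p`;
* `mem_ker_sub_of_not_red` : if `P` is not in the zero component, then `x(mP) - x(nP)` lies in
                          the kernel of `π` whenever `p ∤ m`, `p ∤ n`;
* `isUnit_prodU_of_red`, `prodU_mem_ker_of_not_red` : the same for
  `U = ∏_{k=1}^{p-1} (x(kP) - x(2kP))`, `5 ≤ p`.

No Tate curve, no quotient curve: only additivity of reduction (`helper3042.Red.add`), the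
torsion-freeness of the kernel of reduction (`helper149.ker_bform`) and the uniqueness of the
singular point of a Weierstrass cubic.
-/

set_option autoImplicit false

namespace Fermat.Agent.S15.helper4637

open WeierstrassCurve
open Fermat.Agent.S52.helper3042

/-! ### Generalities on a Weierstrass curve over a field -/

section Field

variable {F : Type*} [Field F] {V : WeierstrassCurve F}

/-- The `x`-coordinate of a point (`0` at the origin). -/
def xOf (P : V.toAffine.Point) : F :=
  match P with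
  | .zero => 0
  | .some x _ _ => x

@[simp] theorem xOf_some {x y : F} (h : V.toAffine.Nonsingular x y) :
    xOf (Affine.Point.some x y h) = x := rfl

theorem xOf_zero : xOf (0 : V.toAffine.Point) = 0 := by
  show xOf Affine.Point.zero = 0
  rw [xOf]

/-- The unfolding lemmas of `xOf` are generated in this module, once (so that no downstream
module produces its own copy). -/
theorem xOf_eq_self (P : V.toAffine.Point) : xOf P = xOf P := by
  rw [xOf.eq_def]

/-- Two nonzero points with the same `x`-coordinate are equal or opposite. -/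
theorem eq_or_eq_neg_of_xOf_eq {P Q : V.toAffine.Point} (hP : P ≠ 0) (hQ : Q ≠ 0)
    (h : xOf P = xOf Q) : P = Q ∨ P = -Q := by
  rcases P with _ | ⟨x₁, y₁, h₁⟩
  · exact absurd rfl hP
  rcases Q with _ | ⟨x₂, y₂, h₂⟩
  · exact absurd rfl hQ
  simp only [xOf_some] at h
  subst h
  rcases Affine.Y_eq_of_X_eq h₁.1 h₂.1 rfl with hy | hy
  · left
    subst hy
    rfl
  · right
    rw [Affine.Point.neg_some]
    subst hy
    rfl

/-- **A Weierstrass cubic has at most one singular point.** -/
theorem x_eq_of_singular {x₁ y₁ x₂ y₂ : F} (h₁ : V.toAffine.Equation x₁ y₁)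
    (n₁ : ¬ V.toAffine.Nonsingular x₁ y₁) (h₂ : V.toAffine.Equation x₂ y₂)
    (n₂ : ¬ V.toAffine.Nonsingular x₂ y₂) : x₁ = x₂ := by
  rw [Affine.nonsingular_iff] at n₁ n₂
  have a₁ : V.a₁ * y₁ = 3 * x₁ ^ 2 + 2 * V.a₂ * x₁ + V.a₄ := by
    by_contra hc
    exact n₁ ⟨h₁, Or.inl hc⟩
  have b₁ : y₁ = -y₁ - V.a₁ * x₁ - V.a₃ := by
    by_contra hc
    exact n₁ ⟨h₁, Or.inr hc⟩
  have a₂ : V.a₁ * y₂ = 3 * x₂ ^ 2 + 2 * V.a₂ * x₂ + V.a₄ := by
    by_contra hc
    exact n₂ ⟨h₂, Or.inl hc⟩
  have b₂ : y₂ = -y₂ - V.a₁ * x₂ - V.a₃ := by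
    by_contra hc
    exact n₂ ⟨h₂, Or.inr hc⟩
  rw [Affine.equation_iff] at h₁ h₂
  have key : (x₂ - x₁) ^ 3 = 0 := by
    linear_combination 2 * h₂ - 2 * h₁ - (x₂ - x₁) * a₂ - (x₂ - x₁) * a₁
      - (y₂ - y₁) * b₂ - (y₂ - y₁) * b₁
  have := pow_eq_zero_iff (n := 3) (by norm_num) |>.mp key
  exact (sub_eq_zero.mp this).symm

end Field

/-! ### Reduction modulo a valuation subring -/

section Val

variable {K : Type*} [Field K] {k : Type*} [Field k] {A : ValuationSubring K} {π : A →+* k}
  {W : WeierstrassCurve A}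

/-- In residue characteristic two a nodal (or good) reduction still has `twoPoly ≠ 0`. -/
theorem twoPoly_ne_zero_of_c₄_ne_zero (V : WeierstrassCurve k) (h : V.c₄ ≠ 0) :
    twoPoly V ≠ 0 := by
  intro h0
  have h2 : (twoPoly V).coeff 2 = V.b₂ := by
    simp [twoPoly, Polynomial.coeff_X_pow]
  have h1 : (twoPoly V).coeff 1 = 2 * V.b₄ := by
    simp [twoPoly, Polynomial.coeff_X_pow]
  rw [h0, Polynomial.coeff_zero] at h2 h1
  apply h
  rw [WeierstrassCurve.c₄, ← h2]
  linear_combination 12 * h1

/-- An integral affine point that reduces, reduces coordinatewise. -/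
theorem Red.some_inv {x y : K} {h : (W.map A.subtype).toAffine.Nonsingular x y}
    {Pb : (W.map π).toAffine.Point} (hx : x ∈ A) (hy : y ∈ A)
    (hR : Red A π W (.some x y h) Pb) :
    ∃ hk : (W.map π).toAffine.Nonsingular (π ⟨x, hx⟩) (π ⟨y, hy⟩), Pb = .some _ _ hk := by
  obtain ⟨P', hE, hN, hP, rfl⟩ := hR
  have hNK := nonsingular_of_red hE hN
  have hzK : (A.subtype ∘ P') 2 ≠ 0 := by
    intro h0
    rw [Projective.Point.toAffine_of_Z_eq_zero h0] at hP
    exact Affine.Point.some_ne_zero h hP.symm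
  rw [Projective.Point.toAffine_of_Z_ne_zero hNK hzK, Affine.Point.some.injEq] at hP
  obtain ⟨hP0, hP1⟩ := hP
  have hz' : ((P' 2 : A) : K) ≠ 0 := by simpa using hzK
  have e0 : P' 0 = ⟨x, hx⟩ * P' 2 := by
    apply Subtype.val_injective
    simp only [MulMemClass.coe_mul]
    rw [← hP0]
    simp only [Function.comp_apply, ValuationSubring.subtype_apply]
    field_simp
  have e1 : P' 1 = ⟨y, hy⟩ * P' 2 := by
    apply Subtype.val_injective
    simp only [MulMemClass.coe_mul]
    rw [← hP1]
    simp only [Function.comp_apply, ValuationSubring.subtype_apply]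
    field_simp
  have hcomp : π ∘ P' = π (P' 2) • ![π ⟨x, hx⟩, π ⟨y, hy⟩, 1] := by
    funext i
    fin_cases i
    · simp [e0, mul_comm]
    · simp [e1, mul_comm]
    · simp
  have hz : π (P' 2) ≠ 0 := by
    intro h0
    apply ne_zero_of_nonsingular hN
    rw [hcomp, h0, zero_smul]
  have hN' : (W.map π).toProjective.Nonsingular ![π ⟨x, hx⟩, π ⟨y, hy⟩, 1] := by
    rw [hcomp, Projective.nonsingular_smul _ hz.isUnit] at hN
    exact hN
  refine ⟨(Projective.nonsingular_some _ _).mp hN', ?_⟩
  rw [hcomp, Projective.Point.toAffine_smul _ hz.isUnit]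
  exact Projective.Point.toAffine_some hN'

/-- An affine point reducing to the origin has a non-integral `x`-coordinate. -/
theorem Red.notMem_of_zero {x y : K} {h : (W.map A.subtype).toAffine.Nonsingular x y}
    (hR : Red A π W (.some x y h) 0) : x ∉ A := by
  intro hx
  have hy : y ∈ A := y_mem_of_x_mem hx h.1
  obtain ⟨hk, h0⟩ := Red.some_inv hx hy hR
  exact Affine.Point.some_ne_zero hk h0.symm

/-- A point reducing to a nonzero point is affine with integral `x`-coordinate, and the
`x`-coordinate of its reduction is the reduction of its `x`-coordinate. -/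
theorem Red.exists_coords (hπ : Function.Surjective π) {P : (W.map A.subtype).toAffine.Point}
    {Pb : (W.map π).toAffine.Point} (hR : Red A π W P Pb) (hPb : Pb ≠ 0) :
    ∃ a : A, xOf P = (a : K) ∧ xOf Pb = π a := by
  rcases P with _ | ⟨x, y, h⟩
  · exact absurd (Red.unique hR Red.zero) hPb
  by_cases hx : x ∈ A
  · have hy : y ∈ A := y_mem_of_x_mem hx h.1
    obtain ⟨hk, rfl⟩ := Red.some_inv hx hy hR
    exact ⟨⟨x, hx⟩, rfl, rfl⟩
  · exact absurd (Red.eq_zero_of_notMem hπ hR hx) hPb

/-- Trichotomy: a point either reduces to a nonsingular point, or it is an integral affine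
point whose reduction is a singular point. -/
theorem red_or_singular' (hπ : Function.Surjective π) (P : (W.map A.subtype).toAffine.Point) :
    (∃ Pb, Red A π W P Pb) ∨
      ∃ (x y : K) (h : (W.map A.subtype).toAffine.Nonsingular x y) (hx : x ∈ A) (hy : y ∈ A),
        P = .some x y h ∧ (W.map π).toAffine.Equation (π ⟨x, hx⟩) (π ⟨y, hy⟩) ∧
          ¬ (W.map π).toAffine.Nonsingular (π ⟨x, hx⟩) (π ⟨y, hy⟩) := by
  rcases P with _ | ⟨x, y, h⟩
  · exact Or.inl ⟨0, Red.zero⟩
  by_cases hx : x ∈ A
  · have hy : y ∈ A := y_mem_of_x_mem hx h.1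
    have hE : W.toAffine.Equation (⟨x, hx⟩ : A) ⟨y, hy⟩ :=
      (Affine.map_equation (W := W.toAffine) (f := A.subtype) Subtype.val_injective _ _).mp h.1
    by_cases hk : (W.map π).toAffine.Nonsingular (π ⟨x, hx⟩) (π ⟨y, hy⟩)
    · exact Or.inl ⟨_, Red.some ⟨x, hx⟩ ⟨y, hy⟩ h hk⟩
    · exact Or.inr ⟨x, y, h, hx, hy, rfl, Affine.Equation.map π hE, hk⟩
  · left
    have hQ : (![x, y, 1] : Fin 3 → K) ≠ 0 := by
      intro h0
      have := congrFun h0 2
      simp at this
    obtain ⟨c, hc, P', hP', i, hi⟩ := exists_prim A ![x, y, 1] hQ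
    have hNK : (W.map A.subtype).toProjective.Nonsingular (A.subtype ∘ P') := by
      rw [hP', Projective.nonsingular_smul _ hc.isUnit]
      exact (Projective.nonsingular_some _ _).mpr h
    have hE : W.toProjective.Equation P' :=
      (Projective.map_equation (W' := W.toProjective) Subtype.val_injective _).mp hNK.1
    have hne : π ∘ P' ≠ 0 := by
      intro h0
      have := congrFun h0 i
      simp [hi] at this
    have hEk : (W.map π).toProjective.Equation (π ∘ P') := Projective.Equation.map π hE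
    have hz : (π ∘ P') 2 = 0 := by
      by_contra hz
      have hu : IsUnit (P' 2) := isUnit_of_map_ne_zero hπ (by simpa using hz)
      obtain ⟨w, hw⟩ := hu.exists_right_inv
      apply hx
      have h0 : ((P' 0 : A) : K) = c * x := by
        have := congrFun hP' 0
        simpa using this
      have h2 : ((P' 2 : A) : K) = c := by
        have := congrFun hP' 2
        simpa using this
      have hw' : ((P' 2 : A) : K) * (w : K) = 1 := by
        have := congrArg (A.subtype) hw
        simpa using this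
      have hxe : x = ((P' 0 * w : A) : K) := by
        simp only [MulMemClass.coe_mul]
        rw [h0]
        rw [h2] at hw'
        linear_combination (-x) * hw'
      rw [hxe]
      exact (P' 0 * w).2
    have hx0 : (π ∘ P') 0 = 0 := Projective.X_eq_zero_of_Z_eq_zero hEk hz
    have hy0 : (π ∘ P') 1 ≠ 0 := by
      intro hy
      apply hne
      funext j
      fin_cases j
      · exact hx0
      · exact hy
      · exact hz
    have hNk : (W.map π).toProjective.Nonsingular (π ∘ P') := by
      rw [Projective.nonsingular_of_Z_eq_zero hz]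
      refine ⟨hEk, Or.inr ?_⟩
      rw [hx0]
      simpa using hy0
    refine ⟨_, P', hE, hNk, ?_, rfl⟩
    rw [hP', Projective.Point.toAffine_smul _ hc.isUnit]
    exact Projective.Point.toAffine_some ((Projective.nonsingular_some _ _).mpr h)

/-- Trichotomy, `x`-coordinate form. -/
theorem red_or_singular (hπ : Function.Surjective π) (P : (W.map A.subtype).toAffine.Point) :
    (∃ Pb, Red A π W P Pb) ∨
      ∃ a b : A, xOf P = (a : K) ∧ (W.map π).toAffine.Equation (π a) (π b) ∧
        ¬ (W.map π).toAffine.Nonsingular (π a) (π b) := by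
  rcases red_or_singular' hπ P with h | ⟨x, y, h, hx, hy, rfl, hE, hS⟩
  · exact Or.inl h
  · exact Or.inr ⟨⟨x, hx⟩, ⟨y, hy⟩, rfl, hE, hS⟩

variable [DecidableEq K] [DecidableEq k] [IsAlgClosed K]

/-- Reduction commutes with multiplication by `n`. -/
theorem Red.nsmul (hπ : Function.Surjective π) (h2 : twoPoly (W.map π) ≠ 0)
    {P : (W.map A.subtype).toAffine.Point} {Pb : (W.map π).toAffine.Point}
    (h : Red A π W P Pb) (n : ℕ) : Red A π W (n • P) (n • Pb) := by
  induction n with
  | zero => simpa using (Red.zero : Red A π W 0 0)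
  | succ n ih =>
    rw [succ_nsmul, succ_nsmul]
    exact Red.add hπ h2 ih h

omit [DecidableEq k] [IsAlgClosed K] in
/-- The kernel of reduction has no point of odd prime order invertible in the residue field. -/
theorem Red.ne_zero_of_addOrderOf (hπ : Function.Surjective π) {p : ℕ} (hp : p.Prime)
    (hp2 : p ≠ 2) (hpk : (p : k) ≠ 0) {P : (W.map A.subtype).toAffine.Point}
    {Pb : (W.map π).toAffine.Point} (hord : addOrderOf P = p) (h : Red A π W P Pb) :
    Pb ≠ 0 := by
  rintro rfl
  have hpP : p • P = 0 := by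
    rw [← hord]
    exact addOrderOf_nsmul_eq_zero P
  rcases P with _ | ⟨x, y, hxy⟩
  · have h0 : addOrderOf (0 : (W.map A.subtype).toAffine.Point) = 1 := addOrderOf_zero
    have : addOrderOf (Affine.Point.zero : (W.map A.subtype).toAffine.Point) = 1 := h0
    rw [hord] at this
    exact hp.ne_one this
  have hx : x ∉ A := Red.notMem_of_zero h
  have hv : 1 < A.valuation x := not_le.mp ((A.valuation_le_one_iff x).not.mpr hx)
  have hb : ∀ c : A, A.valuation (c : K) ≤ 1 := fun c => (A.valuation_le_one_iff _).mpr c.2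
  have hpu : IsUnit ((p : ℕ) : A) := isUnit_of_map_ne_zero hπ (by simpa using hpk)
  have hvp : A.valuation ((p : ℕ) : K) = 1 := by
    have := A.valuation_unit hpu.unit
    simpa using this
  exact Fermat.Agent.S13.helper149.ker_bform (W := (W.map A.subtype).toAffine) A.valuation
    (by simp) (by simp) (by simp)
    (by simp) hp hp2 hvp hxy hv hpP

/-- **Zero component ⟹ unit.** -/
theorem isUnit_sub_of_red (hπ : Function.Surjective π) (h2 : twoPoly (W.map π) ≠ 0)
    {p : ℕ} (hp : p.Prime) (hp2 : p ≠ 2) (hpk : (p : k) ≠ 0)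
    {P : (W.map A.subtype).toAffine.Point} {Pb : (W.map π).toAffine.Point}
    (hord : addOrderOf P = p) (hP : Red A π W P Pb) {m n : ℕ}
    (hm : ¬ p ∣ m) (hn : ¬ p ∣ n) (hmn : ¬ p ∣ m + n) (hmn' : ¬ m ≡ n [MOD p]) :
    ∃ u : A, IsUnit u ∧ (u : K) = xOf (m • P) - xOf (n • P) := by
  have hPb : Pb ≠ 0 := Red.ne_zero_of_addOrderOf hπ hp hp2 hpk hord hP
  have hpP : p • P = 0 := by
    rw [← hord]
    exact addOrderOf_nsmul_eq_zero P
  have hpPb : p • Pb = 0 := by
    have h1 := Red.nsmul hπ h2 hP p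
    rw [hpP] at h1
    exact Red.unique h1 Red.zero
  have hordb : addOrderOf Pb = p := by
    rcases (Nat.dvd_prime hp).mp (addOrderOf_dvd_of_nsmul_eq_zero hpPb) with h1 | h1
    · exact absurd (AddMonoid.addOrderOf_eq_one_iff.mp h1) hPb
    · exact h1
  have hmb : m • Pb ≠ 0 := fun h0 => hm (hordb ▸ addOrderOf_dvd_of_nsmul_eq_zero h0)
  have hnb : n • Pb ≠ 0 := fun h0 => hn (hordb ▸ addOrderOf_dvd_of_nsmul_eq_zero h0)
  obtain ⟨a, ha, ha'⟩ := Red.exists_coords hπ (Red.nsmul hπ h2 hP m) hmb
  obtain ⟨b, hb, hb'⟩ := Red.exists_coords hπ (Red.nsmul hπ h2 hP n) hnb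
  refine ⟨a - b, isUnit_of_map_ne_zero hπ ?_, by rw [ha, hb]; rfl⟩
  intro h0
  have hx : xOf (m • Pb) = xOf (n • Pb) := by
    rw [ha', hb']
    rw [map_sub, sub_eq_zero] at h0
    exact h0
  rcases eq_or_eq_neg_of_xOf_eq hmb hnb hx with h | h
  · apply hmn'
    have := nsmul_eq_nsmul_iff_modEq.mp h
    rwa [hordb] at this
  · apply hmn
    rw [← hordb]
    apply addOrderOf_dvd_of_nsmul_eq_zero
    rw [add_nsmul, h, neg_add_cancel]

/-- A multiple `m • P`, `p ∤ m`, of a point of order `p` outside the zero component is outside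
the zero component. -/
theorem not_red_nsmul (hπ : Function.Surjective π) (h2 : twoPoly (W.map π) ≠ 0)
    {p : ℕ} (hp : p.Prime) {P : (W.map A.subtype).toAffine.Point}
    (hord : addOrderOf P = p) (hP : ¬ ∃ Pb, Red A π W P Pb) {m : ℕ} (hm : ¬ p ∣ m) :
    ¬ ∃ Qb, Red A π W (m • P) Qb := by
  rintro ⟨Qb, hQ⟩
  have hcop : Nat.Coprime m p := ((Nat.Prime.coprime_iff_not_dvd hp).mpr hm).symm
  obtain ⟨c, -, hc⟩ := Nat.exists_mul_mod_eq_one_of_coprime hcop hp.one_lt
  have e : c • (m • P) = P := by
    rw [← mul_nsmul, ← mod_addOrderOf_nsmul, hord, hc, one_nsmul]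
  have h1 := Red.nsmul hπ h2 hQ c
  rw [e] at h1
  exact hP ⟨_, h1⟩

/-- **Outside the zero component ⟹ non-unit.** -/
theorem mem_ker_sub_of_not_red (hπ : Function.Surjective π) (h2 : twoPoly (W.map π) ≠ 0)
    {p : ℕ} (hp : p.Prime) {P : (W.map A.subtype).toAffine.Point}
    (hord : addOrderOf P = p) (hP : ¬ ∃ Pb, Red A π W P Pb) {m n : ℕ}
    (hm : ¬ p ∣ m) (hn : ¬ p ∣ n) :
    ∃ t : A, π t = 0 ∧ (t : K) = xOf (m • P) - xOf (n • P) := by
  rcases red_or_singular hπ (m • P) with h | ⟨a, b, ha, hE, hS⟩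
  · exact absurd h (not_red_nsmul hπ h2 hp hord hP hm)
  rcases red_or_singular hπ (n • P) with h | ⟨a', b', ha', hE', hS'⟩
  · exact absurd h (not_red_nsmul hπ h2 hp hord hP hn)
  refine ⟨a - a', ?_, by rw [ha, ha']; rfl⟩
  rw [map_sub, sub_eq_zero]
  exact x_eq_of_singular hE hS hE' hS'

/-- `U(P) = ∏_{k=1}^{p-1} (x(kP) - x(2kP))`. -/
noncomputable def prodU {F : Type*} [Field F] [DecidableEq F] {V : WeierstrassCurve F} (p : ℕ)
    (P : V.toAffine.Point) : F :=
  ∏ j ∈ Finset.Icc 1 (p - 1), (xOf (j • P) - xOf ((2 * j) • P))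

/-- **Zero component ⟹ `U` is a unit.** -/
theorem isUnit_prodU_of_red (hπ : Function.Surjective π) (h2 : twoPoly (W.map π) ≠ 0)
    {p : ℕ} (hp : p.Prime) (hp5 : 5 ≤ p) (hpk : (p : k) ≠ 0)
    {P : (W.map A.subtype).toAffine.Point} {Pb : (W.map π).toAffine.Point}
    (hord : addOrderOf P = p) (hP : Red A π W P Pb) :
    ∃ u : A, IsUnit u ∧ (u : K) = prodU p P := by
  have hp2 : p ≠ 2 := by omega
  unfold prodU
  refine Finset.prod_induction _ (fun z : K => ∃ u : A, IsUnit u ∧ (u : K) = z) ?_ ?_ ?_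
  · rintro _ _ ⟨u, hu, rfl⟩ ⟨u', hu', rfl⟩
    exact ⟨u * u', hu.mul hu', rfl⟩
  · exact ⟨1, isUnit_one, rfl⟩
  · intro j hj
    rw [Finset.mem_Icc] at hj
    have hj1 : ¬ p ∣ j := fun h => by
      have := Nat.le_of_dvd (by omega) h
      omega
    have h2j : ¬ p ∣ 2 * j := fun h => by
      rcases (Nat.Prime.dvd_mul hp).mp h with h | h
      · have := Nat.le_of_dvd (by norm_num) h
        omega
      · exact hj1 h
    have h3j : ¬ p ∣ j + 2 * j := fun h => by
      have h' : p ∣ 3 * j := by
        have e : j + 2 * j = 3 * j := by ring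
        rwa [e] at h
      rcases (Nat.Prime.dvd_mul hp).mp h' with h | h
      · have := Nat.le_of_dvd (by norm_num) h
        omega
      · exact hj1 h
    have hmod : ¬ j ≡ 2 * j [MOD p] := fun h => by
      have h' := (Nat.modEq_iff_dvd' (by omega : j ≤ 2 * j)).mp h
      have e : 2 * j - j = j := by omega
      rw [e] at h'
      exact hj1 h'
    exact isUnit_sub_of_red hπ h2 hp hp2 hpk hord hP hj1 h2j h3j hmod

/-- **Outside the zero component ⟹ `U` is a non-unit.** -/
theorem prodU_mem_ker_of_not_red (hπ : Function.Surjective π) (h2 : twoPoly (W.map π) ≠ 0)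
    {p : ℕ} (hp : p.Prime) (hp3 : 3 ≤ p) {P : (W.map A.subtype).toAffine.Point}
    (hord : addOrderOf P = p) (hP : ¬ ∃ Pb, Red A π W P Pb) :
    ∃ t : A, π t = 0 ∧ (t : K) = prodU p P := by
  unfold prodU
  refine Finset.prod_induction_nonempty _ (fun z : K => ∃ t : A, π t = 0 ∧ (t : K) = z) ?_ ?_ ?_
  · rintro _ _ ⟨t, ht, rfl⟩ ⟨t', -, rfl⟩
    exact ⟨t * t', by rw [map_mul, ht, zero_mul], rfl⟩
  · exact ⟨1, Finset.mem_Icc.mpr ⟨le_rfl, by omega⟩⟩
  · intro j hj
    rw [Finset.mem_Icc] at hj
    have hj1 : ¬ p ∣ j := fun h => by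
      have := Nat.le_of_dvd (by omega) h
      omega
    have h2j : ¬ p ∣ 2 * j := fun h => by
      rcases (Nat.Prime.dvd_mul hp).mp h with h | h
      · have := Nat.le_of_dvd (by norm_num) h
        omega
      · exact hj1 h
    exact mem_ker_sub_of_not_red hπ h2 hp hord hP hj1 h2j

end Val

end Fermat.Agent.S15.helper4637
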