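import Mathlib
import Fermat.Prelude.Def_EllipticCurve_ZeroComponentAt
import Fermat.Prelude.Def_FLTPrelim_Ramification
import Fermat.Agent.S15.helper4637_NodeDict

/-!
# S15 pre-work (helper4637): the local dictionary in the frozen vocabulary

`W : WeierstrassCurve ℤ`, `Q` a point of `W` over `AlgebraicClosure ℚ` of prime order `p ≥ 5`,
`A` a valuation subring of `AlgebraicClosure ℚ` over a prime `ℓ ≠ p` with `ℓ ∤ c₄(W)`.  With
`U = prodU p Q = ∏_{k=1}^{p-1} (x(kQ) - x(2kQ))`: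

* `valuation_prodU_eq_one_of_inZero` : `W.InZeroComponentAt A Q → A.valuation U = 1`;
* `valuation_prodU_lt_one_of_not_inZero` : `¬ W.InZeroComponentAt A Q → A.valuation U < 1`;
* `inZero_iff_valuation_prodU` : `W.InZeroComponentAt A Q ↔ A.valuation U = 1`;
* `gVal`, `inZero_iff_valuation_gVal` : the same for `G = p¹² U⁶ / c₄^{3(p-1)}`, the value at
  `(E, ⟨Q⟩)` of the modular function `u / j^{p-1}` (`u` the Prelude modular unit);
* `prodU_mem_range` : `U` is rational when `Q` is Galois-fixed.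
-/

set_option autoImplicit false

namespace Fermat.Agent.S15.helper4637

open WeierstrassCurve WeierstrassCurve.Affine
open Fermat.Agent.S52.helper3042

/-! ### Generic form -/

section Generic

variable {K : Type*} [Field K] {k : Type*} [Field k] {A : ValuationSubring K} {π : A →+* k}
  {W : WeierstrassCurve A} {E : WeierstrassCurve K}

/-- The shape of the frozen definition `WeierstrassCurve.InZeroComponentAt`, abstractly. -/
def ZeroComp (π : A →+* k) (W : WeierstrassCurve A) (P : E.toAffine.Point) : Prop :=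
  P = 0 ∨ ∃ (x y : K) (h : E.toAffine.Nonsingular x y), P = .some x y h ∧
    (x ∉ A ∨ ∃ (hx : x ∈ A) (hy : y ∈ A),
      (W.map π).toAffine.Nonsingular (π ⟨x, hx⟩) (π ⟨y, hy⟩))

theorem zeroComp_iff_red (hπ : Function.Surjective π) (P : (W.map A.subtype).toAffine.Point) :
    ZeroComp π W P ↔ ∃ Pb, Red A π W P Pb := by
  constructor
  · rintro (rfl | ⟨x, y, h, rfl, hx | ⟨hx, hy, hk⟩⟩)
    · exact ⟨0, Red.zero⟩
    · rcases red_or_singular' hπ (Affine.Point.some x y h) with hR | ⟨x', y', h', hx', -, e, -, -⟩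
      · exact hR
      · rw [Affine.Point.some.injEq] at e
        exact absurd (e.1 ▸ hx') hx
    · exact ⟨_, Red.some ⟨x, hx⟩ ⟨y, hy⟩ h hk⟩
  · rintro ⟨Pb, hR⟩
    rcases P with _ | ⟨x, y, h⟩
    · exact Or.inl rfl
    · refine Or.inr ⟨x, y, h, rfl, ?_⟩
      by_cases hx : x ∈ A
      · have hy : y ∈ A := y_mem_of_x_mem hx h.1
        obtain ⟨hk, -⟩ := Red.some_inv hx hy hR
        exact Or.inr ⟨hx, hy, hk⟩
      · exact Or.inl hx

variable [DecidableEq K] [IsAlgClosed K]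

/-- Zero component ⟹ `U` is a unit, for a curve `E` over `K` with an integral model `W`. -/
theorem valuation_prodU_eq_one (hπ : Function.Surjective π) (hE : W.map A.subtype = E)
    (h2 : twoPoly (W.map π) ≠ 0) {p : ℕ} (hp : p.Prime) (hp5 : 5 ≤ p) (hpk : (p : k) ≠ 0)
    {P : E.toAffine.Point} (hord : addOrderOf P = p) (h : ZeroComp π W P) :
    A.valuation (prodU p P) = 1 := by
  classical
  subst hE
  obtain ⟨Pb, hR⟩ := (zeroComp_iff_red hπ P).mp h
  obtain ⟨u, hu, e⟩ := isUnit_prodU_of_red hπ h2 hp hp5 hpk hord hR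
  rw [← e]
  exact A.valuation_unit hu.unit

/-- Outside the zero component ⟹ `U` is a non-unit. -/
theorem valuation_prodU_lt_one (hπ : Function.Surjective π) (hE : W.map A.subtype = E)
    (h2 : twoPoly (W.map π) ≠ 0) {p : ℕ} (hp : p.Prime) (hp3 : 3 ≤ p)
    {P : E.toAffine.Point} (hord : addOrderOf P = p) (h : ¬ ZeroComp π W P) :
    A.valuation (prodU p P) < 1 := by
  classical
  subst hE
  have h' : ¬ ∃ Pb, Red A π W P Pb := fun hR => h ((zeroComp_iff_red hπ P).mpr hR)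
  obtain ⟨t, ht, e⟩ := prodU_mem_ker_of_not_red hπ h2 hp hp3 hord h'
  rw [← e]
  refine (A.valuation_lt_one_iff t).mp ?_
  rw [IsLocalRing.mem_maximalIdeal, mem_nonunits_iff]
  intro hu
  have := hu.map π
  rw [ht] at this
  exact not_isUnit_zero this

end Generic

/-! ### The frozen vocabulary -/

section Frozen

local notation "Qb" => AlgebraicClosure ℚ

/-- The model of `W` over the valuation subring `A`. -/
noncomputable def modelA (W : WeierstrassCurve ℤ) (A : ValuationSubring Qb) : WeierstrassCurve A :=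
  W.map (Int.castRingHom A)

theorem modelA_map_subtype (W : WeierstrassCurve ℤ) (A : ValuationSubring Qb) :
    (modelA W A).map A.subtype = (W.map (Int.castRingHom ℚ))⁄Qb := by
  show (W.map (Int.castRingHom A)).map A.subtype =
    (W.map (Int.castRingHom ℚ)).map (algebraMap ℚ Qb)
  rw [WeierstrassCurve.map_map, WeierstrassCurve.map_map]
  congr 1

theorem modelA_map_residue (W : WeierstrassCurve ℤ) (A : ValuationSubring Qb) :
    (modelA W A).map (IsLocalRing.residue A) =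
      W.map (Int.castRingHom (IsLocalRing.ResidueField A)) := by
  show (W.map (Int.castRingHom A)).map (IsLocalRing.residue A) = _
  rw [WeierstrassCurve.map_map]
  congr 1

/-- The frozen `InZeroComponentAt` is the abstract `ZeroComp` of the model over `A`. -/
theorem inZero_iff_zeroComp (W : WeierstrassCurve ℤ) (A : ValuationSubring Qb)
    (Q : ((W.map (Int.castRingHom ℚ))⁄Qb).Point) :
    W.InZeroComponentAt A Q ↔
      ZeroComp (E := (W.map (Int.castRingHom ℚ))⁄Qb) (IsLocalRing.residue A) (modelA W A) Q := by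
  unfold WeierstrassCurve.InZeroComponentAt ZeroComp
  rw [modelA_map_residue]
  rfl

/-- An integer prime to `ℓ` is nonzero in the residue field of a valuation subring over `ℓ`. -/
theorem residue_intCast_ne_zero {ℓ : ℕ} (hℓ : ℓ.Prime) (A : ValuationSubring Qb)
    (hA : A.LiesOverPrime ℓ) {n : ℤ} (hn : ¬ (ℓ : ℤ) ∣ n) :
    ((n : ℤ) : IsLocalRing.ResidueField A) ≠ 0 := by
  intro h0
  obtain ⟨a, b, hab⟩ : IsCoprime (ℓ : ℤ) n :=
    (Prime.coprime_iff_not_dvd (Nat.prime_iff_prime_int.mp hℓ)).mpr hn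
  have hn_mem : ((n : ℤ) : A) ∈ IsLocalRing.maximalIdeal A := by
    rw [← IsLocalRing.residue_eq_zero_iff]
    simpa using h0
  have hℓ_mem : ((ℓ : ℤ) : A) ∈ IsLocalRing.maximalIdeal A := by
    obtain ⟨ha, hmem⟩ := ValuationSubring.mem_nonunits_iff_exists_mem_maximalIdeal.mp hA
    have e : (⟨(ℓ : Qb), ha⟩ : A) = ((ℓ : ℤ) : A) := by
      apply Subtype.ext
      simp
    rwa [e] at hmem
  have h1 : (1 : A) ∈ IsLocalRing.maximalIdeal A := by
    have e : (1 : A) = (a : A) * ((ℓ : ℤ) : A) + (b : A) * ((n : ℤ) : A) := by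
      rw [← Int.cast_mul, ← Int.cast_mul, ← Int.cast_add, hab, Int.cast_one]
    rw [e]
    exact Ideal.add_mem _ (Ideal.mul_mem_left _ _ hℓ_mem) (Ideal.mul_mem_left _ _ hn_mem)
  exact (Ideal.ne_top_iff_one _).mp (IsLocalRing.maximalIdeal.isMaximal A).ne_top h1

/-- An integer prime to `ℓ` has valuation one. -/
theorem valuation_intCast_eq_one {ℓ : ℕ} (hℓ : ℓ.Prime) (A : ValuationSubring Qb)
    (hA : A.LiesOverPrime ℓ) {n : ℤ} (hn : ¬ (ℓ : ℤ) ∣ n) : A.valuation ((n : ℤ) : Qb) = 1 := by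
  have hu : IsUnit ((n : ℤ) : A) := by
    refine isUnit_of_map_ne_zero (π := IsLocalRing.residue A) IsLocalRing.residue_surjective ?_
    have := residue_intCast_ne_zero hℓ A hA hn
    simpa using this
  have := A.valuation_unit hu.unit
  simpa using this

variable (W : WeierstrassCurve ℤ) {p : ℕ} (hp : p.Prime)
  (Q : ((W.map (Int.castRingHom ℚ))⁄Qb).Point) (hQord : addOrderOf Q = p)
  {ℓ : ℕ} (hℓ : ℓ.Prime) (hℓp : ℓ ≠ p) (hℓc₄ : ¬ (ℓ : ℤ) ∣ W.c₄)
  (A : ValuationSubring Qb) (hA : A.LiesOverPrime ℓ)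

include hℓ hℓc₄ hA in
theorem twoPoly_modelA_ne_zero :
    twoPoly ((modelA W A).map (IsLocalRing.residue A)) ≠ 0 := by
  apply twoPoly_ne_zero_of_c₄_ne_zero
  rw [modelA_map_residue, WeierstrassCurve.map_c₄]
  have := residue_intCast_ne_zero hℓ A hA hℓc₄
  simpa using this

include hp hℓ hℓp hA in
theorem residue_natCast_ne_zero : ((p : ℕ) : IsLocalRing.ResidueField A) ≠ 0 := by
  have hnd : ¬ (ℓ : ℤ) ∣ (p : ℤ) := by
    intro h
    have := (Nat.prime_dvd_prime_iff_eq hℓ hp).mp (Int.natCast_dvd_natCast.mp h)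
    exact hℓp this
  have := residue_intCast_ne_zero hℓ A hA hnd
  simpa using this

include hp hQord hℓ hℓp hℓc₄ hA in
/-- **Frozen dictionary, zero component side.** -/
theorem valuation_prodU_eq_one_of_inZero (hp5 : 5 ≤ p) (h : W.InZeroComponentAt A Q) :
    A.valuation (prodU p Q) = 1 :=
  valuation_prodU_eq_one (π := IsLocalRing.residue A) IsLocalRing.residue_surjective
    (modelA_map_subtype W A) (twoPoly_modelA_ne_zero W hℓ hℓc₄ A hA) hp hp5
    (residue_natCast_ne_zero hp hℓ hℓp A hA) hQord ((inZero_iff_zeroComp W A Q).mp h)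

include hp hQord hℓ hℓc₄ hA in
/-- **Frozen dictionary, other components.** -/
theorem valuation_prodU_lt_one_of_not_inZero (hp3 : 3 ≤ p) (h : ¬ W.InZeroComponentAt A Q) :
    A.valuation (prodU p Q) < 1 :=
  valuation_prodU_lt_one (π := IsLocalRing.residue A) IsLocalRing.residue_surjective
    (modelA_map_subtype W A) (twoPoly_modelA_ne_zero W hℓ hℓc₄ A hA) hp hp3 hQord
    (fun hz => h ((inZero_iff_zeroComp W A Q).mpr hz))

include hp hQord hℓ hℓp hℓc₄ hA in
theorem inZero_iff_valuation_prodU (hp5 : 5 ≤ p) :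
    W.InZeroComponentAt A Q ↔ A.valuation (prodU p Q) = 1 := by
  constructor
  · exact valuation_prodU_eq_one_of_inZero W hp Q hQord hℓ hℓp hℓc₄ A hA hp5
  · intro h1
    by_contra hn
    have := valuation_prodU_lt_one_of_not_inZero W hp Q hQord hℓ hℓc₄ A hA (by omega) hn
    rw [h1] at this
    exact lt_irrefl _ this

/-- The value at `(E, ⟨Q⟩)` of the modular function `u / j ^ (p - 1)`,
`u = Δ(q) / Δ(q ^ p)`: `G = p ^ 12 * U ^ 6 / c₄ ^ (3 * (p - 1))`. -/
noncomputable def gVal (W : WeierstrassCurve ℤ) (p : ℕ)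
    (Q : ((W.map (Int.castRingHom ℚ))⁄Qb).Point) : Qb :=
  (p : Qb) ^ 12 * prodU p Q ^ 6 / ((W.c₄ : ℤ) : Qb) ^ (3 * (p - 1))

include hp hℓ hℓp hℓc₄ hA in
theorem valuation_gVal : A.valuation (gVal W p Q) = A.valuation (prodU p Q) ^ 6 := by
  have hnd : ¬ (ℓ : ℤ) ∣ (p : ℤ) := by
    intro h
    have := (Nat.prime_dvd_prime_iff_eq hℓ hp).mp (Int.natCast_dvd_natCast.mp h)
    exact hℓp this
  have h1 : A.valuation ((p : ℕ) : Qb) = 1 := by
    have := valuation_intCast_eq_one hℓ A hA hnd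
    simpa using this
  have h2 : A.valuation ((W.c₄ : ℤ) : Qb) = 1 := valuation_intCast_eq_one hℓ A hA hℓc₄
  unfold gVal
  rw [map_div₀, map_mul, map_pow, map_pow, map_pow, h1, h2, one_pow, one_pow, one_mul, div_one]

include hp hQord hℓ hℓp hℓc₄ hA in
theorem valuation_gVal_lt_one_of_not_inZero (hp5 : 5 ≤ p) (h : ¬ W.InZeroComponentAt A Q) :
    A.valuation (gVal W p Q) < 1 := by
  rw [valuation_gVal W hp Q hℓ hℓp hℓc₄ A hA]
  have := valuation_prodU_lt_one_of_not_inZero W hp Q hQord hℓ hℓc₄ A hA (by omega) h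
  exact pow_lt_one₀ zero_le this (by norm_num)

include hp hQord hℓ hℓp hℓc₄ hA in
/-- **Frozen dictionary for `G`**: `G(E, ⟨Q⟩)` is a unit at `A` iff `Q` is in the zero
component at `A`. -/
theorem inZero_iff_valuation_gVal (hp5 : 5 ≤ p) :
    W.InZeroComponentAt A Q ↔ A.valuation (gVal W p Q) = 1 := by
  constructor
  · intro h
    rw [valuation_gVal W hp Q hℓ hℓp hℓc₄ A hA,
      valuation_prodU_eq_one_of_inZero W hp Q hQord hℓ hℓp hℓc₄ A hA hp5 h, one_pow]
  · intro h1
    by_contra hn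
    have := valuation_gVal_lt_one_of_not_inZero W hp Q hQord hℓ hℓp hℓc₄ A hA hp5 hn
    rw [h1] at this
    exact lt_irrefl _ this

/-! ### Rationality -/

omit hp hQord hℓ hℓp hℓc₄ hA in
theorem xOf_smul (σ : Qb ≃ₐ[ℚ] Qb) (P : ((W.map (Int.castRingHom ℚ))⁄Qb).Point) :
    xOf (σ • P) = σ (xOf P) := by
  rcases P with _ | ⟨x, y, h⟩
  · exact (map_zero σ).symm
  · rfl

omit hp hQord hℓ hℓp hℓc₄ hA in
theorem smul_nsmul_point (σ : Qb ≃ₐ[ℚ] Qb) (n : ℕ)
    (P : ((W.map (Int.castRingHom ℚ))⁄Qb).Point) : σ • (n • P) = n • (σ • P) := by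
  rw [Point.algEquiv_smul_def, Point.algEquiv_smul_def]
  exact map_nsmul (Point.map σ.toAlgHom) n P

omit hp hQord hℓ hℓp hℓc₄ hA in
/-- `U` is rational when `Q` is Galois-fixed. -/
theorem prodU_mem_range (p : ℕ) (hfix : ∀ σ : Qb ≃ₐ[ℚ] Qb, σ • Q = Q) :
    prodU p Q ∈ Set.range (algebraMap ℚ Qb) := by
  have : IsAlgClosure ℚ Qb := ⟨inferInstance, AlgebraicClosure.isAlgebraic ℚ⟩
  have : IsGalois ℚ Qb := inferInstance
  rw [InfiniteGalois.mem_range_algebraMap_iff_fixed]
  intro σ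
  unfold prodU
  rw [map_prod]
  refine Finset.prod_congr rfl fun j _ => ?_
  rw [map_sub, ← xOf_smul, ← xOf_smul, smul_nsmul_point, smul_nsmul_point, hfix σ]

omit hp hQord hℓ hℓp hℓc₄ hA in
/-- `G(E, ⟨Q⟩)` is rational when `Q` is Galois-fixed. -/
theorem gVal_mem_range (p : ℕ) (hfix : ∀ σ : Qb ≃ₐ[ℚ] Qb, σ • Q = Q) :
    gVal W p Q ∈ Set.range (algebraMap ℚ Qb) := by
  obtain ⟨r, hr⟩ := prodU_mem_range W Q p hfix
  refine ⟨(p : ℚ) ^ 12 * r ^ 6 / ((W.c₄ : ℤ) : ℚ) ^ (3 * (p - 1)), ?_⟩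
  unfold gVal
  rw [← hr]
  simp

end Frozen

end Fermat.Agent.S15.helper4637
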