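import Mathlib
import Fermat.Prelude.Def_EllipticCurve_ZeroComponentAt
import Fermat.Prelude.Def_FLTPrelim_Ramification
import Fermat.Agent.S15.helper4637_LocalDict

/-!
# S15 (helper4637): the local dictionary for `ψ₂`-products, frozen vocabulary

`ψ₂(P) = 2y + a₁x + a₃` for an affine point `P = (x, y)` (`psiOf`, `0` at the origin) and
`Π(Q) = ∏_{k=1}^{p-1} ψ₂(kQ)` (`prodPsi`).

`W : WeierstrassCurve ℤ`, `Q` a point of `W` over `AlgebraicClosure ℚ` of odd prime order `p`,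
`A` a valuation subring of `AlgebraicClosure ℚ` over a prime `ℓ ≠ p` with `ℓ ∤ c₄(W)`
(every residue characteristic, `2` and `3` included):

* `valuation_psiOf_eq_one_of_inZero` : `W.InZeroComponentAt A Q → p ∤ k → v(ψ₂(kQ)) = 1`;
* `valuation_psiOf_lt_one_of_not_inZero` : `¬ W.InZeroComponentAt A Q → p ∤ k → v(ψ₂(kQ)) < 1`;
* `inZero_iff_valuation_prodPsi` : `W.InZeroComponentAt A Q ↔ v(Π(Q)) = 1`;
* `wVal W p Q = p¹² Π(Q)⁴ / c₄^{3(p-1)}` (value of `u / j^{p-1}` at `(E, ⟨Q⟩)`,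
  `u = Δ(q)/Δ(q^p)`), `uVal W p Q = p¹² Π(Q)⁴ / Δ^{p-1}` (value of `u`):
  `inZero_iff_valuation_wVal`, `inv_wVal_notMem_of_not_inZero`, `uVal_notMem_of_inZero`;
* `prodPsi_mem_range`, `wVal_mem_range`, `uVal_mem_range` : rationality for Galois-fixed `Q`.
-/

set_option autoImplicit false

namespace Fermat.Agent.S15.helper4637

open WeierstrassCurve WeierstrassCurve.Affine
open Fermat.Agent.S52.helper3042

/-! ### Generalities over a field -/

section Field

variable {F : Type*} [Field F] {V : WeierstrassCurve F}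

/-- `ψ₂(P) = 2y + a₁x + a₃` (`0` at the origin). -/
def psiOf (P : V.toAffine.Point) : F :=
  match P with
  | .zero => 0
  | .some x y _ => 2 * y + V.a₁ * x + V.a₃

@[simp] theorem psiOf_some {x y : F} (h : V.toAffine.Nonsingular x y) :
    psiOf (Affine.Point.some x y h) = 2 * y + V.a₁ * x + V.a₃ := rfl

theorem psiOf_zero : psiOf (0 : V.toAffine.Point) = 0 := by
  show psiOf Affine.Point.zero = 0
  rw [psiOf]

/-- The unfolding lemmas of `psiOf` are generated in this module, once (so that no downstream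
module produces its own copy). -/
theorem psiOf_eq_self (P : V.toAffine.Point) : psiOf P = psiOf P := by
  rw [psiOf.eq_def]

variable [DecidableEq F]

/-- `ψ₂` vanishes only at `2`-torsion points. -/
theorem two_nsmul_eq_zero_of_psiOf_eq_zero {P : V.toAffine.Point} (h : psiOf P = 0) :
    2 • P = 0 := by
  rcases P with _ | ⟨x, y, hxy⟩
  · exact nsmul_zero 2
  · rw [psiOf_some] at h
    have hneg : Affine.Point.some x y hxy = -Affine.Point.some x y hxy := by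
      rw [Affine.Point.neg_some, Affine.Point.some.injEq]
      refine ⟨rfl, ?_⟩
      rw [Affine.negY]
      linear_combination h
    rw [two_nsmul]
    nth_rewrite 2 [hneg]
    exact add_neg_cancel _

end Field

/-! ### Reduction modulo a valuation subring -/

section Val

variable {K : Type*} [Field K] {k : Type*} [Field k] {A : ValuationSubring K} {π : A →+* k}
  {W : WeierstrassCurve A}

/-- A point reducing to a nonzero point is an integral affine point, and reduces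
coordinatewise. -/
theorem Red.exists_coords' (hπ : Function.Surjective π)
    {P : (W.map A.subtype).toAffine.Point} {Pb : (W.map π).toAffine.Point}
    (hR : Red A π W P Pb) (hPb : Pb ≠ 0) :
    ∃ (x y : K) (h : (W.map A.subtype).toAffine.Nonsingular x y) (hx : x ∈ A) (hy : y ∈ A)
      (hk : (W.map π).toAffine.Nonsingular (π ⟨x, hx⟩) (π ⟨y, hy⟩)),
      P = .some x y h ∧ Pb = .some _ _ hk := by
  rcases P with _ | ⟨x, y, h⟩
  · exact absurd (Red.unique hR Red.zero) hPb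
  by_cases hx : x ∈ A
  · have hy : y ∈ A := y_mem_of_x_mem hx h.1
    obtain ⟨hk, e⟩ := Red.some_inv hx hy hR
    exact ⟨x, y, h, hx, hy, hk, rfl, e⟩
  · exact absurd (Red.eq_zero_of_notMem hπ hR hx) hPb

variable [DecidableEq K] [DecidableEq k] [IsAlgClosed K]

/-- **Zero component ⟹ `ψ₂(mP)` is a unit.** -/
theorem isUnit_psiOf_of_red (hπ : Function.Surjective π) (h2 : twoPoly (W.map π) ≠ 0)
    {p : ℕ} (hp : p.Prime) (hp2 : p ≠ 2) (hpk : (p : k) ≠ 0)
    {P : (W.map A.subtype).toAffine.Point} {Pb : (W.map π).toAffine.Point}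
    (hord : addOrderOf P = p) (hP : Red A π W P Pb) {m : ℕ} (hm : ¬ p ∣ m) :
    ∃ u : A, IsUnit u ∧ (u : K) = psiOf (m • P) := by
  have hPb : Pb ≠ 0 := Red.ne_zero_of_addOrderOf hπ hp hp2 hpk hord hP
  have hpP : p • P = 0 := by
    rw [← hord]
    exact addOrderOf_nsmul_eq_zero P
  have hpPb : p • Pb = 0 := by
    have h1 := Red.nsmul hπ h2 hP p
    rw [hpP] at h1
    exact Red.unique h1 Red.zero
  have hordb : addOrderOf Pb = p := by
    rcases (Nat.dvd_prime hp).mp (addOrderOf_dvd_of_nsmul_eq_zero hpPb) with h1 | h1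
    · exact absurd (AddMonoid.addOrderOf_eq_one_iff.mp h1) hPb
    · exact h1
  have hmb : m • Pb ≠ 0 := fun h0 => hm (hordb ▸ addOrderOf_dvd_of_nsmul_eq_zero h0)
  obtain ⟨x, y, h, hx, hy, hk, e, eb⟩ :=
    Red.exists_coords' hπ (Red.nsmul hπ h2 hP m) hmb
  refine ⟨2 * ⟨y, hy⟩ + W.a₁ * ⟨x, hx⟩ + W.a₃, isUnit_of_map_ne_zero hπ ?_, ?_⟩
  · intro h0
    have hpsi : psiOf (m • Pb) = 0 := by
      rw [eb, psiOf_some]
      rw [map_add, map_add, map_mul, map_mul, map_ofNat] at h0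
      simpa using h0
    have h2m : (2 * m) • Pb = 0 := by
      rw [mul_nsmul']
      exact two_nsmul_eq_zero_of_psiOf_eq_zero hpsi
    have hdvd : p ∣ 2 * m := hordb ▸ addOrderOf_dvd_of_nsmul_eq_zero h2m
    rcases (Nat.Prime.dvd_mul hp).mp hdvd with h' | h'
    · exact hp2 ((Nat.prime_dvd_prime_iff_eq hp Nat.prime_two).mp h')
    · exact hm h'
  · rw [e, psiOf_some]
    simp only [WeierstrassCurve.map_a₁, WeierstrassCurve.map_a₃, ValuationSubring.subtype_apply]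
    rfl

/-- **Outside the zero component ⟹ `ψ₂(mP)` is a non-unit.** -/
theorem psiOf_mem_ker_of_not_red (hπ : Function.Surjective π) (h2 : twoPoly (W.map π) ≠ 0)
    {p : ℕ} (hp : p.Prime) {P : (W.map A.subtype).toAffine.Point}
    (hord : addOrderOf P = p) (hP : ¬ ∃ Pb, Red A π W P Pb) {m : ℕ} (hm : ¬ p ∣ m) :
    ∃ t : A, π t = 0 ∧ (t : K) = psiOf (m • P) := by
  rcases red_or_singular' hπ (m • P) with h | ⟨x, y, h, hx, hy, e, hE, hS⟩
  · exact absurd h (not_red_nsmul hπ h2 hp hord hP hm)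
  refine ⟨2 * ⟨y, hy⟩ + W.a₁ * ⟨x, hx⟩ + W.a₃, ?_, ?_⟩
  · rw [Affine.nonsingular_iff] at hS
    have b₁ : π ⟨y, hy⟩ = -π ⟨y, hy⟩ - (W.map π).a₁ * π ⟨x, hx⟩ - (W.map π).a₃ := by
      by_contra hc
      exact hS ⟨hE, Or.inr hc⟩
    simp only [map_add, map_mul, map_ofNat]
    simp only [WeierstrassCurve.map_a₁, WeierstrassCurve.map_a₃] at b₁
    linear_combination b₁
  · rw [e, psiOf_some]
    simp only [WeierstrassCurve.map_a₁, WeierstrassCurve.map_a₃, ValuationSubring.subtype_apply]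
    rfl

/-- `Π(P) = ∏_{k=1}^{p-1} ψ₂(kP)`. -/
noncomputable def prodPsi {F : Type*} [Field F] [DecidableEq F] {V : WeierstrassCurve F} (p : ℕ)
    (P : V.toAffine.Point) : F :=
  ∏ j ∈ Finset.Icc 1 (p - 1), psiOf (j • P)

/-- **Zero component ⟹ `Π` is a unit.** -/
theorem isUnit_prodPsi_of_red (hπ : Function.Surjective π) (h2 : twoPoly (W.map π) ≠ 0)
    {p : ℕ} (hp : p.Prime) (hp2 : p ≠ 2) (hpk : (p : k) ≠ 0)
    {P : (W.map A.subtype).toAffine.Point} {Pb : (W.map π).toAffine.Point}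
    (hord : addOrderOf P = p) (hP : Red A π W P Pb) :
    ∃ u : A, IsUnit u ∧ (u : K) = prodPsi p P := by
  unfold prodPsi
  refine Finset.prod_induction _ (fun z : K => ∃ u : A, IsUnit u ∧ (u : K) = z) ?_ ?_ ?_
  · rintro _ _ ⟨u, hu, rfl⟩ ⟨u', hu', rfl⟩
    exact ⟨u * u', hu.mul hu', rfl⟩
  · exact ⟨1, isUnit_one, rfl⟩
  · intro j hj
    rw [Finset.mem_Icc] at hj
    have hj1 : ¬ p ∣ j := fun h => by
      have := Nat.le_of_dvd (by omega) h
      omega
    exact isUnit_psiOf_of_red hπ h2 hp hp2 hpk hord hP hj1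

/-- **Outside the zero component ⟹ `Π` is a non-unit.** -/
theorem prodPsi_mem_ker_of_not_red (hπ : Function.Surjective π) (h2 : twoPoly (W.map π) ≠ 0)
    {p : ℕ} (hp : p.Prime) {P : (W.map A.subtype).toAffine.Point}
    (hord : addOrderOf P = p) (hP : ¬ ∃ Pb, Red A π W P Pb) :
    ∃ t : A, π t = 0 ∧ (t : K) = prodPsi p P := by
  unfold prodPsi
  refine Finset.prod_induction_nonempty _ (fun z : K => ∃ t : A, π t = 0 ∧ (t : K) = z) ?_ ?_ ?_
  · rintro _ _ ⟨t, ht, rfl⟩ ⟨t', -, rfl⟩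
    exact ⟨t * t', by rw [map_mul, ht, zero_mul], rfl⟩
  · exact ⟨1, Finset.mem_Icc.mpr ⟨le_rfl, by have := hp.two_le; omega⟩⟩
  · intro j hj
    rw [Finset.mem_Icc] at hj
    have hj1 : ¬ p ∣ j := fun h => by
      have := Nat.le_of_dvd (by omega) h
      omega
    exact psiOf_mem_ker_of_not_red hπ h2 hp hord hP hj1

end Val

/-! ### Generic valuation form -/

section Generic

variable {K : Type*} [Field K] {k : Type*} [Field k] {A : ValuationSubring K} {π : A →+* k}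
  {W : WeierstrassCurve A} {E : WeierstrassCurve K}

variable [DecidableEq K] [IsAlgClosed K]

omit [IsAlgClosed K] in
/-- A point of odd prime order has `ψ₂ ≠ 0` at all its nonzero multiples. -/
theorem psiOf_nsmul_ne_zero {p : ℕ} (hp : p.Prime) (hp2 : p ≠ 2) {P : E.toAffine.Point}
    (hord : addOrderOf P = p) {m : ℕ} (hm : ¬ p ∣ m) : psiOf (m • P) ≠ 0 := by
  intro h0
  have h2m : (2 * m) • P = 0 := by
    rw [mul_nsmul']
    exact two_nsmul_eq_zero_of_psiOf_eq_zero h0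
  have hdvd : p ∣ 2 * m := hord ▸ addOrderOf_dvd_of_nsmul_eq_zero h2m
  rcases (Nat.Prime.dvd_mul hp).mp hdvd with h' | h'
  · exact hp2 ((Nat.prime_dvd_prime_iff_eq hp Nat.prime_two).mp h')
  · exact hm h'

omit [IsAlgClosed K] in
theorem prodPsi_ne_zero {p : ℕ} (hp : p.Prime) (hp2 : p ≠ 2) {P : E.toAffine.Point}
    (hord : addOrderOf P = p) : prodPsi p P ≠ 0 := by
  unfold prodPsi
  rw [Finset.prod_ne_zero_iff]
  intro j hj
  rw [Finset.mem_Icc] at hj
  have hj1 : ¬ p ∣ j := fun h => by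
    have := Nat.le_of_dvd (by omega) h
    omega
  exact psiOf_nsmul_ne_zero hp hp2 hord hj1

/-- Zero component ⟹ `ψ₂(mP)` is a unit. -/
theorem valuation_psiOf_eq_one (hπ : Function.Surjective π) (hE : W.map A.subtype = E)
    (h2 : twoPoly (W.map π) ≠ 0) {p : ℕ} (hp : p.Prime) (hp2 : p ≠ 2) (hpk : (p : k) ≠ 0)
    {P : E.toAffine.Point} (hord : addOrderOf P = p) (h : ZeroComp π W P) {m : ℕ}
    (hm : ¬ p ∣ m) : A.valuation (psiOf (m • P)) = 1 := by
  classical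
  subst hE
  obtain ⟨Pb, hR⟩ := (zeroComp_iff_red hπ P).mp h
  obtain ⟨u, hu, e⟩ := isUnit_psiOf_of_red hπ h2 hp hp2 hpk hord hR hm
  rw [← e]
  exact A.valuation_unit hu.unit

/-- Outside the zero component ⟹ `ψ₂(mP)` is a non-unit. -/
theorem valuation_psiOf_lt_one (hπ : Function.Surjective π) (hE : W.map A.subtype = E)
    (h2 : twoPoly (W.map π) ≠ 0) {p : ℕ} (hp : p.Prime)
    {P : E.toAffine.Point} (hord : addOrderOf P = p) (h : ¬ ZeroComp π W P) {m : ℕ}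
    (hm : ¬ p ∣ m) : A.valuation (psiOf (m • P)) < 1 := by
  classical
  subst hE
  have h' : ¬ ∃ Pb, Red A π W P Pb := fun hR => h ((zeroComp_iff_red hπ P).mpr hR)
  obtain ⟨t, ht, e⟩ := psiOf_mem_ker_of_not_red hπ h2 hp hord h' hm
  rw [← e]
  refine (A.valuation_lt_one_iff t).mp ?_
  rw [IsLocalRing.mem_maximalIdeal, mem_nonunits_iff]
  intro hu
  have := hu.map π
  rw [ht] at this
  exact not_isUnit_zero this

/-- Zero component ⟹ `Π` is a unit. -/
theorem valuation_prodPsi_eq_one (hπ : Function.Surjective π) (hE : W.map A.subtype = E)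
    (h2 : twoPoly (W.map π) ≠ 0) {p : ℕ} (hp : p.Prime) (hp2 : p ≠ 2) (hpk : (p : k) ≠ 0)
    {P : E.toAffine.Point} (hord : addOrderOf P = p) (h : ZeroComp π W P) :
    A.valuation (prodPsi p P) = 1 := by
  classical
  subst hE
  obtain ⟨Pb, hR⟩ := (zeroComp_iff_red hπ P).mp h
  obtain ⟨u, hu, e⟩ := isUnit_prodPsi_of_red hπ h2 hp hp2 hpk hord hR
  rw [← e]
  exact A.valuation_unit hu.unit

/-- Outside the zero component ⟹ `Π` is a non-unit. -/
theorem valuation_prodPsi_lt_one (hπ : Function.Surjective π) (hE : W.map A.subtype = E)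
    (h2 : twoPoly (W.map π) ≠ 0) {p : ℕ} (hp : p.Prime)
    {P : E.toAffine.Point} (hord : addOrderOf P = p) (h : ¬ ZeroComp π W P) :
    A.valuation (prodPsi p P) < 1 := by
  classical
  subst hE
  have h' : ¬ ∃ Pb, Red A π W P Pb := fun hR => h ((zeroComp_iff_red hπ P).mpr hR)
  obtain ⟨t, ht, e⟩ := prodPsi_mem_ker_of_not_red hπ h2 hp hord h'
  rw [← e]
  refine (A.valuation_lt_one_iff t).mp ?_
  rw [IsLocalRing.mem_maximalIdeal, mem_nonunits_iff]
  intro hu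
  have := hu.map π
  rw [ht] at this
  exact not_isUnit_zero this

end Generic

/-! ### The frozen vocabulary -/

section Frozen

local notation "Qb" => AlgebraicClosure ℚ

variable (W : WeierstrassCurve ℤ) {p : ℕ} (hp : p.Prime) (hp2 : p ≠ 2)
  (Q : ((W.map (Int.castRingHom ℚ))⁄Qb).Point) (hQord : addOrderOf Q = p)
  {ℓ : ℕ} (hℓ : ℓ.Prime) (hℓp : ℓ ≠ p) (hℓc₄ : ¬ (ℓ : ℤ) ∣ W.c₄)
  (A : ValuationSubring Qb) (hA : A.LiesOverPrime ℓ)

include hp hp2 hQord hℓ hℓp hℓc₄ hA in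
/-- **Frozen `ψ₂`-dictionary, zero component side**: every `ψ₂(kQ)`, `p ∤ k`, is an `A`-unit. -/
theorem valuation_psiOf_eq_one_of_inZero (h : W.InZeroComponentAt A Q) {m : ℕ}
    (hm : ¬ p ∣ m) : A.valuation (psiOf (m • Q)) = 1 :=
  valuation_psiOf_eq_one (π := IsLocalRing.residue A) IsLocalRing.residue_surjective
    (modelA_map_subtype W A) (twoPoly_modelA_ne_zero W hℓ hℓc₄ A hA) hp hp2
    (residue_natCast_ne_zero hp hℓ hℓp A hA) hQord ((inZero_iff_zeroComp W A Q).mp h) hm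

include hp hQord hℓ hℓc₄ hA in
/-- **Frozen `ψ₂`-dictionary, other components**: every `ψ₂(kQ)`, `p ∤ k`, is in `𝔪_A`. -/
theorem valuation_psiOf_lt_one_of_not_inZero (h : ¬ W.InZeroComponentAt A Q) {m : ℕ}
    (hm : ¬ p ∣ m) : A.valuation (psiOf (m • Q)) < 1 :=
  valuation_psiOf_lt_one (π := IsLocalRing.residue A) IsLocalRing.residue_surjective
    (modelA_map_subtype W A) (twoPoly_modelA_ne_zero W hℓ hℓc₄ A hA) hp hQord
    (fun hz => h ((inZero_iff_zeroComp W A Q).mpr hz)) hm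

include hp hp2 hQord hℓ hℓp hℓc₄ hA in
theorem valuation_prodPsi_eq_one_of_inZero (h : W.InZeroComponentAt A Q) :
    A.valuation (prodPsi p Q) = 1 :=
  valuation_prodPsi_eq_one (π := IsLocalRing.residue A) IsLocalRing.residue_surjective
    (modelA_map_subtype W A) (twoPoly_modelA_ne_zero W hℓ hℓc₄ A hA) hp hp2
    (residue_natCast_ne_zero hp hℓ hℓp A hA) hQord ((inZero_iff_zeroComp W A Q).mp h)

include hp hQord hℓ hℓc₄ hA in
theorem valuation_prodPsi_lt_one_of_not_inZero (h : ¬ W.InZeroComponentAt A Q) :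
    A.valuation (prodPsi p Q) < 1 :=
  valuation_prodPsi_lt_one (π := IsLocalRing.residue A) IsLocalRing.residue_surjective
    (modelA_map_subtype W A) (twoPoly_modelA_ne_zero W hℓ hℓc₄ A hA) hp hQord
    (fun hz => h ((inZero_iff_zeroComp W A Q).mpr hz))

include hp hp2 hQord hℓ hℓp hℓc₄ hA in
/-- **Frozen `ψ₂`-dictionary**: `Q` is in the zero component at `A` iff `Π(Q)` is an `A`-unit. -/
theorem inZero_iff_valuation_prodPsi :
    W.InZeroComponentAt A Q ↔ A.valuation (prodPsi p Q) = 1 := by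
  constructor
  · exact valuation_prodPsi_eq_one_of_inZero W hp hp2 Q hQord hℓ hℓp hℓc₄ A hA
  · intro h1
    by_contra hn
    have := valuation_prodPsi_lt_one_of_not_inZero W hp Q hQord hℓ hℓc₄ A hA hn
    rw [h1] at this
    exact lt_irrefl _ this

/-- The value at `(E, ⟨Q⟩)` of the modular function `u / j ^ (p - 1)`, `u = Δ(q) / Δ(q ^ p)`:
`w = p ^ 12 * Π ^ 4 / c₄ ^ (3 * (p - 1))`. -/
noncomputable def wVal (W : WeierstrassCurve ℤ) (p : ℕ)
    (Q : ((W.map (Int.castRingHom ℚ))⁄Qb).Point) : Qb :=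
  (p : Qb) ^ 12 * prodPsi p Q ^ 4 / ((W.c₄ : ℤ) : Qb) ^ (3 * (p - 1))

/-- The value at `(E, ⟨Q⟩)` of the modular unit `u = Δ(q) / Δ(q ^ p)`:
`u₀ = p ^ 12 * Π ^ 4 / Δ ^ (p - 1)`. -/
noncomputable def uVal (W : WeierstrassCurve ℤ) (p : ℕ)
    (Q : ((W.map (Int.castRingHom ℚ))⁄Qb).Point) : Qb :=
  (p : Qb) ^ 12 * prodPsi p Q ^ 4 / ((W.Δ : ℤ) : Qb) ^ (p - 1)

omit hp hp2 hQord hℓ hℓp hℓc₄ hA in
/-- `u₀ = w₀ · j ^ (p - 1)`, in denominator-free form. -/
theorem uVal_mul_Δ_pow (hΔ : W.Δ ≠ 0) (hc₄ : W.c₄ ≠ 0) (p : ℕ) :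
    uVal W p Q * ((W.Δ : ℤ) : Qb) ^ (p - 1) = wVal W p Q * ((W.c₄ : ℤ) : Qb) ^ (3 * (p - 1)) := by
  have h1 : ((W.Δ : ℤ) : Qb) ^ (p - 1) ≠ 0 := pow_ne_zero _ (Int.cast_ne_zero.mpr hΔ)
  have h2 : ((W.c₄ : ℤ) : Qb) ^ (3 * (p - 1)) ≠ 0 := pow_ne_zero _ (Int.cast_ne_zero.mpr hc₄)
  unfold uVal wVal
  rw [div_mul_cancel₀ _ h1, div_mul_cancel₀ _ h2]

include hp hℓ hℓp hℓc₄ hA in
theorem valuation_wVal : A.valuation (wVal W p Q) = A.valuation (prodPsi p Q) ^ 4 := by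
  have hnd : ¬ (ℓ : ℤ) ∣ (p : ℤ) := by
    intro h
    have := (Nat.prime_dvd_prime_iff_eq hℓ hp).mp (Int.natCast_dvd_natCast.mp h)
    exact hℓp this
  have h1 : A.valuation ((p : ℕ) : Qb) = 1 := by
    have := valuation_intCast_eq_one hℓ A hA hnd
    simpa using this
  have h2 : A.valuation ((W.c₄ : ℤ) : Qb) = 1 := valuation_intCast_eq_one hℓ A hA hℓc₄
  unfold wVal
  rw [map_div₀, map_mul, map_pow, map_pow, map_pow, h1, h2, one_pow, one_pow, one_mul, div_one]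

include hp hQord hℓ hℓp hℓc₄ hA in
theorem valuation_wVal_lt_one_of_not_inZero (h : ¬ W.InZeroComponentAt A Q) :
    A.valuation (wVal W p Q) < 1 := by
  rw [valuation_wVal W hp Q hℓ hℓp hℓc₄ A hA]
  have := valuation_prodPsi_lt_one_of_not_inZero W hp Q hQord hℓ hℓc₄ A hA h
  exact pow_lt_one₀ zero_le this (by norm_num)

include hp hp2 hQord hℓ hℓp hℓc₄ hA in
theorem valuation_wVal_eq_one_of_inZero (h : W.InZeroComponentAt A Q) :
    A.valuation (wVal W p Q) = 1 := by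
  rw [valuation_wVal W hp Q hℓ hℓp hℓc₄ A hA,
    valuation_prodPsi_eq_one_of_inZero W hp hp2 Q hQord hℓ hℓp hℓc₄ A hA h, one_pow]

include hp hp2 hQord hℓ hℓp hℓc₄ hA in
/-- **Frozen dictionary for `w = u / j ^ (p - 1)`**: `w(E, ⟨Q⟩)` is a unit at `A` iff `Q` is
in the zero component at `A`. -/
theorem inZero_iff_valuation_wVal :
    W.InZeroComponentAt A Q ↔ A.valuation (wVal W p Q) = 1 := by
  constructor
  · exact valuation_wVal_eq_one_of_inZero W hp hp2 Q hQord hℓ hℓp hℓc₄ A hA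
  · intro h1
    by_contra hn
    have := valuation_wVal_lt_one_of_not_inZero W hp Q hQord hℓ hℓp hℓc₄ A hA hn
    rw [h1] at this
    exact lt_irrefl _ this

include hp hp2 hQord hℓc₄ in
theorem wVal_ne_zero : wVal W p Q ≠ 0 := by
  have hc : W.c₄ ≠ 0 := fun h0 => hℓc₄ (h0 ▸ dvd_zero _)
  unfold wVal
  refine div_ne_zero (mul_ne_zero (pow_ne_zero _ (Nat.cast_ne_zero.mpr hp.ne_zero))
    (pow_ne_zero _ (prodPsi_ne_zero hp hp2 hQord))) (pow_ne_zero _ (Int.cast_ne_zero.mpr hc))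

include hp hp2 hQord hℓ hℓp hℓc₄ hA in
/-- Outside the zero component, `1 / w(E, ⟨Q⟩)` is not `A`-integral. -/
theorem inv_wVal_notMem_of_not_inZero (h : ¬ W.InZeroComponentAt A Q) :
    (wVal W p Q)⁻¹ ∉ A := by
  intro hmem
  have h1 : A.valuation (wVal W p Q)⁻¹ ≤ 1 := (A.valuation_le_one_iff _).mpr hmem
  have h2 := valuation_wVal_lt_one_of_not_inZero W hp Q hQord hℓ hℓp hℓc₄ A hA h
  have h3 : A.valuation (wVal W p Q) * A.valuation (wVal W p Q)⁻¹ = 1 := by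
    rw [← map_mul, mul_inv_cancel₀ (wVal_ne_zero W hp hp2 Q hQord hℓc₄), map_one]
  have h4 : A.valuation (wVal W p Q) * A.valuation (wVal W p Q)⁻¹ < 1 := by
    calc A.valuation (wVal W p Q) * A.valuation (wVal W p Q)⁻¹
        ≤ A.valuation (wVal W p Q) * 1 := mul_le_mul' le_rfl h1
      _ = A.valuation (wVal W p Q) := mul_one _
      _ < 1 := h2
  rw [h3] at h4
  exact lt_irrefl _ h4

include hp hp2 hQord hℓ hℓp hℓc₄ hA in
/-- In the zero component at a prime of multiplicative reduction, `u(E, ⟨Q⟩)` is not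
`A`-integral. -/
theorem uVal_notMem_of_inZero (hΔ : W.Δ ≠ 0) (hℓΔ : (ℓ : ℤ) ∣ W.Δ)
    (h : W.InZeroComponentAt A Q) : uVal W p Q ∉ A := by
  intro hmem
  have hc : W.c₄ ≠ 0 := fun h0 => hℓc₄ (h0 ▸ dvd_zero _)
  have h1 : A.valuation (uVal W p Q) ≤ 1 := (A.valuation_le_one_iff _).mpr hmem
  have hw := valuation_wVal_eq_one_of_inZero W hp hp2 Q hQord hℓ hℓp hℓc₄ A hA h
  have hc1 : A.valuation ((W.c₄ : ℤ) : Qb) = 1 := valuation_intCast_eq_one hℓ A hA hℓc₄
  have hΔlt : A.valuation ((W.Δ : ℤ) : Qb) < 1 := by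
    obtain ⟨d, hd⟩ := hℓΔ
    have hℓlt : A.valuation ((ℓ : ℕ) : Qb) < 1 := by
      obtain ⟨ha, hmem'⟩ := ValuationSubring.mem_nonunits_iff_exists_mem_maximalIdeal.mp hA
      exact (A.valuation_lt_one_iff ⟨_, ha⟩).mp hmem'
    have hd1 : A.valuation ((d : ℤ) : Qb) ≤ 1 := by
      rw [A.valuation_le_one_iff]
      exact intCast_mem A d
    rw [hd]
    push_cast
    rw [map_mul]
    calc A.valuation ((ℓ : ℕ) : Qb) * A.valuation ((d : ℤ) : Qb)
        ≤ A.valuation ((ℓ : ℕ) : Qb) * 1 := mul_le_mul' le_rfl hd1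
      _ = A.valuation ((ℓ : ℕ) : Qb) := mul_one _
      _ < 1 := hℓlt
  have hpow : A.valuation ((W.Δ : ℤ) : Qb) ^ (p - 1) < 1 :=
    pow_lt_one₀ zero_le hΔlt (by have := hp.two_le; omega)
  have e := congrArg A.valuation (uVal_mul_Δ_pow W Q hΔ hc p)
  rw [map_mul, map_mul, map_pow, map_pow, hw, hc1, one_pow, one_mul] at e
  have h4 : A.valuation (uVal W p Q) * A.valuation ((W.Δ : ℤ) : Qb) ^ (p - 1) < 1 := by
    calc A.valuation (uVal W p Q) * A.valuation ((W.Δ : ℤ) : Qb) ^ (p - 1)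
        ≤ 1 * A.valuation ((W.Δ : ℤ) : Qb) ^ (p - 1) := mul_le_mul' h1 le_rfl
      _ = A.valuation ((W.Δ : ℤ) : Qb) ^ (p - 1) := one_mul _
      _ < 1 := hpow
  rw [e] at h4
  exact lt_irrefl _ h4

/-! ### Rationality -/

omit hp hp2 hQord hℓ hℓp hℓc₄ hA in
theorem psiOf_smul (σ : Qb ≃ₐ[ℚ] Qb) (P : ((W.map (Int.castRingHom ℚ))⁄Qb).Point) :
    psiOf (σ • P) = σ (psiOf P) := by
  rcases P with _ | ⟨x, y, h⟩
  · exact (map_zero σ).symm
  · show psiOf (Affine.Point.map σ.toAlgHom (Affine.Point.some x y h)) = _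
    rw [Affine.Point.map_some, psiOf_some, psiOf_some]
    simp only [map_add, map_mul, map_ofNat]
    have e1 : σ ((W.map (Int.castRingHom ℚ))⁄Qb).a₁ = ((W.map (Int.castRingHom ℚ))⁄Qb).a₁ := by
      show σ ((W.map (Int.castRingHom ℚ)).map (algebraMap ℚ Qb)).a₁ = _
      rw [WeierstrassCurve.map_a₁]
      exact σ.commutes _
    have e3 : σ ((W.map (Int.castRingHom ℚ))⁄Qb).a₃ = ((W.map (Int.castRingHom ℚ))⁄Qb).a₃ := by
      show σ ((W.map (Int.castRingHom ℚ)).map (algebraMap ℚ Qb)).a₃ = _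
      rw [WeierstrassCurve.map_a₃]
      exact σ.commutes _
    rw [e1, e3]
    rfl

omit hp hp2 hQord hℓ hℓp hℓc₄ hA in
/-- `Π` is rational when `Q` is Galois-fixed. -/
theorem prodPsi_mem_range (p : ℕ) (hfix : ∀ σ : Qb ≃ₐ[ℚ] Qb, σ • Q = Q) :
    prodPsi p Q ∈ Set.range (algebraMap ℚ Qb) := by
  have : IsAlgClosure ℚ Qb := ⟨inferInstance, AlgebraicClosure.isAlgebraic ℚ⟩
  have : IsGalois ℚ Qb := inferInstance
  rw [InfiniteGalois.mem_range_algebraMap_iff_fixed]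
  intro σ
  unfold prodPsi
  rw [map_prod]
  refine Finset.prod_congr rfl fun j _ => ?_
  rw [← psiOf_smul, smul_nsmul_point, hfix σ]

omit hp hp2 hQord hℓ hℓp hℓc₄ hA in
/-- `w(E, ⟨Q⟩)` is rational when `Q` is Galois-fixed. -/
theorem wVal_mem_range (p : ℕ) (hfix : ∀ σ : Qb ≃ₐ[ℚ] Qb, σ • Q = Q) :
    wVal W p Q ∈ Set.range (algebraMap ℚ Qb) := by
  obtain ⟨r, hr⟩ := prodPsi_mem_range W Q p hfix
  refine ⟨(p : ℚ) ^ 12 * r ^ 4 / ((W.c₄ : ℤ) : ℚ) ^ (3 * (p - 1)), ?_⟩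
  unfold wVal
  rw [← hr]
  simp

omit hp hp2 hQord hℓ hℓp hℓc₄ hA in
/-- `u(E, ⟨Q⟩)` is rational when `Q` is Galois-fixed. -/
theorem uVal_mem_range (p : ℕ) (hfix : ∀ σ : Qb ≃ₐ[ℚ] Qb, σ • Q = Q) :
    uVal W p Q ∈ Set.range (algebraMap ℚ Qb) := by
  obtain ⟨r, hr⟩ := prodPsi_mem_range W Q p hfix
  refine ⟨(p : ℚ) ^ 12 * r ^ 4 / ((W.Δ : ℤ) : ℚ) ^ (p - 1), ?_⟩
  unfold uVal
  rw [← hr]
  simp

end Frozen

end Fermat.Agent.S15.helper4637
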