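import Mathlib
import Fermat.Agent.S15.helper4637_PsiDict
import Fermat.Agent.S15.helper1449_Xfer

/-!
# S15 (helper4637): the local dictionary (VAL) in the XFER vocabulary

Restatement of `helper4637_PsiDict` for `helper1449.psiPt` and
`helper1449.Uval E Q p = Δ^(p-1) / ∏_{k=1}^{p-1} ψ₂(kQ)^4`, the coordinate of the design of
record of the S15 moduli bridge (`u₀ = p¹² / U`, `j₀ = c₄³ / Δ`).
-/

set_option autoImplicit false

namespace Fermat.Agent.S15.helper4637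

open WeierstrassCurve WeierstrassCurve.Affine
open Fermat.Agent.S15.helper1449

section Field

variable {F : Type*} [Field F] {V : WeierstrassCurve F}

theorem psiOf_eq_psiPt (P : V.toAffine.Point) : psiOf P = psiPt V.toAffine P := by
  rcases P with _ | ⟨x, y, h⟩ <;> rfl

variable [DecidableEq F]

theorem prodPsi_pow_four (p : ℕ) (P : V.toAffine.Point) :
    prodPsi p P ^ 4 = ∏ k ∈ Finset.Icc 1 (p - 1), psiPt V.toAffine (k • P) ^ 4 := by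
  unfold prodPsi
  rw [← Finset.prod_pow]
  exact Finset.prod_congr rfl fun k _ => by rw [psiOf_eq_psiPt]

theorem Uval_eq_div_prodPsi (p : ℕ) (P : V.toAffine.Point) :
    Uval V.toAffine P p = V.Δ ^ (p - 1) / prodPsi p P ^ 4 := by
  unfold Uval
  rw [prodPsi_pow_four]

end Field

section Frozen

local notation "Qb" => AlgebraicClosure ℚ

variable (W : WeierstrassCurve ℤ) {p : ℕ} (hp : p.Prime) (hp2 : p ≠ 2)
  (Q : ((W.map (Int.castRingHom ℚ))⁄Qb).Point) (hQord : addOrderOf Q = p)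
  {ℓ : ℕ} (hℓ : ℓ.Prime) (hℓp : ℓ ≠ p) (hℓc₄ : ¬ (ℓ : ℤ) ∣ W.c₄)
  (A : ValuationSubring Qb) (hA : A.LiesOverPrime ℓ)

omit hp hp2 hQord hℓ hℓp hℓc₄ hA in
theorem frozen_Δ_eq : ((W.map (Int.castRingHom ℚ))⁄Qb).Δ = ((W.Δ : ℤ) : Qb) := by
  simp [WeierstrassCurve.baseChange]

omit hp hp2 hQord hℓ hℓp hℓc₄ hA in
theorem frozen_c₄_eq : ((W.map (Int.castRingHom ℚ))⁄Qb).c₄ = ((W.c₄ : ℤ) : Qb) := by
  simp [WeierstrassCurve.baseChange]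

include hp hp2 hQord in
omit hℓ hℓp hℓc₄ hA in
/-- `u₀ = p¹² / U(W, Q)`. -/
theorem uVal_eq_div_Uval (hΔ : W.Δ ≠ 0) :
    uVal W p Q = (p : Qb) ^ 12 / Uval ((W.map (Int.castRingHom ℚ))⁄Qb) Q p := by
  have h1 : ((W.Δ : ℤ) : Qb) ^ (p - 1) ≠ 0 := pow_ne_zero _ (Int.cast_ne_zero.mpr hΔ)
  have h2 : prodPsi p Q ^ 4 ≠ 0 := pow_ne_zero _ (prodPsi_ne_zero hp hp2 hQord)
  rw [Uval_eq_div_prodPsi, frozen_Δ_eq]
  unfold uVal
  field_simp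

include hp hp2 hQord in
omit hℓ hℓp hℓc₄ hA in
/-- `1 / w₀ = j₀^(p-1) / u₀` with `j₀ = c₄³ / Δ`, `u₀ = p¹² / U(W, Q)`. -/
theorem inv_wVal_eq (hΔ : W.Δ ≠ 0) (hc₄ : W.c₄ ≠ 0) :
    (wVal W p Q)⁻¹ = (((W.c₄ : ℤ) : Qb) ^ 3 / ((W.Δ : ℤ) : Qb)) ^ (p - 1) /
      ((p : Qb) ^ 12 / Uval ((W.map (Int.castRingHom ℚ))⁄Qb) Q p) := by
  have h1 : ((W.Δ : ℤ) : Qb) ≠ 0 := Int.cast_ne_zero.mpr hΔ
  have h2 : prodPsi p Q ≠ 0 := prodPsi_ne_zero hp hp2 hQord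
  have h3 : ((W.c₄ : ℤ) : Qb) ≠ 0 := Int.cast_ne_zero.mpr hc₄
  have h4 : (p : Qb) ≠ 0 := Nat.cast_ne_zero.mpr hp.ne_zero
  rw [Uval_eq_div_prodPsi, frozen_Δ_eq]
  unfold wVal
  rw [pow_mul, div_pow]
  field_simp

include hp hp2 hQord hℓ hℓp hℓc₄ hA in
/-- (VAL), zero component: every `ψ₂(kQ)`, `p ∤ k`, is an `A`-unit. -/
theorem valuation_psiPt_eq_one_of_inZero (h : W.InZeroComponentAt A Q) {m : ℕ}
    (hm : ¬ p ∣ m) :
    A.valuation (psiPt ((W.map (Int.castRingHom ℚ))⁄Qb) (m • Q)) = 1 := by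
  rw [← psiOf_eq_psiPt]
  exact valuation_psiOf_eq_one_of_inZero W hp hp2 Q hQord hℓ hℓp hℓc₄ A hA h hm

include hp hQord hℓ hℓc₄ hA in
omit hp2 hℓp in
/-- (VAL), other components: every `ψ₂(kQ)`, `p ∤ k`, lies in `𝔪_A`. -/
theorem valuation_psiPt_lt_one_of_not_inZero (h : ¬ W.InZeroComponentAt A Q) {m : ℕ}
    (hm : ¬ p ∣ m) :
    A.valuation (psiPt ((W.map (Int.castRingHom ℚ))⁄Qb) (m • Q)) < 1 := by
  rw [← psiOf_eq_psiPt]
  exact valuation_psiOf_lt_one_of_not_inZero W hp Q hQord hℓ hℓc₄ A hA h hm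

include hp hp2 hQord hℓ hℓp hℓc₄ hA in
/-- **(VAL a), exact**: in the zero component `v_A(U(W, Q)) = v_A(Δ)^(p-1)`. -/
theorem valuation_Uval_of_inZero (h : W.InZeroComponentAt A Q) :
    A.valuation (Uval ((W.map (Int.castRingHom ℚ))⁄Qb) Q p) =
      A.valuation ((W.Δ : ℤ) : Qb) ^ (p - 1) := by
  rw [Uval_eq_div_prodPsi, frozen_Δ_eq, map_div₀, map_pow, map_pow,
    valuation_prodPsi_eq_one_of_inZero W hp hp2 Q hQord hℓ hℓp hℓc₄ A hA h, one_pow, div_one]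

include hp hp2 hQord hℓ hℓp hℓc₄ hA in
/-- **(VAL a)**: in the zero component at a prime of multiplicative reduction,
`u₀ = p¹² / U(W, Q)` is not `A`-integral. -/
theorem div_Uval_notMem_of_inZero (hΔ : W.Δ ≠ 0) (hℓΔ : (ℓ : ℤ) ∣ W.Δ)
    (h : W.InZeroComponentAt A Q) :
    (p : Qb) ^ 12 / Uval ((W.map (Int.castRingHom ℚ))⁄Qb) Q p ∉ A := by
  rw [← uVal_eq_div_Uval W hp hp2 Q hQord hΔ]
  exact uVal_notMem_of_inZero W hp hp2 Q hQord hℓ hℓp hℓc₄ A hA hΔ hℓΔ h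

include hp hp2 hQord hℓ hℓp hℓc₄ hA in
/-- **(VAL b), weak form**: outside the zero component `j₀^(p-1) / u₀` is not `A`-integral
(`j₀ = c₄³ / Δ`, `u₀ = p¹² / U(W, Q)`). -/
theorem jpow_div_notMem_of_not_inZero (hΔ : W.Δ ≠ 0) (h : ¬ W.InZeroComponentAt A Q) :
    (((W.c₄ : ℤ) : Qb) ^ 3 / ((W.Δ : ℤ) : Qb)) ^ (p - 1) /
      ((p : Qb) ^ 12 / Uval ((W.map (Int.castRingHom ℚ))⁄Qb) Q p) ∉ A := by
  have hc : W.c₄ ≠ 0 := fun h0 => hℓc₄ (h0 ▸ dvd_zero _)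
  rw [← inv_wVal_eq W hp hp2 Q hQord hΔ hc]
  exact inv_wVal_notMem_of_not_inZero W hp hp2 Q hQord hℓ hℓp hℓc₄ A hA h

end Frozen

end Fermat.Agent.S15.helper4637
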