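/-
S15 pre-brick (UNIT-MEM), helper5684.

The Ogg unit `Δ(q)/Δ(q^p)` (Prelude `ModularCurve.modularUnitSeries p`) is an ELEMENT of the
Prelude function field of level `p`, in every characteristic different from `p`, and it is a
unit at every place at which `j` is regular.

Purely algebraic: everything is extracted from the landed S28 theorem
`Fermat.Agent.S28.helper508.stmt_FormalPrime p`.
-/
import Mathlib
import Fermat.Prelude.Def_ModularCurve_ModularUnit
import Fermat.Prelude.Def_ModularCurve_X0ModL
import Fermat.Prelude.Def_ModularCurve_ArithmeticGalois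
import Fermat.Agent.S28.helper328_PrimeSpec
import Fermat.Agent.S28.helper508_FormalPrime
import Fermat.Agent.S24.helper627_PlaceBasics

set_option autoImplicit false

namespace Fermat.Agent.S15.helper5684

open Polynomial ModularCurve AlgebraicCurve
open Fermat.Agent.S28.helper328 (deltaHat deltaHatInv gHat evalJ Stmt_FormalPrime Jsub twist
  twist_coeff)

noncomputable section

/-! ### The integral model of the unit -/

/-- The Ogg unit `Δ(q) / Δ(q^p)` as a Laurent series with integer coefficients. -/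
def unitZ (p : ℕ) [NeZero p] : LaurentSeries ℤ :=
  deltaHat ℤ * qExpand ℤ p (deltaHatInv ℤ)

theorem qExpand_deltaHatInv_mul (p : ℕ) [NeZero p] :
    qExpand ℤ p (deltaHatInv ℤ) * qExpand ℤ p (deltaHat ℤ) = 1 := by
  rw [← map_mul, mul_comm, Fermat.Agent.S28.helper2627.deltaHat_mul_deltaHatInv, map_one]

/-- `u * ĝ = p^12`. -/
theorem unitZ_mul_gHat (p : ℕ) [NeZero p] :
    unitZ p * gHat p = (p : LaurentSeries ℤ) ^ 12 := by
  have h1 := Fermat.Agent.S28.helper2627.deltaHat_mul_deltaHatInv
  have h2 := qExpand_deltaHatInv_mul p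
  unfold unitZ gHat
  calc deltaHat ℤ * qExpand ℤ p (deltaHatInv ℤ) *
        ((p : LaurentSeries ℤ) ^ 12 * qExpand ℤ p (deltaHat ℤ) * deltaHatInv ℤ)
      = (p : LaurentSeries ℤ) ^ 12 * (deltaHat ℤ * deltaHatInv ℤ) *
          (qExpand ℤ p (deltaHatInv ℤ) * qExpand ℤ p (deltaHat ℤ)) := by ring
    _ = (p : LaurentSeries ℤ) ^ 12 := by rw [h1, h2, mul_one, mul_one]

/-- The coefficient map of `Δ̂` over `ℤ` to `ℚ` is the Prelude `deltaSeries`. -/
theorem coeffMap_deltaHat_rat :
    coeffMap (Int.castRingHom ℚ) (deltaHat ℤ) = deltaSeries := by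
  rw [deltaHat, deltaSeries, map_mul, coeffMap_single, map_one, coeffMap_ofPowerSeries,
    Fermat.Agent.S28.helper2627.map_int_id]
  rfl

/-- `coeffMap` of the integral unit is the Prelude modular unit series. -/
theorem coeffMap_unitZ_rat (p : ℕ) [NeZero p] :
    coeffMap (Int.castRingHom ℚ) (unitZ p) = modularUnitSeries p := by
  have h1 : coeffMap (Int.castRingHom ℚ) (deltaHatInv ℤ) = deltaSeries⁻¹ := by
    refine eq_inv_of_mul_eq_one_right ?_
    rw [← coeffMap_deltaHat_rat, ← map_mul,
      Fermat.Agent.S28.helper2627.deltaHat_mul_deltaHatInv, map_one]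
  rw [unitZ, map_mul, coeffMap_qExpand, h1, coeffMap_deltaHat_rat, modularUnitSeries,
    deltaSeriesN, map_inv₀]


/-! ### Generalities on `evalJ`, `twist`, `coeffMap` -/

theorem comp_evalJ {R R' : Type*} [CommRing R] [CommRing R']
    (θ : LaurentSeries R →+* LaurentSeries R') (J : LaurentSeries R) :
    θ.comp (evalJ J) = evalJ (θ J) := by
  apply Polynomial.ringHom_ext
  · intro a
    simp [evalJ]
  · simp [evalJ]

theorem twist_one {R : Type*} [CommRing R] (x : LaurentSeries R) : twist (1 : Rˣ) x = x := by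
  ext n
  rw [twist_coeff, one_zpow, Units.val_one, one_mul]

theorem coeffMap_injective {R S : Type*} [CommRing R] [CommRing S] (f : R →+* S)
    (hf : Function.Injective f) : Function.Injective (coeffMap f) := by
  intro x y h
  ext n
  apply hf
  have := congrArg (fun z => z.coeff n) h
  simpa using this

theorem coeffMap_int_comp {R S : Type*} [CommRing R] [CommRing S] (f : R →+* S)
    (x : LaurentSeries ℤ) :
    coeffMap f (coeffMap (Int.castRingHom R) x) = coeffMap (Int.castRingHom S) x := by
  rw [coeffMap_coeffMap]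
  exact coeffMap_congr (RingHom.ext_int _ _) x

/-! ### The cofactor `Ψ(j_p)` does not vanish in characteristic `≠ p` -/

section Core

variable (p : ℕ) [hp : Fact p.Prime]

/-- Instance-free access to `NeZero p`. -/
theorem neZero_p : NeZero p := ⟨hp.out.ne_zero⟩

attribute [local instance] neZero_p

variable (K : Type) [Field K]

/-- The embedding `K((q)) → K̄((t))`, `q ↦ t^p`. -/
def thetaK : LaurentSeries K →+* LaurentSeries (AlgebraicClosure K) :=
  (qExpand (AlgebraicClosure K) p).comp (coeffMap (algebraMap K (AlgebraicClosure K)))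

theorem thetaK_injective : Function.Injective (thetaK p K) := by
  intro x y h
  exact coeffMap_injective _ (algebraMap K (AlgebraicClosure K)).injective
    (qExpand_injective p h)

theorem thetaK_jq : thetaK p K (jqModC K) = qExpand (AlgebraicClosure K) p (jqModC _) := by
  show qExpand _ p (coeffMap _ (jqModC K)) = _
  rw [coeffMap_jqModC]

theorem thetaK_jqp :
    thetaK p K (jqNModC K p) = qExpand (AlgebraicClosure K) (p * p) (jqModC _) := by
  show qExpand _ p (coeffMap _ (qExpand K p (jqModC K))) = _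
  rw [coeffMap_qExpand, coeffMap_jqModC, qExpand_qExpand]

/-- Over a field `K` with `p ≠ 0`, if `Φ(j, X) = (X - j_p) Ψ_K` with `Φ` satisfying the root
formula of `Stmt_FormalPrime`, then `Ψ_K(j_p) ≠ 0`. -/
theorem psi_eval_ne_zero (hpK : (p : K) ≠ 0) (Φ : Polynomial (Polynomial ℤ))
    (ΨK : Polynomial (LaurentSeries K))
    (h6 : Φ.map (evalJ (jqModC K)) = (X - C (jqNModC K p)) * ΨK)
    (h8 : ∀ (k : Type) [Field k] (ω : kˣ), IsPrimitiveRoot ω p → ∀ (ξ : kˣ) (m : ℕ+),
      Φ.map (evalJ (Jsub k (ξ ^ p) (⟨p, hp.out.pos⟩ * m))) =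
        (X - C (Jsub k (ξ ^ (p ^ 2)) (⟨p, hp.out.pos⟩ ^ 2 * m))) *
          ∏ b ∈ Finset.range p, (X - C (Jsub k (ω ^ b * ξ) m))) :
    ΨK.eval (jqNModC K p) ≠ 0 := by
  have : NeZero (p : K) := ⟨hpK⟩
  set k := AlgebraicClosure K with hk
  obtain ⟨ζ, hζ⟩ := HasEnoughRootsOfUnity.exists_primitiveRoot k p
  obtain ⟨ω, hωζ⟩ := hζ.isUnit hp.out.ne_zero
  have hω : IsPrimitiveRoot ω p := IsPrimitiveRoot.coe_units_iff.mp (by rw [hωζ]; exact hζ)
  have hroot := h8 k ω hω 1 1
  -- simplify the three `Jsub`
  have hJ1 : Jsub k ((1 : kˣ) ^ p) (⟨p, hp.out.pos⟩ * 1) = qExpand k p (jqModC k) := by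
    rw [one_pow, Jsub, twist_one]
    have e1 : ∀ P : ℕ+, (P : ℕ) = p → ((P * 1 : ℕ+) : ℕ) = p := fun P hP => by
      rw [mul_one, hP]
    exact qExpand_congr (e1 _ rfl) _
  have hJ2 : Jsub k ((1 : kˣ) ^ (p ^ 2)) (⟨p, hp.out.pos⟩ ^ 2 * 1)
      = qExpand k (p * p) (jqModC k) := by
    rw [one_pow, Jsub, twist_one]
    have e2 : ∀ P : ℕ+, (P : ℕ) = p → ((P ^ 2 * 1 : ℕ+) : ℕ) = p * p := fun P hP => by
      rw [mul_one, PNat.pow_coe, hP, sq]
    exact qExpand_congr (e2 _ rfl) _
  have hJ3 : ∀ b : ℕ, Jsub k (ω ^ b * 1) 1 = twist (ω ^ b) (jqModC k) := by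
    intro b
    rw [mul_one, Jsub]
    rw [qExpand_congr (R := k) (M := ((1 : ℕ+) : ℕ)) (K := 1) (by simp), qExpand_one_apply]
  rw [hJ1, hJ2] at hroot
  simp only [hJ3] at hroot
  -- apply θ to h6
  have h6' := congrArg (Polynomial.map (thetaK p K)) h6
  rw [Polynomial.map_map, comp_evalJ, thetaK_jq, Polynomial.map_mul, Polynomial.map_sub,
    Polynomial.map_X, Polynomial.map_C, thetaK_jqp, hroot] at h6'
  have hΨ : ΨK.map (thetaK p K)
      = ∏ b ∈ Finset.range p, (X - C (twist (ω ^ b) (jqModC k))) :=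
    (mul_left_cancel₀ (X_sub_C_ne_zero _) h6').symm
  intro h0
  have h1 : (ΨK.map (thetaK p K)).eval (thetaK p K (jqNModC K p)) = 0 := by
    rw [Polynomial.eval_map, Polynomial.eval₂_hom, h0, map_zero]
  rw [hΨ, thetaK_jqp, Polynomial.eval_prod, Finset.prod_eq_zero_iff] at h1
  obtain ⟨b, -, hb⟩ := h1
  rw [Polynomial.eval_sub, Polynomial.eval_X, Polynomial.eval_C] at hb
  have hc := congrArg (fun z => z.coeff (-1 : ℤ)) hb
  simp only [HahnSeries.coeff_sub, HahnSeries.coeff_zero] at hc
  rw [twist_coeff, coeff_jqModC_neg_one, mul_one,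
    qExpand_coeff_of_not_dvd (p * p) _ (k := (-1 : ℤ))] at hc
  · rw [zero_sub, neg_eq_zero] at hc
    exact Units.ne_zero _ hc
  · intro hdvd
    have h2 : ((p * p : ℕ) : ℤ) ∣ 1 := by simpa using hdvd
    have h3 : (p * p : ℕ) ∣ 1 := by exact_mod_cast h2
    have h4 : p ∣ 1 := Dvd.dvd.trans (dvd_mul_right p p) h3
    exact hp.out.one_lt.ne' (Nat.dvd_one.mp h4)

end Core

/-! ### Membership of the unit in the function field of characteristic `≠ p` -/

section Membership

variable (p : ℕ) [hp : Fact p.Prime] (K : Type) [Field K]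

attribute [local instance] neZero_p

/-- The Ogg unit `Δ(q)/Δ(q^p)` with coefficients in `K`. -/
def unitK : LaurentSeries K := coeffMap (Int.castRingHom K) (unitZ p)

/-- `ĝ_p = p^12 Δ(q^p)/Δ(q)` with coefficients in `K`. -/
def gK : LaurentSeries K := coeffMap (Int.castRingHom K) (gHat p)

omit hp in
theorem natCast_ne_zero_laurent (hpK : (p : K) ≠ 0) : (p : LaurentSeries K) ≠ 0 := by
  have h : (p : LaurentSeries K) = algebraMap K (LaurentSeries K) (p : K) :=
    (map_natCast _ p).symm
  rw [h]
  exact (_root_.map_ne_zero _).mpr hpK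

theorem unitK_mul_gK : unitK p K * gK p K = (p : LaurentSeries K) ^ 12 := by
  rw [unitK, gK, ← map_mul, unitZ_mul_gHat, map_pow, map_natCast]

theorem gK_ne_zero (hpK : (p : K) ≠ 0) : gK p K ≠ 0 := by
  intro h0
  have h := unitK_mul_gK p K
  rw [h0, mul_zero] at h
  exact pow_ne_zero 12 (natCast_ne_zero_laurent p K hpK) h.symm

theorem unitK_ne_zero (hpK : (p : K) ≠ 0) : unitK p K ≠ 0 := by
  intro h0
  have h := unitK_mul_gK p K
  rw [h0, zero_mul] at h
  exact pow_ne_zero 12 (natCast_ne_zero_laurent p K hpK) h.symm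

theorem unitK_eq_div (hpK : (p : K) ≠ 0) :
    unitK p K = (p : LaurentSeries K) ^ 12 / gK p K := by
  rw [eq_div_iff (gK_ne_zero p K hpK), unitK_mul_gK]

/-- `ĝ_p` lies in `K(j, j_p)` when `p ≠ 0` in `K`. -/
theorem gK_mem (hpK : (p : K) ≠ 0) : gK p K ∈ modularFunctionFieldC K p := by
  obtain ⟨Φ, G, T, Ψ, -, -, -, -, -, h6, h7, h8⟩ :=
    Fermat.Agent.S28.helper508.stmt_FormalPrime p
  set F := modularFunctionFieldC K p with hF
  set c := coeffMap (Int.castRingHom K) with hc
  have hcj : c (jqModC ℤ) = jqModC K := coeffMap_jqModC _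
  have hcjp : c (qExpand ℤ p (jqModC ℤ)) = jqNModC K p := by
    rw [hc, coeffMap_qExpand, coeffMap_jqModC]
    rfl
  have h6K : Φ.map (evalJ (jqModC K)) = (X - C (jqNModC K p)) * Ψ.map c := by
    have h := congrArg (Polynomial.map c) h6
    rwa [Polynomial.map_map, comp_evalJ, hcj, Polynomial.map_mul, Polynomial.map_sub,
      Polynomial.map_X, Polynomial.map_C, hcjp] at h
  have h7K : (Ψ.map c).eval (jqNModC K p) * c (gHat p) =
      ∑ i ∈ Finset.range (p + 1), (Ψ.map c).coeff i * evalJ (jqModC K) (T i) := by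
    have h := congrArg c h7
    rw [map_mul, map_sum] at h
    rw [Polynomial.eval_map, ← hcjp, Polynomial.eval₂_hom, h]
    refine Finset.sum_congr rfl fun i _ => ?_
    rw [map_mul, Polynomial.coeff_map, ← hcj, ← comp_evalJ, RingHom.comp_apply]
  have hne := psi_eval_ne_zero p K hpK Φ (Ψ.map c) h6K h8
  let jF : F := ⟨jqModC K, jqModC_mem K p⟩
  let jpF : F := ⟨jqNModC K p, jqNModC_mem K p⟩
  let ι : F →+* LaurentSeries K := algebraMap F (LaurentSeries K)
  let evF : ℤ[X] →+* F := Polynomial.eval₂RingHom (Int.castRingHom F) jF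
  have hev : ι.comp evF = evalJ (jqModC K) := by
    apply Polynomial.ringHom_ext
    · intro a
      simp [evF, evalJ]
    · simp [evF, evalJ, ι, jF]
  let ΨF : F[X] := (Φ.map evF) /ₘ (X - C jpF)
  have hΨF : ΨF.map ι = Ψ.map c := by
    rw [Polynomial.map_divByMonic _ (monic_X_sub_C _), Polynomial.map_map, hev, h6K,
      Polynomial.map_sub, Polynomial.map_X, Polynomial.map_C]
    exact Polynomial.mul_divByMonic_cancel_left _ (monic_X_sub_C _)
  have hmem1 : (Ψ.map c).eval (jqNModC K p) ∈ F := by
    rw [← hΨF, Polynomial.eval_map]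
    have h : jqNModC K p = ι jpF := rfl
    rw [h, Polynomial.eval₂_hom]
    exact (ΨF.eval jpF).2
  have hmem2 : ∑ i ∈ Finset.range (p + 1), (Ψ.map c).coeff i * evalJ (jqModC K) (T i) ∈ F := by
    refine sum_mem fun i _ => mul_mem ?_ ?_
    · rw [← hΨF, Polynomial.coeff_map]
      exact (ΨF.coeff i).2
    · rw [← hev]
      exact (evF (T i)).2
  have h : gK p K = (∑ i ∈ Finset.range (p + 1), (Ψ.map c).coeff i * evalJ (jqModC K) (T i)) /
      (Ψ.map c).eval (jqNModC K p) := by
    rw [eq_div_iff hne, mul_comm]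
    exact h7K
  rw [h]
  exact div_mem hmem2 hmem1

/-- **(U2)** The Ogg unit lies in `K(j, j_p) = modularFunctionFieldC K p` when `p ≠ 0` in `K`. -/
theorem unitK_mem (hpK : (p : K) ≠ 0) : unitK p K ∈ modularFunctionFieldC K p := by
  rw [unitK_eq_div p K hpK]
  exact div_mem (pow_mem (natCast_mem _ p) 12) (gK_mem p K hpK)

/-- **(U2)**, `Full` form: this is the membership `hyk` asked by `IsPlaceReductionAlong`. -/
theorem unitK_mem_full (hpK : (p : K) ≠ 0) : unitK p K ∈ modularFunctionFieldFullC K p :=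
  modularFunctionFieldC_le_full K p (unitK_mem p K hpK)

theorem gK_mem_full (hpK : (p : K) ≠ 0) : gK p K ∈ modularFunctionFieldFullC K p :=
  modularFunctionFieldC_le_full K p (gK_mem p K hpK)

end Membership

/-! ### Characteristic zero: the Prelude series `modularUnitSeries p` -/

section CharZero

variable (p : ℕ) [hp : Fact p.Prime]

attribute [local instance] neZero_p

theorem unitK_rat : unitK p ℚ = modularUnitSeries p := coeffMap_unitZ_rat p

/-- **(U1)** The Prelude modular unit `Δ(q)/Δ(q^p)` lies in `ℚ(j(q), j(q^p))`. -/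
theorem modularUnitSeries_mem : modularUnitSeries p ∈ modularFunctionField p := by
  rw [← unitK_rat]
  exact unitK_mem p ℚ (Nat.cast_ne_zero.mpr hp.out.ne_zero)

theorem modularUnitSeries_mem_full : modularUnitSeries p ∈ modularFunctionFieldFull p :=
  modularFunctionField_le_full p (modularUnitSeries_mem p)

theorem modularUnitSeries_inv_mem : (modularUnitSeries p)⁻¹ ∈ modularFunctionField p :=
  inv_mem (modularUnitSeries_mem p)

theorem modularUnitSeries_inv_mem_full :
    (modularUnitSeries p)⁻¹ ∈ modularFunctionFieldFull p :=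
  inv_mem (modularUnitSeries_mem_full p)

variable (L : Type) [Field L] [Algebra ℚ L]

theorem coeffEmb_jq : coeffEmb L jq = jqModC L := by
  rw [← jqModC_rat, coeffEmb, coeffMap_jqModC]

theorem coeffEmb_modularUnitSeries : coeffEmb L (modularUnitSeries p) = unitK p L := by
  rw [← coeffMap_unitZ_rat, coeffEmb, coeffMap_int_comp, unitK]

/-- **(U1)** over any field `L ⊇ ℚ` (e.g. `ℚ̄`): the unit lies in the base-changed function field
(`modularFunctionFieldBar p` for `L = ℚ̄`). -/
theorem coeffEmb_modularUnitSeries_mem :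
    coeffEmb L (modularUnitSeries p) ∈ laurentBaseChange L (modularFunctionFieldFull p) :=
  coeffEmb_mem_laurentBaseChange L (modularUnitSeries_mem_full p)

theorem unitK_mem_laurentBaseChange :
    unitK p L ∈ laurentBaseChange L (modularFunctionFieldFull p) := by
  rw [← coeffEmb_modularUnitSeries]
  exact coeffEmb_modularUnitSeries_mem p L

theorem unitK_mem_bar : unitK p (AlgebraicClosure ℚ) ∈ modularFunctionFieldBar p :=
  unitK_mem_laurentBaseChange p (AlgebraicClosure ℚ)

end CharZero

/-! ### Integrality: the unit is a unit wherever `j` is regular -/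

section Integrality

variable (p : ℕ) [hp : Fact p.Prime] (K : Type) [Field K]

attribute [local instance] neZero_p

/-- The monic equation of `ĝ_p` over `ℤ[j]`, with coefficients in `K`. -/
theorem exists_monic_gK :
    ∃ G : Polynomial (Polynomial ℤ), G.Monic ∧
      (G.coeff 0 = C ((p : ℤ) ^ 12) ∨ G.coeff 0 = C (-(p : ℤ) ^ 12)) ∧
      (G.map (evalJ (jqModC K))).eval (gK p K) = 0 := by
  obtain ⟨Φ, G, T, Ψ, -, -, hGm, hG0, hG, -, -, -⟩ :=
    Fermat.Agent.S28.helper508.stmt_FormalPrime p
  refine ⟨G, hGm, hG0, ?_⟩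
  have h := congrArg (coeffMap (Int.castRingHom K)) hG
  rw [map_zero, Polynomial.eval_map, Polynomial.hom_eval₂, comp_evalJ, coeffMap_jqModC] at h
  rw [Polynomial.eval_map]
  exact h

/-- **(U3)**, abstract form.  Let `F'` be any intermediate field of `K((q))` (the function field
of level `p` in any of its Prelude incarnations), `O` a valuation subring of `F'` containing the
constants, `j u : F'` the elements with expansions `j(q)` and `Δ(q)/Δ(q^p)`.  If `p ≠ 0` in `K`
and `j ∈ O`, then `u` is a unit of `O`. -/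
theorem unit_mem_valuationSubring (hpK : (p : K) ≠ 0)
    (F' : IntermediateField K (LaurentSeries K)) (O : ValuationSubring F')
    (hK : ∀ a : K, algebraMap K F' a ∈ O)
    (j u : F') (hj : (j : LaurentSeries K) = jqModC K) (hu : (u : LaurentSeries K) = unitK p K)
    (hjO : j ∈ O) : u ∈ O ∧ u⁻¹ ∈ O := by
  obtain ⟨G, hGm, hG0, hGK⟩ := exists_monic_gK p K
  have hpF : (p : F') ≠ 0 := by
    have h : (p : F') = algebraMap K F' (p : K) := (map_natCast _ p).symm
    rw [h]
    exact (_root_.map_ne_zero _).mpr hpK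
  have hu0 : u ≠ 0 := by
    intro h
    apply unitK_ne_zero p K hpK
    rw [← hu, h]
    rfl
  obtain ⟨g, hg⟩ : ∃ g : F', g = (p : F') ^ 12 * u⁻¹ := ⟨_, rfl⟩
  have hug : u * g = (p : F') ^ 12 := by
    rw [hg]
    field_simp
  have hgcoe : (g : LaurentSeries K) = gK p K := by
    have h2 : (u : LaurentSeries K) * (g : LaurentSeries K) = (p : LaurentSeries K) ^ 12 := by
      have h := congrArg (fun z : F' => (z : LaurentSeries K)) hug
      simpa using h
    rw [hu, ← unitK_mul_gK p K] at h2
    exact mul_left_cancel₀ (unitK_ne_zero p K hpK) h2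
  have hg0 : g ≠ 0 := by
    intro h
    rw [h, mul_zero] at hug
    exact pow_ne_zero 12 hpF hug.symm
  -- evaluation of integer polynomials at `j`, inside `O`
  let jO : O := ⟨j, hjO⟩
  let evO : ℤ[X] →+* O := Polynomial.eval₂RingHom (Int.castRingHom O) jO
  let ι : O →+* LaurentSeries K := (algebraMap F' (LaurentSeries K)).comp O.subtype
  have hev : ι.comp evO = evalJ (jqModC K) := by
    apply Polynomial.ringHom_ext
    · intro a
      simp [evO, evalJ, ι]
    · simp [evO, evalJ, ι, jO, hj]
  let GO : O[X] := G.map evO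
  have hGOm : GO.Monic := hGm.map _
  have hGF : (GO.map O.subtype).eval g = 0 := by
    apply (algebraMap F' (LaurentSeries K)).injective
    rw [map_zero, ← hGK, ← hgcoe, ← hev, Polynomial.eval_map, Polynomial.eval_map,
      Polynomial.hom_eval₂, Polynomial.eval₂_map]
    rfl
  -- `g` is integral over `O`, hence in `O`
  have hgint : IsIntegral O g := ⟨GO, hGOm, by rw [← Polynomial.eval_map]; exact hGF⟩
  obtain ⟨gO, hgO⟩ := IsIntegrallyClosed.isIntegral_iff.mp hgint
  have hgO' : (gO : F') = g := hgO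
  have hGO0 : GO.eval gO = 0 := by
    apply Subtype.ext
    have h : ((GO.eval gO : O) : F') = (GO.map O.subtype).eval g := by
      rw [← hgO']
      exact ((Polynomial.eval_map O.subtype _).trans
        (Polynomial.eval₂_hom (f := O.subtype) (p := GO) gO)).symm
    rw [h, hGF]
    rfl
  have hsplit := congrArg (Polynomial.eval gO) (Polynomial.divX_mul_X_add GO)
  rw [Polynomial.eval_add, Polynomial.eval_mul, Polynomial.eval_X, Polynomial.eval_C, hGO0] at hsplit
  set h : O := GO.divX.eval gO with hh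
  have hc0 : GO.coeff 0 = evO (G.coeff 0) := Polynomial.coeff_map _ _
  have hkey : (h : F') * g + ((GO.coeff 0 : O) : F') = 0 := by
    have := congrArg (fun z : O => (z : F')) hsplit
    simpa [hgO'] using this
  have hp12inv : ((p : F') ^ 12)⁻¹ ∈ O := by
    have h1 : ((p : F') ^ 12)⁻¹ = algebraMap K F' (((p : K) ^ 12)⁻¹) := by
      rw [map_inv₀, map_pow, map_natCast]
    rw [h1]
    exact hK _
  have hu_eq : u = (p : F') ^ 12 * g⁻¹ := by
    rw [hg, mul_inv, inv_inv, ← mul_assoc, mul_inv_cancel₀ (pow_ne_zero 12 hpF), one_mul]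
  have huinv : u⁻¹ = g * ((p : F') ^ 12)⁻¹ := by
    rw [hg]
    field_simp
  have hevC : ∀ a : ℤ, ((evO (C a) : O) : F') = (a : F') := by
    intro a
    show ((Polynomial.eval₂ (Int.castRingHom O) jO (C a) : O) : F') = (a : F')
    rw [Polynomial.eval₂_C]
    simp
  refine ⟨?_, ?_⟩
  · rcases hG0 with h0 | h0
    · have hc : ((GO.coeff 0 : O) : F') = (p : F') ^ 12 := by
        rw [hc0, h0, hevC]
        push_cast
        rfl
      rw [hc] at hkey
      have h3 : (p : F') ^ 12 = -((h : F') * g) := by linear_combination hkey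
      have : u = -(h : F') := by
        rw [hu_eq, h3]
        field_simp
      rw [this]
      exact neg_mem h.2
    · have hc : ((GO.coeff 0 : O) : F') = -(p : F') ^ 12 := by
        rw [hc0, h0, hevC]
        push_cast
        rfl
      rw [hc] at hkey
      have h3 : (p : F') ^ 12 = (h : F') * g := by linear_combination -hkey
      have : u = (h : F') := by
        rw [hu_eq, h3]
        field_simp
      rw [this]
      exact h.2
  · rw [huinv]
    exact mul_mem (hgO' ▸ gO.2) hp12inv

/-- **(U3)**, place form: at every place `v` of the level-`p` function field (any incarnation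
`F'`) with `0 ≤ ord_v j`, the Ogg unit has order `0`. -/
theorem ord_unit_eq_zero (hpK : (p : K) ≠ 0)
    (F' : IntermediateField K (LaurentSeries K)) (v : Place K F')
    (j u : F') (hj : (j : LaurentSeries K) = jqModC K) (hu : (u : LaurentSeries K) = unitK p K)
    (hv : 0 ≤ v.ord j) : v.ord u = 0 := by
  obtain ⟨h1, h2⟩ := unit_mem_valuationSubring p K hpK F' v.toValuationSubring
    v.algebraMap_mem' j u hj hu (Fermat.Agent.S24.helper627.mem_of_ord_nonneg v hv)
  have a := Fermat.Agent.S24.helper627.ord_nonneg_of_mem v h1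
  have b := Fermat.Agent.S24.helper627.ord_nonneg_of_mem v h2
  rw [Place.ord_inv] at b
  omega

end Integrality

/-! ### Consumer forms: named elements, change of coefficients, leading term -/

section Consumers

variable (p : ℕ) [hp : Fact p.Prime]

attribute [local instance] neZero_p

/-- Change of coefficient field. -/
theorem coeffMap_unitK {K K' : Type} [Field K] [Field K'] (f : K →+* K') :
    coeffMap f (unitK p K) = unitK p K' :=
  coeffMap_int_comp f (unitZ p)

/-- The integral model over a valuation ring `A` of `L` restricts to the unit over `L`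
(hypothesis `hy` of `IsPlaceReductionAlong` for `y = coeffMap (Int.castRingHom A) (unitZ p)`). -/
theorem coeffMap_subtype_unitZ {L : Type} [Field L] (A : ValuationSubring L) :
    coeffMap A.subtype (coeffMap (Int.castRingHom A) (unitZ p)) = unitK p L :=
  coeffMap_int_comp A.subtype (unitZ p)

/-- The integral model over a ring `A` reduces to the unit over `k`
(hypothesis `hyk` of `IsPlaceReductionAlong`). -/
theorem coeffMap_residue_unitZ {A : Type} [CommRing A] {k : Type} [Field k] (π : A →+* k) :
    coeffMap π (coeffMap (Int.castRingHom A) (unitZ p)) = unitK p k :=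
  coeffMap_int_comp π (unitZ p)

/-- The unit is fixed by the arithmetic Galois action on coefficients. -/
theorem coeffMap_algEquiv_unitK {L : Type} [Field L] [Algebra ℚ L] (σ : L ≃ₐ[ℚ] L) :
    coeffMap (σ : L →+* L) (unitK p L) = unitK p L :=
  coeffMap_unitK p _

open Fermat.Agent.S28.helper508 in
/-- Leading term: `u = q^(1-p) + ...` over `ℤ`. -/
theorem leadAt_unitZ : LeadAt (unitZ p) (1 - (p : ℤ)) 1 := by
  have h := (leadAt_deltaHat ℤ).mul ((leadAt_deltaHatInv ℤ).qExpand p)
  rw [mul_one] at h
  have e : (1 : ℤ) + (p : ℤ) * (-1) = 1 - (p : ℤ) := by ring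
  rw [e] at h
  exact h

open Fermat.Agent.S28.helper508 in
/-- Leading term: `u = q^(1-p) + ...` over any field. -/
theorem leadAt_unitK (K : Type) [Field K] : LeadAt (unitK p K) (1 - (p : ℤ)) 1 := by
  have h := (leadAt_unitZ p).coeffMap (Int.castRingHom K)
  rw [map_one] at h
  exact h

variable (K : Type) [Field K]

/-- `j` as an element of `modularFunctionFieldFullC K p`. -/
def jFullC : modularFunctionFieldFullC K p := ⟨jqModC K, jqModC_mem_full K p⟩

/-- The Ogg unit as an element of `modularFunctionFieldFullC K p` (`p ≠ 0` in `K`). -/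
def unitFullC (hpK : (p : K) ≠ 0) : modularFunctionFieldFullC K p :=
  ⟨unitK p K, unitK_mem_full p K hpK⟩

omit hp in
@[simp] theorem coe_jFullC : ((jFullC p K : modularFunctionFieldFullC K p) : LaurentSeries K)
    = jqModC K := rfl

@[simp] theorem coe_unitFullC (hpK : (p : K) ≠ 0) :
    ((unitFullC p K hpK : modularFunctionFieldFullC K p) : LaurentSeries K) = unitK p K := rfl

theorem unitFullC_ne_zero (hpK : (p : K) ≠ 0) : unitFullC p K hpK ≠ 0 := by
  intro h
  apply unitK_ne_zero p K hpK
  rw [← coe_unitFullC p K hpK, h]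
  rfl

/-- **(U3)** in characteristic `≠ p`: the unit has order `0` at every place of
`modularFunctionFieldFullC K p` at which `j` is regular. -/
theorem ord_unitFullC_eq_zero (hpK : (p : K) ≠ 0)
    (v : Place K (modularFunctionFieldFullC K p)) (hv : 0 ≤ v.ord (jFullC p K)) :
    v.ord (unitFullC p K hpK) = 0 :=
  ord_unit_eq_zero p K hpK _ v _ _ rfl rfl hv

/-- `j` as an element of `modularFunctionFieldBar p`. -/
def jBarU : modularFunctionFieldBar p :=
  ⟨jqModC (AlgebraicClosure ℚ), by
    rw [← coeffEmb_jq]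
    exact coeffEmb_mem_laurentBaseChange _ (modularFunctionField_le_full p (jq_mem p))⟩

/-- The Ogg unit as an element of `modularFunctionFieldBar p`. -/
def unitBar : modularFunctionFieldBar p := ⟨unitK p (AlgebraicClosure ℚ), unitK_mem_bar p⟩

@[simp] theorem coe_jBarU : ((jBarU p : modularFunctionFieldBar p) :
    LaurentSeries (AlgebraicClosure ℚ)) = jqModC (AlgebraicClosure ℚ) := rfl

theorem coe_jBarU' : ((jBarU p : modularFunctionFieldBar p) :
    LaurentSeries (AlgebraicClosure ℚ)) = coeffEmb (AlgebraicClosure ℚ) jq :=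
  (coeffEmb_jq (AlgebraicClosure ℚ)).symm

@[simp] theorem coe_unitBar : ((unitBar p : modularFunctionFieldBar p) :
    LaurentSeries (AlgebraicClosure ℚ)) = unitK p (AlgebraicClosure ℚ) := rfl

theorem coe_unitBar' : ((unitBar p : modularFunctionFieldBar p) :
    LaurentSeries (AlgebraicClosure ℚ)) = coeffEmb (AlgebraicClosure ℚ) (modularUnitSeries p) :=
  (coeffEmb_modularUnitSeries p (AlgebraicClosure ℚ)).symm

theorem natCast_ne_zero_algClosureRat : ((p : ℕ) : AlgebraicClosure ℚ) ≠ 0 :=
  Nat.cast_ne_zero.mpr hp.out.ne_zero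

theorem unitBar_ne_zero : unitBar p ≠ 0 := by
  intro h
  apply unitK_ne_zero p (AlgebraicClosure ℚ) (natCast_ne_zero_algClosureRat p)
  rw [← coe_unitBar p, h]
  rfl

/-- **(U3)** over `ℚ̄`: the Ogg unit has order `0` at every place of `X₀(p)` at which `j` is
regular; so `div u` is supported on the places with `ord j < 0` (the two cusps). -/
theorem ord_unitBar_eq_zero (v : Place (AlgebraicClosure ℚ) (modularFunctionFieldBar p))
    (hv : 0 ≤ v.ord (jBarU p)) : v.ord (unitBar p) = 0 :=
  ord_unit_eq_zero p (AlgebraicClosure ℚ) (natCast_ne_zero_algClosureRat p) _ v _ _ rfl rfl hv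

/-- Variant for an arbitrary element `j'` of the function field with expansion `j(q)`
(e.g. `Fermat.Agent.S24.helper24.jBar p`). -/
theorem ord_unitBar_eq_zero' (v : Place (AlgebraicClosure ℚ) (modularFunctionFieldBar p))
    (j' : modularFunctionFieldBar p)
    (hj' : (j' : LaurentSeries (AlgebraicClosure ℚ)) = coeffEmb (AlgebraicClosure ℚ) jq)
    (hv : 0 ≤ v.ord j') : v.ord (unitBar p) = 0 :=
  ord_unit_eq_zero p (AlgebraicClosure ℚ) (natCast_ne_zero_algClosureRat p) _ v j' _
    (hj'.trans (coeffEmb_jq _)) rfl hv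

end Consumers

end

end Fermat.Agent.S15.helper5684
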