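import Fermat.Agent.S15.helper5942_CuspNonzero
import Fermat.Agent.S15.helper5684_UnitMem

/-!
# S15 (W2): the cuspidal class `c = (0) - (∞)` of `J₀(p)` is killed by `p - 1`

(helper5942)

The Ogg unit `u = Δ(q)/Δ(q^p)` (Prelude `modularUnitSeries p`; element `helper5684.unitBar p` of
the function field of `X₀(p)` over `ℚ̄`) has order `1 - p` at `∞`, order `0` wherever `j` is
regular, hence (degree zero, the two cusps being the only places over `j = ∞`) order `p - 1` at
the cusp `0`:

* `oggUnit`, `coe_oggUnit`, `oggUnit_ne_zero`, `cuspInf_ord_oggUnit`, `cuspZero_ord_oggUnit`,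
  `ord_oggUnit_eq_zero`;
* `ord_oggUnit` : `ord_v u = ((p - 1) • cuspDiv) v` at every place `v`;
* `sub_one_smul_cuspClass` : **(C1)** `(p - 1) • cuspClass p = 0`;
* `addOrderOf_cuspClass_dvd`, `exists_prime_dvd_addOrderOf_cuspClass` : **(C5)**.
-/

set_option autoImplicit false

noncomputable section

namespace Fermat.Agent.S15.helper5942

open AlgebraicCurve ModularCurve IntermediateField
open Fermat.Agent.S24.helper24 Fermat.Agent.S35.helper1219 Fermat.Agent.S18.helper1040

section Order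

variable (p : ℕ) [NeZero p] (hp : p.Prime)

/-- The Ogg unit `Δ(q)/Δ(q^p)` as an element of the function field of `X₀(p)` over `ℚ̄`. -/
def oggUnit : FN p :=
  haveI : Fact p.Prime := ⟨hp⟩
  Fermat.Agent.S15.helper5684.unitBar p

theorem coe_oggUnit :
    ((oggUnit p hp : FN p) : LaurentSeries Kbar) = coeffEmb Kbar (modularUnitSeries p) := by
  have : Fact p.Prime := ⟨hp⟩
  exact Fermat.Agent.S15.helper5684.coe_unitBar' p

theorem oggUnit_ne_zero : oggUnit p hp ≠ 0 := by
  have : Fact p.Prime := ⟨hp⟩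
  exact Fermat.Agent.S15.helper5684.unitBar_ne_zero p

/-- The `q`-expansion of the Ogg unit has order `1 - p`. -/
theorem order_oggUnit : ((oggUnit p hp : FN p) : LaurentSeries Kbar).order = 1 - (p : ℤ) := by
  have : Fact p.Prime := ⟨hp⟩
  have hl := Fermat.Agent.S15.helper5684.leadAt_unitK p Kbar
  have hcoe : ((oggUnit p hp : FN p) : LaurentSeries Kbar)
      = Fermat.Agent.S15.helper5684.unitK p Kbar := rfl
  rw [hcoe]
  have hne : Fermat.Agent.S15.helper5684.unitK p Kbar ≠ 0 := by
    intro h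
    have h1 := hl.1
    rw [h] at h1
    simp at h1
  apply le_antisymm
  · apply HahnSeries.order_le_of_coeff_ne_zero
    rw [hl.1]
    exact one_ne_zero
  · by_contra hlt
    rw [not_le] at hlt
    exact hne (HahnSeries.coeff_order_eq_zero.mp (hl.2 _ hlt))

/-- `ord_∞ u = 1 - p`. -/
theorem cuspInf_ord_oggUnit : (cuspInf p).ord (oggUnit p hp) = 1 - (p : ℤ) := by
  rw [isCuspInf_cuspInf p _ (oggUnit_ne_zero p hp), order_oggUnit]

/-- The Ogg unit has neither zero nor pole where `j` is regular. -/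
theorem ord_oggUnit_eq_zero (v : Place Kbar (FN p)) (hv : 0 ≤ v.ord (jBar p)) :
    v.ord (oggUnit p hp) = 0 := by
  have : Fact p.Prime := ⟨hp⟩
  exact Fermat.Agent.S15.helper5684.ord_unitBar_eq_zero' p v (jBar p) (coe_jBar p) hv

/-- **The divisor of the Ogg unit is `(p - 1) ((0) - (∞))`.** -/
theorem ord_oggUnit (v : Place Kbar (FN p)) :
    v.ord (oggUnit p hp) = (((p : ℤ) - 1) • cuspDiv p hp) v := by
  classical
  have hne := cuspInf_ne_cuspZero p hp
  obtain ⟨D, hD, hD0⟩ := (Fermat.Agent.S37.helper5162.hasPrincipalDivisors_FN p).exists_divisor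
    (oggUnit p hp) (oggUnit_ne_zero p hp)
  have hDeq : D = Finsupp.single (cuspInf p) (1 - (p : ℤ))
      + Finsupp.single (cuspZero p hp) (D (cuspZero p hp)) := by
    ext w
    rw [Finsupp.add_apply]
    by_cases h1 : w = cuspInf p
    · rw [h1, Finsupp.single_eq_same, Finsupp.single_eq_of_ne hne, add_zero, hD,
        cuspInf_ord_oggUnit]
    · rw [Finsupp.single_eq_of_ne h1, zero_add]
      by_cases h2 : w = cuspZero p hp
      · rw [h2, Finsupp.single_eq_same]
      · rw [Finsupp.single_eq_of_ne h2, hD]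
        apply ord_oggUnit_eq_zero
        by_contra hlt
        rw [not_le] at hlt
        rcases eq_cusp_of_ord_jBar_neg p hp w hlt with h | h
        · exact h1 h
        · exact h2 h
  have hdeg : (1 - (p : ℤ)) + D (cuspZero p hp) = 0 := by
    have h := hD0
    rw [hDeq, map_add, Divisor.degree_single, Divisor.degree_single,
      Fermat.Agent.S37.helper5162.place_deg_eq_one p,
      Fermat.Agent.S37.helper5162.place_deg_eq_one p] at h
    simpa using h
  have hZ : D (cuspZero p hp) = (p : ℤ) - 1 := by linarith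
  rw [← hD v, hDeq, hZ, cuspDiv, smul_sub, Finsupp.smul_single, Finsupp.smul_single,
    smul_eq_mul, mul_one, Finsupp.add_apply, Finsupp.sub_apply]
  by_cases h1 : v = cuspInf p
  · rw [h1, Finsupp.single_eq_same, Finsupp.single_eq_of_ne hne, Finsupp.single_eq_same]
    ring
  · rw [Finsupp.single_eq_of_ne h1, Finsupp.single_eq_of_ne h1]
    ring

/-- `ord_0 u = p - 1`. -/
theorem cuspZero_ord_oggUnit : (cuspZero p hp).ord (oggUnit p hp) = (p : ℤ) - 1 := by
  classical
  rw [ord_oggUnit, cuspDiv, smul_sub, Finsupp.smul_single, Finsupp.smul_single, smul_eq_mul,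
    mul_one, Finsupp.sub_apply, Finsupp.single_eq_same,
    Finsupp.single_eq_of_ne (cuspInf_ne_cuspZero p hp).symm, sub_zero]

/-- `(p - 1) ((0) - (∞))` is a principal divisor (of the Ogg unit). -/
theorem sub_one_smul_cuspDiv_mem_principal :
    ((p : ℤ) - 1) • cuspDiv p hp ∈ Divisor.principal (K := Kbar) (F := FN p) :=
  ⟨oggUnit p hp, oggUnit_ne_zero p hp, fun v => (ord_oggUnit p hp v).symm⟩

/-- **(C1)**, integer form: `(p - 1) • c = 0` in `J₀(p)`. -/
theorem sub_one_zsmul_cuspClass : ((p : ℤ) - 1) • cuspClass p hp = 0 := by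
  show ((p : ℤ) - 1) • (QuotientAddGroup.mk
    (⟨cuspDiv p hp, cuspDiv_mem_degZero p hp⟩ : Divisor.degZero (K := Kbar) (F := FN p))
      : Pic0 Kbar (FN p)) = 0
  rw [← QuotientAddGroup.mk_zsmul, QuotientAddGroup.eq_zero_iff, AddSubgroup.mem_addSubgroupOf]
  exact sub_one_smul_cuspDiv_mem_principal p hp

/-- **(C1)** The cuspidal class `c = (0) - (∞)` of `J₀(p)` is killed by `p - 1`. -/
theorem sub_one_smul_cuspClass : (p - 1) • cuspClass p hp = 0 := by
  have h := sub_one_zsmul_cuspClass p hp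
  have h1 : ((p : ℤ) - 1) = ((p - 1 : ℕ) : ℤ) := by
    rw [Nat.cast_sub hp.one_lt.le, Nat.cast_one]
  rw [h1, natCast_zsmul] at h
  exact h

/-- The order of the cuspidal class divides `p - 1`. -/
theorem addOrderOf_cuspClass_dvd : addOrderOf (cuspClass p hp) ∣ p - 1 :=
  addOrderOf_dvd_of_nsmul_eq_zero (sub_one_smul_cuspClass p hp)

theorem addOrderOf_cuspClass_pos : 0 < addOrderOf (cuspClass p hp) := by
  have h := addOrderOf_cuspClass_dvd p hp
  have hp1 : 0 < p - 1 := Nat.sub_pos_of_lt hp.one_lt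
  exact Nat.pos_of_dvd_of_pos h hp1

theorem addOrderOf_cuspClass_lt : addOrderOf (cuspClass p hp) < p := by
  have h := Nat.le_of_dvd (Nat.sub_pos_of_lt hp.one_lt) (addOrderOf_cuspClass_dvd p hp)
  have := hp.one_lt
  omega

/-- The order of the cuspidal class is prime to `p`. -/
theorem coprime_addOrderOf_cuspClass : Nat.Coprime p (addOrderOf (cuspClass p hp)) := by
  rw [hp.coprime_iff_not_dvd]
  intro h
  have := Nat.le_of_dvd (addOrderOf_cuspClass_pos p hp) h
  have := addOrderOf_cuspClass_lt p hp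
  omega

theorem addOrderOf_cuspClass_ne_one (hp' : p ∉ ({2, 3, 5, 7, 13} : Finset ℕ)) :
    addOrderOf (cuspClass p hp) ≠ 1 := by
  intro h
  exact cuspClass_ne_zero p hp hp' (AddMonoid.addOrderOf_eq_one_iff.mp h)

/-- **(C5)** For a prime `p ∉ {2, 3, 5, 7, 13}` there is a prime `r` dividing the order of the
cuspidal class; every such prime divides `p - 1` (so `r < p`, `r ≠ p`). -/
theorem exists_prime_dvd_addOrderOf_cuspClass (hp' : p ∉ ({2, 3, 5, 7, 13} : Finset ℕ)) :
    ∃ r : ℕ, r.Prime ∧ r ∣ addOrderOf (cuspClass p hp) ∧ r ∣ p - 1 ∧ r < p := by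
  obtain ⟨r, hr, hdvd⟩ := Nat.exists_prime_and_dvd (addOrderOf_cuspClass_ne_one p hp hp')
  refine ⟨r, hr, hdvd, hdvd.trans (addOrderOf_cuspClass_dvd p hp), ?_⟩
  have h1 := Nat.le_of_dvd (Nat.sub_pos_of_lt hp.one_lt)
    (hdvd.trans (addOrderOf_cuspClass_dvd p hp))
  have := hp.one_lt
  omega

end Order

end Fermat.Agent.S15.helper5942
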