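import Mathlib
import Fermat.Agent.S29.helper580_CPlaceFin
import Fermat.Agent.S29.helper288_RatioInFC
import Fermat.Prelude.Def_ModularCurve_ModularUnit

/-!
# S15 bridge, leaf (B5), part 1 (helper7155): the Prelude modular unit is a function on `X₀(p)`

* `mem_full_of_coeffEmb_mem` : **coefficient descent** `ℂ → ℚ`: a Laurent series `x ∈ ℚ((q))`
  whose base change lies in the complex function field `ℂ(j(q^d) : d ∣ N)` already lies in
  `modularFunctionFieldFull N = ℚ(j(q^d) : d ∣ N)`;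
* `modularUnitSeries_mem_full` : the Prelude series `Δ(q) / Δ(q^p)`
  (`ModularCurve.modularUnitSeries p`) lies in `modularFunctionFieldFull p`;
* `deltaRatio_mem_full` : more generally `Δ(q^d) / Δ(q) ∈ modularFunctionFieldFull N`, `d ∣ N`.

The transcendental input is the landed `S29.helper288.ratioInFC` (ratios of modular forms of
equal weight on `Γ₀(N)` lie in the complex function field).
-/

set_option autoImplicit false

open ModularCurve

noncomputable section

namespace Fermat.Agent.S15.helper7155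

/-! ## Coefficientwise functionals -/

/-- Coefficientwise application of a `ℚ`-linear functional `ℂ → ℚ` to a Laurent series. -/
def coeffFun (μ : ℂ →ₗ[ℚ] ℚ) (z : LaurentSeries ℂ) : LaurentSeries ℚ := HahnSeries.map z μ

theorem coeffFun_coeff (μ : ℂ →ₗ[ℚ] ℚ) (z : LaurentSeries ℂ) (k : ℤ) :
    (coeffFun μ z).coeff k = μ (z.coeff k) := rfl

theorem coeffFun_zero (μ : ℂ →ₗ[ℚ] ℚ) : coeffFun μ 0 = 0 := by
  ext k
  rw [coeffFun_coeff]
  simp

theorem coeffFun_add (μ : ℂ →ₗ[ℚ] ℚ) (z w : LaurentSeries ℂ) :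
    coeffFun μ (z + w) = coeffFun μ z + coeffFun μ w := by
  ext k
  rw [coeffFun_coeff, HahnSeries.coeff_add, HahnSeries.coeff_add, coeffFun_coeff, coeffFun_coeff,
    map_add]

/-- The functional `c ↦ μ (β c)`. -/
def twistFun (μ : ℂ →ₗ[ℚ] ℚ) (β : ℂ) : ℂ →ₗ[ℚ] ℚ where
  toFun c := μ (β * c)
  map_add' a b := by rw [mul_add, map_add]
  map_smul' r a := by rw [mul_smul_comm, map_smul, RingHom.id_apply]

theorem coeffFun_algebraMap_mul (μ : ℂ →ₗ[ℚ] ℚ) (β : ℂ) (z : LaurentSeries ℂ) :
    coeffFun μ (algebraMap ℂ (LaurentSeries ℂ) β * z) = coeffFun (twistFun μ β) z := by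
  ext k
  rw [coeffFun_coeff, coeffFun_coeff, Fermat.Agent.S24.helper3176.coeff_algebraMap_mul]
  rfl

theorem coeffFun_coeffEmb (μ : ℂ →ₗ[ℚ] ℚ) (y : LaurentSeries ℚ) :
    coeffFun μ (coeffEmb ℂ y) = algebraMap ℚ (LaurentSeries ℚ) (μ 1) * y := by
  ext k
  rw [coeffFun_coeff, coeffEmb_coeff, Fermat.Agent.S24.helper3176.coeff_algebraMap_mul,
    Algebra.algebraMap_eq_smul_one, map_smul, smul_eq_mul, mul_comm]

/-- On the `ℂ`-algebra generated by a subset of the base change of a subfield `F₀ ⊆ ℚ((q))`,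
every coefficientwise functional takes values in `F₀` and is `ℚ((q))`-linear. -/
theorem coeffFun_adjoin (F₀ : IntermediateField ℚ (LaurentSeries ℚ)) {S : Set (LaurentSeries ℂ)}
    (hS : S ⊆ ⇑(coeffEmb ℂ) '' (F₀ : Set (LaurentSeries ℚ))) {z : LaurentSeries ℂ}
    (hz : z ∈ Algebra.adjoin ℂ S) :
    ∀ μ : ℂ →ₗ[ℚ] ℚ, coeffFun μ z ∈ F₀ ∧
      ∀ x : LaurentSeries ℚ, coeffFun μ (coeffEmb ℂ x * z) = x * coeffFun μ z := by
  have hz' : z ∈ Subalgebra.toSubmodule (Algebra.adjoin ℂ S) := hz
  rw [Algebra.adjoin_eq_span] at hz'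
  clear hz
  induction hz' using Submodule.span_induction with
  | mem z hz =>
      have hzT : z ∈ ⇑(coeffEmb ℂ) '' (F₀ : Set (LaurentSeries ℚ)) := by
        induction hz using Submonoid.closure_induction with
        | mem x hx => exact hS hx
        | one => exact ⟨1, one_mem _, map_one _⟩
        | mul x y _ _ hx hy =>
            obtain ⟨a, ha, rfl⟩ := hx
            obtain ⟨b, hb, rfl⟩ := hy
            exact ⟨a * b, mul_mem ha hb, map_mul _ _ _⟩
      obtain ⟨y, hy, rfl⟩ := hzT
      intro μ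
      refine ⟨?_, fun x => ?_⟩
      · rw [coeffFun_coeffEmb]
        exact mul_mem (F₀.algebraMap_mem _) hy
      · rw [← map_mul, coeffFun_coeffEmb, coeffFun_coeffEmb]
        ring
  | zero =>
      intro μ
      refine ⟨?_, fun x => ?_⟩
      · rw [coeffFun_zero]; exact zero_mem _
      · rw [mul_zero, coeffFun_zero, mul_zero]
  | add z w _ _ hz hw =>
      intro μ
      refine ⟨?_, fun x => ?_⟩
      · rw [coeffFun_add]; exact add_mem (hz μ).1 (hw μ).1
      · rw [mul_add, coeffFun_add, coeffFun_add, (hz μ).2, (hw μ).2, mul_add]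
  | smul β z _ hz =>
      intro μ
      refine ⟨?_, fun x => ?_⟩
      · rw [Algebra.smul_def, coeffFun_algebraMap_mul]; exact (hz _).1
      · rw [Algebra.smul_def, mul_left_comm, coeffFun_algebraMap_mul, coeffFun_algebraMap_mul,
          (hz _).2]

theorem exists_coeffFun_ne_zero {b : LaurentSeries ℂ} (hb : b ≠ 0) :
    ∃ μ : ℂ →ₗ[ℚ] ℚ, coeffFun μ b ≠ 0 := by
  obtain ⟨k, hk⟩ : ∃ k : ℤ, b.coeff k ≠ 0 := by
    by_contra h
    push Not at h
    exact hb (HahnSeries.ext (funext h))
  have h2 : ¬ ∀ φ : Module.Dual ℚ ℂ, φ (b.coeff k) = 0 := fun h =>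
    hk ((Module.forall_dual_apply_eq_zero_iff ℚ (b.coeff k)).mp h)
  push Not at h2
  obtain ⟨μ, hμ⟩ := h2
  refine ⟨μ, fun h0 => hμ ?_⟩
  have := congrArg (fun s : LaurentSeries ℚ => s.coeff k) h0
  simpa [coeffFun_coeff] using this

/-- **Coefficient descent.** A rational Laurent series whose base change lies in the complex
function field of `X₀(N)` lies in the rational function field. -/
theorem mem_full_of_coeffEmb_mem (N : ℕ) {x : LaurentSeries ℚ}
    (hx : coeffEmb ℂ x ∈ laurentBaseChange ℂ (modularFunctionFieldFull N)) :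
    x ∈ modularFunctionFieldFull N := by
  obtain ⟨a, ha, b, hb, hb0, hxab⟩ :=
    Fermat.Agent.S24.helper3176.exists_div_of_mem_laurentBaseChange ℂ hx
  have hsub : Fermat.Agent.S24.helper3176.genSet ℂ N ⊆
      ⇑(coeffEmb ℂ) '' ((modularFunctionFieldFull N : IntermediateField ℚ (LaurentSeries ℚ)) :
        Set (LaurentSeries ℚ)) := by
    rintro _ ⟨y, hy, rfl⟩
    exact ⟨y, IntermediateField.subset_adjoin ℚ _ hy, rfl⟩
  have ha' := coeffFun_adjoin (modularFunctionFieldFull N) hsub ha
  have hb' := coeffFun_adjoin (modularFunctionFieldFull N) hsub hb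
  obtain ⟨μ, hμ⟩ := exists_coeffFun_ne_zero hb0
  have h1 : coeffEmb ℂ x * b = a := by
    rw [hxab, div_mul_cancel₀ _ hb0]
  have h2 : x * coeffFun μ b = coeffFun μ a := by
    rw [← (hb' μ).2 x, h1]
  have h3 : x = coeffFun μ a / coeffFun μ b := by
    rw [eq_div_iff hμ, h2]
  rw [h3]
  exact div_mem (ha' μ).1 (hb' μ).1

/-! ## The modular unit -/

local notation "Δ" => ModularForm.discriminant
local notation "ι" => HahnSeries.ofPowerSeries ℤ ℂ

open UpperHalfPlane in
/-- The Prelude series `Δ(q)` with complex coefficients is the `q`-expansion of the analytic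
discriminant. -/
theorem coeffEmb_deltaSeries : coeffEmb ℂ deltaSeries = ι (qExpansion 1 Δ) := by
  rw [Fermat.Agent.Lib.helper1219.qExpansion_disc_eq, deltaSeries, map_mul, map_mul, coeffEmb,
    coeffMap_single, coeffMap_ofPowerSeries, HahnSeries.ofPowerSeries_X, dedekindEtaUnitQ,
    dedekindEtaUnit, map_one]
  congr 2
  rw [map_pow, map_pow]
  congr 1

theorem coeffEmb_deltaSeries_ne_zero : coeffEmb ℂ deltaSeries ≠ 0 := fun h =>
  deltaSeries_ne_zero ((coeffEmb ℂ).injective (by rw [h, map_zero]))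

/-- `Δ(q^d) / Δ(q)` is a function on `X₀(N)` for `d ∣ N`. -/
theorem deltaRatio_mem_full (N d : ℕ) [NeZero N] [NeZero d] (hd : d ∣ N) :
    deltaSeriesN d * deltaSeries⁻¹ ∈ modularFunctionFieldFull N := by
  apply mem_full_of_coeffEmb_mem
  have h := Fermat.Agent.S29.helper288.ratioInFC N _
    (Fermat.Agent.Lib.helper1219.qExpand_disc_div_mem_ratioField N d hd)
  rw [← coeffEmb_deltaSeries, ← Fermat.Agent.S24.helper3176.coeffEmb_qExpand] at h
  rw [map_mul, map_inv₀, deltaSeriesN]
  exact h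

/-- **The Prelude modular unit `Δ(q) / Δ(q^p)` is a function on `X₀(p)`.** -/
theorem modularUnitSeries_mem_full (p : ℕ) [NeZero p] :
    modularUnitSeries p ∈ modularFunctionFieldFull p := by
  have h := inv_mem (deltaRatio_mem_full p p dvd_rfl)
  rw [mul_inv, inv_inv, mul_comm] at h
  exact h

end Fermat.Agent.S15.helper7155
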