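import Mathlib
import Fermat.Agent.S15.helper7155_UnitMem
import Fermat.Agent.S58.helper9384_Uniformization

/-!
# S15 bridge, leaf (B5), part 2 (helper7155): the place of an analytic point and the values of
`j`, `j(q^p)` and the modular unit there

* `unitFn p τ = Δ(τ) / Δ(pτ)` is the analytic realisation of the Prelude modular unit:
  `evC_unitC : evC p (unitC p) = algebraMap Hol Mer (unitHol p)`;
* `exists_place_of_point` : for `τ : ℍ` with `j(τ)` algebraic there is a place `y` of the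
  `ℚ̄`-function field `FN N` of `X₀(N)` whose order function is a positive multiple of the
  analytic order at `τ`;
* `exists_place_of_values` : for `τ : ℍ` and `c, c', m₀ : ℚ̄` with `j(τ) = c`, `j(pτ) = c'`,
  `Δ(τ)/Δ(pτ) = m₀` there is a place `y` of `FN p` with
  `0 < ord_y (j - c)`, `0 < ord_y (j(q^p) - c')`, `0 < ord_y (u - m₀)`.
-/

set_option autoImplicit false
set_option linter.style.haveILetI false

open ModularCurve UpperHalfPlane AlgebraicCurve
open scoped Manifold

noncomputable section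

namespace Fermat.Agent.S15.helper7155

open Fermat.Agent.S24 Fermat.Agent.S24.helper24 Fermat.Agent.S24.helper580
open Fermat.Agent.S29.helper580
open Fermat.Agent.S24.helper315 (IsCuspHol IsCuspMer qH cuspExpFun)
open Fermat.Agent.S24.helper1644 (eulerFun taylorPS)

local notation "Δ" => ModularForm.discriminant
local notation "ι" => HahnSeries.ofPowerSeries ℤ ℂ

/-! ## Functions of `q` on the unit disc -/

theorem norm_qH_lt_one (τ : ℍ) : ‖qH 1 τ‖ < 1 :=
  Function.Periodic.norm_qParam_lt_one one_pos τ.im_pos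

/-- A function on `ℍ` of the form `V ∘ q` with `V` holomorphic on the unit disc is holomorphic
at the cusp. -/
theorem isCuspHol_of_disc {V : ℂ → ℂ} (hV : DifferentiableOn ℂ V (Metric.ball 0 1)) {f : ℍ → ℂ}
    (hf : ∀ τ : ℍ, f τ = V (qH 1 τ)) : IsCuspHol 1 f := by
  refine helper315.isCuspHol_of_hasSum one_pos
    (c := fun n => PowerSeries.coeff n (taylorPS V)) ?_ ?_ ?_
  · rw [UpperHalfPlane.mdifferentiable_iff]
    have h1 : DifferentiableOn ℂ (V ∘ Function.Periodic.qParam 1) {z : ℂ | 0 < z.im} := by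
      refine hV.comp Function.Periodic.differentiable_qParam.differentiableOn ?_
      intro z hz
      have := Function.Periodic.norm_qParam_lt_one one_pos (z := z) hz
      simpa using this
    refine h1.congr fun z hz => ?_
    simp only [Function.comp_apply, hf, helper315.qH_apply,
      UpperHalfPlane.ofComplex_apply_of_im_pos hz]
  · intro τ
    rw [hf, hf, helper315.hPeriodic_qH one_ne_zero τ]
  · intro τ
    rw [hf]
    exact helper1644.hasSum_taylorPS hV (norm_qH_lt_one τ)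

theorem discriminant_eq_euler (τ : ℍ) : Δ τ = qH 1 τ * eulerFun (qH 1 τ) ^ 24 := by
  have hmul : Multipliable fun n : ℕ => 1 - Function.Periodic.qParam 1 (τ : ℂ) ^ (n + 1) :=
    ModularForm.multipliable_one_sub_pow (Function.Periodic.norm_qParam_lt_one one_pos τ.im_pos)
  rw [helper315.qH_apply, ModularForm.discriminant_eq_q_prod, eulerFun, ← hmul.tprod_pow]

/-! ## The point `pτ` -/

/-- The point `d τ` of the upper half plane (the convention of `helper6180.Jd`). -/
def mulPt (d : ℕ) (τ : ℍ) : ℍ := ofComplex ((d : ℂ) * (τ : ℂ))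

theorem coe_mulPt (d : ℕ) [NeZero d] (τ : ℍ) : ((mulPt d τ : ℍ) : ℂ) = (d : ℂ) * (τ : ℂ) :=
  helper6180.coe_ofComplex_mul d (NeZero.pos d) τ

theorem qH_mulPt (d : ℕ) [NeZero d] (τ : ℍ) : qH 1 (mulPt d τ) = qH 1 τ ^ d := by
  rw [helper315.qH_apply, helper315.qH_apply, coe_mulPt, Function.Periodic.qParam,
    Function.Periodic.qParam, ← Complex.exp_nat_mul]
  congr 1
  push_cast
  ring

theorem Jd_eq_jFn_mulPt (d : ℕ) (τ : ℍ) : helper6180.Jd d τ = helper288.jFn (mulPt d τ) := rfl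

theorem diagMat_smul_eq_mulPt (d : ℕ) [NeZero d] (τ : ℍ) :
    Fermat.Agent.Lib.helper1219.diagMat d • τ = mulPt d τ :=
  UpperHalfPlane.ext (by rw [Fermat.Agent.Lib.helper1219.coe_diagMat_smul, coe_mulPt])

/-! ## The analytic modular unit -/

/-- The analytic modular unit `τ ↦ Δ(τ) / Δ(pτ)`. -/
def unitFn (p : ℕ) (τ : ℍ) : ℂ := Δ τ / Δ (mulPt p τ)

/-- `τ ↦ Δ(pτ)`. -/
def deltaP (p : ℕ) (τ : ℍ) : ℂ := Δ (mulPt p τ)

theorem deltaP_ne_zero (p : ℕ) (τ : ℍ) : deltaP p τ ≠ 0 := ModularForm.discriminant_ne_zero _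

theorem unitFn_mul_deltaP (p : ℕ) : unitFn p * deltaP p = Δ := by
  funext τ
  simp only [Pi.mul_apply, unitFn, deltaP]
  rw [div_mul_cancel₀ _ (ModularForm.discriminant_ne_zero _)]

theorem isCuspHol_discriminant : IsCuspHol 1 (Δ : ℍ → ℂ) := by
  refine isCuspHol_of_disc (V := fun z => z * eulerFun z ^ 24) ?_ discriminant_eq_euler
  exact differentiableOn_id.mul (helper1644.differentiableOn_eulerFun.pow 24)

theorem mapsTo_pow_ball (p : ℕ) [NeZero p] :
    Set.MapsTo (fun z : ℂ => z ^ p) (Metric.ball (0 : ℂ) 1) (Metric.ball (0 : ℂ) 1) := by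
  intro z hz
  rw [mem_ball_zero_iff] at hz ⊢
  rw [norm_pow]
  exact pow_lt_one₀ (norm_nonneg z) hz (NeZero.ne p)

theorem differentiableOn_eulerFun_pow (p : ℕ) [NeZero p] :
    DifferentiableOn ℂ (fun z : ℂ => eulerFun (z ^ p)) (Metric.ball 0 1) :=
  helper1644.differentiableOn_eulerFun.comp (differentiable_pow p).differentiableOn
    (mapsTo_pow_ball p)

theorem isCuspHol_deltaP (p : ℕ) [NeZero p] : IsCuspHol 1 (deltaP p) := by
  refine isCuspHol_of_disc (V := fun z => z ^ p * eulerFun (z ^ p) ^ 24) ?_ ?_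
  · exact (differentiable_pow p).differentiableOn.mul ((differentiableOn_eulerFun_pow p).pow 24)
  · intro τ
    rw [deltaP, discriminant_eq_euler, qH_mulPt]

theorem isCuspHol_qH_pow_mul_unitFn (p : ℕ) [NeZero p] :
    IsCuspHol 1 (qH 1 ^ (p - 1) * unitFn p) := by
  refine isCuspHol_of_disc (V := fun z => eulerFun z ^ 24 / eulerFun (z ^ p) ^ 24) ?_ ?_
  · refine (helper1644.differentiableOn_eulerFun.pow 24).div
      ((differentiableOn_eulerFun_pow p).pow 24) ?_
    intro z hz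
    have hz' : ‖z ^ p‖ < 1 := by
      have := mapsTo_pow_ball p hz
      rwa [mem_ball_zero_iff] at this
    exact pow_ne_zero _ (helper1644.eulerFun_ne_zero hz')
  · intro τ
    have hq : qH 1 τ ≠ 0 := helper315.qH_ne_zero 1 τ
    have he : eulerFun (qH 1 τ ^ p) ≠ 0 := by
      have := norm_qH_lt_one (mulPt p τ)
      rw [qH_mulPt] at this
      exact helper1644.eulerFun_ne_zero this
    have hp : p = (p - 1) + 1 := (Nat.sub_add_cancel (NeZero.pos p)).symm
    simp only [Pi.mul_apply, Pi.pow_apply, unitFn]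
    rw [discriminant_eq_euler τ, discriminant_eq_euler (mulPt p τ), qH_mulPt]
    have hpow : qH 1 τ ^ p = qH 1 τ ^ (p - 1) * qH 1 τ := by
      conv_lhs => rw [hp, pow_succ]
    rw [eq_div_iff (pow_ne_zero _ he)]
    have hne : qH 1 τ ^ p * eulerFun (qH 1 τ ^ p) ^ 24 ≠ 0 :=
      mul_ne_zero (pow_ne_zero _ hq) (pow_ne_zero _ he)
    rw [mul_assoc, div_mul_eq_mul_div, mul_div_assoc', div_eq_iff hne, hpow]
    ring

theorem isCuspMer_unitFn (p : ℕ) [NeZero p] : IsCuspMer 1 (unitFn p) :=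
  ⟨p - 1, isCuspHol_qH_pow_mul_unitFn p⟩

theorem cuspExpFun_discriminant : cuspExpFun 1 (Δ : ℍ → ℂ) = coeffEmb ℂ deltaSeries := by
  rw [helper315.cuspExpFun_of_isCuspHol one_pos isCuspHol_discriminant, coeffEmb_deltaSeries]

theorem cuspExpFun_deltaP (p : ℕ) [NeZero p] :
    cuspExpFun 1 (deltaP p) = coeffEmb ℂ (deltaSeriesN p) := by
  have hfun : (⇑(Fermat.Agent.Lib.helper1219.levelRaise p p dvd_rfl
      Fermat.Agent.Lib.helper1219.discForm) : ℍ → ℂ) = deltaP p := by
    funext τ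
    rw [Fermat.Agent.Lib.helper1219.levelRaise_apply, diagMat_smul_eq_mulPt]
    rfl
  rw [helper315.cuspExpFun_of_isCuspHol one_pos (isCuspHol_deltaP p), ← hfun,
    Fermat.Agent.Lib.helper1219.ofPS_levelRaise, Fermat.Agent.Lib.helper1219.coe_discForm,
    ← coeffEmb_deltaSeries, deltaSeriesN, helper3176.coeffEmb_qExpand]

/-- **The `q`-expansion of the analytic modular unit is the Prelude series.** -/
theorem cuspExpFun_unitFn (p : ℕ) [NeZero p] :
    cuspExpFun 1 (unitFn p) = coeffEmb ℂ (modularUnitSeries p) := by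
  have h := helper315.cuspExpFun_mul one_pos (isCuspMer_unitFn p) (isCuspHol_deltaP p).isCuspMer
  rw [unitFn_mul_deltaP, cuspExpFun_discriminant, cuspExpFun_deltaP] at h
  have hne : coeffEmb ℂ (deltaSeriesN p) ≠ 0 := fun h0 =>
    deltaSeriesN_ne_zero p ((coeffEmb ℂ).injective (by rw [h0, map_zero]))
  rw [modularUnitSeries, map_mul, map_inv₀, h, mul_assoc, mul_inv_cancel₀ hne, mul_one]

/-! ## The unit in the function fields and its analytic evaluation -/

/-- The modular unit `Δ(q) / Δ(q^p)` in the complex function field of `X₀(p)`. -/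
def unitC (p : ℕ) [NeZero p] : FC p :=
  ⟨coeffEmb ℂ (modularUnitSeries p),
    coeffEmb_mem_laurentBaseChange ℂ (modularUnitSeries_mem_full p)⟩

/-- The modular unit `Δ(q) / Δ(q^p)` in the `ℚ̄`-function field of `X₀(p)`. -/
def unitBar (p : ℕ) [NeZero p] : FN p :=
  ⟨coeffEmb Kbar (modularUnitSeries p),
    coeffEmb_mem_laurentBaseChange Kbar (modularUnitSeries_mem_full p)⟩

theorem coe_unitBar (p : ℕ) [NeZero p] :
    ((unitBar p : FN p) : LaurentSeries Kbar) = coeffEmb Kbar (modularUnitSeries p) := rfl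

theorem coe_unitC (p : ℕ) [NeZero p] :
    ((unitC p : FC p) : LaurentSeries ℂ) = coeffEmb ℂ (modularUnitSeries p) := rfl

theorem baseChangeC_unitBar (p : ℕ) [NeZero p] : baseChangeC p (unitBar p) = unitC p :=
  Subtype.ext (coeffMap_i0_coeffEmb _)

theorem mdiff_unitFn (p : ℕ) [NeZero p] : MDiff (unitFn p) := (isCuspMer_unitFn p).mdiff

/-- The analytic modular unit as a holomorphic function on `ℍ`. -/
def unitHol (p : ℕ) [NeZero p] : Hol := ⟨unitFn p, mdiff_unitFn p⟩

theorem unitHol_apply (p : ℕ) [NeZero p] (τ : ℍ) : (unitHol p : ℍ → ℂ) τ = unitFn p τ := rfl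

/-- **The analytic realisation of the Prelude modular unit is `τ ↦ Δ(τ) / Δ(pτ)`.** -/
theorem evC_unitC (p : ℕ) [NeZero p] : evC p (unitC p) = algebraMap Hol Mer (unitHol p) := by
  obtain ⟨a, b, hb0, hab⟩ := exists_div_AC p (unitC p)
  have hser : coeffEmb ℂ (modularUnitSeries p) * ((b : FC p) : LaurentSeries ℂ)
      = ((a : FC p) : LaurentSeries ℂ) := by
    have h1 : unitC p * (b : FC p) = (a : FC p) := by rw [hab, div_mul_cancel₀ _ hb0]
    exact congrArg Subtype.val h1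
  have hmem : unitFn p ∈ helper315.cuspMer 1 := by
    rw [helper315.mem_cuspMer, Nat.cast_one]
    exact isCuspMer_unitFn p
  have hE : helper6180.E1 (⟨unitFn p, hmem⟩ : helper6180.R1)
      = coeffEmb ℂ (modularUnitSeries p) := by
    rw [helper6180.E1_apply]
    show cuspExpFun ((1 : ℕ) : ℝ) (unitFn p) = _
    rw [Nat.cast_one]
    exact cuspExpFun_unitFn p
  have hR : (⟨unitFn p, hmem⟩ : helper6180.R1) * evRC p b = evRC p a := by
    apply helper6180.E1_injective
    rw [map_mul, hE, E1_evRC, E1_evRC, hser]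
  have hfun : ∀ τ, unitFn p τ * evFun p b τ = evFun p a τ := fun τ =>
    congrFun (congrArg Subtype.val hR) τ
  have hHol : unitHol p * evHol p b = evHol p a := Hol.ext hfun
  have hbne : algebraMap Hol Mer (evHol p b) ≠ 0 := by
    intro h0
    apply hb0
    have h1 : evHol p b = 0 := IsFractionRing.injective Hol Mer (by rw [h0, map_zero])
    have h2 : b = 0 := evHol_injective p (by rw [h1, map_zero])
    rw [h2]
    rfl
  rw [hab, evC_div, ← hHol, map_mul, mul_div_assoc, div_self hbne, mul_one]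

/-! ## The place of a point with algebraic `j`-invariant -/

/-- The order function on the `ℚ̄`-function field induced by the analytic order at `τ`. -/
def ordBar (N : ℕ) (τ : ℍ) (f : FN N) : ℤ := ordC N τ (baseChangeC N f)

theorem baseChangeC_ne_zero (N : ℕ) {f : FN N} (hf : f ≠ 0) : baseChangeC N f ≠ 0 :=
  (map_ne_zero_iff _ (baseChangeC_injective N)).mpr hf

theorem isIntOrder_ordBar (N : ℕ) (τ : ℍ) :
    Fermat.Agent.S29.helper265.IsIntOrder Kbar (ordBar N τ) := by
  have h := isIntOrder_ordC N τ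
  refine ⟨fun f g hf hg => ?_, fun f g hf hg hfg => ?_, fun a ha => ?_⟩
  · show ordC N τ (baseChangeC N (f * g)) = _
    rw [map_mul]
    exact h.map_mul (baseChangeC_ne_zero N hf) (baseChangeC_ne_zero N hg)
  · show min _ _ ≤ ordC N τ (baseChangeC N (f + g))
    rw [map_add]
    refine h.map_add (baseChangeC_ne_zero N hf) (baseChangeC_ne_zero N hg) ?_
    rw [← map_add]
    exact baseChangeC_ne_zero N hfg
  · show ordC N τ (baseChangeC N (algebraMap Kbar (FN N) a)) = 0
    rw [baseChangeC_algebraMap]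
    exact h.map_const ((map_ne_zero_iff _ helper6180.i0_injective).mpr ha)

theorem jBar_sub_ne_zero (N : ℕ) (c : Kbar) : jBar N - algebraMap Kbar (FN N) c ≠ 0 :=
  helper204.sub_ne_zero_of_transcendental (helper3176.transcendental_jBar N) c

/-- **The place of a point.** For `τ : ℍ` with algebraic `j`-invariant there is a place of the
`ℚ̄`-function field of `X₀(N)` whose order function is, up to a positive factor, the analytic
order at `τ`. -/
theorem exists_place_of_point (N : ℕ) (τ : ℍ) (c : Kbar)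
    (hc : helper288.jFn τ = helper6180.i0 c) :
    ∃ (y : Place Kbar (FN N)) (e : ℕ), 0 < e ∧
      ∀ f : FN N, f ≠ 0 → ordBar N τ f = (e : ℤ) * y.ord f :=
  (isIntOrder_ordBar N τ).exists_place
    ⟨jBar N - algebraMap Kbar (FN N) c, jBar_sub_ne_zero N c, by
      show ordC N τ (baseChangeC N (jBar N - algebraMap Kbar (FN N) c)) ≠ 0
      rw [map_sub, baseChangeC_jBar, baseChangeC_algebraMap, ← hc, ordC_jC_sub_self]
      exact_mod_cast (jOrd_pos _).ne'⟩

/-- If the analytic realisation of `f` is the holomorphic function `h` and `h τ = a`, then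
`f - a` has positive analytic order at `τ`. -/
theorem ordBar_sub_pos (N : ℕ) (τ : ℍ) {f : FN N} {h : Hol}
    (hf : evC N (baseChangeC N f) = algebraMap Hol Mer h) {a : Kbar}
    (ha : (h : ℍ → ℂ) τ = helper6180.i0 a) (hne : f - algebraMap Kbar (FN N) a ≠ 0) :
    0 < ordBar N τ (f - algebraMap Kbar (FN N) a) := by
  have hne' := baseChangeC_ne_zero N hne
  have h1 := coe_ordC N τ hne'
  have hev : evC N (baseChangeC N (f - algebraMap Kbar (FN N) a))
      = algebraMap Hol Mer (h - algebraMap ℂ Hol (helper6180.i0 a)) := by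
    rw [map_sub, baseChangeC_algebraMap, map_sub, hf, AlgHom.commutes, map_sub,
      ← IsScalarTower.algebraMap_apply]
  rw [hev, ordAt_algebraMap_eq_analyticOrderAt] at h1
  have han := Hol.analyticAt (h - algebraMap ℂ Hol (helper6180.i0 a)) τ
  have hval : (((h - algebraMap ℂ Hol (helper6180.i0 a) : Hol) : ℍ → ℂ) ∘ ofComplex) (τ : ℂ)
      = 0 := by
    show (h : ℍ → ℂ) (ofComplex (τ : ℂ)) - helper6180.i0 a = 0
    rw [UpperHalfPlane.ofComplex_apply, ha, sub_self]
  have hn0 : analyticOrderAt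
      (((h - algebraMap ℂ Hol (helper6180.i0 a) : Hol) : ℍ → ℂ) ∘ ofComplex) (τ : ℂ) ≠ 0 := by
    intro h0
    exact (han.analyticOrderAt_eq_zero.mp h0) hval
  show 0 < ordC N τ (baseChangeC N (f - algebraMap Kbar (FN N) a))
  cases hcase : analyticOrderAt
      (((h - algebraMap ℂ Hol (helper6180.i0 a) : Hol) : ℍ → ℂ) ∘ ofComplex) (τ : ℂ) with
  | top =>
      rw [hcase] at h1
      exact absurd h1 (WithTop.coe_ne_top)
  | coe n =>
      rw [hcase] at h1 hn0
      have h2 : ordC N τ (baseChangeC N (f - algebraMap Kbar (FN N) a)) = (n : ℤ) :=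
        WithTop.coe_injective h1
      have h3 : n ≠ 0 := fun h => hn0 (by rw [h]; rfl)
      rw [h2]
      exact_mod_cast Nat.pos_of_ne_zero h3

/-- A function whose expansion has a nonzero coefficient away from `q^0` is not constant. -/
theorem sub_const_ne_zero_of_coeff {N : ℕ} (f : FN N) {k : ℤ} (hk : k ≠ 0)
    (hf : ((f : FN N) : LaurentSeries Kbar).coeff k ≠ 0) (a : Kbar) :
    f - algebraMap Kbar (FN N) a ≠ 0 := by
  intro h
  apply hf
  have h1 : (f : LaurentSeries Kbar) = algebraMap Kbar (LaurentSeries Kbar) a :=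
    congrArg Subtype.val (sub_eq_zero.mp h)
  rw [h1, ModularCurve.algebraMap_laurentSeries_eq_single, HahnSeries.coeff_single_of_ne hk]

theorem jBarD_sub_ne_zero (p : ℕ) [NeZero p] (a : Kbar) :
    jBarD p p dvd_rfl - algebraMap Kbar (FN p) a ≠ 0 := by
  refine sub_const_ne_zero_of_coeff _ (k := (p : ℤ) * (-1)) ?_ ?_ a
  · simpa using NeZero.ne p
  · show (coeffEmb Kbar (qExpand ℚ p jq)).coeff ((p : ℤ) * (-1)) ≠ 0
    rw [coeffEmb_coeff, qExpand_coeff_mul, coeff_jq_neg_one, map_one]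
    exact one_ne_zero

theorem unitBar_sub_ne_zero (p : ℕ) [NeZero p] (hp : 1 < p) (a : Kbar) :
    unitBar p - algebraMap Kbar (FN p) a ≠ 0 := by
  refine sub_const_ne_zero_of_coeff _ (k := 1 - (p : ℤ)) ?_ ?_ a
  · have : (1 : ℤ) < p := by exact_mod_cast hp
    omega
  · rw [coe_unitBar, coeffEmb_coeff, coeff_modularUnitSeries_self, map_one]
    exact one_ne_zero

/-- **B5, `τ`-form.** For a point `τ` of the upper half plane at which `j(τ) = c`,
`j(pτ) = c'` and `Δ(τ)/Δ(pτ) = m₀` are algebraic, there is a place `y` of the function field of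
`X₀(p)` over `ℚ̄` with `j(y) = c`, `j_p(y) = c'` and `u(y) = m₀`, `u` the Prelude modular unit. -/
theorem exists_place_of_values (p : ℕ) [NeZero p] (hp : 1 < p) (τ : ℍ) (c c' m₀ : Kbar)
    (hc : helper288.jFn τ = helper6180.i0 c)
    (hc' : helper288.jFn (mulPt p τ) = helper6180.i0 c')
    (hm : unitFn p τ = helper6180.i0 m₀) :
    ∃ y : Place Kbar (FN p),
      0 < y.ord (jBar p - algebraMap Kbar (FN p) c) ∧
      0 < y.ord (jBarD p p dvd_rfl - algebraMap Kbar (FN p) c') ∧
      0 < y.ord (unitBar p - algebraMap Kbar (FN p) m₀) := by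
  obtain ⟨y, e, he, hy⟩ := exists_place_of_point p τ c hc
  have he' : (0 : ℤ) < e := by exact_mod_cast he
  have key : ∀ g : FN p, g ≠ 0 → 0 < ordBar p τ g → 0 < y.ord g := by
    intro g hg hpos
    rw [hy g hg] at hpos
    exact (mul_pos_iff_of_pos_left he').mp hpos
  refine ⟨y, key _ (jBar_sub_ne_zero p c) ?_, key _ (jBarD_sub_ne_zero p c') ?_,
    key _ (unitBar_sub_ne_zero p hp m₀) ?_⟩
  · refine ordBar_sub_pos p τ (h := JHol) ?_ hc (jBar_sub_ne_zero p c)
    rw [baseChangeC_jBar, evC_jC]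
  · refine ordBar_sub_pos p τ (h := JdHol p (NeZero.pos p)) ?_ hc' (jBarD_sub_ne_zero p c')
    rw [baseChangeC_jBarD, evC_jCD]
  · refine ordBar_sub_pos p τ (h := unitHol p) ?_ hm (unitBar_sub_ne_zero p hp m₀)
    rw [baseChangeC_unitBar, evC_unitC]

/-! ## The lattice form -/

open Fermat.Agent.S58.helper9384 (scale tauPair)
open scoped Real

/-- The `j`-invariant of a lattice. -/
def jLat (L : PeriodPair) : ℂ := 1728 * L.g₂ ^ 3 / (L.g₂ ^ 3 - 27 * L.g₃ ^ 2)

/-- The discriminant `g₂³ - 27 g₃²` of a lattice. -/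
def discLat (L : PeriodPair) : ℂ := L.g₂ ^ 3 - 27 * L.g₃ ^ 2

theorem jLat_congr {L L' : PeriodPair} (h : L.lattice = L'.lattice) : jLat L = jLat L' := by
  unfold jLat
  rw [Fermat.Agent.S58.helper9384.g₂_congr h, Fermat.Agent.S58.helper9384.g₃_congr h]

theorem discLat_congr {L L' : PeriodPair} (h : L.lattice = L'.lattice) :
    discLat L = discLat L' := by
  unfold discLat
  rw [Fermat.Agent.S58.helper9384.g₂_congr h, Fermat.Agent.S58.helper9384.g₃_congr h]

theorem discLat_ne_zero (L : PeriodPair) : discLat L ≠ 0 :=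
  Fermat.Agent.S58.helper9384.disc_ne_zero L

theorem discLat_scale_tauPair (c : ℂ) (hc : c ≠ 0) (τ : ℍ) :
    discLat (scale c hc (tauPair τ)) = (c ^ 12)⁻¹ * ((2 * (π : ℂ)) ^ 12 * Δ τ) := by
  unfold discLat
  rw [Fermat.Agent.S58.helper9384.g₂_scale, Fermat.Agent.S58.helper9384.g₃_scale,
    ← Fermat.Agent.S58.helper9384.disc_tauPair]
  field_simp

theorem jLat_scale_tauPair (c : ℂ) (hc : c ≠ 0) (τ : ℍ) :
    jLat (scale c hc (tauPair τ)) = helper288.jFn τ := by
  have hD := discLat_scale_tauPair c hc τ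
  unfold discLat at hD
  unfold jLat
  rw [hD, Fermat.Agent.S58.helper9384.g₂_scale, Fermat.Agent.S58.helper9384.g₂_tauPair,
    helper288.jFn_apply]
  have hΔ : Δ τ ≠ 0 := ModularForm.discriminant_ne_zero τ
  have hπ : (π : ℂ) ≠ 0 := by exact_mod_cast Real.pi_ne_zero
  field_simp
  ring

/-- The Weierstrass curve `Y² = X³ - (g₂/4) X - g₃/4` of a lattice (`X = ℘`, `Y = ℘'/2`). -/
def curveLat (L : PeriodPair) : WeierstrassCurve ℂ := ⟨0, 0, 0, -L.g₂ / 4, -L.g₃ / 4⟩

theorem curveLat_Δ (L : PeriodPair) : (curveLat L).Δ = discLat L := by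
  simp only [curveLat, discLat, WeierstrassCurve.Δ, WeierstrassCurve.b₂, WeierstrassCurve.b₄,
    WeierstrassCurve.b₆, WeierstrassCurve.b₈]
  ring

theorem curveLat_c₄ (L : PeriodPair) : (curveLat L).c₄ = 12 * L.g₂ := by
  simp only [curveLat, WeierstrassCurve.c₄, WeierstrassCurve.b₂, WeierstrassCurve.b₄]
  ring

/-- `1728 g₂³ / (g₂³ - 27 g₃²) = c₄³ / Δ` for the curve of the lattice. -/
theorem jLat_eq (L : PeriodPair) : jLat L = (curveLat L).c₄ ^ 3 / (curveLat L).Δ := by
  rw [curveLat_c₄, curveLat_Δ, jLat, discLat]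
  ring

/-- The point `±ω₂/ω₁` of the upper half plane attached to a basis. -/
theorem exists_tau (L : PeriodPair) :
    ∃ (τ : ℍ) (s : ℂ), (s = 1 ∨ s = -1) ∧ (τ : ℂ) = s * (L.ω₂ / L.ω₁) := by
  have him := Fermat.Agent.S58.helper9384.im_div_ne_zero L
  rcases lt_or_gt_of_ne him with hneg | hpos
  · exact ⟨⟨-(L.ω₂ / L.ω₁), by simpa using hneg⟩, -1, Or.inr rfl, by simp⟩
  · exact ⟨⟨L.ω₂ / L.ω₁, hpos⟩, 1, Or.inl rfl, by simp⟩

/-- **B5, lattice form.** Let `L = ℤω₁ + ℤω₂` and `L' = ℤ(ω₁/p) + ℤω₂ = L + ℤ(ω₁/p)`.  If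
`j(L) = c`, `j(L') = c'` and `p¹² Δ(L)/Δ(L') = m₀` are algebraic, then there is a place `y` of
the function field of `X₀(p)` over `ℚ̄` with `j(y) = c`, `j_p(y) = c'` and `u(y) = m₀`, where `u`
is the Prelude modular unit `Δ(q)/Δ(q^p)`. -/
theorem exists_place_of_periodPair (p : ℕ) [NeZero p] (hp : 1 < p) (L L' : PeriodPair)
    (hL' : ∀ x : ℂ, x ∈ L'.lattice ↔ ∃ m n : ℤ, (m : ℂ) * (L.ω₁ / p) + n * L.ω₂ = x)
    (c c' m₀ : Kbar) (hc : jLat L = helper6180.i0 c) (hc' : jLat L' = helper6180.i0 c')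
    (hm : (p : ℂ) ^ 12 * discLat L / discLat L' = helper6180.i0 m₀) :
    ∃ y : Place Kbar (FN p),
      0 < y.ord (jBar p - algebraMap Kbar (FN p) c) ∧
      0 < y.ord (jBarD p p dvd_rfl - algebraMap Kbar (FN p) c') ∧
      0 < y.ord (unitBar p - algebraMap Kbar (FN p) m₀) := by
  obtain ⟨τ, s, hs, hτ⟩ := exists_tau L
  have hω : L.ω₁ ≠ 0 := Fermat.Agent.S58.helper9384.ω₁_ne_zero L
  have hp0 : (p : ℂ) ≠ 0 := by exact_mod_cast NeZero.ne p
  have hωp : L.ω₁ / p ≠ 0 := div_ne_zero hω hp0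
  have hs2 : s * s = 1 := by rcases hs with rfl | rfl <;> norm_num
  -- `L = ω₁ (ℤ + ℤ τ)`
  have hL1 : L.lattice = (scale L.ω₁ hω (tauPair τ)).lattice := by
    ext x
    simp only [PeriodPair.mem_lattice, Fermat.Agent.S58.helper9384.scale_ω₁,
      Fermat.Agent.S58.helper9384.scale_ω₂, Fermat.Agent.S58.helper9384.tauPair_ω₁,
      Fermat.Agent.S58.helper9384.tauPair_ω₂, hτ]
    rcases hs with rfl | rfl
    · constructor
      · rintro ⟨m, n, rfl⟩
        exact ⟨m, n, by field_simp⟩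
      · rintro ⟨m, n, rfl⟩
        exact ⟨m, n, by field_simp⟩
    · constructor
      · rintro ⟨m, n, rfl⟩
        exact ⟨m, -n, by push_cast; field_simp⟩
      · rintro ⟨m, n, rfl⟩
        exact ⟨m, -n, by push_cast; field_simp⟩
  -- `L' = (ω₁/p) (ℤ + ℤ pτ)`
  have hL2 : L'.lattice = (scale (L.ω₁ / p) hωp (tauPair (mulPt p τ))).lattice := by
    ext x
    rw [hL']
    simp only [PeriodPair.mem_lattice, Fermat.Agent.S58.helper9384.scale_ω₁,
      Fermat.Agent.S58.helper9384.scale_ω₂, Fermat.Agent.S58.helper9384.tauPair_ω₁,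
      Fermat.Agent.S58.helper9384.tauPair_ω₂, coe_mulPt, hτ]
    rcases hs with rfl | rfl
    · constructor
      · rintro ⟨m, n, rfl⟩
        exact ⟨m, n, by field_simp⟩
      · rintro ⟨m, n, rfl⟩
        exact ⟨m, n, by field_simp⟩
    · constructor
      · rintro ⟨m, n, rfl⟩
        exact ⟨m, -n, by push_cast; field_simp⟩
      · rintro ⟨m, n, rfl⟩
        exact ⟨m, -n, by push_cast; field_simp⟩
  have hπ : (π : ℂ) ≠ 0 := by exact_mod_cast Real.pi_ne_zero
  have hΔ : Δ τ ≠ 0 := ModularForm.discriminant_ne_zero τ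
  have hΔp : Δ (mulPt p τ) ≠ 0 := ModularForm.discriminant_ne_zero _
  refine exists_place_of_values p hp τ c c' m₀ ?_ ?_ ?_
  · rw [← hc, jLat_congr hL1, jLat_scale_tauPair]
  · rw [← hc', jLat_congr hL2, jLat_scale_tauPair]
  · rw [← hm, discLat_congr hL1, discLat_congr hL2, discLat_scale_tauPair, discLat_scale_tauPair,
      unitFn]
    field_simp

/-! ## Consumer forms (the `(MOD)` leaf of the bridge: `τ ⟹ place`) -/

/-- **B5, two-coordinate form**: only `j` and the modular unit. -/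
theorem exists_place_of_j_unit (p : ℕ) [NeZero p] (hp : 1 < p) (τ : ℍ) (c m₀ : Kbar)
    (hc : helper288.jFn τ = helper6180.i0 c) (hm : unitFn p τ = helper6180.i0 m₀) :
    ∃ y : Place Kbar (FN p),
      0 < y.ord (jBar p - algebraMap Kbar (FN p) c) ∧
      0 < y.ord (unitBar p - algebraMap Kbar (FN p) m₀) := by
  obtain ⟨y, e, he, hy⟩ := exists_place_of_point p τ c hc
  have he' : (0 : ℤ) < e := by exact_mod_cast he
  have key : ∀ g : FN p, g ≠ 0 → 0 < ordBar p τ g → 0 < y.ord g := by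
    intro g hg hpos
    rw [hy g hg] at hpos
    exact (mul_pos_iff_of_pos_left he').mp hpos
  refine ⟨y, key _ (jBar_sub_ne_zero p c) ?_, key _ (unitBar_sub_ne_zero p hp m₀) ?_⟩
  · refine ordBar_sub_pos p τ (h := JHol) ?_ hc (jBar_sub_ne_zero p c)
    rw [baseChangeC_jBar, evC_jC]
  · refine ordBar_sub_pos p τ (h := unitHol p) ?_ hm (unitBar_sub_ne_zero p hp m₀)
    rw [baseChangeC_unitBar, evC_unitC]

/-- **`(MOD)`, `τ ⟹ place`, in the shape produced by the uniformisation leaves**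
(`E₄(τ)³ Δ_W = c₄³ Δ(τ)` and `p¹² Δ(pτ) = u Δ(τ)` with `c₄, Δ_W ∈ ℤ`, `u ∈ ℚ^×`): there is a place
`x` of the function field of `X₀(p)` over `ℚ̄` at which `j = c₄³/Δ_W` and the Prelude modular unit
`Δ(q)/Δ(q^p)` takes the value `p¹²/u`.  The elements `j'`, `u'` are any elements of the function
field with the expansions `j(q)` and `modularUnitSeries p`. -/
theorem exists_place_of_tau (p : ℕ) [NeZero p] (hp : 1 < p) (τ : ℍ) (c4 D : ℤ) (u : ℚ)
    (hD : D ≠ 0) (hu : u ≠ 0)
    (hj : ModularForm.E₄ τ ^ 3 * ((D : ℤ) : ℂ) = ((c4 : ℤ) : ℂ) ^ 3 * Δ τ)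
    (hΔ : (p : ℂ) ^ 12 * Δ (ofComplex ((p : ℂ) * (τ : ℂ))) = (u : ℂ) * Δ τ)
    (j' u' : FN p) (hj' : ((j' : FN p) : LaurentSeries Kbar) = coeffEmb Kbar jq)
    (hu' : ((u' : FN p) : LaurentSeries Kbar) = coeffEmb Kbar (modularUnitSeries p)) :
    ∃ x : Place Kbar (FN p),
      0 < x.ord (j' - algebraMap Kbar (FN p) (algebraMap ℚ Kbar ((c4 : ℚ) ^ 3 / (D : ℚ)))) ∧
      0 < x.ord (u' - algebraMap Kbar (FN p) (algebraMap ℚ Kbar ((p : ℚ) ^ 12 / u))) := by
  have hj'' : j' = jBar p := Subtype.ext (by rw [hj', coe_jBar])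
  have hu'' : u' = unitBar p := Subtype.ext (by rw [hu', coe_unitBar])
  have hΔτ : Δ τ ≠ 0 := ModularForm.discriminant_ne_zero τ
  have hΔp : Δ (mulPt p τ) ≠ 0 := ModularForm.discriminant_ne_zero _
  have hDc : ((D : ℤ) : ℂ) ≠ 0 := by exact_mod_cast hD
  have huc : (u : ℂ) ≠ 0 := by exact_mod_cast hu
  rw [hj'', hu'']
  refine exists_place_of_j_unit p hp τ _ _ ?_ ?_
  · rw [helper6180.i0_algebraMap, helper288.jFn_apply, div_eq_iff hΔτ]
    push_cast
    rw [div_mul_eq_mul_div, eq_div_iff hDc]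
    exact hj
  · rw [helper6180.i0_algebraMap, unitFn, div_eq_iff hΔp]
    push_cast
    rw [div_mul_eq_mul_div, eq_div_iff huc, mul_comm]
    exact hΔ.symm

/-! ## Arbitrary embeddings `ℚ̄ → ℂ` -/

/-- Every complex number algebraic over `ℚ` lies in the image of any embedding `ℚ̄ → ℂ`. -/
theorem exists_eq_of_isAlgebraic (emb : Kbar →+* ℂ) {z : ℂ} (hz : IsAlgebraic ℚ z) :
    ∃ a : Kbar, emb a = z := by
  letI : Algebra Kbar ℂ := emb.toAlgebra
  haveI : IsScalarTower ℚ Kbar ℂ := IsScalarTower.of_algebraMap_eq fun r => by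
    show algebraMap ℚ ℂ r = emb (algebraMap ℚ Kbar r)
    rw [eq_ratCast, eq_ratCast, map_ratCast]
  have hz' : IsAlgebraic Kbar z := hz.tower_top Kbar
  have hint : IsIntegral Kbar z := hz'.isIntegral
  have hirr := minpoly.irreducible hint
  obtain ⟨r, hr⟩ := IsAlgClosed.exists_root (minpoly Kbar z) (minpoly.degree_pos hint).ne'
  have hdeg := Polynomial.degree_eq_one_of_irreducible_of_root hirr hr
  obtain ⟨a, ha⟩ := minpoly.mem_range_of_degree_eq_one Kbar z hdeg
  exact ⟨a, ha⟩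

theorem isAlgebraic_apply (emb : Kbar →+* ℂ) (a : Kbar) : IsAlgebraic ℚ (emb a) := by
  haveI := helper6180.isAlgebraic_Kbar
  exact (Algebra.IsAlgebraic.isAlgebraic (R := ℚ) a).algHom emb.toRatAlgHom

/-- Any two embeddings of `ℚ̄` into `ℂ` differ by an automorphism of `ℚ̄`. -/
theorem exists_algEquiv_of_emb (emb : Kbar →+* ℂ) :
    ∃ σ : Kbar ≃ₐ[ℚ] Kbar, ∀ a : Kbar, helper6180.i0 (σ a) = emb a := by
  classical
  choose f hf using fun a : Kbar => exists_eq_of_isAlgebraic helper6180.i0 (isAlgebraic_apply emb a)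
  have hinj := helper6180.i0_injective
  let φ : Kbar →+* Kbar :=
    { toFun := f
      map_one' := hinj (by rw [hf, map_one, map_one])
      map_mul' := fun a b => hinj (by rw [hf, map_mul, map_mul, hf, hf])
      map_zero' := hinj (by rw [hf, map_zero, map_zero])
      map_add' := fun a b => hinj (by rw [hf, map_add, map_add, hf, hf]) }
  have hφ : ∀ a, helper6180.i0 (φ a) = emb a := hf
  have hbij : Function.Bijective φ := by
    refine ⟨φ.injective, fun b => ?_⟩
    obtain ⟨a, ha⟩ := exists_eq_of_isAlgebraic emb (isAlgebraic_apply helper6180.i0 b)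
    exact ⟨a, hinj (by rw [hφ, ha])⟩
  refine ⟨AlgEquiv.ofRingEquiv (f := RingEquiv.ofBijective φ hbij) (fun r => ?_), fun a => hφ a⟩
  show φ (algebraMap ℚ Kbar r) = algebraMap ℚ Kbar r
  rw [eq_ratCast, map_ratCast]

theorem arithmeticGalois_smul_coeffEmb (N : ℕ) (σ : Kbar ≃ₐ[ℚ] Kbar) (f : FN N)
    (x : LaurentSeries ℚ) (hf : ((f : FN N) : LaurentSeries Kbar) = coeffEmb Kbar x) :
    arithmeticGalois (modularFunctionFieldFull N) σ • f = f := by
  apply Subtype.ext
  rw [coe_arithmeticGalois_smul, hf, coeffMap_coeffEmb]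

/-- **`(MOD)` E3 for an arbitrary embedding** `emb : ℚ̄ → ℂ` (architect's shape, S15 chat #126 D5):
if `j(τ) = emb j₀` and `Δ(τ)/Δ(pτ) = emb u₀` with `j₀, u₀ ∈ ℚ̄`, there is a place `x` of the function
field of `X₀(p)` over `ℚ̄` with `j(x) = j₀` and `u(x) = u₀`. -/
theorem exists_place_of_emb (p : ℕ) [NeZero p] (hp : 1 < p) (emb : Kbar →+* ℂ) (τ : ℍ)
    (j₀ u₀ : Kbar) (hj : helper288.jFn τ = emb j₀) (hu : unitFn p τ = emb u₀)
    (j' u' : FN p) (hj' : ((j' : FN p) : LaurentSeries Kbar) = coeffEmb Kbar jq)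
    (hu' : ((u' : FN p) : LaurentSeries Kbar) = coeffEmb Kbar (modularUnitSeries p)) :
    ∃ x : Place Kbar (FN p),
      0 < x.ord (j' - algebraMap Kbar (FN p) j₀) ∧
      0 < x.ord (u' - algebraMap Kbar (FN p) u₀) := by
  obtain ⟨σ, hσ⟩ := exists_algEquiv_of_emb emb
  have hj'' : j' = jBar p := Subtype.ext (by rw [hj', coe_jBar])
  have hu'' : u' = unitBar p := Subtype.ext (by rw [hu', coe_unitBar])
  obtain ⟨y, hy1, hy2⟩ := exists_place_of_j_unit p hp τ (σ j₀) (σ u₀)
    (by rw [hσ]; exact hj) (by rw [hσ]; exact hu)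
  set g := arithmeticGalois (modularFunctionFieldFull p) σ with hg
  have hgj : g • j' = j' := arithmeticGalois_smul_coeffEmb p σ j' jq hj'
  have hgu : g • u' = u' :=
    arithmeticGalois_smul_coeffEmb p σ u' (modularUnitSeries p) hu'
  have hconst : ∀ a : Kbar, g • algebraMap Kbar (FN p) a = algebraMap Kbar (FN p) (σ a) :=
    fun a => SemilinearAut.smul_algebraMap g a
  have key : ∀ f : FN p, (g⁻¹ • y).ord f = y.ord (g • f) := by
    intro f
    have h := SemilinearAut.ord_smul g⁻¹ y (g • f)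
    rwa [inv_smul_smul] at h
  refine ⟨g⁻¹ • y, ?_, ?_⟩
  · rw [key, smul_sub, hgj, hconst, hj'']
    exact hy1
  · rw [key, smul_sub, hgu, hconst, hu'']
    exact hy2

/-- `(MOD)` E3 for an arbitrary embedding, hypotheses in product form (no divisions). -/
theorem exists_place_of_emb' (p : ℕ) [NeZero p] (hp : 1 < p) (emb : Kbar →+* ℂ) (τ : ℍ)
    (j₀ u₀ : Kbar) (hj : ModularForm.E₄ τ ^ 3 = emb j₀ * Δ τ)
    (hu : Δ τ = emb u₀ * Δ (ofComplex ((p : ℂ) * (τ : ℂ))))
    (j' u' : FN p) (hj' : ((j' : FN p) : LaurentSeries Kbar) = coeffEmb Kbar jq)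
    (hu' : ((u' : FN p) : LaurentSeries Kbar) = coeffEmb Kbar (modularUnitSeries p)) :
    ∃ x : Place Kbar (FN p),
      0 < x.ord (j' - algebraMap Kbar (FN p) j₀) ∧
      0 < x.ord (u' - algebraMap Kbar (FN p) u₀) := by
  have hΔτ : Δ τ ≠ 0 := ModularForm.discriminant_ne_zero τ
  have hΔp : Δ (mulPt p τ) ≠ 0 := ModularForm.discriminant_ne_zero _
  refine exists_place_of_emb p hp emb τ j₀ u₀ ?_ ?_ j' u' hj' hu'
  · rw [helper288.jFn_apply, div_eq_iff hΔτ]
    exact hj
  · rw [unitFn, div_eq_iff hΔp]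
    exact hu

end Fermat.Agent.S15.helper7155
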