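import Fermat.Agent.S15.helper3241_BridgeCore
import Fermat.Agent.S15.helper5942_CuspOrder
import Fermat.Agent.S15.helper4637_ValXfer
import Fermat.Agent.S15.helper7155_AnalyticPlace
import Fermat.Agent.S15.helper1449_XferStable
import Fermat.Agent.S18.helper36_FunctionFieldK
import Fermat.Prelude.Def_EllipticCurve_ZeroComponentAt

/-!
# S15 moduli bridge: the assembly (BR-ASM)  (helper3241)

Design of record (#3447 / architect decisions chat #126).  For a prime `p ≠ 2`, a Weierstrass
curve `W / ℤ` and a point `Q` of order `p` whose line is Galois stable, the place `x = (E, ⟨Q⟩)`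
of `X₀(p)` has

* `j(x) = j₀ = c₄³ / Δ`,
* `u(x) = u₀ = p¹² / U(W, Q)`, `u = Δ(q)/Δ(q^p)` the Ogg unit (Prelude `modularUnitSeries p`).

Consumed verbatim (nothing retyped):

* (MOD)  `helper1449.exists_tau` / `exists_tau_stable` + `helper7155.exists_place_of_tau`;
* (VAL)  `helper4637.div_Uval_notMem_of_inZero` / `jpow_div_notMem_of_not_inZero`;
* (PIN)  `helper2393.placeReductionModL_eq_of_value_not_mem` / `reductionModL_single_sub_single`;
* (CUSP) `helper5942` (`cuspZero`, `oggUnit`, orders, dichotomy, Galois invariance),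
         `helper5684` (integral model `unitZ` of the unit and its seams).

Produced:

* place level, for EVERY place `x` with the two values and every `h : ReductionInputsModL A p`:
  `placeReductionModL_eq_cuspInf` (`u₀ ∉ A ⟹ r x = r ∞`),
  `placeReductionModL_eq_cuspZero` (`j₀^(p-1)/u₀ ∉ A ⟹ r x = r 0`),
  `placeReductionModL_cuspZero_ne_cuspInf` (`r 0 ≠ r ∞` in residue characteristic `≠ p`),
  `galois_smul_place_eq` (`σ x = x` from ONE prime with `j₀ ∉ A`, `u₀ ∉ A`);
* class level: `bridge_of_place`, `bridgeFor`, `bridgeForLine`: a Galois-fixed class `D` with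
  `red_A D = 0` outside the zero component and `red_A (D + c) = 0` in the zero component,
  `c = cuspClass p = (0) - (∞)`, at every multiplicative prime `s ≠ p` and every `A` over `s`.
-/

set_option autoImplicit false

noncomputable section

namespace Fermat.Agent.S15.helper3241

open AlgebraicCurve ModularCurve WeierstrassCurve WeierstrassCurve.Affine
open Fermat.Agent.S24.helper24 (Kbar FN jBar coe_jBar)
open Fermat.Agent.S18.helper1040 (cuspInf)
open Fermat.Agent.S15.helper5942 (cuspZero oggUnit cuspClass cuspDiv)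
open Fermat.Agent.S15.helper5684 (unitZ)
open Fermat.Agent.S28.helper328 (deltaHat deltaHatInv)
open Fermat.Agent.S15.helper1449 (Uval)

/-! ## Integral models -/

section Models

variable (p : ℕ) [NeZero p]

/-- The inverse `Δ(q^p) / Δ(q)` of the Ogg unit, with integer coefficients. -/
def unitInvZ : LaurentSeries ℤ := deltaHatInv ℤ * qExpand ℤ p (deltaHat ℤ)

theorem unitZ_mul_unitInvZ : unitZ p * unitInvZ p = 1 := by
  have h1 := Fermat.Agent.S28.helper2627.deltaHat_mul_deltaHatInv
  have h2 := Fermat.Agent.S15.helper5684.qExpand_deltaHatInv_mul p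
  unfold unitZ unitInvZ
  calc deltaHat ℤ * qExpand ℤ p (deltaHatInv ℤ) * (deltaHatInv ℤ * qExpand ℤ p (deltaHat ℤ))
      = (deltaHat ℤ * deltaHatInv ℤ) *
          (qExpand ℤ p (deltaHatInv ℤ) * qExpand ℤ p (deltaHat ℤ)) := by ring
    _ = 1 := by rw [h1, h2, mul_one]

/-- The test series `j^(p-1) / u` with integer coefficients. -/
def gZ : LaurentSeries ℤ := jqModC ℤ ^ (p - 1) * unitInvZ p

end Models

/-! ## The function field side: `j`, the Ogg unit `u`, and `g = j^(p-1) / u` -/

section Functions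

variable (p : ℕ) [NeZero p] (hp : p.Prime)

omit [NeZero p] in
theorem coe_jBar_int :
    ((jBar p : FN p) : LaurentSeries Kbar) = coeffMap (Int.castRingHom Kbar) (jqModC ℤ) := by
  rw [coe_jBar, Fermat.Agent.S15.helper5684.coeffEmb_jq, coeffMap_jqModC]

theorem coe_oggUnit_int :
    ((oggUnit p hp : FN p) : LaurentSeries Kbar) = coeffMap (Int.castRingHom Kbar) (unitZ p) :=
  rfl

omit [NeZero p] in
theorem jBar_ne_zero : jBar p ≠ 0 := by
  intro h
  have h1 := Fermat.Agent.S15.helper5942.cuspInf_ord_jBar p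
  rw [h, Place.ord_zero] at h1
  norm_num at h1

/-- The test function `g = j^(p-1) / u`. -/
def gFn : FN p := jBar p ^ (p - 1) * (oggUnit p hp)⁻¹

theorem coe_gFn :
    ((gFn p hp : FN p) : LaurentSeries Kbar) = coeffMap (Int.castRingHom Kbar) (gZ p) := by
  have h := congrArg (coeffMap (Int.castRingHom Kbar)) (unitZ_mul_unitInvZ p)
  rw [map_mul, map_one, ← coe_oggUnit_int p hp] at h
  have h2 : coeffMap (Int.castRingHom Kbar) (unitInvZ p) =
      ((oggUnit p hp : FN p) : LaurentSeries Kbar)⁻¹ := eq_inv_of_mul_eq_one_right h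
  rw [gZ, map_mul, map_pow, h2, ← coe_jBar_int p]
  rfl

theorem ord_gFn (v : Place Kbar (FN p)) :
    v.ord (gFn p hp) = ((p - 1 : ℕ) : ℤ) * v.ord (jBar p) - v.ord (oggUnit p hp) := by
  have hu := Fermat.Agent.S15.helper5942.oggUnit_ne_zero p hp
  rw [gFn, v.ord_mul (pow_ne_zero _ (jBar_ne_zero p)) (inv_ne_zero hu),
    Fermat.Agent.S24.helper1370.ord_pow, v.ord_inv]
  ring

theorem ord_oggUnit_nonneg (v : Place Kbar (FN p)) (hv : v ≠ cuspInf p) :
    0 ≤ v.ord (oggUnit p hp) := by
  by_cases h0 : v = cuspZero p hp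
  · rw [h0, Fermat.Agent.S15.helper5942.cuspZero_ord_oggUnit]
    have := hp.one_lt
    omega
  · have hj : 0 ≤ v.ord (jBar p) := by
      by_contra hlt
      rcases Fermat.Agent.S15.helper5942.eq_cusp_of_ord_jBar_neg p hp v (not_le.mp hlt) with h | h
      · exact hv h
      · exact h0 h
    rw [Fermat.Agent.S15.helper5942.ord_oggUnit_eq_zero p hp v hj]

theorem ord_gFn_nonneg (v : Place Kbar (FN p)) (hv : v ≠ cuspZero p hp) :
    0 ≤ v.ord (gFn p hp) := by
  have hcast : ((p - 1 : ℕ) : ℤ) = (p : ℤ) - 1 := by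
    rw [Nat.cast_sub hp.one_lt.le, Nat.cast_one]
  by_cases h1 : v = cuspInf p
  · rw [h1, ord_gFn, Fermat.Agent.S15.helper5942.cuspInf_ord_jBar,
      Fermat.Agent.S15.helper5942.cuspInf_ord_oggUnit, hcast]
    ring_nf
    exact le_rfl
  · have hj : 0 ≤ v.ord (jBar p) := by
      by_contra hlt
      rcases Fermat.Agent.S15.helper5942.eq_cusp_of_ord_jBar_neg p hp v (not_le.mp hlt) with h | h
      · exact h1 h
      · exact hv h
    rw [ord_gFn, Fermat.Agent.S15.helper5942.ord_oggUnit_eq_zero p hp v hj, sub_zero]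
    exact mul_nonneg (Nat.cast_nonneg _) hj

theorem cuspZero_ord_gFn_neg : (cuspZero p hp).ord (gFn p hp) < 0 := by
  have hcast : ((p - 1 : ℕ) : ℤ) = (p : ℤ) - 1 := by
    rw [Nat.cast_sub hp.one_lt.le, Nat.cast_one]
  rw [ord_gFn, Fermat.Agent.S15.helper5942.cuspZero_ord_jBar,
    Fermat.Agent.S15.helper5942.cuspZero_ord_oggUnit, hcast]
  have h2 : (2 : ℤ) ≤ (p : ℤ) := by exact_mod_cast hp.two_le
  nlinarith

theorem gFn_ne_algebraMap (c : Kbar) : gFn p hp ≠ algebraMap Kbar (FN p) c := by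
  intro h
  have h1 := cuspZero_ord_gFn_neg p hp
  rw [h, Fermat.Agent.S24.helper1370.ord_algebraMap] at h1
  exact lt_irrefl _ h1

omit [NeZero p] in
/-- Galois invariance of `j`. -/
theorem galois_smul_jBar (σ : Kbar ≃ₐ[ℚ] Kbar) :
    arithmeticGalois (modularFunctionFieldFull p) σ • jBar p = jBar p := by
  apply Subtype.ext
  rw [coe_arithmeticGalois_smul, coe_jBar, coeffMap_coeffEmb]

/-- Galois invariance of the Ogg unit. -/
theorem galois_smul_oggUnit (σ : Kbar ≃ₐ[ℚ] Kbar) :
    arithmeticGalois (modularFunctionFieldFull p) σ • oggUnit p hp = oggUnit p hp := by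
  apply Subtype.ext
  rw [coe_arithmeticGalois_smul, Fermat.Agent.S15.helper5942.coe_oggUnit, coeffMap_coeffEmb]

end Functions

/-! ## Integral models over a valuation ring of `ℚ̄` -/

section IntegralModels

variable (p : ℕ) [NeZero p] (hp : p.Prime) (A : ValuationSubring Kbar)

theorem coe_unitModel :
    coeffMap A.subtype (coeffMap (Int.castRingHom A) (unitZ p)) =
      ((oggUnit p hp : FN p) : LaurentSeries Kbar) := by
  rw [Fermat.Agent.S15.helper5684.coeffMap_int_comp, coe_oggUnit_int]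

include hp in
theorem unitModel_mem :
    coeffMap A.subtype (coeffMap (Int.castRingHom A) (unitZ p)) ∈ modularFunctionFieldBar p := by
  rw [coe_unitModel p hp A]
  exact (oggUnit p hp).2

theorem unitModel_eq :
    (⟨coeffMap A.subtype (coeffMap (Int.castRingHom A) (unitZ p)), unitModel_mem p hp A⟩ :
      modularFunctionFieldBar p) = oggUnit p hp :=
  Subtype.ext (coe_unitModel p hp A)

theorem coe_gModel :
    coeffMap A.subtype (coeffMap (Int.castRingHom A) (gZ p)) =
      ((gFn p hp : FN p) : LaurentSeries Kbar) := by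
  rw [Fermat.Agent.S15.helper5684.coeffMap_int_comp, coe_gFn]

include hp in
theorem gModel_mem :
    coeffMap A.subtype (coeffMap (Int.castRingHom A) (gZ p)) ∈ modularFunctionFieldBar p := by
  rw [coe_gModel p hp A]
  exact (gFn p hp).2

theorem gModel_eq :
    (⟨coeffMap A.subtype (coeffMap (Int.castRingHom A) (gZ p)), gModel_mem p hp A⟩ :
      modularFunctionFieldBar p) = gFn p hp :=
  Subtype.ext (coe_gModel p hp A)

omit [NeZero p] in
theorem coe_jModel :
    coeffMap A.subtype (coeffMap (Int.castRingHom A) (jqModC ℤ)) =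
      ((jBar p : FN p) : LaurentSeries Kbar) := by
  rw [Fermat.Agent.S15.helper5684.coeffMap_int_comp, coe_jBar_int]

omit [NeZero p] in
theorem jModel_mem :
    coeffMap A.subtype (coeffMap (Int.castRingHom A) (jqModC ℤ)) ∈ modularFunctionFieldBar p := by
  rw [coe_jModel p A]
  exact (jBar p).2

omit [NeZero p] in
theorem jModel_eq :
    (⟨coeffMap A.subtype (coeffMap (Int.castRingHom A) (jqModC ℤ)), jModel_mem p A⟩ :
      modularFunctionFieldBar p) = jBar p :=
  Subtype.ext (coe_jModel p A)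

end IntegralModels

/-! ## Place level: where does a place with given values of `u` and `g` reduce? -/

section PlaceLevel

variable (p : ℕ) [NeZero p] (hp : p.Prime) {A : ValuationSubring Kbar}

/-- **(PIN ∞)** A place at which the Ogg unit takes a non-integral value reduces to the
reduction of the cusp `∞`. -/
theorem placeReductionModL_eq_cuspInf (h : ReductionInputsModL A p)
    (u0 : Kbar) (hu0 : u0 ∉ A) (x : Place Kbar (FN p))
    (hx : 0 < x.ord (oggUnit p hp - algebraMap Kbar (FN p) u0)) :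
    placeReductionModL h x = placeReductionModL h (cuspInf p) := by
  have := Fermat.Agent.S37.helper5162.hasPrincipalDivisors_FN p
  refine Fermat.Agent.S15.helper2393.placeReductionModL_eq_of_value_not_mem h _
    (unitModel_mem p hp A) u0 hu0 x (cuspInf p) ?_ ?_
  · rw [unitModel_eq p hp A]
    exact hx
  · intro P hP
    rw [unitModel_eq p hp A]
    exact ord_oggUnit_nonneg p hp P hP

/-- **(PIN 0)** A place at which `g = j^(p-1)/u` takes a non-integral value reduces to the
reduction of the cusp `0`. -/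
theorem placeReductionModL_eq_cuspZero (h : ReductionInputsModL A p)
    (g0 : Kbar) (hg0 : g0 ∉ A) (x : Place Kbar (FN p))
    (hx : 0 < x.ord (gFn p hp - algebraMap Kbar (FN p) g0)) :
    placeReductionModL h x = placeReductionModL h (cuspZero p hp) := by
  have := Fermat.Agent.S37.helper5162.hasPrincipalDivisors_FN p
  refine Fermat.Agent.S15.helper2393.placeReductionModL_eq_of_value_not_mem h _
    (gModel_mem p hp A) g0 hg0 x (cuspZero p hp) ?_ ?_
  · rw [gModel_eq p hp A]
    exact hx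
  · intro P hP
    rw [gModel_eq p hp A]
    exact ord_gFn_nonneg p hp P hP

theorem order_eq_of_leadAt {k : Type} [Field k] {f : LaurentSeries k} {n : ℤ}
    (h : Fermat.Agent.S28.helper508.LeadAt f n 1) : f ≠ 0 ∧ f.order = n := by
  have hne : f ≠ 0 := by
    intro h0
    have h1 := h.1
    rw [h0] at h1
    simp at h1
  refine ⟨hne, le_antisymm ?_ ?_⟩
  · apply HahnSeries.order_le_of_coeff_ne_zero
    rw [h.1]
    exact one_ne_zero
  · by_contra hlt
    rw [not_le] at hlt
    exact hne (HahnSeries.coeff_order_eq_zero.mp (h.2 _ hlt))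

/-- **(SEP)** In residue characteristic `≠ p` the two cusps have distinct reductions. -/
theorem placeReductionModL_cuspZero_ne_cuspInf (h : ReductionInputsModL A p)
    (hpA : ((p : ℕ) : IsLocalRing.ResidueField A) ≠ 0) :
    placeReductionModL h (cuspZero p hp) ≠ placeReductionModL h (cuspInf p) := by
  have : Fact p.Prime := ⟨hp⟩
  have hred : coeffMap (IsLocalRing.residue A) (coeffMap (Int.castRingHom A) (unitZ p)) =
      Fermat.Agent.S15.helper5684.unitK p (IsLocalRing.ResidueField A) :=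
    Fermat.Agent.S15.helper5684.coeffMap_residue_unitZ p (IsLocalRing.residue A)
  have hyk : coeffMap (IsLocalRing.residue A) (coeffMap (Int.castRingHom A) (unitZ p)) ∈
      modularFunctionFieldFullC (IsLocalRing.ResidueField A) p := by
    rw [hred]
    exact Fermat.Agent.S15.helper5684.unitK_mem_full p _ hpA
  obtain ⟨hne, hord⟩ := order_eq_of_leadAt
    (Fermat.Agent.S15.helper5684.leadAt_unitK p (IsLocalRing.ResidueField A))
  refine reduction_ne_of_divisor (isPlaceReductionModL_placeReductionModL h) _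
    (unitModel_mem p hp A) hyk (cuspZero p hp) (cuspInf p)
    (Fermat.Agent.S15.helper5942.cuspInf_ne_cuspZero p hp).symm ((p : ℤ) - 1) ?_ ?_ ?_
    (Fermat.Agent.S18.helper36.qPlaceK (IsLocalRing.ResidueField A) p) ?_
  · rw [unitModel_eq p hp A]
    exact Fermat.Agent.S15.helper5942.cuspZero_ord_oggUnit p hp
  · rw [unitModel_eq p hp A, Fermat.Agent.S15.helper5942.cuspInf_ord_oggUnit]
    ring
  · intro P h0 h1
    rw [unitModel_eq p hp A]
    apply Fermat.Agent.S15.helper5942.ord_oggUnit_eq_zero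
    by_contra hlt
    rcases Fermat.Agent.S15.helper5942.eq_cusp_of_ord_jBar_neg p hp P (not_le.mp hlt) with h2 | h2
    · exact h1 h2
    · exact h0 h2
  · have hf0 : (⟨coeffMap (IsLocalRing.residue A) (coeffMap (Int.castRingHom A) (unitZ p)), hyk⟩ :
        modularFunctionFieldFullC (IsLocalRing.ResidueField A) p) ≠ 0 := by
      intro h0
      apply hne
      have h1 := congrArg Subtype.val h0
      rw [← hred]
      exact h1
    rw [Fermat.Agent.S18.helper36.qPlaceK_ord _ _ hf0]
    show (coeffMap (IsLocalRing.residue A) (coeffMap (Int.castRingHom A) (unitZ p))).order ≠ 0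
    rw [hred, hord]
    have := hp.one_lt
    omega

/-- **(RAT)** Rationality of the moduli place from ONE prime: if `j₀, u₀ ∈ ℚ` are both
non-integral at `A` (residue characteristic `≠ p`, reduction inputs at `A`), a place `x` with
`j(x) = j₀`, `u(x) = u₀` is fixed by the arithmetic Galois action. -/
theorem galois_smul_place_eq (h : ReductionInputsModL A p)
    (hpA : ((p : ℕ) : IsLocalRing.ResidueField A) ≠ 0)
    (j0 u0 : ℚ) (hj0 : algebraMap ℚ Kbar j0 ∉ A) (hu0 : algebraMap ℚ Kbar u0 ∉ A)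
    (x : Place Kbar (FN p))
    (hxj : 0 < x.ord (jBar p - algebraMap Kbar (FN p) (algebraMap ℚ Kbar j0)))
    (hxu : 0 < x.ord (oggUnit p hp - algebraMap Kbar (FN p) (algebraMap ℚ Kbar u0)))
    (σ : Kbar ≃ₐ[ℚ] Kbar) :
    arithmeticGalois (modularFunctionFieldFull p) σ • x = x := by
  have := Fermat.Agent.S37.helper5162.hasPrincipalDivisors_FN p
  have hxj' : 0 < (arithmeticGalois (modularFunctionFieldFull p) σ • x).ord
      (jBar p - algebraMap Kbar (FN p) (algebraMap ℚ Kbar j0)) := by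
    rw [ord_arithmeticGalois_smul_sub (modularFunctionFieldFull p) σ x (jBar p)
      (galois_smul_jBar p σ) _ (σ.commutes j0)]
    exact hxj
  have hxu' : 0 < (arithmeticGalois (modularFunctionFieldFull p) σ • x).ord
      (oggUnit p hp - algebraMap Kbar (FN p) (algebraMap ℚ Kbar u0)) := by
    rw [ord_arithmeticGalois_smul_sub (modularFunctionFieldFull p) σ x (oggUnit p hp)
      (galois_smul_oggUnit p hp σ) _ (σ.commutes u0)]
    exact hxu
  have hr := placeReductionModL_eq_cuspInf p hp h _ hu0 x hxu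
  have hr' := placeReductionModL_eq_cuspInf p hp h _ hu0 _ hxu'
  have hsep := placeReductionModL_cuspZero_ne_cuspInf p hp h hpA
  obtain ⟨cinv, hcinv, hres⟩ := Fermat.Agent.S15.helper2393.exists_inv_residue_eq_zero A hj0
  symm
  refine place_eq_of_simple_pole (isPlaceReductionModL_placeReductionModL h) _
    (jModel_mem p A) _ cinv hcinv hres (cuspInf p) x _ ?_ ?_ ?_ ?_ hr hr'
  · rw [jModel_eq p A]
    exact Fermat.Agent.S15.helper5942.cuspInf_ord_jBar p
  · intro P hP hrP
    rw [jModel_eq p A]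
    by_contra hlt
    rcases Fermat.Agent.S15.helper5942.eq_cusp_of_ord_jBar_neg p hp P (not_le.mp hlt) with h1 | h1
    · exact hP h1
    · exact hsep (h1 ▸ hrP)
  · rw [jModel_eq p A]
    exact hxj
  · rw [jModel_eq p A]
    exact hxj'

end PlaceLevel

/-! ## Classes `(x) - (y)` -/

section Classes

variable (p : ℕ) [NeZero p]

theorem place_deg_eq (x y : Place Kbar (FN p)) : x.deg = y.deg := by
  rw [Fermat.Agent.S37.helper5162.place_deg_eq_one p x,
    Fermat.Agent.S37.helper5162.place_deg_eq_one p y]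

/-- The class of the divisor `(x) - (y)` in `J₀(p)`. -/
def clsSub (x y : Place Kbar (FN p)) : JZero p :=
  Pic0.mk ⟨Finsupp.single x (1 : ℤ) - Finsupp.single y 1,
    Fermat.Agent.S15.helper2393.single_sub_single_mem_degZero x y (place_deg_eq p x y)⟩

theorem clsSub_add_clsSub (x y z : Place Kbar (FN p)) :
    clsSub p x y + clsSub p y z = clsSub p x z := by
  unfold clsSub
  rw [← Pic0.mk_add]
  congr 1
  apply Subtype.ext
  show (Finsupp.single x (1 : ℤ) - Finsupp.single y 1) +
    (Finsupp.single y (1 : ℤ) - Finsupp.single z 1) = Finsupp.single x (1 : ℤ) - Finsupp.single z 1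
  abel

theorem galois_smul_clsSub (σ : Kbar ≃ₐ[ℚ] Kbar) (x y : Place Kbar (FN p)) :
    σ • clsSub p x y = clsSub p (arithmeticGalois (modularFunctionFieldFull p) σ • x)
      (arithmeticGalois (modularFunctionFieldFull p) σ • y) := by
  show arithmeticGalois (modularFunctionFieldFull p) σ • clsSub p x y = _
  unfold clsSub
  rw [SemilinearAut.pic0_smul_mk]
  congr 1
  apply Subtype.ext
  rw [SemilinearAut.coe_degZeroSMulHom]
  show arithmeticGalois (modularFunctionFieldFull p) σ •
      (Finsupp.single x (1 : ℤ) - Finsupp.single y 1) = _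
  rw [smul_sub, SemilinearAut.smul_single, SemilinearAut.smul_single]

theorem cuspClass_eq_clsSub (hp : p.Prime) :
    cuspClass p hp = clsSub p (cuspZero p hp) (cuspInf p) := rfl

/-- **(PIN ∞), class form.**  No hypothesis on reduction inputs: without them the Prelude
reduction map is zero. -/
theorem reductionModL_clsSub_cuspInf (hp : p.Prime) (A : ValuationSubring Kbar)
    (u0 : Kbar) (hu0 : u0 ∉ A) (x : Place Kbar (FN p))
    (hx : 0 < x.ord (oggUnit p hp - algebraMap Kbar (FN p) u0)) :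
    reductionModL A p (clsSub p x (cuspInf p)) = 0 := by
  have := Fermat.Agent.S37.helper5162.hasPrincipalDivisors_FN p
  by_cases h : ReductionInputsModL A p
  · refine Fermat.Agent.S15.helper2393.reductionModL_single_sub_single h _
      (unitModel_mem p hp A) u0 hu0 x (cuspInf p) (place_deg_eq p _ _) ?_ ?_
    · rw [unitModel_eq p hp A]
      exact hx
    · intro P hP
      rw [unitModel_eq p hp A]
      exact ord_oggUnit_nonneg p hp P hP
  · rw [reductionModL_of_not h]
    rfl

/-- **(PIN 0), class form.** -/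
theorem reductionModL_clsSub_cuspZero (hp : p.Prime) (A : ValuationSubring Kbar)
    (g0 : Kbar) (hg0 : g0 ∉ A) (x : Place Kbar (FN p))
    (hx : 0 < x.ord (gFn p hp - algebraMap Kbar (FN p) g0)) :
    reductionModL A p (clsSub p x (cuspZero p hp)) = 0 := by
  have := Fermat.Agent.S37.helper5162.hasPrincipalDivisors_FN p
  by_cases h : ReductionInputsModL A p
  · refine Fermat.Agent.S15.helper2393.reductionModL_single_sub_single h _
      (gModel_mem p hp A) g0 hg0 x (cuspZero p hp) (place_deg_eq p _ _) ?_ ?_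
    · rw [gModel_eq p hp A]
      exact hx
    · intro P hP
      rw [gModel_eq p hp A]
      exact ord_gFn_nonneg p hp P hP
  · rw [reductionModL_of_not h]
    rfl

end Classes

/-! ## The values at the moduli place and their valuations -/

section Values

variable (p : ℕ) [NeZero p] (hp : p.Prime)

/-- The value of `g = j^(p-1)/u` at a place with `j = j₀`, `u = u₀ ≠ 0`. -/
theorem ord_gFn_sub_pos (x : Place Kbar (FN p)) (j0 u0 : Kbar) (hu0 : u0 ≠ 0)
    (hxj : 0 < x.ord (jBar p - algebraMap Kbar (FN p) j0))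
    (hxu : 0 < x.ord (oggUnit p hp - algebraMap Kbar (FN p) u0)) :
    0 < x.ord (gFn p hp - algebraMap Kbar (FN p) (j0 ^ (p - 1) * u0⁻¹)) :=
  (((ValAt.of_ord_pos hxj).pow (p - 1)).mul ((ValAt.of_ord_pos hxu).inv hu0)).ord_pos
    (gFn_ne_algebraMap p hp _)

/-- At a prime of multiplicative reduction `j₀ = c₄³/Δ` is not integral. -/
theorem jInv_notMem (W : WeierstrassCurve ℤ) {s : ℕ} (hs : s.Prime)
    (A : ValuationSubring Kbar) (hA : A.LiesOverPrime s) (hsΔ : (s : ℤ) ∣ W.Δ)
    (hsc : ¬ (s : ℤ) ∣ W.c₄) (hΔ : W.Δ ≠ 0) :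
    algebraMap ℚ Kbar ((W.c₄ : ℚ) ^ 3 / (W.Δ : ℚ)) ∉ A := by
  intro hmem
  have h1 := (A.valuation_le_one_iff _).mpr hmem
  have hc1 : A.valuation ((W.c₄ : ℤ) : Kbar) = 1 :=
    Fermat.Agent.S15.helper4637.valuation_intCast_eq_one hs A hA hsc
  have hΔlt : A.valuation ((W.Δ : ℤ) : Kbar) < 1 := by
    obtain ⟨d, hd⟩ := hsΔ
    have hslt : A.valuation ((s : ℕ) : Kbar) < 1 := (ValuationSubring.mem_nonunits_iff A).mp hA
    have hd1 : A.valuation ((d : ℤ) : Kbar) ≤ 1 := by
      rw [A.valuation_le_one_iff]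
      exact intCast_mem A d
    rw [hd]
    push_cast
    rw [map_mul]
    calc A.valuation ((s : ℕ) : Kbar) * A.valuation ((d : ℤ) : Kbar)
        ≤ A.valuation ((s : ℕ) : Kbar) * 1 := mul_le_mul' le_rfl hd1
      _ = A.valuation ((s : ℕ) : Kbar) := mul_one _
      _ < 1 := hslt
  have hΔ0 : A.valuation ((W.Δ : ℤ) : Kbar) ≠ 0 :=
    (map_ne_zero _).mpr (Int.cast_ne_zero.mpr hΔ)
  have e : algebraMap ℚ Kbar ((W.c₄ : ℚ) ^ 3 / (W.Δ : ℚ)) =
      ((W.c₄ : ℤ) : Kbar) ^ 3 / ((W.Δ : ℤ) : Kbar) := by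
    rw [map_div₀, map_pow, map_intCast, map_intCast]
  rw [e, map_div₀, map_pow, hc1, one_pow, div_le_iff₀ (zero_lt_iff.mpr hΔ0), one_mul] at h1
  exact absurd hΔlt (not_lt.mpr h1)

end Values

/-! ## Class level: the bridge -/

section Bridge

variable (p : ℕ) [NeZero p] (hp : p.Prime)

/-- **BR-ASM, from the moduli place.**  Given the rational number `u = U(W, Q)` and a place `x`
of `X₀(p)` with `j(x) = c₄³/Δ` and `u(x) = p¹²/U(W, Q)`, there is a Galois-fixed class `D` of
`J₀(p)` such that, at every prime `s ≠ p` of multiplicative reduction and every valuation ring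
`A` of `ℚ̄` over `s`: `red_A D = 0` if `Q` is not in the zero component at `A`, and
`red_A (D + c) = 0` if it is, `c = (0) - (∞)` the cuspidal class. -/
theorem bridge_of_place (hp2 : p ≠ 2) (W : WeierstrassCurve ℤ) (hΔ : W.Δ ≠ 0)
    (Q : ((W.map (Int.castRingHom ℚ))⁄(AlgebraicClosure ℚ)).Point) (hQord : addOrderOf Q = p)
    (u : ℚ) (hu : u ≠ 0)
    (hU : algebraMap ℚ (AlgebraicClosure ℚ) u =
      Uval ((W.map (Int.castRingHom ℚ))⁄(AlgebraicClosure ℚ)) Q p)
    (x : Place Kbar (FN p))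
    (hxj : 0 < x.ord (jBar p -
      algebraMap Kbar (FN p) (algebraMap ℚ Kbar ((W.c₄ : ℚ) ^ 3 / (W.Δ : ℚ)))))
    (hxu : 0 < x.ord (oggUnit p hp -
      algebraMap Kbar (FN p) (algebraMap ℚ Kbar ((p : ℚ) ^ 12 / u)))) :
    ∃ D : JZero p, (∀ σ : Kbar ≃ₐ[ℚ] Kbar, σ • D = D) ∧
      ∀ s : ℕ, s.Prime → s ≠ p → (s : ℤ) ∣ W.Δ → ¬ (s : ℤ) ∣ W.c₄ →
        ∀ A : ValuationSubring Kbar, A.LiesOverPrime s →
          (¬ W.InZeroComponentAt A Q → reductionModL A p D = 0) ∧
          (W.InZeroComponentAt A Q → reductionModL A p (D + cuspClass p hp) = 0) := by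
  classical
  -- the two values
  have hu0eq : algebraMap ℚ Kbar ((p : ℚ) ^ 12 / u) =
      (p : Kbar) ^ 12 / Uval ((W.map (Int.castRingHom ℚ))⁄(AlgebraicClosure ℚ)) Q p := by
    rw [map_div₀, map_pow, map_natCast, hU]
  have hj0eq : algebraMap ℚ Kbar ((W.c₄ : ℚ) ^ 3 / (W.Δ : ℚ)) =
      ((W.c₄ : ℤ) : Kbar) ^ 3 / ((W.Δ : ℤ) : Kbar) := by
    rw [map_div₀, map_pow, map_intCast, map_intCast]
  have hu0ne : algebraMap ℚ Kbar ((p : ℚ) ^ 12 / u) ≠ 0 :=
    (map_ne_zero _).mpr (div_ne_zero (pow_ne_zero _ (Nat.cast_ne_zero.mpr hp.ne_zero)) hu)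
  -- (VAL a): zero component ⟹ `u₀ ∉ A`
  have hvalA : ∀ s : ℕ, s.Prime → s ≠ p → (s : ℤ) ∣ W.Δ → ¬ (s : ℤ) ∣ W.c₄ →
      ∀ A : ValuationSubring Kbar, A.LiesOverPrime s → W.InZeroComponentAt A Q →
        algebraMap ℚ Kbar ((p : ℚ) ^ 12 / u) ∉ A := by
    intro s hs hsp hsΔ hsc A hA hin
    rw [hu0eq]
    exact Fermat.Agent.S15.helper4637.div_Uval_notMem_of_inZero W hp hp2 Q hQord hs hsp hsc A hA
      hΔ hsΔ hin
  -- (VAL b): other components ⟹ `j₀^(p-1)/u₀ ∉ A`
  have hvalB : ∀ s : ℕ, s.Prime → s ≠ p → ¬ (s : ℤ) ∣ W.c₄ →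
      ∀ A : ValuationSubring Kbar, A.LiesOverPrime s → ¬ W.InZeroComponentAt A Q →
        algebraMap ℚ Kbar ((W.c₄ : ℚ) ^ 3 / (W.Δ : ℚ)) ^ (p - 1) *
          (algebraMap ℚ Kbar ((p : ℚ) ^ 12 / u))⁻¹ ∉ A := by
    intro s hs hsp hsc A hA hnin
    rw [hu0eq, hj0eq, ← div_eq_mul_inv]
    exact Fermat.Agent.S15.helper4637.jpow_div_notMem_of_not_inZero W hp hp2 Q hQord hs hsp hsc A
      hA hΔ hnin
  have hxg := ord_gFn_sub_pos p hp x _ _ hu0ne hxj hxu
  by_cases hex : ∃ (s : ℕ) (A : ValuationSubring Kbar), s.Prime ∧ s ≠ p ∧ (s : ℤ) ∣ W.Δ ∧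
      ¬ (s : ℤ) ∣ W.c₄ ∧ A.LiesOverPrime s ∧ W.InZeroComponentAt A Q ∧ ReductionInputsModL A p
  · -- the moduli place is rational
    obtain ⟨s, A, hs, hsp, hsΔ, hsc, hA, hin, hinputs⟩ := hex
    have hpA : ((p : ℕ) : IsLocalRing.ResidueField A) ≠ 0 :=
      Fermat.Agent.S15.helper4637.residue_natCast_ne_zero hp hs hsp A hA
    have hfix : ∀ σ : Kbar ≃ₐ[ℚ] Kbar,
        arithmeticGalois (modularFunctionFieldFull p) σ • x = x := fun σ =>
      galois_smul_place_eq p hp hinputs hpA _ _ (jInv_notMem W hs A hA hsΔ hsc hΔ)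
        (hvalA s hs hsp hsΔ hsc A hA hin) x hxj hxu σ
    refine ⟨clsSub p x (cuspZero p hp), ?_, ?_⟩
    · intro σ
      rw [galois_smul_clsSub, hfix σ,
        Fermat.Agent.S15.helper5942.arithmeticGalois_smul_cuspZero p hp σ]
    · intro s' hs' hsp' hsΔ' hsc' A' hA'
      constructor
      · intro hnin
        exact reductionModL_clsSub_cuspZero p hp A' _ (hvalB s' hs' hsp' hsc' A' hA' hnin) x hxg
      · intro hin'
        rw [cuspClass_eq_clsSub, clsSub_add_clsSub]
        exact reductionModL_clsSub_cuspInf p hp A' _ (hvalA s' hs' hsp' hsΔ' hsc' A' hA' hin') x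
          hxu
  · -- no zero-component prime with reduction inputs: `D = 0`
    refine ⟨0, fun σ => ?_, ?_⟩
    · show arithmeticGalois (modularFunctionFieldFull p) σ • (Pic0.mk 0 : JZero p) = Pic0.mk 0
      rw [SemilinearAut.pic0_smul_mk, map_zero]
    intro s hs hsp hsΔ hsc A hA
    constructor
    · intro _
      exact map_zero _
    · intro hin
      have hno : ¬ ReductionInputsModL A p := fun hinputs =>
        hex ⟨s, A, hs, hsp, hsΔ, hsc, hA, hin, hinputs⟩
      rw [reductionModL_of_not hno]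
      rfl

/-- **BR-ASM, point form** (`BridgeFor p c` of the top Spec, `c = cuspClass p`): for a
Galois-fixed point `Q` of order `p`. -/
theorem bridgeFor (hp2 : p ≠ 2) (W : WeierstrassCurve ℤ) (hΔ : W.Δ ≠ 0)
    (Q : ((W.map (Int.castRingHom ℚ))⁄(AlgebraicClosure ℚ)).Point)
    (hQfix : ∀ σ : AlgebraicClosure ℚ ≃ₐ[ℚ] AlgebraicClosure ℚ, σ • Q = Q)
    (hQord : addOrderOf Q = p) :
    ∃ D : JZero p, (∀ σ : Kbar ≃ₐ[ℚ] Kbar, σ • D = D) ∧
      ∀ s : ℕ, s.Prime → s ≠ p → (s : ℤ) ∣ W.Δ → ¬ (s : ℤ) ∣ W.c₄ →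
        ∀ A : ValuationSubring Kbar, A.LiesOverPrime s →
          (¬ W.InZeroComponentAt A Q → reductionModL A p D = 0) ∧
          (W.InZeroComponentAt A Q → reductionModL A p (D + cuspClass p hp) = 0) := by
  obtain ⟨u, hu, hU, τ, hj, hΔτ⟩ :=
    Fermat.Agent.S15.helper1449.exists_tau hp hp2 W hΔ Q hQfix hQord
  obtain ⟨x, hxj, hxu⟩ := Fermat.Agent.S15.helper7155.exists_place_of_tau p hp.one_lt τ W.c₄ W.Δ u
    hΔ hu hj hΔτ (jBar p) (oggUnit p hp) (coe_jBar p)
    (Fermat.Agent.S15.helper5942.coe_oggUnit p hp)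
  exact bridge_of_place p hp hp2 W hΔ Q hQord u hu hU x hxj hxu

/-- **BR-ASM, line form** (`BridgeForLine p c`): for a point `Q` of order `p` whose line is
Galois stable. -/
theorem bridgeForLine (hp2 : p ≠ 2) (W : WeierstrassCurve ℤ) (hΔ : W.Δ ≠ 0)
    (Q : ((W.map (Int.castRingHom ℚ))⁄(AlgebraicClosure ℚ)).Point)
    (hQstab : ∀ σ : AlgebraicClosure ℚ ≃ₐ[ℚ] AlgebraicClosure ℚ, ∃ k : ℤ, σ • Q = k • Q)
    (hQord : addOrderOf Q = p) :
    ∃ D : JZero p, (∀ σ : Kbar ≃ₐ[ℚ] Kbar, σ • D = D) ∧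
      ∀ s : ℕ, s.Prime → s ≠ p → (s : ℤ) ∣ W.Δ → ¬ (s : ℤ) ∣ W.c₄ →
        ∀ A : ValuationSubring Kbar, A.LiesOverPrime s →
          (¬ W.InZeroComponentAt A Q → reductionModL A p D = 0) ∧
          (W.InZeroComponentAt A Q → reductionModL A p (D + cuspClass p hp) = 0) := by
  obtain ⟨u, hu, hU, τ, hj, hΔτ⟩ :=
    Fermat.Agent.S15.helper1449.exists_tau_stable W Q hp hp2 hΔ hQstab hQord
  obtain ⟨x, hxj, hxu⟩ := Fermat.Agent.S15.helper7155.exists_place_of_tau p hp.one_lt τ W.c₄ W.Δ u
    hΔ hu hj hΔτ (jBar p) (oggUnit p hp) (coe_jBar p)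
    (Fermat.Agent.S15.helper5942.coe_oggUnit p hp)
  exact bridge_of_place p hp hp2 W hΔ Q hQord u hu hU x hxj hxu

end Bridge

end Fermat.Agent.S15.helper3241
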