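import Mathlib
import Fermat.Prelude.Def_ModularCurve_ReductionModL
import Fermat.Agent.S24.helper1370_PlaceBasics
import Fermat.Agent.S15.helper2393_PlaceRed

/-!
# S15 moduli bridge (BR-ASM): place calculus for the assembly  (helper3241)

Prelude vocabulary only (`Place`, `IsPlaceReductionAlong`).  Three tools used by
`helper3241_BridgeAsm`:

* `ValAt v f a` — "`f` takes the value `a` at the place `v`" (`f - a` lies in the maximal ideal),
  with its calculus (`mul`, `pow`, `inv`) and the translation to `0 < v.ord (f - a)`;
* `place_eq_of_simple_pole` — **uniqueness**: let `f` be a function with integral expansion and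
  let `c` be a non-integral constant.  If `f` has a simple pole at `P₁` and no other pole among
  the places reducing to `r P₁`, then at most one place with `f = c` reduces to `r P₁`
  (conservation of the divisor of `c⁻¹ f - 1`, which reduces to the constant `-1`);
* `reduction_ne_of_divisor` — **separation**: if an integral function has divisor
  `n (P₀) - n (P₁)` and its reduction is not of order `0` everywhere, then `r P₀ ≠ r P₁`.
-/

set_option autoImplicit false

open HahnSeries IntermediateField AlgebraicCurve ModularCurve

namespace Fermat.Agent.S15.helper3241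

noncomputable section

/-! ## Values of functions at places -/

section ValAt

variable {K F : Type*} [Field K] [Field F] [Algebra K F]

/-- `f` takes the value `a` at the place `v`: `f - a` lies in the maximal ideal of `v`. -/
def ValAt (v : Place K F) (f : F) (a : K) : Prop :=
  v.toValuationSubring.valuation (f - algebraMap K F a) < 1

theorem ord_pos_iff_valuation (v : Place K F) {f : F} :
    0 < v.ord f ↔ f ≠ 0 ∧ v.toValuationSubring.valuation f < 1 := by
  rw [Fermat.Agent.S24.helper1370.ord_pos_iff]
  constructor
  · rintro ⟨h0, hf, hm⟩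
    exact ⟨h0, (ValuationSubring.valuation_lt_one_iff _ ⟨f, hf⟩).mp hm⟩
  · rintro ⟨h0, hlt⟩
    have hf : f ∈ v.toValuationSubring := (ValuationSubring.valuation_le_one_iff _ f).mp hlt.le
    exact ⟨h0, hf, (ValuationSubring.valuation_lt_one_iff _ ⟨f, hf⟩).mpr hlt⟩

theorem ValAt.of_ord_pos {v : Place K F} {f : F} {a : K}
    (h : 0 < v.ord (f - algebraMap K F a)) : ValAt v f a :=
  ((ord_pos_iff_valuation v).mp h).2

theorem ValAt.ord_pos {v : Place K F} {f : F} {a : K} (h : ValAt v f a)
    (hne : f ≠ algebraMap K F a) : 0 < v.ord (f - algebraMap K F a) :=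
  (ord_pos_iff_valuation v).mpr ⟨sub_ne_zero.mpr hne, h⟩

theorem valuation_algebraMap_le_one (v : Place K F) (a : K) :
    v.toValuationSubring.valuation (algebraMap K F a) ≤ 1 :=
  (ValuationSubring.valuation_le_one_iff _ _).mpr (v.algebraMap_mem' a)

theorem valuation_algebraMap_eq_one (v : Place K F) {a : K} (ha : a ≠ 0) :
    v.toValuationSubring.valuation (algebraMap K F a) = 1 := by
  apply le_antisymm (valuation_algebraMap_le_one v a)
  have h := valuation_algebraMap_le_one v a⁻¹
  rw [map_inv₀, map_inv₀] at h
  have hne : v.toValuationSubring.valuation (algebraMap K F a) ≠ 0 :=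
    (map_ne_zero _).mpr ((map_ne_zero _).mpr ha)
  exact (inv_le_one₀ (zero_lt_iff.mpr hne)).mp h

theorem valAt_const (v : Place K F) (a : K) : ValAt v (algebraMap K F a) a := by
  unfold ValAt
  rw [sub_self, map_zero]
  exact zero_lt_one

theorem ValAt.valuation_le_one {v : Place K F} {f : F} {a : K} (h : ValAt v f a) :
    v.toValuationSubring.valuation f ≤ 1 := by
  have h2 : f = (f - algebraMap K F a) + algebraMap K F a := by ring
  rw [h2]
  exact Valuation.map_add_le _ (le_of_lt h) (valuation_algebraMap_le_one v a)

theorem ValAt.mul {v : Place K F} {f g : F} {a b : K} (hf : ValAt v f a) (hg : ValAt v g b) :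
    ValAt v (f * g) (a * b) := by
  have h2 : f * g - algebraMap K F (a * b) =
      (f - algebraMap K F a) * g + algebraMap K F a * (g - algebraMap K F b) := by
    rw [map_mul]; ring
  unfold ValAt
  rw [h2]
  apply Valuation.map_add_lt
  · rw [map_mul]
    calc v.toValuationSubring.valuation (f - algebraMap K F a) * v.toValuationSubring.valuation g
        ≤ v.toValuationSubring.valuation (f - algebraMap K F a) * 1 :=
          mul_le_mul' le_rfl hg.valuation_le_one
      _ < 1 := by rw [mul_one]; exact hf
  · rw [map_mul]
    calc v.toValuationSubring.valuation (algebraMap K F a) *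
          v.toValuationSubring.valuation (g - algebraMap K F b)
        ≤ 1 * v.toValuationSubring.valuation (g - algebraMap K F b) :=
          mul_le_mul' (valuation_algebraMap_le_one v a) le_rfl
      _ < 1 := by rw [one_mul]; exact hg

theorem ValAt.pow {v : Place K F} {f : F} {a : K} (hf : ValAt v f a) (n : ℕ) :
    ValAt v (f ^ n) (a ^ n) := by
  induction n with
  | zero =>
    rw [pow_zero, pow_zero]
    have h := valAt_const v (1 : K)
    rwa [map_one] at h
  | succ n ih =>
    rw [pow_succ, pow_succ]
    exact ih.mul hf

theorem ValAt.inv {v : Place K F} {g : F} {b : K} (hg : ValAt v g b) (hb : b ≠ 0) :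
    ValAt v g⁻¹ b⁻¹ := by
  have hb1 := valuation_algebraMap_eq_one v hb
  have hg1 : v.toValuationSubring.valuation g = 1 := by
    have h2 : g = algebraMap K F b + (g - algebraMap K F b) := by ring
    rw [h2, Valuation.map_add_eq_of_lt_left, hb1]
    rw [hb1]
    exact hg
  have hg0 : g ≠ 0 := by
    rintro rfl
    simp at hg1
  have hb0 : algebraMap K F b ≠ 0 := (map_ne_zero _).mpr hb
  have h3 : g⁻¹ - algebraMap K F b⁻¹ =
      -(g - algebraMap K F b) * (g⁻¹ * (algebraMap K F b)⁻¹) := by
    rw [map_inv₀]
    field_simp
    ring
  unfold ValAt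
  rw [h3, map_mul, map_mul, Valuation.map_neg, map_inv₀, map_inv₀, hg1, hb1, inv_one, mul_one,
    mul_one]
  exact hg

theorem ValAt.div {v : Place K F} {f g : F} {a b : K} (hf : ValAt v f a) (hg : ValAt v g b)
    (hb : b ≠ 0) : ValAt v (f / g) (a / b) := by
  rw [div_eq_mul_inv, div_eq_mul_inv]
  exact hf.mul (hg.inv hb)

end ValAt

/-! ## Conservation for `c⁻¹ f - 1` -/

section Conservation

variable {L : Type*} [Field L] [Algebra ℚ L] {A : ValuationSubring L}
variable {k : Type*} [Field k] {π : A →+* k} {N : ℕ}

theorem mapDomain_apply_eq_sum {α β : Type*} [DecidableEq β] (r : α → β) (D : α →₀ ℤ) (Q : β) :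
    Finsupp.mapDomain r D Q = ∑ P ∈ D.support, if r P = Q then D P else 0 := by
  rw [Finsupp.mapDomain, Finsupp.sum, Finsupp.finsetSum_apply]
  refine Finset.sum_congr rfl fun P _ => ?_
  rw [Finsupp.single_apply]

/-- **Conservation.**  Let `f` have an `A`-integral expansion and let `cinv ∈ A` be a nonzero
element killed by `π`.  The divisor of `cinv * f - 1` is killed by the reduction of divisors. -/
theorem exists_divisor_mapDomain_eq_zero
    [HasPrincipalDivisors L (laurentBaseChange L (modularFunctionFieldFull N))]
    {r : Place L (laurentBaseChange L (modularFunctionFieldFull N)) →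
      Place k (modularFunctionFieldFullC k N)}
    (hr : IsPlaceReductionAlong A π N r)
    (y : LaurentSeries A)
    (hy : coeffMap A.subtype y ∈ laurentBaseChange L (modularFunctionFieldFull N))
    (cinv : A) (hπ : π cinv = 0)
    (hg0 : algebraMap L (laurentBaseChange L (modularFunctionFieldFull N)) (cinv : L) *
      (⟨coeffMap A.subtype y, hy⟩ : laurentBaseChange L (modularFunctionFieldFull N)) - 1 ≠ 0) :
    ∃ D : Divisor L (laurentBaseChange L (modularFunctionFieldFull N)),
      (∀ P : Place L (laurentBaseChange L (modularFunctionFieldFull N)),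
        D P = P.ord (algebraMap L (laurentBaseChange L (modularFunctionFieldFull N)) (cinv : L) *
          (⟨coeffMap A.subtype y, hy⟩ : laurentBaseChange L (modularFunctionFieldFull N)) - 1)) ∧
      ∀ Q, Finsupp.mapDomain r D Q = 0 := by
  classical
  set f : (laurentBaseChange L (modularFunctionFieldFull N)) := ⟨coeffMap A.subtype y, hy⟩ with hf
  set y' : LaurentSeries A := HahnSeries.C cinv * y - 1 with hy'
  have hC : coeffMap A.subtype (HahnSeries.C cinv) = algebraMap L (LaurentSeries L) (cinv : L) := by
    rw [algebraMap_laurentSeries_eq_single]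
    show coeffMap A.subtype (HahnSeries.single 0 cinv) = _
    rw [coeffMap_single]
    rfl
  have hval : coeffMap A.subtype y' =
      ((algebraMap L (laurentBaseChange L (modularFunctionFieldFull N)) (cinv : L) * f - 1 : (laurentBaseChange L (modularFunctionFieldFull N))) : LaurentSeries L) := by
    rw [hy', map_sub, map_mul, map_one, hC]
    rfl
  have hy'mem : coeffMap A.subtype y' ∈ (laurentBaseChange L (modularFunctionFieldFull N)) := by
    rw [hval]; exact SetLike.coe_mem _
  have hred : coeffMap π y' = -1 := by
    have hC' : coeffMap π (HahnSeries.C cinv) = 0 := by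
      show coeffMap π (HahnSeries.single 0 cinv) = 0
      rw [coeffMap_single, hπ, HahnSeries.single_eq_zero]
    rw [hy', map_sub, map_mul, map_one, hC', zero_mul, zero_sub]
  have hredmem : coeffMap π y' ∈ modularFunctionFieldFullC k N := by
    rw [hred]; exact neg_mem (one_mem _)
  have hredne : coeffMap π y' ≠ 0 := by
    rw [hred]; exact neg_ne_zero.mpr one_ne_zero
  obtain ⟨D, hD, -⟩ := HasPrincipalDivisors.exists_divisor (K := L)
    (algebraMap L (laurentBaseChange L (modularFunctionFieldFull N)) (cinv : L) * f - 1) hg0
  have hD' : ∀ P : Place L (laurentBaseChange L (modularFunctionFieldFull N)), D P = P.ord (⟨coeffMap A.subtype y', hy'mem⟩ : (laurentBaseChange L (modularFunctionFieldFull N))) := by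
    intro P
    rw [hD P]
    congr 1
    exact Subtype.ext hval.symm
  refine ⟨D, hD, fun Q => ?_⟩
  rw [hr.2 y' hy'mem hredmem hredne D hD' Q]
  have h1 : (⟨coeffMap π y', hredmem⟩ : modularFunctionFieldFullC k N) =
      algebraMap k (modularFunctionFieldFullC k N) (-1) := by
    apply Subtype.ext
    show coeffMap π y' = algebraMap k (LaurentSeries k) (-1)
    rw [hred, map_neg, map_one]
  rw [h1]
  exact Fermat.Agent.S24.helper1370.ord_algebraMap Q (-1)

/-- **Uniqueness of the zero near a simple pole.**  Let `f` have an `A`-integral expansion and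
let `c` be a constant whose inverse `cinv ∈ A` is killed by `π`.  Assume `f` has a simple pole at
`P₁` and no other pole among the places with the reduction of `P₁`.  Then two places at which
`f = c` and which reduce to `r P₁` are equal. -/
theorem place_eq_of_simple_pole
    [HasPrincipalDivisors L (laurentBaseChange L (modularFunctionFieldFull N))]
    {r : Place L (laurentBaseChange L (modularFunctionFieldFull N)) →
      Place k (modularFunctionFieldFullC k N)}
    (hr : IsPlaceReductionAlong A π N r)
    (y : LaurentSeries A)
    (hy : coeffMap A.subtype y ∈ laurentBaseChange L (modularFunctionFieldFull N))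
    (c : L) (cinv : A) (hc : (cinv : L) * c = 1) (hπ : π cinv = 0)
    (P₁ x x' : Place L (laurentBaseChange L (modularFunctionFieldFull N)))
    (hP₁ : P₁.ord (⟨coeffMap A.subtype y, hy⟩ :
      laurentBaseChange L (modularFunctionFieldFull N)) = -1)
    (hpole : ∀ P : Place L (laurentBaseChange L (modularFunctionFieldFull N)), P ≠ P₁ →
      r P = r P₁ → 0 ≤ P.ord (⟨coeffMap A.subtype y, hy⟩ :
        laurentBaseChange L (modularFunctionFieldFull N)))
    (hx : 0 < x.ord ((⟨coeffMap A.subtype y, hy⟩ :
      laurentBaseChange L (modularFunctionFieldFull N)) -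
        algebraMap L (laurentBaseChange L (modularFunctionFieldFull N)) c))
    (hx' : 0 < x'.ord ((⟨coeffMap A.subtype y, hy⟩ :
      laurentBaseChange L (modularFunctionFieldFull N)) -
        algebraMap L (laurentBaseChange L (modularFunctionFieldFull N)) c))
    (hrx : r x = r P₁) (hrx' : r x' = r P₁) : x = x' := by
  classical
  set f : (laurentBaseChange L (modularFunctionFieldFull N)) := ⟨coeffMap A.subtype y, hy⟩ with hf
  have hc0 : c ≠ 0 := by
    rintro rfl
    simp at hc
  have hcinv : (cinv : L) = c⁻¹ := eq_inv_of_mul_eq_one_left hc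
  have hcinv0 : (cinv : L) ≠ 0 := by rw [hcinv]; exact inv_ne_zero hc0
  have hgeq : algebraMap L (laurentBaseChange L (modularFunctionFieldFull N)) (cinv : L) * f - 1 =
      algebraMap L (laurentBaseChange L (modularFunctionFieldFull N)) (cinv : L) * (f - algebraMap L (laurentBaseChange L (modularFunctionFieldFull N)) c) := by
    rw [mul_sub, ← map_mul, hc, map_one]
  have hfc : f - algebraMap L (laurentBaseChange L (modularFunctionFieldFull N)) c ≠ 0 := by
    intro h0
    rw [h0] at hx
    simp at hx
  have hcu : algebraMap L (laurentBaseChange L (modularFunctionFieldFull N)) (cinv : L) ≠ 0 := (map_ne_zero _).mpr hcinv0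
  have hg0 : algebraMap L (laurentBaseChange L (modularFunctionFieldFull N)) (cinv : L) * f - 1 ≠ 0 := by
    rw [hgeq]; exact mul_ne_zero hcu hfc
  obtain ⟨D, hD, hzero⟩ := exists_divisor_mapDomain_eq_zero hr y hy cinv hπ hg0
  -- `D P = ord_P (f - c)`
  have hDP : ∀ P : Place L (laurentBaseChange L (modularFunctionFieldFull N)), D P = P.ord (f - algebraMap L (laurentBaseChange L (modularFunctionFieldFull N)) c) := by
    intro P
    rw [hD P, hgeq, Fermat.Agent.S24.helper1370.ord_algebraMap_mul P hcinv0]
  have hD1 : D P₁ = -1 := by
    rw [hDP, Fermat.Agent.S24.helper1370.ord_sub_algebraMap_of_ord_neg P₁ (by rw [hP₁]; norm_num),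
      hP₁]
  have hDx : 0 < D x := by rw [hDP]; exact hx
  have hDx' : 0 < D x' := by rw [hDP]; exact hx'
  have hxP : x ≠ P₁ := by
    rintro rfl
    have h1 := Fermat.Agent.S24.helper1370.ord_nonneg_of_ord_sub_algebraMap_pos x hx
    rw [hP₁] at h1
    norm_num at h1
  have hx'P : x' ≠ P₁ := by
    rintro rfl
    have h1 := Fermat.Agent.S24.helper1370.ord_nonneg_of_ord_sub_algebraMap_pos x' hx'
    rw [hP₁] at h1
    norm_num at h1
  by_contra hne
  -- the comparison function
  have hsum := mapDomain_apply_eq_sum r D (r P₁)
  rw [hzero] at hsum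
  have hP₁s : P₁ ∈ D.support := Finsupp.mem_support_iff.mpr (by rw [hD1]; norm_num)
  have hxs : x ∈ D.support := Finsupp.mem_support_iff.mpr (ne_of_gt hDx)
  have hx's : x' ∈ D.support := Finsupp.mem_support_iff.mpr (ne_of_gt hDx')
  have hb : ∑ P ∈ D.support, (((if P = P₁ then (-1 : ℤ) else 0) + (if P = x then 1 else 0)) +
      (if P = x' then 1 else 0)) = 1 := by
    rw [Finset.sum_add_distrib, Finset.sum_add_distrib, Finset.sum_ite_eq', Finset.sum_ite_eq',
      Finset.sum_ite_eq', if_pos hP₁s, if_pos hxs, if_pos hx's]
    norm_num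
  have hle : ∑ P ∈ D.support, (((if P = P₁ then (-1 : ℤ) else 0) + (if P = x then 1 else 0)) +
      (if P = x' then 1 else 0)) ≤ ∑ P ∈ D.support, if r P = r P₁ then D P else 0 := by
    refine Finset.sum_le_sum fun P _ => ?_
    by_cases h1 : P = P₁
    · subst h1
      rw [if_pos rfl, if_neg (Ne.symm hxP), if_neg (Ne.symm hx'P), if_pos rfl, hD1]
      norm_num
    · by_cases h2 : P = x
      · subst h2
        rw [if_neg h1, if_pos rfl, if_neg hne, if_pos hrx]
        omega
      · by_cases h3 : P = x'
        · subst h3
          rw [if_neg h1, if_neg h2, if_pos rfl, if_pos hrx']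
          omega
        · rw [if_neg h1, if_neg h2, if_neg h3]
          split_ifs with h4
          · rw [hDP]
            have := Fermat.Agent.S24.helper1370.ord_sub_algebraMap_nonneg P (hpole P h1 h4) c
            omega
          · norm_num
  rw [hb, ← hsum] at hle
  norm_num at hle

/-- **Separation.**  If a function with `A`-integral expansion has divisor `n (P₀) - n (P₁)` and
its reduction has nonzero order at some place of the reduced function field, then `P₀` and `P₁`
have distinct reductions. -/
theorem reduction_ne_of_divisor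
    {r : Place L (laurentBaseChange L (modularFunctionFieldFull N)) →
      Place k (modularFunctionFieldFullC k N)}
    (hr : IsPlaceReductionAlong A π N r)
    (y : LaurentSeries A)
    (hy : coeffMap A.subtype y ∈ laurentBaseChange L (modularFunctionFieldFull N))
    (hyk : coeffMap π y ∈ modularFunctionFieldFullC k N)
    (P₀ P₁ : Place L (laurentBaseChange L (modularFunctionFieldFull N))) (hne : P₀ ≠ P₁) (n : ℤ)
    (hP₀ : P₀.ord (⟨coeffMap A.subtype y, hy⟩ :
      laurentBaseChange L (modularFunctionFieldFull N)) = n)
    (hP₁ : P₁.ord (⟨coeffMap A.subtype y, hy⟩ :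
      laurentBaseChange L (modularFunctionFieldFull N)) = -n)
    (hother : ∀ P : Place L (laurentBaseChange L (modularFunctionFieldFull N)), P ≠ P₀ → P ≠ P₁ →
      P.ord (⟨coeffMap A.subtype y, hy⟩ :
        laurentBaseChange L (modularFunctionFieldFull N)) = 0)
    (Qk : Place k (modularFunctionFieldFullC k N))
    (hQk : Qk.ord (⟨coeffMap π y, hyk⟩ : modularFunctionFieldFullC k N) ≠ 0) :
    r P₀ ≠ r P₁ := by
  classical
  intro heq
  have hyne : coeffMap π y ≠ 0 := by
    intro h0
    apply hQk
    have : (⟨coeffMap π y, hyk⟩ : modularFunctionFieldFullC k N) = 0 := Subtype.ext h0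
    rw [this, Place.ord_zero]
  set D : Divisor L (laurentBaseChange L (modularFunctionFieldFull N)) := Finsupp.single P₀ n - Finsupp.single P₁ n with hDdef
  have hD : ∀ P : Place L (laurentBaseChange L (modularFunctionFieldFull N)), D P = P.ord (⟨coeffMap A.subtype y, hy⟩ : (laurentBaseChange L (modularFunctionFieldFull N))) := by
    intro P
    rw [hDdef, Finsupp.sub_apply]
    by_cases h0 : P = P₀
    · subst h0
      rw [Finsupp.single_eq_same, Finsupp.single_eq_of_ne hne, hP₀, sub_zero]
    · by_cases h1 : P = P₁
      · subst h1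
        rw [Finsupp.single_eq_of_ne h0, Finsupp.single_eq_same, hP₁, zero_sub]
      · rw [Finsupp.single_eq_of_ne h0, Finsupp.single_eq_of_ne h1, hother P h0 h1, sub_zero]
  have h := hr.2 y hy hyk hyne D hD Qk
  rw [hDdef, Finsupp.mapDomain_sub, Finsupp.mapDomain_single, Finsupp.mapDomain_single, heq,
    sub_self, Finsupp.zero_apply] at h
  exact hQk h.symm

end Conservation

/-! ## Galois transport of values -/

section Galois

variable {L : Type*} [Field L] [Algebra ℚ L] (F₀ : IntermediateField ℚ (LaurentSeries ℚ))

/-- A function with rational expansion keeps its rational values under the arithmetic Galois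
action on places: if `σ • f = f` and `σ c = c`, the order of `f - c` at `σ • x` is its order
at `x`. -/
theorem ord_arithmeticGalois_smul_sub (σ : L ≃ₐ[ℚ] L) (x : Place L (laurentBaseChange L F₀))
    (f : laurentBaseChange L F₀) (hf : arithmeticGalois F₀ σ • f = f) (c : L) (hc : σ c = c) :
    (arithmeticGalois F₀ σ • x).ord (f - algebraMap L (laurentBaseChange L F₀) c) =
      x.ord (f - algebraMap L (laurentBaseChange L F₀) c) := by
  have h := SemilinearAut.ord_smul (arithmeticGalois F₀ σ) x
    (f - algebraMap L (laurentBaseChange L F₀) c)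
  have h2 : arithmeticGalois F₀ σ • (f - algebraMap L (laurentBaseChange L F₀) c) =
      f - algebraMap L (laurentBaseChange L F₀) c := by
    rw [smul_sub, hf]
    congr 1
    have h3 := arithmeticRingAut_algebraMap F₀ σ c
    rw [hc] at h3
    exact h3
  rw [h2] at h
  exact h

end Galois

end

end Fermat.Agent.S15.helper3241
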