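/-
S15 (Mazur block), block [CB] = CUSP + BRIDGE, sub-Spec (helper6647, bridge architect).

Plan of record: findings #3927 (captain helper3201), design #3447 / #3337, decisions
team_s15_chat #126.  Everything is at LEVEL `p`, in Prelude vocabulary.

* `Stmt_CB`      : the Prop consumed by the top Spec (class level): a cuspidal class `c`
                   (nonzero, killed by `p - 1`, Galois-fixed, Eisenstein) and, for the frozen
                   data of S15 together with the assumption to refute (`Q` in the zero component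
                   at `A | ℓ`), a Galois-fixed class `D` whose reduction vanishes at every
                   place over `2` and over `3` and with `D + c` reducing to `0` at `A`.
* `Stmt_CBTwin`  : the twin with the two cusps exchanged (consumed by S12 through the point
                   form `Stmt_G_point`).
* `Stmt_BridgeLine` : the unconditional class-level bridge for a Galois-stable line (the
                   shape `BridgeForLine` of the top-spec layer of helper505, chat #68).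
* leaf Props     : `CuspData p P0 Pinf` (the two cusp places and their class),
                   `Stmt_PlaceBridge p P0 Pinf` (the place `x = (E, ⟨Q⟩)`, Galois-fixed, with
                   its cusp type at every multiplicative prime; LINE form: `⟨Q⟩` Galois-stable),
                   `Stmt_RedInAt` (conservation of number at level `p`; a theorem on main for
                   `ℓ ≥ 5`).
* `stmt_CB_of`, `stmt_CBTwin_of`, `stmt_BridgeLine_of` : the assemblies.

Only Mathlib + Prelude are imported, so every leaf owner can build against this file.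
-/
import Mathlib
import Fermat.Prelude.Def_ModularCurve_ReductionModL
import Fermat.Prelude.Def_ModularCurve_HeckeModule
import Fermat.Prelude.Def_EllipticCurve_ZeroComponentAt
import Fermat.Prelude.Def_FLTPrelim_Ramification

set_option autoImplicit false
set_option synthInstance.maxHeartbeats 400000

open WeierstrassCurve WeierstrassCurve.Affine
open AlgebraicCurve ModularCurve

noncomputable section

namespace Fermat.Agent.S15.helper6647

local notation "Qb" => AlgebraicClosure ℚ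
local notation "GQ" => (AlgebraicClosure ℚ) ≃ₐ[ℚ] (AlgebraicClosure ℚ)

/-! ### Classes of differences of two places -/

section Cls

variable {N : ℕ}

/-- A place of the `ℚ̄`-function field of `X₀(N)` fixed by the arithmetic Galois action. -/
def IsFixedPlace (x : Place Qb (modularFunctionFieldBar N)) : Prop :=
  ∀ σ : GQ, arithmeticGalois (modularFunctionFieldFull N) σ • x = x

theorem single_sub_single_mem_degZero (x y : Place Qb (modularFunctionFieldBar N))
    (h : x.deg = y.deg) :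
    (Finsupp.single x (1 : ℤ) - Finsupp.single y 1 : Divisor Qb (modularFunctionFieldBar N)) ∈
      Divisor.degZero (K := Qb) (F := modularFunctionFieldBar N) := by
  rw [Divisor.mem_degZero, map_sub, Divisor.degree_single, Divisor.degree_single, h, sub_self]

/-- The class of `(x) - (y)` in `J₀(N)`. -/
def clsSub (x y : Place Qb (modularFunctionFieldBar N)) (h : x.deg = y.deg) : JZero N :=
  Pic0.mk ⟨Finsupp.single x 1 - Finsupp.single y 1, single_sub_single_mem_degZero x y h⟩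

theorem clsSub_add_clsSub (x y z : Place Qb (modularFunctionFieldBar N))
    (hxy : x.deg = y.deg) (hyz : y.deg = z.deg) :
    clsSub x y hxy + clsSub y z hyz = clsSub x z (hxy.trans hyz) := by
  unfold clsSub
  rw [← Pic0.mk_add]
  congr 1
  apply Subtype.ext
  simp only [AddMemClass.mk_add_mk]
  abel

theorem clsSub_sub_clsSub (x y z : Place Qb (modularFunctionFieldBar N))
    (hxz : x.deg = z.deg) (hyz : y.deg = z.deg) :
    clsSub x z hxz - clsSub y z hyz = clsSub x y (hxz.trans hyz.symm) := by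
  rw [sub_eq_iff_eq_add, clsSub_add_clsSub]

/-- The class of `(x) - (y)` is Galois-fixed when both places are. -/
theorem galois_smul_clsSub (x y : Place Qb (modularFunctionFieldBar N)) (h : x.deg = y.deg)
    (hx : IsFixedPlace x) (hy : IsFixedPlace y) (σ : GQ) :
    σ • clsSub x y h = clsSub x y h := by
  rw [galois_smul_pic0_def]
  unfold clsSub
  rw [SemilinearAut.pic0_smul_mk]
  congr 1
  apply Subtype.ext
  rw [SemilinearAut.coe_degZeroSMulHom]
  simp only [smul_sub, SemilinearAut.smul_single, hx σ, hy σ]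

/-- If two places have the same reduction (for the place reduction of any conservation datum),
the class of their difference reduces to `0`.  No hypothesis when no datum exists: the Prelude
reduction map is then `0`. -/
theorem reductionModL_clsSub (A : ValuationSubring Qb)
    (x y : Place Qb (modularFunctionFieldBar N)) (h : x.deg = y.deg)
    (hr : ∀ hA : ReductionInputsModL A N, placeReductionModL hA x = placeReductionModL hA y) :
    reductionModL A N (clsSub x y h) = 0 := by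
  by_cases hA : ReductionInputsModL A N
  · unfold clsSub
    rw [reductionModL_mk hA]
    have h0 : reductionDegZeroAlong (placeReductionModL hA)
        (isPlaceReductionModL_placeReductionModL hA).1
        ⟨Finsupp.single x 1 - Finsupp.single y 1, single_sub_single_mem_degZero x y h⟩ = 0 := by
      apply Subtype.ext
      rw [coe_reductionDegZeroAlong]
      simp only [Finsupp.mapDomain_sub, Finsupp.mapDomain_single, hr hA, sub_self,
        ZeroMemClass.coe_zero]
    rw [h0]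
    rfl
  · rw [reductionModL_of_not hA, AddMonoidHom.zero_apply]

end Cls

/-! ### The Props -/

/-- **[CB]** (findings #3927): the cuspidal class and the bridge, class level, for the frozen
data of S15 and the assumption to refute. -/
def Stmt_CB : Prop :=
  ∀ {p : ℕ} [NeZero p] (_hp : p.Prime) (_hp' : p ∉ ({2, 3, 5, 7, 13} : Finset ℕ)),
    ∃ c : JZero p, c ≠ 0 ∧ (p - 1) • c = 0 ∧ (∀ σ : GQ, σ • c = c) ∧
      (∀ q : Nat.Primes, (q : ℕ) ≠ p → heckeOperatorBar p q c = ((q : ℕ) + 1) • c) ∧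
      ∀ (W : WeierstrassCurve ℤ) (_hΔ : W.Δ ≠ 0)
        (Q : ((W.map (Int.castRingHom ℚ))⁄(AlgebraicClosure ℚ)).Point)
        (_hQfix : ∀ σ : AlgebraicClosure ℚ ≃ₐ[ℚ] AlgebraicClosure ℚ, σ • Q = Q)
        (_hQord : addOrderOf Q = p)
        (_h2Δ : (2 : ℤ) ∣ W.Δ) (_h2c₄ : ¬ (2 : ℤ) ∣ W.c₄)
        (_h2 : ∀ A : ValuationSubring (AlgebraicClosure ℚ), A.LiesOverPrime 2 →
          ¬ W.InZeroComponentAt A Q)
        (_h3Δ : (3 : ℤ) ∣ W.Δ) (_h3c₄ : ¬ (3 : ℤ) ∣ W.c₄)
        (_h3 : ∀ A : ValuationSubring (AlgebraicClosure ℚ), A.LiesOverPrime 3 →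
          ¬ W.InZeroComponentAt A Q)
        {ℓ : ℕ} (_hℓ : ℓ.Prime) (_hℓp : ℓ ≠ p) (_hℓΔ : (ℓ : ℤ) ∣ W.Δ) (_hℓc₄ : ¬ (ℓ : ℤ) ∣ W.c₄)
        (A : ValuationSubring (AlgebraicClosure ℚ)) (_hA : A.LiesOverPrime ℓ)
        (_hin : W.InZeroComponentAt A Q),
        ∃ D : JZero p, (∀ σ : GQ, σ • D = D) ∧
          (∀ A₂ : ValuationSubring Qb, A₂.LiesOverPrime 2 → reductionModL A₂ p D = 0) ∧
          (∀ A₃ : ValuationSubring Qb, A₃.LiesOverPrime 3 → reductionModL A₃ p D = 0) ∧
          reductionModL A p (D + c) = 0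

/-- **[CB], twin** (the two cusps exchanged; LINE form `∀ σ, ∃ k, σ • Q = k • Q`, as in
`Fermat.Agent.S12.helper4647.Stmt_G_point`): zero component at `2` and `3`, and the assumption
to refute is `Q` NOT in the zero component at `A | ℓ`. -/
def Stmt_CBTwin : Prop :=
  ∀ {p : ℕ} [NeZero p] (_hp : p.Prime) (_hp' : p ∉ ({2, 3, 5, 7, 13} : Finset ℕ)),
    ∃ c : JZero p, c ≠ 0 ∧ (p - 1) • c = 0 ∧ (∀ σ : GQ, σ • c = c) ∧
      (∀ q : Nat.Primes, (q : ℕ) ≠ p → heckeOperatorBar p q c = ((q : ℕ) + 1) • c) ∧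
      ∀ (W : WeierstrassCurve ℤ) (_hΔ : W.Δ ≠ 0)
        (Q : ((W.map (Int.castRingHom ℚ))⁄(AlgebraicClosure ℚ)).Point)
        (_hQstab : ∀ σ : AlgebraicClosure ℚ ≃ₐ[ℚ] AlgebraicClosure ℚ, ∃ k : ℤ, σ • Q = k • Q)
        (_hQord : addOrderOf Q = p)
        (_h2Δ : (2 : ℤ) ∣ W.Δ) (_h2c₄ : ¬ (2 : ℤ) ∣ W.c₄)
        (_h2 : ∀ A : ValuationSubring (AlgebraicClosure ℚ), A.LiesOverPrime 2 →
          W.InZeroComponentAt A Q)
        (_h3Δ : (3 : ℤ) ∣ W.Δ) (_h3c₄ : ¬ (3 : ℤ) ∣ W.c₄)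
        (_h3 : ∀ A : ValuationSubring (AlgebraicClosure ℚ), A.LiesOverPrime 3 →
          W.InZeroComponentAt A Q)
        {ℓ : ℕ} (_hℓ : ℓ.Prime) (_hℓp : ℓ ≠ p) (_hℓΔ : (ℓ : ℤ) ∣ W.Δ) (_hℓc₄ : ¬ (ℓ : ℤ) ∣ W.c₄)
        (A : ValuationSubring (AlgebraicClosure ℚ)) (_hA : A.LiesOverPrime ℓ)
        (_hout : ¬ W.InZeroComponentAt A Q),
        ∃ D : JZero p, (∀ σ : GQ, σ • D = D) ∧
          (∀ A₂ : ValuationSubring Qb, A₂.LiesOverPrime 2 → reductionModL A₂ p D = 0) ∧
          (∀ A₃ : ValuationSubring Qb, A₃.LiesOverPrime 3 → reductionModL A₃ p D = 0) ∧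
          reductionModL A p (D - c) = 0

/-- **(CUSP)** The two cusp places of `X₀(p)` and their class `c = cls((P0) - (Pinf))`.
Suppliers: END-CUSP (helper5942 `cuspZero`, `cuspInf`, `cuspClass`; helper3638 Hecke). -/
structure CuspData (p : ℕ) [NeZero p] (P0 Pinf : Place Qb (modularFunctionFieldBar p)) :
    Prop where
  deg0 : P0.deg = 1
  degInf : Pinf.deg = 1
  fixed0 : IsFixedPlace P0
  fixedInf : IsFixedPlace Pinf
  ne_zero : ∀ h : P0.deg = Pinf.deg, clsSub P0 Pinf h ≠ 0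
  torsion : ∀ h : P0.deg = Pinf.deg, (p - 1) • clsSub P0 Pinf h = 0
  eis : ∀ (h : P0.deg = Pinf.deg) (q : Nat.Primes), (q : ℕ) ≠ p →
    heckeOperatorBar p q (clsSub P0 Pinf h) = ((q : ℕ) + 1) • clsSub P0 Pinf h

/-- **(BR), place level** for the cusp places `P0` (zero of the unit) and `Pinf` (its pole).
LINE form: for a point `Q` of exact order `p` whose line `⟨Q⟩` is Galois-stable (so a
Galois-fixed `Q` in particular) and ONE anchor: a prime `s₀ ≠ p` of
multiplicative reduction, a place `B₀` over it carrying a conservation datum, with `Q` in the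
zero component at `B₀` — there is a Galois-fixed place `x` of degree one whose reduction is that
of `Pinf` wherever `Q` is in the zero component and that of `P0` wherever it is not, at every
place over every prime `s ≠ p` of multiplicative reduction and for every conservation datum.
Suppliers: MOD (helper1449.exists_tau_stable + helper7155.exists_place_of_tau), VAL
(helper4637_ValXfer), PIN (helper2393_PlaceRed), uniqueness at the anchor (BR-ASM). -/
def Stmt_PlaceBridge (p : ℕ) [NeZero p] (P0 Pinf : Place Qb (modularFunctionFieldBar p)) :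
    Prop :=
  ∀ (W : WeierstrassCurve ℤ) (_hΔ : W.Δ ≠ 0)
    (Q : ((W.map (Int.castRingHom ℚ))⁄(AlgebraicClosure ℚ)).Point)
    (_hQstab : ∀ σ : AlgebraicClosure ℚ ≃ₐ[ℚ] AlgebraicClosure ℚ, ∃ k : ℤ, σ • Q = k • Q)
    (_hQord : addOrderOf Q = p)
    {s₀ : ℕ} (_hs₀ : s₀.Prime) (_hs₀p : s₀ ≠ p) (_hs₀Δ : (s₀ : ℤ) ∣ W.Δ)
    (_hs₀c₄ : ¬ (s₀ : ℤ) ∣ W.c₄)
    (B₀ : ValuationSubring (AlgebraicClosure ℚ)) (_hB₀ : B₀.LiesOverPrime s₀)
    (_h₀ : ReductionInputsModL B₀ p) (_hin : W.InZeroComponentAt B₀ Q),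
    ∃ x : Place Qb (modularFunctionFieldBar p), x.deg = 1 ∧ IsFixedPlace x ∧
      ∀ {s : ℕ}, s.Prime → s ≠ p → (s : ℤ) ∣ W.Δ → ¬ (s : ℤ) ∣ W.c₄ →
        ∀ B : ValuationSubring (AlgebraicClosure ℚ), B.LiesOverPrime s →
          ∀ h : ReductionInputsModL B p,
            (¬ W.InZeroComponentAt B Q → placeReductionModL h x = placeReductionModL h P0) ∧
            (W.InZeroComponentAt B Q → placeReductionModL h x = placeReductionModL h Pinf)

/-- **(RED-IN)** at level `p` over the prime `ℓ`: conservation of number.  On main for `ℓ ≥ 5`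
(S37 `helper3441.latHyp_gauss_j` + `helper1268.reductionInputsModL_of_latHyp`); for
`ℓ ∈ {2, 3}` it is the leaf END-RED-ALL. -/
def Stmt_RedInAt (p ℓ : ℕ) [NeZero p] : Prop :=
  ∀ A : ValuationSubring (AlgebraicClosure ℚ), A.LiesOverPrime ℓ → ReductionInputsModL A p

/-! ### The assemblies -/

/-- **[CB] from its leaves.** -/
theorem stmt_CB_of
    (H : ∀ {p : ℕ} [NeZero p], p.Prime → p ∉ ({2, 3, 5, 7, 13} : Finset ℕ) →
      ∃ P0 Pinf : Place Qb (modularFunctionFieldBar p),
        CuspData p P0 Pinf ∧ Stmt_PlaceBridge p P0 Pinf)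
    (hred : ∀ {p : ℕ} [NeZero p] {ℓ : ℕ}, p.Prime → ℓ.Prime → 5 ≤ ℓ → ℓ ≠ p →
      Stmt_RedInAt p ℓ) :
    Stmt_CB := by
  intro p _ hp hp'
  obtain ⟨P0, Pinf, hc, hbr⟩ := H hp hp'
  have h0inf : P0.deg = Pinf.deg := hc.deg0.trans hc.degInf.symm
  have hp2 : (2 : ℕ) ≠ p := by
    rintro rfl
    exact hp' (by simp)
  have hp3 : (3 : ℕ) ≠ p := by
    rintro rfl
    exact hp' (by simp)
  refine ⟨clsSub P0 Pinf h0inf, hc.ne_zero h0inf, hc.torsion h0inf,
    galois_smul_clsSub P0 Pinf h0inf hc.fixed0 hc.fixedInf, hc.eis h0inf, ?_⟩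
  intro W hΔ Q hQfix hQord h2Δ h2c₄ h2 h3Δ h3c₄ h3 ℓ hℓ hℓp hℓΔ hℓc₄ A hA hin
  have hℓ2 : ℓ ≠ 2 := by
    rintro rfl
    exact h2 A hA hin
  have hℓ3 : ℓ ≠ 3 := by
    rintro rfl
    exact h3 A hA hin
  have hℓ5 : 5 ≤ ℓ := by
    by_contra hlt
    have h4 : ℓ ≠ 4 := by
      rintro rfl
      exact absurd hℓ (by decide)
    have := hℓ.two_le
    omega
  have hRA : ReductionInputsModL A p := hred hp hℓ hℓ5 hℓp A hA
  obtain ⟨x, hxdeg, hxfix, htype⟩ :=
    hbr W hΔ Q (fun σ => ⟨1, by rw [hQfix σ, one_smul]⟩) hQord hℓ hℓp hℓΔ hℓc₄ A hA hRA hin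
  have hx0 : x.deg = P0.deg := hxdeg.trans hc.deg0.symm
  refine ⟨clsSub x P0 hx0, galois_smul_clsSub x P0 hx0 hxfix hc.fixed0, ?_, ?_, ?_⟩
  · intro A₂ hA₂
    exact reductionModL_clsSub A₂ x P0 hx0 fun h =>
      (htype Nat.prime_two hp2 h2Δ h2c₄ A₂ hA₂ h).1 (h2 A₂ hA₂)
  · intro A₃ hA₃
    exact reductionModL_clsSub A₃ x P0 hx0 fun h =>
      (htype Nat.prime_three hp3 h3Δ h3c₄ A₃ hA₃ h).1 (h3 A₃ hA₃)
  · rw [clsSub_add_clsSub x P0 Pinf hx0 h0inf]
    exact reductionModL_clsSub A x Pinf (hx0.trans h0inf) fun h =>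
      (htype hℓ hℓp hℓΔ hℓc₄ A hA h).2 hin

/-- **[CB], twin, from its leaves.**  The anchor of the place bridge is taken at `2`, where the
twin has `Q` in the zero component: this needs conservation of number at level `p` over `2`
(END-RED-ALL) and one valuation subring over `2`. -/
theorem stmt_CBTwin_of
    (H : ∀ {p : ℕ} [NeZero p], p.Prime → p ∉ ({2, 3, 5, 7, 13} : Finset ℕ) →
      ∃ P0 Pinf : Place Qb (modularFunctionFieldBar p),
        CuspData p P0 Pinf ∧ Stmt_PlaceBridge p P0 Pinf)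
    (hred2 : ∀ {p : ℕ} [NeZero p], p.Prime → 2 ≠ p → Stmt_RedInAt p 2)
    (hex2 : ∃ A₂ : ValuationSubring (AlgebraicClosure ℚ), A₂.LiesOverPrime 2) :
    Stmt_CBTwin := by
  intro p _ hp hp'
  obtain ⟨P0, Pinf, hc, hbr⟩ := H hp hp'
  have h0inf : P0.deg = Pinf.deg := hc.deg0.trans hc.degInf.symm
  have hp2 : (2 : ℕ) ≠ p := by
    rintro rfl
    exact hp' (by simp)
  have hp3 : (3 : ℕ) ≠ p := by
    rintro rfl
    exact hp' (by simp)
  refine ⟨clsSub P0 Pinf h0inf, hc.ne_zero h0inf, hc.torsion h0inf,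
    galois_smul_clsSub P0 Pinf h0inf hc.fixed0 hc.fixedInf, hc.eis h0inf, ?_⟩
  intro W hΔ Q hQstab hQord h2Δ h2c₄ h2 h3Δ h3c₄ h3 ℓ hℓ hℓp hℓΔ hℓc₄ A hA hout
  obtain ⟨B₀, hB₀⟩ := hex2
  have hRB : ReductionInputsModL B₀ p := hred2 hp hp2 B₀ hB₀
  obtain ⟨x, hxdeg, hxfix, htype⟩ :=
    hbr W hΔ Q hQstab hQord Nat.prime_two hp2 h2Δ h2c₄ B₀ hB₀ hRB (h2 B₀ hB₀)
  have hxinf : x.deg = Pinf.deg := hxdeg.trans hc.degInf.symm
  refine ⟨clsSub x Pinf hxinf, galois_smul_clsSub x Pinf hxinf hxfix hc.fixedInf, ?_, ?_, ?_⟩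
  · intro A₂ hA₂
    exact reductionModL_clsSub A₂ x Pinf hxinf fun h =>
      (htype Nat.prime_two hp2 h2Δ h2c₄ A₂ hA₂ h).2 (h2 A₂ hA₂)
  · intro A₃ hA₃
    exact reductionModL_clsSub A₃ x Pinf hxinf fun h =>
      (htype Nat.prime_three hp3 h3Δ h3c₄ A₃ hA₃ h).2 (h3 A₃ hA₃)
  · rw [clsSub_sub_clsSub x P0 Pinf hxinf h0inf]
    exact reductionModL_clsSub A x P0 (hxinf.trans h0inf.symm) fun h =>
      (htype hℓ hℓp hℓΔ hℓc₄ A hA h).1 hout

/-! ### The unconditional class-level bridge (shape of helper505's `BridgeForLine`) -/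

/-- **Bridge, class level, unconditional, LINE form**: for every Galois-stable line `⟨Q⟩` of
order `p` there is a Galois-fixed class `D` with `D ↦ 0` wherever `Q` is not in the zero
component and `D + c ↦ 0` wherever it is, at every place over every multiplicative prime
`s ≠ p`. -/
def Stmt_BridgeLine (p : ℕ) [NeZero p] (c : JZero p) : Prop :=
  ∀ (W : WeierstrassCurve ℤ) (_hΔ : W.Δ ≠ 0)
    (Q : ((W.map (Int.castRingHom ℚ))⁄(AlgebraicClosure ℚ)).Point)
    (_hQstab : ∀ σ : AlgebraicClosure ℚ ≃ₐ[ℚ] AlgebraicClosure ℚ, ∃ k : ℤ, σ • Q = k • Q)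
    (_hQord : addOrderOf Q = p),
    ∃ D : JZero p, (∀ σ : GQ, σ • D = D) ∧
      ∀ {s : ℕ}, s.Prime → s ≠ p → (s : ℤ) ∣ W.Δ → ¬ (s : ℤ) ∣ W.c₄ →
        ∀ A : ValuationSubring (AlgebraicClosure ℚ), A.LiesOverPrime s →
          (¬ W.InZeroComponentAt A Q → reductionModL A p D = 0) ∧
          (W.InZeroComponentAt A Q → reductionModL A p (D + c) = 0)

/-- The same for a Galois-fixed point (shape of helper505's `BridgeFor`). -/
def Stmt_Bridge (p : ℕ) [NeZero p] (c : JZero p) : Prop :=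
  ∀ (W : WeierstrassCurve ℤ) (_hΔ : W.Δ ≠ 0)
    (Q : ((W.map (Int.castRingHom ℚ))⁄(AlgebraicClosure ℚ)).Point)
    (_hQfix : ∀ σ : AlgebraicClosure ℚ ≃ₐ[ℚ] AlgebraicClosure ℚ, σ • Q = Q)
    (_hQord : addOrderOf Q = p),
    ∃ D : JZero p, (∀ σ : GQ, σ • D = D) ∧
      ∀ {s : ℕ}, s.Prime → s ≠ p → (s : ℤ) ∣ W.Δ → ¬ (s : ℤ) ∣ W.c₄ →
        ∀ A : ValuationSubring (AlgebraicClosure ℚ), A.LiesOverPrime s →
          (¬ W.InZeroComponentAt A Q → reductionModL A p D = 0) ∧
          (W.InZeroComponentAt A Q → reductionModL A p (D + c) = 0)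

theorem stmt_Bridge_of_line {p : ℕ} [NeZero p] {c : JZero p} (h : Stmt_BridgeLine p c) :
    Stmt_Bridge p c := fun W hΔ Q hQfix hQord =>
  h W hΔ Q (fun σ => ⟨1, by rw [hQfix σ, one_smul]⟩) hQord

/-- **The unconditional bridge from its leaves** (the case split of chat #132): if `Q` is in
the zero component at some place over some multiplicative prime `s ≠ p`, that place is the
anchor and `D = cls((x) - (P0))`; otherwise `D = cls((P0) - (P0))`.  Conservation of number is needed at the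
anchor, which can be any prime `≠ p`. -/
theorem stmt_BridgeLine_of {p : ℕ} [NeZero p]
    {P0 Pinf : Place Qb (modularFunctionFieldBar p)}
    (hc : CuspData p P0 Pinf) (hbr : Stmt_PlaceBridge p P0 Pinf)
    (hred : ∀ {s : ℕ}, s.Prime → s ≠ p → Stmt_RedInAt p s) :
    Stmt_BridgeLine p (clsSub P0 Pinf (hc.deg0.trans hc.degInf.symm)) := by
  have h0inf : P0.deg = Pinf.deg := hc.deg0.trans hc.degInf.symm
  intro W hΔ Q hQstab hQord
  by_cases hex : ∃ (s : ℕ) (B : ValuationSubring (AlgebraicClosure ℚ)), s.Prime ∧ s ≠ p ∧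
      (s : ℤ) ∣ W.Δ ∧ ¬ (s : ℤ) ∣ W.c₄ ∧ B.LiesOverPrime s ∧ W.InZeroComponentAt B Q
  · obtain ⟨s₀, B₀, hs₀, hs₀p, hs₀Δ, hs₀c₄, hB₀, hin⟩ := hex
    obtain ⟨x, hxdeg, hxfix, htype⟩ :=
      hbr W hΔ Q hQstab hQord hs₀ hs₀p hs₀Δ hs₀c₄ B₀ hB₀ (hred hs₀ hs₀p B₀ hB₀) hin
    have hx0 : x.deg = P0.deg := hxdeg.trans hc.deg0.symm
    refine ⟨clsSub x P0 hx0, galois_smul_clsSub x P0 hx0 hxfix hc.fixed0, ?_⟩
    intro s hs hsp hsΔ hsc₄ A hA
    refine ⟨fun hout => ?_, fun hin' => ?_⟩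
    · exact reductionModL_clsSub A x P0 hx0 fun h => (htype hs hsp hsΔ hsc₄ A hA h).1 hout
    · rw [clsSub_add_clsSub x P0 Pinf hx0 h0inf]
      exact reductionModL_clsSub A x Pinf (hx0.trans h0inf) fun h =>
        (htype hs hsp hsΔ hsc₄ A hA h).2 hin'
  · -- no anchor: `D = cls((P0) - (P0)) = 0`
    refine ⟨clsSub P0 P0 rfl, galois_smul_clsSub P0 P0 rfl hc.fixed0 hc.fixed0, ?_⟩
    intro s hs hsp hsΔ hsc₄ A hA
    refine ⟨fun _ => reductionModL_clsSub A P0 P0 rfl fun _ => rfl, fun hin' => ?_⟩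
    exact absurd ⟨s, A, hs, hsp, hsΔ, hsc₄, hA, hin'⟩ hex

end Fermat.Agent.S15.helper6647
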