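import Fermat.Agent.S15.helper3241_BridgeAsm
import Fermat.Agent.S15.helper6647_BridgeSpec

/-!
# S15 moduli bridge: the leaf Props of the `[CB]` sub-Spec  (helper3241)

`helper6647_BridgeSpec` (bridge architect) states the place-level leaf `Stmt_PlaceBridge p P0 Pinf`
and the class-level `Stmt_BridgeLine p c`.  Here, for `P0 = helper5942.cuspZero p hp`,
`Pinf = cuspInf p`:

* `stmt_PlaceBridge`     : `Stmt_PlaceBridge p (cuspZero p hp) (cuspInf p)` — UNCONDITIONAL;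
* `stmt_BridgeLine`      : `Stmt_BridgeLine p (cuspClass p hp)` — UNCONDITIONAL (no RED-IN binder);
* `stmt_Bridge`          : `Stmt_Bridge p (cuspClass p hp)`;
* `cuspData_of_eis`      : `CuspData p (cuspZero p hp) (cuspInf p)` from the Eisenstein property;
* `stmt_CB_of_eis`       : `Stmt_CB` from the Eisenstein property of the cuspidal class alone;
* `stmt_CBTwin_of_eis`   : `Stmt_CBTwin` (the twin for S12) from the same hypothesis alone — no
                           RED-IN binder at `2`, no place over `2`: the class is `D + c`.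
-/

set_option autoImplicit false

namespace Fermat.Agent.S15.helper3241

open AlgebraicCurve ModularCurve WeierstrassCurve WeierstrassCurve.Affine
open Fermat.Agent.S24.helper24 (Kbar FN jBar coe_jBar)
open Fermat.Agent.S18.helper1040 (cuspInf)
open Fermat.Agent.S15.helper5942 (cuspZero oggUnit cuspClass)
open Fermat.Agent.S15.helper6647 (Stmt_PlaceBridge Stmt_BridgeLine Stmt_Bridge CuspData
  IsFixedPlace Stmt_CB Stmt_CBTwin)

/-- **(BR), place level**: the leaf `Stmt_PlaceBridge` of the `[CB]` sub-Spec at the two cusps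
of `X₀(p)`. -/
theorem stmt_PlaceBridge (p : ℕ) [NeZero p] (hp : p.Prime) (hp2 : p ≠ 2) :
    Stmt_PlaceBridge p (cuspZero p hp) (cuspInf p) := by
  intro W hΔ Q hQstab hQord s₀ hs₀ hs₀p hs₀Δ hs₀c₄ B₀ hB₀ h₀ hin
  obtain ⟨u, hu, hU, τ, hj, hΔτ⟩ :=
    Fermat.Agent.S15.helper1449.exists_tau_stable W Q hp hp2 hΔ hQstab hQord
  obtain ⟨x, hxj, hxu⟩ := Fermat.Agent.S15.helper7155.exists_place_of_tau p hp.one_lt τ W.c₄ W.Δ u
    hΔ hu hj hΔτ (jBar p) (oggUnit p hp) (coe_jBar p)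
    (Fermat.Agent.S15.helper5942.coe_oggUnit p hp)
  have hu0eq : algebraMap ℚ Kbar ((p : ℚ) ^ 12 / u) =
      (p : Kbar) ^ 12 /
        Fermat.Agent.S15.helper1449.Uval ((W.map (Int.castRingHom ℚ))⁄(AlgebraicClosure ℚ)) Q p := by
    rw [map_div₀, map_pow, map_natCast, hU]
  have hj0eq : algebraMap ℚ Kbar ((W.c₄ : ℚ) ^ 3 / (W.Δ : ℚ)) =
      ((W.c₄ : ℤ) : Kbar) ^ 3 / ((W.Δ : ℤ) : Kbar) := by
    rw [map_div₀, map_pow, map_intCast, map_intCast]
  have hu0ne : algebraMap ℚ Kbar ((p : ℚ) ^ 12 / u) ≠ 0 :=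
    (map_ne_zero _).mpr (div_ne_zero (pow_ne_zero _ (Nat.cast_ne_zero.mpr hp.ne_zero)) hu)
  have hxg := ord_gFn_sub_pos p hp x _ _ hu0ne hxj hxu
  have hpB₀ : ((p : ℕ) : IsLocalRing.ResidueField B₀) ≠ 0 :=
    Fermat.Agent.S15.helper4637.residue_natCast_ne_zero hp hs₀ hs₀p B₀ hB₀
  have hu0B₀ : algebraMap ℚ Kbar ((p : ℚ) ^ 12 / u) ∉ B₀ := by
    rw [hu0eq]
    exact Fermat.Agent.S15.helper4637.div_Uval_notMem_of_inZero W hp hp2 Q hQord hs₀ hs₀p hs₀c₄
      B₀ hB₀ hΔ hs₀Δ hin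
  refine ⟨x, Fermat.Agent.S37.helper5162.place_deg_eq_one p x, fun σ =>
    galois_smul_place_eq p hp h₀ hpB₀ _ _ (jInv_notMem W hs₀ B₀ hB₀ hs₀Δ hs₀c₄ hΔ) hu0B₀ x hxj hxu
      σ, ?_⟩
  intro s hs hsp hsΔ hsc B hB h
  constructor
  · intro hnin
    refine placeReductionModL_eq_cuspZero p hp h _ ?_ x hxg
    rw [hu0eq, hj0eq, ← div_eq_mul_inv]
    exact Fermat.Agent.S15.helper4637.jpow_div_notMem_of_not_inZero W hp hp2 Q hQord hs hsp hsc B
      hB hΔ hnin
  · intro hin'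
    refine placeReductionModL_eq_cuspInf p hp h _ ?_ x hxu
    rw [hu0eq]
    exact Fermat.Agent.S15.helper4637.div_Uval_notMem_of_inZero W hp hp2 Q hQord hs hsp hsc B hB
      hΔ hsΔ hin'

/-- **Bridge, class level, LINE form** of the `[CB]` sub-Spec, unconditional. -/
theorem stmt_BridgeLine (p : ℕ) [NeZero p] (hp : p.Prime) (hp2 : p ≠ 2) :
    Stmt_BridgeLine p (cuspClass p hp) := by
  intro W hΔ Q hQstab hQord
  obtain ⟨D, hD, h⟩ := bridgeForLine p hp hp2 W hΔ Q hQstab hQord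
  exact ⟨D, hD, fun {s} hs hsp hsΔ hsc A hA => h s hs hsp hsΔ hsc A hA⟩

/-- **Bridge, class level, POINT form** of the `[CB]` sub-Spec, unconditional. -/
theorem stmt_Bridge (p : ℕ) [NeZero p] (hp : p.Prime) (hp2 : p ≠ 2) :
    Stmt_Bridge p (cuspClass p hp) :=
  Fermat.Agent.S15.helper6647.stmt_Bridge_of_line (stmt_BridgeLine p hp hp2)

/-- **(CUSP)** `CuspData` of the `[CB]` sub-Spec for helper5942's cusps, from the Eisenstein
property of the cuspidal class. -/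
theorem cuspData_of_eis (p : ℕ) [NeZero p] (hp : p.Prime)
    (hp' : p ∉ ({2, 3, 5, 7, 13} : Finset ℕ))
    (hEis : ∀ q : Nat.Primes, (q : ℕ) ≠ p →
      heckeOperatorBar p q (cuspClass p hp) = ((q : ℕ) + 1) • cuspClass p hp) :
    CuspData p (cuspZero p hp) (cuspInf p) where
  deg0 := Fermat.Agent.S37.helper5162.place_deg_eq_one p _
  degInf := Fermat.Agent.S37.helper5162.place_deg_eq_one p _
  fixed0 := Fermat.Agent.S15.helper5942.arithmeticGalois_smul_cuspZero p hp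
  fixedInf := Fermat.Agent.S15.helper5942.arithmeticGalois_smul_cuspInf p
  ne_zero := fun _ => Fermat.Agent.S15.helper5942.cuspClass_ne_zero p hp hp'
  torsion := fun _ => Fermat.Agent.S15.helper5942.sub_one_smul_cuspClass p hp
  eis := fun _ => hEis

/-- **[CB]** of the sub-Spec, from the Eisenstein property of the cuspidal class alone. -/
theorem stmt_CB_of_eis
    (hEis : ∀ (p : ℕ) [NeZero p] (hp : p.Prime), p ∉ ({2, 3, 5, 7, 13} : Finset ℕ) →
      ∀ q : Nat.Primes, (q : ℕ) ≠ p →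
        heckeOperatorBar p q (cuspClass p hp) = ((q : ℕ) + 1) • cuspClass p hp) :
    Stmt_CB := by
  intro p _ hp hp'
  have hp2 : p ≠ 2 := by
    rintro rfl
    exact hp' (by simp)
  have hp2' : (2 : ℕ) ≠ p := fun h => hp2 h.symm
  have hp3' : (3 : ℕ) ≠ p := by
    rintro rfl
    exact hp' (by simp)
  refine ⟨cuspClass p hp, Fermat.Agent.S15.helper5942.cuspClass_ne_zero p hp hp',
    Fermat.Agent.S15.helper5942.sub_one_smul_cuspClass p hp,
    Fermat.Agent.S15.helper5942.galois_smul_cuspClass p hp, hEis p hp hp', ?_⟩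
  intro W hΔ Q hQfix hQord h2Δ h2c₄ h2 h3Δ h3c₄ h3 ℓ hℓ hℓp hℓΔ hℓc₄ A hA hin
  obtain ⟨D, hD, hDs⟩ := bridgeFor p hp hp2 W hΔ Q hQfix hQord
  refine ⟨D, hD, fun A₂ hA₂ => ?_, fun A₃ hA₃ => ?_, ?_⟩
  · exact (hDs 2 Nat.prime_two hp2' (by exact_mod_cast h2Δ) (by exact_mod_cast h2c₄) A₂ hA₂).1
      (h2 A₂ hA₂)
  · exact (hDs 3 Nat.prime_three hp3' (by exact_mod_cast h3Δ) (by exact_mod_cast h3c₄) A₃ hA₃).1
      (h3 A₃ hA₃)
  · exact (hDs ℓ hℓ hℓp hℓΔ hℓc₄ A hA).2 hin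

/-- **[CB], twin** of the sub-Spec (consumed by S12), from the Eisenstein property of the
cuspidal class alone: the class is `D + c` for the class `D` of `bridgeForLine`. -/
theorem stmt_CBTwin_of_eis
    (hEis : ∀ (p : ℕ) [NeZero p] (hp : p.Prime), p ∉ ({2, 3, 5, 7, 13} : Finset ℕ) →
      ∀ q : Nat.Primes, (q : ℕ) ≠ p →
        heckeOperatorBar p q (cuspClass p hp) = ((q : ℕ) + 1) • cuspClass p hp) :
    Stmt_CBTwin := by
  intro p _ hp hp'
  have hp2 : p ≠ 2 := by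
    rintro rfl
    exact hp' (by simp)
  have hp2' : (2 : ℕ) ≠ p := fun h => hp2 h.symm
  have hp3' : (3 : ℕ) ≠ p := by
    rintro rfl
    exact hp' (by simp)
  have hcfix := Fermat.Agent.S15.helper5942.galois_smul_cuspClass p hp
  refine ⟨cuspClass p hp, Fermat.Agent.S15.helper5942.cuspClass_ne_zero p hp hp',
    Fermat.Agent.S15.helper5942.sub_one_smul_cuspClass p hp, hcfix, hEis p hp hp', ?_⟩
  intro W hΔ Q hQstab hQord h2Δ h2c₄ h2 h3Δ h3c₄ h3 ℓ hℓ hℓp hℓΔ hℓc₄ A hA hout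
  obtain ⟨D, hD, hDs⟩ := bridgeForLine p hp hp2 W hΔ Q hQstab hQord
  refine ⟨D + cuspClass p hp, fun σ => ?_, fun A₂ hA₂ => ?_, fun A₃ hA₃ => ?_, ?_⟩
  · rw [smul_add, hD σ, hcfix σ]
  · exact (hDs 2 Nat.prime_two hp2' (by exact_mod_cast h2Δ) (by exact_mod_cast h2c₄) A₂ hA₂).2
      (h2 A₂ hA₂)
  · exact (hDs 3 Nat.prime_three hp3' (by exact_mod_cast h3Δ) (by exact_mod_cast h3c₄) A₃ hA₃).2
      (h3 A₃ hA₃)
  · rw [add_sub_cancel_right]
    exact (hDs ℓ hℓ hℓp hℓΔ hℓc₄ A hA).1 hout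

end Fermat.Agent.S15.helper3241
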