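/-
S15 pre-brick (helper3638): the two cusp places of the function field of `X₀(p)`, `p` prime,
in the Prelude vocabulary, by a purely algebraic argument.

`Kbar = ℚ̄`, `FN p = modularFunctionFieldBar p = ℚ̄(j, j_p)`, `j = jBar p`, `j_p = jBarD p p`.

* `cuspInf p = qPlace p` (the `q`-adic place), `cuspZero p = W_p • cuspInf p`
  (`W_p = frickeBar p`, the Fricke involution `j ↔ j_p`);
* `ord_jBar_cuspInf = -1`, `ord_jP_cuspInf = -p`, `ord_jBar_cuspZero = -p`, `ord_jP_cuspZero = -1`;
* `eq_cuspInf_or_eq_cuspZero` : a place with `ord j < 0` is one of the two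
  (degree of the pole divisor of `j` = `[F_p : ℚ̄(j)] = ψ(p) = p + 1 = 1 + p`);
* `ord_jBar_neg_iff_ord_jP_neg`, `cusp_dichotomy`, `eq_cuspInf_iff`, `eq_cuspZero_iff` :
  the two types `ord j_p = p * ord j` (cusp `∞`) and `p * ord j_p = ord j` (cusp `0`).
-/
import Fermat.Agent.S37.helper6887_Fricke
import Fermat.Agent.S18.helper981_FundEq

set_option autoImplicit false

open ModularCurve AlgebraicCurve IntermediateField

noncomputable section

namespace Fermat.Agent.S15.helper3638

open Fermat.Agent.S24.helper24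
open Fermat.Agent.S37.helper9343 (qPlace qPlace_ord qPlace_ord_jBar order_qExpand
  orderTop_coeffEmb_jq coeffEmb_jq_ne_zero jBar_ne_zero)
open Fermat.Agent.S37.helper6887 (frickeBar frickeBar_jBarD frickeBar_frickeBar)

/-! ## Orders of `j(q^d)` at the `q`-adic place -/

theorem order_coeffEmb_jq : (coeffEmb Kbar jq).order = -1 := by
  have h := orderTop_coeffEmb_jq
  rw [← HahnSeries.order_eq_orderTop_of_ne_zero coeffEmb_jq_ne_zero] at h
  exact_mod_cast h

theorem jBarD_ne_zero (N d : ℕ) [NeZero d] (hd : d ∣ N) : jBarD N d hd ≠ 0 := by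
  intro h
  have h1 : ((jBarD N d hd : FN N) : LaurentSeries Kbar) = 0 := by rw [h]; rfl
  rw [Fermat.Agent.S24.helper3176.coe_jBarD, Fermat.Agent.S24.helper3176.jSeries_eq_qExpand] at h1
  exact coeffEmb_jq_ne_zero ((map_eq_zero_iff _ (qExpand_injective d)).mp h1)

/-- `ord_∞ j(q^d) = -d`. -/
theorem qPlace_ord_jBarD (N d : ℕ) [NeZero d] (hd : d ∣ N) :
    (qPlace N).ord (jBarD N d hd) = -(d : ℤ) := by
  rw [qPlace_ord N (jBarD_ne_zero N d hd), Fermat.Agent.S24.helper3176.coe_jBarD,
    Fermat.Agent.S24.helper3176.jSeries_eq_qExpand, order_qExpand d coeffEmb_jq_ne_zero,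
    order_coeffEmb_jq]
  ring

theorem int_mul_mul_ne {a x : ℤ} (ha : 1 < a) (hx : x ≠ 0) : a * (a * x) ≠ x := by
  intro h
  have h1 : (a * a - 1) * x = 0 := by linear_combination h
  have h2 : 0 < a * a - 1 := by nlinarith
  rcases mul_eq_zero.mp h1 with h3 | h3
  · exact h2.ne' h3
  · exact hx h3

theorem dedekindPsi_prime {p : ℕ} (hp : p.Prime) : dedekindPsi p = p + 1 := by
  have h := Fermat.Agent.Lib.helper1356.dedekindPsi_mul_prime_of_not_dvd hp one_ne_zero
    (by rw [Nat.dvd_one]; exact hp.ne_one)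
  rwa [one_mul, dedekindPsi_one, mul_one] at h

/-! ## The two cusp places at prime level -/

section Prime

variable (p : ℕ) [NeZero p]

/-- `j_p = j(q^p)` in the function field of level `p`. -/
def jP : FN p := jBarD p p dvd_rfl

theorem jP_ne_zero : jP p ≠ 0 := jBarD_ne_zero p p dvd_rfl

/-- The cusp `∞`: the `q`-adic place. -/
def cuspInf : Place Kbar (FN p) := qPlace p

/-- The cusp `0`: the Fricke translate of the cusp `∞`. -/
def cuspZero : Place Kbar (FN p) := frickeBar p • qPlace p

theorem frickeBar_jBar : frickeBar p (jBar p) = jP p :=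
  frickeBar_jBarD p 1 p (one_mul p)

theorem frickeBar_jP : frickeBar p (jP p) = jBar p :=
  frickeBar_jBarD p p 1 (mul_one p)

omit [NeZero p] in
theorem ord_jBar_cuspInf : (cuspInf p).ord (jBar p) = -1 := qPlace_ord_jBar p

theorem ord_jP_cuspInf : (cuspInf p).ord (jP p) = -(p : ℤ) := qPlace_ord_jBarD p p dvd_rfl

theorem ord_jBar_cuspZero : (cuspZero p).ord (jBar p) = -(p : ℤ) := by
  have h := Place.ord_smul (frickeBar p) (qPlace p) (jP p)
  rw [frickeBar_jP] at h
  rw [cuspZero, h]
  exact qPlace_ord_jBarD p p dvd_rfl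

theorem ord_jP_cuspZero : (cuspZero p).ord (jP p) = -1 := by
  have h := Place.ord_smul (frickeBar p) (qPlace p) (jBar p)
  rw [frickeBar_jBar] at h
  rw [cuspZero, h]
  exact qPlace_ord_jBar p

theorem frickeBar_smul_cuspInf : frickeBar p • cuspInf p = cuspZero p := rfl

theorem frickeBar_smul_frickeBar_smul (v : Place Kbar (FN p)) :
    frickeBar p • frickeBar p • v = v := by
  rw [← mul_smul]
  have h : frickeBar p * frickeBar p = 1 :=
    AlgEquiv.ext fun z => frickeBar_frickeBar p z
  rw [h, one_smul]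

theorem frickeBar_smul_cuspZero : frickeBar p • cuspZero p = cuspInf p :=
  frickeBar_smul_frickeBar_smul p (qPlace p)

variable {p}

theorem cuspInf_ne_cuspZero (hp : p.Prime) : cuspInf p ≠ cuspZero p := by
  intro h
  have h1 := ord_jBar_cuspInf p
  rw [h, ord_jBar_cuspZero] at h1
  have : (p : ℤ) = 1 := by linarith
  exact hp.one_lt.ne' (by exact_mod_cast this)

/-- **The cusps of `X₀(p)`**: a place at which `j` has a pole is `∞` or `0`. -/
theorem eq_cuspInf_or_eq_cuspZero (hp : p.Prime) (v : Place Kbar (FN p))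
    (hv : v.ord (jBar p) < 0) : v = cuspInf p ∨ v = cuspZero p := by
  classical
  by_contra hcon
  push Not at hcon
  obtain ⟨hv1, hv2⟩ := hcon
  have hdeg : ∀ w : Place Kbar (FN p), w.deg = 1 :=
    Fermat.Agent.S37.helper5162.place_deg_eq_one p
  obtain ⟨B, hB⟩ := Fermat.Agent.S18.helper981.exists_poleDivisor (K := Kbar) (jBar_ne_zero p)
  have hBdeg := Fermat.Agent.S18.helper981.degree_poleDivisor_eq_finrank hdeg (cuspInf p)
    (jBar p) (Fermat.Agent.S24.helper3176.transcendental_jBar p) B hB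
  rw [Fermat.Agent.S37.helper6887.finrank_jBar, dedekindPsi_prime hp] at hBdeg
  set E : Divisor Kbar (FN p) :=
    Finsupp.single (cuspInf p) 1 + Finsupp.single (cuspZero p) (p : ℤ) + Finsupp.single v 1
    with hE
  have hEB : E ≤ B := by
    rw [Finsupp.le_def]
    intro w
    rw [hE, Finsupp.add_apply, Finsupp.add_apply, hB w]
    by_cases h1 : w = cuspInf p
    · subst h1
      rw [Finsupp.single_eq_same, Finsupp.single_eq_of_ne (cuspInf_ne_cuspZero hp),
        Finsupp.single_eq_of_ne (Ne.symm hv1), ord_jBar_cuspInf]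
      norm_num
    · by_cases h2 : w = cuspZero p
      · subst h2
        rw [Finsupp.single_eq_of_ne h1, Finsupp.single_eq_same,
          Finsupp.single_eq_of_ne (Ne.symm hv2), ord_jBar_cuspZero]
        simp
      · by_cases h3 : w = v
        · subst h3
          rw [Finsupp.single_eq_of_ne h1, Finsupp.single_eq_of_ne h2, Finsupp.single_eq_same]
          have : 1 ≤ -(w.ord (jBar p)) := by omega
          simp only [zero_add]
          exact le_max_of_le_right this
        · rw [Finsupp.single_eq_of_ne h1, Finsupp.single_eq_of_ne h2,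
            Finsupp.single_eq_of_ne h3]
          simp
  have hnn : 0 ≤ Divisor.degree (B - E) :=
    Fermat.Agent.S18.helper981.degree_nonneg hdeg (sub_nonneg.mpr hEB)
  rw [map_sub, hBdeg, hE, map_add, map_add, Divisor.degree_single, Divisor.degree_single,
    Divisor.degree_single, hdeg, hdeg, hdeg] at hnn
  push_cast at hnn
  linarith

/-- A pole of `j_p` is a pole of `j`. -/
theorem ord_jBar_neg_of_ord_jP_neg (hp : p.Prime) (v : Place Kbar (FN p))
    (hv : v.ord (jP p) < 0) : v.ord (jBar p) < 0 := by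
  have h := Place.ord_smul (frickeBar p) v (jP p)
  rw [frickeBar_jP] at h
  have h' : (frickeBar p • v).ord (jBar p) < 0 := by rw [h]; exact hv
  rcases eq_cuspInf_or_eq_cuspZero hp _ h' with h1 | h1
  · have h2 : v = cuspZero p := by
      rw [← frickeBar_smul_frickeBar_smul p v, h1]; rfl
    rw [h2, ord_jBar_cuspZero]
    have := hp.pos
    omega
  · have h2 : v = cuspInf p := by
      rw [← frickeBar_smul_frickeBar_smul p v, h1, frickeBar_smul_cuspZero]
    rw [h2, ord_jBar_cuspInf]
    norm_num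

/-- A pole of `j` is a pole of `j_p`. -/
theorem ord_jP_neg_of_ord_jBar_neg (hp : p.Prime) (v : Place Kbar (FN p))
    (hv : v.ord (jBar p) < 0) : v.ord (jP p) < 0 := by
  rcases eq_cuspInf_or_eq_cuspZero hp v hv with h | h
  · rw [h, ord_jP_cuspInf]
    have := hp.pos
    omega
  · rw [h, ord_jP_cuspZero]
    norm_num

/-- **Dichotomy**: at a pole of `j`, either `ord j_p = p * ord j` (cusp `∞`) or
`p * ord j_p = ord j` (cusp `0`). -/
theorem cusp_dichotomy (hp : p.Prime) (v : Place Kbar (FN p)) (hv : v.ord (jBar p) < 0) :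
    (v = cuspInf p ∧ v.ord (jP p) = (p : ℤ) * v.ord (jBar p)) ∨
      (v = cuspZero p ∧ (p : ℤ) * v.ord (jP p) = v.ord (jBar p)) := by
  rcases eq_cuspInf_or_eq_cuspZero hp v hv with h | h
  · left
    refine ⟨h, ?_⟩
    rw [h, ord_jP_cuspInf, ord_jBar_cuspInf]
    ring
  · right
    refine ⟨h, ?_⟩
    rw [h, ord_jP_cuspZero, ord_jBar_cuspZero]
    ring

theorem eq_cuspInf_iff (hp : p.Prime) (v : Place Kbar (FN p)) (hv : v.ord (jBar p) < 0) :
    v = cuspInf p ↔ v.ord (jP p) = (p : ℤ) * v.ord (jBar p) := by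
  constructor
  · intro h
    rw [h, ord_jP_cuspInf, ord_jBar_cuspInf]
    ring
  · intro h
    rcases cusp_dichotomy hp v hv with ⟨h1, -⟩ | ⟨-, h2⟩
    · exact h1
    · exfalso
      rw [h] at h2
      have hp1 : (1 : ℤ) < p := by exact_mod_cast hp.one_lt
      exact int_mul_mul_ne hp1 hv.ne h2

theorem eq_cuspZero_iff (hp : p.Prime) (v : Place Kbar (FN p)) (hv : v.ord (jBar p) < 0) :
    v = cuspZero p ↔ (p : ℤ) * v.ord (jP p) = v.ord (jBar p) := by
  constructor
  · intro h
    rw [h, ord_jP_cuspZero, ord_jBar_cuspZero]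
    ring
  · intro h
    rcases cusp_dichotomy hp v hv with ⟨-, h1⟩ | ⟨h2, -⟩
    · exfalso
      rw [h1] at h
      have hp1 : (1 : ℤ) < p := by exact_mod_cast hp.one_lt
      exact int_mul_mul_ne hp1 hv.ne h
    · exact h2

/-! ## The dichotomy along an algebra homomorphism into another function field -/

section Along

variable {L : Type*} [Field L] [Algebra Kbar L]

theorem ramificationIndexAlong_pos {F F' : Type*} [Field F] [Field F'] [Algebra Kbar F]
    [Algebra Kbar F'] (φ : F →ₐ[Kbar] F') (hφ : φ.toRingHom.IsIntegral) (w : Place Kbar F') :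
    0 < Place.ramificationIndexAlong φ w := by
  let _ := algebraAlong φ
  have := isScalarTower_along φ
  have := isIntegral_along φ hφ
  exact w.ramificationIndex_pos (F := F)

/-- Along an integral algebra hom `φ : F_p → L`, a place `w` of `L` at which `φ j` has a pole
restricts to a cusp, and the orders of `φ j`, `φ j_p` are in ratio `p` or `1/p`. -/
theorem along_dichotomy (hp : p.Prime) (φ : FN p →ₐ[Kbar] L) (hφ : φ.toRingHom.IsIntegral)
    (w : Place Kbar L) (hw : w.ord (φ (jBar p)) < 0) :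
    (w.restrictAlong φ hφ = cuspInf p ∧ w.ord (φ (jP p)) = (p : ℤ) * w.ord (φ (jBar p))) ∨
      (w.restrictAlong φ hφ = cuspZero p ∧ (p : ℤ) * w.ord (φ (jP p)) = w.ord (φ (jBar p))) := by
  have he := ramificationIndexAlong_pos φ hφ w
  have h1 := Place.ord_restrictAlong φ hφ w (jBar p)
  have h2 := Place.ord_restrictAlong φ hφ w (jP p)
  have hv : (w.restrictAlong φ hφ).ord (jBar p) < 0 := by
    by_contra hcon
    push Not at hcon
    rw [h1] at hw
    have : (0 : ℤ) ≤ (Place.ramificationIndexAlong φ w : ℤ) * (w.restrictAlong φ hφ).ord (jBar p) :=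
      mul_nonneg (Int.natCast_nonneg _) hcon
    omega
  rcases cusp_dichotomy hp _ hv with ⟨h, h3⟩ | ⟨h, h3⟩
  · left
    refine ⟨h, ?_⟩
    rw [h1, h2, h3]
    ring
  · right
    refine ⟨h, ?_⟩
    rw [h1, h2, ← h3]
    ring

/-- Along `φ`, a pole of `φ j_p` is a pole of `φ j`. -/
theorem along_ord_jBar_neg (hp : p.Prime) (φ : FN p →ₐ[Kbar] L) (hφ : φ.toRingHom.IsIntegral)
    (w : Place Kbar L) (hw : w.ord (φ (jP p)) < 0) : w.ord (φ (jBar p)) < 0 := by
  have he := ramificationIndexAlong_pos φ hφ w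
  have h1 := Place.ord_restrictAlong φ hφ w (jBar p)
  have h2 := Place.ord_restrictAlong φ hφ w (jP p)
  have hv : (w.restrictAlong φ hφ).ord (jP p) < 0 := by
    by_contra hcon
    push Not at hcon
    rw [h2] at hw
    have : (0 : ℤ) ≤ (Place.ramificationIndexAlong φ w : ℤ) * (w.restrictAlong φ hφ).ord (jP p) :=
      mul_nonneg (Int.natCast_nonneg _) hcon
    omega
  have hv' := ord_jBar_neg_of_ord_jP_neg hp _ hv
  rw [h1]
  have he' : (0 : ℤ) < (Place.ramificationIndexAlong φ w : ℤ) := by exact_mod_cast he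
  exact mul_neg_of_pos_of_neg he' hv'

end Along

end Prime

end Fermat.Agent.S15.helper3638
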