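/-
S15 pre-brick (helper3638): the Hecke correspondence `T_q` on the cusp places of `X₀(p)`,
`p ≠ q` primes, by a purely algebraic argument (no cusp enumeration of `X₀(pq)`).

* `heckeDivBar_single_cusp` : for a place `v` of `F_p` with `ord_v j < 0`,
  `T_q [v] = (q + 1) • [v]` on divisors (`heckeDivBar = α_* β^*`);
* `heckeOperatorBar_cusp_sub` : for two such places `v, v'`,
  `heckeOperatorBar p q (class (v - v')) = (q + 1) • class (v - v')`  (Eisenstein relation).

Design.  In `F_{pq}` the four functions `J₁ = j`, `J_p = j(q^p)`, `J_q = j(q^q)`, `J_{pq}`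
are the images of `(j, j_p)` under `α, β : F_p → F_{pq}` and of `(j, j_q)` under
`a, b : F_q → F_{pq}`.  At a place `w` with `w(J₁) < 0` the prime-level dichotomy
(`helper3638_CuspPlaces.along_dichotomy`) gives `w(J_p)/w(J₁), w(J_{pq})/w(J_q) ∈ {p, 1/p}` and
`w(J_q)/w(J₁), w(J_{pq})/w(J_p) ∈ {q, 1/q}`; unique factorisation forces the `α`-type and the
`β`-type of `w` to agree.  Hence every place in the `β`-fibre of a cusp `v` restricts along `α`
to `v`, and the multiplicity is the degree `[F_{pq} : β F_p] = q + 1`.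
-/
import Fermat.Agent.S15.helper3638_CuspPlaces
import Fermat.Agent.S37.helper5162_HeckeUnfold
import Fermat.Agent.S37.helper9343_BetaDegree

set_option autoImplicit false
set_option linter.unusedSectionVars false

open ModularCurve AlgebraicCurve IntermediateField

noncomputable section

namespace Fermat.Agent.S15.helper3638

open Fermat.Agent.S24.helper24
open Fermat.Agent.S37.helper5162 (heckeAlphaBarIntegral heckeBetaBarIntegral)

/-! ## Integer lemma: the two types agree -/

/-- If `x_p = p x₁` and `p x_{pq} = x_q`, the `q`-relations are contradictory. -/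
theorem type_mismatch {p q x1 xp xq xpq : ℤ} (hp : 1 < p) (hq : 1 < q) (hpq : p ≠ q)
    (hx : x1 ≠ 0) (hA : xp = p * x1) (hB : p * xpq = xq)
    (hC : xq = q * x1 ∨ q * xq = x1) (hD : xpq = q * xp ∨ q * xpq = xp) : False := by
  have hp0 : p ≠ 0 := by omega
  have hq0 : q ≠ 0 := by omega
  have hpp : p * p - 1 ≠ 0 := by nlinarith
  rcases hC with hC | hC <;> rcases hD with hD | hD
  · -- q x1 = p^2 q x1
    have h : (p * p - 1) * q * x1 = 0 := by
      linear_combination hB + hC - p * hD - p * q * hA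
    rcases mul_eq_zero.mp h with h | h
    · rcases mul_eq_zero.mp h with h | h
      · exact hpp h
      · exact hq0 h
    · exact hx h
  · -- q^2 x1 = p^2 x1
    have h : (q - p) * (q + p) * x1 = 0 := by
      linear_combination (-q) * hB - q * hC + p * hD + p * hA
    rcases mul_eq_zero.mp h with h | h
    · rcases mul_eq_zero.mp h with h | h
      · exact hpq (by omega)
      · omega
    · exact hx h
  · -- x1 = p^2 q^2 x1
    have h : (p * p * q * q - 1) * x1 = 0 := by
      linear_combination q * hB + hC - p * q * hD - p * q * q * hA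
    have hne : p * p * q * q - 1 ≠ 0 := by nlinarith [mul_pos (by omega : (0:ℤ) < p) (by omega : (0:ℤ) < q)]
    rcases mul_eq_zero.mp h with h | h
    · exact hne h
    · exact hx h
  · -- x1 = p^2 x1
    have h : (p * p - 1) * x1 = 0 := by
      linear_combination (-p) * hA + q * hB + hC - p * hD
    rcases mul_eq_zero.mp h with h | h
    · exact hpp h
    · exact hx h

/-! ## The four functions `J₁, J_p, J_q, J_{pq}` of `F_{pq}` and the four maps -/

theorem coe_jBarD_eq (N d : ℕ) [NeZero d] (hd : d ∣ N) :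
    ((jBarD N d hd : FN N) : LaurentSeries Kbar) = qExpand Kbar d (coeffEmb Kbar jq) := by
  rw [Fermat.Agent.S24.helper3176.coe_jBarD, Fermat.Agent.S24.helper3176.jSeries_eq_qExpand]

theorem coe_jBar_eq (N : ℕ) :
    ((jBar N : FN N) : LaurentSeries Kbar) = qExpand Kbar 1 (coeffEmb Kbar jq) :=
  coe_jBarD_eq N 1 (one_dvd N)

section Maps

variable (p q : ℕ) [NeZero p] [NeZero q]

/-- The inclusion `F_q → F_{pq}`. -/
def inclQ : FN q →ₐ[Kbar] FN (p * q) :=
  IntermediateField.inclusion
    (Fermat.Agent.S37.helper9343.modularFunctionFieldBar_mono (dvd_mul_left q p))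

/-- The identification `F_{qp} → F_{pq}`. -/
def castQP : FN (q * p) →ₐ[Kbar] FN (p * q) :=
  IntermediateField.inclusion (le_of_eq (congrArg modularFunctionFieldBar (mul_comm q p)))

/-- `f(q) ↦ f(q^p)` as a map `F_q → F_{pq}`. -/
def betaQ : FN q →ₐ[Kbar] FN (p * q) :=
  (castQP p q).comp (heckeBetaBar Kbar q p)

omit [NeZero p] [NeZero q] in
theorem coe_inclQ (x : FN q) : ((inclQ p q x : FN (p * q)) : LaurentSeries Kbar) = x :=
  IntermediateField.coe_inclusion _ x

omit [NeZero p] [NeZero q] in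
theorem coe_castQP (x : FN (q * p)) : ((castQP p q x : FN (p * q)) : LaurentSeries Kbar) = x :=
  IntermediateField.coe_inclusion _ x

omit [NeZero q] in
theorem coe_betaQ (x : FN q) :
    ((betaQ p q x : FN (p * q)) : LaurentSeries Kbar) = qExpand Kbar p (x : LaurentSeries Kbar) := by
  rw [betaQ, AlgHom.comp_apply, coe_castQP, coe_heckeBetaBar]

omit [NeZero p] [NeZero q] in
theorem castQP_surjective : Function.Surjective (castQP p q) := by
  intro y
  have h : modularFunctionFieldBar (p * q) = modularFunctionFieldBar (q * p) :=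
    congrArg modularFunctionFieldBar (mul_comm p q)
  have hy : (y : LaurentSeries Kbar) ∈ modularFunctionFieldBar (q * p) := by
    rw [← h]
    exact y.2
  refine ⟨⟨(y : LaurentSeries Kbar), hy⟩, Subtype.ext ?_⟩
  rw [coe_castQP]

/-- `J_p = j(q^p)` in `F_{pq}`. -/
def Jp : FN (p * q) := jBarD (p * q) p (dvd_mul_right p q)

/-- `J_q = j(q^q)` in `F_{pq}`. -/
def Jq : FN (p * q) := jBarD (p * q) q (dvd_mul_left q p)

/-- `J_{pq} = j(q^{pq})` in `F_{pq}`. -/
def Jpq : FN (p * q) := jBarD (p * q) (p * q) dvd_rfl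

theorem alpha_jBar : heckeAlphaBar Kbar p q (jBar p) = jBar (p * q) := by
  apply Subtype.ext
  rw [coe_heckeAlphaBar, coe_jBar_eq, coe_jBar_eq]

theorem alpha_jP : heckeAlphaBar Kbar p q (jP p) = Jp p q := by
  apply Subtype.ext
  rw [coe_heckeAlphaBar, jP, coe_jBarD_eq, Jp, coe_jBarD_eq]

theorem beta_jBar : heckeBetaBar Kbar p q (jBar p) = Jq p q := by
  apply Subtype.ext
  rw [coe_heckeBetaBar, coe_jBar_eq, Jq, coe_jBarD_eq, qExpand_qExpand]
  exact qExpand_congr (mul_one q) _

theorem beta_jP : heckeBetaBar Kbar p q (jP p) = Jpq p q := by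
  apply Subtype.ext
  rw [coe_heckeBetaBar, jP, coe_jBarD_eq, Jpq, coe_jBarD_eq, qExpand_qExpand]
  exact qExpand_congr (mul_comm q p) _

theorem inclQ_jBar : inclQ p q (jBar q) = jBar (p * q) := by
  apply Subtype.ext
  rw [coe_inclQ, coe_jBar_eq, coe_jBar_eq]

theorem inclQ_jP : inclQ p q (jP q) = Jq p q := by
  apply Subtype.ext
  rw [coe_inclQ, jP, coe_jBarD_eq, Jq, coe_jBarD_eq]

theorem betaQ_jBar : betaQ p q (jBar q) = Jp p q := by
  apply Subtype.ext
  rw [coe_betaQ, coe_jBar_eq, Jp, coe_jBarD_eq, qExpand_qExpand]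
  exact qExpand_congr (mul_one p) _

theorem betaQ_jP : betaQ p q (jP q) = Jpq p q := by
  apply Subtype.ext
  rw [coe_betaQ, jP, coe_jBarD_eq, Jpq, coe_jBarD_eq, qExpand_qExpand]

theorem inclQ_isIntegral : (inclQ p q).toRingHom.IsIntegral := by
  have : FiniteDimensional Kbar⟮inclQ p q (jBar q)⟯ (FN (p * q)) := by
    rw [inclQ_jBar]
    infer_instance
  exact Fermat.Agent.S37.helper5162.isIntegral_of_finiteAlong _
    (Fermat.Agent.S37.helper5162.finiteAlong_of_finiteDimensional (inclQ p q) (jBar q))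

theorem betaQ_isIntegral : (betaQ p q).toRingHom.IsIntegral :=
  RingHom.IsIntegral.trans _ _ (heckeBetaBarIntegral q p)
    (RingHom.isIntegral_of_surjective _ (castQP_surjective p q))

end Maps

/-! ## `T_q` on the cusp places -/

section Hecke

variable {p q : ℕ} [NeZero p] [NeZero q]

/-- **Key step**: a place of `F_{pq}` lying over a cusp `v` of `F_p` along `β` (`q ↦ q^q`) lies
over the same `v` along the inclusion `α`. -/
theorem restrictAlong_alpha_eq_of_beta (hp : p.Prime) (hq : q.Prime) (hpq : p ≠ q)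
    (v : Place Kbar (FN p)) (hv : v.ord (jBar p) < 0) (W : Place Kbar (FN (p * q)))
    (hW : W.restrictAlong (heckeBetaBar Kbar p q) (heckeBetaBarIntegral p q) = v) :
    W.restrictAlong (heckeAlphaBar Kbar p q) (heckeAlphaBarIntegral p q) = v := by
  have hp1 : (1 : ℤ) < p := by exact_mod_cast hp.one_lt
  have hq1 : (1 : ℤ) < q := by exact_mod_cast hq.one_lt
  have hpq' : (p : ℤ) ≠ q := by exact_mod_cast hpq
  have hxq : W.ord (Jq p q) < 0 := by
    have h := Place.ord_restrictAlong (heckeBetaBar Kbar p q) (heckeBetaBarIntegral p q) W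
      (jBar p)
    rw [beta_jBar, hW] at h
    rw [h]
    have he : (0 : ℤ) < (Place.ramificationIndexAlong (heckeBetaBar Kbar p q) W : ℤ) := by
      exact_mod_cast ramificationIndexAlong_pos _ (heckeBetaBarIntegral p q) W
    exact mul_neg_of_pos_of_neg he hv
  have hx1 : W.ord (jBar (p * q)) < 0 := by
    have h := along_ord_jBar_neg hq (inclQ p q) (inclQ_isIntegral p q) W
      (by rw [inclQ_jP]; exact hxq)
    rwa [inclQ_jBar] at h
  have hA := along_dichotomy hp (heckeAlphaBar Kbar p q) (heckeAlphaBarIntegral p q) W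
    (by rw [alpha_jBar]; exact hx1)
  rw [alpha_jBar, alpha_jP] at hA
  have hB := along_dichotomy hp (heckeBetaBar Kbar p q) (heckeBetaBarIntegral p q) W
    (by rw [beta_jBar]; exact hxq)
  rw [beta_jBar, beta_jP, hW] at hB
  have hC := along_dichotomy hq (inclQ p q) (inclQ_isIntegral p q) W
    (by rw [inclQ_jBar]; exact hx1)
  rw [inclQ_jBar, inclQ_jP] at hC
  have hxp : W.ord (Jp p q) < 0 := by
    rcases hA with ⟨-, h⟩ | ⟨-, h⟩
    · rw [h]
      exact mul_neg_of_pos_of_neg (by omega) hx1
    · by_contra hcon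
      push Not at hcon
      have := mul_nonneg (by omega : (0 : ℤ) ≤ p) hcon
      omega
  have hD := along_dichotomy hq (betaQ p q) (betaQ_isIntegral p q) W
    (by rw [betaQ_jBar]; exact hxp)
  rw [betaQ_jBar, betaQ_jP] at hD
  have hC' : W.ord (Jq p q) = (q : ℤ) * W.ord (jBar (p * q)) ∨
      (q : ℤ) * W.ord (Jq p q) = W.ord (jBar (p * q)) := by
    rcases hC with ⟨-, h⟩ | ⟨-, h⟩
    · exact Or.inl h
    · exact Or.inr h
  have hD' : W.ord (Jpq p q) = (q : ℤ) * W.ord (Jp p q) ∨
      (q : ℤ) * W.ord (Jpq p q) = W.ord (Jp p q) := by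
    rcases hD with ⟨-, h⟩ | ⟨-, h⟩
    · exact Or.inl h
    · exact Or.inr h
  rcases hA with ⟨hA1, hA2⟩ | ⟨hA1, hA2⟩ <;> rcases hB with ⟨hB1, hB2⟩ | ⟨hB1, hB2⟩
  · rw [hA1, hB1]
  · exact (type_mismatch hp1 hq1 hpq' hx1.ne hA2 hB2 hC' hD').elim
  · exact (type_mismatch hp1 hq1 hpq' hxp.ne hA2.symm hB2.symm hD' hC').elim
  · rw [hA1, hB1]

/-- `[F_{pq} : β F_p] = q + 1`. -/
theorem finrankAlong_beta (hp : p.Prime) (hq : q.Prime) (hpq : p ≠ q) :
    finrankAlong Kbar (heckeBetaBar Kbar p q) = q + 1 := by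
  have h := Fermat.Agent.S37.helper6887.finrankAlong_heckeBetaBar p q
  rw [Fermat.Agent.Lib.helper1356.dedekindPsi_mul_prime_of_not_dvd hq (NeZero.ne p)
    (fun hd => hpq ((Nat.prime_dvd_prime_iff_eq hq hp).mp hd).symm), dedekindPsi_prime hp] at h
  have h0 : 0 < p + 1 := by omega
  exact Nat.eq_of_mul_eq_mul_left h0 (by rw [h]; ring)

/-- **`T_q` on a cusp place**: `T_q [v] = (q + 1) [v]` for every place `v` of `F_p` with
`ord_v j < 0`. -/
theorem heckeDivBar_single_cusp (hp : p.Prime) (hq : q.Prime) (hpq : p ≠ q)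
    (v : Place Kbar (FN p)) (hv : v.ord (jBar p) < 0) :
    heckeDivBar (heckeAlphaBarIntegral p q) (heckeBetaBarIntegral p q) (Finsupp.single v 1)
      = Finsupp.single v ((q : ℤ) + 1) := by
  classical
  have h1 := Fermat.Agent.S37.helper5162.heckeDivBar_single p q v 1
  have h2 : ∑ W ∈ Place.fiberAlong (heckeBetaBar Kbar p q) (heckeBetaBarIntegral p q) v,
        Finsupp.single (W.restrictAlong (heckeAlphaBar Kbar p q) (heckeAlphaBarIntegral p q))
          ((1 : ℤ) * (W.ramificationIndexAlong (heckeBetaBar Kbar p q) : ℤ))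
      = Finsupp.single v
          (∑ W ∈ Place.fiberAlong (heckeBetaBar Kbar p q) (heckeBetaBarIntegral p q) v,
            ((1 : ℤ) * (W.ramificationIndexAlong (heckeBetaBar Kbar p q) : ℤ))) := by
    rw [Finsupp.single_finsetSum]
    refine Finset.sum_congr rfl fun W hW => ?_
    rw [restrictAlong_alpha_eq_of_beta hp hq hpq v hv W (Place.mem_fiberAlong.mp hW)]
  rw [h2] at h1
  have h3 := Fermat.Agent.S37.helper5162.degree_heckeDivBar p q (Finsupp.single v 1)
  rw [h1, Divisor.degree_single, Divisor.degree_single,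
    Fermat.Agent.S37.helper5162.place_deg_eq_one p v, finrankAlong_beta hp hq hpq] at h3
  rw [h1]
  congr 1
  push_cast at h3
  linarith

/-- The degree-zero divisor `[v] - [v']`. -/
def subDiv (v v' : Place Kbar (FN p)) : Divisor.degZero (K := Kbar) (F := FN p) :=
  ⟨Finsupp.single v 1 - Finsupp.single v' 1, by
    rw [Divisor.mem_degZero, map_sub, Divisor.degree_single, Divisor.degree_single,
      Fermat.Agent.S37.helper5162.place_deg_eq_one p v,
      Fermat.Agent.S37.helper5162.place_deg_eq_one p v']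
    ring⟩

theorem coe_subDiv (v v' : Place Kbar (FN p)) :
    ((subDiv v v' : Divisor.degZero (K := Kbar) (F := FN p)) : Divisor Kbar (FN p))
      = Finsupp.single v 1 - Finsupp.single v' 1 := rfl

/-- **Eisenstein relation on cuspidal classes**: for places `v, v'` of `F_p` at which `j` has a
pole, `T_q (class ([v] - [v'])) = (q + 1) • class ([v] - [v'])` in `J₀(p)`, `q ≠ p` prime. -/
theorem heckeOperatorBar_cusp_sub (hp : p.Prime) (hq : q.Prime) (hpq : p ≠ q)
    (v v' : Place Kbar (FN p)) (hv : v.ord (jBar p) < 0) (hv' : v'.ord (jBar p) < 0) :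
    heckeOperatorBar p ⟨q, hq⟩ (Pic0.mk (subDiv v v'))
      = ((q : ℤ) + 1) • (Pic0.mk (subDiv v v') : JZero p) := by
  have h := Fermat.Agent.S37.helper5162.heckeOperatorBar_mk p ⟨q, hq⟩ (subDiv v v')
  have key : Pic0.degZeroCorrespondence (heckeBetaBar Kbar p q) (heckeAlphaBar Kbar p q)
      (heckeBetaBarIntegral p q) (heckeAlphaBarIntegral p q)
      (Fermat.Agent.S37.helper8426.fundamentalIdentityAlong_heckeBetaBar p q) (subDiv v v')
        = ((q : ℤ) + 1) • subDiv v v' := by
    apply Subtype.ext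
    rw [Fermat.Agent.S37.helper5162.coe_degZeroCorrespondence_hecke, AddSubgroup.coe_zsmul,
      coe_subDiv, map_sub, heckeDivBar_single_cusp hp hq hpq v hv,
      heckeDivBar_single_cusp hp hq hpq v' hv', smul_sub, Finsupp.smul_single,
      Finsupp.smul_single, smul_eq_mul, mul_one]
  rw [h, key]
  rfl

end Hecke

end Fermat.Agent.S15.helper3638

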