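/-
S15 pre-brick (P1) (helper3): THE FREE HALF FOR NON-TORSION POINTS.

Route #3289 / #3317 / #3364 of the Mazur block: for `τ` in the inertia group of a valuation
subring `A` of `ℚ̄` and ANY point `y` of `J₀(M)` such that `n • y` is fixed by `τ` (e.g. `n • y`
rational), the `n`-torsion point `τ y - y` lies in the toric part

  `K^∞_n ⊓ K^0_n = helper1687.kInfty A M n ⊓ helper1687.kZero A M n W`

(the carriers of the S35 geometry leaf `helper2039.Stmt_TorFrob`).  For torsion `y` this is the
landed `helper1687.inertia_sub_mem_inf`; the point here is that `y` need not be torsion.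

* `kummer_smul_div_self` : abstract form.  If `n E - D = div u` and `g D = D` then `g u / u` is
  `n`-Kummer with class `g [E] - [E]`.
* `inertia_sub_mem_inf_of_fixed_divisor` : the statement with an explicit `τ`-fixed divisor `D`
  in the class `n • y`.
* `exists_fixed_divisor_of_smul_eq` : a class fixed by ONE semilinear automorphism `g` which
  fixes the cusp `∞` contains a `g`-fixed divisor (landed S17 reduced divisors, `helper3753`).
* `inertia_sub_mem_inf_of_smul_eq` : (P1) with the hypothesis `τ • (n • y) = n • y` only.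
* `inertia_sub_mem_inf_atkinLehner`, `inertia_sub_mem_inf_atkinLehner_of_fixed` : the instance
  `W = helper1073.atkinLehnerBar M q` (`q ∥ M`), i.e. literally the two hypotheses of
  `Stmt_TorFrob`.

No hypothesis relates `n`, `M` and the residue characteristic of `A`.
-/
import Fermat.Agent.S35.helper1687_UqCong
import Fermat.Agent.S35.helper1073_AtkinLehnerSwap
import Fermat.Agent.S17.helper3753_RedStab

set_option autoImplicit false

open ModularCurve AlgebraicCurve

namespace Fermat.Agent.S15.helper3

noncomputable section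

open Fermat.Agent.S29.helper8217
open Fermat.Agent.S35.helper1687

local notation "Kbar" => AlgebraicClosure ℚ
local notation "GQ" => (AlgebraicClosure ℚ ≃ₐ[ℚ] AlgebraicClosure ℚ)

/-! ### Abstract form -/

section Abstract

variable {K F : Type*} [Field K] [Field F] [Algebra K F]

/-- If `n E - D = div u` and `g D = D`, then `div (g u / u) = n (g E - E)`. -/
theorem ord_smul_div_self (g : SemilinearAut K F) (E D : Divisor K F) (hD : g • D = D) {n : ℕ}
    {u : F} (hu : u ≠ 0) (hE : ∀ v : Place K F, (n : ℤ) * E v - D v = v.ord u)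
    (v : Place K F) : v.ord (g • u / u) = (n : ℤ) * ((g • E) v - E v) := by
  have hgu : g • u ≠ 0 := by
    rw [SemilinearAut.smul_def]
    exact (map_ne_zero _).mpr hu
  have h1 : v.ord (g • u) = (n : ℤ) * (g • E) v - D v := by
    have h := SemilinearAut.ord_smul g (g⁻¹ • v) u
    rw [smul_inv_smul] at h
    have hDv : D v = D (g⁻¹ • v) := by
      conv_lhs => rw [← hD]
      rw [SemilinearAut.divisor_smul_apply]
    rw [h, ← hE (g⁻¹ • v), SemilinearAut.divisor_smul_apply, hDv]
  rw [div_eq_mul_inv, v.ord_mul hgu (inv_ne_zero hu), v.ord_inv, h1, ← hE v]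
  ring

variable [HasPrincipalDivisors K F]

/-- **(P1), abstract form.**  If `n E - D = div u` with `D` fixed by `g`, then `g u / u` is an
`n`-Kummer element whose class is `g [E] - [E]`. -/
theorem kummer_smul_div_self {n : ℕ} (hn : n ≠ 0) (g : SemilinearAut K F)
    (E D : Divisor.degZero (K := K) (F := F)) (hD : g • (D : Divisor K F) = D) {u : F}
    (hu : u ≠ 0)
    (hE : ∀ v : Place K F, (n : ℤ) * (E : Divisor K F) v - (D : Divisor K F) v = v.ord u) :
    IsKummer K n (g • u / u) ∧ kummerClass K n (g • u / u) = g • Pic0.mk E - Pic0.mk E := by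
  have hgu : g • u ≠ 0 := by
    rw [SemilinearAut.smul_def]
    exact (map_ne_zero _).mpr hu
  have hne : g • u / u ≠ 0 := div_ne_zero hgu hu
  obtain ⟨hk, hdiv⟩ := isKummer_of_zsmul_eq (K := K) hn hne
    (D := g • (E : Divisor K F) - (E : Divisor K F))
    (fun v => by
      rw [Finsupp.sub_apply]
      exact (ord_smul_div_self g (E : Divisor K F) (D : Divisor K F) hD hu hE v).symm)
  refine ⟨hk, ?_⟩
  rw [kummerClass_eq_mk_of_eq hk (SemilinearAut.degZeroSMulHom g E - E)
    (by rw [AddSubgroup.coe_sub, SemilinearAut.coe_degZeroSMulHom]; exact hdiv.symm),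
    SemilinearAut.pic0_smul_mk]
  rfl

omit [HasPrincipalDivisors K F] in
/-- A relation `n • [E] = [D]` in `Pic0` gives a function `u` with `n E - D = div u`. -/
theorem exists_function_of_zsmul_mk_eq {n : ℕ} (E D : Divisor.degZero (K := K) (F := F))
    (h : (n : ℤ) • Pic0.mk E = Pic0.mk D) :
    ∃ u : F, u ≠ 0 ∧
      ∀ v : Place K F, (n : ℤ) * (E : Divisor K F) v - (D : Divisor K F) v = v.ord u := by
  have h0 : Pic0.mk ((n : ℤ) • E - D) = 0 := by
    have h1 : Pic0.mk ((n : ℤ) • E - D) = (n : ℤ) • Pic0.mk E - Pic0.mk D := rfl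
    rw [h1, h, sub_self]
  rw [mk_eq_zero_iff] at h0
  obtain ⟨u, hu, hord⟩ := h0
  refine ⟨u, hu, fun v => ?_⟩
  rw [← hord v]
  simp

end Abstract

/-! ### The modular statement -/

section Modular

variable {A : ValuationSubring Kbar} {M n : ℕ} [NeZero M]

/-- **(P1) with an explicit fixed divisor.**  `τ` in the inertia group of `A`, `W` a
`ℚ̄`-automorphism of `F_M` commuting with the arithmetic Galois action, `y ∈ J₀(M)` arbitrary,
`D` a degree-zero divisor fixed by `τ` with `n • y = [D]`.  Then `τ y - y ∈ K^∞_n ⊓ K^0_n`. -/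
theorem inertia_sub_mem_inf_of_fixed_divisor {τ : GQ} (hτ : τ ∈ A.inertiaSubgroupIn ℚ)
    (W : modularFunctionFieldBar M ≃ₐ[Kbar] modularFunctionFieldBar M)
    (hW : ∀ (σ : GQ) (z : modularFunctionFieldBar M),
      W (arithmeticGalois (modularFunctionFieldFull M) σ • z) =
        arithmeticGalois (modularFunctionFieldFull M) σ • W z)
    (hn : n ≠ 0) (y : JZero M)
    (D : Divisor.degZero (K := Kbar) (F := modularFunctionFieldBar M))
    (hD : arithmeticGalois (modularFunctionFieldFull M) τ •
      (D : Divisor Kbar (modularFunctionFieldBar M)) = D)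
    (hy : (n : ℤ) • y = Pic0.mk D) :
    τ • y - y ∈ kInfty A M n ⊓ kZero A M n W := by
  obtain ⟨E, rfl⟩ := Pic0.mk_surjective y
  obtain ⟨u, hu, hE⟩ := exists_function_of_zsmul_mk_eq E D hy
  obtain ⟨hk, hcls⟩ := kummer_smul_div_self hn
    (arithmeticGalois (modularFunctionFieldFull M) τ) E D hD hu hE
  rw [galois_smul_pic0_def, ← hcls]
  have hτu : arithmeticGalois (modularFunctionFieldFull M) τ • u ≠ 0 := by
    rw [SemilinearAut.smul_def]
    exact (map_ne_zero _).mpr hu
  have hconst : ∀ c : Kbar, c ≠ 0 →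
      IsKummer Kbar n (algebraMap Kbar (modularFunctionFieldBar M) c) := fun c hc =>
    isKummer_of_ord_eq_zero n ((map_ne_zero _).mpr hc) (fun v => ord_algebraMap v c)
  -- the common shape of the two representatives
  have key : ∀ c : Kbar, c ≠ 0 →
      IsKummer Kbar n ((arithmeticGalois (modularFunctionFieldFull M) τ • u) /
        (algebraMap Kbar (modularFunctionFieldBar M) c * u)) ∧
      kummerClass Kbar n ((arithmeticGalois (modularFunctionFieldFull M) τ • u) /
        (algebraMap Kbar (modularFunctionFieldBar M) c * u)) =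
      kummerClass Kbar n ((arithmeticGalois (modularFunctionFieldFull M) τ • u) / u) := by
    intro c hc
    have hc' : algebraMap Kbar (modularFunctionFieldBar M) c ≠ 0 := (map_ne_zero _).mpr hc
    have e : (arithmeticGalois (modularFunctionFieldFull M) τ • u) /
        (algebraMap Kbar (modularFunctionFieldBar M) c * u) =
        ((arithmeticGalois (modularFunctionFieldFull M) τ • u) / u) /
          algebraMap Kbar (modularFunctionFieldBar M) c := by
      field_simp
    rw [e]
    refine ⟨hk.div (hconst c hc), ?_⟩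
    rw [kummerClass_div hk (hconst c hc), kummerClass_algebraMap, sub_zero]
  refine AddSubgroup.mem_inf.mpr ⟨?_, ?_⟩
  · obtain ⟨c, hc, ho⟩ := exists_isOneAt_inertia (A := A) hτ hu
    exact ⟨_, (key c hc).1, ho, (key c hc).2⟩
  · rw [mem_kZero_iff_exists]
    have hWu : W.symm u ≠ 0 := (map_ne_zero _).mpr hu
    obtain ⟨c, hc, ho⟩ := exists_isOneAt_inertia (A := A) hτ hWu
    refine ⟨_, (key c hc).1, ?_, (key c hc).2⟩
    have hcomm : W.symm (arithmeticGalois (modularFunctionFieldFull M) τ • u) =
        arithmeticGalois (modularFunctionFieldFull M) τ • W.symm u := by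
      rw [AlgEquiv.symm_apply_eq, hW, AlgEquiv.apply_symm_apply]
    have e : W.symm ((arithmeticGalois (modularFunctionFieldFull M) τ • u) /
        (algebraMap Kbar (modularFunctionFieldBar M) c * u)) =
        (arithmeticGalois (modularFunctionFieldFull M) τ • W.symm u) /
          (algebraMap Kbar (modularFunctionFieldBar M) c * W.symm u) := by
      rw [map_div₀, map_mul, hcomm, AlgEquiv.commutes]
    rw [e]
    exact ho

end Modular

/-! ### Fixed divisors in fixed classes, and the rational forms -/

section Rational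

variable {M : ℕ} [NeZero M]

/-- A class of `J₀(M)` fixed by the arithmetic Galois action of ONE `τ ∈ G_ℚ` contains a divisor
of degree zero fixed by `τ` (the reduced divisor relative to the cusp `∞`, landed S17). -/
theorem exists_fixed_divisor_of_smul_eq (τ : GQ) (z : JZero M) (hz : τ • z = z) :
    ∃ D : Divisor.degZero (K := Kbar) (F := modularFunctionFieldBar M),
      arithmeticGalois (modularFunctionFieldFull M) τ •
        (D : Divisor Kbar (modularFunctionFieldBar M)) = D ∧ z = Pic0.mk D := by
  have := Fermat.Agent.S29.helper36.finiteDimensional_jL Kbar M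
  have hp : Fermat.Agent.S17.helper1298.RedPkg Kbar (modularFunctionFieldBar M) :=
    Fermat.Agent.S17.helper1298.redPkg_of_finite (Fermat.Agent.S29.helper36.jL Kbar M)
      (Fermat.Agent.S29.helper36.transcendental_jL Kbar M)
  have hs : arithmeticGalois (modularFunctionFieldFull M) τ •
      Fermat.Agent.S29.helper36.qPlaceL Kbar M = Fermat.Agent.S29.helper36.qPlaceL Kbar M :=
    Fermat.Agent.S17.helper3753.arithmeticGalois_smul_qPlaceL Kbar M τ
  have hz' : arithmeticGalois (modularFunctionFieldFull M) τ • z = z := by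
    rw [← galois_smul_pic0_def]
    exact hz
  obtain ⟨B, -, -, -, hB, hcls⟩ := Fermat.Agent.S17.helper3753.exists_stable_rep hp
    (arithmeticGalois (modularFunctionFieldFull M) τ) hs hz'
  have hdeg : B - Divisor.degree B • Fermat.Agent.S27.helper6247.pt
      (Fermat.Agent.S29.helper36.qPlaceL Kbar M) ∈
      Divisor.degZero (K := Kbar) (F := modularFunctionFieldBar M) :=
    Divisor.mem_degZero.mpr
      (Fermat.Agent.S17.helper1298.degree_sub_degree_smul_pt hp.deg _ B)
  refine ⟨⟨_, hdeg⟩, ?_, ?_⟩
  · show arithmeticGalois (modularFunctionFieldFull M) τ •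
      (B - Divisor.degree B • Fermat.Agent.S27.helper6247.pt
        (Fermat.Agent.S29.helper36.qPlaceL Kbar M)) = _
    have h4 : arithmeticGalois (modularFunctionFieldFull M) τ •
        (Divisor.degree B • Fermat.Agent.S27.helper6247.pt
          (Fermat.Agent.S29.helper36.qPlaceL Kbar M)) =
        Divisor.degree B • (arithmeticGalois (modularFunctionFieldFull M) τ •
          Fermat.Agent.S27.helper6247.pt (Fermat.Agent.S29.helper36.qPlaceL Kbar M)) :=
      map_zsmul (DistribSMul.toAddMonoidHom (Divisor Kbar (modularFunctionFieldBar M))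
        (arithmeticGalois (modularFunctionFieldFull M) τ)) _ _
    rw [smul_sub, hB, h4, Fermat.Agent.S17.helper1298.smul_pt, hs]
  · rw [hcls]
    unfold Fermat.Agent.S27.helper6247.cls
    rw [dif_pos hdeg]

variable {A : ValuationSubring Kbar} {n : ℕ}

/-- **(P1), the free half for non-torsion points.**  `τ` in the inertia group of `A`, `W` a
`ℚ̄`-automorphism of `F_M` commuting with the arithmetic Galois action, and `y ∈ J₀(M)` ANY point
such that `n • y` is fixed by `τ`.  Then `τ y - y ∈ K^∞_n ⊓ K^0_n`. -/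
theorem inertia_sub_mem_inf_of_smul_eq {τ : GQ} (hτ : τ ∈ A.inertiaSubgroupIn ℚ)
    (W : modularFunctionFieldBar M ≃ₐ[Kbar] modularFunctionFieldBar M)
    (hW : ∀ (σ : GQ) (z : modularFunctionFieldBar M),
      W (arithmeticGalois (modularFunctionFieldFull M) σ • z) =
        arithmeticGalois (modularFunctionFieldFull M) σ • W z)
    (hn : n ≠ 0) (y : JZero M) (hy : τ • ((n : ℤ) • y) = (n : ℤ) • y) :
    τ • y - y ∈ kInfty A M n ⊓ kZero A M n W := by
  obtain ⟨D, hD, hcls⟩ := exists_fixed_divisor_of_smul_eq τ ((n : ℤ) • y) hy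
  exact inertia_sub_mem_inf_of_fixed_divisor hτ W hW hn y D hD hcls

/-- (P1) for a point `y` with `n • y` rational (fixed by all of `G_ℚ`). -/
theorem inertia_sub_mem_inf_of_fixed {τ : GQ} (hτ : τ ∈ A.inertiaSubgroupIn ℚ)
    (W : modularFunctionFieldBar M ≃ₐ[Kbar] modularFunctionFieldBar M)
    (hW : ∀ (σ : GQ) (z : modularFunctionFieldBar M),
      W (arithmeticGalois (modularFunctionFieldFull M) σ • z) =
        arithmeticGalois (modularFunctionFieldFull M) σ • W z)
    (hn : n ≠ 0) (y : JZero M) (hy : ∀ σ : GQ, σ • ((n : ℤ) • y) = (n : ℤ) • y) :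
    τ • y - y ∈ kInfty A M n ⊓ kZero A M n W :=
  inertia_sub_mem_inf_of_smul_eq hτ W hW hn y (hy τ)

/-- **(P1) for the Atkin–Lehner involution** `W_q`, `q ∥ M`: the two membership hypotheses of
`S35.helper2039.Stmt_TorFrob`, for `τ y - y` with `y` ANY point such that `τ (n y) = n y`. -/
theorem inertia_sub_mem_inf_atkinLehner {q : ℕ} (hq : q.Prime) (hqM : q ∣ M) (hq2 : ¬ q ^ 2 ∣ M)
    {τ : GQ} (hτ : τ ∈ A.inertiaSubgroupIn ℚ) (hn : n ≠ 0) (y : JZero M)
    (hy : τ • ((n : ℤ) • y) = (n : ℤ) • y) :
    τ • y - y ∈ kInfty A M n ∧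
      τ • y - y ∈ kZero A M n (Fermat.Agent.S35.helper1073.atkinLehnerBar M q hq hqM hq2) :=
  AddSubgroup.mem_inf.mp (inertia_sub_mem_inf_of_smul_eq hτ _
    (fun σ z => Fermat.Agent.S35.helper1073.atkinLehnerBar_arithmeticGalois_smul M q hq hqM hq2
      σ z) hn y hy)

/-- (P1) for `W_q` and a point `y` with `n • y` rational. -/
theorem inertia_sub_mem_inf_atkinLehner_of_fixed {q : ℕ} (hq : q.Prime) (hqM : q ∣ M)
    (hq2 : ¬ q ^ 2 ∣ M) {τ : GQ} (hτ : τ ∈ A.inertiaSubgroupIn ℚ) (hn : n ≠ 0) (y : JZero M)
    (hy : ∀ σ : GQ, σ • ((n : ℤ) • y) = (n : ℤ) • y) :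
    τ • y - y ∈ kInfty A M n ∧
      τ • y - y ∈ kZero A M n (Fermat.Agent.S35.helper1073.atkinLehnerBar M q hq hqM hq2) :=
  inertia_sub_mem_inf_atkinLehner hq hqM hq2 hτ hn y (hy τ)

omit [NeZero M] in
/-- The torsion order: `τ y - y` is killed by `n` as soon as `τ (n y) = n y`. -/
theorem zsmul_inertia_sub_eq_zero {τ : GQ} (y : JZero M)
    (hy : τ • ((n : ℤ) • y) = (n : ℤ) • y) : (n : ℤ) • (τ • y - y) = 0 := by
  have h : τ • ((n : ℤ) • y) = (n : ℤ) • (τ • y) :=
    map_zsmul (DistribMulAction.toAddMonoidHom (JZero M) τ) _ _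
  rw [zsmul_sub, ← h, hy, sub_self]

end Rational

end

end Fermat.Agent.S15.helper3
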