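/-
Index forms of the (BND) assembly for the Mazur block (S15), abstract and Mathlib-only, on top
of `CasselsCore` / `FlagCount` / `BoundAsm`: the same tables and counts, with the conclusion
stated as the inequality of indices

  `cokIdx G ⊥ (F L) ≠ 0 ∧ cokIdx G ⊥ (F L) ≤ r ^ B' * kerIdx G ⊥ (F L)`

(for `B' = 0`: `cokIdx G ⊥ W ≤ kerIdx G ⊥ W`, the hypothesis of the level-one descent
`helper2063.exists_decomp_one_bot`; no `r ^ k`-torsion hypothesis on the flag is needed).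
-/
import Fermat.Agent.S15.helper4190_BoundAsm

set_option autoImplicit false

namespace Fermat.Agent.S15.helper4190

section IndexForms

variable {G : Type*} {J : Type*} [Group G] [AddCommGroup J] [DistribMulAction G J]

/-- (I0) Exponent form: step bounds `cokIdx ≤ r ^ a i`, `r ^ e i ≤ kerIdx` with
`∑ a ≤ ∑ e + B'` along a stable flag from `⊥` with finite top. -/
theorem cokIdx_bot_le_of_chain {r : ℕ} (hr : 0 < r) (F : ℕ → AddSubgroup J)
    (hmono : Monotone F) (hst : ∀ i, IsStable G (F i)) (h0 : F 0 = ⊥) (L : ℕ)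
    [Finite ↥(F L)] (a e : ℕ → ℕ) (B' : ℕ)
    (hcok0 : ∀ i < L, cokIdx G (F i) (F (i + 1)) ≠ 0)
    (hcok : ∀ i < L, cokIdx G (F i) (F (i + 1)) ≤ r ^ a i)
    (hker : ∀ i < L, r ^ e i ≤ kerIdx G (F i) (F (i + 1)))
    (hsum : ∑ i ∈ Finset.range L, a i ≤ ∑ i ∈ Finset.range L, e i + B') :
    cokIdx G (⊥ : AddSubgroup J) (F L) ≠ 0 ∧
      cokIdx G (⊥ : AddSubgroup J) (F L) ≤ r ^ B' * kerIdx G (⊥ : AddSubgroup J) (F L) := by
  have hchain := cokIdx_bot_chain F hmono hst h0 L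
  rw [kerIdx_bot]
  set c := cokIdx G (⊥ : AddSubgroup J) (F L) with hc
  set N := Nat.card ↥(relInv G (⊥ : AddSubgroup J) ⊓ F L) with hN
  have hNpos : 0 < N := by
    have hle : relInv G (⊥ : AddSubgroup J) ⊓ F L ≤ F L := inf_le_right
    have : Finite ↥(relInv G (⊥ : AddSubgroup J) ⊓ F L) :=
      Finite.of_injective (AddSubgroup.inclusion hle) (AddSubgroup.inclusion_injective hle)
    exact Nat.card_pos
  have hcokprod0 : (∏ i ∈ Finset.range L, cokIdx G (F i) (F (i + 1))) ≠ 0 :=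
    Finset.prod_ne_zero_iff.mpr (fun i hi => hcok0 i (Finset.mem_range.mp hi))
  have hcokprod : (∏ i ∈ Finset.range L, cokIdx G (F i) (F (i + 1))) ≤
      r ^ ∑ i ∈ Finset.range L, a i := by
    rw [← Finset.prod_pow_eq_pow_sum]
    exact Finset.prod_le_prod' (fun i hi => hcok i (Finset.mem_range.mp hi))
  have hkerprod : r ^ ∑ i ∈ Finset.range L, e i ≤
      ∏ i ∈ Finset.range L, kerIdx G (F i) (F (i + 1)) := by
    rw [← Finset.prod_pow_eq_pow_sum]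
    exact Finset.prod_le_prod' (fun i hi => hker i (Finset.mem_range.mp hi))
  refine ⟨?_, ?_⟩
  · intro h
    rw [h, zero_mul] at hchain
    exact (Nat.mul_ne_zero hNpos.ne' hcokprod0) hchain.symm
  · have h1 : c * r ^ ∑ i ∈ Finset.range L, e i ≤
        (r ^ B' * N) * r ^ ∑ i ∈ Finset.range L, e i := by
      calc c * r ^ ∑ i ∈ Finset.range L, e i
          ≤ c * ∏ i ∈ Finset.range L, kerIdx G (F i) (F (i + 1)) :=
            Nat.mul_le_mul_left c hkerprod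
        _ = N * ∏ i ∈ Finset.range L, cokIdx G (F i) (F (i + 1)) := hchain
        _ ≤ N * r ^ ∑ i ∈ Finset.range L, a i := Nat.mul_le_mul_left N hcokprod
        _ ≤ N * r ^ (∑ i ∈ Finset.range L, e i + B') :=
            Nat.mul_le_mul_left _ (Nat.pow_le_pow_right hr hsum)
        _ = (r ^ B' * N) * r ^ ∑ i ∈ Finset.range L, e i := by
            rw [pow_add]; ring
    exact Nat.le_of_mul_le_mul_right h1 (Nat.pow_pos hr)

/-- (I1, `r` odd table) index form of `pow_smul_mem_of_table`. -/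
theorem cokIdx_bot_le_of_table {r : ℕ} (hr : r.Prime) (F : ℕ → AddSubgroup J)
    (hmono : Monotone F) (hst : ∀ i, IsStable G (F i)) (h0 : F 0 = ⊥) (L : ℕ)
    [Finite ↥(F L)] (triv tor : ℕ → Prop)
    (hcok0 : ∀ i < L, cokIdx G (F i) (F (i + 1)) ≠ 0)
    (hnt : ∀ i < L, ¬ tor i → cokIdx G (F i) (F (i + 1)) ≤ 1)
    (ht : ∀ i < L, tor i → cokIdx G (F i) (F (i + 1)) ≤ r)
    (hker0 : ∀ i < L, kerIdx G (F i) (F (i + 1)) ≠ 0)
    (hker : ∀ i < L, triv i → r ≤ kerIdx G (F i) (F (i + 1)))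
    (B' : ℕ)
    (hcount : Set.ncard {i | i < L ∧ tor i} ≤ Set.ncard {i | i < L ∧ triv i} + B') :
    cokIdx G (⊥ : AddSubgroup J) (F L) ≠ 0 ∧
      cokIdx G (⊥ : AddSubgroup J) (F L) ≤ r ^ B' * kerIdx G (⊥ : AddSubgroup J) (F L) := by
  classical
  refine cokIdx_bot_le_of_chain hr.pos F hmono hst h0 L
    (fun i => if tor i then 1 else 0) (fun i => if triv i then 1 else 0) B' hcok0 ?_ ?_ ?_
  · intro i hi
    by_cases h : tor i
    · simp only [if_pos h, pow_one]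
      exact ht i hi h
    · simp only [if_neg h, pow_zero]
      exact hnt i hi h
  · intro i hi
    by_cases h : triv i
    · simp only [if_pos h, pow_one]
      exact hker i hi h
    · simp only [if_neg h, pow_zero]
      exact Nat.one_le_iff_ne_zero.mpr (hker0 i hi)
  · rw [sum_ite_eq_ncard, sum_ite_eq_ncard]
    exact hcount

/-- (I1, `r = 2` table) index form of `pow_smul_mem_of_table_two`. -/
theorem cokIdx_bot_le_of_table_two (F : ℕ → AddSubgroup J)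
    (hmono : Monotone F) (hst : ∀ i, IsStable G (F i)) (h0 : F 0 = ⊥) (L : ℕ)
    [Finite ↥(F L)] (et tor : ℕ → Prop)
    (hcok0 : ∀ i < L, cokIdx G (F i) (F (i + 1)) ≠ 0)
    (h1 : ∀ i < L, et i → ¬ tor i → cokIdx G (F i) (F (i + 1)) ≤ 1)
    (h2 : ∀ i < L, et i → tor i → cokIdx G (F i) (F (i + 1)) ≤ 2)
    (h3 : ∀ i < L, ¬ et i → ¬ tor i → cokIdx G (F i) (F (i + 1)) ≤ 2)
    (h4 : ∀ i < L, ¬ et i → tor i → cokIdx G (F i) (F (i + 1)) ≤ 4)
    (hker : ∀ i < L, 2 ≤ kerIdx G (F i) (F (i + 1)))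
    (B' : ℕ)
    (hcount : Set.ncard {i | i < L ∧ tor i} ≤ Set.ncard {i | i < L ∧ et i} + B') :
    cokIdx G (⊥ : AddSubgroup J) (F L) ≠ 0 ∧
      cokIdx G (⊥ : AddSubgroup J) (F L) ≤ 2 ^ B' * kerIdx G (⊥ : AddSubgroup J) (F L) := by
  classical
  refine cokIdx_bot_le_of_chain (by norm_num : 0 < 2) F hmono hst h0 L
    (fun i => (if tor i then 1 else 0) + (if et i then 0 else 1)) (fun _ => 1) B' hcok0
    ?_ ?_ ?_
  · intro i hi
    by_cases he : et i <;> by_cases ht : tor i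
    · simp only [if_pos he, if_pos ht]
      exact h2 i hi he ht
    · simp only [if_pos he, if_neg ht]
      exact h1 i hi he ht
    · simp only [if_neg he, if_pos ht]
      exact h4 i hi he ht
    · simp only [if_neg he, if_neg ht]
      exact h3 i hi he ht
  · intro i hi
    simpa using hker i hi
  · have hsum : ∑ i ∈ Finset.range L, ((if tor i then 1 else 0) + (if et i then 0 else 1)) +
        Set.ncard {i | i < L ∧ et i} = Set.ncard {i | i < L ∧ tor i} + L := by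
      rw [Finset.sum_add_distrib, sum_ite_eq_ncard, add_assoc]
      congr 1
      rw [← sum_ite_eq_ncard, ← Finset.sum_add_distrib]
      have : ∀ i ∈ Finset.range L,
          ((if et i then 0 else 1) + (if et i then 1 else 0) : ℕ) = 1 := by
        intro i _
        split_ifs <;> rfl
      rw [Finset.sum_congr rfl this]
      simp
    have hL : ∑ _i ∈ Finset.range L, 1 = L := by simp
    rw [hL]
    omega

/-- (I2, `r` odd) index form of `pow_smul_mem_of_orders`. -/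
theorem cokIdx_bot_le_of_orders {r : ℕ} (hr : r.Prime) (hr2 : r ≠ 2) (F : ℕ → AddSubgroup J)
    (hmono : Monotone F) (hst : ∀ i, IsStable G (F i)) (h0 : F 0 = ⊥) (L : ℕ)
    [Finite ↥(F L)]
    (hstep : ∀ i < L, (F i).relIndex (F (i + 1)) = r)
    (Tor : AddSubgroup J) (c : J →+ J) (hc2 : ∀ y, c (c y) = y)
    (hcF : ∀ i, ∀ y ∈ F i, c y ∈ F i)
    (htype : ∀ i < L, (∀ (s : G), ∀ y ∈ F (i + 1), s • y - y ∈ F i) ∨
      (∀ y ∈ F (i + 1), c y + y ∈ F i))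
    (hcok0 : ∀ i < L, cokIdx G (F i) (F (i + 1)) ≠ 0)
    (hcokNT : ∀ i < L, F (i + 1) ⊓ Tor ≤ F i → cokIdx G (F i) (F (i + 1)) ≤ 1)
    (hcokT : ∀ i < L, cokIdx G (F i) (F (i + 1)) ≤ r)
    (B' : ℕ)
    (hord : Nat.card ↥(F L ⊓ Tor) ≤ r ^ B' * Nat.card ↥(F L ⊓ fixPts c)) :
    cokIdx G (⊥ : AddSubgroup J) (F L) ≠ 0 ∧
      cokIdx G (⊥ : AddSubgroup J) (F L) ≤ r ^ B' * kerIdx G (⊥ : AddSubgroup J) (F L) := by
  refine cokIdx_bot_le_of_table hr F hmono hst h0 L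
    (fun i => ∀ y ∈ F (i + 1), c y - y ∈ F i) (fun i => ¬ (F (i + 1) ⊓ Tor ≤ F i))
    hcok0 ?_ ?_ ?_ ?_ B' ?_
  · intro i hi h
    exact hcokNT i hi (not_not.mp h)
  · intro i hi _
    exact hcokT i hi
  · intro i hi
    refine kerIdx_ne_zero (hmono (Nat.le_succ i)) (hst i) ?_
    rw [hstep i hi]
    exact hr.ne_zero
  · intro i hi htriv
    rcases htype i hi with h | h
    · rw [kerIdx_eq_relIndex_of_trivial h, hstep i hi]
    · exact absurd (not_plus_and_minus hr hr2 (hstep i hi) c htriv h) id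
  · have h1 := card_inf_eq_pow_jumps hr F hmono h0 L hstep Tor
    have h2 := card_fixPts_eq_pow hr hr2 F hmono h0 L hstep c hc2 hcF
    rw [h1, h2, ← pow_add] at hord
    have h3 := (Nat.pow_le_pow_iff_right hr.one_lt).mp hord
    omega

/-- (I3, `r` odd, exact) `cokIdx G ⊥ W ≤ kerIdx G ⊥ W` from the two isotropy counts
`#(W ⊓ Tor)² ≤ #W ≤ #(W^{c = 1})²`: the hypothesis of the level-one descent. -/
theorem cokIdx_bot_le_kerIdx_of_sq_orders {r : ℕ} (hr : r.Prime) (hr2 : r ≠ 2)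
    (F : ℕ → AddSubgroup J) (hmono : Monotone F) (hst : ∀ i, IsStable G (F i)) (h0 : F 0 = ⊥)
    (L : ℕ) [Finite ↥(F L)]
    (hstep : ∀ i < L, (F i).relIndex (F (i + 1)) = r)
    (Tor : AddSubgroup J) (c : J →+ J) (hc2 : ∀ y, c (c y) = y)
    (hcF : ∀ i, ∀ y ∈ F i, c y ∈ F i)
    (htype : ∀ i < L, (∀ (s : G), ∀ y ∈ F (i + 1), s • y - y ∈ F i) ∨
      (∀ y ∈ F (i + 1), c y + y ∈ F i))
    (hcok0 : ∀ i < L, cokIdx G (F i) (F (i + 1)) ≠ 0)
    (hcokNT : ∀ i < L, F (i + 1) ⊓ Tor ≤ F i → cokIdx G (F i) (F (i + 1)) ≤ 1)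
    (hcokT : ∀ i < L, cokIdx G (F i) (F (i + 1)) ≤ r)
    (hT : Nat.card ↥(F L ⊓ Tor) ^ 2 ≤ Nat.card ↥(F L))
    (hc : Nat.card ↥(F L) ≤ Nat.card ↥(F L ⊓ fixPts c) ^ 2) :
    cokIdx G (⊥ : AddSubgroup J) (F L) ≠ 0 ∧
      cokIdx G (⊥ : AddSubgroup J) (F L) ≤ kerIdx G (⊥ : AddSubgroup J) (F L) := by
  have hord : Nat.card ↥(F L ⊓ Tor) ≤ r ^ 0 * Nat.card ↥(F L ⊓ fixPts c) := by
    rw [pow_zero, one_mul]
    exact (Nat.pow_le_pow_iff_left (by norm_num : (2 : ℕ) ≠ 0)).mp (hT.trans hc)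
  have h := cokIdx_bot_le_of_orders hr hr2 F hmono hst h0 L hstep Tor c hc2 hcF htype hcok0
    hcokNT hcokT 0 hord
  rw [pow_zero, one_mul] at h
  exact h

/-- (I3, `r` odd, exact, (JH) form): the flag type in the `e`-form and complex conjugation as
an element `c : G` with `r ∣ e c + 1`. -/
theorem cokIdx_bot_le_kerIdx_of_sq_orders_jh {r : ℕ} (hr : r.Prime) (hr2 : r ≠ 2)
    (F : ℕ → AddSubgroup J) (hmono : Monotone F) (hst : ∀ i, IsStable G (F i)) (h0 : F 0 = ⊥)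
    (L : ℕ) [Finite ↥(F L)]
    (hstep : ∀ i < L, (F i).relIndex (F (i + 1)) = r)
    (Tor : AddSubgroup J) (e : G → ℕ) (c : G) (hc2 : c * c = 1) (hec : r ∣ e c + 1)
    (htype : ∀ i < L, (∀ (s : G), ∀ y ∈ F (i + 1), s • y - y ∈ F i) ∨
      (∀ (s : G), ∀ y ∈ F (i + 1), s • y - e s • y ∈ F i))
    (hcok0 : ∀ i < L, cokIdx G (F i) (F (i + 1)) ≠ 0)
    (hcokNT : ∀ i < L, F (i + 1) ⊓ Tor ≤ F i → cokIdx G (F i) (F (i + 1)) ≤ 1)
    (hcokT : ∀ i < L, cokIdx G (F i) (F (i + 1)) ≤ r)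
    (hT : Nat.card ↥(F L ⊓ Tor) ^ 2 ≤ Nat.card ↥(F L))
    (hc : Nat.card ↥(F L) ≤ Nat.card ↥(F L ⊓ fixPts (DistribSMul.toAddMonoidHom J c)) ^ 2) :
    cokIdx G (⊥ : AddSubgroup J) (F L) ≠ 0 ∧
      cokIdx G (⊥ : AddSubgroup J) (F L) ≤ kerIdx G (⊥ : AddSubgroup J) (F L) := by
  refine cokIdx_bot_le_kerIdx_of_sq_orders hr hr2 F hmono hst h0 L hstep Tor
    (DistribSMul.toAddMonoidHom J c) ?_ ?_ ?_ hcok0 hcokNT hcokT hT hc
  · intro y
    show c • c • y = y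
    rw [smul_smul, hc2, one_smul]
  · intro i y hy
    exact hst i c y hy
  · intro i hi
    rcases htype i hi with h | h
    · exact Or.inl h
    · exact Or.inr (add_mem_of_chi_type (hstep i hi) (DistribSMul.toAddMonoidHom J c) (e c) hec
        (fun y hy => h c y hy))

/-- (I2, `r = 2`) index form of `pow_smul_mem_of_orders_two`. -/
theorem cokIdx_bot_le_of_orders_two (F : ℕ → AddSubgroup J)
    (hmono : Monotone F) (hst : ∀ i, IsStable G (F i)) (h0 : F 0 = ⊥) (L : ℕ)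
    [Finite ↥(F L)]
    (hstep : ∀ i < L, (F i).relIndex (F (i + 1)) = 2)
    (T₁ T₂ : AddSubgroup J)
    (hcok0 : ∀ i < L, cokIdx G (F i) (F (i + 1)) ≠ 0)
    (h1 : ∀ i < L, F (i + 1) ⊓ T₁ ≤ F i → F (i + 1) ⊓ T₂ ≤ F i →
      cokIdx G (F i) (F (i + 1)) ≤ 1)
    (h2 : ∀ i < L, F (i + 1) ⊓ T₂ ≤ F i → cokIdx G (F i) (F (i + 1)) ≤ 2)
    (h3 : ∀ i < L, F (i + 1) ⊓ T₁ ≤ F i → cokIdx G (F i) (F (i + 1)) ≤ 2)
    (h4 : ∀ i < L, cokIdx G (F i) (F (i + 1)) ≤ 4)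
    (B' : ℕ)
    (hord : Nat.card ↥(F L ⊓ T₁) * Nat.card ↥(F L ⊓ T₂) ≤ 2 ^ (L + B')) :
    cokIdx G (⊥ : AddSubgroup J) (F L) ≠ 0 ∧
      cokIdx G (⊥ : AddSubgroup J) (F L) ≤ 2 ^ B' * kerIdx G (⊥ : AddSubgroup J) (F L) := by
  refine cokIdx_bot_le_of_table_two F hmono hst h0 L
    (fun i => F (i + 1) ⊓ T₂ ≤ F i) (fun i => ¬ (F (i + 1) ⊓ T₁ ≤ F i))
    hcok0 ?_ ?_ ?_ ?_ ?_ B' ?_
  · intro i hi he ht
    exact h1 i hi (not_not.mp ht) he
  · intro i hi he _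
    exact h2 i hi he
  · intro i hi _ ht
    exact h3 i hi (not_not.mp ht)
  · intro i hi _ _
    exact h4 i hi
  · intro i hi
    rw [kerIdx_eq_two_of_step (hst i) (hst (i + 1)) (hstep i hi)]
  · have e1 := card_inf_eq_pow_jumps Nat.prime_two F hmono h0 L hstep T₁
    have e2 := card_inf_eq_pow_jumps Nat.prime_two F hmono h0 L hstep T₂
    rw [e1, e2, ← pow_add] at hord
    have e3 := (Nat.pow_le_pow_iff_right (by norm_num : 1 < 2)).mp hord
    have e4 := ncard_add_ncard_not (fun i => F (i + 1) ⊓ T₂ ≤ F i) L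
    omega

/-- (I3, `r = 2`, exact) `cokIdx G ⊥ W ≤ kerIdx G ⊥ W` from two isotropy counts
`#(W ⊓ T₁)² ≤ #W`, `#(W ⊓ T₂)² ≤ #W`: the hypothesis of the level-one descent at `r = 2`. -/
theorem cokIdx_bot_le_kerIdx_of_sq_orders_two (F : ℕ → AddSubgroup J)
    (hmono : Monotone F) (hst : ∀ i, IsStable G (F i)) (h0 : F 0 = ⊥) (L : ℕ)
    [Finite ↥(F L)]
    (hstep : ∀ i < L, (F i).relIndex (F (i + 1)) = 2)
    (T₁ T₂ : AddSubgroup J)
    (hcok0 : ∀ i < L, cokIdx G (F i) (F (i + 1)) ≠ 0)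
    (h1 : ∀ i < L, F (i + 1) ⊓ T₁ ≤ F i → F (i + 1) ⊓ T₂ ≤ F i →
      cokIdx G (F i) (F (i + 1)) ≤ 1)
    (h2 : ∀ i < L, F (i + 1) ⊓ T₂ ≤ F i → cokIdx G (F i) (F (i + 1)) ≤ 2)
    (h3 : ∀ i < L, F (i + 1) ⊓ T₁ ≤ F i → cokIdx G (F i) (F (i + 1)) ≤ 2)
    (h4 : ∀ i < L, cokIdx G (F i) (F (i + 1)) ≤ 4)
    (hT₁ : Nat.card ↥(F L ⊓ T₁) ^ 2 ≤ Nat.card ↥(F L))
    (hT₂ : Nat.card ↥(F L ⊓ T₂) ^ 2 ≤ Nat.card ↥(F L)) :
    cokIdx G (⊥ : AddSubgroup J) (F L) ≠ 0 ∧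
      cokIdx G (⊥ : AddSubgroup J) (F L) ≤ kerIdx G (⊥ : AddSubgroup J) (F L) := by
  have hL := card_eq_pow_of_steps F hmono h0 L hstep
  have hord : Nat.card ↥(F L ⊓ T₁) * Nat.card ↥(F L ⊓ T₂) ≤ 2 ^ (L + 0) := by
    apply (Nat.pow_le_pow_iff_left (by norm_num : (2 : ℕ) ≠ 0)).mp
    rw [hL] at hT₁ hT₂
    calc (Nat.card ↥(F L ⊓ T₁) * Nat.card ↥(F L ⊓ T₂)) ^ 2
        = Nat.card ↥(F L ⊓ T₁) ^ 2 * Nat.card ↥(F L ⊓ T₂) ^ 2 := mul_pow _ _ _
      _ ≤ 2 ^ L * 2 ^ L := Nat.mul_le_mul hT₁ hT₂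
      _ = (2 ^ (L + 0)) ^ 2 := by rw [add_zero]; ring
  have h := cokIdx_bot_le_of_orders_two F hmono hst h0 L hstep T₁ T₂ hcok0 h1 h2 h3 h4 0 hord
  rw [pow_zero, one_mul] at h
  exact h

end IndexForms

end Fermat.Agent.S15.helper4190
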