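/-
Level-one (DIV) in one call, for the Mazur block (S15): the index forms of the (BND) assembly
(`helper4190_IndexForms`) composed with the level-one descent `helper2063.div1_of_bound`.
Output shape = the inner part of `Stmt_Div1` of the top Spec:
`E D = τ + r • x` with `τ`, `x` fixed and `τ` of `r`-power order, for every fixed `D`.
-/
import Fermat.Agent.S15.helper4190_IndexForms
import Fermat.Agent.S15.helper2063_LevelOne

set_option autoImplicit false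

namespace Fermat.Agent.S15.helper4190

open Fermat.Agent.S15.helper2063

section DivOne

variable {G : Type*} {J : Type*} [Group G] [AddCommGroup J] [DistribMulAction G J]

/-- (DIV-ONE, `r` odd) Level-one (DIV) from a (JH) flag of the `E`-part `W = F L` of `J[r]`,
the step cokernel bounds and the two isotropy counts. -/
theorem div1_of_sq_orders {r : ℕ} (hr : r.Prime) (hr2 : r ≠ 2) {E : J →+ J}
    (hE : ∀ (s : G) (y : J), E (s • y) = s • E y)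
    (hdiv : ∀ m : J, (∀ s : G, s • m = m) → ∃ y : J, r • y = m)
    [Finite ↥(Theta G J r)]
    (F : ℕ → AddSubgroup J) (hmono : Monotone F) (hst : ∀ i, IsStable G (F i)) (h0 : F 0 = ⊥)
    (L : ℕ) [Finite ↥(F L)]
    (hWT : ∀ w ∈ F L, r • w = 0) (hEW : ∀ t : J, r • t = 0 → E t ∈ F L)
    (hWE : ∀ w ∈ F L, E w = w)
    (hstep : ∀ i < L, (F i).relIndex (F (i + 1)) = r)
    (Tor : AddSubgroup J) (e : G → ℕ) (c : G) (hc2 : c * c = 1) (hec : r ∣ e c + 1)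
    (htype : ∀ i < L, (∀ (s : G), ∀ y ∈ F (i + 1), s • y - y ∈ F i) ∨
      (∀ (s : G), ∀ y ∈ F (i + 1), s • y - e s • y ∈ F i))
    (hcok0 : ∀ i < L, cokIdx G (F i) (F (i + 1)) ≠ 0)
    (hcokNT : ∀ i < L, F (i + 1) ⊓ Tor ≤ F i → cokIdx G (F i) (F (i + 1)) ≤ 1)
    (hcokT : ∀ i < L, cokIdx G (F i) (F (i + 1)) ≤ r)
    (hT : Nat.card ↥(F L ⊓ Tor) ^ 2 ≤ Nat.card ↥(F L))
    (hc : Nat.card ↥(F L) ≤ Nat.card ↥(F L ⊓ fixPts (DistribSMul.toAddMonoidHom J c)) ^ 2)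
    {D : J} (hD : ∀ s : G, s • D = D) :
    ∃ τ x : J, (∀ s : G, s • τ = τ) ∧ (∀ s : G, s • x = x) ∧ (∃ n : ℕ, r ^ n • τ = 0) ∧
      E D = τ + r • x := by
  obtain ⟨h1, h2⟩ := cokIdx_bot_le_kerIdx_of_sq_orders_jh hr hr2 F hmono hst h0 L hstep Tor e c
    hc2 hec htype hcok0 hcokNT hcokT hT hc
  exact div1_of_bound hE hdiv hWT hEW hWE h1 h2 hD

/-- (DIV-ONE, `r = 2`) Level-one (DIV) from a flag of the `E`-part `W = F L` of `J[2]`, the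
step cokernel bounds by jump type and the two isotropy counts. -/
theorem div1_of_sq_orders_two {E : J →+ J}
    (hE : ∀ (s : G) (y : J), E (s • y) = s • E y)
    (hdiv : ∀ m : J, (∀ s : G, s • m = m) → ∃ y : J, 2 • y = m)
    [Finite ↥(Theta G J 2)]
    (F : ℕ → AddSubgroup J) (hmono : Monotone F) (hst : ∀ i, IsStable G (F i)) (h0 : F 0 = ⊥)
    (L : ℕ) [Finite ↥(F L)]
    (hWT : ∀ w ∈ F L, 2 • w = 0) (hEW : ∀ t : J, 2 • t = 0 → E t ∈ F L)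
    (hWE : ∀ w ∈ F L, E w = w)
    (hstep : ∀ i < L, (F i).relIndex (F (i + 1)) = 2)
    (T₁ T₂ : AddSubgroup J)
    (hcok0 : ∀ i < L, cokIdx G (F i) (F (i + 1)) ≠ 0)
    (h1 : ∀ i < L, F (i + 1) ⊓ T₁ ≤ F i → F (i + 1) ⊓ T₂ ≤ F i →
      cokIdx G (F i) (F (i + 1)) ≤ 1)
    (h2 : ∀ i < L, F (i + 1) ⊓ T₂ ≤ F i → cokIdx G (F i) (F (i + 1)) ≤ 2)
    (h3 : ∀ i < L, F (i + 1) ⊓ T₁ ≤ F i → cokIdx G (F i) (F (i + 1)) ≤ 2)
    (h4 : ∀ i < L, cokIdx G (F i) (F (i + 1)) ≤ 4)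
    (hT₁ : Nat.card ↥(F L ⊓ T₁) ^ 2 ≤ Nat.card ↥(F L))
    (hT₂ : Nat.card ↥(F L ⊓ T₂) ^ 2 ≤ Nat.card ↥(F L))
    {D : J} (hD : ∀ s : G, s • D = D) :
    ∃ τ x : J, (∀ s : G, s • τ = τ) ∧ (∀ s : G, s • x = x) ∧ (∃ n : ℕ, 2 ^ n • τ = 0) ∧
      E D = τ + 2 • x := by
  obtain ⟨k1, k2⟩ := cokIdx_bot_le_kerIdx_of_sq_orders_two F hmono hst h0 L hstep T₁ T₂ hcok0
    h1 h2 h3 h4 hT₁ hT₂
  exact div1_of_bound hE hdiv hWT hEW hWE k1 k2 hD

end DivOne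

end Fermat.Agent.S15.helper4190
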