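/-
Counting glue for the Mazur block (S15), abstract and Mathlib-only (on top of `CasselsCore`):
* (K1) jump count of a flag with steps of prime index against an arbitrary subgroup;
* (K2) involution count (odd prime);
* (K3) the step tables turned into the hypotheses of `pow_smul_mem_of_chain`.
-/
import Fermat.Agent.S15.helper4190_CasselsCore

set_option autoImplicit false

namespace Fermat.Agent.S15.helper4190

section Index

variable {J : Type*} [AddCommGroup J]

/-- Monotonicity of the relative index in the ambient subgroup, divisibility form. -/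
theorem relIndex_dvd_relIndex_of_le (H : AddSubgroup J) {X K : AddSubgroup J} (hXK : X ≤ K) :
    H.relIndex X ∣ H.relIndex K := by
  have h1 : H ⊓ K ≤ (H ⊓ K) ⊔ X := le_sup_left
  have h2 : (H ⊓ K) ⊔ X ≤ K := sup_le inf_le_right hXK
  have h3 := AddSubgroup.relIndex_mul_relIndex _ _ _ h1 h2
  have h4 : (H ⊓ K).relIndex ((H ⊓ K) ⊔ X) = H.relIndex X := by
    rw [AddSubgroup.relIndex_sup_left, ← AddSubgroup.inf_relIndex_right]
    have : H ⊓ K ⊓ X = H ⊓ X := by
      rw [inf_assoc, inf_eq_right.mpr hXK]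
    rw [this, AddSubgroup.inf_relIndex_right]
  rw [h4, AddSubgroup.inf_relIndex_right] at h3
  exact Dvd.intro _ h3

/-- Cardinality along an inclusion. -/
theorem card_mul_relIndex_of_le {A B : AddSubgroup J} (hAB : A ≤ B) :
    Nat.card ↥A * A.relIndex B = Nat.card ↥B := by
  have h := AddSubgroup.relIndex_mul_relIndex (⊥ : AddSubgroup J) A B bot_le hAB
  rw [AddSubgroup.relIndex_bot_left, AddSubgroup.relIndex_bot_left] at h
  exact h

/-- The index of a step of prime index, cut by a subgroup `T`, is `1` or `r`. -/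
theorem relIndex_inf_step {r : ℕ} (hr : r.Prime) {F F' : AddSubgroup J}
    (hstep : F.relIndex F' = r) (T : AddSubgroup J) :
    ((F' ⊓ T ≤ F) → (F ⊓ T).relIndex (F' ⊓ T) = 1) ∧
      (¬ (F' ⊓ T ≤ F) → (F ⊓ T).relIndex (F' ⊓ T) = r) := by
  have h1 : (F ⊓ T).relIndex (F' ⊓ T) = F.relIndex (F' ⊓ T) := by
    rw [← AddSubgroup.inf_relIndex_right, ← AddSubgroup.inf_relIndex_right (H := F)]
    congr 1
    rw [inf_assoc, inf_comm T (F' ⊓ T), inf_assoc, inf_idem]
  have h2 : F.relIndex (F' ⊓ T) ∣ r := by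
    rw [← hstep]
    exact relIndex_dvd_relIndex_of_le F inf_le_left
  constructor
  · intro h
    rw [h1, AddSubgroup.relIndex_eq_one]
    exact h
  · intro h
    rw [h1]
    rcases (Nat.dvd_prime hr).mp h2 with h3 | h3
    · exact absurd (AddSubgroup.relIndex_eq_one.mp h3) h
    · exact h3

end Index

section Counts

variable {J : Type*} [AddCommGroup J]

open Classical in
theorem ncard_lt_succ (P : ℕ → Prop) (L : ℕ) :
    Set.ncard {i | i < L + 1 ∧ P i} =
      Set.ncard {i | i < L ∧ P i} + (if P L then 1 else 0) := by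
  have hfin : Set.Finite {i | i < L ∧ P i} :=
    Set.Finite.subset (Set.finite_Iio L) (fun i hi => hi.1)
  by_cases hP : P L
  · have hset : {i | i < L + 1 ∧ P i} = insert L {i | i < L ∧ P i} := by
      ext i
      simp only [Set.mem_ofPred_eq, Set.mem_insert_iff]
      constructor
      · rintro ⟨h1, h2⟩
        rcases Nat.lt_succ_iff_lt_or_eq.mp h1 with h | h
        · exact Or.inr ⟨h, h2⟩
        · exact Or.inl h
      · rintro (h | ⟨h1, h2⟩)
        · exact ⟨h ▸ Nat.lt_succ_self L, h ▸ hP⟩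
        · exact ⟨Nat.lt_succ_of_lt h1, h2⟩
    have hnot : L ∉ {i | i < L ∧ P i} := fun h => lt_irrefl L h.1
    rw [hset, Set.ncard_insert_of_notMem hnot hfin, if_pos hP]
  · have hset : {i | i < L + 1 ∧ P i} = {i | i < L ∧ P i} := by
      ext i
      simp only [Set.mem_ofPred_eq]
      constructor
      · rintro ⟨h1, h2⟩
        rcases Nat.lt_succ_iff_lt_or_eq.mp h1 with h | h
        · exact ⟨h, h2⟩
        · exact absurd (h ▸ h2) hP
      · rintro ⟨h1, h2⟩
        exact ⟨Nat.lt_succ_of_lt h1, h2⟩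
    rw [hset, if_neg hP, add_zero]

theorem ncard_lt_zero (P : ℕ → Prop) : Set.ncard {i | i < 0 ∧ P i} = 0 := by
  have : {i | i < 0 ∧ P i} = (∅ : Set ℕ) := by
    ext i
    simp
  rw [this, Set.ncard_empty]

open Classical in
theorem ncard_lt_le (P : ℕ → Prop) (L : ℕ) : Set.ncard {i | i < L ∧ P i} ≤ L := by
  induction L with
  | zero => rw [ncard_lt_zero]
  | succ L ih =>
    rw [ncard_lt_succ]
    split_ifs <;> omega

open Classical in
theorem sum_ite_eq_ncard (P : ℕ → Prop) (L : ℕ) :
    ∑ i ∈ Finset.range L, (if P i then 1 else 0) = Set.ncard {i | i < L ∧ P i} := by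
  induction L with
  | zero => rw [Finset.sum_range_zero, ncard_lt_zero]
  | succ L ih => rw [Finset.sum_range_succ, ih, ncard_lt_succ]

/-- (K1) Jump count: a flag with steps of prime index `r`, cut by any subgroup `T`. -/
theorem card_inf_eq_mul_pow_jumps {r : ℕ} (hr : r.Prime) (F : ℕ → AddSubgroup J)
    (hmono : Monotone F) (L : ℕ) (hstep : ∀ i < L, (F i).relIndex (F (i + 1)) = r)
    (T : AddSubgroup J) :
    Nat.card ↥(F L ⊓ T) =
      Nat.card ↥(F 0 ⊓ T) * r ^ Set.ncard {i | i < L ∧ ¬ (F (i + 1) ⊓ T ≤ F i)} := by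
  induction L with
  | zero => rw [ncard_lt_zero, pow_zero, mul_one]
  | succ L ih =>
    have ih' := ih (fun i hi => hstep i (Nat.lt_succ_of_lt hi))
    have hle : F L ⊓ T ≤ F (L + 1) ⊓ T := inf_le_inf_right T (hmono (Nat.le_succ L))
    have hcard := card_mul_relIndex_of_le hle
    have hst := relIndex_inf_step hr (hstep L (Nat.lt_succ_self L)) T
    rw [ncard_lt_succ, ← hcard, ih']
    by_cases h : F (L + 1) ⊓ T ≤ F L
    · rw [hst.1 h, if_neg (not_not.mpr h), add_zero, mul_one]
    · rw [hst.2 h, if_pos h, pow_succ, mul_assoc]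

/-- (K1') Jump count starting from `⊥`. -/
theorem card_inf_eq_pow_jumps {r : ℕ} (hr : r.Prime) (F : ℕ → AddSubgroup J)
    (hmono : Monotone F) (h0 : F 0 = ⊥) (L : ℕ)
    (hstep : ∀ i < L, (F i).relIndex (F (i + 1)) = r) (T : AddSubgroup J) :
    Nat.card ↥(F L ⊓ T) = r ^ Set.ncard {i | i < L ∧ ¬ (F (i + 1) ⊓ T ≤ F i)} := by
  rw [card_inf_eq_mul_pow_jumps hr F hmono L hstep T, h0, bot_inf_eq]
  simp

/-- The whole flag: `#(F L) = r ^ L`. -/
theorem card_eq_pow_of_steps {r : ℕ} (F : ℕ → AddSubgroup J)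
    (hmono : Monotone F) (h0 : F 0 = ⊥) (L : ℕ)
    (hstep : ∀ i < L, (F i).relIndex (F (i + 1)) = r) : Nat.card ↥(F L) = r ^ L := by
  induction L with
  | zero => rw [h0]; simp
  | succ L ih =>
    have ih' := ih (fun i hi => hstep i (Nat.lt_succ_of_lt hi))
    rw [← card_mul_relIndex_of_le (hmono (Nat.le_succ L)), ih', hstep L (Nat.lt_succ_self L),
      pow_succ]

/-- A step of prime index: the top is killed into the bottom by `r`. -/
theorem nsmul_mem_of_step {r : ℕ} {F F' : AddSubgroup J} (hstep : F.relIndex F' = r)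
    {y : J} (hy : y ∈ F') : r • y ∈ F := by
  have h := AddSubgroup.nsmul_index_mem (F.addSubgroupOf F') (⟨y, hy⟩ : ↥F')
  have hidx : (F.addSubgroupOf F').index = r := hstep
  rw [hidx, AddSubgroup.mem_addSubgroupOf] at h
  exact h

/-- The fixed points of an additive endomorphism. -/
def fixPts (c : J →+ J) : AddSubgroup J := AddMonoidHom.eqLocus c (AddMonoidHom.id J)

theorem mem_fixPts {c : J →+ J} {y : J} : y ∈ fixPts c ↔ c y = y := Iff.rfl

/-- For an involution `c` and a step of odd prime index, the step contains a new fixed point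
iff `c` acts trivially on the step. -/
theorem jump_fixPts_iff {r : ℕ} (hr : r.Prime) (hr2 : r ≠ 2) {F F' : AddSubgroup J}
    (hF : F ≤ F') (hstep : F.relIndex F' = r) (c : J →+ J) (hc2 : ∀ y, c (c y) = y)
    (hcF : ∀ y ∈ F, c y ∈ F) (hcF' : ∀ y ∈ F', c y ∈ F') :
    ¬ (F' ⊓ fixPts c ≤ F) ↔ ∀ y ∈ F', c y - y ∈ F := by
  constructor
  · intro hjump
    obtain ⟨z, hz, hzF⟩ := Set.not_subset.mp hjump
    have hzF' : z ∈ F' := hz.1
    have hzc : c z = z := hz.2
    set K := F ⊔ AddSubgroup.zmultiples z with hK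
    have hFK : F ≤ K := le_sup_left
    have hKF' : K ≤ F' := sup_le hF (by
      rw [AddSubgroup.zmultiples_le]
      exact hzF')
    have hmul := AddSubgroup.relIndex_mul_relIndex _ _ _ hFK hKF'
    rw [hstep] at hmul
    have hne : F.relIndex K ≠ 1 := by
      intro h
      have hle := AddSubgroup.relIndex_eq_one.mp h
      exact hzF (hle (AddSubgroup.mem_sup_right (AddSubgroup.mem_zmultiples z)))
    have hr' : F.relIndex K = r := by
      rcases (Nat.dvd_prime hr).mp (Dvd.intro _ hmul) with h | h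
      · exact absurd h hne
      · exact h
    have hone : K.relIndex F' = 1 := by
      rw [hr'] at hmul
      have : r * K.relIndex F' = r * 1 := by rw [hmul, mul_one]
      exact Nat.eq_of_mul_eq_mul_left hr.pos this
    have hF'K : F' ≤ K := AddSubgroup.relIndex_eq_one.mp hone
    intro y hy
    obtain ⟨f, hf, w, hw, hfw⟩ := AddSubgroup.mem_sup.mp (hF'K hy)
    obtain ⟨n, hn⟩ := AddSubgroup.mem_zmultiples_iff.mp hw
    have hcw : c w = w := by rw [← hn, map_zsmul, hzc]
    have : c y - y = c f - f := by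
      rw [← hfw, map_add, hcw]; abel
    rw [this]
    exact F.sub_mem (hcF f hf) hf
  · intro hplus hle
    have hne : ¬ F' ≤ F := by
      intro h
      have := AddSubgroup.relIndex_eq_one.mpr h
      rw [hstep] at this
      exact hr.one_lt.ne' this
    obtain ⟨y, hy, hyF⟩ := Set.not_subset.mp hne
    have hz : y + c y ∈ F' ⊓ fixPts c := by
      refine ⟨F'.add_mem hy (hcF' y hy), ?_⟩
      show c (y + c y) = y + c y
      rw [map_add, hc2, add_comm]
    have hzF : y + c y ∈ F := hle hz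
    have h2y : 2 • y ∈ F := by
      have : 2 • y = (y + c y) - (c y - y) := by rw [two_nsmul]; abel
      rw [this]
      exact F.sub_mem hzF (hplus y hy)
    have hry : r • y ∈ F := nsmul_mem_of_step hstep hy
    have hodd : r % 2 = 1 := by
      rcases hr.eq_two_or_odd with h | h
      · exact absurd h hr2
      · exact h
    have hyy : y = (r / 2 + 1) • (2 • y) - r • y := by
      rw [← mul_nsmul, eq_sub_iff_add_eq, ← succ_nsmul']
      congr 1
      omega
    apply hyF
    rw [hyy]
    exact F.sub_mem (F.nsmul_mem h2y _) hry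

/-- (K2) Involution count: the number of steps on which the involution `c` acts trivially is
the `r`-logarithm of the number of `c`-fixed points of the top (`r` odd). -/
theorem card_fixPts_eq_pow {r : ℕ} (hr : r.Prime) (hr2 : r ≠ 2) (F : ℕ → AddSubgroup J)
    (hmono : Monotone F) (h0 : F 0 = ⊥) (L : ℕ)
    (hstep : ∀ i < L, (F i).relIndex (F (i + 1)) = r) (c : J →+ J) (hc2 : ∀ y, c (c y) = y)
    (hcF : ∀ i, ∀ y ∈ F i, c y ∈ F i) :
    Nat.card ↥(F L ⊓ fixPts c) = r ^ Set.ncard {i | i < L ∧ ∀ y ∈ F (i + 1), c y - y ∈ F i} := by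
  rw [card_inf_eq_pow_jumps hr F hmono h0 L hstep (fixPts c)]
  congr 2
  ext i
  simp only [Set.mem_ofPred_eq]
  constructor
  · rintro ⟨hi, h⟩
    exact ⟨hi, (jump_fixPts_iff hr hr2 (hmono (Nat.le_succ i)) (hstep i hi) c hc2 (hcF i)
      (hcF (i + 1))).mp h⟩
  · rintro ⟨hi, h⟩
    exact ⟨hi, (jump_fixPts_iff hr hr2 (hmono (Nat.le_succ i)) (hstep i hi) c hc2 (hcF i)
      (hcF (i + 1))).mpr h⟩

end Counts

section Tables

variable {G : Type*} {J : Type*} [Group G] [AddCommGroup J] [DistribMulAction G J]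

/-- (K3) Table for an odd prime (also valid for `r = 2`, but not useful there):
types trivial / toric. -/
theorem pow_smul_mem_of_table {r : ℕ} (hr : r.Prime) (F : ℕ → AddSubgroup J) (hmono : Monotone F)
    (hst : ∀ i, IsStable G (F i)) (h0 : F 0 = ⊥) (L k : ℕ) [Finite ↥(F L)]
    (hk : ∀ w ∈ F L, r ^ k • w = 0) (triv tor : ℕ → Prop)
    (hcok0 : ∀ i < L, cokIdx G (F i) (F (i + 1)) ≠ 0)
    (hnt : ∀ i < L, ¬ tor i → cokIdx G (F i) (F (i + 1)) ≤ 1)
    (ht : ∀ i < L, tor i → cokIdx G (F i) (F (i + 1)) ≤ r)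
    (hker0 : ∀ i < L, kerIdx G (F i) (F (i + 1)) ≠ 0)
    (hker : ∀ i < L, triv i → r ≤ kerIdx G (F i) (F (i + 1)))
    (B0 B' : ℕ)
    (hcount : Set.ncard {i | i < L ∧ tor i} ≤ Set.ncard {i | i < L ∧ triv i} + B')
    (hinv : Nat.card ↥(relInv G (⊥ : AddSubgroup J) ⊓ F L) ≤ r ^ B0) :
    ∀ u ∈ relInv G (F L), r ^ (B0 + B') • u ∈ relInv G (⊥ : AddSubgroup J) ⊔ F L := by
  classical
  refine pow_smul_mem_of_chain hr F hmono hst h0 L k hk
    (fun i => if tor i then 1 else 0) (fun i => if triv i then 1 else 0) B0 B' hcok0 ?_ ?_ ?_ hinv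
  · intro i hi
    by_cases h : tor i
    · simp only [if_pos h, pow_one]
      exact ht i hi h
    · simp only [if_neg h, pow_zero]
      exact hnt i hi h
  · intro i hi
    by_cases h : triv i
    · simp only [if_pos h, pow_one]
      exact hker i hi h
    · simp only [if_neg h, pow_zero]
      exact Nat.one_le_iff_ne_zero.mpr (hker0 i hi)
  · rw [sum_ite_eq_ncard, sum_ite_eq_ncard]
    exact hcount

/-- (K3) Table for `r = 2`: types étale / toric; every step has two invariant classes. -/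
theorem pow_smul_mem_of_table_two (F : ℕ → AddSubgroup J) (hmono : Monotone F)
    (hst : ∀ i, IsStable G (F i)) (h0 : F 0 = ⊥) (L k : ℕ) [Finite ↥(F L)]
    (hk : ∀ w ∈ F L, 2 ^ k • w = 0) (et tor : ℕ → Prop)
    (hcok0 : ∀ i < L, cokIdx G (F i) (F (i + 1)) ≠ 0)
    (h1 : ∀ i < L, et i → ¬ tor i → cokIdx G (F i) (F (i + 1)) ≤ 1)
    (h2 : ∀ i < L, et i → tor i → cokIdx G (F i) (F (i + 1)) ≤ 2)
    (h3 : ∀ i < L, ¬ et i → ¬ tor i → cokIdx G (F i) (F (i + 1)) ≤ 2)
    (h4 : ∀ i < L, ¬ et i → tor i → cokIdx G (F i) (F (i + 1)) ≤ 4)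
    (hker : ∀ i < L, 2 ≤ kerIdx G (F i) (F (i + 1)))
    (B0 B' : ℕ)
    (hcount : Set.ncard {i | i < L ∧ tor i} ≤ Set.ncard {i | i < L ∧ et i} + B')
    (hinv : Nat.card ↥(relInv G (⊥ : AddSubgroup J) ⊓ F L) ≤ 2 ^ B0) :
    ∀ u ∈ relInv G (F L), 2 ^ (B0 + B') • u ∈ relInv G (⊥ : AddSubgroup J) ⊔ F L := by
  classical
  refine pow_smul_mem_of_chain Nat.prime_two F hmono hst h0 L k hk
    (fun i => (if tor i then 1 else 0) + (if et i then 0 else 1)) (fun _ => 1) B0 B' hcok0
    ?_ ?_ ?_ hinv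
  · intro i hi
    by_cases he : et i <;> by_cases ht : tor i
    · simp only [if_pos he, if_pos ht]
      exact h2 i hi he ht
    · simp only [if_pos he, if_neg ht]
      exact h1 i hi he ht
    · simp only [if_neg he, if_pos ht]
      exact h4 i hi he ht
    · simp only [if_neg he, if_neg ht]
      exact h3 i hi he ht
  · intro i hi
    simpa using hker i hi
  · have hsum : ∑ i ∈ Finset.range L, ((if tor i then 1 else 0) + (if et i then 0 else 1)) +
        Set.ncard {i | i < L ∧ et i} = Set.ncard {i | i < L ∧ tor i} + L := by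
      rw [Finset.sum_add_distrib, sum_ite_eq_ncard, add_assoc]
      congr 1
      rw [← sum_ite_eq_ncard, ← Finset.sum_add_distrib]
      have : ∀ i ∈ Finset.range L,
          ((if et i then 0 else 1) + (if et i then 1 else 0) : ℕ) = 1 := by
        intro i _
        split_ifs <;> rfl
      rw [Finset.sum_congr rfl this]
      simp
    have hL : ∑ _i ∈ Finset.range L, 1 = L := by simp
    rw [hL]
    omega

end Tables

end Fermat.Agent.S15.helper4190
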