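/-
helper7259 — S15/S12 pre-brick (STEP): the step-class dictionary.

* Part H: Hilbert 90 for the absolute Galois group of `ℚ` at finite level
  (a cocycle `GQ → Qbˣ` trivial on the stabiliser of a finite extension is a coboundary),
  and its Kummer form (values of exponent `r` give `β ^ r ∈ ℚ`).
* Part X: the Kummer pair of a step on which Galois acts through the roots of unity.
* Part T: the character of a step with trivial Galois action.

Mathlib + Prelude only.  Subgroup language: no quotient types, no cohomology objects.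
-/
import Mathlib
import Fermat.Prelude.Def_GaloisRep_Residual

set_option autoImplicit false

namespace Fermat.Agent.S15.helper7259

/-- The algebraic closure of `ℚ` of the frozen statements. -/
abbrev Qb : Type := AlgebraicClosure ℚ

/-- The absolute Galois group of `ℚ` of the frozen statements. -/
abbrev GQ : Type := Qb ≃ₐ[ℚ] Qb

/-- A function on `GQ` has finite level if it takes the value `1` on the pointwise stabiliser of
a finite extension of `ℚ`. -/
def FinLevelFun {M : Type*} [One M] (c : GQ → M) : Prop :=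
  ∃ L : IntermediateField ℚ Qb, FiniteDimensional ℚ L ∧
    ∀ σ : GQ, (∀ a ∈ L, σ a = a) → c σ = 1

theorem isAlgebraic_Qb : Algebra.IsAlgebraic ℚ (AlgebraicClosure ℚ) :=
  AlgebraicClosure.isAlgebraic ℚ

theorem isAlgClosure_Qb : IsAlgClosure ℚ (AlgebraicClosure ℚ) :=
  ⟨inferInstance, isAlgebraic_Qb⟩

theorem normal_Qb : Normal ℚ (AlgebraicClosure ℚ) :=
  haveI := isAlgClosure_Qb
  IsAlgClosure.normal _ _

theorem isGalois_Qb : IsGalois ℚ (AlgebraicClosure ℚ) :=
  haveI := isAlgClosure_Qb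
  inferInstance

attribute [local instance] isAlgebraic_Qb isAlgClosure_Qb normal_Qb isGalois_Qb

/-! ## Part H: Hilbert 90 at finite level -/

section H90

/-- Two automorphisms with the same restriction to a normal intermediate field. -/
private theorem restrict_eq_iff (N : IntermediateField ℚ Qb) [Normal ℚ N] (σ τ : GQ) :
    AlgEquiv.restrictNormalHom N σ = AlgEquiv.restrictNormalHom N τ ↔ ∀ a ∈ N, σ a = τ a := by
  constructor
  · intro h a ha
    have h1 := AlgEquiv.restrictNormal_commutes σ N ⟨a, ha⟩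
    have h2 := AlgEquiv.restrictNormal_commutes τ N ⟨a, ha⟩
    have h3 : σ.restrictNormal N = τ.restrictNormal N := h
    rw [h3] at h1
    exact h1.symm.trans h2
  · intro h
    apply AlgEquiv.ext
    intro x
    apply Subtype.ext
    have h1 := AlgEquiv.restrictNormal_commutes σ N x
    have h2 := AlgEquiv.restrictNormal_commutes τ N x
    exact h1.trans ((h x x.2).trans h2.symm)

/-- Hilbert 90 for a cocycle trivial on the stabiliser of a finite normal extension. -/
private theorem h90_aux (N : IntermediateField ℚ Qb) [FiniteDimensional ℚ N] [hnorm : Normal ℚ N]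
    (c : GQ → Qb) (hne : ∀ σ, c σ ≠ 0)
    (hcoc : ∀ σ τ : GQ, c (σ * τ) = c σ * σ (c τ))
    (hN : ∀ σ : GQ, (∀ a ∈ N, σ a = a) → c σ = 1) :
    ∃ β : Qb, β ≠ 0 ∧ ∀ σ : GQ, c σ = σ β / β := by
  have hstab : ∀ (σ : GQ), ∀ a ∈ N, σ a ∈ N := by
    intro σ a ha
    have h := (IntermediateField.normal_iff_forall_map_le' (K := N)).mp hnorm σ
    exact h ⟨a, ha, rfl⟩
  have hright : ∀ σ τ : GQ, (∀ a ∈ N, τ a = a) → c (σ * τ) = c σ := by
    intro σ τ h
    rw [hcoc, hN τ h, map_one, mul_one]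
  have hfix : ∀ σ τ : GQ, (∀ a ∈ N, τ a = a) → τ (c σ) = c σ := by
    intro σ τ h
    have h' : ∀ a ∈ N, (σ⁻¹ * τ * σ) a = a := by
      intro a ha
      have h1 : τ (σ a) = σ a := h _ (hstab σ a ha)
      simp only [AlgEquiv.mul_apply, h1]
      exact σ.symm_apply_apply a
    have h1 : c (τ * σ) = c σ := by
      have h2 : τ * σ = σ * (σ⁻¹ * τ * σ) := by group
      rw [h2, hright σ _ h']
    have h2 := hcoc τ σ
    rw [h1, hN τ h, one_mul] at h2
    exact h2.symm
  have hmem : ∀ σ, c σ ∈ N := by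
    intro σ
    have h := InfiniteGalois.fixedField_fixingSubgroup N
    rw [← h, IntermediateField.mem_fixedField_iff]
    intro τ hτ
    exact hfix σ τ fun a ha => (IntermediateField.mem_fixingSubgroup_iff N τ).mp hτ a ha
  -- `c` only depends on the restriction to `N`
  have hdep : ∀ σ τ : GQ, AlgEquiv.restrictNormalHom N σ = AlgEquiv.restrictNormalHom N τ →
      c σ = c τ := by
    intro σ τ h
    have h1 : ∀ a ∈ N, (σ⁻¹ * τ) a = a := by
      intro a ha
      have h2 := (restrict_eq_iff N σ τ).mp h a ha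
      simp only [AlgEquiv.mul_apply, ← h2]
      exact σ.symm_apply_apply a
    have h2 : τ = σ * (σ⁻¹ * τ) := by group
    rw [h2, hright σ _ h1]
  have hsurj := AlgEquiv.restrictNormalHom_surjective (F := ℚ) (K₁ := N) Qb
  let lift : (N ≃ₐ[ℚ] N) → GQ := fun g => Classical.choose (hsurj g)
  have hlift : ∀ g, AlgEquiv.restrictNormalHom N (lift g) = g :=
    fun g => Classical.choose_spec (hsurj g)
  let f : (N ≃ₐ[ℚ] N) → Nˣ := fun g =>
    Units.mk0 ⟨c (lift g), hmem _⟩ (fun h => hne (lift g) (congrArg Subtype.val h))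
  have hf : groupCohomology.IsMulCocycle₁ f := by
    intro g h
    apply Units.ext
    apply Subtype.ext
    have h1 : c (lift (g * h)) = c (lift g * lift h) := by
      apply hdep
      rw [hlift, map_mul, hlift, hlift]
    have h2 : ((g (⟨c (lift h), hmem _⟩ : N) : N) : Qb) = (lift g) (c (lift h)) := by
      have h3 := AlgEquiv.restrictNormal_commutes (lift g) N ⟨c (lift h), hmem _⟩
      have h4 : (lift g).restrictNormal N = g := hlift g
      rw [h4] at h3
      exact h3
    simp only [f, Units.val_mul, Units.val_mk0, AlgEquiv.smul_units_def, Units.coe_map,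
      MonoidHom.coe_coe, MulMemClass.coe_mul]
    rw [h1, hcoc, mul_comm]
    exact congrArg (· * c (lift g)) h2.symm
  obtain ⟨β₀, hβ₀⟩ := groupCohomology.isMulCoboundary₁_of_isMulCocycle₁_of_aut_to_units f hf
  refine ⟨((β₀ : N) : Qb), fun h => β₀.ne_zero (Subtype.ext h), fun σ => ?_⟩
  have h1 : c σ = c (lift (AlgEquiv.restrictNormalHom N σ)) := hdep _ _ (hlift _).symm
  have h2 := hβ₀ (AlgEquiv.restrictNormalHom N σ)
  have h3 : (((f (AlgEquiv.restrictNormalHom N σ) : Nˣ) : N) : Qb)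
      = c (lift (AlgEquiv.restrictNormalHom N σ)) := rfl
  rw [h1, ← h3, ← h2]
  have h4 : ((σ.restrictNormal N (β₀ : N) : N) : Qb) = σ ((β₀ : N) : Qb) :=
    AlgEquiv.restrictNormal_commutes σ N (β₀ : N)
  rw [← h4]
  simp only [AlgEquiv.smul_units_def, Units.val_div_eq_div_val, Units.coe_map, MonoidHom.coe_coe]
  rfl

/-- **Hilbert 90 at finite level** for the absolute Galois group of `ℚ`: a cocycle with nonzero
values in `Qb` which is trivial on the stabiliser of a finite extension is a coboundary. -/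
theorem hilbert90_finLevel (c : GQ → Qb) (hne : ∀ σ, c σ ≠ 0)
    (hcoc : ∀ σ τ : GQ, c (σ * τ) = c σ * σ (c τ)) (hlev : FinLevelFun c) :
    ∃ β : Qb, β ≠ 0 ∧ ∀ σ : GQ, c σ = σ β / β := by
  obtain ⟨L, hLfin, hL⟩ := hlev
  have hLN : L ≤ IntermediateField.normalClosure ℚ L Qb := L.le_normalClosure
  have : FiniteDimensional ℚ (IntermediateField.normalClosure ℚ L Qb) :=
    normalClosure.is_finiteDimensional ℚ L Qb
  have hnorm : Normal ℚ (IntermediateField.normalClosure ℚ L Qb) := normalClosure.normal ℚ L Qb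
  exact h90_aux (IntermediateField.normalClosure ℚ L Qb) c hne hcoc
    (fun σ h => hL σ fun a ha => h a (hLN ha))

/-- **Kummer form of Hilbert 90 at finite level**: a cocycle of finite level with values of
exponent `r` is `σ ↦ σ β / β` with `β ^ r` a nonzero rational number. -/
theorem kummer_finLevel {r : ℕ} (hr : 0 < r) (c : GQ → Qb) (hpow : ∀ σ, c σ ^ r = 1)
    (hcoc : ∀ σ τ : GQ, c (σ * τ) = c σ * σ (c τ)) (hlev : FinLevelFun c) :
    ∃ (β : Qb) (u : ℚ), β ≠ 0 ∧ u ≠ 0 ∧ β ^ r = algebraMap ℚ Qb u ∧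
      ∀ σ : GQ, c σ = σ β / β := by
  have hne : ∀ σ, c σ ≠ 0 := by
    intro σ h
    have h1 := hpow σ
    rw [h, zero_pow hr.ne'] at h1
    exact zero_ne_one h1
  obtain ⟨β, hβ, hc⟩ := hilbert90_finLevel c hne hcoc hlev
  have hfix : ∀ σ : GQ, σ (β ^ r) = β ^ r := by
    intro σ
    have h1 : σ β = c σ * β := by
      rw [hc σ, div_mul_cancel₀ _ hβ]
    rw [map_pow, h1, mul_pow, hpow, one_mul]
  obtain ⟨u, hu⟩ := (InfiniteGalois.mem_range_algebraMap_iff_fixed (k := ℚ) (β ^ r)).mpr hfix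
  refine ⟨β, u, hβ, ?_, hu.symm, hc⟩
  intro h0
  rw [h0, map_zero] at hu
  exact pow_ne_zero r hβ hu.symm

end H90

/-! ## Steps of a Galois-stable flag -/

section Step

variable {J : Type*} [AddCommGroup J] [DistribMulAction GQ J]

/-- `y` has finite level: it is fixed by the pointwise stabiliser of a finite extension of `ℚ`
(the shape of `S29.helper8527.exists_finiteLevel_point`). -/
def FinLevel (y : J) : Prop :=
  ∃ L : IntermediateField ℚ Qb, FiniteDimensional ℚ L ∧
    ∀ σ : GQ, (∀ a ∈ L, σ a = a) → σ • y = y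

/-- The relative invariants of a subgroup `F`: the `y` with `σ • y - y ∈ F` for all `σ`
(the preimage of the Galois invariants of `J ⧸ F`). -/
def stepInv (F : AddSubgroup J) : AddSubgroup J where
  carrier := {y | ∀ σ : GQ, σ • y - y ∈ F}
  zero_mem' := fun σ => by simp
  add_mem' := by
    intro a b ha hb σ
    have h : σ • (a + b) - (a + b) = (σ • a - a) + (σ • b - b) := by
      rw [smul_add]; abel
    rw [h]
    exact F.add_mem (ha σ) (hb σ)
  neg_mem' := by
    intro a ha σ
    have h : σ • (-a) - (-a) = -(σ • a - a) := by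
      rw [smul_neg]; abel
    rw [h]
    exact F.neg_mem (ha σ)

theorem mem_stepInv {F : AddSubgroup J} {y : J} :
    y ∈ stepInv F ↔ ∀ σ : GQ, σ • y - y ∈ F := Iff.rfl

theorem stepInv_mono {F F' : AddSubgroup J} (h : F ≤ F') : stepInv F ≤ stepInv F' :=
  fun _ hy σ => h (hy σ)

/-- The cocycle identity for `σ ↦ σ • y - y`. -/
theorem smul_sub_self_mul (y : J) (σ τ : GQ) :
    (σ * τ) • y - y = σ • (τ • y - y) + (σ • y - y) := by
  rw [mul_smul, smul_sub]; abel

omit [DistribMulAction GQ J] in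
/-- A generic index bound: a map from `H` to a finite type whose fibres lie in cosets of `K`. -/
theorem relIndex_le_card_of_kap {X : Type*} [Finite X] (K H : AddSubgroup J)
    (kap : H → X) (hkap : ∀ y y' : H, kap y = kap y' → (y : J) - y' ∈ K) :
    K.relIndex H ≤ Nat.card X := by
  classical
  rw [AddSubgroup.relIndex, AddSubgroup.index]
  let g : (H ⧸ K.addSubgroupOf H) → X := fun q => kap (Quotient.out q)
  have hg : Function.Injective g := by
    intro q q' h
    have h1 := hkap _ _ h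
    have h2 : (Quotient.out q : H) - Quotient.out q' ∈ K.addSubgroupOf H := by
      rw [AddSubgroup.mem_addSubgroupOf]
      simpa using h1
    have h3 : ((Quotient.out q : H) : H ⧸ K.addSubgroupOf H) = (Quotient.out q' : H) := by
      rw [QuotientAddGroup.eq]
      have h4 : -(Quotient.out q : H) + Quotient.out q' = -((Quotient.out q : H) - Quotient.out q') := by
        abel
      rw [h4]
      exact (K.addSubgroupOf H).neg_mem h2
    have h5 : ((Quotient.out q : H) : H ⧸ K.addSubgroupOf H) = q := Quotient.out_eq q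
    have h6 : ((Quotient.out q' : H) : H ⧸ K.addSubgroupOf H) = q' := Quotient.out_eq q'
    rw [← h5, ← h6]
    exact h3
  exact Nat.card_le_card_of_injective g hg

omit [DistribMulAction GQ J] in
/-- Under the hypothesis of `relIndex_le_card_of_kap` the index is finite (nonzero). -/
theorem relIndex_ne_zero_of_kap {X : Type*} [Finite X] (K H : AddSubgroup J)
    (kap : H → X) (hkap : ∀ y y' : H, kap y = kap y' → (y : J) - y' ∈ K) :
    K.relIndex H ≠ 0 := by
  classical
  rw [AddSubgroup.relIndex, AddSubgroup.index]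
  let g : (H ⧸ K.addSubgroupOf H) → X := fun q => kap (Quotient.out q)
  have hg : Function.Injective g := by
    intro q q' h
    have h1 := hkap _ _ h
    have h2 : (Quotient.out q : H) - Quotient.out q' ∈ K.addSubgroupOf H := by
      rw [AddSubgroup.mem_addSubgroupOf]
      simpa using h1
    have h3 : ((Quotient.out q : H) : H ⧸ K.addSubgroupOf H) = (Quotient.out q' : H) := by
      rw [QuotientAddGroup.eq]
      have h4 : -(Quotient.out q : H) + Quotient.out q' = -((Quotient.out q : H) - Quotient.out q') := by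
        abel
      rw [h4]
      exact (K.addSubgroupOf H).neg_mem h2
    have h5 : ((Quotient.out q : H) : H ⧸ K.addSubgroupOf H) = q := Quotient.out_eq q
    have h6 : ((Quotient.out q' : H) : H ⧸ K.addSubgroupOf H) = q' := Quotient.out_eq q'
    rw [← h5, ← h6]
    exact h3
  have : Finite (H ⧸ K.addSubgroupOf H) := Finite.of_injective g hg
  exact Nat.card_pos.ne'

/-! ### Part X: steps with Galois acting through roots of unity -/

/-- A step `F ≤ F'` of a Galois-stable flag on which Galois acts through the `r`-th roots of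
unity, presented by a coordinate `φ` (only its values on `F'` matter). -/
structure ChiStep (r : ℕ) (F F' : AddSubgroup J) (φ : J → Qb) : Prop where
  le : F ≤ F'
  stable : ∀ (σ : GQ), ∀ x ∈ F', σ • x ∈ F'
  mul : ∀ x ∈ F', ∀ x' ∈ F', φ (x + x') = φ x * φ x'
  pow : ∀ x ∈ F', φ x ^ r = 1
  equi : ∀ (σ : GQ), ∀ x ∈ F', φ (σ • x) = σ (φ x)
  ker : ∀ x ∈ F', φ x = 1 ↔ x ∈ F

namespace ChiStep

variable {r : ℕ} {F F' : AddSubgroup J} {φ : J → Qb}

theorem map_zero (h : ChiStep r F F' φ) : φ 0 = 1 :=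
  (h.ker 0 F'.zero_mem).mpr F.zero_mem

theorem map_ne_zero (h : ChiStep r F F' φ) (hr : 0 < r) {x : J} (hx : x ∈ F') : φ x ≠ 0 := by
  intro h0
  have h1 := h.pow x hx
  rw [h0, zero_pow hr.ne'] at h1
  exact zero_ne_one h1

theorem map_neg (h : ChiStep r F F' φ) {x : J} (hx : x ∈ F') : φ (-x) = (φ x)⁻¹ := by
  have h1 := h.mul x hx (-x) (F'.neg_mem hx)
  rw [add_neg_cancel, h.map_zero] at h1
  exact eq_inv_of_mul_eq_one_right h1.symm

theorem map_sub (h : ChiStep r F F' φ) {x x' : J} (hx : x ∈ F') (hx' : x' ∈ F') :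
    φ (x - x') = φ x / φ x' := by
  rw [sub_eq_add_neg, h.mul x hx (-x') (F'.neg_mem hx'), h.map_neg hx', div_eq_mul_inv]

theorem smul_sub_mem (h : ChiStep r F F' φ) (σ : GQ) {x : J} (hx : x ∈ F') :
    σ • x - x ∈ F' :=
  F'.sub_mem (h.stable σ x hx) hx

/-- The cocycle of a relative invariant. -/
theorem cocycle (h : ChiStep r F F' φ) {y : J} (hy : y ∈ stepInv F') (σ τ : GQ) :
    φ ((σ * τ) • y - y) = φ (σ • y - y) * σ (φ (τ • y - y)) := by
  rw [smul_sub_self_mul, h.mul _ (h.stable σ _ (hy τ)) _ (hy σ), h.equi σ _ (hy τ), mul_comm]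

end ChiStep

/-- `(β, u)` is a Kummer pair of `y` for the coordinate `φ`: `β ^ r = u ∈ ℚˣ` and
`φ (σ • y - y) = σ β / β` for all `σ`. -/
def IsKummerPair (r : ℕ) (φ : J → Qb) (y : J) (β : Qb) (u : ℚ) : Prop :=
  β ≠ 0 ∧ u ≠ 0 ∧ β ^ r = algebraMap ℚ Qb u ∧ ∀ σ : GQ, φ (σ • y - y) = σ β / β

namespace ChiStep

variable {r : ℕ} {F F' : AddSubgroup J} {φ : J → Qb}

/-- **(X1)** Every relative invariant of finite level has a Kummer pair. -/
theorem exists_isKummerPair (h : ChiStep r F F' φ) (hr : 0 < r) {y : J}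
    (hy : y ∈ stepInv F') (hlev : FinLevel y) :
    ∃ (β : Qb) (u : ℚ), IsKummerPair r φ y β u := by
  have hlev' : FinLevelFun (fun σ : GQ => φ (σ • y - y)) := by
    obtain ⟨L, hL, hfix⟩ := hlev
    refine ⟨L, hL, fun σ hσ => ?_⟩
    change φ (σ • y - y) = 1
    rw [hfix σ hσ, sub_self, h.map_zero]
  obtain ⟨β, u, hβ, hu, hpow, hc⟩ := kummer_finLevel hr (fun σ : GQ => φ (σ • y - y))
    (fun σ => h.pow _ (hy σ)) (fun σ τ => h.cocycle hy σ τ) hlev'
  exact ⟨β, u, hβ, hu, hpow, hc⟩

end ChiStep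

namespace IsKummerPair

variable {r : ℕ} {F F' : AddSubgroup J} {φ : J → Qb} {y y' : J} {β β' : Qb} {u u' : ℚ}

/-- **(X2a)** If a subgroup `I` (an inertia group, a decomposition group, complex conjugation)
moves `y` inside `F`, then `β` is fixed by `I`. -/
theorem fixed_of_mem (hp : IsKummerPair r φ y β u) (h : ChiStep r F F' φ) {σ : GQ}
    (hσ : σ • y - y ∈ F) : σ β = β := by
  have h1 := hp.2.2.2 σ
  rw [(h.ker _ (h.le hσ)).mpr hσ] at h1
  have h2 := (eq_div_iff hp.1).mp h1
  rw [one_mul] at h2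
  exact h2.symm

/-- **(X2b)** Unit form: if on `σ` the cocycle is `σ b / b`, then `z = β / b` is fixed by `σ`,
and `u = b ^ r * z ^ r`. -/
theorem fixed_div_of_eq (hp : IsKummerPair r φ y β u) {b : Qb} (hb : b ≠ 0) {σ : GQ}
    (hσ : φ (σ • y - y) = σ b / b) : σ (β / b) = β / b := by
  have h1 := hp.2.2.2 σ
  rw [hσ] at h1
  have hσb : σ b ≠ 0 := (map_ne_zero σ).mpr hb
  rw [map_div₀]
  rw [div_eq_div_iff hb hp.1] at h1
  rw [div_eq_div_iff hσb hb]
  linear_combination -h1

theorem eq_mul_pow_div (hp : IsKummerPair r φ y β u) {b : Qb} (hb : b ≠ 0) :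
    algebraMap ℚ Qb u = b ^ r * (β / b) ^ r := by
  rw [← hp.2.2.1, div_pow, mul_div_cancel₀ _ (pow_ne_zero r hb)]

/-- **(X2c)** The class of `u` modulo `r`-th powers only depends on `y`. -/
theorem eq_mul_pow (hp : IsKummerPair r φ y β u) (hp' : IsKummerPair r φ y β' u') :
    ∃ w : ℚ, w ≠ 0 ∧ u = u' * w ^ r := by
  have hfix : ∀ σ : GQ, σ (β / β') = β / β' := by
    intro σ
    have h1 := hp.2.2.2 σ
    rw [hp'.2.2.2 σ] at h1
    have hσβ : σ β' ≠ 0 := (map_ne_zero σ).mpr hp'.1
    rw [map_div₀]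
    rw [div_eq_div_iff hp'.1 hp.1] at h1
    rw [div_eq_div_iff hσβ hp'.1]
    linear_combination -h1
  obtain ⟨w, hw⟩ := (InfiniteGalois.mem_range_algebraMap_iff_fixed (k := ℚ) (β / β')).mpr hfix
  have hw0 : w ≠ 0 := by
    intro h0
    rw [h0, map_zero] at hw
    exact div_ne_zero hp.1 hp'.1 hw.symm
  refine ⟨w, hw0, ?_⟩
  apply (algebraMap ℚ Qb).injective
  rw [map_mul, map_pow, hw, ← hp.2.2.1, ← hp'.2.2.1, div_pow,
    mul_div_cancel₀ _ (pow_ne_zero r hp'.1)]

/-- A relative invariant of the smaller subgroup has the trivial Kummer pair. -/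
theorem of_mem_stepInv (h : ChiStep r F F' φ) (hy : y ∈ stepInv F) :
    IsKummerPair r φ y 1 1 := by
  refine ⟨one_ne_zero, one_ne_zero, by simp, fun σ => ?_⟩
  rw [(h.ker _ (h.le (hy σ))).mpr (hy σ), map_one, div_one]

/-- An element `g` of `F'` has the Kummer pair `(φ g, 1)`. -/
theorem of_mem (h : ChiStep r F F' φ) (hr : 0 < r) {g : J} (hg : g ∈ F') :
    IsKummerPair r φ g (φ g) 1 := by
  refine ⟨h.map_ne_zero hr hg, one_ne_zero, by rw [h.pow g hg, map_one], fun σ => ?_⟩
  rw [h.map_sub (h.stable σ g hg) hg, h.equi σ g hg]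

/-- Kummer pairs are additive. -/
theorem add (hp : IsKummerPair r φ y β u) (hp' : IsKummerPair r φ y' β' u')
    (h : ChiStep r F F' φ) (hy : y ∈ stepInv F') (hy' : y' ∈ stepInv F') :
    IsKummerPair r φ (y + y') (β * β') (u * u') := by
  refine ⟨mul_ne_zero hp.1 hp'.1, mul_ne_zero hp.2.1 hp'.2.1, ?_, fun σ => ?_⟩
  · rw [mul_pow, hp.2.2.1, hp'.2.2.1, map_mul]
  · have h1 : σ • (y + y') - (y + y') = (σ • y - y) + (σ • y' - y') := by
      rw [smul_add]; abel
    rw [h1, h.mul _ (hy σ) _ (hy' σ), hp.2.2.2 σ, hp'.2.2.2 σ, map_mul, div_mul_div_comm]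

/-- Kummer pair of the negative. -/
theorem neg (hp : IsKummerPair r φ y β u) (h : ChiStep r F F' φ) (hy : y ∈ stepInv F') :
    IsKummerPair r φ (-y) β⁻¹ u⁻¹ := by
  refine ⟨inv_ne_zero hp.1, inv_ne_zero hp.2.1, ?_, fun σ => ?_⟩
  · rw [inv_pow, hp.2.2.1, map_inv₀]
  · have h1 : σ • (-y) - (-y) = -(σ • y - y) := by
      rw [smul_neg]; abel
    rw [h1, h.map_neg (hy σ), hp.2.2.2 σ, map_inv₀, inv_div_inv, inv_div]

/-- **(X3)** Injectivity modulo `F'`: if the classes of `u` and `u'` agree modulo `r`-th powers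
and `φ` is onto the `r`-th roots of unity, then `y - y' ∈ stepInv F ⊔ F'`. -/
theorem sub_mem_sup (hp : IsKummerPair r φ y β u) (hp' : IsKummerPair r φ y' β' u')
    (h : ChiStep r F F' φ) (hy : y ∈ stepInv F') (hy' : y' ∈ stepInv F')
    (hsurj : ∀ ζ : Qb, ζ ^ r = 1 → ∃ g ∈ F', φ g = ζ)
    {w : ℚ} (hw : w ≠ 0) (huw : u = u' * w ^ r) :
    y - y' ∈ stepInv F ⊔ F' := by
  have hw' : algebraMap ℚ Qb w ≠ 0 := by
    intro h0
    exact hw ((algebraMap ℚ Qb).injective (h0.trans (map_zero _).symm))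
  set ζ : Qb := β / (β' * algebraMap ℚ Qb w) with hζ
  have hζr : ζ ^ r = 1 := by
    rw [hζ, div_pow, mul_pow, hp.2.2.1, hp'.2.2.1, huw, map_mul, map_pow]
    exact div_self (mul_ne_zero ((map_ne_zero _).mpr hp'.2.1) (pow_ne_zero r hw'))
  obtain ⟨g, hg, hφg⟩ := hsurj ζ hζr
  have hζ0 : ζ ≠ 0 := div_ne_zero hp.1 (mul_ne_zero hp'.1 hw')
  have hz : y - y' - g ∈ stepInv F := by
    intro σ
    have hmem : σ • (y - y' - g) - (y - y' - g) ∈ F' := by
      have h1 : σ • (y - y' - g) - (y - y' - g)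
          = (σ • y - y) - (σ • y' - y') - (σ • g - g) := by
        rw [smul_sub, smul_sub]; abel
      rw [h1]
      exact F'.sub_mem (F'.sub_mem (hy σ) (hy' σ)) (h.smul_sub_mem σ hg)
    rw [← h.ker _ hmem]
    have h1 : σ • (y - y' - g) - (y - y' - g)
        = (σ • y - y) - (σ • y' - y') - (σ • g - g) := by
      rw [smul_sub, smul_sub]; abel
    rw [h1, h.map_sub (F'.sub_mem (hy σ) (hy' σ)) (h.smul_sub_mem σ hg),
      h.map_sub (hy σ) (hy' σ), h.map_sub (h.stable σ g hg) hg, h.equi σ g hg, hφg,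
      hp.2.2.2 σ, hp'.2.2.2 σ]
    have hσβ' : σ β' ≠ 0 := (map_ne_zero σ).mpr hp'.1
    have hσζ : σ ζ ≠ 0 := (map_ne_zero σ).mpr hζ0
    have hσζ' : σ ζ = σ β / (σ β' * algebraMap ℚ Qb w) := by
      rw [hζ, map_div₀, map_mul, AlgEquiv.commutes]
    rw [hσζ', hζ]
    have hσβ : σ β ≠ 0 := (map_ne_zero σ).mpr hp.1
    have hβ0 : β ≠ 0 := hp.1
    have hβ0' : β' ≠ 0 := hp'.1
    field_simp
  have h2 : y - y' = (y - y' - g) + g := by abel
  rw [h2]
  exact AddSubgroup.add_mem_sup hz hg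

end IsKummerPair

namespace ChiStep

variable {r : ℕ} {F F' : AddSubgroup J} {φ : J → Qb}

/-- **(X4)** The index bound for a step with roots-of-unity action: if every relative invariant
has a Kummer pair whose `u` lies in `S` up to `r`-th powers, then the cokernel of
`(J ⧸ F)^G → (J ⧸ F')^G` has at most `#S` elements. -/
theorem relIndex_le_card (h : ChiStep r F F' φ)
    (hsurj : ∀ ζ : Qb, ζ ^ r = 1 → ∃ g ∈ F', φ g = ζ)
    (S : Set ℚ) (hS : S.Finite)
    (hcl : ∀ y ∈ stepInv F', ∃ (β : Qb) (u : ℚ), IsKummerPair r φ y β u ∧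
      ∃ s ∈ S, ∃ w : ℚ, w ≠ 0 ∧ u = s * w ^ r) :
    (stepInv F ⊔ F').relIndex (stepInv F') ≤ Nat.card S := by
  classical
  have : Finite S := hS
  choose β u hpair s hsS w hw hu using hcl
  let kap : stepInv F' → S := fun y => ⟨s y y.2, hsS y y.2⟩
  refine relIndex_le_card_of_kap _ _ kap ?_
  intro y y' hk
  have hs : s y y.2 = s y' y'.2 := congrArg Subtype.val hk
  have hw' : w y y.2 / w y' y'.2 ≠ 0 := div_ne_zero (hw y y.2) (hw y' y'.2)
  refine (hpair y y.2).sub_mem_sup (hpair y' y'.2) h y.2 y'.2 hsurj hw' ?_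
  rw [hu y y.2, hu y' y'.2, hs, div_pow, mul_assoc,
    mul_div_cancel₀ _ (pow_ne_zero r (hw y' y'.2))]

/-- **(X4')** The index bound with classes indexed by a finite type `X`: if every relative
invariant has a Kummer pair with `u = cls x * w ^ r`, the index is finite and at most `#X`. -/
theorem relIndex_le_of_class {X : Type*} [Finite X] (h : ChiStep r F F' φ)
    (hsurj : ∀ ζ : Qb, ζ ^ r = 1 → ∃ g ∈ F', φ g = ζ) (cls : X → ℚ)
    (hcl : ∀ y ∈ stepInv F', ∃ (β : Qb) (u : ℚ), IsKummerPair r φ y β u ∧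
      ∃ x : X, ∃ w : ℚ, w ≠ 0 ∧ u = cls x * w ^ r) :
    (stepInv F ⊔ F').relIndex (stepInv F') ≠ 0 ∧
      (stepInv F ⊔ F').relIndex (stepInv F') ≤ Nat.card X := by
  classical
  choose β u hpair x w hw hu using hcl
  let kap : stepInv F' → X := fun y => x y y.2
  have hkap : ∀ y y' : stepInv F', kap y = kap y' → (y : J) - y' ∈ stepInv F ⊔ F' := by
    intro y y' hk
    have hs : x y y.2 = x y' y'.2 := hk
    have hw' : w y y.2 / w y' y'.2 ≠ 0 := div_ne_zero (hw y y.2) (hw y' y'.2)
    refine (hpair y y.2).sub_mem_sup (hpair y' y'.2) h y.2 y'.2 hsurj hw' ?_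
    rw [hu y y.2, hu y' y'.2, hs, div_pow, mul_assoc,
      mul_div_cancel₀ _ (pow_ne_zero r (hw y' y'.2))]
  exact ⟨relIndex_ne_zero_of_kap _ _ kap hkap, relIndex_le_card_of_kap _ _ kap hkap⟩

/-- For `r` prime and a nontrivial step, `φ` is onto the `r`-th roots of unity. -/
theorem surj_of_not_le (h : ChiStep r F F' φ) (hr : r.Prime) (hne : ¬ F' ≤ F) :
    ∀ ζ : Qb, ζ ^ r = 1 → ∃ g ∈ F', φ g = ζ := by
  obtain ⟨g, hg, hgF⟩ := Set.not_subset.mp hne
  have hζ0 : φ g ≠ 1 := fun h1 => hgF ((h.ker g hg).mp h1)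
  have hprim : IsPrimitiveRoot (φ g) r := by
    have h1 : orderOf (φ g) ∣ r := orderOf_dvd_of_pow_eq_one (h.pow g hg)
    rcases (Nat.dvd_prime hr).mp h1 with h2 | h2
    · exact absurd (orderOf_eq_one_iff.mp h2) hζ0
    · rw [← h2]
      exact IsPrimitiveRoot.orderOf (φ g)
  have hpow : ∀ k : ℕ, k • g ∈ F' ∧ φ (k • g) = φ g ^ k := by
    intro k
    induction k with
    | zero => exact ⟨by simp, by simp [h.map_zero]⟩
    | succ k ih =>
      refine ⟨F'.nsmul_mem hg _, ?_⟩
      rw [succ_nsmul, h.mul _ ih.1 _ hg, ih.2, pow_succ]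
  intro ζ hζ
  have : NeZero r := ⟨hr.ne_zero⟩
  obtain ⟨k, _, hk⟩ := hprim.eq_pow_of_pow_eq_one hζ
  exact ⟨k • g, (hpow k).1, (hpow k).2.trans hk⟩

end ChiStep

/-! ### Part T: steps with trivial Galois action -/

/-- A step `F ≤ F'` of a Galois-stable flag with trivial Galois action, presented by a
coordinate `ψ` with values in `ZMod r` (only its values on `F'` matter). -/
structure TrivStep (r : ℕ) (F F' : AddSubgroup J) (ψ : J → ZMod r) : Prop where
  le : F ≤ F'
  stable : ∀ (σ : GQ), ∀ x ∈ F', σ • x ∈ F'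
  add : ∀ x ∈ F', ∀ x' ∈ F', ψ (x + x') = ψ x + ψ x'
  inv : ∀ (σ : GQ), ∀ x ∈ F', ψ (σ • x) = ψ x
  ker : ∀ x ∈ F', ψ x = 0 ↔ x ∈ F

namespace TrivStep

variable {r : ℕ} {F F' : AddSubgroup J} {ψ : J → ZMod r}

theorem map_zero (h : TrivStep r F F' ψ) : ψ 0 = 0 :=
  (h.ker 0 F'.zero_mem).mpr F.zero_mem

theorem map_neg (h : TrivStep r F F' ψ) {x : J} (hx : x ∈ F') : ψ (-x) = -ψ x := by
  have h1 := h.add x hx (-x) (F'.neg_mem hx)
  rw [add_neg_cancel, h.map_zero] at h1
  exact eq_neg_of_add_eq_zero_right h1.symm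

theorem map_sub (h : TrivStep r F F' ψ) {x x' : J} (hx : x ∈ F') (hx' : x' ∈ F') :
    ψ (x - x') = ψ x - ψ x' := by
  rw [sub_eq_add_neg, h.add x hx (-x') (F'.neg_mem hx'), h.map_neg hx', sub_eq_add_neg]

/-- **(T1)** The character of a relative invariant of a trivial step. -/
noncomputable def char (h : TrivStep r F F' ψ) (y : J) (hy : y ∈ stepInv F') :
    GQ →* Multiplicative (ZMod r) where
  toFun := fun σ => Multiplicative.ofAdd (ψ (σ • y - y))
  map_one' := by
    rw [one_smul, sub_self, h.map_zero]; rfl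
  map_mul' := by
    intro σ τ
    rw [smul_sub_self_mul, h.add _ (h.stable σ _ (hy τ)) _ (hy σ), h.inv σ _ (hy τ), add_comm]
    rfl

@[simp] theorem char_apply (h : TrivStep r F F' ψ) (y : J) (hy : y ∈ stepInv F') (σ : GQ) :
    h.char y hy σ = Multiplicative.ofAdd (ψ (σ • y - y)) := rfl

/-- **(T1)** finite level. -/
theorem char_finiteLevel (h : TrivStep r F F' ψ) {y : J} (hy : y ∈ stepInv F')
    (hlev : FinLevel y) : GaloisFactorsThroughFiniteLevel (h.char y hy) := by
  obtain ⟨L, hL, hfix⟩ := hlev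
  refine ⟨L, hL, fun σ hσ => ?_⟩
  rw [char_apply, hfix σ hσ, sub_self, h.map_zero]; rfl

/-- **(T2)** If `σ` moves `y` inside `F`, the character is trivial at `σ`. -/
theorem char_eq_one_of_mem (h : TrivStep r F F' ψ) {y : J} (hy : y ∈ stepInv F') {σ : GQ}
    (hσ : σ • y - y ∈ F) : h.char y hy σ = 1 := by
  rw [char_apply, (h.ker _ (h.le hσ)).mpr hσ]; rfl

/-- The converse of (T2). -/
theorem mem_of_char_eq_one (h : TrivStep r F F' ψ) {y : J} (hy : y ∈ stepInv F') {σ : GQ}
    (hσ : h.char y hy σ = 1) : σ • y - y ∈ F := by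
  rw [char_apply] at hσ
  exact (h.ker _ (hy σ)).mp (Multiplicative.ofAdd.injective hσ)

/-- The character is additive in `y`. -/
theorem char_add (h : TrivStep r F F' ψ) {y y' : J} (hy : y ∈ stepInv F')
    (hy' : y' ∈ stepInv F') :
    h.char (y + y') ((stepInv F').add_mem hy hy') = h.char y hy * h.char y' hy' := by
  ext σ
  have h1 : σ • (y + y') - (y + y') = (σ • y - y) + (σ • y' - y') := by
    rw [smul_add]; abel
  simp only [char_apply, MonoidHom.mul_apply, h1, h.add _ (hy σ) _ (hy' σ)]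
  rfl

/-- **(T3)** Injectivity: equal characters differ by a relative invariant of `F`. -/
theorem sub_mem_of_char_eq (h : TrivStep r F F' ψ) {y y' : J} (hy : y ∈ stepInv F')
    (hy' : y' ∈ stepInv F') (heq : h.char y hy = h.char y' hy') : y - y' ∈ stepInv F := by
  intro σ
  have h1 : σ • (y - y') - (y - y') = (σ • y - y) - (σ • y' - y') := by
    rw [smul_sub]; abel
  have hmem : (σ • y - y) - (σ • y' - y') ∈ F' := F'.sub_mem (hy σ) (hy' σ)
  rw [h1, ← h.ker _ hmem, h.map_sub (hy σ) (hy' σ), sub_eq_zero]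
  have h2 := congrArg (fun χ : GQ →* Multiplicative (ZMod r) => χ σ) heq
  simp only [char_apply] at h2
  exact Multiplicative.ofAdd.injective h2

/-- **(T4)** The index bound for a trivial step: if all characters of relative invariants lie in
a finite set `S`, the cokernel of `(J ⧸ F)^G → (J ⧸ F')^G` has at most `#S` elements. -/
theorem relIndex_le_card (h : TrivStep r F F' ψ)
    (S : Set (GQ →* Multiplicative (ZMod r))) (hS : S.Finite)
    (hcl : ∀ (y : J) (hy : y ∈ stepInv F'), h.char y hy ∈ S) :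
    (stepInv F ⊔ F').relIndex (stepInv F') ≤ Nat.card S := by
  have : Finite S := hS
  let kap : stepInv F' → S := fun y => ⟨h.char y y.2, hcl y y.2⟩
  refine relIndex_le_card_of_kap _ _ kap ?_
  intro y y' hk
  have hs : h.char y y.2 = h.char y' y'.2 := congrArg Subtype.val hk
  exact (le_sup_left : stepInv F ≤ stepInv F ⊔ F') (h.sub_mem_of_char_eq y.2 y'.2 hs)

/-- **(T4')** The index bound for a trivial step with classes indexed by a finite type. -/
theorem relIndex_le_of_class {X : Type*} [Finite X] (h : TrivStep r F F' ψ)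
    (cls : X → (GQ →* Multiplicative (ZMod r)))
    (hcl : ∀ (y : J) (hy : y ∈ stepInv F'), ∃ x : X, h.char y hy = cls x) :
    (stepInv F ⊔ F').relIndex (stepInv F') ≠ 0 ∧
      (stepInv F ⊔ F').relIndex (stepInv F') ≤ Nat.card X := by
  classical
  choose x hx using hcl
  let kap : stepInv F' → X := fun y => x y y.2
  have hkap : ∀ y y' : stepInv F', kap y = kap y' → (y : J) - y' ∈ stepInv F ⊔ F' := by
    intro y y' hk
    have hs : x y y.2 = x y' y'.2 := hk
    have h1 : h.char y y.2 = h.char y' y'.2 := by rw [hx y y.2, hx y' y'.2, hs]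
    exact (le_sup_left : stepInv F ≤ stepInv F ⊔ F') (h.sub_mem_of_char_eq y.2 y'.2 h1)
  exact ⟨relIndex_ne_zero_of_kap _ _ kap hkap, relIndex_le_card_of_kap _ _ kap hkap⟩

/-- On a trivial step Galois moves the points of `F'` inside `F`. -/
theorem smul_sub_mem (h : TrivStep r F F' ψ) (σ : GQ) {x : J} (hx : x ∈ F') :
    σ • x - x ∈ F := by
  have hmem : σ • x - x ∈ F' := F'.sub_mem (h.stable σ x hx) hx
  rw [← h.ker _ hmem, h.map_sub (h.stable σ x hx) hx, h.inv σ x hx, sub_self]

theorem le_stepInv (h : TrivStep r F F' ψ) : F' ≤ stepInv F :=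
  fun _ hx σ => h.smul_sub_mem σ hx

end TrivStep

end Step

end Fermat.Agent.S15.helper7259
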