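/-
helper7259 — S15/S12 pre-brick (STEP-BOUND): the per-type step bounds of the Eisenstein descent,
closed against the global class counts (G1) of helper1476.

For a step `F ≤ F'` of a Galois-stable flag, with local hypotheses in the shapes delivered by
(LOC-v), (R1)/(R2)/(R3) and (P1):

* roots-of-unity step, `r` odd:  unit classes at all primes ⟹ index `≤ 1`;
                                 unit classes at all primes `≠ p` ⟹ index `≤ r`;
* trivial step:                  unramified at all primes ⟹ index `≤ 1`;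
                                 unramified at all primes `≠ p` ⟹ index `≤ r`;
* `r = 2`: the four cases étale/connected × toric/non-toric: `≤ 1`, `≤ 2`, `≤ 2`, `≤ 4`.

The index is `(stepInv F ⊔ F').relIndex (stepInv F')`, i.e. `cokIdx GQ F F'` of helper4190.
-/
import Fermat.Agent.S15.helper7259_StepClass
import Fermat.Agent.S15.helper1476_GlobalClasses
import Fermat.Prelude.Def_GaloisRep_ComplexConjugation

set_option autoImplicit false

namespace Fermat.Agent.S15.helper7259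

open Fermat.Agent.S15.helper1476

section Bound

variable {J : Type*} [AddCommGroup J] [DistribMulAction GQ J]

/-- The step cocycle of `y` is unramified at `q`: for ONE valuation subring over `q`, its inertia
group moves `y` inside `F`.  (Output shape of (LOC-v), (R1), (P1).) -/
def UnramStepAt (F : AddSubgroup J) (y : J) (q : ℕ) : Prop :=
  ∃ A : ValuationSubring Qb, A.LiesOverPrime q ∧
    ∀ σ ∈ A.inertiaSubgroupIn ℚ, σ • y - y ∈ F

/-- The step cocycle of `y` is a unit class at `q`: for ONE valuation subring `A` over `q` there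
is a unit `b` of `A` with `φ (σ • y - y) = σ b / b` on the inertia group.  (Output shape of
TORSOR-UNIT (R2); the unramified case is `b = 1`.) -/
def UnitStepAt (φ : J → Qb) (y : J) (q : ℕ) : Prop :=
  ∃ A : ValuationSubring Qb, A.LiesOverPrime q ∧ ∃ b : Qb, A.valuation b = 1 ∧
    ∀ σ ∈ A.inertiaSubgroupIn ℚ, φ (σ • y - y) = σ b / b

variable {r : ℕ} {F F' : AddSubgroup J} {φ : J → Qb}

theorem UnramStepAt.unitStepAt (h : ChiStep r F F' φ) {y : J} {q : ℕ}
    (hun : UnramStepAt F y q) : UnitStepAt φ y q := by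
  obtain ⟨A, hA, hI⟩ := hun
  refine ⟨A, hA, 1, map_one _, fun σ hσ => ?_⟩
  rw [(h.ker _ (h.le (hI σ hσ))).mpr (hI σ hσ), map_one, div_one]

/-- The unit-class condition from a coboundary by an element `β` with `β, β⁻¹ ∈ A`
(the output shape of `helper1908.unit_class_closed` / `helper4570.unit_of_char`). -/
theorem ChiStep.unitStepAt_of_mem (h : ChiStep r F F' φ) {y : J} {q : ℕ}
    (A : ValuationSubring Qb) (hA : A.LiesOverPrime q) (β : Qb) (hβ : β ∈ A) (hβ' : β⁻¹ ∈ A)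
    (hI : ∀ σ ∈ A.inertiaSubgroupIn ℚ, φ (σ • y - y) = σ β / β) : UnitStepAt φ y q := by
  have hβ0 : β ≠ 0 := by
    intro h0
    have h1 := hI 1 (Subgroup.one_mem _)
    rw [one_smul, sub_self, h.map_zero, h0, div_zero] at h1
    exact one_ne_zero h1
  have h1 : A.valuation β ≤ 1 := (A.valuation_le_one_iff β).mpr hβ
  have h2 : A.valuation β⁻¹ ≤ 1 := (A.valuation_le_one_iff β⁻¹).mpr hβ'
  have hv0 : A.valuation β ≠ 0 := (_root_.map_ne_zero _).mpr hβ0
  rw [map_inv₀, inv_le_one₀ (zero_lt_iff.mpr hv0)] at h2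
  exact ⟨A, hA, β, le_antisymm h1 h2, hI⟩

/-- **(K1) on a Kummer pair**: a unit class at `q` has `r ∣ v_q(u)`. -/
theorem IsKummerPair.dvd_padicValRat {y : J} {β : Qb} {u : ℚ} (hp : IsKummerPair r φ y β u)
    {q : ℕ} (hq : q.Prime) (hun : UnitStepAt φ y q) : (r : ℤ) ∣ padicValRat q u := by
  obtain ⟨A, hA, b, hb1, hI⟩ := hun
  have hb : b ≠ 0 := by
    intro h0
    rw [h0, map_zero] at hb1
    exact zero_ne_one hb1
  refine dvd_padicValRat_of_unit_class hq A hA r hp.2.1 (b ^ r) (β / b) ?_ ?_ ?_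
  · rw [map_pow, hb1, one_pow]
  · exact fun σ hσ => hp.fixed_div_of_eq hb (hI σ hσ)
  · rw [← hp.eq_mul_pow_div hb]
    exact (eq_ratCast (algebraMap ℚ Qb) u).symm

/-! ### Roots-of-unity steps, `r` odd -/

/-- **(χ, non-toric, `r` odd)** unit classes at all primes: the step contributes no cokernel. -/
theorem ChiStep.relIndex_le_one_of_odd (h : ChiStep r F F' φ) (hr : 0 < r) (hodd : Odd r)
    (hsurj : ∀ ζ : Qb, ζ ^ r = 1 → ∃ g ∈ F', φ g = ζ)
    (hlev : ∀ y ∈ stepInv F', FinLevel y)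
    (hloc : ∀ y ∈ stepInv F', ∀ q : ℕ, q.Prime → UnitStepAt φ y q) :
    (stepInv F ⊔ F').relIndex (stepInv F') ≠ 0 ∧
      (stepInv F ⊔ F').relIndex (stepInv F') ≤ 1 := by
  have key := h.relIndex_le_of_class (X := Unit) hsurj (fun _ => (1 : ℚ)) (by
    intro y hy
    obtain ⟨β, u, hp⟩ := h.exists_isKummerPair hr hy (hlev y hy)
    refine ⟨β, u, hp, (), ?_⟩
    obtain ⟨ε, w, hε, hw, hu⟩ := exists_eq_sign_mul_pow r hp.2.1
      (fun q hq => hp.dvd_padicValRat hq (hloc y hy q hq))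
    have hεr : ε ^ r = ε := by
      rcases hε with h1 | h1
      · rw [h1, one_pow]
      · rw [h1, hodd.neg_one_pow]
    have hε0 : ε ≠ 0 := by
      rcases hε with h1 | h1 <;> rw [h1] <;> norm_num
    exact ⟨ε * w, mul_ne_zero hε0 hw, by rw [one_mul, mul_pow, hεr, hu]⟩)
  simpa using key

/-- **(χ, toric, `r` odd)** unit classes at all primes `≠ p`: index at most `r`. -/
theorem ChiStep.relIndex_le_of_odd (h : ChiStep r F F' φ) (hr : 0 < r) (hodd : Odd r)
    {p : ℕ} (hp0 : p ≠ 0)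
    (hsurj : ∀ ζ : Qb, ζ ^ r = 1 → ∃ g ∈ F', φ g = ζ)
    (hlev : ∀ y ∈ stepInv F', FinLevel y)
    (hloc : ∀ y ∈ stepInv F', ∀ q : ℕ, q.Prime → q ≠ p → UnitStepAt φ y q) :
    (stepInv F ⊔ F').relIndex (stepInv F') ≠ 0 ∧
      (stepInv F ⊔ F').relIndex (stepInv F') ≤ r := by
  have key := h.relIndex_le_of_class (X := Fin r) hsurj (fun d => (p : ℚ) ^ (d : ℕ)) (by
    intro y hy
    obtain ⟨β, u, hp⟩ := h.exists_isKummerPair hr hy (hlev y hy)
    obtain ⟨ε, d, w, hε, hd, hw, hu⟩ := exists_eq_sign_mul_pow_lt_mul_pow r p hr.ne' hp0 hp.2.1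
      (fun q hq hqp => hp.dvd_padicValRat hq (hloc y hy q hq hqp))
    have hεr : ε ^ r = ε := by
      rcases hε with h1 | h1
      · rw [h1, one_pow]
      · rw [h1, hodd.neg_one_pow]
    have hε0 : ε ≠ 0 := by
      rcases hε with h1 | h1 <;> rw [h1] <;> norm_num
    refine ⟨β, u, hp, ⟨d, hd⟩, ε * w, mul_ne_zero hε0 hw, ?_⟩
    rw [mul_pow, hεr, hu]
    ring)
  simpa using key

/-! ### Trivial steps -/

variable {ψ : J → ZMod r}

theorem TrivStep.unramAt_char (h : TrivStep r F F' ψ) {y : J} (hy : y ∈ stepInv F') {q : ℕ}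
    (hq : q.Prime) (hun : UnramStepAt F y q) : UnramAt (h.char y hy) q := by
  obtain ⟨A, hA, hI⟩ := hun
  exact unramAt_of_forall_mem (h.char y hy) hq A hA
    (fun σ hσ => h.char_eq_one_of_mem hy (hI σ hσ))

/-- **(trivial, non-toric)** unramified at all primes: the step contributes no cokernel
(Minkowski). -/
theorem TrivStep.relIndex_le_one (h : TrivStep r F F' ψ)
    (hlev : ∀ y ∈ stepInv F', FinLevel y)
    (hloc : ∀ y ∈ stepInv F', ∀ q : ℕ, q.Prime → UnramStepAt F y q) :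
    (stepInv F ⊔ F').relIndex (stepInv F') ≠ 0 ∧
      (stepInv F ⊔ F').relIndex (stepInv F') ≤ 1 := by
  have key := h.relIndex_le_of_class (X := Unit) (fun _ => 1) (by
    intro y hy
    exact ⟨(), eq_one_of_unramAt _ (h.char_finiteLevel hy (hlev y hy))
      (fun q hq => h.unramAt_char hy hq (hloc y hy q hq))⟩)
  simpa using key

/-- **(trivial, toric)** unramified at all primes `≠ p`: index at most `r`
(the characters of order `r` unramified outside `p` form a cyclic group). -/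
theorem TrivStep.relIndex_le (h : TrivStep r F F' ψ) [hr : Fact r.Prime] {p : ℕ} (hp : p.Prime)
    (hrp : r ≠ p) (hlev : ∀ y ∈ stepInv F', FinLevel y)
    (hloc : ∀ y ∈ stepInv F', ∀ q : ℕ, q.Prime → q ≠ p → UnramStepAt F y q) :
    (stepInv F ⊔ F').relIndex (stepInv F') ≠ 0 ∧
      (stepInv F ⊔ F').relIndex (stepInv F') ≤ r := by
  obtain ⟨χ₀, -, -, hgen⟩ := exists_generator_unramAt_ne (r := r) hp hrp
  have : NeZero r := ⟨hr.out.ne_zero⟩
  have hχr : χ₀ ^ r = 1 := by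
    ext σ
    rw [MonoidHom.pow_apply, MonoidHom.one_apply]
    apply Multiplicative.toAdd.injective
    rw [toAdd_pow, toAdd_one]
    simp
  have key := h.relIndex_le_of_class (X := Fin r) (fun d => χ₀ ^ (d : ℕ)) (by
    intro y hy
    obtain ⟨n, hn⟩ := hgen _ (h.char_finiteLevel hy (hlev y hy))
      (fun q hq hqp => h.unramAt_char hy hq (hloc y hy q hq hqp))
    refine ⟨⟨n % r, Nat.mod_lt _ hr.out.pos⟩, ?_⟩
    rw [hn]
    change χ₀ ^ n = χ₀ ^ (n % r)
    conv_lhs => rw [← Nat.mod_add_div n r]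
    rw [pow_add, pow_mul, hχr, one_pow, mul_one])
  simpa using key

/-! ### `r = 2`: the four cases étale/connected × toric/non-toric -/

section Two

variable {φ₂ : J → Qb} {F₂ F₂' : AddSubgroup J}

/-- The Kummer element of a pair, as a cast. -/
theorem IsKummerPair.pow_eq_cast {r : ℕ} {φ : J → Qb} {y : J} {β : Qb} {u : ℚ}
    (hp : IsKummerPair r φ y β u) : β ^ r = (u : Qb) :=
  hp.2.2.1.trans (eq_ratCast (algebraMap ℚ Qb) u)

/-- **(`r = 2`, connected, non-toric)** unit classes at all primes: index at most `2`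
(classes `±1`). -/
theorem ChiStep.two_relIndex_le_two (h : ChiStep 2 F₂ F₂' φ₂)
    (hsurj : ∀ ζ : Qb, ζ ^ 2 = 1 → ∃ g ∈ F₂', φ₂ g = ζ)
    (hlev : ∀ y ∈ stepInv F₂', FinLevel y)
    (hloc : ∀ y ∈ stepInv F₂', ∀ q : ℕ, q.Prime → UnitStepAt φ₂ y q) :
    (stepInv F₂ ⊔ F₂').relIndex (stepInv F₂') ≠ 0 ∧
      (stepInv F₂ ⊔ F₂').relIndex (stepInv F₂') ≤ 2 := by
  have key := h.relIndex_le_of_class (X := Bool) hsurj
    (fun b => if b then (1 : ℚ) else -1) (by
    intro y hy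
    obtain ⟨β, u, hp⟩ := h.exists_isKummerPair (by norm_num) hy (hlev y hy)
    obtain ⟨ε, w, hε, hw, hu⟩ := exists_eq_sign_mul_pow 2 hp.2.1
      (fun q hq => hp.dvd_padicValRat hq (hloc y hy q hq))
    rcases hε with h1 | h1
    · exact ⟨β, u, hp, true, w, hw, by rw [hu, h1]; simp⟩
    · exact ⟨β, u, hp, false, w, hw, by rw [hu, h1]; simp⟩)
  simpa using key

/-- **(`r = 2`, connected, toric)** unit classes at all primes `≠ p`: index at most `4`
(classes `±1, ±p`). -/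
theorem ChiStep.two_relIndex_le_four (h : ChiStep 2 F₂ F₂' φ₂) {p : ℕ} (hp0 : p ≠ 0)
    (hsurj : ∀ ζ : Qb, ζ ^ 2 = 1 → ∃ g ∈ F₂', φ₂ g = ζ)
    (hlev : ∀ y ∈ stepInv F₂', FinLevel y)
    (hloc : ∀ y ∈ stepInv F₂', ∀ q : ℕ, q.Prime → q ≠ p → UnitStepAt φ₂ y q) :
    (stepInv F₂ ⊔ F₂').relIndex (stepInv F₂') ≠ 0 ∧
      (stepInv F₂ ⊔ F₂').relIndex (stepInv F₂') ≤ 4 := by
  have key := h.relIndex_le_of_class (X := Bool × Fin 2) hsurj
    (fun x => (if x.1 then (1 : ℚ) else -1) * (p : ℚ) ^ (x.2 : ℕ)) (by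
    intro y hy
    obtain ⟨β, u, hp⟩ := h.exists_isKummerPair (by norm_num) hy (hlev y hy)
    obtain ⟨ε, d, w, hε, hd, hw, hu⟩ := exists_eq_sign_mul_pow_lt_mul_pow 2 p (by norm_num) hp0
      hp.2.1 (fun q hq hqp => hp.dvd_padicValRat hq (hloc y hy q hq hqp))
    rcases hε with h1 | h1
    · exact ⟨β, u, hp, (true, ⟨d, hd⟩), w, hw, by rw [hu, h1]; simp⟩
    · exact ⟨β, u, hp, (false, ⟨d, hd⟩), w, hw, by rw [hu, h1]; simp⟩)
  simpa using key

/-- **(`r = 2`, étale, toric)** unit classes at all primes `≠ p` and unramified at `2`: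
index at most `2` (classes `1, p*`). -/
theorem ChiStep.two_relIndex_le_two_of_unram (h : ChiStep 2 F₂ F₂' φ₂) {p : ℕ} (hp : p.Prime)
    (hp2 : p ≠ 2)
    (hsurj : ∀ ζ : Qb, ζ ^ 2 = 1 → ∃ g ∈ F₂', φ₂ g = ζ)
    (hlev : ∀ y ∈ stepInv F₂', FinLevel y)
    (hloc : ∀ y ∈ stepInv F₂', ∀ q : ℕ, q.Prime → q ≠ p → UnitStepAt φ₂ y q)
    (het : ∀ y ∈ stepInv F₂', UnramStepAt F₂ y 2) :
    (stepInv F₂ ⊔ F₂').relIndex (stepInv F₂') ≠ 0 ∧
      (stepInv F₂ ⊔ F₂').relIndex (stepInv F₂') ≤ 2 := by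
  have key := h.relIndex_le_of_class (X := Bool) hsurj
    (fun b => if b then (1 : ℚ) else (pStar p : ℚ)) (by
    intro y hy
    obtain ⟨β, u, hpair⟩ := h.exists_isKummerPair (by norm_num) hy (hlev y hy)
    obtain ⟨A, hA, hI⟩ := het y hy
    obtain ⟨w, hw, hu⟩ := quad_unramified_two p hp hp2 hpair.2.1 β hpair.pow_eq_cast
      (fun q hq hqp => hpair.dvd_padicValRat hq (hloc y hy q hq hqp)) A hA
      (fun σ hσ => hpair.fixed_of_mem h (hI σ hσ))
    rcases hu with h1 | h1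
    · exact ⟨β, u, hpair, true, w, hw, by rw [h1]; simp⟩
    · exact ⟨β, u, hpair, false, w, hw, by rw [h1]; simp⟩)
  simpa using key

/-- **(`r = 2`, étale, non-toric)** unit classes at all primes and unramified at `2`:
the step contributes no cokernel. -/
theorem ChiStep.two_relIndex_le_one_of_unram (h : ChiStep 2 F₂ F₂' φ₂)
    (hsurj : ∀ ζ : Qb, ζ ^ 2 = 1 → ∃ g ∈ F₂', φ₂ g = ζ)
    (hlev : ∀ y ∈ stepInv F₂', FinLevel y)
    (hloc : ∀ y ∈ stepInv F₂', ∀ q : ℕ, q.Prime → UnitStepAt φ₂ y q)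
    (het : ∀ y ∈ stepInv F₂', UnramStepAt F₂ y 2) :
    (stepInv F₂ ⊔ F₂').relIndex (stepInv F₂') ≠ 0 ∧
      (stepInv F₂ ⊔ F₂').relIndex (stepInv F₂') ≤ 1 := by
  have key := h.relIndex_le_of_class (X := Unit) hsurj (fun _ => (1 : ℚ)) (by
    intro y hy
    obtain ⟨β, u, hpair⟩ := h.exists_isKummerPair (by norm_num) hy (hlev y hy)
    obtain ⟨A, hA, hI⟩ := het y hy
    obtain ⟨ε, w, hε, hw, hu⟩ := exists_eq_sign_mul_pow 2 hpair.2.1
      (fun q hq => hpair.dvd_padicValRat hq (hloc y hy q hq))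
    refine ⟨β, u, hpair, (), w, hw, ?_⟩
    rcases hε with h1 | h1
    · rw [hu, h1]
    · exfalso
      have hw' : (w : Qb) ≠ 0 := by exact_mod_cast hw
      have hsq : (β / (w : Qb)) ^ 2 = (((-1 : ℤ) : ℤ) : Qb) := by
        rw [div_pow, hpair.pow_eq_cast, hu, h1]
        push_cast
        field_simp
      have hfix : ∀ σ ∈ A.inertiaSubgroupIn ℚ, σ (β / (w : Qb)) = β / (w : Qb) := by
        intro σ hσ
        rw [map_div₀, hpair.fixed_of_mem h (hI σ hσ), map_ratCast]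
      have h4 := emod_four_of_sq_eq_of_inertia A hA (u := -1) (by norm_num) (β / (w : Qb))
        hsq hfix
      norm_num at h4)
  simpa using key

/-- **(`r = 2`, real, non-toric)** unit classes at all primes and `complexConjugation` moving
`y` inside `F` (archimedean form of the count): the step contributes no cokernel. -/
theorem ChiStep.two_relIndex_le_one_of_real (h : ChiStep 2 F₂ F₂' φ₂)
    (hsurj : ∀ ζ : Qb, ζ ^ 2 = 1 → ∃ g ∈ F₂', φ₂ g = ζ)
    (hlev : ∀ y ∈ stepInv F₂', FinLevel y)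
    (hloc : ∀ y ∈ stepInv F₂', ∀ q : ℕ, q.Prime → UnitStepAt φ₂ y q)
    (hreal : ∀ y ∈ stepInv F₂', complexConjugation • y - y ∈ F₂) :
    (stepInv F₂ ⊔ F₂').relIndex (stepInv F₂') ≠ 0 ∧
      (stepInv F₂ ⊔ F₂').relIndex (stepInv F₂') ≤ 1 := by
  have key := h.relIndex_le_of_class (X := Unit) hsurj (fun _ => (1 : ℚ)) (by
    intro y hy
    obtain ⟨β, u, hpair⟩ := h.exists_isKummerPair (by norm_num) hy (hlev y hy)
    obtain ⟨ε, w, hε, hw, hu⟩ := exists_eq_sign_mul_pow 2 hpair.2.1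
      (fun q hq => hpair.dvd_padicValRat hq (hloc y hy q hq))
    have hpos : 0 < u := pos_of_sq_eq_of_complexConjugation hpair.2.1 β hpair.pow_eq_cast
      (hpair.fixed_of_mem h (hreal y hy))
    refine ⟨β, u, hpair, (), w, hw, ?_⟩
    rcases hε with h1 | h1
    · rw [hu, h1]
    · exfalso
      rw [hu, h1] at hpos
      have hw2 : 0 < w ^ 2 := by positivity
      linarith)
  simpa using key

/-- **(`r = 2`, real, toric)** unit classes at all primes `≠ p` and `complexConjugation` moving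
`y` inside `F`: index at most `2` (classes `1, p`). -/
theorem ChiStep.two_relIndex_le_two_of_real (h : ChiStep 2 F₂ F₂' φ₂) {p : ℕ} (hp0 : p ≠ 0)
    (hsurj : ∀ ζ : Qb, ζ ^ 2 = 1 → ∃ g ∈ F₂', φ₂ g = ζ)
    (hlev : ∀ y ∈ stepInv F₂', FinLevel y)
    (hloc : ∀ y ∈ stepInv F₂', ∀ q : ℕ, q.Prime → q ≠ p → UnitStepAt φ₂ y q)
    (hreal : ∀ y ∈ stepInv F₂', complexConjugation • y - y ∈ F₂) :
    (stepInv F₂ ⊔ F₂').relIndex (stepInv F₂') ≠ 0 ∧
      (stepInv F₂ ⊔ F₂').relIndex (stepInv F₂') ≤ 2 := by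
  have key := h.relIndex_le_of_class (X := Fin 2) hsurj (fun d => (p : ℚ) ^ (d : ℕ)) (by
    intro y hy
    obtain ⟨β, u, hpair⟩ := h.exists_isKummerPair (by norm_num) hy (hlev y hy)
    obtain ⟨ε, d, w, hε, hd, hw, hu⟩ := exists_eq_sign_mul_pow_lt_mul_pow 2 p (by norm_num) hp0
      hpair.2.1 (fun q hq hqp => hpair.dvd_padicValRat hq (hloc y hy q hq hqp))
    have hpos : 0 < u := pos_of_sq_eq_of_complexConjugation hpair.2.1 β hpair.pow_eq_cast
      (hpair.fixed_of_mem h (hreal y hy))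
    refine ⟨β, u, hpair, ⟨d, hd⟩, w, hw, ?_⟩
    rcases hε with h1 | h1
    · rw [hu, h1, one_mul]
    · exfalso
      rw [hu, h1] at hpos
      have hw2 : 0 < w ^ 2 := by positivity
      have hp' : (0 : ℚ) < (p : ℚ) ^ d := by positivity
      nlinarith [mul_pos hp' hw2])
  simpa using key

end Two

end Bound

end Fermat.Agent.S15.helper7259
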