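/-
helper7259 — S15/S12 pre-brick (STEP-COORD): coordinates on the steps of a Jordan–Hölder flag.

A step `F ≤ F'` of prime index `r` in a Galois module, on which Galois acts trivially resp.
through the mod-`r` cyclotomic character, carries a coordinate `ψ : J → ZMod r` resp.
`φ : J → Qb` making it a `TrivStep` resp. `ChiStep` of `helper7259_StepClass`.  Also: for `r` odd
complex conjugation does not act trivially on a roots-of-unity step.

Mathlib + Prelude only (on top of `helper7259_StepClass`).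
-/
import Fermat.Agent.S15.helper7259_StepClass
import Fermat.Prelude.Def_ExtCitation_KummerBridge
import Fermat.Prelude.Def_GaloisRep_ComplexConjugation

set_option autoImplicit false

namespace Fermat.Agent.S15.helper7259

section Coord

variable {J : Type*} [AddCommGroup J]

/-- In a step of index `r`, `r` kills the quotient. -/
theorem nsmul_mem_of_relIndex {r : ℕ} {F F' : AddSubgroup J} (hidx : F.relIndex F' = r)
    {y : J} (hy : y ∈ F') : r • y ∈ F := by
  have h1 := AddSubgroup.nsmul_index_mem (F.addSubgroupOf F') (⟨y, hy⟩ : F')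
  rw [AddSubgroup.mem_addSubgroupOf] at h1
  have h2 : (F.addSubgroupOf F').index = r := hidx
  rw [h2] at h1
  simpa using h1

/-- A step of prime index is generated over `F` by any element outside `F`. -/
theorem exists_zsmul_sub_mem {r : ℕ} (hr : r.Prime) {F F' : AddSubgroup J} (hle : F ≤ F')
    (hidx : F.relIndex F' = r) {g : J} (hg : g ∈ F') (hgF : g ∉ F) :
    ∀ x ∈ F', ∃ k : ℤ, x - k • g ∈ F := by
  set H : AddSubgroup J := F ⊔ AddSubgroup.zmultiples g with hH
  have hFH : F ≤ H := le_sup_left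
  have hHF' : H ≤ F' := sup_le hle (by
    rw [AddSubgroup.zmultiples_le]; exact hg)
  have hmul := AddSubgroup.relIndex_mul_relIndex F H F' hFH hHF'
  rw [hidx] at hmul
  have hne1 : F.relIndex H ≠ 1 := by
    intro h1
    have h2 : H ≤ F := AddSubgroup.relIndex_eq_one.mp h1
    exact hgF (h2 (AddSubgroup.mem_sup_right (AddSubgroup.mem_zmultiples g)))
  have hdvd : F.relIndex H ∣ r := Dvd.intro _ hmul
  have hFHr : F.relIndex H = r := ((Nat.dvd_prime hr).mp hdvd).resolve_left hne1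
  have hone : H.relIndex F' = 1 := by
    rw [hFHr] at hmul
    have hpos : 0 < r := hr.pos
    exact Nat.eq_of_mul_eq_mul_left hpos (by rw [hmul, mul_one])
  have hF'H : F' ≤ H := AddSubgroup.relIndex_eq_one.mp hone
  intro x hx
  obtain ⟨f, hf, w, hw, rfl⟩ := AddSubgroup.mem_sup.mp (hF'H hx)
  obtain ⟨k, rfl⟩ := AddSubgroup.mem_zmultiples_iff.mp hw
  exact ⟨k, by simpa using hf⟩

/-- In a step of prime index generated by `g`, `k • g ∈ F` iff `r ∣ k`. -/
theorem zsmul_mem_iff_dvd {r : ℕ} (hr : r.Prime) {F F' : AddSubgroup J}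
    (hidx : F.relIndex F' = r) {g : J} (hg : g ∈ F') (hgF : g ∉ F) (k : ℤ) :
    k • g ∈ F ↔ (r : ℤ) ∣ k := by
  have hrg : (r : ℤ) • g ∈ F := by
    rw [natCast_zsmul]; exact nsmul_mem_of_relIndex hidx hg
  constructor
  · intro hk
    by_contra hnd
    have hcop : IsCoprime k (r : ℤ) := by
      rw [Int.isCoprime_iff_gcd_eq_one]
      have hprime : Prime (r : ℤ) := Nat.prime_iff_prime_int.mp hr
      have h1 : Int.gcd k r ∣ r := Int.natCast_dvd_natCast.mp (Int.gcd_dvd_right k r)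
      rcases (Nat.dvd_prime hr).mp h1 with h2 | h2
      · exact h2
      · exfalso
        apply hnd
        have h3 : ((Int.gcd k r : ℕ) : ℤ) ∣ k := Int.gcd_dvd_left k r
        rwa [h2] at h3
    obtain ⟨a, b, hab⟩ := hcop
    have h1 : g = a • (k • g) + b • ((r : ℤ) • g) := by
      rw [smul_smul, smul_smul, ← add_smul, hab, one_smul]
    exact hgF (h1 ▸ F.add_mem (F.zsmul_mem hk a) (F.zsmul_mem hrg b))
  · rintro ⟨m, rfl⟩
    rw [mul_comm, mul_smul]
    exact F.zsmul_mem hrg m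

/-- The coordinate of a step generated by `g`. -/
noncomputable def stepCoord (r : ℕ) (F : AddSubgroup J) (g : J) (x : J) : ZMod r :=
  open Classical in
  if h : ∃ k : ℤ, x - k • g ∈ F then ((Classical.choose h : ℤ) : ZMod r) else 0

theorem stepCoord_eq {r : ℕ} (hr : r.Prime) {F F' : AddSubgroup J}
    (hidx : F.relIndex F' = r) {g : J} (hg : g ∈ F') (hgF : g ∉ F) {x : J} {k : ℤ}
    (hk : x - k • g ∈ F) : stepCoord r F g x = (k : ZMod r) := by
  have hex : ∃ k : ℤ, x - k • g ∈ F := ⟨k, hk⟩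
  rw [stepCoord, dif_pos hex]
  have h0 := Classical.choose_spec hex
  have h1 : (k - Classical.choose hex) • g ∈ F := by
    have h2 : (k - Classical.choose hex) • g = (x - Classical.choose hex • g) - (x - k • g) := by
      rw [sub_smul]; abel
    rw [h2]
    exact F.sub_mem h0 hk
  exact (ZMod.intCast_eq_intCast_iff_dvd_sub _ _ r).mpr
    ((zsmul_mem_iff_dvd hr hidx hg hgF _).mp h1)

theorem exists_mem_not_mem_of_relIndex {r : ℕ} (hr : r.Prime) {F F' : AddSubgroup J}
    (hidx : F.relIndex F' = r) : ∃ g ∈ F', g ∉ F := by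
  by_contra hcon
  push Not at hcon
  have h1 : F.relIndex F' = 1 := AddSubgroup.relIndex_eq_one.mpr hcon
  rw [hidx] at h1
  exact hr.one_lt.ne' h1

variable [DistribMulAction GQ J]

/-- **(COORD-T)** A step of prime index with trivial Galois action is a `TrivStep`. -/
theorem exists_trivStep {r : ℕ} (hr : r.Prime) {F F' : AddSubgroup J} (hle : F ≤ F')
    (hidx : F.relIndex F' = r) (hst : ∀ (σ : GQ), ∀ x ∈ F', σ • x ∈ F')
    (htriv : ∀ (σ : GQ), ∀ x ∈ F', σ • x - x ∈ F) :
    ∃ ψ : J → ZMod r, TrivStep r F F' ψ := by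
  obtain ⟨g, hg, hgF⟩ := exists_mem_not_mem_of_relIndex hr hidx
  have hex := exists_zsmul_sub_mem hr hle hidx hg hgF
  refine ⟨stepCoord r F g, hle, hst, ?_, ?_, ?_⟩
  · intro x hx x' hx'
    obtain ⟨k, hk⟩ := hex x hx
    obtain ⟨k', hk'⟩ := hex x' hx'
    have h1 : (x + x') - (k + k') • g ∈ F := by
      have h2 : (x + x') - (k + k') • g = (x - k • g) + (x' - k' • g) := by
        rw [add_smul]; abel
      rw [h2]
      exact F.add_mem hk hk'
    rw [stepCoord_eq hr hidx hg hgF h1, stepCoord_eq hr hidx hg hgF hk,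
      stepCoord_eq hr hidx hg hgF hk', Int.cast_add]
  · intro σ x hx
    obtain ⟨k, hk⟩ := hex x hx
    have h1 : σ • x - k • g ∈ F := by
      have h2 : σ • x - k • g = (σ • x - x) + (x - k • g) := by abel
      rw [h2]
      exact F.add_mem (htriv σ x hx) hk
    rw [stepCoord_eq hr hidx hg hgF h1, stepCoord_eq hr hidx hg hgF hk]
  · intro x hx
    obtain ⟨k, hk⟩ := hex x hx
    rw [stepCoord_eq hr hidx hg hgF hk, ZMod.intCast_zmod_eq_zero_iff_dvd,
      ← zsmul_mem_iff_dvd hr hidx hg hgF k]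
    constructor
    · intro h
      have h2 : x = (x - k • g) + k • g := by abel
      rw [h2]
      exact F.add_mem hk h
    · intro h
      have h2 : k • g = x - (x - k • g) := by abel
      rw [h2]
      exact F.sub_mem h hk

/-- Powers of a root of unity by a residue class. -/
theorem pow_val_intCast {r : ℕ} [NeZero r] {ζ : Qb} (hζ : ζ ^ r = 1) (k : ℤ) :
    ζ ^ ((k : ZMod r).val) = ζ ^ k := by
  have hζ0 : ζ ≠ 0 := by
    intro h0
    rw [h0, zero_pow (NeZero.ne r)] at hζ
    exact zero_ne_one hζ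
  have h1 : (((k : ZMod r).val : ℕ) : ℤ) = k % r := ZMod.val_intCast k
  have h2 : k = k % r + r * (k / r) := (Int.emod_add_mul_ediv k r).symm
  conv_rhs => rw [h2]
  rw [zpow_add₀ hζ0, zpow_mul, zpow_natCast, hζ, one_zpow, mul_one, ← h1, zpow_natCast]

/-- **(COORD-X)** A step of prime index on which every `σ` acts through an exponent `n` by which
it also acts on the `r`-th roots of unity is a `ChiStep`. -/
theorem exists_chiStep {r : ℕ} (hr : r.Prime) {F F' : AddSubgroup J} (hle : F ≤ F')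
    (hidx : F.relIndex F' = r) (hst : ∀ (σ : GQ), ∀ x ∈ F', σ • x ∈ F')
    (hact : ∀ σ : GQ, ∃ n : ℕ, (∀ ζ : Qb, ζ ^ r = 1 → σ ζ = ζ ^ n) ∧
      ∀ x ∈ F', σ • x - n • x ∈ F) :
    ∃ φ : J → Qb, ChiStep r F F' φ := by
  have : NeZero r := ⟨hr.ne_zero⟩
  have : NeZero ((r : ℕ) : Qb) := ⟨Nat.cast_ne_zero.mpr hr.ne_zero⟩
  obtain ⟨ζ, hζ⟩ := HasEnoughRootsOfUnity.exists_primitiveRoot Qb r
  have hζr : ζ ^ r = 1 := hζ.pow_eq_one
  have hζ0 : ζ ≠ 0 := hζ.ne_zero hr.ne_zero
  obtain ⟨g, hg, hgF⟩ := exists_mem_not_mem_of_relIndex hr hidx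
  have hex := exists_zsmul_sub_mem hr hle hidx hg hgF
  have hφ : ∀ {x : J} {k : ℤ}, x - k • g ∈ F → ζ ^ (stepCoord r F g x).val = ζ ^ k := by
    intro x k hk
    rw [stepCoord_eq hr hidx hg hgF hk, pow_val_intCast hζr]
  refine ⟨fun x => ζ ^ (stepCoord r F g x).val, hle, hst, ?_, ?_, ?_, ?_⟩
  · intro x hx x' hx'
    obtain ⟨k, hk⟩ := hex x hx
    obtain ⟨k', hk'⟩ := hex x' hx'
    have h1 : (x + x') - (k + k') • g ∈ F := by
      have h2 : (x + x') - (k + k') • g = (x - k • g) + (x' - k' • g) := by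
        rw [add_smul]; abel
      rw [h2]
      exact F.add_mem hk hk'
    change ζ ^ (stepCoord r F g (x + x')).val
      = ζ ^ (stepCoord r F g x).val * ζ ^ (stepCoord r F g x').val
    rw [hφ h1, hφ hk, hφ hk', zpow_add₀ hζ0]
  · intro x hx
    obtain ⟨k, hk⟩ := hex x hx
    rw [hφ hk, ← zpow_natCast, ← zpow_mul, mul_comm, zpow_mul, zpow_natCast, hζr, one_zpow]
  · intro σ x hx
    obtain ⟨k, hk⟩ := hex x hx
    obtain ⟨n, hnζ, hnx⟩ := hact σ
    have h1 : σ • x - ((n : ℤ) * k) • g ∈ F := by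
      have h2 : σ • x - ((n : ℤ) * k) • g = (σ • x - n • x) + (n : ℤ) • (x - k • g) := by
        rw [smul_sub, mul_smul, natCast_zsmul, natCast_zsmul]; abel
      rw [h2]
      exact F.add_mem (hnx x hx) (F.zsmul_mem hk _)
    change ζ ^ (stepCoord r F g (σ • x)).val = σ (ζ ^ (stepCoord r F g x).val)
    rw [hφ h1, hφ hk, map_zpow₀, hnζ ζ hζr, zpow_mul, zpow_natCast]
  · intro x hx
    obtain ⟨k, hk⟩ := hex x hx
    rw [hφ hk, hζ.zpow_eq_one_iff_dvd, ← zsmul_mem_iff_dvd hr hidx hg hgF k]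
    constructor
    · intro h
      have h2 : x = (x - k • g) + k • g := by abel
      rw [h2]
      exact F.add_mem hk h
    · intro h
      have h2 : k • g = x - (x - k • g) := by abel
      rw [h2]
      exact F.sub_mem h hk

/-- The Prelude's cyclotomic exponent acts on the `r`-th roots of unity. -/
theorem apply_eq_pow_cycloExp (r : ℕ) [Fact r.Prime] (σ : GQ) {ζ : Qb} (hζ : ζ ^ r = 1) :
    σ ζ = ζ ^ ExtCitation.cycloExp r σ := by
  have hr : r.Prime := Fact.out
  have : NeZero r := ⟨hr.ne_zero⟩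
  have hζ0 : ζ ≠ 0 := by
    intro h0
    rw [h0, zero_pow hr.ne_zero] at hζ
    exact zero_ne_one hζ
  have ht : Units.mk0 ζ hζ0 ∈ rootsOfUnity r Qb := by
    rw [mem_rootsOfUnity]
    ext
    simpa using hζ
  have h := modularCyclotomicCharacter.spec Qb (ExtCitation.card_rootsOfUnity_eq_self r)
    (σ : Qb ≃+* Qb) ht
  simpa [ExtCitation.cycloExp] using h

/-- **(COORD-X, Prelude form)** the shape of the `χ`-type of a Jordan–Hölder flag
(`helper8205.IsJHFlag.type` with `χ = ExtCitation.cycloChar r`). -/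
theorem exists_chiStep_of_cycloChar {r : ℕ} [hr : Fact r.Prime] {F F' : AddSubgroup J}
    (hle : F ≤ F') (hidx : F.relIndex F' = r) (hst : ∀ (σ : GQ), ∀ x ∈ F', σ • x ∈ F')
    (htype : ∀ (g : GQ) (m : ℕ), (m : ZMod r) = ExtCitation.cycloChar r g →
      ∀ y ∈ F', g • y - m • y ∈ F) :
    ∃ φ : J → Qb, ChiStep r F F' φ := by
  refine exists_chiStep hr.out hle hidx hst (fun σ => ⟨ExtCitation.cycloExp r σ,
    fun ζ hζ => apply_eq_pow_cycloExp r σ hζ,
    htype σ _ (ExtCitation.coe_cycloChar r σ).symm⟩)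

/-- For `r = 2` a step with trivial action is a `ChiStep` (coordinate `±1`). -/
theorem exists_chiStep_two_of_triv {F F' : AddSubgroup J} (hle : F ≤ F')
    (hidx : F.relIndex F' = 2) (hst : ∀ (σ : GQ), ∀ x ∈ F', σ • x ∈ F')
    (htriv : ∀ (σ : GQ), ∀ x ∈ F', σ • x - x ∈ F) :
    ∃ φ : J → Qb, ChiStep 2 F F' φ := by
  refine exists_chiStep Nat.prime_two hle hidx hst (fun σ => ⟨1, fun ζ hζ => ?_, fun x hx => ?_⟩)
  · rw [pow_one]
    have h1 : ζ = 1 ∨ ζ = -1 := by
      rw [sq] at hζ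
      exact mul_self_eq_one_iff.mp hζ
    rcases h1 with h1 | h1
    · rw [h1, map_one]
    · rw [h1, map_neg, map_one]
  · rw [one_smul]
    exact htriv σ x hx

/-- **(COORD, flag form)** coordinates for all steps of a flag whose steps have prime index `r`
and are of trivial type or of cyclotomic type (`helper8205.IsJHFlag` with
`χ = ExtCitation.cycloChar r`): the data `ψ`, `φ`, `htriv`, `hchi` of `bound_of_flag_odd` with
`triv i := ∀ g, ∀ y ∈ F (i + 1), g • y - y ∈ F i`. -/
theorem exists_coords_of_type {r : ℕ} [hr : Fact r.Prime] (F : ℕ → AddSubgroup J) (L : ℕ)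
    (hmono : Monotone F) (hst : ∀ (i : ℕ) (σ : GQ), ∀ x ∈ F i, σ • x ∈ F i)
    (hidx : ∀ i < L, (F i).relIndex (F (i + 1)) = r)
    (htype : ∀ i < L, (∀ (g : GQ), ∀ y ∈ F (i + 1), g • y - y ∈ F i) ∨
      (∀ (g : GQ) (m : ℕ), (m : ZMod r) = ExtCitation.cycloChar r g →
        ∀ y ∈ F (i + 1), g • y - m • y ∈ F i)) :
    ∃ (ψ : ℕ → J → ZMod r) (φ : ℕ → J → Qb),
      (∀ i < L, (∀ (g : GQ), ∀ y ∈ F (i + 1), g • y - y ∈ F i) →
        TrivStep r (F i) (F (i + 1)) (ψ i)) ∧
      (∀ i < L, ¬ (∀ (g : GQ), ∀ y ∈ F (i + 1), g • y - y ∈ F i) →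
        ChiStep r (F i) (F (i + 1)) (φ i)) := by
  classical
  have h1 : ∀ i, ∃ ψ : J → ZMod r, i < L → (∀ (g : GQ), ∀ y ∈ F (i + 1), g • y - y ∈ F i) →
      TrivStep r (F i) (F (i + 1)) ψ := by
    intro i
    by_cases hi : i < L ∧ (∀ (g : GQ), ∀ y ∈ F (i + 1), g • y - y ∈ F i)
    · obtain ⟨ψ, hψ⟩ := exists_trivStep hr.out (hmono (Nat.le_succ i)) (hidx i hi.1)
        (hst (i + 1)) hi.2
      exact ⟨ψ, fun _ _ => hψ⟩
    · exact ⟨fun _ => 0, fun h h' => absurd ⟨h, h'⟩ hi⟩
  have h2 : ∀ i, ∃ φ : J → Qb, i < L → ¬ (∀ (g : GQ), ∀ y ∈ F (i + 1), g • y - y ∈ F i) →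
      ChiStep r (F i) (F (i + 1)) φ := by
    intro i
    by_cases hi : i < L ∧ ¬ (∀ (g : GQ), ∀ y ∈ F (i + 1), g • y - y ∈ F i)
    · obtain ⟨φ, hφ⟩ := exists_chiStep_of_cycloChar (hmono (Nat.le_succ i)) (hidx i hi.1)
        (hst (i + 1)) ((htype i hi.1).resolve_left hi.2)
      exact ⟨φ, fun _ _ => hφ⟩
    · exact ⟨fun _ => 0, fun h h' => absurd ⟨h, h'⟩ hi⟩
  choose ψ hψ using h1
  choose φ hφ using h2
  exact ⟨ψ, φ, fun i hi h => hψ i hi h, fun i hi h => hφ i hi h⟩

/-- **(COORD, flag form, `r = 2`)**: every step of either type carries a `±1`-coordinate. -/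
theorem exists_coords_two (F : ℕ → AddSubgroup J) (L : ℕ)
    (hmono : Monotone F) (hst : ∀ (i : ℕ) (σ : GQ), ∀ x ∈ F i, σ • x ∈ F i)
    (hidx : ∀ i < L, (F i).relIndex (F (i + 1)) = 2)
    (htype : ∀ i < L, (∀ (g : GQ), ∀ y ∈ F (i + 1), g • y - y ∈ F i) ∨
      (∀ (g : GQ) (m : ℕ), (m : ZMod 2) = ExtCitation.cycloChar 2 g →
        ∀ y ∈ F (i + 1), g • y - m • y ∈ F i)) :
    ∃ φ : ℕ → J → Qb, ∀ i < L, ChiStep 2 (F i) (F (i + 1)) (φ i) := by
  classical
  have : Fact (Nat.Prime 2) := ⟨Nat.prime_two⟩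
  have h2 : ∀ i, ∃ φ : J → Qb, i < L → ChiStep 2 (F i) (F (i + 1)) φ := by
    intro i
    by_cases hi : i < L
    · rcases htype i hi with ht | ht
      · obtain ⟨φ, hφ⟩ := exists_chiStep_two_of_triv (hmono (Nat.le_succ i)) (hidx i hi)
          (hst (i + 1)) ht
        exact ⟨φ, fun _ => hφ⟩
      · obtain ⟨φ, hφ⟩ := exists_chiStep_of_cycloChar (hmono (Nat.le_succ i)) (hidx i hi)
          (hst (i + 1)) ht
        exact ⟨φ, fun _ => hφ⟩
    · exact ⟨fun _ => 0, fun h => absurd h hi⟩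
  choose φ hφ using h2
  exact ⟨φ, hφ⟩

/-! ### Complex conjugation on a roots-of-unity step -/

/-- A root of unity of odd order fixed by complex conjugation is `1`. -/
theorem eq_one_of_complexConjugation_fixed {r : ℕ} (hodd : Odd r) {ζ : Qb} (hζ : ζ ^ r = 1)
    (hc : complexConjugation ζ = ζ) : ζ = 1 := by
  have h1 : starRingEnd ℂ (complexEmbedding ζ) = complexEmbedding ζ := by
    rw [← complexEmbedding_complexConjugation, hc]
  obtain ⟨x, hx⟩ := Complex.conj_eq_iff_real.mp h1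
  have h2 : complexEmbedding ζ ^ r = 1 := by
    rw [← map_pow, hζ, map_one]
  rw [hx] at h2
  have h3 : x ^ r = 1 := by exact_mod_cast h2
  have h4 : x = 1 := (Odd.pow_inj hodd).mp (by rw [h3, one_pow])
  have h5 : complexEmbedding ζ = complexEmbedding 1 := by
    rw [hx, h4, map_one]; rfl
  exact complexEmbedding.toRingHom.injective h5

/-- **(CONJ)** For `r` an odd prime, complex conjugation does not act trivially on a nontrivial
roots-of-unity step. -/
theorem ChiStep.not_conj_trivial {r : ℕ} {F F' : AddSubgroup J} {φ : J → Qb}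
    (h : ChiStep r F F' φ) (hodd : Odd r) (hne : ¬ F' ≤ F) :
    ¬ ∀ y ∈ F', complexConjugation • y - y ∈ F := by
  intro hall
  obtain ⟨g, hg, hgF⟩ := Set.not_subset.mp hne
  have h1 := hall g hg
  have h2 : φ (complexConjugation • g - g) = 1 := (h.ker _ (h.le h1)).mpr h1
  rw [h.map_sub (h.stable _ g hg) hg, h.equi _ g hg] at h2
  have hpos : 0 < r := hodd.pos
  have h3 : complexConjugation (φ g) = φ g := by
    have := (div_eq_one_iff_eq (h.map_ne_zero hpos hg)).mp h2
    exact this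
  have h4 : φ g = 1 := eq_one_of_complexConjugation_fixed hodd (h.pow g hg) h3
  exact hgF ((h.ker g hg).mp h4)

/-- **(CONJ, dichotomy form)** for a step which is trivial or a roots-of-unity step (`r` odd):
Galois acts trivially iff complex conjugation does.  This identifies
`{i | triv i}` of `bound_of_flag_odd` with the set counted by
`helper4190.card_fixPts_eq_pow` (for `c = ` the action of `complexConjugation`). -/
theorem triv_iff_conj {r : ℕ} {F F' : AddSubgroup J} (hodd : Odd r) (hne : ¬ F' ≤ F)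
    (hdich : (∀ (g : GQ), ∀ y ∈ F', g • y - y ∈ F) ∨ ∃ φ : J → Qb, ChiStep r F F' φ) :
    (∀ (g : GQ), ∀ y ∈ F', g • y - y ∈ F) ↔ ∀ y ∈ F', complexConjugation • y - y ∈ F := by
  constructor
  · intro h y hy
    exact h complexConjugation y hy
  · intro h
    rcases hdich with h1 | ⟨φ, hφ⟩
    · exact h1
    · exact absurd h (hφ.not_conj_trivial hodd hne)

end Coord

end Fermat.Agent.S15.helper7259
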