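/-
helper6997 — S15/S12 brick (BND-CNT-R2, level one): the Eisenstein descent at `r = 2`, closed at
LEVEL ONE by the real place, in one call from a Galois-stable flag and local hypotheses on the
relative invariants of its top.

For a Galois-stable flag `F 0 = ⊥ ≤ … ≤ F L = W ≤ J[2]` with steps of index `2` (no type is
asked: a stable step of index `2` carries the trivial action, hence a `±1`-coordinate):

* inertia at the odd primes `q ≠ p` fixes the relative invariants `y` of `W` (LOC-v);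
* every step class is a unit class at `2` (R2; no étale/connected typing);
* inertia at `p` moves `y` inside `T` (P1), complex conjugation moves `y` inside `LamC`;
* `#(W ⊓ T)² ≤ #W` and `#(W ⊓ LamC)² ≤ #W` (the two isotropy counts at level one).

Then `cokIdx ⊥ W ≤ kerIdx ⊥ W` (`#coker (J^G → (J ⧸ W)^G) ≤ #W^G`), and with the projector `E`
of `W`: every fixed `D` has `E D = τ + 2 • x` with `τ`, `x` fixed and `τ` of `2`-power order
(the inner statement of `Stmt_Div1` at `e = 2`).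

Pure glue: step bounds `helper7259_StepBound` (real-place cells), coordinates
`helper7259_StepCoord`, index count `helper4190_IndexForms`, level-one descent
`helper2063_LevelOne` through `helper4190_DivOne`.
-/
import Fermat.Agent.S15.helper7259_StepBound
import Fermat.Agent.S15.helper7259_StepCoord
import Fermat.Agent.S15.helper4190_DivOne

set_option autoImplicit false

namespace Fermat.Agent.S15.helper6997

open Fermat.Agent.S15.helper7259 Fermat.Agent.S15.helper4190 Fermat.Agent.S15.helper2063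

section LevelOne

variable {J : Type*} [AddCommGroup J] [DistribMulAction GQ J]

/-- **Real-place table at `r = 2`, from flag-level hypotheses.**  The five step inputs
`hcok0`, `h1`–`h4` of `helper4190.pow_smul_mem_of_orders_two`, `cokIdx_bot_le_of_orders_two`,
`cokIdx_bot_le_kerIdx_of_sq_orders_two`, `div1_of_sq_orders_two` (with `T₁ := T`,
`T₂ := LamC`), for any Galois-stable flag with steps of index `2`. -/
theorem table_two_real_of_flag {p : ℕ} (hp0 : p ≠ 0)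
    (F : ℕ → AddSubgroup J) (hmono : Monotone F) (hst : ∀ i, IsStable GQ (F i)) (L : ℕ)
    (hlev : ∀ y : J, FinLevel y)
    (hidx : ∀ i < L, (F i).relIndex (F (i + 1)) = 2)
    (T LamC : AddSubgroup J)
    (hV : ∀ y ∈ stepInv (F L), ∀ q : ℕ, q.Prime → q ≠ p → q ≠ 2 →
      ∃ A : ValuationSubring Qb, A.LiesOverPrime q ∧ ∀ σ ∈ A.inertiaSubgroupIn ℚ, σ • y = y)
    (hunit : ∀ i < L, ∀ φ : J → Qb, ChiStep 2 (F i) (F (i + 1)) φ →
      ∀ y ∈ stepInv (F (i + 1)), UnitStepAt φ y 2)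
    (hLam : ∀ y ∈ stepInv (F L), complexConjugation • y - y ∈ LamC)
    (hT : ∀ y ∈ stepInv (F L), ∃ A : ValuationSubring Qb, A.LiesOverPrime p ∧
      ∀ σ ∈ A.inertiaSubgroupIn ℚ, σ • y - y ∈ T) :
    (∀ i < L, cokIdx GQ (F i) (F (i + 1)) ≠ 0) ∧
    (∀ i < L, F (i + 1) ⊓ T ≤ F i → F (i + 1) ⊓ LamC ≤ F i →
      cokIdx GQ (F i) (F (i + 1)) ≤ 1) ∧
    (∀ i < L, F (i + 1) ⊓ LamC ≤ F i → cokIdx GQ (F i) (F (i + 1)) ≤ 2) ∧
    (∀ i < L, F (i + 1) ⊓ T ≤ F i → cokIdx GQ (F i) (F (i + 1)) ≤ 2) ∧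
    (∀ i < L, cokIdx GQ (F i) (F (i + 1)) ≤ 4) := by
  classical
  -- coordinates: a stable step of index `2` carries the trivial action
  have hφ : ∀ i < L, ∃ φ : J → Qb, ChiStep 2 (F i) (F (i + 1)) φ := fun i hi =>
    exists_chiStep_two_of_triv (hmono (Nat.le_succ i)) (hidx i hi)
      (fun σ x hx => hst (i + 1) σ x hx)
      (fun σ x hx => smul_sub_mem_of_step_two (hst i) (hst (i + 1)) (hidx i hi) σ hx)
  have hne : ∀ i < L, ¬ F (i + 1) ≤ F i := by
    intro i hi hle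
    have h1 := hidx i hi
    rw [AddSubgroup.relIndex_eq_one.mpr hle] at h1
    norm_num at h1
  have hsub : ∀ i < L, stepInv (F (i + 1)) ≤ stepInv (F L) :=
    fun i hi => stepInv_mono (hmono (Nat.succ_le_of_lt hi))
  -- unit classes at the primes `≠ p`
  have hunit' : ∀ i (hi : i < L) (φ : J → Qb), ChiStep 2 (F i) (F (i + 1)) φ →
      ∀ y ∈ stepInv (F (i + 1)), ∀ q : ℕ, q.Prime → q ≠ p → UnitStepAt φ y q := by
    intro i hi φ hc y hy q hq hqp
    by_cases hq2 : q = 2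
    · rw [hq2]
      exact hunit i hi φ hc y hy
    · obtain ⟨A, hA, hfix⟩ := hV y (hsub i hi hy) q hq hqp hq2
      exact UnramStepAt.unitStepAt hc
        ⟨A, hA, fun σ hσ => by rw [hfix σ hσ, sub_self]; exact (F i).zero_mem⟩
  -- unit classes at all primes when the step is not a `p`-jump
  have hunitp : ∀ i (hi : i < L) (φ : J → Qb), ChiStep 2 (F i) (F (i + 1)) φ →
      F (i + 1) ⊓ T ≤ F i → ∀ y ∈ stepInv (F (i + 1)), ∀ q : ℕ, q.Prime → UnitStepAt φ y q := by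
    intro i hi φ hc hnt y hy q hq
    by_cases hqp : q = p
    · rw [hqp]
      obtain ⟨A, hA, hmem⟩ := hT y (hsub i hi hy)
      exact UnramStepAt.unitStepAt hc ⟨A, hA, fun σ hσ => hnt ⟨hy σ, hmem σ hσ⟩⟩
    · exact hunit' i hi φ hc y hy q hq hqp
  -- the real place when the step is not an `∞`-jump
  have hreal : ∀ i < L, F (i + 1) ⊓ LamC ≤ F i →
      ∀ y ∈ stepInv (F (i + 1)), complexConjugation • y - y ∈ F i :=
    fun i hi hnm y hy => hnm ⟨hy complexConjugation, hLam y (hsub i hi hy)⟩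
  have h4 : ∀ i < L, cokIdx GQ (F i) (F (i + 1)) ≠ 0 ∧ cokIdx GQ (F i) (F (i + 1)) ≤ 4 := by
    intro i hi
    obtain ⟨φ, hc⟩ := hφ i hi
    exact hc.two_relIndex_le_four hp0 (hc.surj_of_not_le Nat.prime_two (hne i hi))
      (fun y _ => hlev y) (hunit' i hi φ hc)
  refine ⟨fun i hi => (h4 i hi).1, ?_, ?_, ?_, fun i hi => (h4 i hi).2⟩
  · intro i hi hnt hnm
    obtain ⟨φ, hc⟩ := hφ i hi
    exact (hc.two_relIndex_le_one_of_real (hc.surj_of_not_le Nat.prime_two (hne i hi))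
      (fun y _ => hlev y) (hunitp i hi φ hc hnt) (hreal i hi hnm)).2
  · intro i hi hnm
    obtain ⟨φ, hc⟩ := hφ i hi
    exact (hc.two_relIndex_le_two_of_real hp0 (hc.surj_of_not_le Nat.prime_two (hne i hi))
      (fun y _ => hlev y) (hunit' i hi φ hc) (hreal i hi hnm)).2
  · intro i hi hnt
    obtain ⟨φ, hc⟩ := hφ i hi
    exact (hc.two_relIndex_le_two (hc.surj_of_not_le Nat.prime_two (hne i hi))
      (fun y _ => hlev y) (hunitp i hi φ hc hnt)).2

/-- **(INDEX, `r = 2`, real place, level one).**  `#coker (J^G → (J ⧸ W)^G) ≤ #W^G` for the top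
`W = F L` of a Galois-stable flag with steps of index `2`, from the local hypotheses and the two
isotropy counts.  (`hcok0` + `hle` of `helper2063.div1_of_bound` verbatim.) -/
theorem cokIdx_bot_le_kerIdx_of_flag_two_real {p : ℕ} (hp0 : p ≠ 0)
    (F : ℕ → AddSubgroup J) (hmono : Monotone F) (hst : ∀ i, IsStable GQ (F i))
    (h0 : F 0 = ⊥) (L : ℕ) [Finite ↥(F L)]
    (hlev : ∀ y : J, FinLevel y)
    (hidx : ∀ i < L, (F i).relIndex (F (i + 1)) = 2)
    (T LamC : AddSubgroup J)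
    (hV : ∀ y ∈ stepInv (F L), ∀ q : ℕ, q.Prime → q ≠ p → q ≠ 2 →
      ∃ A : ValuationSubring Qb, A.LiesOverPrime q ∧ ∀ σ ∈ A.inertiaSubgroupIn ℚ, σ • y = y)
    (hunit : ∀ i < L, ∀ φ : J → Qb, ChiStep 2 (F i) (F (i + 1)) φ →
      ∀ y ∈ stepInv (F (i + 1)), UnitStepAt φ y 2)
    (hLam : ∀ y ∈ stepInv (F L), complexConjugation • y - y ∈ LamC)
    (hT : ∀ y ∈ stepInv (F L), ∃ A : ValuationSubring Qb, A.LiesOverPrime p ∧
      ∀ σ ∈ A.inertiaSubgroupIn ℚ, σ • y - y ∈ T)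
    (hcT : Nat.card ↥(F L ⊓ T) ^ 2 ≤ Nat.card ↥(F L))
    (hcC : Nat.card ↥(F L ⊓ LamC) ^ 2 ≤ Nat.card ↥(F L)) :
    cokIdx GQ (⊥ : AddSubgroup J) (F L) ≠ 0 ∧
      cokIdx GQ (⊥ : AddSubgroup J) (F L) ≤ kerIdx GQ (⊥ : AddSubgroup J) (F L) := by
  obtain ⟨hcok0, h1, h2, h3, h4⟩ :=
    table_two_real_of_flag hp0 F hmono hst L hlev hidx T LamC hV hunit hLam hT
  exact cokIdx_bot_le_kerIdx_of_sq_orders_two F hmono hst h0 L hidx T LamC hcok0 h1 h2 h3 h4
    hcT hcC

/-- **(DIV-ONE, `r = 2`, real place).**  Level-one (DIV) at the even Eisenstein prime in one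
call: `E` the (Galois-equivariant) projector onto `W = F L ≤ J[2]`, a Galois-stable flag of `W`
with steps of index `2`, the local hypotheses on the relative invariants of `W` and the two
isotropy counts.  Conclusion = the inner statement of `Stmt_Div1` at `e = 2`. -/
theorem div1_of_flag_two_real {p : ℕ} (hp0 : p ≠ 0) {E : J →+ J}
    (hE : ∀ (s : GQ) (y : J), E (s • y) = s • E y)
    (hdiv : ∀ m : J, (∀ s : GQ, s • m = m) → ∃ y : J, 2 • y = m)
    [Finite ↥(Theta GQ J 2)]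
    (F : ℕ → AddSubgroup J) (hmono : Monotone F) (hst : ∀ i, IsStable GQ (F i))
    (h0 : F 0 = ⊥) (L : ℕ) [Finite ↥(F L)]
    (hWT : ∀ w ∈ F L, 2 • w = 0) (hEW : ∀ t : J, 2 • t = 0 → E t ∈ F L)
    (hWE : ∀ w ∈ F L, E w = w)
    (hlev : ∀ y : J, FinLevel y)
    (hidx : ∀ i < L, (F i).relIndex (F (i + 1)) = 2)
    (T LamC : AddSubgroup J)
    (hV : ∀ y ∈ stepInv (F L), ∀ q : ℕ, q.Prime → q ≠ p → q ≠ 2 →
      ∃ A : ValuationSubring Qb, A.LiesOverPrime q ∧ ∀ σ ∈ A.inertiaSubgroupIn ℚ, σ • y = y)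
    (hunit : ∀ i < L, ∀ φ : J → Qb, ChiStep 2 (F i) (F (i + 1)) φ →
      ∀ y ∈ stepInv (F (i + 1)), UnitStepAt φ y 2)
    (hLam : ∀ y ∈ stepInv (F L), complexConjugation • y - y ∈ LamC)
    (hT : ∀ y ∈ stepInv (F L), ∃ A : ValuationSubring Qb, A.LiesOverPrime p ∧
      ∀ σ ∈ A.inertiaSubgroupIn ℚ, σ • y - y ∈ T)
    (hcT : Nat.card ↥(F L ⊓ T) ^ 2 ≤ Nat.card ↥(F L))
    (hcC : Nat.card ↥(F L ⊓ LamC) ^ 2 ≤ Nat.card ↥(F L))
    {D : J} (hD : ∀ s : GQ, s • D = D) :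
    ∃ τ x : J, (∀ s : GQ, s • τ = τ) ∧ (∀ s : GQ, s • x = x) ∧ (∃ n : ℕ, 2 ^ n • τ = 0) ∧
      E D = τ + 2 • x := by
  obtain ⟨k1, k2⟩ := cokIdx_bot_le_kerIdx_of_flag_two_real hp0 F hmono hst h0 L hlev hidx
    T LamC hV hunit hLam hT hcT hcC
  exact div1_of_bound hE hdiv hWT hEW hWE k1 k2 hD

end LevelOne

end Fermat.Agent.S15.helper6997
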