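/-
S15, Hecke operators on the torsion of `J₀(N)` for free from Eichler–Shimura (helper8357;
(D2) of findings #3364, continued).

The Prelude Hecke operators `heckeOperatorBar N ℓ` are not known to commute on `J₀(N)`
(`HeckeOperatorsCommuteBar N` is a hypothesis wherever it occurs on main), and no adjointness for
the Weil pairing is on main.  On the `n`-TORSION both facts are formal consequences of the
Eichler–Shimura relation (landed: `S29.helper405.stmt_ESMod_of_kf0` applied to
`S18.helper789.stmt_KF0_all`) and of Galois equivariance: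

  on `J₀(N)[n]`, for `ℓ ∤ N n` and a Frobenius lift `σ` at `ℓ`:  `T_ℓ = σ + ℓ σ⁻¹`.

* `ESAt N n ℓ hℓ`                 : the Eichler–Shimura relation at `(N, n, ℓ)` (a Prop; it is the
                                    conclusion of the landed theorem, so consumers discharge it by
                                    one application);
* `hecke_eq_frob`                 : `T z = σ z + ℓ σ⁻¹ z` on the `n`-torsion;
* `comm_of_es`                    : an additive Galois-equivariant `E` commutes on the `n`-torsion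
                                    with every operator satisfying the relation;
* `goodHecke N n`, `goodAlg N n`  : the good Hecke operators (`ℓ ∤ N n`) and the subring of
                                    `End(J₀(N))` they generate;
* `goodAlg_galois`                : every `E ∈ goodAlg N n` commutes with Galois;
* `goodAlg_comm`                  : `goodAlg N n` acts COMMUTATIVELY on `J₀(N)[n]`;
* `goodAlg_selfAdj`               : every `E ∈ goodAlg N n` is SELF-ADJOINT for the Weil pairing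
                                    `weilJ N n` (landed, helper2790) on `J₀(N)[n]`.

`esAt_all` discharges `ESAt` by the landed `S30.helper54.stmt_ESMod`, so `goodAlg_comm` and
`goodAlg_selfAdj` are UNCONDITIONAL (the `_of_es` forms keep the relation as a hypothesis).
-/
import Fermat.Agent.S15.helper8357_TorIsotropy
import Fermat.Agent.S19.helper2790_WeilJ
import Fermat.Agent.S29.helper5500_GalHecke
import Fermat.Agent.S30.helper54_MachineExport

set_option autoImplicit false

open AlgebraicCurve ModularCurve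

namespace Fermat.Agent.S15.helper8357

open Fermat.Agent.S19.helper2790 Fermat.Agent.S19.helper2111

noncomputable section

variable {N : ℕ} [NeZero N]

/-- **The Eichler–Shimura relation at `(N, n, ℓ)`**: `σ²x - T_ℓ(σx) + ℓx = 0` on `J₀(N)[n]` for
every Frobenius lift `σ` at `ℓ`.  For `ℓ ∤ N`, `ℓ ∤ n` this is the conclusion of the landed
`S29.helper405.stmt_ESMod_of_kf0 (S18.helper789.stmt_KF0_all)`. -/
def ESAt (N n ℓ : ℕ) [NeZero N] (hℓ : ℓ.Prime) : Prop :=
  ∀ A : ValuationSubring Qb, A.LiesOverPrime ℓ → ∀ σ : GQ, A.IsFrobeniusAt σ ℓ →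
    ∀ x : JZero N, n • x = 0 →
      σ • σ • x - heckeOperatorBar N ⟨ℓ, hℓ⟩ (σ • x) + ℓ • x = 0

/-- The Eichler–Shimura relation holds at every good prime (landed `S30.helper54.stmt_ESMod`). -/
theorem esAt_all (N n : ℕ) [NeZero N] (ℓ : ℕ) (hℓ : ℓ.Prime) (hℓN : ¬ ℓ ∣ N) (hℓn : ¬ ℓ ∣ n) :
    ESAt N n ℓ hℓ :=
  fun A hA σ hσ x hx =>
    Fermat.Agent.S30.helper54.stmt_ESMod N n ℓ hℓ hℓN hℓn A hA σ hσ x hx

omit [NeZero N] in
theorem nsmul_galois_inv_smul {n : ℕ} (σ : GQ) {z : JZero N} (hz : n • z = 0) :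
    n • (σ⁻¹ • z) = 0 := by
  rw [smul_comm, hz]
  exact smul_zero (A := JZero N) σ⁻¹

omit [NeZero N] in
/-- On the `n`-torsion, an operator satisfying the Eichler–Shimura relation at the Frobenius lift
`σ` is `σ + ℓ σ⁻¹`. -/
theorem hecke_eq_frob {n ℓ : ℕ} {σ : GQ} (T : JZero N → JZero N)
    (hES : ∀ x : JZero N, n • x = 0 → σ • σ • x - T (σ • x) + ℓ • x = 0)
    {z : JZero N} (hz : n • z = 0) : T z = σ • z + ℓ • (σ⁻¹ • z) := by
  have h1 := hES (σ⁻¹ • z) (nsmul_galois_inv_smul σ hz)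
  rw [smul_inv_smul] at h1
  have h2 : T z = σ • z + ℓ • (σ⁻¹ • z) - (σ • z - T z + ℓ • (σ⁻¹ • z)) := by abel
  rw [h2, h1, sub_zero]

omit [NeZero N] in
/-- An additive Galois-equivariant operator commutes, on the `n`-torsion, with every operator
satisfying the Eichler–Shimura relation at one Frobenius lift. -/
theorem comm_of_es {n ℓ : ℕ} {σ : GQ} (T : JZero N → JZero N)
    (hES : ∀ x : JZero N, n • x = 0 → σ • σ • x - T (σ • x) + ℓ • x = 0)
    (E : JZero N →+ JZero N) (hE : ∀ (τ : GQ) (x : JZero N), E (τ • x) = τ • E x)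
    {x : JZero N} (hx : n • x = 0) : E (T x) = T (E x) := by
  have hEx : n • E x = 0 := by rw [← map_nsmul, hx, map_zero]
  rw [hecke_eq_frob T hES hx, hecke_eq_frob T hES hEx, map_add, map_nsmul, hE, hE]

/-! ### The algebra of good Hecke operators -/

/-- The good Hecke operators for the modulus `n` at level `N`: `T_ℓ` with `ℓ ∤ N`, `ℓ ∤ n`. -/
def goodHecke (N n : ℕ) [NeZero N] : Set (Module.End ℤ (JZero N)) :=
  {T | ∃ (ℓ : ℕ) (hℓ : ℓ.Prime), ¬ ℓ ∣ N ∧ ¬ ℓ ∣ n ∧ T = heckeOperatorBar N ⟨ℓ, hℓ⟩}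

/-- The subring of `End(J₀(N))` generated by the good Hecke operators. -/
def goodAlg (N n : ℕ) [NeZero N] : Subring (Module.End ℤ (JZero N)) :=
  Subring.closure (goodHecke N n)

theorem heckeOperatorBar_mem_goodAlg {n ℓ : ℕ} (hℓ : ℓ.Prime) (hℓN : ¬ ℓ ∣ N) (hℓn : ¬ ℓ ∣ n) :
    heckeOperatorBar N ⟨ℓ, hℓ⟩ ∈ goodAlg N n :=
  Subring.subset_closure ⟨ℓ, hℓ, hℓN, hℓn, rfl⟩

/-- Every element of `goodAlg` commutes with the Galois action. -/
theorem goodAlg_galois {n : ℕ} {E : Module.End ℤ (JZero N)} (hE : E ∈ goodAlg N n) (τ : GQ)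
    (x : JZero N) : E (τ • x) = τ • E x := by
  induction hE using Subring.closure_induction generalizing x with
  | mem T hT =>
    obtain ⟨ℓ, hℓ, -, -, rfl⟩ := hT
    exact (Fermat.Agent.S29.helper5500.galois_smul_heckeOperatorBar N ⟨ℓ, hℓ⟩ τ x).symm
  | zero => simp
  | one => simp
  | add a b _ _ ha hb => rw [LinearMap.add_apply, LinearMap.add_apply, ha, hb, smul_add]
  | neg a _ ha => rw [LinearMap.neg_apply, LinearMap.neg_apply, ha, smul_neg]
  | mul a b _ _ ha hb => rw [Module.End.mul_apply, Module.End.mul_apply, hb, ha]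

omit [NeZero N] in
theorem nsmul_end_apply {n : ℕ} (E : Module.End ℤ (JZero N)) {x : JZero N} (hx : n • x = 0) :
    n • E x = 0 := by
  rw [← map_nsmul, hx, map_zero]

/-- A good Hecke operator commutes on the `n`-torsion with every element of `goodAlg`. -/
theorem goodAlg_comm_hecke_of_es {n : ℕ}
    (hES : ∀ (ℓ : ℕ) (hℓ : ℓ.Prime), ¬ ℓ ∣ N → ¬ ℓ ∣ n → ESAt N n ℓ hℓ)
    {E : Module.End ℤ (JZero N)} (hE : E ∈ goodAlg N n)
    {T : Module.End ℤ (JZero N)} (hT : T ∈ goodHecke N n) {x : JZero N} (hx : n • x = 0) :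
    E (T x) = T (E x) := by
  obtain ⟨ℓ, hℓ, hℓN, hℓn, rfl⟩ := hT
  obtain ⟨A, σ, hA, hσ⟩ := Fermat.Agent.Lib.helper54.exists_liesOverPrime_isFrobeniusAt hℓ
  exact comm_of_es (fun z => heckeOperatorBar N ⟨ℓ, hℓ⟩ z) (hES ℓ hℓ hℓN hℓn A hA σ hσ)
    E.toAddMonoidHom (fun τ z => goodAlg_galois hE τ z) hx

/-- `goodAlg N n` acts commutatively on `J₀(N)[n]` (relation as a hypothesis). -/
theorem goodAlg_comm_of_es {n : ℕ}
    (hES : ∀ (ℓ : ℕ) (hℓ : ℓ.Prime), ¬ ℓ ∣ N → ¬ ℓ ∣ n → ESAt N n ℓ hℓ)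
    {E E' : Module.End ℤ (JZero N)} (hE : E ∈ goodAlg N n) (hE' : E' ∈ goodAlg N n)
    {x : JZero N} (hx : n • x = 0) : E (E' x) = E' (E x) := by
  induction hE' using Subring.closure_induction generalizing x with
  | mem T hT => exact goodAlg_comm_hecke_of_es hES hE hT hx
  | zero => simp
  | one => simp
  | add a b _ _ ha hb =>
    rw [LinearMap.add_apply, LinearMap.add_apply, map_add, ha hx, hb hx]
  | neg a _ ha => rw [LinearMap.neg_apply, LinearMap.neg_apply, map_neg, ha hx]
  | mul a b _ _ ha hb =>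
    rw [Module.End.mul_apply, Module.End.mul_apply, ha (nsmul_end_apply b hx), hb hx]

/-- **`goodAlg N n` acts commutatively on `J₀(N)[n]`.** -/
theorem goodAlg_comm {n : ℕ} {E E' : Module.End ℤ (JZero N)} (hE : E ∈ goodAlg N n)
    (hE' : E' ∈ goodAlg N n) {x : JZero N} (hx : n • x = 0) : E (E' x) = E' (E x) :=
  goodAlg_comm_of_es (fun ℓ hℓ hℓN hℓn => esAt_all N n ℓ hℓ hℓN hℓn) hE hE' hx

/-- Every element of `goodAlg N n` is self-adjoint for the Weil pairing on `J₀(N)[n]` (relation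
as a hypothesis). -/
theorem goodAlg_selfAdj_of_es {n : ℕ}
    (hES : ∀ (ℓ : ℕ) (hℓ : ℓ.Prime), ¬ ℓ ∣ N → ¬ ℓ ∣ n → ESAt N n ℓ hℓ)
    {E : Module.End ℤ (JZero N)} (hE : E ∈ goodAlg N n)
    {x y : JZero N} (hx : n • x = 0) (hy : n • y = 0) :
    weilJ N n (E x) y = weilJ N n x (E y) := by
  induction hE using Subring.closure_induction generalizing x y with
  | mem T hT =>
    obtain ⟨ℓ, hℓ, hℓN, hℓn, rfl⟩ := hT
    have h1 := weilJ_spec (nsmul_end_apply (heckeOperatorBar N ⟨ℓ, hℓ⟩) hx) hy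
    have h2 := weil_heckeOperatorBar_adjoint (reciprocity_FN N) hℓ hℓn (hES ℓ hℓ hℓN hℓn) hx hy h1
    exact (weilJ_eq h2).symm
  | zero =>
    rw [LinearMap.zero_apply, LinearMap.zero_apply, weilJ_zero_left hy, weilJ_zero_right hx]
  | one => rfl
  | add a b _ _ ha hb =>
    rw [LinearMap.add_apply, LinearMap.add_apply,
      weilJ_add_left (nsmul_end_apply a hx) (nsmul_end_apply b hx) hy,
      weilJ_add_right hx (nsmul_end_apply a hy) (nsmul_end_apply b hy),
      ha hx hy, hb hx hy]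
  | neg a _ ha =>
    rw [LinearMap.neg_apply, LinearMap.neg_apply,
      weilJ_neg_left (nsmul_end_apply a hx) hy,
      weilJ_neg_right hx (nsmul_end_apply a hy), ha hx hy]
  | mul a b ha' hb' ha hb =>
    rw [Module.End.mul_apply, Module.End.mul_apply, ha (nsmul_end_apply b hx) hy,
      hb hx (nsmul_end_apply a hy), goodAlg_comm_of_es hES hb' ha' hy]

/-- **Every element of `goodAlg N n` is self-adjoint for the Weil pairing on `J₀(N)[n]`.** -/
theorem goodAlg_selfAdj {n : ℕ} {E : Module.End ℤ (JZero N)} (hE : E ∈ goodAlg N n)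
    {x y : JZero N} (hx : n • x = 0) (hy : n • y = 0) :
    weilJ N n (E x) y = weilJ N n x (E y) :=
  goodAlg_selfAdj_of_es (fun ℓ hℓ hℓN hℓn => esAt_all N n ℓ hℓ hℓN hℓn) hE hx hy

end

end Fermat.Agent.S15.helper8357
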