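/-
S15 block [P] (helper8357; findings #3364, team_s15_chat #12): THE LOCAL CONDITION AT THE LEVEL
PRIME `p`, AT LEVEL `r` ONLY, and its count "`#p-jumps ≤ d/2`" in the shape consumed by the
abstract count (`Nat.card ↥(F L ⊓ Tor) ^ 2 ≤ Nat.card ↥(F L)`).  Pairing = the landed
`S19.helper2790.weilJ` (bundled, unconditional).

`lamP A p r` := the subgroup of `J₀(p)` generated by the elements `τ y - y`, `τ` in the inertia
group of `A` (a valuation ring of `ℚ̄` over `p`), `y : J₀(p)` with `r • y` Galois-fixed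
(= rational).  By definition it contains every value at inertia of every Kummer cocycle of a
rational point: this is the `Tor` of the count.  Then:

* `sub_mem_lamP`              : `τ y - y ∈ lamP` whenever `r • y` is Galois-fixed;
* `nsmul_eq_zero_of_mem_lamP` : `lamP ≤ J₀(p)[r]`;
* `map_lamP_le`               : `E (lamP) ≤ lamP` for every additive Galois-equivariant `E`;
* `weilJ_eq_one_of_mem_lamP`  : **`lamP` is isotropic for the Weil pairing `e_r`**, from
      `hgen` : every generator is `r^v • w` with `r^(v+1) • w = 0` and `σ² w = p² w`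
  (`σ` a Frobenius lift at `A`, `v` any integer with `r^(v+1) ∤ p² - 1`).  `hgen` is supplied by
  the free half for points + divisibility of `J₀(p)` + the S35 geometry leaf at
  `(M, q, lam, k) = (p, p, r, v+1)`: see `helper8357_PBlockInst`;
* `card_inf_lamP_sq_le`       : for every subgroup `W₀ ≤ J₀(p)[r]` on which `e_r` is
      nondegenerate:  `#(W₀ ⊓ lamP)² ≤ #W₀`.

No count of the toric part, no Hecke packets, no tower of levels.
-/
import Fermat.Agent.S15.helper8357_TorIsotropy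
import Fermat.Agent.S19.helper2790_WeilJDual

set_option autoImplicit false

open AlgebraicCurve ModularCurve

namespace Fermat.Agent.S15.helper8357

open Fermat.Agent.S19.helper2790 Fermat.Agent.S19.helper2111

noncomputable section

variable {p : ℕ} [NeZero p]

/-- The generators of `lamP`: `τ y - y` with `τ` in the inertia group of `A` and `r • y`
Galois-fixed. -/
def lamGen (A : ValuationSubring Qb) (p r : ℕ) [NeZero p] : Set (JZero p) :=
  {x | ∃ τ ∈ A.inertiaSubgroupIn ℚ, ∃ y : JZero p, (∀ σ : GQ, σ • (r • y) = r • y) ∧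
    x = τ • y - y}

/-- **The local condition at `p`**: the subgroup generated by the values at inertia of the
Kummer cocycles of the rational points. -/
def lamP (A : ValuationSubring Qb) (p r : ℕ) [NeZero p] : AddSubgroup (JZero p) :=
  AddSubgroup.closure (lamGen A p r)

omit [NeZero p] in
theorem sub_mem_lamP [NeZero p] {A : ValuationSubring Qb} {r : ℕ} {τ : GQ}
    (hτ : τ ∈ A.inertiaSubgroupIn ℚ) {y : JZero p} (hy : ∀ σ : GQ, σ • (r • y) = r • y) :
    τ • y - y ∈ lamP A p r :=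
  AddSubgroup.subset_closure ⟨τ, hτ, y, hy, rfl⟩

omit [NeZero p] in
/-- The shape of the (P1) input of the flag bound: if every `σ y - y` lies in a subgroup `W₀`
killed by `r` (i.e. `y` is a relative invariant of `W₀ ≤ J₀(p)[r]`), then `τ y - y ∈ lamP` for
`τ` in the inertia group of `A`. -/
theorem sub_mem_lamP_of_step [NeZero p] {A : ValuationSubring Qb} {r : ℕ}
    {W₀ : AddSubgroup (JZero p)} (hW₀ : ∀ x ∈ W₀, r • x = 0) {y : JZero p}
    (hy : ∀ σ : GQ, σ • y - y ∈ W₀) {τ : GQ} (hτ : τ ∈ A.inertiaSubgroupIn ℚ) :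
    τ • y - y ∈ lamP A p r := by
  refine sub_mem_lamP hτ (fun σ => ?_)
  have h1 := hW₀ _ (hy σ)
  rw [nsmul_sub, sub_eq_zero] at h1
  have h2 : σ • (r • y) = r • (σ • y) :=
    map_nsmul (DistribSMul.toAddMonoidHom (JZero p) σ) r y
  rw [h2, h1]

/-- `lamP ≤ J₀(p)[r]`. -/
theorem nsmul_eq_zero_of_mem_lamP {A : ValuationSubring Qb} {r : ℕ} {x : JZero p}
    (hx : x ∈ lamP A p r) : r • x = 0 := by
  induction hx using AddSubgroup.closure_induction with
  | mem x hx =>
    obtain ⟨τ, -, y, hy, rfl⟩ := hx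
    rw [nsmul_sub, smul_comm r τ y, hy τ, sub_self]
  | zero => exact nsmul_zero r
  | add a b _ _ ha hb => rw [nsmul_add, ha, hb, add_zero]
  | neg a _ ha => rw [neg_nsmul, ha, neg_zero]

/-- `lamP` is stable under every additive Galois-equivariant operator. -/
theorem map_lamP_le {A : ValuationSubring Qb} {r : ℕ} (E : JZero p →+ JZero p)
    (hE : ∀ (σ : GQ) (x : JZero p), E (σ • x) = σ • E x) :
    (lamP A p r).map E ≤ lamP A p r := by
  rw [AddSubgroup.map_le_iff_le_comap]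
  refine (AddSubgroup.closure_le _).mpr ?_
  rintro x ⟨τ, hτ, y, hy, rfl⟩
  show E (τ • y - y) ∈ lamP A p r
  rw [map_sub, hE]
  refine sub_mem_lamP hτ (fun σ => ?_)
  rw [← map_nsmul, ← hE, hy σ]

/-- **`lamP` is isotropic for the Weil pairing `e_r`**, as soon as every generator is `r^v • w`
with `w` of level `r^(v+1)` on which a Frobenius lift `σ` at `p` acts with `σ² = p²`. -/
theorem weilJ_eq_one_of_mem_lamP {r v : ℕ} (hr : r.Prime) (hpr : Nat.Coprime p r)
    (hv : ¬ r ^ (v + 1) ∣ p ^ 2 - 1)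
    {A : ValuationSubring Qb} (hA : A.LiesOverPrime p) {σ : GQ} (hσ : A.IsFrobeniusAt σ p)
    (hgen : ∀ x ∈ lamGen A p r, ∃ w : JZero p,
      r ^ (v + 1) • w = 0 ∧ σ • σ • w = p ^ 2 • w ∧ x = r ^ v • w)
    {x x' : JZero p} (hx : x ∈ lamP A p r) (hx' : x' ∈ lamP A p r) : weilJ p r x x' = 1 := by
  have tz : ∀ {z : JZero p}, z ∈ lamP A p r → r • z = 0 := fun h => nsmul_eq_zero_of_mem_lamP h
  induction hx, hx' using AddSubgroup.closure_induction₂ with
  | mem a b ha hb =>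
    have h1 := weilJ_spec (tz (AddSubgroup.subset_closure ha)) (tz (AddSubgroup.subset_closure hb))
    obtain ⟨w, hwt, hw, rfl⟩ := hgen a ha
    obtain ⟨w', hwt', hw', rfl⟩ := hgen b hb
    exact weil_eq_one_of_frobSq_lift (reciprocity_FN p) hr hpr hv hA hσ hwt hwt' hw hw' h1
  | zero_left b hb => exact weilJ_zero_left (tz hb)
  | zero_right a ha => exact weilJ_zero_right (tz ha)
  | add_left a b c ha hb hc h1 h2 =>
    rw [weilJ_add_left (tz ha) (tz hb) (tz hc), h1, h2, one_mul]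
  | add_right a b c ha hb hc h1 h2 =>
    rw [weilJ_add_right (tz hc) (tz ha) (tz hb), h1, h2, one_mul]
  | neg_left a b ha hb h1 =>
    rw [weilJ_neg_left (tz ha) (tz hb), h1, inv_one]
  | neg_right a b ha hb h1 =>
    rw [weilJ_neg_right (tz ha) (tz hb), h1, inv_one]

omit [NeZero p] in
/-- A subgroup of `J₀(p)` killed by `r > 0` is finite. -/
theorem finite_of_nsmul_eq_zero' [NeZero p] {r : ℕ} (hr : 0 < r) (W₀ : AddSubgroup (JZero p))
    (hW₀ : ∀ x ∈ W₀, r • x = 0) : Finite W₀ := by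
  have := finite_torsJ p hr
  refine Finite.of_injective (fun x : W₀ => (⟨(x : JZero p), ?_⟩ : TorsJ p r)) ?_
  · rw [Submodule.mem_torsionBy_iff, natCast_zsmul]
    exact hW₀ _ x.2
  · intro x y h
    exact Subtype.ext (congrArg (fun z : TorsJ p r => (z : JZero p)) h)

/-- **Relative isotropy count for `weilJ`**: `W₀ ≤ J₀(p)[r]` with `e_r` nondegenerate on `W₀`,
`L` a subgroup on which `e_r` is trivial  ⟹  `#(W₀ ⊓ L)² ≤ #W₀`. -/
theorem card_inf_sq_le_of_isotropic {r : ℕ} (hr : 0 < r) (W₀ : AddSubgroup (JZero p))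
    (hW₀ : ∀ x ∈ W₀, r • x = 0)
    (hnd : ∀ y ∈ W₀, y ≠ 0 → ∃ x ∈ W₀, weilJ p r x y ≠ 1)
    (L : AddSubgroup (JZero p)) (hL : ∀ x ∈ W₀ ⊓ L, ∀ x' ∈ W₀ ⊓ L, weilJ p r x x' = 1) :
    Nat.card ↥(W₀ ⊓ L) ^ 2 ≤ Nat.card ↥W₀ := by
  have : Finite W₀ := finite_of_nsmul_eq_zero' hr W₀ hW₀
  have hbim : Pairing.IsBimul (fun x y : W₀ => weilJ p r (x : JZero p) (y : JZero p)) :=
    { ne_zero := fun x y => weilJ_ne_zero _ _
      add_right := fun x y y' => weilJ_add_right (hW₀ _ x.2) (hW₀ _ y.2) (hW₀ _ y'.2)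
      add_left := fun x x' y => weilJ_add_left (hW₀ _ x.2) (hW₀ _ x'.2) (hW₀ _ y.2) }
  have hnd' : ∀ y : W₀, y ≠ 0 → ∃ x : W₀, weilJ p r (x : JZero p) (y : JZero p) ≠ 1 := by
    intro y hy
    obtain ⟨x, hx, hne⟩ := hnd y y.2 (fun h0 => hy (Subtype.ext h0))
    exact ⟨⟨x, hx⟩, hne⟩
  have key := Pairing.card_sq_le_of_isotropic hbim hasEnoughRootsOfUnity_Qb hnd'
    ((W₀ ⊓ L).addSubgroupOf W₀) (fun x hx y hy =>
      hL _ (AddSubgroup.mem_addSubgroupOf.mp hx) _ (AddSubgroup.mem_addSubgroupOf.mp hy))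
  rwa [Nat.card_congr (AddSubgroup.addSubgroupOfEquivOfLe
    (inf_le_left : W₀ ⊓ L ≤ W₀)).toEquiv] at key

/-- **The count at `p`** (`"#p-jumps ≤ d/2"`): for every subgroup `W₀` of `J₀(p)[r]` on which
the Weil pairing `e_r` is nondegenerate, `#(W₀ ⊓ lamP)² ≤ #W₀`. -/
theorem card_inf_lamP_sq_le {r v : ℕ} (hr : r.Prime) (hpr : Nat.Coprime p r)
    (hv : ¬ r ^ (v + 1) ∣ p ^ 2 - 1)
    {A : ValuationSubring Qb} (hA : A.LiesOverPrime p) {σ : GQ} (hσ : A.IsFrobeniusAt σ p)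
    (hgen : ∀ x ∈ lamGen A p r, ∃ w : JZero p,
      r ^ (v + 1) • w = 0 ∧ σ • σ • w = p ^ 2 • w ∧ x = r ^ v • w)
    (W₀ : AddSubgroup (JZero p)) (hW₀ : ∀ x ∈ W₀, r • x = 0)
    (hnd : ∀ y ∈ W₀, y ≠ 0 → ∃ x ∈ W₀, weilJ p r x y ≠ 1) :
    Nat.card ↥(W₀ ⊓ lamP A p r) ^ 2 ≤ Nat.card ↥W₀ :=
  card_inf_sq_le_of_isotropic hr.pos W₀ hW₀ hnd (lamP A p r) (fun _ hx _ hx' =>
    weilJ_eq_one_of_mem_lamP hr hpr hv hA hσ hgen hx.2 hx'.2)

end

end Fermat.Agent.S15.helper8357
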