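/-
S15 block [P], instantiation (helper8357): `lamP A p r` IS WEIL-ISOTROPIC and the count
`#(W₀ ⊓ lamP)² ≤ #W₀` holds, with ONE open hypothesis: the S35 Prop
`S35.helper2039.Stmt_TorFrobAux` (through helper578's compiled seam `frobSq_of_mem_tor`).

Inputs:
* the free half for points (P1) — copy of record `helper3.inertia_sub_mem_inf_of_smul_eq`;
* divisibility of `J₀(p)` (landed S17 `helper2219.jzero_nsmul_surjective`);
* `σ² = p²` on `tor A p hp (r^(v+1)) = K^∞ ⊓ W_p K^∞` (`helper578.frobSq_of_mem_tor`);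
* the landed Weil pairing `S19.helper2790.weilJ`.

Main statements (`hT : Stmt_TorFrobAux`, `hp : p.Prime`, `hr : r.Prime`, `hrp : r ≠ p`,
`hA : A.LiesOverPrime p`):
* `lamGen_eq_nsmul_tor` : every generator of `lamP A p r` is `r^v • w`, `w ∈ tor A p hp (r^(v+1))`;
* `weilJ_eq_one_of_mem_lamP_of_aux` : `weilJ p r x x' = 1` for `x x' ∈ lamP A p r`;
* `card_inf_lamP_sq_le_of_aux`      : `Nat.card ↥(W₀ ⊓ lamP A p r) ^ 2 ≤ Nat.card ↥W₀` for every
      `W₀ ≤ J₀(p)[r]` on which `weilJ p r` is nondegenerate (`r = 2` included).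
-/
import Fermat.Agent.S15.helper8357_PBlock
import Fermat.Agent.S15.helper3_FreeHalfRat
import Fermat.Agent.S15.helper578_TorSeam
import Fermat.Agent.S17.helper2219_DivJZero

set_option autoImplicit false

open AlgebraicCurve ModularCurve

namespace Fermat.Agent.S15.helper8357

open Fermat.Agent.S19.helper2790 Fermat.Agent.S19.helper2111
open Fermat.Agent.S15.helper578

noncomputable section

variable {p : ℕ} [NeZero p]

/-- Every generator of `lamP` is `r^v • w` with `w` in the toric part at level `r^(v+1)`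
(free half for points + divisibility of `J₀(p)`). -/
theorem lamGen_eq_nsmul_tor (hp : p.Prime) {A : ValuationSubring Qb} {r : ℕ} (hr : r ≠ 0)
    (v : ℕ) {x : JZero p} (hx : x ∈ lamGen A p r) :
    ∃ w ∈ tor A p hp (r ^ (v + 1)), x = r ^ v • w := by
  obtain ⟨τ, hτ, y, hy, rfl⟩ := hx
  obtain ⟨z, hz⟩ := Fermat.Agent.S17.helper2219.jzero_nsmul_surjective p (r ^ v)
    (pow_pos (Nat.pos_of_ne_zero hr) v) y
  have hz' : r ^ v • z = y := hz
  have hfix : τ • (((r ^ (v + 1) : ℕ) : ℤ) • z) = ((r ^ (v + 1) : ℕ) : ℤ) • z := by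
    rw [natCast_zsmul, pow_succ, mul_nsmul, hz']
    exact hy τ
  refine ⟨τ • z - z, Fermat.Agent.S15.helper3.inertia_sub_mem_inf_of_smul_eq hτ (wP p hp)
    (wP_arithmeticGalois_smul p hp) (pow_ne_zero _ hr) z hfix, ?_⟩
  have h1 : τ • (r ^ v • z) = r ^ v • (τ • z) :=
    map_nsmul (DistribSMul.toAddMonoidHom (JZero p) τ) _ _
  rw [nsmul_sub, ← h1, hz']

/-- The hypothesis `hgen` of `helper8357_PBlock`, from `Stmt_TorFrobAux`. -/
theorem lamGen_spec (hT : Fermat.Agent.S35.helper2039.Stmt_TorFrobAux) (hp : p.Prime)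
    {r : ℕ} (hr : r.Prime) (hrp : r ≠ p) (v : ℕ) {A : ValuationSubring Qb}
    (hA : A.LiesOverPrime p) {σ : GQ} (hσ : A.IsFrobeniusAt σ p) :
    ∀ x ∈ lamGen A p r, ∃ w : JZero p,
      r ^ (v + 1) • w = 0 ∧ σ • σ • w = p ^ 2 • w ∧ x = r ^ v • w := by
  intro x hx
  obtain ⟨w, hw, rfl⟩ := lamGen_eq_nsmul_tor hp hr.ne_zero v hx
  refine ⟨w, ?_, frobSq_of_mem_tor hT hp hr hrp (v + 1) hA hσ hw, rfl⟩
  have h := Pic0.mem_torsion.mp (Fermat.Agent.S35.helper1687.kInfty_le_torsion hw.1)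
  rwa [natCast_zsmul] at h

/-- For a prime `p` there is `v` with `r^(v+1) ∤ p² - 1` (any `r ≥ 2`). -/
theorem exists_not_pow_dvd {p r : ℕ} (hp : p.Prime) (hr : 2 ≤ r) :
    ∃ v : ℕ, ¬ r ^ (v + 1) ∣ p ^ 2 - 1 := by
  refine ⟨p ^ 2, fun h => ?_⟩
  have h0 : 0 < p ^ 2 - 1 := by
    have : 2 ^ 2 ≤ p ^ 2 := Nat.pow_le_pow_left hp.two_le 2
    omega
  have h1 : r ^ (p ^ 2 + 1) ≤ p ^ 2 - 1 := Nat.le_of_dvd h0 h
  have h2 : p ^ 2 + 1 < r ^ (p ^ 2 + 1) :=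
    lt_of_lt_of_le (Nat.lt_two_pow_self) (Nat.pow_le_pow_left hr _)
  omega

/-- **`lamP A p r` is isotropic for the Weil pairing `e_r`** (given `Stmt_TorFrobAux`). -/
theorem weilJ_eq_one_of_mem_lamP_of_aux (hT : Fermat.Agent.S35.helper2039.Stmt_TorFrobAux)
    (hp : p.Prime) {r : ℕ} (hr : r.Prime) (hrp : r ≠ p) {A : ValuationSubring Qb}
    (hA : A.LiesOverPrime p) {x x' : JZero p} (hx : x ∈ lamP A p r) (hx' : x' ∈ lamP A p r) :
    weilJ p r x x' = 1 := by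
  obtain ⟨v, hv⟩ := exists_not_pow_dvd hp hr.two_le
  obtain ⟨σ, hσ⟩ := Fermat.Agent.Lib.helper54.exists_isFrobeniusAt hp A hA
  have hpr : Nat.Coprime p r := (Nat.coprime_primes hp hr).mpr (Ne.symm hrp)
  exact weilJ_eq_one_of_mem_lamP hr hpr hv hA hσ (lamGen_spec hT hp hr hrp v hA hσ) hx hx'

/-- **The count at `p`** (given `Stmt_TorFrobAux`): `#(W₀ ⊓ lamP)² ≤ #W₀` for every subgroup
`W₀ ≤ J₀(p)[r]` on which `e_r` is nondegenerate. -/
theorem card_inf_lamP_sq_le_of_aux (hT : Fermat.Agent.S35.helper2039.Stmt_TorFrobAux)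
    (hp : p.Prime) {r : ℕ} (hr : r.Prime) (hrp : r ≠ p) {A : ValuationSubring Qb}
    (hA : A.LiesOverPrime p) (W₀ : AddSubgroup (JZero p)) (hW₀ : ∀ x ∈ W₀, r • x = 0)
    (hnd : ∀ y ∈ W₀, y ≠ 0 → ∃ x ∈ W₀, weilJ p r x y ≠ 1) :
    Nat.card ↥(W₀ ⊓ lamP A p r) ^ 2 ≤ Nat.card ↥W₀ :=
  card_inf_sq_le_of_isotropic hr.pos W₀ hW₀ hnd (lamP A p r) (fun _ hx _ hx' =>
    weilJ_eq_one_of_mem_lamP_of_aux hT hp hr hrp hA hx.2 hx'.2)

end

end Fermat.Agent.S15.helper8357
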