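/-
helper6997 — S15/S12 brick (BND-CNT-R2, instance): the level-one Eisenstein descent at the EVEN
Eisenstein prime `e = 2` for `J₀(p)`, `p ≥ 5` prime, closed against the compiled suppliers.
The only open input is the S35 geometry Prop `S35.helper2039.Stmt_TorFrobAux`.

`div1_two_JZero` : for ANY commutative ring `T` acting on `J₀(p)(ℚ̄)` compatibly with Galois, any
ideal `P ∋ 2` containing the Eisenstein elements `τ ℓ - (1 + ℓ)` (the binder of
`helper991.exists_jhFlag_primaryPart`), and any `t : T` acting through the good Hecke algebra at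
`2` and projecting `J₀(p)[2]` onto its `P`-primary part `W`: every Galois-fixed `D` has
`t • D = τ' + 2 • z` with `τ'`, `z` Galois-fixed and `τ'` of `2`-power order.

It is ONE call of `div1_of_flag_two_real` (real-place table, level one) with

* the flag          : `helper991.exists_jhFlag_primaryPart` (k = 1);
* `T := helper8357.lamP A p 2`, count `helper8357.card_inf_lamP_sq_le_of_aux` (the P-block of
  record on the landed `weilJ`; its only input is `Stmt_TorFrobAux`);
* `LamC := helper2449.lamConjJ p`, count `helper2449.card_inf_lamConjJ_sq_le`;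
* nondegeneracy of `e₂` on `W` : `helper2449.weilJ_nondeg_on_piece` + `helper8357.goodAlg_selfAdj`;
* unit classes at `2`  : `helper1908.unit_class_closed` + `helper7259 ChiStep.unitStepAt_of_mem`;
* good primes          : `helper9541.forall_inertia_smul_eq`;
* finite level, divisibility, Mordell–Weil : landed S29 / S17.

`levelOneAt_two` : the same as `helper9563.LevelOneAt p S 2` (`2 ∈ S`), and `div1_two` : the body
of `Stmt_Div1 p c 2 S0` of the top Spec through `helper9563.div1_of_levelOne`.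
-/
import Fermat.Agent.S15.helper6997_DivOneReal
import Fermat.Agent.S15.helper991_JHInst
import Fermat.Agent.S15.helper9563_Div1
import Fermat.Agent.S15.helper9541_LocGoodStep
import Fermat.Agent.S15.helper1908_UnitClassClosed
import Fermat.Agent.S15.helper2449_ConjTwoJ
import Fermat.Agent.S15.helper8357_PBlockInst
import Fermat.Agent.S15.helper8357_HeckeTorsion
import Fermat.Agent.S29.helper8527_FiniteLevel
import Fermat.Agent.S17

set_option autoImplicit false

open AlgebraicCurve ModularCurve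

namespace Fermat.Agent.S15.helper6997

open Fermat.Agent.S15.helper7259 Fermat.Agent.S15.helper4190 Fermat.Agent.S15.helper2063
open Fermat.Agent.S15.helper8205

section Instance

/-- There is `v` with `2 ^ (v + 1) ∤ p ^ 2 - 1` (`p ≥ 2`). -/
theorem exists_not_two_pow_dvd {p : ℕ} (hp : 2 ≤ p) : ∃ v : ℕ, ¬ 2 ^ (v + 1) ∣ p ^ 2 - 1 := by
  refine ⟨p ^ 2, fun h => ?_⟩
  have h1 : 0 < p ^ 2 - 1 := by
    have : 4 ≤ p ^ 2 := by nlinarith
    omega
  have h2 := Nat.le_of_dvd h1 h
  have h3 : p ^ 2 < 2 ^ (p ^ 2) := Nat.lt_two_pow_self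
  have h4 : 2 ^ (p ^ 2) ≤ 2 ^ (p ^ 2 + 1) := Nat.pow_le_pow_right (by norm_num) (Nat.le_succ _)
  omega

/-- **Level-one (DIV) at `e = 2` for `J₀(p)`**, for an arbitrary Hecke ring `(T, P, τ)` in the
binder shape of `helper991.exists_jhFlag_primaryPart`. -/
theorem div1_two_JZero (hTor : Fermat.Agent.S35.helper2039.Stmt_TorFrobAux)
    (p : ℕ) [NeZero p] (hp : p.Prime) (hp5 : 5 ≤ p)
    {T : Type*} [CommRing T] [Module T (JZero p)]
    (hGT : ∀ (g : GQ) (t : T) (x : JZero p), g • t • x = t • g • x)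
    (P : Ideal T) (h2P : ((2 : ℕ) : T) ∈ P) (S : Finset ℕ) (τ : ℕ → T)
    (hτ : ∀ (ℓ : ℕ) (hℓ : ℓ.Prime), ¬ ℓ ∣ p * 2 → ℓ ∉ S →
      (∀ x : JZero p, τ ℓ • x = heckeOperatorBar p ⟨ℓ, hℓ⟩ x) ∧ τ ℓ - (1 + (ℓ : T)) ∈ P)
    (t : T)
    (htg : ∃ f ∈ helper8357.goodAlg p 2, ∀ x : JZero p, t • x = f x)
    (hEW : ∀ x : JZero p, 2 • x = 0 → t • x ∈ (primaryPart P 2 1 : Submodule T (JZero p)))
    (hWE : ∀ x ∈ (primaryPart P 2 1 : Submodule T (JZero p)), t • x = x)
    (D : JZero p) (hD : ∀ s : GQ, s • D = D) :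
    ∃ τ' z : JZero p, (∀ s : GQ, s • τ' = τ') ∧ (∀ s : GQ, s • z = z) ∧
      (∃ n : ℕ, 2 ^ n • τ' = 0) ∧ t • D = τ' + 2 • z := by
  classical
  haveI : Fact (Nat.Prime 2) := ⟨Nat.prime_two⟩
  have hp2 : (2 : ℕ) ≠ p := by omega
  have h2p : ¬ 2 ∣ p := fun h => hp2 ((Nat.prime_dvd_prime_iff_eq Nat.prime_two hp).mp h)
  -- the flag of the primary part
  obtain ⟨L, F, hF⟩ := helper991.exists_jhFlag_primaryPart p hGT 2 P h2P S τ hτ 1
  have hFL : ∀ x : JZero p, x ∈ F L ↔ x ∈ (primaryPart P 2 1 : Submodule T (JZero p)) := by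
    intro x
    rw [hF.last]
    exact Iff.rfl
  have hWT : ∀ w ∈ F L, 2 • w = 0 := by
    intro w hw
    have h := ((hFL w).mp hw).1
    rwa [pow_one] at h
  have hfin2 : {x : JZero p | 2 • x = 0}.Finite := by
    have h := Fermat.Agent.S29.helper288.finite_torsion_JZero p (n := 2) (by norm_num)
    exact h
  haveI hWfin : Finite ↥(F L) := by
    refine Set.Finite.to_subtype (hfin2.subset ?_)
    intro w hw
    exact hWT w hw
  have hFi : ∀ i ≤ L, Finite ↥(F i) := by
    intro i hi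
    exact Finite.of_injective (AddSubgroup.inclusion (hF.mono hi))
      (AddSubgroup.inclusion_injective (hF.mono hi))
  -- the projector
  let E : JZero p →+ JZero p := DistribSMul.toAddMonoidHom (JZero p) t
  have hEapp : ∀ x : JZero p, E x = t • x := fun _ => rfl
  have hE : ∀ (s : GQ) (y : JZero p), E (s • y) = s • E y := by
    intro s y
    rw [hEapp, hEapp, hGT]
  have hEW' : ∀ x : JZero p, 2 • x = 0 → E x ∈ F L := fun x hx => (hFL _).mpr (hEW x hx)
  have hWE' : ∀ w ∈ F L, E w = w := fun w hw => hWE w ((hFL w).mp hw)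
  have hdiv : ∀ m : JZero p, (∀ s : GQ, s • m = m) → ∃ y : JZero p, 2 • y = m :=
    fun m _ => Fermat.Agent.S17.helper2219.jzero_nsmul_surjective p 2 (by norm_num) m
  haveI : Finite ↥(Theta GQ (JZero p) 2) :=
    finite_Theta_of_fg' (by norm_num) (Fermat.Agent.S17.result p hp hp5)
  have hlev : ∀ y : JZero p, FinLevel y :=
    fun y => Fermat.Agent.S29.helper8527.exists_finiteLevel_point p y
  -- the Weil pairing on `W`
  obtain ⟨f, hfg, hf⟩ := htg
  have hEadj : ∀ x y : JZero p, 2 • x = 0 → 2 • y = 0 →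
      Fermat.Agent.S19.helper2790.weilJ p 2 (E x) y =
        Fermat.Agent.S19.helper2790.weilJ p 2 x (E y) := by
    intro x y hx hy
    rw [hEapp, hEapp, hf, hf]
    exact helper8357.goodAlg_selfAdj hfg hx hy
  have hEidem : ∀ x : JZero p, 2 • x = 0 → E (E x) = E x :=
    fun x hx => hWE' _ (hEW' x hx)
  have hWiff : ∀ z : JZero p, z ∈ F L ↔ 2 • z = 0 ∧ E z = z := by
    intro z
    constructor
    · intro hz
      exact ⟨hWT z hz, hWE' z hz⟩
    · rintro ⟨hz2, hEz⟩
      rw [← hEz]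
      exact hEW' z hz2
  have hndJ : ∀ x ∈ F L, x ≠ 0 →
      ∃ y ∈ F L, Fermat.Agent.S19.helper2790.weilJ p 2 x y ≠ 1 :=
    helper2449.weilJ_nondeg_on_piece (by norm_num) E hEidem hEadj (F L) hWiff
  have hndJ' : ∀ y ∈ F L, y ≠ 0 →
      ∃ x ∈ F L, Fermat.Agent.S19.helper2790.weilJ p 2 x y ≠ 1 := by
    intro y hy hy0
    obtain ⟨x, hx, hne⟩ := hndJ y hy hy0
    refine ⟨x, hx, fun h => hne ?_⟩
    rw [Fermat.Agent.S19.helper2790.weilJ_symm (hWT x hx) (hWT y hy), h, inv_one]
  -- the two places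
  obtain ⟨A, hA⟩ := Fermat.Agent.Lib.helper54.exists_liesOverPrime hp
  have hfix2 : ∀ y ∈ stepInv (F L), ∀ s : GQ, s • (2 • y) = 2 • y := by
    intro y hy s
    have h1 := hWT _ (hy s)
    rw [nsmul_sub, sub_eq_zero] at h1
    have h2 : s • (2 • y) = 2 • (s • y) :=
      map_nsmul (DistribSMul.toAddMonoidHom (JZero p) s) 2 y
    rw [h2, h1]
  have hcT : Nat.card ↥(F L ⊓ helper8357.lamP A p 2) ^ 2 ≤ Nat.card ↥(F L) :=
    helper8357.card_inf_lamP_sq_le_of_aux hTor hp Nat.prime_two hp2 hA (F L) hWT hndJ'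
  have hcC : Nat.card ↥(F L ⊓ helper2449.lamConjJ p) ^ 2 ≤ Nat.card ↥(F L) :=
    helper2449.card_inf_lamConjJ_sq_le (F L) hWT hndJ
  -- the level-one descent
  have key := div1_of_flag_two_real (p := p) hp.ne_zero (E := E) hE hdiv F hF.mono
    (fun i s y hy => hF.stable i s y hy) hF.zero L hWT hEW' hWE' hlev hF.relIndex
    (helper8357.lamP A p 2) (helper2449.lamConjJ p)
    (by
      intro y hy q hq hqp hq2
      obtain ⟨A', hA'⟩ := Fermat.Agent.Lib.helper54.exists_liesOverPrime hq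
      exact ⟨A', hA', helper9541.forall_inertia_smul_eq hq
        (fun h => hqp ((Nat.prime_dvd_prime_iff_eq hq hp).mp h))
        (fun h => hq2 ((Nat.prime_dvd_prime_iff_eq hq Nat.prime_two).mp h))
        (F L) hWT y hy A' hA'⟩)
    (by
      intro i hi φ hc y hy
      obtain ⟨A2, hA2⟩ := Fermat.Agent.Lib.helper54.exists_liesOverPrime Nat.prime_two
      haveI := hFi (i + 1) (Nat.succ_le_of_lt hi)
      obtain ⟨β, hβ, hβ', hI⟩ := helper1908.unit_class_closed p 2 h2p A2 hA2 (F (i + 1))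
        (fun σ' _ x hx => hc.stable σ' x hx) φ hc.map_zero hc.mul
        (fun σ' _ x hx => hc.equi σ' x hx) y (fun σ' _ => hy σ')
      exact hc.unitStepAt_of_mem A2 hA2 β hβ hβ' hI)
    (fun y hy => helper2449.conj_smul_sub_mem_lamConjJ_of_two y (hWT _ (hy complexConjugation)))
    (fun y hy => ⟨A, hA, fun σ' hσ' => helper8357.sub_mem_lamP hσ' (hfix2 y hy)⟩)
    hcT hcC hD
  exact key

/-- Every element of the polynomial Hecke ring on the good primes acts through the good Hecke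
algebra at `2` as soon as `2` is excluded. -/
theorem exists_mem_goodAlg_two (p : ℕ) [NeZero p] (hp : p.Prime) (S : Finset ℕ) (h2S : 2 ∈ S)
    (t : helper9563.HeckeT p S) :
    ∃ f ∈ helper8357.goodAlg p 2, ∀ x : JZero p,
      (letI := helper9563.moduleT p S; t • x) = f x := by
  obtain ⟨f, hf, hfx⟩ := helper9563.exists_mem_closure_gens p S t
  refine ⟨f, ?_, hfx⟩
  refine (Subring.closure_mono ?_) hf
  rintro g ⟨q, hqS, hqp, rfl⟩
  refine ⟨(q : ℕ), q.2, fun h => hqp ((Nat.prime_dvd_prime_iff_eq q.2 hp).mp h), fun h => ?_, rfl⟩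
  have h2 : (q : ℕ) = 2 := (Nat.prime_dvd_prime_iff_eq q.2 Nat.prime_two).mp h
  exact hqS (h2 ▸ h2S)

/-- **The level-one count at `e = 2`** in the shape consumed by the junction
`helper9563.div1_of_levelOne`. -/
theorem levelOneAt_two (hTor : Fermat.Agent.S35.helper2039.Stmt_TorFrobAux)
    (p : ℕ) [NeZero p] (hp : p.Prime) (hp5 : 5 ≤ p) (S : Finset ℕ) (h2S : 2 ∈ S) :
    helper9563.LevelOneAt p S 2 := by
  intro t _ h1 h2 D hD
  letI := helper9563.moduleT p S
  exact div1_two_JZero hTor p hp hp5 (helper9563.galois_smul_commT p S)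
    (helper9563.eisIdeal p S 2) (helper9563.natCast_mem_eisIdeal p S 2) S (helper9563.tauT p S)
    (helper9563.tauT_spec p S 2) t (exists_mem_goodAlg_two p hp S h2S t) h1 h2 D hD

/-- **The body of `Stmt_Div1 p c 2 S0`** (top Spec of the Mazur block) at the even Eisenstein
prime: for every Galois-fixed `D` there are a Hecke element `f` in the subring generated by the
`T_q` (`q ∉ S0`, `q ≠ p`), an odd integer `m` with `f c = m • c`, and Galois-fixed `τ`, `z` with
`τ` of `2`-power order and `f D = τ + 2 • z`. -/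
theorem div1_two (hTor : Fermat.Agent.S35.helper2039.Stmt_TorFrobAux)
    (p : ℕ) [NeZero p] (hp : p.Prime) (hp5 : 5 ≤ p) (S0 : Finset ℕ) (c : JZero p)
    (hc : ∀ q : Nat.Primes, (q : ℕ) ∉ insert 2 S0 → (q : ℕ) ≠ p →
      heckeOperatorBar p q c = (1 + (q : ℕ)) • c)
    (D : JZero p) (hD : ∀ s : GQ, s • D = D) :
    ∃ f ∈ Subring.closure (helper9563.gens p S0), ∃ m : ℤ, IsCoprime m ((2 : ℕ) : ℤ) ∧
      f c = m • c ∧
      ∃ τ z : JZero p, (∀ s : GQ, s • τ = τ) ∧ (∀ s : GQ, s • z = z) ∧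
        (∃ n : ℕ, 2 ^ n • τ = 0) ∧ f D = τ + 2 • z :=
  helper9563.div1_of_levelOne p S0 (Finset.subset_insert 2 S0) c hc 2 (by norm_num)
    (levelOneAt_two hTor p hp hp5 (insert 2 S0) (Finset.mem_insert_self 2 S0)) D hD

end Instance

end Fermat.Agent.S15.helper6997
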