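import Fermat.Agent.S15.helper5233_Div1Adapter
import Fermat.Agent.S15.helper2113_BndDiv1
import Fermat.Agent.S15.helper6997_LevelOneTwo

/-!
# S15 (Mazur block), [DIV] -- the closing term (helper505, [DIV] architect)

`Fermat.Agent.S15.helper3201.Stmt_Div1` (block Prop (5) of the top Spec of record
`helper3201_Spec`) from the ONE external input `Fermat.Agent.S35.helper2039.Stmt_TorFrobAux`
(the S35 geometry leaf "`σ² = q²` on the toric part"):

* the junction `helper5233.stmt_Div1_of_odd_of_two` (on `helper9563.LevelOneAt`),
* the odd instance `helper2113.levelOneAt_odd_all`,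
* the instance at `2`, `helper6997.levelOneAt_two`.
-/

set_option autoImplicit false

namespace Fermat.Agent.S15.helper505

/-- **[DIV] of the top Spec of record**, from the S35 leaf `Stmt_TorFrobAux`. -/
theorem stmt_Div1_of_torFrobAux (hTF : Fermat.Agent.S35.helper2039.Stmt_TorFrobAux) :
    Fermat.Agent.S15.helper3201.Stmt_Div1 :=
  Fermat.Agent.S15.helper5233.stmt_Div1_of_odd_of_two
    (Fermat.Agent.S15.helper2113.levelOneAt_odd_all hTF)
    (fun p _ hp hp5 S h2S => Fermat.Agent.S15.helper6997.levelOneAt_two hTF p hp hp5 S h2S)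

end Fermat.Agent.S15.helper505
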