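/-
S15 (Mazur block), [DIV] — the junction to the TOP SPEC OF RECORD (helper5233, KUM-INST owner).

`helper3201.Stmt_Div1` (file `helper3201_Spec`, on main) from the level-one statement
`helper9563.LevelOneAt p S₁ r` (file `helper9563_Div1`, the copy of record of the pair
`(T, P) = (ℤ[T_q : q ∉ S₁, q ≠ p], Eisenstein ideal at r)`), for ONE prime `r ∣ addOrderOf c`
and, for every finite `S`, ONE `S₁ ⊇ S`.

So the descent block ([DIV] = DIV-CORE + KUM-INST + BND-ASM) closes the Spec Prop as soon as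
BND-ASM delivers the hypothesis `h` of `stmt_Div1_of_levelOne`.
-/
import Mathlib
import Fermat.Agent.S15.helper3201_Spec
import Fermat.Agent.S15.helper9563_Div1

set_option autoImplicit false

namespace Fermat.Agent.S15.helper5233

open ModularCurve

/-- The Hecke ring of the junction lies in the Hecke algebra of the top Spec. -/
theorem closure_gens_le_adjoin (p : ℕ) [NeZero p] (S : Finset ℕ) :
    Subring.closure (Fermat.Agent.S15.helper9563.gens p S) ≤
      (Algebra.adjoin ℤ (Fermat.Agent.S15.helper3201.heckeAway p S)).toSubring :=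
  Subring.closure_le.mpr fun _ ⟨q, hqS, hqp, hx⟩ => Algebra.subset_adjoin ⟨q, hqp, hqS, hx⟩

/-- **[DIV] of the top Spec from the level-one statement at one prime.**  For a fixed class `c`
(Eisenstein away from `p`), a prime `r` and `S ⊆ S₁`: the level-one statement `LevelOneAt p S₁ r`
gives the body of `helper3201.Stmt_Div1` at `(c, r, S)`. -/
theorem div1_body_of_levelOne (p : ℕ) [NeZero p] (c : JZero p)
    (hcEis : Fermat.Agent.S15.helper3201.IsEis p c) {r : ℕ} (hr : 0 < r) {S S₁ : Finset ℕ}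
    (hS : S ⊆ S₁) (hL : Fermat.Agent.S15.helper9563.LevelOneAt p S₁ r)
    (m : JZero p) (hm : Fermat.Agent.S15.helper3201.IsRat p m) :
    ∃ t : Module.End ℤ (JZero p),
      t ∈ Algebra.adjoin ℤ (Fermat.Agent.S15.helper3201.heckeAway p S) ∧
        ∃ E : ℤ, IsCoprime E (r : ℤ) ∧ t c = E • c ∧
          ∃ θ m' : JZero p, Fermat.Agent.S15.helper3201.IsRat p θ ∧ (∃ j : ℕ, r ^ j • θ = 0) ∧
            Fermat.Agent.S15.helper3201.IsRat p m' ∧ t m = θ + r • m' := by
  obtain ⟨f, hf, E, hE, hfc, τ, z, hτ, hz, hn, hfD⟩ :=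
    Fermat.Agent.S15.helper9563.div1_of_levelOne p S hS c (fun q _ hqp => hcEis q hqp) r hr hL m hm
  exact ⟨f, closure_gens_le_adjoin p S hf, E, hE, hfc, τ, z, hτ, hn, hz, hfD⟩

/-- **`Stmt_Div1` of the top Spec of record from the level-one count.**  It suffices that for
every prime level `p ∉ {2, 3, 5, 7, 13}` and every nonzero rational Eisenstein class `c` killed
by `p - 1` there is a prime `r ∣ addOrderOf c` such that every finite set `S` is contained in a
finite set `S₁` with `LevelOneAt p S₁ r`. -/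
theorem stmt_Div1_of_levelOne
    (h : ∀ (p : ℕ) [NeZero p], p.Prime → p ∉ ({2, 3, 5, 7, 13} : Finset ℕ) →
      ∀ c : JZero p, c ≠ 0 → (p - 1) • c = 0 → Fermat.Agent.S15.helper3201.IsRat p c →
        Fermat.Agent.S15.helper3201.IsEis p c →
        ∃ r : ℕ, r.Prime ∧ r ∣ addOrderOf c ∧ ∀ S : Finset ℕ, ∃ S₁ : Finset ℕ, S ⊆ S₁ ∧
          Fermat.Agent.S15.helper9563.LevelOneAt p S₁ r) :
    Fermat.Agent.S15.helper3201.Stmt_Div1 := by
  intro p _ hp hp' c hc0 hpc hcRat hcEis
  obtain ⟨r, hr, hrc, hL⟩ := h p hp hp' c hc0 hpc hcRat hcEis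
  refine ⟨r, hr, hrc, fun S m hm => ?_⟩
  obtain ⟨S₁, hS, hL₁⟩ := hL S
  exact div1_body_of_levelOne p c hcEis hr.pos hS hL₁ m hm

/-- **`Stmt_Div1` from the two instances of the level-one count** (`r` odd, `r = 2`).  The prime
`r` is ANY prime factor of `addOrderOf c`; it divides `p - 1`, so `r ≠ p`.  The odd instance may
use `Odd r`, `r ∣ p - 1` and `r ≠ p`; each instance chooses its own enlargement `S₁ ⊇ S` of the
exceptional set. -/
theorem stmt_Div1_of_instances
    (hodd : ∀ (p : ℕ) [NeZero p], p.Prime → p ∉ ({2, 3, 5, 7, 13} : Finset ℕ) →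
      ∀ r : ℕ, r.Prime → Odd r → r ∣ p - 1 → r ≠ p → ∀ S : Finset ℕ, ∃ S₁ : Finset ℕ, S ⊆ S₁ ∧
        Fermat.Agent.S15.helper9563.LevelOneAt p S₁ r)
    (htwo : ∀ (p : ℕ) [NeZero p], p.Prime → p ∉ ({2, 3, 5, 7, 13} : Finset ℕ) →
      ∀ S : Finset ℕ, ∃ S₁ : Finset ℕ, S ⊆ S₁ ∧ Fermat.Agent.S15.helper9563.LevelOneAt p S₁ 2) :
    Fermat.Agent.S15.helper3201.Stmt_Div1 := by
  refine stmt_Div1_of_levelOne fun p _ hp hp' c hc0 hpc _ _ => ?_
  have hp2 := hp.two_le
  have hord1 : addOrderOf c ≠ 1 := fun h => hc0 (AddMonoid.addOrderOf_eq_one_iff.mp h)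
  obtain ⟨r, hr, hrc⟩ := Nat.exists_prime_and_dvd hord1
  have hrp1 : r ∣ p - 1 := hrc.trans (addOrderOf_dvd_of_nsmul_eq_zero hpc)
  have hrle : r ≤ p - 1 := Nat.le_of_dvd (by omega) hrp1
  have hrp : r ≠ p := by omega
  refine ⟨r, hr, hrc, fun S => ?_⟩
  rcases hr.eq_two_or_odd' with h2 | hodd'
  · subst h2
    exact htwo p hp hp' S
  · exact hodd p hp hp' r hr hodd' hrp1 hrp S

/-- A prime outside `{2, 3, 5, 7, 13}` is at least `5` (indeed at least `11`). -/
theorem five_le_of_not_mem {p : ℕ} (hp : p.Prime) (hp' : p ∉ ({2, 3, 5, 7, 13} : Finset ℕ)) :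
    5 ≤ p := by
  have h2 := hp.two_le
  simp only [Finset.mem_insert, Finset.mem_singleton, not_or] at hp'
  obtain ⟨n2, n3, -, -, -⟩ := hp'
  by_contra hlt
  have : p = 2 ∨ p = 3 ∨ p = 4 := by omega
  rcases this with h | h | h
  · exact n2 h
  · exact n3 h
  · rw [h] at hp; exact absurd hp (by decide)

/-- **`Stmt_Div1` from the level-one statement at every prime `r ≠ p` with `r ∈ S`**, in the
binder shape announced by the instance owners (`p` prime `≥ 5`, exceptional set containing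
`r`). -/
theorem stmt_Div1_of_levelOne_mem
    (hinst : ∀ (p : ℕ) [NeZero p], p.Prime → 5 ≤ p → ∀ r : ℕ, r.Prime → r ≠ p →
      ∀ S : Finset ℕ, r ∈ S → Fermat.Agent.S15.helper9563.LevelOneAt p S r) :
    Fermat.Agent.S15.helper3201.Stmt_Div1 :=
  stmt_Div1_of_instances
    (fun p _ hp hp' r hr _ _ hrp S => ⟨insert r S, Finset.subset_insert r S,
      hinst p hp (five_le_of_not_mem hp hp') r hr hrp (insert r S) (Finset.mem_insert_self r S)⟩)
    (fun p _ hp hp' S => ⟨insert 2 S, Finset.subset_insert 2 S,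
      hinst p hp (five_le_of_not_mem hp hp') 2 Nat.prime_two
        (fun h => by have := five_le_of_not_mem hp hp'; omega) (insert 2 S)
        (Finset.mem_insert_self 2 S)⟩)

/-- **`Stmt_Div1` from the odd instance and the instance at `2`**, each in the shape
"`p` prime `≥ 5`, `r ∈ S` ⟹ `LevelOneAt p S r`". -/
theorem stmt_Div1_of_odd_of_two
    (hodd : ∀ (p : ℕ) [NeZero p], p.Prime → 5 ≤ p → ∀ r : ℕ, r.Prime → Odd r → r ≠ p →
      ∀ S : Finset ℕ, r ∈ S → Fermat.Agent.S15.helper9563.LevelOneAt p S r)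
    (htwo : ∀ (p : ℕ) [NeZero p], p.Prime → 5 ≤ p →
      ∀ S : Finset ℕ, 2 ∈ S → Fermat.Agent.S15.helper9563.LevelOneAt p S 2) :
    Fermat.Agent.S15.helper3201.Stmt_Div1 :=
  stmt_Div1_of_levelOne_mem fun p _ hp hp5 r hr hrp S hrS => by
    rcases hr.eq_two_or_odd' with h2 | hodd'
    · subst h2
      exact htwo p hp hp5 S hrS
    · exact hodd p hp hp5 r hr hodd' hrp S hrS

end Fermat.Agent.S15.helper5233
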