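/-
S15 pre-brick (helper5538): the ANALYTIC MODULI POINT of a pair `(W, Q)`, `Q` a point of exact
odd prime order `p` on a complex Weierstrass curve `W` (any model `a₁ … a₆`), in the
"modular unit" form: there is `τ ∈ ℍ` with

* `E₄(τ)³ · Δ(W) = c₄(W)³ · Δ(τ)`                      (i.e. `j(τ) = j(W)`),
* `p¹² · Δ(pτ) · ∏_{k=1}^{p-1} ψ₂(k • Q)⁴ = Δ(W)^(p-1) · Δ(τ)`
  (i.e. `Δ(τ)/Δ(pτ) = p¹² ∏ ψ₂(kQ)⁴ / Δ(W)^(p-1)`, the value of the modular unit),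

where `ψ₂(x, y) = 2y + a₁x + a₃`.

The two analytic inputs that are NOT proved in this file are passed as hypotheses
(`Stmt_Add`: the Weierstrass parametrisation is a surjective group homomorphism with kernel the
lattice; `Stmt_Prod`: the discriminant of a superlattice of odd prime index).
-/
import Mathlib
import Fermat.Agent.S58.helper9384_Uniformization
import Fermat.Agent.S05.helper725_Transfer

set_option autoImplicit false

namespace Fermat.Agent.S15.helper5538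

open UpperHalfPlane ModularForm Complex
open Fermat.Agent.S58.helper9384
open Fermat.Agent.S05.helper725
open scoped Real

local notation "Δ" => ModularForm.discriminant

/-! ### Interface -/

/-- `ψ₂ = 2y + a₁x + a₃` on affine points (`0` at the point at infinity). -/
def psi2 {R : Type*} [CommRing R] (W : WeierstrassCurve R) : W.toAffine.Point → R
  | .zero => 0
  | .some x y _ => 2 * y + W.a₁ * x + W.a₃

/-- The short Weierstrass curve `y² = x³ - (g₂/4) x - g₃/4` of a lattice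
(so that `(x, y) = (℘, ℘'/2)`). -/
noncomputable def curve (L : PeriodPair) : WeierstrassCurve ℂ :=
  ⟨0, 0, 0, -L.g₂ / 4, -L.g₃ / 4⟩

/-- **Input (ADD)**: the Weierstrass parametrisation `z ↦ (℘(z), ℘'(z)/2)` is a surjective
group homomorphism `ℂ → E_L(ℂ)` with kernel the lattice. -/
def Stmt_Add : Prop :=
  ∀ L : PeriodPair, ∃ pt : ℂ →+ (curve L).toAffine.Point,
    (∀ z, pt z = 0 ↔ z ∈ L.lattice) ∧ Function.Surjective pt ∧
    ∀ z, z ∉ L.lattice →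
      ∃ h, pt z = .some (L.weierstrassP z) (L.derivWeierstrassP z / 2) h

/-- **Input (STAR)**: the discriminant of a superlattice `L' = L + ℤ a` of odd prime index. -/
def Stmt_Prod : Prop :=
  ∀ (L L' : PeriodPair) (p : ℕ), p.Prime → p ≠ 2 → ∀ a : ℂ, a ∉ L.lattice →
    (p : ℂ) * a ∈ L.lattice →
    (∀ z : ℂ, z ∈ L'.lattice ↔ ∃ k : ℤ, z - k * a ∈ L.lattice) →
    (L'.g₂ ^ 3 - 27 * L'.g₃ ^ 2) * ∏ k ∈ Finset.Ico 1 p, L.derivWeierstrassP ((k : ℂ) * a) ^ 4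
      = (L.g₂ ^ 3 - 27 * L.g₃ ^ 2) ^ p

/-- **Target** (statement only). -/
def Stmt_UnitPoint : Prop :=
  ∀ (W : WeierstrassCurve ℂ), W.Δ ≠ 0 → ∀ (p : ℕ), p.Prime → p ≠ 2 →
    ∀ Q : W.toAffine.Point, addOrderOf Q = p →
    ∃ τ : ℍ, E₄ τ ^ 3 * W.Δ = W.c₄ ^ 3 * Δ τ ∧
      (p : ℂ) ^ 12 * Δ (ofComplex ((p : ℂ) * τ)) * ∏ k ∈ Finset.Ico 1 p, psi2 W (k • Q) ^ 4
        = W.Δ ^ (p - 1) * Δ τ

/-! ### Step 1: short model -/


theorem psi2_vcHom {W₁ W₂ : WeierstrassCurve ℂ} {u r s t : ℂ} (h : IsVarChange W₁ W₂ u r s t)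
    (P : W₁.toAffine.Point) : psi2 W₂ (vcHom h P) = u ^ 3 * psi2 W₁ P := by
  rcases P with _ | ⟨x, y, hxy⟩
  · change psi2 W₂ (vcHom h 0) = u ^ 3 * psi2 W₁ 0
    rw [map_zero]
    change (0 : ℂ) = u ^ 3 * 0
    ring
  · rw [vcHom_some]
    change 2 * (u ^ 3 * y + u ^ 2 * s * x + t) + W₂.a₁ * (u ^ 2 * x + r) + W₂.a₃
      = u ^ 3 * (2 * y + W₁.a₁ * x + W₁.a₃)
    linear_combination (-(u ^ 2 * x)) * h.h₁ - h.h₃

theorem exists_short_model (W : WeierstrassCurve ℂ) (hΔ : W.Δ ≠ 0) :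
    ∃ (L : PeriodPair) (u : ℂ) (φ : W.toAffine.Point →+ (curve L).toAffine.Point),
      u ≠ 0 ∧ Function.Injective φ ∧ L.g₂ ^ 3 - 27 * L.g₃ ^ 2 = u ^ 12 * W.Δ ∧
      12 * L.g₂ = u ^ 4 * W.c₄ ∧ ∀ P, psi2 (curve L) (φ P) = u ^ 3 * psi2 W P := by
  let _i2 : Invertible (2 : ℂ) := invertibleOfNonzero two_ne_zero
  let _i3 : Invertible (3 : ℂ) := invertibleOfNonzero three_ne_zero
  obtain ⟨C, hC⟩ := W.exists_variableChange_isShortNF
  have ha1 : (C • W).a₁ = 0 := WeierstrassCurve.a₁_of_isShortNF _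
  have ha2 : (C • W).a₂ = 0 := WeierstrassCurve.a₂_of_isShortNF _
  have ha3 : (C • W).a₃ = 0 := WeierstrassCurve.a₃_of_isShortNF _
  have hD : (C • W).Δ = (C.u⁻¹ : ℂˣ) ^ 12 * W.Δ := WeierstrassCurve.variableChange_Δ _ _
  have hc4 : (C • W).c₄ = (C.u⁻¹ : ℂˣ) ^ 4 * W.c₄ := WeierstrassCurve.variableChange_c₄ _ _
  have hu : ((C.u⁻¹ : ℂˣ) : ℂ) ≠ 0 := Units.ne_zero _
  have hDs : (C • W).Δ = (-4 * (C • W).a₄) ^ 3 - 27 * (-4 * (C • W).a₆) ^ 2 := by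
    rw [WeierstrassCurve.Δ_of_isShortNF]; ring
  have hc4s : (C • W).c₄ = 12 * (-4 * (C • W).a₄) := by
    rw [WeierstrassCurve.c₄_of_isShortNF]; ring
  have hne : (-4 * (C • W).a₄) ^ 3 - 27 * (-4 * (C • W).a₆) ^ 2 ≠ 0 := by
    rw [← hDs, hD]
    exact mul_ne_zero (pow_ne_zero _ hu) hΔ
  obtain ⟨L, hg2, hg3⟩ := exists_periodPair _ _ hne
  have hcurve : curve L = C • W := by
    ext
    · rw [ha1]; rfl
    · rw [ha2]; rfl
    · rw [ha3]; rfl
    · simp only [curve, hg2]; ring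
    · simp only [curve, hg3]; ring
  have hvc : IsVarChange W (curve L) ((C⁻¹).u : ℂ) (C⁻¹).r (C⁻¹).s (C⁻¹).t := by
    have h := isVarChange_smul C⁻¹ (C • W)
    rwa [inv_smul_smul, ← hcurve] at h
  have hCu : (((C⁻¹).u : ℂˣ) : ℂ) = ((C.u⁻¹ : ℂˣ) : ℂ) := rfl
  refine ⟨L, ((C⁻¹).u : ℂ), vcHom hvc, Units.ne_zero _, vcHom_injective hvc, ?_, ?_,
    psi2_vcHom hvc⟩
  · rw [hg2, hg3, ← hDs, hD, hCu]
  · rw [hg2, ← hc4s, hc4, hCu]

/-! ### Step 2: logarithm of a torsion point -/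


theorem exists_log (hAdd : Stmt_Add) (L : PeriodPair) {p : ℕ} (hp : p.Prime)
    (Q : (curve L).toAffine.Point) (hQ : addOrderOf Q = p) :
    ∃ a : ℂ, a ∉ L.lattice ∧ (p : ℂ) * a ∈ L.lattice ∧
      ∀ k ∈ Finset.Ico 1 p, psi2 (curve L) (k • Q) = L.derivWeierstrassP ((k : ℂ) * a) := by
  obtain ⟨pt, hker, hsurj, hform⟩ := hAdd L
  obtain ⟨a, rfl⟩ := hsurj Q
  have hmul : ∀ k : ℕ, pt ((k : ℂ) * a) = k • pt a := by
    intro k
    rw [← nsmul_eq_mul, map_nsmul]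
  refine ⟨a, ?_, ?_, ?_⟩
  · intro ha
    have h0 : pt a = 0 := (hker a).mpr ha
    rw [h0, addOrderOf_zero] at hQ
    exact hp.one_lt.ne hQ
  · rw [← hker, hmul, ← hQ]
    exact addOrderOf_nsmul_eq_zero _
  · intro k hk
    rw [Finset.mem_Ico] at hk
    have hk0 : k • pt a ≠ 0 := by
      intro h0
      have hdvd : addOrderOf (pt a) ∣ k := addOrderOf_dvd_of_nsmul_eq_zero h0
      rw [hQ] at hdvd
      exact absurd (Nat.le_of_dvd (by omega) hdvd) (by omega)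
    have hnot : (k : ℂ) * a ∉ L.lattice := by
      intro hmem
      exact hk0 (by rw [← hmul]; exact (hker _).mpr hmem)
    obtain ⟨h, hpt⟩ := hform _ hnot
    rw [← hmul, hpt]
    change 2 * (L.derivWeierstrassP ((k : ℂ) * a) / 2) + (curve L).a₁ * _ + (curve L).a₃ = _
    have e1 : (curve L).a₁ = 0 := rfl
    have e3 : (curve L).a₃ = 0 := rfl
    rw [e1, e3]
    ring

/-! ### Step 3: basis normalisation -/


/-- Every lattice is `ω₁ • (ℤ + ℤ τ)`, keeping the first period. -/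
theorem exists_tau_scale (M : PeriodPair) (c : ℂ) (hc : c ≠ 0) (hcM : M.ω₁ = c) :
    ∃ τ : ℍ, M.lattice = (scale c hc (tauPair τ)).lattice := by
  subst hcM
  have hω := ω₁_ne_zero M
  have him := im_div_ne_zero M
  rcases lt_or_gt_of_ne him with hneg | hpos
  · refine ⟨⟨-(M.ω₂ / M.ω₁), by simpa using hneg⟩, ?_⟩
    ext x
    simp only [PeriodPair.mem_lattice, scale_ω₁, scale_ω₂, tauPair_ω₁, tauPair_ω₂]
    constructor
    · rintro ⟨m, n, rfl⟩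
      refine ⟨m, -n, ?_⟩
      push_cast
      field_simp
    · rintro ⟨m, n, rfl⟩
      refine ⟨m, -n, ?_⟩
      push_cast
      field_simp
  · refine ⟨⟨M.ω₂ / M.ω₁, hpos⟩, ?_⟩
    ext x
    simp only [PeriodPair.mem_lattice, scale_ω₁, scale_ω₂, tauPair_ω₁, tauPair_ω₂]
    constructor
    · rintro ⟨m, n, rfl⟩
      refine ⟨m, n, ?_⟩
      field_simp
    · rintro ⟨m, n, rfl⟩
      refine ⟨m, n, ?_⟩
      field_simp

/-- A unimodular change of basis of a period pair. -/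
noncomputable def unimodPair (L : PeriodPair) (m n r s : ℤ) (h : r * m + s * n = 1) :
    PeriodPair where
  ω₁ := m * L.ω₁ + n * L.ω₂
  ω₂ := -s * L.ω₁ + r * L.ω₂
  indep := by
    have hL := L.indep
    rw [LinearIndependent.pair_iff] at hL ⊢
    intro x y hxy
    have key := hL (x * m - y * s) (x * n + y * r) (by
      simp only [Complex.real_smul] at hxy ⊢
      push_cast
      linear_combination hxy)
    obtain ⟨h1, h2⟩ := key
    have hR : (r : ℝ) * m + s * n = 1 := by exact_mod_cast h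
    constructor
    · linear_combination (r : ℝ) * h1 + (s : ℝ) * h2 - x * hR
    · linear_combination (m : ℝ) * h2 - (n : ℝ) * h1 - y * hR

theorem unimodPair_lattice (L : PeriodPair) (m n r s : ℤ) (h : r * m + s * n = 1) :
    (unimodPair L m n r s h).lattice = L.lattice := by
  ext z
  simp only [PeriodPair.mem_lattice, unimodPair]
  have hC : (r : ℂ) * m + s * n = 1 := by exact_mod_cast h
  constructor
  · rintro ⟨i, j, rfl⟩
    exact ⟨i * m - j * s, i * n + j * r, by push_cast; ring⟩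
  · rintro ⟨i, j, rfl⟩
    refine ⟨i * r + j * s, -i * n + j * m, ?_⟩
    push_cast
    linear_combination (i * L.ω₁ + j * L.ω₂) * hC


theorem coe_ofComplex_mul (p : ℕ) (hp : p ≠ 0) (τ : ℍ) :
    ((ofComplex ((p : ℂ) * τ) : ℍ) : ℂ) = (p : ℂ) * τ := by
  have him : 0 < ((p : ℂ) * (τ : ℂ)).im := by
    have : ((p : ℂ) * (τ : ℂ)).im = (p : ℝ) * τ.im := by simp
    rw [this]
    exact mul_pos (Nat.cast_pos.mpr (Nat.pos_of_ne_zero hp)) τ.im_pos
  rw [ofComplex_apply_of_im_pos him]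

theorem exists_basis (L : PeriodPair) {p : ℕ} (hp : p.Prime) (a : ℂ) (ha : a ∉ L.lattice)
    (hpa : (p : ℂ) * a ∈ L.lattice) :
    ∃ (τ : ℍ) (c : ℂ) (hc : c ≠ 0) (hcp : c / p ≠ 0),
      L.lattice = (scale c hc (tauPair τ)).lattice ∧
      ∀ z : ℂ, z ∈ (scale (c / p) hcp (tauPair (ofComplex ((p : ℂ) * τ)))).lattice ↔
        ∃ k : ℤ, z - k * a ∈ L.lattice := by
  have hp0 : (p : ℂ) ≠ 0 := Nat.cast_ne_zero.mpr hp.ne_zero
  obtain ⟨m, n, hmn⟩ := PeriodPair.mem_lattice.mp hpa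
  have hgcd_pos : 0 < Int.gcd m n := by
    rw [Int.gcd_pos_iff]
    by_contra hcon
    rw [not_or, not_not, not_not] at hcon
    obtain ⟨rfl, rfl⟩ := hcon
    apply ha
    have h0 : (p : ℂ) * a = 0 := by rw [← hmn]; simp
    rcases mul_eq_zero.mp h0 with h | h
    · exact absurd h hp0
    · rw [h]; exact zero_mem _
  obtain ⟨m', n', hcop, hm, hn⟩ := Int.exists_gcd_one hgcd_pos
  set d : ℤ := (Int.gcd m n : ℤ) with hd
  have hpd : ¬ (p : ℤ) ∣ d := by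
    rintro ⟨e, he⟩
    apply ha
    refine PeriodPair.mem_lattice.mpr ⟨m' * e, n' * e, ?_⟩
    apply mul_left_cancel₀ hp0
    rw [← hmn, hm, hn, he]
    push_cast
    ring
  obtain ⟨r, s, hrs⟩ : ∃ r s : ℤ, r * m' + s * n' = 1 :=
    Int.isCoprime_iff_gcd_eq_one.mpr hcop
  obtain ⟨e, f, hef⟩ : ∃ e f : ℤ, e * d = 1 + p * f := by
    have hcop' : IsCoprime (p : ℤ) d :=
      (Nat.prime_iff_prime_int.mp hp).coprime_iff_not_dvd.mpr hpd
    obtain ⟨x, y, hxy⟩ := hcop'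
    exact ⟨y, -x, by linear_combination hxy⟩
  have hML : (unimodPair L m' n' r s hrs).lattice = L.lattice := unimodPair_lattice _ _ _ _ _ _
  obtain ⟨c, hcdef⟩ : ∃ c : ℂ, c = m' * L.ω₁ + n' * L.ω₂ := ⟨_, rfl⟩
  have hc : c ≠ 0 := by
    rw [hcdef]
    exact ω₁_ne_zero (unimodPair L m' n' r s hrs)
  obtain ⟨τ, hτ⟩ := exists_tau_scale (unimodPair L m' n' r s hrs) c hc hcdef.symm
  have hcp : c / p ≠ 0 := div_ne_zero hc hp0
  have hpa' : (p : ℂ) * a = d * c := by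
    rw [← hmn, hm, hn, hcdef]
    push_cast
    ring
  have ha' : a = d * c / p := by
    rw [eq_div_iff hp0]
    linear_combination hpa'
  have hefC : (e : ℂ) * d = 1 + p * f := by exact_mod_cast hef
  have h1 : c / p * p = c := div_mul_cancel₀ c hp0
  have hτp := coe_ofComplex_mul p hp.ne_zero τ
  have hL : ∀ w : ℂ, w ∈ L.lattice ↔ ∃ i j : ℤ, w = c * (i + j * τ) := by
    intro w
    rw [← hML, hτ, mem_lattice_scale]
    constructor
    · rintro ⟨l, hl, rfl⟩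
      obtain ⟨i, j, rfl⟩ := PeriodPair.mem_lattice.mp hl
      exact ⟨i, j, by simp⟩
    · rintro ⟨i, j, rfl⟩
      exact ⟨i + j * τ, PeriodPair.mem_lattice.mpr ⟨i, j, by simp⟩, rfl⟩
  refine ⟨τ, c, hc, hcp, by rw [← hML, hτ], ?_⟩
  intro z
  rw [mem_lattice_scale]
  constructor
  · rintro ⟨l, hl, rfl⟩
    obtain ⟨i, j, rfl⟩ := PeriodPair.mem_lattice.mp hl
    simp only [tauPair_ω₁, tauPair_ω₂, hτp]
    refine ⟨i * e, (hL _).mpr ⟨-(i * f), j, ?_⟩⟩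
    rw [ha']
    push_cast
    linear_combination (-(c / p) * i) * hefC + (j * τ - i * f) * h1
  · rintro ⟨k, hk⟩
    obtain ⟨i, j, hij⟩ := (hL _).mp hk
    refine ⟨((k * d + p * i : ℤ) : ℂ) + j * ((p : ℂ) * τ),
      PeriodPair.mem_lattice.mpr ⟨k * d + p * i, j, by simp [hτp]⟩, ?_⟩
    have hz : z = k * a + c * (i + j * τ) := by linear_combination hij
    rw [hz, ha']
    push_cast
    linear_combination (-(i + j * τ)) * h1

/-! ### Step 4: assembly -/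

theorem disc_scale_tauPair (c : ℂ) (hc : c ≠ 0) (τ : ℍ) (L : PeriodPair)
    (h : L.lattice = (scale c hc (tauPair τ)).lattice) :
    L.g₂ ^ 3 - 27 * L.g₃ ^ 2 = (c ^ 12)⁻¹ * ((2 * (π : ℂ)) ^ 12 * Δ τ) := by
  rw [g₂_congr h, g₃_congr h, g₂_scale, g₃_scale, ← disc_tauPair]
  field_simp

theorem g₂_scale_tauPair (c : ℂ) (hc : c ≠ 0) (τ : ℍ) (L : PeriodPair)
    (h : L.lattice = (scale c hc (tauPair τ)).lattice) :
    L.g₂ = (c ^ 4)⁻¹ * ((4 * (π : ℂ) ^ 4 / 3) * E₄ τ) := by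
  rw [g₂_congr h, g₂_scale, g₂_tauPair]

theorem unitPoint (hAdd : Stmt_Add) (hProd : Stmt_Prod) : Stmt_UnitPoint := by
  intro W hΔ p hp hp2 Q hQ
  obtain ⟨L, u, φ, hu, hφ, hdisc, hg2, hpsi⟩ := exists_short_model W hΔ
  have hQ' : addOrderOf (φ Q) = p := by rw [addOrderOf_injective φ hφ, hQ]
  obtain ⟨a, ha, hpa, hpsi'⟩ := exists_log hAdd L hp (φ Q) hQ'
  obtain ⟨τ, c, hc, hcp, hL, hL'⟩ := exists_basis L hp a ha hpa
  have hstar := hProd L (scale (c / p) hcp (tauPair (ofComplex ((p : ℂ) * τ)))) p hp hp2 a ha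
    hpa hL'
  have hD := disc_scale_tauPair c hc τ L hL
  have hD' := disc_scale_tauPair (c / p) hcp (ofComplex ((p : ℂ) * τ)) _ rfl
  have hG := g₂_scale_tauPair c hc τ L hL
  have hp0 : (p : ℂ) ≠ 0 := Nat.cast_ne_zero.mpr hp.ne_zero
  have hπ : (π : ℂ) ≠ 0 := by exact_mod_cast Real.pi_ne_zero
  have hK : (2 * (π : ℂ)) ^ 12 ≠ 0 := pow_ne_zero _ (mul_ne_zero two_ne_zero hπ)
  have hc12 : (c ^ 12)⁻¹ ≠ 0 := inv_ne_zero (pow_ne_zero _ hc)
  have hu12 : u ^ 12 ≠ 0 := pow_ne_zero _ hu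
  refine ⟨τ, ?_, ?_⟩
  · -- `j`
    have e1 : (u ^ 4 * W.c₄) ^ 3 = (c ^ 12)⁻¹ * ((2 * (π : ℂ)) ^ 12 * E₄ τ ^ 3) := by
      rw [← hg2, hG]
      field_simp
      ring
    have e2 : u ^ 12 * W.Δ = (c ^ 12)⁻¹ * ((2 * (π : ℂ)) ^ 12 * Δ τ) := by rw [← hdisc, hD]
    apply mul_left_cancel₀ hu12
    linear_combination E₄ τ ^ 3 * e2 - Δ τ * e1
  · -- the unit
    have hprod : ∏ k ∈ Finset.Ico 1 p, L.derivWeierstrassP ((k : ℂ) * a) ^ 4
        = (u ^ 12) ^ (p - 1) * ∏ k ∈ Finset.Ico 1 p, psi2 W (k • Q) ^ 4 := by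
      have : ∀ k ∈ Finset.Ico 1 p, L.derivWeierstrassP ((k : ℂ) * a) ^ 4
          = u ^ 12 * psi2 W (k • Q) ^ 4 := by
        intro k hk
        rw [← hpsi' k hk, ← map_nsmul, hpsi]
        ring
      rw [Finset.prod_congr rfl this, Finset.prod_mul_distrib, Finset.prod_const,
        Nat.card_Ico]
    rw [hprod, hD', hD] at hstar
    have e2 : (c ^ 12)⁻¹ * ((2 * (π : ℂ)) ^ 12 * Δ τ) = u ^ 12 * W.Δ := by rw [← hdisc, hD]
    have hpp : p = (p - 1) + 1 := (Nat.succ_pred_eq_of_pos hp.pos).symm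
    have e3 : ((c ^ 12)⁻¹ * ((2 * (π : ℂ)) ^ 12 * Δ τ)) ^ p
        = (u ^ 12) ^ (p - 1) * W.Δ ^ (p - 1) * ((c ^ 12)⁻¹ * ((2 * (π : ℂ)) ^ 12 * Δ τ)) := by
      conv_lhs => rw [hpp, pow_succ]
      rw [e2, mul_pow]
    rw [e3] at hstar
    have e4 : ((c / p) ^ 12)⁻¹ = (p : ℂ) ^ 12 * (c ^ 12)⁻¹ := by
      rw [div_pow, inv_div, div_eq_mul_inv]
    rw [e4] at hstar
    apply mul_left_cancel₀ (mul_ne_zero (mul_ne_zero hc12 hK) (pow_ne_zero (p - 1) hu12))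
    linear_combination hstar


/-! ### Adapters for the announced shapes of `(STAR)` -/

theorem mul_mem_lattice_iff_dvd (L : PeriodPair) {p : ℕ} (hp : p.Prime) (a : ℂ)
    (ha : a ∉ L.lattice) (hpa : (p : ℂ) * a ∈ L.lattice) (k : ℤ) :
    (k : ℂ) * a ∈ L.lattice ↔ (p : ℤ) ∣ k := by
  constructor
  · intro hk
    by_contra hndvd
    have hcop : IsCoprime (p : ℤ) k :=
      (Nat.prime_iff_prime_int.mp hp).coprime_iff_not_dvd.mpr hndvd
    obtain ⟨x, y, hxy⟩ := hcop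
    apply ha
    have hxyC : (x : ℂ) * p + y * k = 1 := by exact_mod_cast hxy
    have h1 : x • ((p : ℂ) * a) + y • ((k : ℂ) * a) ∈ L.lattice :=
      add_mem (L.lattice.smul_mem x hpa) (L.lattice.smul_mem y hk)
    have h2 : x • ((p : ℂ) * a) + y • ((k : ℂ) * a) = a := by
      simp only [zsmul_eq_mul]
      linear_combination a * hxyC
    rwa [h2] at h1
  · rintro ⟨e, rfl⟩
    have h1 : e • ((p : ℂ) * a) ∈ L.lattice := L.lattice.smul_mem e hpa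
    have h2 : e • ((p : ℂ) * a) = ((p * e : ℤ) : ℂ) * a := by
      simp only [zsmul_eq_mul]
      push_cast
      ring
    rwa [h2] at h1

/-- Adapter: the basis-free shape with `Odd n` and `k a ∈ L ↔ n ∣ k` (announced by helper4651). -/
theorem stmt_Prod_of_odd
    (h : ∀ (L L' : PeriodPair) (n : ℕ), Odd n → ∀ a : ℂ,
      (∀ z, z ∈ L'.lattice ↔ ∃ k : ℤ, z - k * a ∈ L.lattice) →
      (∀ k : ℤ, (k : ℂ) * a ∈ L.lattice ↔ (n : ℤ) ∣ k) →
      (L'.g₂ ^ 3 - 27 * L'.g₃ ^ 2) * (∏ k ∈ Finset.Ico 1 n, L.derivWeierstrassP (k * a)) ^ 4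
        = (L.g₂ ^ 3 - 27 * L.g₃ ^ 2) ^ n) : Stmt_Prod := by
  intro L L' p hp hp2 a ha hpa hL'
  rw [Finset.prod_pow]
  exact h L L' p (hp.odd_of_ne_two hp2) a hL' (mul_mem_lattice_iff_dvd L hp a ha hpa)

/-- Adapter: the shape `x ∈ L' ↔ ∃ l ∈ L, ∃ k, x = l + k z₀` with the product over
`Finset.Icc 1 (p - 1)` (announced by helper1729). -/
theorem stmt_Prod_of_Icc
    (h : ∀ (L L' : PeriodPair) (p : ℕ), p.Prime → p ≠ 2 → ∀ z₀ : ℂ, z₀ ∉ L.lattice →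
      (p : ℂ) * z₀ ∈ L.lattice →
      (∀ x : ℂ, x ∈ L'.lattice ↔ ∃ l ∈ L.lattice, ∃ k : ℤ, x = l + k * z₀) →
      (L'.g₂ ^ 3 - 27 * L'.g₃ ^ 2) *
          ∏ k ∈ Finset.Icc 1 (p - 1), L.derivWeierstrassP ((k : ℂ) * z₀) ^ 4
        = (L.g₂ ^ 3 - 27 * L.g₃ ^ 2) ^ p) : Stmt_Prod := by
  intro L L' p hp hp2 a ha hpa hL'
  have hIco : Finset.Ico 1 p = Finset.Icc 1 (p - 1) := by
    ext k
    simp only [Finset.mem_Ico, Finset.mem_Icc]
    have := hp.pos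
    omega
  rw [hIco]
  refine h L L' p hp hp2 a ha hpa (fun x => ?_)
  rw [hL']
  constructor
  · rintro ⟨k, hk⟩
    exact ⟨_, hk, k, by ring⟩
  · rintro ⟨l, hl, k, rfl⟩
    exact ⟨k, by simpa using hl⟩

end Fermat.Agent.S15.helper5538
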