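/-
S15 (Mazur block), registry row EXT-S35-TOR (helper578, liaison seat to S34/S35).

THE S35 EXPORT OF BLOCKS [P] / [DIV], CLOSED.  The S35 geometry leaf
`S35.helper2039.Stmt_ChartNodesFrobGeom` is a theorem on main
(`S35.helper3729.stmt_ChartNodesFrobGeom`), hence so are

* `stmt_TorFrobAux : S35.helper2039.Stmt_TorFrobAux` — the ONE external hypothesis of the
  [DIV] chain (`σ² = q²` on the toric part at the auxiliary levels `q * M`, `r ∣ M`, `r ∈ {2, 3}`);
* `stmt_TorFrobP : Stmt_TorFrobP` — the same at prime level `p` (`helper578_TorSeam`).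

Pure composition of landed theorems; nothing new is proved here.
-/
import Fermat.Agent.S15.helper578_TorSeam
import Fermat.Agent.S35.helper3729_ChartNodesFrobAll

set_option autoImplicit false

namespace Fermat.Agent.S15.helper578

/-- **(TORFROB-AUX) is a theorem.** -/
theorem stmt_TorFrobAux : Fermat.Agent.S35.helper2039.Stmt_TorFrobAux :=
  Fermat.Agent.S35.helper2039.stmt_TorFrobAux_of_nodalFrobAt
    (Fermat.Agent.S35.helper2039.stmt_NodalFrobGeom_of_chartNodesFrob
      Fermat.Agent.S35.helper3729.stmt_ChartNodesFrobGeom)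

/-- **(TORFROB) at prime level is a theorem.** -/
theorem stmt_TorFrobP : Stmt_TorFrobP :=
  stmt_TorFrobP_of_aux stmt_TorFrobAux

end Fermat.Agent.S15.helper578
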