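import Fermat.Agent.S15.helper5942_CuspBridgeRed
import Fermat.Agent.S15.helper3241_BridgePlace

/-!
# S15 [CB]: the block Prop `helper3201.Stmt_CuspBridge` — CLOSED

(helper5942; wiring only)

* `stmt_CuspBridge : helper3201.Stmt_CuspBridge` — Prop (1) of the top Spec
  `helper3201.result_of`, with no hypothesis: the (CUSP) leaf is `cuspData` (END-CUSP, with
  `helper3638`'s Hecke computation on the cusp places and `helper5684`'s Ogg unit), the place
  bridge is `helper3241.stmt_PlaceBridge` (BR-ASM), conservation of number is
  `helper9692.stmt_RedInputs`;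
* `stmt_CBTwin : helper6647.Stmt_CBTwin` — the twin with the cusps exchanged (line form),
  consumed by S12.
-/

set_option autoImplicit false

noncomputable section

namespace Fermat.Agent.S15.helper5942

open AlgebraicCurve ModularCurve IntermediateField
open Fermat.Agent.S24.helper24 Fermat.Agent.S35.helper1219 Fermat.Agent.S18.helper1040

/-- The place-level bridge at the two cusps of `X₀(p)` (BR-ASM, `helper3241`). -/
theorem stmt_PlaceBridge_cusps (p : ℕ) [NeZero p] (hp : p.Prime)
    (hp' : p ∉ ({2, 3, 5, 7, 13} : Finset ℕ)) :
    Fermat.Agent.S15.helper6647.Stmt_PlaceBridge p (cuspZero p hp) (cuspInf p) :=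
  Fermat.Agent.S15.helper3241.stmt_PlaceBridge p hp (by
    rintro rfl
    exact hp' (by simp))

/-- **[CB]** — Prop (1) of the top Spec of the Mazur block, closed. -/
theorem stmt_CuspBridge : Fermat.Agent.S15.helper3201.Stmt_CuspBridge :=
  stmt_CuspBridge_of_placeBridge_only stmt_PlaceBridge_cusps

/-- **[CB], twin** (cusps exchanged, line form; consumed by S12), closed. -/
theorem stmt_CBTwin : Fermat.Agent.S15.helper6647.Stmt_CBTwin :=
  stmt_CBTwin_of_placeBridge_only stmt_PlaceBridge_cusps

end Fermat.Agent.S15.helper5942
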