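import Fermat.Agent.S15.helper9692_ConsAbstract
import Fermat.Agent.S37.helper1719_ViaS18Lines
import Fermat.Agent.S18.helper36_FunctionFieldK
import Fermat.Agent.S18.helper2675_LevelDeg
import Fermat.Agent.S17.helper2219_DivJZero
import Fermat.Agent.S37.helper1187_IntClosureInsep
import Fermat.Agent.S37.helper7934_NormTrick

/-!
# S15-CONS-ALL (helper9692): conservation of number at EVERY level

`ModularCurve.ReductionInputsModL A N` for every level `N`, every prime `ℓ ∤ N` and every
valuation subring `A` of `ℚ̄` over `ℓ` (in particular `ℓ ∈ {2, 3}` at a prime level `N = p`,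
where neither the Hauptmodul lines of S18 track A nor the Gauss lattice are available).

Proof: descent of the place reduction from the level `N r` (`r = 3` if `ℓ = 2`, `r = 2`
otherwise), where `helper1719.reductionInputsModL_of_dvd` applies.  With `α : F_N → F_{N r}`,
`ᾱ : F_{k,N} → F_{k,N r}` the inclusions and `R` the level-`N r` place reduction, the
correspondence `T := ᾱ_* ∘ R_* ∘ α^* : Div(F_N) → Div(F_{k,N})` is positive of degree
`n = [F_{N r} : F_N]`, and `T (div y) = n • div ȳ` for integral `y` (conservation at level `N r`,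
`ᾱ_* ᾱ^* = [F_{k,N r} : F_{k,N}] = n`).  Since `J_0(N)` is divisible, the abstract core
`exists_map_of_correspondence` gives `T = n • r_*` for a map of places `r`, which is the place
reduction at level `N`.
-/

set_option autoImplicit false
set_option synthInstance.maxHeartbeats 400000
set_option linter.style.haveILetI false

noncomputable section

namespace Fermat.Agent.S15.helper9692

open ModularCurve AlgebraicCurve IsLocalRing IntermediateField
open Fermat.Agent.S37.helper8353 (Qb)
open Fermat.Agent.S24.helper24 (FN)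
open Fermat.Agent.S37.helper1719 (FkA redDiv redDiv_apply redDiv_apply_of_integral)

/-! ### Generic lemmas -/

section Generic

/-- Tower law for the inclusion algebra of intermediate fields, in `finrank` form. -/
theorem mul_finrank_inclusion {K L : Type*} [Field K] [Field L] [Algebra K L]
    {C A B : IntermediateField K L} (hCA : C ≤ A) (hAB : A ≤ B)
    {a b : ℕ} (ha : 0 < a) (hA : C.relrank A = a) (hB : C.relrank B = b) :
    a * @Module.finrank ↥A ↥B _ _ (IntermediateField.inclusion hAB).toRingHom.toAlgebra.toModule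
      = b := by
  have h1 : (a : Cardinal) * A.relrank B = b := by
    rw [← hA, ← hB]
    exact IntermediateField.relrank_mul_relrank hCA hAB
  rw [← Fermat.Agent.S18.helper2675.rank_inclusion_eq_relrank hAB] at h1
  letI : Algebra ↥A ↥B := (IntermediateField.inclusion hAB).toRingHom.toAlgebra
  have hlt : Module.rank ↥A ↥B < Cardinal.aleph0 := by
    by_contra hge
    rw [not_lt] at hge
    have h2 : Cardinal.aleph0 ≤ (a : Cardinal) * Module.rank ↥A ↥B :=
      hge.trans (Cardinal.le_mul_left (by exact_mod_cast ha.ne'))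
    rw [h1] at h2
    exact absurd h2 (not_le.mpr (Cardinal.natCast_lt_aleph0))
  obtain ⟨n, hn⟩ := Cardinal.lt_aleph0.mp hlt
  have hfr : Module.finrank ↥A ↥B = n := by
    rw [Module.finrank, hn, Cardinal.toNat_natCast]
  rw [hfr]
  rw [hn] at h1
  exact_mod_cast h1

variable {K F F' : Type*} [Field K] [Field F] [Field F'] [Algebra K F] [Algebra K F']

/-- When all places have degree one, the degree of a divisor is its mass. -/
theorem degree_eq_mass (hdeg : ∀ v : Place K F, v.deg = 1) (D : Divisor K F) :
    Divisor.degree D = mass D := by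
  induction D using Finsupp.induction_linear with
  | zero => simp [mass]
  | add D E hD hE => rw [map_add, mass_add, hD, hE]
  | single v n => rw [Divisor.degree_single, mass_single, hdeg, Nat.cast_one, mul_one]

theorem mapDomain_nonneg {X Y : Type*} (f : X → Y) {D : X →₀ ℤ} (hD : ∀ x, 0 ≤ D x) (y : Y) :
    0 ≤ Finsupp.mapDomain f D y := by
  classical
  rw [Finsupp.mapDomain, Finsupp.sum_apply, Finsupp.sum]
  refine Finset.sum_nonneg fun x _ => ?_
  rw [Finsupp.single_apply]
  split_ifs
  · exact hD x
  · exact le_rfl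

theorem pushforwardAlong_nonneg (φ : F →ₐ[K] F') (hφ : φ.toRingHom.IsIntegral)
    {D : Divisor K F'} (hD : ∀ w, 0 ≤ D w) (v : Place K F) :
    0 ≤ Divisor.pushforwardAlong φ hφ D v := by
  classical
  have h1 : Divisor.pushforwardAlong φ hφ D
      = D.sum fun w n =>
          Finsupp.single (w.restrictAlong φ hφ) (n * (w.inertiaDegAlong φ hφ : ℤ)) := by
    conv_lhs => rw [← Finsupp.sum_single D]
    rw [map_finsuppSum]
    simp only [Divisor.pushforwardAlong_single]
  rw [h1, Finsupp.sum_apply, Finsupp.sum]
  refine Finset.sum_nonneg fun w _ => ?_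
  rw [Finsupp.single_apply]
  split_ifs
  · exact mul_nonneg (hD w) (Int.natCast_nonneg _)
  · exact le_rfl

theorem pullbackAlong_nonneg [HasPrincipalDivisors K F'] (φ : F →ₐ[K] F')
    (hφ : φ.toRingHom.IsIntegral) {D : Divisor K F} (hD : ∀ v, 0 ≤ D v) (w : Place K F') :
    0 ≤ Divisor.pullbackAlong φ hφ D w := by
  rw [Divisor.pullbackAlong_apply]
  exact mul_nonneg (Int.natCast_nonneg _) (hD _)

end Generic

/-! ### The inclusion `ᾱ : F_{k,N} → F_{k,N'}` of special fibres -/

section SpecialFibre

variable (k : Type) [Field k] {N N' : ℕ} [NeZero N] [NeZero N'] (h : N ∣ N')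

/-- The inclusion `ᾱ : F_{k,N} → F_{k,N'}` for `N ∣ N'`. -/
def alphaK : ↥(modularFunctionFieldFullC k N) →ₐ[k] ↥(modularFunctionFieldFullC k N') :=
  IntermediateField.inclusion (full_degeneracyC_le k h)

@[simp]
theorem coe_alphaK (x : modularFunctionFieldFullC k N) :
    ((alphaK k h x : modularFunctionFieldFullC k N') : LaurentSeries k) = (x : LaurentSeries k) :=
  IntermediateField.coe_inclusion _ x

variable (hN' : ∀ p : ℕ, p.Prime → p ∣ N' → (p : k) ≠ 0)

include hN'

theorem finiteAlong_alphaK : FiniteAlong k (alphaK k h) := by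
  have hj : alphaK k h (Fermat.Agent.S18.helper36.jK k N) = Fermat.Agent.S18.helper36.jK k N' :=
    Subtype.ext rfl
  haveI : FiniteDimensional k⟮alphaK k h (Fermat.Agent.S18.helper36.jK k N)⟯
      ↥(modularFunctionFieldFullC k N') := by
    rw [hj]
    exact Fermat.Agent.S18.helper36.finiteDimensional_jK k N' hN'
  exact Fermat.Agent.S37.helper5162.finiteAlong_of_finiteDimensional _
    (Fermat.Agent.S18.helper36.jK k N)

theorem alphaK_integral : (alphaK k h).toRingHom.IsIntegral :=
  Fermat.Agent.S37.helper5162.isIntegral_of_finiteAlong _ (finiteAlong_alphaK k h hN')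

/-- Tower law on the special fibre: `ψ(N) * [F_{k,N'} : F_{k,N}] = ψ(N')`. -/
theorem mul_finrankAlong_alphaK :
    dedekindPsi N * finrankAlong k (alphaK k h) = dedekindPsi N' := by
  have hN : ∀ p : ℕ, p.Prime → p ∣ N → (p : k) ≠ 0 := fun p hp hpN => hN' p hp (hpN.trans h)
  exact mul_finrank_inclusion (C := k⟮jqModC k⟯)
    (by rw [adjoin_simple_le_iff]; exact jqModC_mem_full k N) (full_degeneracyC_le k h)
    (Fermat.Agent.S28.helper1595.dedekindPsi_pos (NeZero.pos N))
    (Fermat.Agent.S18.helper6381.relrank_full_eq_psi k N hN)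
    (Fermat.Agent.S18.helper6381.relrank_full_eq_psi k N' hN')

variable [IsAlgClosed k]

theorem fundamentalIdentityAlong_alphaK
    [HasPrincipalDivisors k ↥(modularFunctionFieldFullC k N')] :
    FundamentalIdentityAlong k (alphaK k h) (alphaK_integral k h hN') := by
  have hN : ∀ p : ℕ, p.Prime → p ∣ N → (p : k) ≠ 0 := fun p hp hpN => hN' p hp (hpN.trans h)
  haveI := Fermat.Agent.S18.helper36.finiteDimensional_jK k N hN
  exact Fermat.Agent.S37.helper1187.fundamentalIdentityAlong_of_perfectField _ _
    (finiteAlong_alphaK k h hN') (Fermat.Agent.S18.helper36.jK k N)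

/-- `ᾱ_* ᾱ^* = [F_{k,N'} : F_{k,N}]` on divisors of the special fibre. -/
theorem pushforward_pullback_alphaK
    [HasPrincipalDivisors k ↥(modularFunctionFieldFullC k N')]
    (D : Divisor k ↥(modularFunctionFieldFullC k N)) :
    Divisor.pushforwardAlong (alphaK k h) (alphaK_integral k h hN')
        (Divisor.pullbackAlong (alphaK k h) (alphaK_integral k h hN') D)
      = finrankAlong k (alphaK k h) • D := by
  have hN : ∀ p : ℕ, p.Prime → p ∣ N → (p : k) ≠ 0 := fun p hp hpN => hN' p hp (hpN.trans h)
  exact Fermat.Agent.S37.helper7934.pushforwardAlong_pullbackAlong _ _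
    (Fermat.Agent.S37.helper7934.sumRamInertiaAlong_of_deg_eq_one _ _
      (fundamentalIdentityAlong_alphaK k h hN')
      (Fermat.Agent.S18.helper4307.place_deg_eq_one_fullC k N hN)) D

end SpecialFibre

/-! ### Divisibility of `J_0(N)` at divisor level -/

section Divisible

/-- The difference of two places is `n`-divisible modulo principal divisors. -/
theorem exists_sub_nsmul_mem_principal (N : ℕ) [NeZero N] (n : ℕ) (hn : 0 < n)
    (P₁ P₂ : Place Qb (FN N)) :
    ∃ E : Divisor Qb (FN N),
      Finsupp.single P₁ 1 - Finsupp.single P₂ 1 - n • E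
        ∈ Divisor.principal (K := Qb) (F := FN N) := by
  have h0 : (Finsupp.single P₁ 1 - Finsupp.single P₂ 1 : Divisor Qb (FN N))
      ∈ Divisor.degZero (K := Qb) (F := FN N) := by
    rw [Divisor.mem_degZero, map_sub, Divisor.degree_single, Divisor.degree_single,
      Fermat.Agent.S37.helper5162.place_deg_eq_one N P₁,
      Fermat.Agent.S37.helper5162.place_deg_eq_one N P₂]
    simp
  obtain ⟨y, hy⟩ := Fermat.Agent.S17.helper2219.jzero_nsmul_surjective N n hn
    (Pic0.mk ⟨_, h0⟩)
  obtain ⟨E, rfl⟩ := Pic0.mk_surjective y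
  refine ⟨(E : Divisor Qb (FN N)), ?_⟩
  have h1 : (QuotientAddGroup.mk
      ((⟨_, h0⟩ : Divisor.degZero (K := Qb) (F := FN N)) - n • E) : JZero N) = 0 := by
    rw [QuotientAddGroup.mk_sub, QuotientAddGroup.mk_nsmul]
    exact sub_eq_zero.mpr hy.symm
  have h2 := (QuotientAddGroup.eq_zero_iff _).mp h1
  exact AddSubgroup.mem_addSubgroupOf.mp h2

end Divisible

/-! ### The correspondence `T = ᾱ_* ∘ R_* ∘ α^*` -/

section Descent

variable (A : ValuationSubring Qb) (N r : ℕ) [NeZero N] [NeZero r]

/-- `T = ᾱ_* ∘ R_* ∘ α^* : Div(F_N) → Div(F_{k,N})`. -/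
def corrT (hint : (alphaK (ResidueField A) (dvd_mul_right N r)).toRingHom.IsIntegral)
    (h' : ReductionInputsModL A (N * r)) :
    Divisor Qb (FN N) →+ Divisor (ResidueField A) (FkA A N) :=
  (Divisor.pushforwardAlong (alphaK (ResidueField A) (dvd_mul_right N r)) hint).comp
    (redDiv A N r h')

theorem corrT_apply (hint : (alphaK (ResidueField A) (dvd_mul_right N r)).toRingHom.IsIntegral)
    (h' : ReductionInputsModL A (N * r)) (D : Divisor Qb (FN N)) :
    corrT A N r hint h' D
      = Divisor.pushforwardAlong (alphaK (ResidueField A) (dvd_mul_right N r)) hint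
          (redDiv A N r h' D) :=
  rfl

theorem corrT_nonneg (hint : (alphaK (ResidueField A) (dvd_mul_right N r)).toRingHom.IsIntegral)
    (h' : ReductionInputsModL A (N * r)) (P : Place Qb (FN N))
    (Q : Place (ResidueField A) (FkA A N)) :
    0 ≤ corrT A N r hint h' (Finsupp.single P 1) Q := by
  classical
  rw [corrT_apply]
  refine pushforwardAlong_nonneg _ _ (fun w => ?_) Q
  rw [redDiv_apply]
  refine mapDomain_nonneg _ (fun W => ?_) w
  refine pullbackAlong_nonneg _ _ (fun v => ?_) W
  rw [Finsupp.single_apply]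
  split_ifs
  · exact zero_le_one
  · exact le_rfl

theorem degree_corrT (hint : (alphaK (ResidueField A) (dvd_mul_right N r)).toRingHom.IsIntegral)
    (h' : ReductionInputsModL A (N * r)) (D : Divisor Qb (FN N)) :
    Divisor.degree (corrT A N r hint h' D)
      = (finrankAlong Qb (heckeAlphaBar Qb N r) : ℤ) * Divisor.degree D := by
  rw [corrT_apply, Divisor.degree_pushforwardAlong, redDiv_apply,
    degree_mapDomain_of_deg_eq (isPlaceReductionModL_placeReductionModL h').1,
    Divisor.degree_pullbackAlong _ _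
      (Fermat.Agent.S37.helper8426.fundamentalIdentityAlong_heckeAlphaBar N r)]

/-- **Conservation for `T`**: on the divisor of a function of level `N` with integral
`q`-expansion `y`, `T` is `[F_{k,N r} : F_{k,N}]` times the divisor of the reduction. -/
theorem corrT_of_integral
    [HasPrincipalDivisors (ResidueField A) (FkA A (N * r))]
    (hint : (alphaK (ResidueField A) (dvd_mul_right N r)).toRingHom.IsIntegral)
    (h' : ReductionInputsModL A (N * r))
    (hPP : ∀ E : Divisor (ResidueField A) (FkA A N),
      Divisor.pushforwardAlong (alphaK (ResidueField A) (dvd_mul_right N r)) hint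
          (Divisor.pullbackAlong (alphaK (ResidueField A) (dvd_mul_right N r)) hint E)
        = finrankAlong (ResidueField A) (alphaK (ResidueField A) (dvd_mul_right N r)) • E)
    (y : LaurentSeries A) (hy : coeffMap A.subtype y ∈ modularFunctionFieldBar N)
    (hyk : coeffMap (residue A) y ∈ modularFunctionFieldFullC (ResidueField A) N)
    (hne : coeffMap (residue A) y ≠ 0)
    (D : Divisor Qb (FN N)) (hD : ∀ P, D P = P.ord (⟨coeffMap A.subtype y, hy⟩ : FN N))
    (Dk : Divisor (ResidueField A) (FkA A N))
    (hDk : ∀ Q, Dk Q = Q.ord (⟨coeffMap (residue A) y, hyk⟩ : FkA A N)) :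
    corrT A N r hint h' D
      = finrankAlong (ResidueField A) (alphaK (ResidueField A) (dvd_mul_right N r)) • Dk := by
  have hyk' : coeffMap (residue A) y ∈ modularFunctionFieldFullC (ResidueField A) (N * r) :=
    full_degeneracyC_le (ResidueField A) (dvd_mul_right N r) hyk
  have h1 : redDiv A N r h' D
      = Divisor.pullbackAlong (alphaK (ResidueField A) (dvd_mul_right N r)) hint Dk := by
    ext Q'
    rw [redDiv_apply_of_integral A N r h' y hy hyk' hne D hD Q', Divisor.pullbackAlong_apply,
      hDk, ← Place.ord_restrictAlong]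
    rfl
  rw [corrT_apply, h1, hPP]

/-- **Descent of the place reduction** from level `N r` to level `N`, with the identity
`T = n • r_*` for the descended place map `r` (`n = [F_{N r} : F_N] > 0`). -/
theorem exists_placeReduction_of_mul {ℓ : ℕ} (hℓ : ℓ.Prime) (hℓM : ¬ ℓ ∣ N * r)
    (hA : A.LiesOverPrime ℓ) (h' : ReductionInputsModL A (N * r))
    (hint : (alphaK (ResidueField A) (dvd_mul_right N r)).toRingHom.IsIntegral) :
    ∃ r₀ : Place Qb (FN N) → Place (ResidueField A) (FkA A N),
      IsPlaceReductionModL A N r₀ ∧ PrincipalGeneratedByIntegral A (residue A) N ∧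
      0 < finrankAlong Qb (heckeAlphaBar Qb N r) ∧
      ∀ D : Divisor Qb (FN N), corrT A N r hint h' D
        = finrankAlong Qb (heckeAlphaBar Qb N r) • Finsupp.mapDomain r₀ D := by
  classical
  have hℓN : ¬ ℓ ∣ N := fun hd => hℓM (hd.mul_right r)
  haveI : Fact ℓ.Prime := ⟨hℓ⟩
  haveI : IsAlgClosed (ResidueField A) := Fermat.Agent.Lib.helper6879.isAlgClosed_residueField A
  have hNk' := Fermat.Agent.S18.helper4307.natCast_ne_zero_residue (N * r) hℓ hℓM A hA
  haveI : HasPrincipalDivisors (ResidueField A) (FkA A (N * r)) :=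
    Fermat.Agent.S18.helper4307.hasPrincipalDivisors_residue (N * r) hℓ hℓM A hA
  haveI : HasPrincipalDivisors (ResidueField A) (FkA A N) :=
    Fermat.Agent.S18.helper4307.hasPrincipalDivisors_residue N hℓ hℓN A hA
  have hdegk : ∀ v : Place (ResidueField A) (FkA A N), v.deg = 1 :=
    Fermat.Agent.S18.helper4307.place_deg_eq_one_residue N hℓ hℓN A hA
  have hdeg0 : ∀ v : Place Qb (FN N), v.deg = 1 :=
    Fermat.Agent.S37.helper5162.place_deg_eq_one N
  have hPP : ∀ E : Divisor (ResidueField A) (FkA A N),
      Divisor.pushforwardAlong (alphaK (ResidueField A) (dvd_mul_right N r)) hint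
          (Divisor.pullbackAlong (alphaK (ResidueField A) (dvd_mul_right N r)) hint E)
        = finrankAlong (ResidueField A) (alphaK (ResidueField A) (dvd_mul_right N r)) • E :=
    pushforward_pullback_alphaK (ResidueField A) (dvd_mul_right N r) hNk'
  -- the two degrees agree
  have hψ : 0 < dedekindPsi N := Fermat.Agent.S28.helper1595.dedekindPsi_pos (NeZero.pos N)
  have hψ' : 0 < dedekindPsi (N * r) :=
    Fermat.Agent.S28.helper1595.dedekindPsi_pos (NeZero.pos (N * r))
  have hn2 : dedekindPsi N * finrankAlong Qb (heckeAlphaBar Qb N r) = dedekindPsi (N * r) :=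
    Fermat.Agent.S18.helper2675.finrank_level_mul (dvd_mul_right N r)
  have hnn : finrankAlong (ResidueField A) (alphaK (ResidueField A) (dvd_mul_right N r))
      = finrankAlong Qb (heckeAlphaBar Qb N r) :=
    Nat.eq_of_mul_eq_mul_left hψ
      ((mul_finrankAlong_alphaK (ResidueField A) (dvd_mul_right N r) hNk').trans hn2.symm)
  have hnpos : 0 < finrankAlong Qb (heckeAlphaBar Qb N r) := by
    rcases Nat.eq_zero_or_pos (finrankAlong Qb (heckeAlphaBar Qb N r)) with h0 | h0
    · rw [h0, mul_zero] at hn2
      omega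
    · exact h0
  have hgen : PrincipalGeneratedByIntegral A (residue A) N :=
    Fermat.Agent.S37.helper2648.principalGeneratedByIntegral_bar N ℓ hℓN A hA
  -- `T` on integral principal divisors
  have hTint : ∀ (y : LaurentSeries A) (hy : coeffMap A.subtype y ∈ modularFunctionFieldBar N)
      (hyk : coeffMap (residue A) y ∈ modularFunctionFieldFullC (ResidueField A) N),
      coeffMap (residue A) y ≠ 0 →
      ∀ D : Divisor Qb (FN N), (∀ P, D P = P.ord (⟨coeffMap A.subtype y, hy⟩ : FN N)) →
      ∀ Dk : Divisor (ResidueField A) (FkA A N),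
        (∀ Q, Dk Q = Q.ord (⟨coeffMap (residue A) y, hyk⟩ : FkA A N)) →
        corrT A N r hint h' D = finrankAlong Qb (heckeAlphaBar Qb N r) • Dk := by
    intro y hy hyk hne D hD Dk hDk
    rw [corrT_of_integral A N r hint h' hPP y hy hyk hne D hD Dk hDk, hnn]
  -- (a) principal divisors go to `n`-divisible divisors
  have hPr : ∀ D ∈ Divisor.principal (K := Qb) (F := FN N),
      ∃ E : Divisor (ResidueField A) (FkA A N),
        corrT A N r hint h' D = finrankAlong Qb (heckeAlphaBar Qb N r) • E := by
    intro D hD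
    have hD' := hgen hD
    clear hD
    induction hD' using AddSubgroup.closure_induction with
    | mem E hE =>
      obtain ⟨y, hy, hyk, hne, hEy⟩ := hE
      obtain ⟨Dk, hDk, -⟩ := HasPrincipalDivisors.exists_divisor
        (K := ResidueField A) (⟨coeffMap (residue A) y, hyk⟩ : FkA A N)
        (fun h0 => hne (congrArg Subtype.val h0))
      exact ⟨Dk, hTint y hy hyk hne E hEy Dk hDk⟩
    | zero => exact ⟨0, by rw [map_zero, smul_zero]⟩
    | add E E' _ _ hE hE' =>
      obtain ⟨X, hX⟩ := hE
      obtain ⟨X', hX'⟩ := hE'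
      exact ⟨X + X', by rw [map_add, hX, hX', smul_add]⟩
    | neg E _ hE =>
      obtain ⟨X, hX⟩ := hE
      exact ⟨-X, by rw [map_neg, hX, smul_neg]⟩
  -- (b) `T` does not kill the divisor of `j`
  have hnc : ∃ D ∈ Divisor.principal (K := Qb) (F := FN N),
      mass D = 0 ∧ corrT A N r hint h' D ≠ 0 := by
    have hjL : coeffMap A.subtype (jqModC A) = jqModC Qb := coeffMap_jqModC _
    have hjk0 : coeffMap (residue A) (jqModC A) = jqModC (ResidueField A) := coeffMap_jqModC _
    have hjmem : coeffMap A.subtype (jqModC A) ∈ modularFunctionFieldBar N := by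
      rw [hjL, Fermat.Agent.S18.helper2675.bar_eq_fullC N]
      exact jqModC_mem_full Qb N
    have hjk : coeffMap (residue A) (jqModC A) ∈ modularFunctionFieldFullC (ResidueField A) N := by
      rw [hjk0]
      exact jqModC_mem_full (ResidueField A) N
    have hjne : coeffMap (residue A) (jqModC A) ≠ 0 := by
      rw [hjk0]
      exact jqModC_ne_zero_of_nontrivial (ResidueField A)
    have hfj : (⟨coeffMap A.subtype (jqModC A), hjmem⟩ : FN N) ≠ 0 := by
      intro h0
      have h1 := congrArg Subtype.val h0
      simp only [hjL] at h1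
      exact jqModC_ne_zero_of_nontrivial Qb h1
    obtain ⟨D, hD, hD0⟩ := HasPrincipalDivisors.exists_divisor (K := Qb)
      (⟨coeffMap A.subtype (jqModC A), hjmem⟩ : FN N) hfj
    obtain ⟨Dk, hDk, -⟩ := HasPrincipalDivisors.exists_divisor (K := ResidueField A)
      (⟨coeffMap (residue A) (jqModC A), hjk⟩ : FkA A N)
      (fun h0 => hjne (congrArg Subtype.val h0))
    refine ⟨D, ⟨_, hfj, hD⟩, ?_, ?_⟩
    · rw [← degree_eq_mass hdeg0]
      exact hD0
    · rw [hTint (jqModC A) hjmem hjk hjne D hD Dk hDk]
      intro h0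
      have h1 := congrArg
        (fun E : Divisor (ResidueField A) (FkA A N) =>
          E (Fermat.Agent.S18.helper36.qPlaceK (ResidueField A) N)) h0
      simp only [Finsupp.smul_apply, Finsupp.zero_apply, nsmul_eq_mul] at h1
      have h2 : (⟨coeffMap (residue A) (jqModC A), hjk⟩ : FkA A N)
          = Fermat.Agent.S18.helper36.jK (ResidueField A) N := Subtype.ext hjk0
      rw [hDk, h2, Fermat.Agent.S18.helper36.qPlaceK_ord_jK] at h1
      have h3 : (finrankAlong Qb (heckeAlphaBar Qb N r) : ℤ) = 0 := by linarith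
      exact hnpos.ne' (by exact_mod_cast h3)
  -- the abstract core
  obtain ⟨r₀, hr₀⟩ := exists_map_of_correspondence (corrT A N r hint h')
    (finrankAlong Qb (heckeAlphaBar Qb N r)) hnpos (corrT_nonneg A N r hint h')
    (fun P => by
      rw [← degree_eq_mass hdegk, degree_corrT, Divisor.degree_single, hdeg0 P]
      simp)
    (Divisor.principal (K := Qb) (F := FN N)) hPr
    (fun P₁ P₂ => exists_sub_nsmul_mem_principal N _ hnpos P₁ P₂) hnc
  refine ⟨r₀, ⟨fun P => by rw [hdegk, hdeg0], ?_⟩, hgen, hnpos, hr₀⟩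
  intro y hy hyk hne D hD Q
  obtain ⟨Dk, hDk, -⟩ := HasPrincipalDivisors.exists_divisor (K := ResidueField A)
    (⟨coeffMap (residue A) y, hyk⟩ : FkA A N) (fun h0 => hne (congrArg Subtype.val h0))
  have h1 := hTint y hy hyk hne D hD Dk hDk
  rw [hr₀ D] at h1
  have h2 := congrArg (fun E : Divisor (ResidueField A) (FkA A N) => E Q) h1
  simp only [Finsupp.smul_apply, nsmul_eq_mul] at h2
  rw [← hDk]
  exact mul_left_cancel₀ (by exact_mod_cast hnpos.ne') h2

/-- **Descent of the place reduction** from level `N r` to level `N`. -/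
theorem reductionInputsModL_of_mul {ℓ : ℕ} (hℓ : ℓ.Prime) (hℓM : ¬ ℓ ∣ N * r)
    (hA : A.LiesOverPrime ℓ) (h' : ReductionInputsModL A (N * r)) :
    ReductionInputsModL A N := by
  obtain ⟨r₀, hr, hgen, -, -⟩ := exists_placeReduction_of_mul A N r hℓ hℓM hA h'
    (alphaK_integral (ResidueField A) (dvd_mul_right N r)
      (Fermat.Agent.S18.helper4307.natCast_ne_zero_residue (N * r) hℓ hℓM A hA))
  exact ⟨r₀, hr, hgen⟩

end Descent

/-! ### The closed statement -/

/-- **Conservation of number at every level**: `ReductionInputsModL A N` for every level `N`,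
every prime `ℓ ∤ N` and every valuation subring `A` of `ℚ̄` over `ℓ` (`ℓ = 2, 3` included). -/
theorem reductionInputsModL_all (N : ℕ) [NeZero N] {ℓ : ℕ} (hℓ : ℓ.Prime) (hℓN : ¬ ℓ ∣ N)
    (A : ValuationSubring (AlgebraicClosure ℚ)) (hA : A.LiesOverPrime ℓ) :
    ReductionInputsModL A N := by
  by_cases h23 : 2 ∣ N ∨ 3 ∣ N
  · exact Fermat.Agent.S37.helper1719.reductionInputsModL_of_dvd N h23 hℓ hℓN A hA
  · by_cases hl2 : ℓ = 2
    · have hℓM : ¬ ℓ ∣ N * 3 := by
        intro h
        rcases (Nat.Prime.dvd_mul hℓ).mp h with h | h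
        · exact hℓN h
        · rw [hl2] at h
          exact absurd h (by decide)
      exact reductionInputsModL_of_mul A N 3 hℓ hℓM hA
        (Fermat.Agent.S37.helper1719.reductionInputsModL_of_dvd (N * 3)
          (Or.inr (dvd_mul_left 3 N)) hℓ hℓM A hA)
    · have hℓM : ¬ ℓ ∣ N * 2 := by
        intro h
        rcases (Nat.Prime.dvd_mul hℓ).mp h with h | h
        · exact hℓN h
        · exact hl2 ((Nat.prime_dvd_prime_iff_eq hℓ Nat.prime_two).mp h)
      exact reductionInputsModL_of_mul A N 2 hℓ hℓM hA
        (Fermat.Agent.S37.helper1719.reductionInputsModL_of_dvd (N * 2)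
          (Or.inl (dvd_mul_left 2 N)) hℓ hℓM A hA)

end Fermat.Agent.S15.helper9692

end
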