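import Fermat.Agent.S15.helper3201_Spec
import Fermat.Agent.S15.helper9692_ConsAllLevels

/-!
# S15 [RED-IN] (helper9692): the closing term for `helper3201.Stmt_RedInputs`

`stmt_RedInputs : Fermat.Agent.S15.helper3201.Stmt_RedInputs` — the block Prop [RED-IN] of the
top Spec of record (`helper3201_Spec.result_of`), from `reductionInputsModL_all`
(conservation of number at every level, `helper9692_ConsAllLevels`).
-/

set_option autoImplicit false

namespace Fermat.Agent.S15.helper9692

/-- **[RED-IN]** of the S15 top Spec: a place reduction with conservation of number exists at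
every prime level `p` and every place of `ℚ̄` of residue characteristic `ℓ ≠ p`. -/
theorem stmt_RedInputs : Fermat.Agent.S15.helper3201.Stmt_RedInputs := by
  intro p _ hp ℓ hℓ hℓp A hA
  exact reductionInputsModL_all p hℓ
    (fun hd => hℓp ((Nat.prime_dvd_prime_iff_eq hℓ hp).mp hd)) A hA

end Fermat.Agent.S15.helper9692
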