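import Fermat.Agent.S15.helper5942_CuspBridgeTop
import Fermat.Agent.S15.helper9692_RedInputs
import Fermat.Agent.Lib.helper54_Frobenius

/-!
# S15 [CB]: `helper3201.Stmt_CuspBridge` from the place bridge alone

(helper5942)

The conservation-of-number hypotheses of `stmt_CuspBridge_of_placeBridge` /
`stmt_CBTwin_of_placeBridge` are discharged by the landed `helper9692.stmt_RedInputs`, and the
place over `2` by `Lib.helper54.exists_liesOverPrime`.  The only remaining input of the block
Prop [CB] (and of its twin) is the place-level bridge at the concrete cusp places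
`cuspZero p hp`, `cuspInf p`.
-/

set_option autoImplicit false

noncomputable section

namespace Fermat.Agent.S15.helper5942

open AlgebraicCurve ModularCurve IntermediateField
open Fermat.Agent.S24.helper24 Fermat.Agent.S35.helper1219 Fermat.Agent.S18.helper1040

/-- **[CB] from the place bridge alone** (conservation of number is on main). -/
theorem stmt_CuspBridge_of_placeBridge_only
    (hPB : ∀ (p : ℕ) [NeZero p] (hp : p.Prime), p ∉ ({2, 3, 5, 7, 13} : Finset ℕ) →
      Fermat.Agent.S15.helper6647.Stmt_PlaceBridge p (cuspZero p hp) (cuspInf p)) :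
    Fermat.Agent.S15.helper3201.Stmt_CuspBridge :=
  stmt_CuspBridge_of_placeBridge hPB
    (fun {p} _ {ℓ} hp hℓ _ hℓp A hA =>
      Fermat.Agent.S15.helper9692.stmt_RedInputs p hp ℓ hℓ hℓp A hA)

/-- **The twin of [CB] from the place bridge alone.** -/
theorem stmt_CBTwin_of_placeBridge_only
    (hPB : ∀ (p : ℕ) [NeZero p] (hp : p.Prime), p ∉ ({2, 3, 5, 7, 13} : Finset ℕ) →
      Fermat.Agent.S15.helper6647.Stmt_PlaceBridge p (cuspZero p hp) (cuspInf p)) :
    Fermat.Agent.S15.helper6647.Stmt_CBTwin :=
  stmt_CBTwin_of_placeBridge hPB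
    (fun {p} _ hp h2 A hA =>
      Fermat.Agent.S15.helper9692.stmt_RedInputs p hp 2 Nat.prime_two h2 A hA)
    (Fermat.Agent.Lib.helper54.exists_liesOverPrime Nat.prime_two)

end Fermat.Agent.S15.helper5942
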