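import Fermat.Agent.S15.helper5942_CuspData
import Fermat.Agent.S15.helper3201_Spec

/-!
# S15 [CB]: the block Prop `helper3201.Stmt_CuspBridge` from the place bridge at the two cusps

(helper5942)

* `stmt_CuspBridge_of_stmt_CB` : the sub-Spec Prop `helper6647.Stmt_CB` implies the block Prop
  `helper3201.Stmt_CuspBridge` of the top Spec (binder adapter);
* `stmt_CuspBridge_of_placeBridge` : `helper3201.Stmt_CuspBridge` from the place-level bridge
  `helper6647.Stmt_PlaceBridge p (cuspZero p hp) (cuspInf p)` at the concrete cusp places (the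
  (CUSP) leaf being `cuspData`) and conservation of number at level `p` over the primes `ℓ ≥ 5`.
-/

set_option autoImplicit false

noncomputable section

namespace Fermat.Agent.S15.helper5942

open AlgebraicCurve ModularCurve IntermediateField
open Fermat.Agent.S24.helper24 Fermat.Agent.S35.helper1219 Fermat.Agent.S18.helper1040

/-- The bridge sub-Spec Prop implies the [CB] block Prop of the top Spec. -/
theorem stmt_CuspBridge_of_stmt_CB (h : Fermat.Agent.S15.helper6647.Stmt_CB) :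
    Fermat.Agent.S15.helper3201.Stmt_CuspBridge := by
  intro p _ hp hp'
  obtain ⟨c, hc0, hpc, hfix, heis, hbr⟩ := h hp hp'
  refine ⟨c, hc0, hpc, hfix, fun q hq => ?_, ?_⟩
  · rw [heis q hq, add_comm]
  · intro W hΔ Q hQfix hQord h2Δ h2c₄ h2 h3Δ h3c₄ h3 ℓ hℓ hℓp hℓΔ hℓc₄ A hA hin
    exact hbr W hΔ Q hQfix hQord h2Δ h2c₄ h2 h3Δ h3c₄ h3 hℓ hℓp hℓΔ hℓc₄ A hA hin

/-- **[CB] from the place bridge at the concrete cusps.**  The (CUSP) leaf is `cuspData`; what
remains is the place-level bridge for `P0 = cuspZero p hp`, `Pinf = cuspInf p` and conservation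
of number at level `p` over the primes `ℓ ≥ 5`. -/
theorem stmt_CuspBridge_of_placeBridge
    (hPB : ∀ (p : ℕ) [NeZero p] (hp : p.Prime), p ∉ ({2, 3, 5, 7, 13} : Finset ℕ) →
      Fermat.Agent.S15.helper6647.Stmt_PlaceBridge p (cuspZero p hp) (cuspInf p))
    (hred : ∀ {p : ℕ} [NeZero p] {ℓ : ℕ}, p.Prime → ℓ.Prime → 5 ≤ ℓ → ℓ ≠ p →
      Fermat.Agent.S15.helper6647.Stmt_RedInAt p ℓ) :
    Fermat.Agent.S15.helper3201.Stmt_CuspBridge :=
  stmt_CuspBridge_of_stmt_CB
    (Fermat.Agent.S15.helper6647.stmt_CB_of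
      (fun {p} _ hp hp' => ⟨cuspZero p hp, cuspInf p, cuspData p hp hp', hPB p hp hp'⟩) hred)

/-- The twin (cusps exchanged, consumed by S12) from the same place bridge. -/
theorem stmt_CBTwin_of_placeBridge
    (hPB : ∀ (p : ℕ) [NeZero p] (hp : p.Prime), p ∉ ({2, 3, 5, 7, 13} : Finset ℕ) →
      Fermat.Agent.S15.helper6647.Stmt_PlaceBridge p (cuspZero p hp) (cuspInf p))
    (hred2 : ∀ {p : ℕ} [NeZero p], p.Prime → 2 ≠ p →
      Fermat.Agent.S15.helper6647.Stmt_RedInAt p 2)
    (hex2 : ∃ A₂ : ValuationSubring (AlgebraicClosure ℚ), A₂.LiesOverPrime 2) :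
    Fermat.Agent.S15.helper6647.Stmt_CBTwin :=
  Fermat.Agent.S15.helper6647.stmt_CBTwin_of
    (fun {p} _ hp hp' => ⟨cuspZero p hp, cuspInf p, cuspData p hp hp', hPB p hp hp'⟩) hred2 hex2

end Fermat.Agent.S15.helper5942
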