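import Fermat.Agent.S35.helper2974_CuspOrd
import Fermat.Agent.S17.helper3753_QPlaceFixed

/-!
# S15 (W2): the cuspidal class `c = (0) - (∞)` of `J₀(p)` — places and classification of cusps

(helper5942)  WIP.
-/

set_option autoImplicit false

noncomputable section

namespace Fermat.Agent.S15.helper5942

open AlgebraicCurve ModularCurve IntermediateField
open Fermat.Agent.S24.helper24 Fermat.Agent.S35.helper1219 Fermat.Agent.S18.helper1040

/-! ## Generalities -/

section General

variable {K F : Type*} [Field K] [Field F] [Algebra K F]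

/-- If the pole orders of `t` at the places of a finite set already add up to `-[F : K(t)]`,
the set contains every pole of `t`. -/
theorem mem_of_ord_neg_of_sum [IsAlgClosed K] [CharZero K] (t : F) (ht : Transcendental K t)
    [FiniteDimensional K⟮t⟯ F] (s : Finset (Place K F)) (hs : ∀ v ∈ s, v.ord t < 0)
    (hsum : ∑ v ∈ s, v.ord t = -(Module.finrank K⟮t⟯ F : ℤ)) (v : Place K F)
    (hv : v.ord t < 0) : v ∈ s := by
  classical
  obtain ⟨s', hs', hsum'⟩ := Fermat.Agent.S35.helper2974.fundId_poles t ht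
  have hsub : s ⊆ s' := fun w hw => (hs' w).mpr (hs w hw)
  by_contra hvs
  have hv' : v ∈ s' \ s := Finset.mem_sdiff.mpr ⟨(hs' v).mpr hv, hvs⟩
  have h1 : ∑ w ∈ s' \ s, w.ord t + ∑ w ∈ s, w.ord t = ∑ w ∈ s', w.ord t :=
    Finset.sum_sdiff hsub
  have h2 : ∑ w ∈ s' \ s, w.ord t < 0 :=
    Finset.sum_neg (fun w hw => (hs' w).mp (Finset.mem_sdiff.mp hw).1) ⟨v, hv'⟩
  omega

end General

/-! ## Orders at the cusp `∞` -/

section Infinity

theorem order_coeffEmb_jq : (coeffEmb Kbar jq).order = -1 := by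
  have h := Fermat.Agent.S37.helper9343.orderTop_coeffEmb_jq
  rw [← HahnSeries.order_eq_orderTop_of_ne_zero
    Fermat.Agent.S37.helper9343.coeffEmb_jq_ne_zero] at h
  exact_mod_cast h

theorem coe_jBarD_eq (N d : ℕ) [NeZero d] (hd : d ∣ N) :
    ((jBarD N d hd : FN N) : LaurentSeries Kbar) = qExpand Kbar d (coeffEmb Kbar jq) := by
  rw [Fermat.Agent.S24.helper3176.coe_jBarD, Fermat.Agent.S24.helper3176.jSeries_eq_qExpand]

theorem coe_jBarD_ne_zero (N d : ℕ) [NeZero d] (hd : d ∣ N) :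
    ((jBarD N d hd : FN N) : LaurentSeries Kbar) ≠ 0 := by
  rw [coe_jBarD_eq]
  exact (map_ne_zero_iff _ (qExpand_injective d)).mpr
    Fermat.Agent.S37.helper9343.coeffEmb_jq_ne_zero

theorem jBarD_ne_zero (N d : ℕ) [NeZero d] (hd : d ∣ N) : jBarD N d hd ≠ 0 := fun h =>
  coe_jBarD_ne_zero N d hd (by rw [h]; rfl)

theorem order_jBarD (N d : ℕ) [NeZero d] (hd : d ∣ N) :
    ((jBarD N d hd : FN N) : LaurentSeries Kbar).order = -(d : ℤ) := by
  rw [coe_jBarD_eq, Fermat.Agent.S37.helper9343.order_qExpand d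
    Fermat.Agent.S37.helper9343.coeffEmb_jq_ne_zero, order_coeffEmb_jq]
  ring

/-- `ord_∞ j(q^d) = -d`. -/
theorem cuspInf_ord_jBarD (N d : ℕ) [NeZero d] (hd : d ∣ N) :
    (cuspInf N).ord (jBarD N d hd) = -(d : ℤ) := by
  rw [isCuspInf_cuspInf N _ (jBarD_ne_zero N d hd), order_jBarD]

theorem cuspInf_ord_jBar (N : ℕ) : (cuspInf N).ord (jBar N) = -1 := by
  have h := cuspInf_ord_jBarD N 1 (one_dvd N)
  rw [Nat.cast_one] at h
  exact h

end Infinity

/-! ## Prime level: the two cusps -/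

section PrimeLevel

variable (p : ℕ) [NeZero p] (hp : p.Prime)

theorem not_sq_dvd_self {p : ℕ} (hp : p.Prime) : ¬ p ^ 2 ∣ p := by
  intro h
  have h1 : p ^ 2 ≤ p := Nat.le_of_dvd hp.pos h
  have h2 := hp.two_le
  nlinarith

/-- The Atkin–Lehner (Fricke) involution `w_p` of the function field of `X₀(p)`. -/
def wP : FN p ≃ₐ[Kbar] FN p := atkinLehnerAt p p hp (dvd_refl p) (not_sq_dvd_self hp)

theorem wP_wP (z : FN p) : wP p hp (wP p hp z) = z :=
  atkinLehnerAt_atkinLehnerAt p p hp (dvd_refl p) (not_sq_dvd_self hp) z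

theorem wP_jBar : wP p hp (jBar p) = jBarD p p (dvd_refl p) :=
  atkinLehnerAt_jBar p p hp (dvd_refl p) (not_sq_dvd_self hp)

theorem wP_jBarD : wP p hp (jBarD p p (dvd_refl p)) = jBar p :=
  atkinLehnerAt_jBarD_self p p hp (dvd_refl p) (not_sq_dvd_self hp)

/-- The cusp `0` of `X₀(p)`: the `w_p`-translate of the cusp `∞`. -/
def cuspZero : Place Kbar (FN p) := wP p hp • cuspInf p

/-- `ord_0 f = ord_∞ (w_p f)`. -/
theorem cuspZero_ord (f : FN p) : (cuspZero p hp).ord f = (cuspInf p).ord (wP p hp f) :=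
  (Fermat.Agent.S35.helper2974.ord_apply_eq_ord_smul (wP p hp) (wP_wP p hp) (cuspInf p) f).symm

theorem cuspZero_ord_jBar : (cuspZero p hp).ord (jBar p) = -(p : ℤ) := by
  rw [cuspZero_ord, wP_jBar, cuspInf_ord_jBarD]

theorem cuspZero_ord_jBarD : (cuspZero p hp).ord (jBarD p p (dvd_refl p)) = -1 := by
  rw [cuspZero_ord, wP_jBarD, cuspInf_ord_jBar]

theorem cuspInf_ne_cuspZero : cuspInf p ≠ cuspZero p hp := by
  intro h
  have h1 := cuspInf_ord_jBar p
  have h2 := cuspZero_ord_jBar p hp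
  rw [← h, h1] at h2
  have := hp.two_le
  omega

/-- **The cusps of `X₀(p)`**: a pole of `j` is `∞` or `0`. -/
theorem eq_cusp_of_ord_jBar_neg (v : Place Kbar (FN p)) (hv : v.ord (jBar p) < 0) :
    v = cuspInf p ∨ v = cuspZero p hp := by
  classical
  have hmem := mem_of_ord_neg_of_sum (jBar p)
    (Fermat.Agent.S24.helper3176.transcendental_jBar p) {cuspInf p, cuspZero p hp}
    (by
      intro w hw
      rcases Finset.mem_insert.mp hw with rfl | hw
      · rw [cuspInf_ord_jBar]; norm_num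
      · rw [Finset.mem_singleton.mp hw, cuspZero_ord_jBar]
        have := hp.pos
        omega)
    (by
      rw [Finset.sum_pair (cuspInf_ne_cuspZero p hp), cuspInf_ord_jBar, cuspZero_ord_jBar,
        Fermat.Agent.S37.helper6887.finrank_jBar,
        Fermat.Agent.S28.helper1457.dedekindPsi_prime hp]
      push_cast
      ring) v hv
  rcases Finset.mem_insert.mp hmem with h | h
  · exact Or.inl h
  · exact Or.inr (Finset.mem_singleton.mp h)

include hp in
/-- Characterisation of the cusp `∞` of `X₀(p)` by the orders of `j(q)`, `j(q^p)`. -/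
theorem eq_cuspInf_of_ord (v : Place Kbar (FN p)) (hv : v.ord (jBar p) < 0)
    (h : v.ord (jBarD p p (dvd_refl p)) = p * v.ord (jBar p)) : v = cuspInf p := by
  rcases eq_cusp_of_ord_jBar_neg p hp v hv with h1 | h1
  · exact h1
  · exfalso
    rw [h1, cuspZero_ord_jBar, cuspZero_ord_jBarD] at h
    have := hp.two_le
    nlinarith

/-- Characterisation of the cusp `0` of `X₀(p)` by the orders of `j(q)`, `j(q^p)`. -/
theorem eq_cuspZero_of_ord (v : Place Kbar (FN p)) (hv : v.ord (jBar p) < 0)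
    (h : v.ord (jBar p) = p * v.ord (jBarD p p (dvd_refl p))) : v = cuspZero p hp := by
  rcases eq_cusp_of_ord_jBar_neg p hp v hv with h1 | h1
  · exfalso
    rw [h1, cuspInf_ord_jBar, cuspInf_ord_jBarD] at h
    have := hp.two_le
    nlinarith
  · exact h1

/-! ### The cuspidal divisor and its class -/

/-- The cuspidal divisor `(0) - (∞)` of `X₀(p)`. -/
def cuspDiv : Divisor Kbar (FN p) :=
  Finsupp.single (cuspZero p hp) 1 - Finsupp.single (cuspInf p) 1

theorem cuspDiv_mem_degZero : cuspDiv p hp ∈ Divisor.degZero (K := Kbar) (F := FN p) := by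
  rw [Divisor.mem_degZero, cuspDiv, map_sub, Divisor.degree_single, Divisor.degree_single,
    Fermat.Agent.S37.helper5162.place_deg_eq_one, Fermat.Agent.S37.helper5162.place_deg_eq_one]
  simp

/-- **The cuspidal class** `c = [(0) - (∞)] ∈ J₀(p)(ℚ̄)`. -/
def cuspClass : JZero p := Pic0.mk ⟨cuspDiv p hp, cuspDiv_mem_degZero p hp⟩

/-! ### Galois invariance -/

theorem arithmeticGalois_smul_cuspInf (N : ℕ) (σ : Kbar ≃ₐ[ℚ] Kbar) :
    arithmeticGalois (modularFunctionFieldFull N) σ • cuspInf N = cuspInf N :=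
  Fermat.Agent.S17.helper3753.arithmeticGalois_smul_qPlaceL Kbar N σ

theorem cuspInf_ord_arithmeticGalois_smul (N : ℕ) (σ : Kbar ≃ₐ[ℚ] Kbar) (f : FN N) :
    (cuspInf N).ord (arithmeticGalois (modularFunctionFieldFull N) σ • f) = (cuspInf N).ord f :=
  Fermat.Agent.S17.helper3753.qPlaceL_ord_smul Kbar N σ f

theorem arithmeticGalois_smul_cuspZero (σ : Kbar ≃ₐ[ℚ] Kbar) :
    arithmeticGalois (modularFunctionFieldFull p) σ • cuspZero p hp = cuspZero p hp := by
  apply Fermat.Agent.S24.helper1370.ext_ord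
  intro f
  have h1 := SemilinearAut.ord_smul (arithmeticGalois (modularFunctionFieldFull p) σ)
    (cuspZero p hp) ((arithmeticGalois (modularFunctionFieldFull p) σ)⁻¹ • f)
  rw [smul_inv_smul] at h1
  rw [h1, cuspZero_ord, cuspZero_ord, ← map_inv]
  have h2 := atkinLehnerAt_arithmeticGalois_smul p p hp (dvd_refl p) (not_sq_dvd_self hp) σ⁻¹ f
  have h3 : wP p hp (arithmeticGalois (modularFunctionFieldFull p) σ⁻¹ • f)
      = arithmeticGalois (modularFunctionFieldFull p) σ⁻¹ • wP p hp f := h2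
  rw [h3, cuspInf_ord_arithmeticGalois_smul]

/-- **(C3)** The cuspidal class is fixed by `Gal(ℚ̄/ℚ)`. -/
theorem galois_smul_cuspClass (σ : Kbar ≃ₐ[ℚ] Kbar) : σ • cuspClass p hp = cuspClass p hp := by
  show arithmeticGalois (modularFunctionFieldFull p) σ • cuspClass p hp = cuspClass p hp
  rw [cuspClass, SemilinearAut.pic0_smul_mk]
  congr 1
  apply Subtype.ext
  rw [SemilinearAut.coe_degZeroSMulHom]
  show arithmeticGalois (modularFunctionFieldFull p) σ • cuspDiv p hp = cuspDiv p hp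
  rw [cuspDiv, smul_sub, SemilinearAut.smul_single, SemilinearAut.smul_single,
    arithmeticGalois_smul_cuspZero, arithmeticGalois_smul_cuspInf]

end PrimeLevel

end Fermat.Agent.S15.helper5942
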