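import Fermat.Agent.S15.helper5942_CuspEisenstein
import Fermat.Agent.S15.helper6647_BridgeSpec

/-!
# S15 [CB]: the (CUSP) leaf of the bridge sub-Spec

(helper5942)

* `clsSub_cuspZero_cuspInf` : the class `cls((0) - (∞))` of `helper6647_BridgeSpec` is
  `cuspClass p hp`;
* `cuspData` : **`helper6647.CuspData p (cuspZero p hp) (cuspInf p)`** — the (CUSP) leaf of the
  bridge sub-Spec `helper6647.stmt_CB_of` / `stmt_CBTwin_of`, for every prime
  `p ∉ {2, 3, 5, 7, 13}`.
-/

set_option autoImplicit false

noncomputable section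

namespace Fermat.Agent.S15.helper5942

open AlgebraicCurve ModularCurve IntermediateField
open Fermat.Agent.S24.helper24 Fermat.Agent.S35.helper1219 Fermat.Agent.S18.helper1040

section CuspData

variable (p : ℕ) [NeZero p] (hp : p.Prime)

theorem isFixedPlace_cuspInf (N : ℕ) [NeZero N] :
    Fermat.Agent.S15.helper6647.IsFixedPlace (cuspInf N) :=
  fun σ => arithmeticGalois_smul_cuspInf N σ

theorem isFixedPlace_cuspZero : Fermat.Agent.S15.helper6647.IsFixedPlace (cuspZero p hp) :=
  fun σ => arithmeticGalois_smul_cuspZero p hp σ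

/-- The class `cls((0) - (∞))` of the bridge sub-Spec is the cuspidal class. -/
theorem clsSub_cuspZero_cuspInf (h : (cuspZero p hp).deg = (cuspInf p).deg) :
    Fermat.Agent.S15.helper6647.clsSub (cuspZero p hp) (cuspInf p) h = cuspClass p hp := rfl

/-- **The (CUSP) leaf of the bridge sub-Spec**: the two cusp places `(0)`, `(∞)` of `X₀(p)` have
degree one, are fixed by the arithmetic Galois action, and their class is nonzero, killed by
`p - 1` and Eisenstein. -/
theorem cuspData (hp' : p ∉ ({2, 3, 5, 7, 13} : Finset ℕ)) :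
    Fermat.Agent.S15.helper6647.CuspData p (cuspZero p hp) (cuspInf p) where
  deg0 := Fermat.Agent.S37.helper5162.place_deg_eq_one p _
  degInf := Fermat.Agent.S37.helper5162.place_deg_eq_one p _
  fixed0 := isFixedPlace_cuspZero p hp
  fixedInf := isFixedPlace_cuspInf p
  ne_zero := fun h => by
    rw [clsSub_cuspZero_cuspInf]
    exact cuspClass_ne_zero p hp hp'
  torsion := fun h => by
    rw [clsSub_cuspZero_cuspInf]
    exact sub_one_smul_cuspClass p hp
  eis := fun h q hq => by
    rw [clsSub_cuspZero_cuspInf, hecke_cuspClass p hp q hq, add_comm]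

end CuspData

end Fermat.Agent.S15.helper5942
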