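import Fermat.Agent.S15.helper5942_CuspOrder
import Fermat.Agent.S15.helper3638_CuspHecke

/-!
# S15 (W2): the cuspidal class `c = (0) - (∞)` of `J₀(p)` — Eisenstein property and summary

(helper5942)

* `hecke_cuspClass` : **(C4)** `T_q c = (1 + q) • c` for every prime `q ≠ p`
  (wrapper around `helper3638.heckeOperatorBar_cusp_sub`, the definition-independent form);
* `cuspClass_spec` : the bundle (C3) + (C1) + (C2) + (C4) in one statement;
* `exists_cuspClass` : existential form, with the prime `r ∣ ord(c)` of (C5).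
-/

set_option autoImplicit false

noncomputable section

namespace Fermat.Agent.S15.helper5942

open AlgebraicCurve ModularCurve IntermediateField
open Fermat.Agent.S24.helper24 Fermat.Agent.S35.helper1219 Fermat.Agent.S18.helper1040

section Eisenstein

variable (p : ℕ) [NeZero p] (hp : p.Prime)

theorem cuspClass_eq_mk_subDiv :
    cuspClass p hp
      = Pic0.mk (Fermat.Agent.S15.helper3638.subDiv (cuspZero p hp) (cuspInf p)) := rfl

/-- **(C4)**, integer form: `T_q c = (q + 1) • c` for every prime `q ≠ p`. -/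
theorem hecke_cuspClass_zsmul (q : Nat.Primes) (hqp : (q : ℕ) ≠ p) :
    heckeOperatorBar p q (cuspClass p hp) = (((q : ℕ) : ℤ) + 1) • cuspClass p hp := by
  obtain ⟨q, hq⟩ := q
  have : NeZero q := ⟨hq.ne_zero⟩
  rw [cuspClass_eq_mk_subDiv]
  exact Fermat.Agent.S15.helper3638.heckeOperatorBar_cusp_sub hp hq (fun h => hqp h.symm)
    (cuspZero p hp) (cuspInf p)
    (by rw [cuspZero_ord_jBar]; have := hp.pos; omega)
    (by rw [cuspInf_ord_jBar]; norm_num)

/-- **(C4)** The cuspidal class is Eisenstein: `T_q c = (1 + q) • c` for every prime `q ≠ p`. -/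
theorem hecke_cuspClass (q : Nat.Primes) (hqp : (q : ℕ) ≠ p) :
    heckeOperatorBar p q (cuspClass p hp) = (1 + (q : ℕ)) • cuspClass p hp := by
  rw [hecke_cuspClass_zsmul p hp q hqp, ← natCast_zsmul]
  congr 1
  push_cast
  ring

/-- **(C4)**, anonymous-constructor form. -/
theorem hecke_cuspClass' {q : ℕ} (hq : q.Prime) (hqp : q ≠ p) :
    heckeOperatorBar p ⟨q, hq⟩ (cuspClass p hp) = (1 + q) • cuspClass p hp :=
  hecke_cuspClass p hp ⟨q, hq⟩ hqp

/-- **The cuspidal class of `J₀(p)`**, `p ∉ {2, 3, 5, 7, 13}` prime: Galois-fixed, killed by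
`p - 1`, nonzero, and an eigenvector of every `T_q` (`q ≠ p`) with eigenvalue `1 + q`. -/
theorem cuspClass_spec (hp' : p ∉ ({2, 3, 5, 7, 13} : Finset ℕ)) :
    (∀ σ : Kbar ≃ₐ[ℚ] Kbar, σ • cuspClass p hp = cuspClass p hp) ∧
      (p - 1) • cuspClass p hp = 0 ∧ cuspClass p hp ≠ 0 ∧
      ∀ q : Nat.Primes, (q : ℕ) ≠ p →
        heckeOperatorBar p q (cuspClass p hp) = (1 + (q : ℕ)) • cuspClass p hp :=
  ⟨galois_smul_cuspClass p hp, sub_one_smul_cuspClass p hp, cuspClass_ne_zero p hp hp',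
    hecke_cuspClass p hp⟩

include hp in
/-- Existential form of `cuspClass_spec`, together with a prime `r` dividing the order of the
class (`r ∣ p - 1`, so `r < p`). -/
theorem exists_cuspClass (hp' : p ∉ ({2, 3, 5, 7, 13} : Finset ℕ)) :
    ∃ c : JZero p, (∀ σ : Kbar ≃ₐ[ℚ] Kbar, σ • c = c) ∧ (p - 1) • c = 0 ∧ c ≠ 0 ∧
      (∀ q : Nat.Primes, (q : ℕ) ≠ p → heckeOperatorBar p q c = (1 + (q : ℕ)) • c) ∧
      ∃ r : ℕ, r.Prime ∧ r ∣ addOrderOf c ∧ r ∣ p - 1 ∧ r < p :=
  ⟨cuspClass p hp, galois_smul_cuspClass p hp, sub_one_smul_cuspClass p hp,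
    cuspClass_ne_zero p hp hp', hecke_cuspClass p hp,
    exists_prime_dvd_addOrderOf_cuspClass p hp hp'⟩

end Eisenstein

end Fermat.Agent.S15.helper5942
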