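import Fermat.Agent.S15.helper5942_CuspClass
import Fermat.Agent.S27
import Fermat.Agent.S17.helper1665_GenusX0
import Fermat.Agent.S17.helper2219_DivJZero

/-!
# S15 (W2): the cuspidal class `c = (0) - (∞)` of `J₀(p)` is nonzero in positive genus

(helper5942)

* `principal_of_degZero_of_simple` : generic — if a function field whose places all have degree
  one (and residue field the constants) carries a function with divisor `(P) - (Q)`, `P ≠ Q`,
  then every divisor of degree zero is principal (the curve is a projective line);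
* `genusFormula_prime_pos` : `genusFormula p > 0` for a prime `p ∉ {2, 3, 5, 7, 13}`;
* `cuspClass_ne_zero` : **(C2)** `cuspClass p ≠ 0` for such `p` (landed S24 + S27).
-/

set_option autoImplicit false

noncomputable section

namespace Fermat.Agent.S15.helper5942

open AlgebraicCurve ModularCurve IntermediateField
open Fermat.Agent.S24.helper24 Fermat.Agent.S35.helper1219 Fermat.Agent.S18.helper1040

/-! ## Generic: a function with divisor `(P) - (Q)` forces `Pic⁰ = 0` -/

section Generic

variable {K F : Type*} [Field K] [Field F] [Algebra K F]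

open Fermat.Agent.S24.helper1370 in
/-- An effective divisor of degree zero on a function field all of whose places have degree one
is zero. -/
theorem eq_zero_of_nonneg_of_degree_eq_zero (hdeg : ∀ v : Place K F, v.deg = 1)
    (E : Divisor K F) (hE : ∀ v, 0 ≤ E v) (h0 : Divisor.degree E = 0) : E = 0 := by
  classical
  have hsum : Divisor.degree E = ∑ v ∈ E.support, E v := by
    conv_lhs => rw [← Finsupp.sum_single E]
    rw [Finsupp.sum, map_sum]
    refine Finset.sum_congr rfl fun v _ => ?_
    rw [Divisor.degree_single, hdeg v]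
    simp
  rw [hsum] at h0
  have h1 := (Finset.sum_eq_zero_iff_of_nonneg (fun v _ => hE v)).mp h0
  ext v
  by_cases hv : v ∈ E.support
  · exact h1 v hv
  · simpa using hv

open Fermat.Agent.S24.helper1370 in
/-- If `f` has divisor `(P) - (Q)` with `P ≠ Q`, then every place `v ≠ Q` is linearly equivalent
to `Q`. -/
theorem isPrincipal_single_sub_single [HasPrincipalDivisors K F]
    (hdeg : ∀ v : Place K F, v.deg = 1)
    (hcenter : ∀ (x : F) (v : Place K F), 0 ≤ v.ord x →
      ∃ c : K, x = algebraMap K F c ∨ 0 < v.ord (x - algebraMap K F c))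
    (f : F) (P Q : Place K F) (hPQ : P ≠ Q)
    (hdiv : ∀ v : Place K F, v.ord f = (Finsupp.single P 1 - Finsupp.single Q 1 : Divisor K F) v)
    (v : Place K F) (hv : v ≠ Q) :
    (Finsupp.single v 1 - Finsupp.single Q 1 : Divisor K F).IsPrincipal := by
  classical
  have hQ : Q.ord f = -1 := by
    rw [hdiv Q, Finsupp.sub_apply, Finsupp.single_eq_same, Finsupp.single_eq_of_ne hPQ.symm]
    norm_num
  have hnn : ∀ w : Place K F, w ≠ Q → 0 ≤ w.ord f := by
    intro w hw
    rw [hdiv w, Finsupp.sub_apply, Finsupp.single_eq_of_ne hw, sub_zero]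
    by_cases hwP : w = P
    · rw [hwP, Finsupp.single_eq_same]; norm_num
    · rw [Finsupp.single_eq_of_ne hwP]
  obtain ⟨c, hc | hc⟩ := hcenter f v (hnn v hv)
  · exfalso
    rw [hc, ord_algebraMap] at hQ
    norm_num at hQ
  · set g : F := f - algebraMap K F c with hg
    have hg0 : g ≠ 0 := by
      intro h
      rw [h, Place.ord_zero] at hc
      exact lt_irrefl _ hc
    obtain ⟨D, hD, hD0⟩ := HasPrincipalDivisors.exists_divisor (K := K) g hg0
    have hgQ : Q.ord g = -1 := by
      rw [hg, ord_sub_algebraMap_of_ord_neg Q (by rw [hQ]; norm_num) c, hQ]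
    have hgnn : ∀ w : Place K F, w ≠ Q → 0 ≤ w.ord g := fun w hw =>
      ord_sub_algebraMap_nonneg w (hnn w hw) c
    have hE : D + Finsupp.single Q 1 - Finsupp.single v 1 = 0 := by
      apply eq_zero_of_nonneg_of_degree_eq_zero hdeg
      · intro w
        rw [Finsupp.sub_apply, Finsupp.add_apply, hD w]
        by_cases hwQ : w = Q
        · rw [hwQ, hgQ, Finsupp.single_eq_same, Finsupp.single_eq_of_ne hv.symm]
          norm_num
        · rw [Finsupp.single_eq_of_ne hwQ, add_zero]
          by_cases hwv : w = v
          · rw [hwv, Finsupp.single_eq_same]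
            omega
          · rw [Finsupp.single_eq_of_ne hwv, sub_zero]
            exact hgnn w hwQ
      · rw [map_sub, map_add, hD0, Divisor.degree_single, Divisor.degree_single, hdeg, hdeg]
        norm_num
    refine ⟨g, hg0, fun w => ?_⟩
    rw [← hD w]
    have : D = Finsupp.single v 1 - Finsupp.single Q 1 := by
      have h2 : D = D + Finsupp.single Q 1 - Finsupp.single v 1
          + (Finsupp.single v 1 - Finsupp.single Q 1) := by abel
      rw [hE, zero_add] at h2
      exact h2
    rw [this]

/-- **A function with divisor `(P) - (Q)`, `P ≠ Q`, makes every divisor of degree zero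
principal.** -/
theorem principal_of_degZero_of_simple [HasPrincipalDivisors K F]
    (hdeg : ∀ v : Place K F, v.deg = 1)
    (hcenter : ∀ (x : F) (v : Place K F), 0 ≤ v.ord x →
      ∃ c : K, x = algebraMap K F c ∨ 0 < v.ord (x - algebraMap K F c))
    (f : F) (P Q : Place K F) (hPQ : P ≠ Q)
    (hdiv : ∀ v : Place K F, v.ord f = (Finsupp.single P 1 - Finsupp.single Q 1 : Divisor K F) v)
    (D : Divisor K F) (hD : D ∈ Divisor.degZero (K := K) (F := F)) :
    D ∈ Divisor.principal (K := K) (F := F) := by
  classical
  have key : ∀ E : Divisor K F,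
      E - Divisor.degree E • (Finsupp.single Q 1 : Divisor K F)
        ∈ Divisor.principal (K := K) (F := F) := by
    intro E
    induction E using Finsupp.induction_linear with
    | zero => simp
    | add E₁ E₂ h₁ h₂ =>
      have : E₁ + E₂ - Divisor.degree (E₁ + E₂) • (Finsupp.single Q 1 : Divisor K F)
          = (E₁ - Divisor.degree E₁ • (Finsupp.single Q 1 : Divisor K F))
            + (E₂ - Divisor.degree E₂ • (Finsupp.single Q 1 : Divisor K F)) := by
        rw [map_add, add_smul]; abel
      rw [this]
      exact add_mem h₁ h₂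
    | single w n =>
      have h1 : (Finsupp.single w n : Divisor K F)
          - Divisor.degree (Finsupp.single w n : Divisor K F) • (Finsupp.single Q 1 : Divisor K F)
          = n • (Finsupp.single w 1 - Finsupp.single Q 1 : Divisor K F) := by
        rw [Divisor.degree_single, hdeg w, Nat.cast_one, mul_one, smul_sub]
        congr 1
        rw [Finsupp.smul_single, smul_eq_mul, mul_one]
      rw [h1]
      by_cases hw : w = Q
      · rw [hw, sub_self, smul_zero]
        exact zero_mem _
      · exact zsmul_mem (isPrincipal_single_sub_single hdeg hcenter f P Q hPQ hdiv w hw) n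
  have h := key D
  rw [Divisor.mem_degZero.mp hD, zero_smul, sub_zero] at h
  exact h

end Generic

/-! ## The genus of `X₀(p)` is positive for `p = 11` and `p ≥ 17` -/

section Genus

/-- A nonzero polynomial over `𝔽_p` has at most `natDegree` roots (in `Nat.card` form). -/
theorem natCard_roots_le (p : ℕ) [Fact p.Prime] (f : Polynomial (ZMod p)) (hf : f ≠ 0) :
    Nat.card {x : ZMod p // f.eval x = 0} ≤ f.natDegree := by
  classical
  rw [Nat.card_eq_fintype_card, Fintype.card_subtype]
  calc (Finset.univ.filter fun x : ZMod p => f.eval x = 0).card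
      ≤ f.roots.toFinset.card := by
        apply Finset.card_le_card
        intro x hx
        rw [Multiset.mem_toFinset, Polynomial.mem_roots hf]
        exact (Finset.mem_filter.mp hx).2
    _ ≤ Multiset.card f.roots := Multiset.toFinset_card_le _
    _ ≤ f.natDegree := Polynomial.card_roots' f

/-- At most two roots of a monic quadratic over `𝔽_p`. -/
theorem natCard_quadratic_le (p : ℕ) [Fact p.Prime] (b c : ZMod p) :
    Nat.card {x : ZMod p // x ^ 2 + b * x + c = 0} ≤ 2 := by
  have hdeg : (Polynomial.C (1 : ZMod p) * Polynomial.X ^ 2 + Polynomial.C b * Polynomial.X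
      + Polynomial.C c).natDegree = 2 := Polynomial.natDegree_quadratic one_ne_zero
  have hf : (Polynomial.C (1 : ZMod p) * Polynomial.X ^ 2 + Polynomial.C b * Polynomial.X
      + Polynomial.C c) ≠ 0 := by
    intro h
    rw [h, Polynomial.natDegree_zero] at hdeg
    exact absurd hdeg (by norm_num)
  have h := natCard_roots_le p _ hf
  rw [hdeg] at h
  refine le_trans (le_of_eq ?_) h
  exact Nat.card_congr (Equiv.subtypeEquivRight fun x => by simp)

theorem nuTwo_le_two (p : ℕ) [Fact p.Prime] : nuTwo p ≤ 2 := by
  have h := natCard_quadratic_le p 0 1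
  refine le_trans (le_of_eq ?_) h
  unfold nuTwo
  exact Nat.card_congr (Equiv.subtypeEquivRight fun x => by simp)

theorem nuThree_le_two (p : ℕ) [Fact p.Prime] : nuThree p ≤ 2 := by
  have h := natCard_quadratic_le p 1 1
  refine le_trans (le_of_eq ?_) h
  unfold nuThree
  exact Nat.card_congr (Equiv.subtypeEquivRight fun x => by simp)

theorem cuspCount_prime {p : ℕ} (hp : p.Prime) : cuspCount p = 2 := by
  unfold cuspCount
  rw [hp.divisors, Finset.sum_pair hp.one_lt.ne]
  simp [Nat.div_self hp.pos]

theorem nuTwo_eleven : nuTwo 11 = 0 := by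
  unfold nuTwo
  have h : ∀ x : ZMod 11, x ^ 2 + 1 ≠ 0 := by decide
  have : IsEmpty {x : ZMod 11 // x ^ 2 + 1 = 0} := ⟨fun x => h x.1 x.2⟩
  exact Nat.card_of_isEmpty

theorem nuThree_eleven : nuThree 11 = 0 := by
  unfold nuThree
  have h : ∀ x : ZMod 11, x ^ 2 + x + 1 ≠ 0 := by decide
  have : IsEmpty {x : ZMod 11 // x ^ 2 + x + 1 = 0} := ⟨fun x => h x.1 x.2⟩
  exact Nat.card_of_isEmpty

/-- **`g(X₀(p)) > 0`** for a prime `p ∉ {2, 3, 5, 7, 13}`, in `genusFormula` form. -/
theorem genusFormula_prime_pos {p : ℕ} (hp : p.Prime)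
    (hp' : p ∉ ({2, 3, 5, 7, 13} : Finset ℕ)) : 0 < genusFormula p := by
  have : Fact p.Prime := ⟨hp⟩
  unfold genusFormula
  rw [Fermat.Agent.S28.helper1457.dedekindPsi_prime hp, cuspCount_prime hp]
  by_cases h11 : p = 11
  · subst h11
    rw [nuTwo_eleven, nuThree_eleven]
    norm_num
  · have h17 : 17 ≤ p := by
      by_contra hlt
      push Not at hlt
      simp only [Finset.mem_insert, Finset.mem_singleton, not_or] at hp'
      interval_cases p <;> first | omega | (exact absurd hp (by norm_num))
    have h2 : (nuTwo p : ℚ) ≤ 2 := by exact_mod_cast nuTwo_le_two p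
    have h3 : (nuThree p : ℚ) ≤ 2 := by exact_mod_cast nuThree_le_two p
    have hpq : (17 : ℚ) ≤ p := by exact_mod_cast h17
    push_cast
    linarith

end Genus

/-! ## (C2): the cuspidal class is nonzero -/

section Nonzero

variable (p : ℕ) [NeZero p] (hp : p.Prime)

/-- Every element of the valuation ring of a place of `F_N` is a constant up to positive
order. -/
theorem exists_const_sub_ord_pos_FN (N : ℕ) [NeZero N] (x : FN N) (v : Place Kbar (FN N))
    (hx : 0 ≤ v.ord x) :
    ∃ c : Kbar, x = algebraMap Kbar (FN N) c ∨ 0 < v.ord (x - algebraMap Kbar (FN N) c) :=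
  Fermat.Agent.S24.helper489.exists_const_sub_ord_pos v
    (fun u hu => Fermat.Agent.S24.helper2549.exchange_isAlgebraic (jBar N) u hu) x
    (Fermat.Agent.S24.helper1370.mem_of_ord_nonneg v hx)

include hp in
/-- The Weil genus of `X₀(p)` is positive for a prime `p ∉ {2, 3, 5, 7, 13}`. -/
theorem genusFF_FN_pos (hp' : p ∉ ({2, 3, 5, 7, 13} : Finset ℕ)) :
    0 < genusFF Kbar (FN p) := by
  have h := Fermat.Agent.S17.helper1665.genusFF_FN_eq_genusFormula p
  have h2 := genusFormula_prime_pos hp hp'
  rw [← h] at h2
  exact_mod_cast h2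

/-- **(C2)** For a prime `p ∉ {2, 3, 5, 7, 13}` (so that `X₀(p)` has positive genus) the cuspidal
class `(0) - (∞)` of `J₀(p)` is nonzero. -/
theorem cuspClass_ne_zero (hp' : p ∉ ({2, 3, 5, 7, 13} : Finset ℕ)) : cuspClass p hp ≠ 0 := by
  intro h0
  have hprin : cuspDiv p hp ∈ Divisor.principal (K := Kbar) (F := FN p) := by
    have h1 := (QuotientAddGroup.eq_zero_iff _).mp h0
    exact AddSubgroup.mem_addSubgroupOf.mp h1
  obtain ⟨f, hf, hdiv⟩ := hprin
  have hall : ∀ x : JZero p, x = 0 := by
    intro x
    obtain ⟨D, rfl⟩ := Pic0.mk_surjective x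
    refine (QuotientAddGroup.eq_zero_iff _).mpr (AddSubgroup.mem_addSubgroupOf.mpr ?_)
    exact principal_of_degZero_of_simple (Fermat.Agent.S37.helper5162.place_deg_eq_one p)
      (exists_const_sub_ord_pos_FN p) f (cuspZero p hp) (cuspInf p)
      (cuspInf_ne_cuspZero p hp).symm (fun v => (hdiv v).symm) D D.2
  have : IsCurveOver Kbar (FN p) := (Fermat.Agent.S17.helper2219.isCurveOver_FN p).1
  have : Algebra.EssFiniteType Kbar (FN p) := (Fermat.Agent.S17.helper2219.isCurveOver_FN p).2
  have : Fact (Nat.Prime 2) := ⟨Nat.prime_two⟩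
  have hcard := Fermat.Agent.S27.result Kbar (FN p) 2 1
  have hsub : Subsingleton (Pic0.torsion Kbar (FN p) (2 ^ 1)) :=
    ⟨fun a b => Subtype.ext ((hall a.1).trans (hall b.1).symm)⟩
  have h1 : Nat.card (Pic0.torsion Kbar (FN p) (2 ^ 1)) = 1 := Nat.card_unique
  have hg := genusFF_FN_pos p hp hp'
  rw [h1] at hcard
  have h2 : 2 ^ 1 ≤ 2 ^ (2 * genusFF Kbar (FN p) * 1) :=
    Nat.pow_le_pow_right (by norm_num) (by nlinarith)
  omega

end Nonzero

end Fermat.Agent.S15.helper5942
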