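/-
helper7259 — S15/S12 pre-brick (FLAG-BOUND): the bound (BOUND) of the Eisenstein descent in one
call, for a Galois-stable flag whose steps carry coordinates (trivial or roots-of-unity action),
from the local hypotheses in the shapes `UnramStepAt` / `UnitStepAt` and the two counts.

Glue of: `helper7259_StepBound` (per-type step bounds), `helper4190_CasselsCore` (Cassels chain)
and `helper4190_FlagCount` (tables).
-/
import Fermat.Agent.S15.helper7259_StepBound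
import Fermat.Agent.S15.helper4190_FlagCount

set_option autoImplicit false

namespace Fermat.Agent.S15.helper7259

open Fermat.Agent.S15.helper4190

section Flag

variable {J : Type*} [AddCommGroup J] [DistribMulAction GQ J]

/-- `stepInv` is `relInv` of helper4190 for the absolute Galois group. -/
theorem stepInv_eq_relInv (F : AddSubgroup J) : stepInv F = relInv GQ F := rfl

/-- The step index is `cokIdx` of helper4190. -/
theorem cokIdx_eq_relIndex (F F' : AddSubgroup J) :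
    cokIdx GQ F F' = (stepInv F ⊔ F').relIndex (stepInv F') := rfl

/-- On a trivial step, `kerIdx` is the index of the step. -/
theorem TrivStep.kerIdx_eq {r : ℕ} {F F' : AddSubgroup J} {ψ : J → ZMod r}
    (h : TrivStep r F F' ψ) : kerIdx GQ F F' = F.relIndex F' :=
  kerIdx_eq_relIndex_of_trivial (fun s _ hy => h.smul_sub_mem s hy)

/-- On a step with `±1`-coordinate Galois acts trivially. -/
theorem ChiStep.two_smul_sub_mem {F F' : AddSubgroup J} {φ : J → Qb} (h : ChiStep 2 F F' φ)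
    (σ : GQ) {x : J} (hx : x ∈ F') : σ • x - x ∈ F := by
  have hmem : σ • x - x ∈ F' := F'.sub_mem (h.stable σ x hx) hx
  rw [← h.ker _ hmem, h.map_sub (h.stable σ x hx) hx, h.equi σ x hx]
  have h1 : φ x = 1 ∨ φ x = -1 := by
    have h2 := h.pow x hx
    rw [sq] at h2
    exact mul_self_eq_one_iff.mp h2
  rcases h1 with h1 | h1
  · rw [h1, _root_.map_one, div_one]
  · rw [h1, _root_.map_neg, _root_.map_one]
    norm_num

theorem ChiStep.two_kerIdx_eq {F F' : AddSubgroup J} {φ : J → Qb} (h : ChiStep 2 F F' φ) :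
    kerIdx GQ F F' = F.relIndex F' :=
  kerIdx_eq_relIndex_of_trivial (fun s _ hy => h.two_smul_sub_mem s hy)

/-- **The table of a coordinatised flag, `r` odd**: the five step hypotheses of
`helper4190.pow_smul_mem_of_table` / `cokIdx_bot_le_of_table`. -/
theorem table_of_flag_odd {r p : ℕ} (hr : r.Prime) (hodd : Odd r) (hp : p.Prime) (hrp : r ≠ p)
    (F : ℕ → AddSubgroup J) (hmono : Monotone F) (hst : ∀ i, IsStable GQ (F i)) (L : ℕ)
    (hlev : ∀ y : J, FinLevel y)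
    (hidx : ∀ i < L, (F i).relIndex (F (i + 1)) = r)
    (triv tor : ℕ → Prop) (ψ : ℕ → J → ZMod r) (φ : ℕ → J → Qb)
    (htriv : ∀ i < L, triv i → TrivStep r (F i) (F (i + 1)) (ψ i))
    (hchi : ∀ i < L, ¬ triv i → ChiStep r (F i) (F (i + 1)) (φ i))
    (hv : ∀ i < L, ∀ y ∈ stepInv (F (i + 1)), ∀ q : ℕ, q.Prime → q ≠ p → q ≠ r →
      UnramStepAt (F i) y q)
    (hrt : ∀ i < L, triv i → ∀ y ∈ stepInv (F (i + 1)), UnramStepAt (F i) y r)
    (hrc : ∀ i < L, ¬ triv i → ∀ y ∈ stepInv (F (i + 1)), UnitStepAt (φ i) y r)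
    (hpn : ∀ i < L, ¬ tor i → ∀ y ∈ stepInv (F (i + 1)), UnramStepAt (F i) y p) :
    (∀ i < L, cokIdx GQ (F i) (F (i + 1)) ≠ 0) ∧
    (∀ i < L, ¬ tor i → cokIdx GQ (F i) (F (i + 1)) ≤ 1) ∧
    (∀ i < L, tor i → cokIdx GQ (F i) (F (i + 1)) ≤ r) ∧
    (∀ i < L, kerIdx GQ (F i) (F (i + 1)) ≠ 0) ∧
    (∀ i < L, triv i → r ≤ kerIdx GQ (F i) (F (i + 1))) := by
  classical
  have : Fact r.Prime := ⟨hr⟩
  have hne : ∀ i < L, ¬ F (i + 1) ≤ F i := by
    intro i hi hle
    have h1 := hidx i hi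
    rw [AddSubgroup.relIndex_eq_one.mpr hle] at h1
    exact hr.one_lt.ne h1
  -- the toric bound (no hypothesis at `p`)
  have htor : ∀ i < L, cokIdx GQ (F i) (F (i + 1)) ≠ 0 ∧ cokIdx GQ (F i) (F (i + 1)) ≤ r := by
    intro i hi
    by_cases ht : triv i
    · exact (htriv i hi ht).relIndex_le hp hrp (fun y _ => hlev y) (by
        intro y hy q hq hqp
        by_cases hqr : q = r
        · rw [hqr]; exact hrt i hi ht y hy
        · exact hv i hi y hy q hq hqp hqr)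
    · have hc := hchi i hi ht
      exact hc.relIndex_le_of_odd hr.pos hodd hp.ne_zero (hc.surj_of_not_le hr (hne i hi))
        (fun y _ => hlev y) (by
        intro y hy q hq hqp
        by_cases hqr : q = r
        · rw [hqr]; exact hrc i hi ht y hy
        · exact (hv i hi y hy q hq hqp hqr).unitStepAt hc)
  refine ⟨fun i hi => (htor i hi).1, ?_, fun i hi _ => (htor i hi).2, ?_, ?_⟩
  · -- non-toric steps
    intro i hi hnt
    by_cases ht : triv i
    · exact ((htriv i hi ht).relIndex_le_one (fun y _ => hlev y) (by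
        intro y hy q hq
        by_cases hqp : q = p
        · rw [hqp]; exact hpn i hi hnt y hy
        · by_cases hqr : q = r
          · rw [hqr]; exact hrt i hi ht y hy
          · exact hv i hi y hy q hq hqp hqr)).2
    · have hc := hchi i hi ht
      exact (hc.relIndex_le_one_of_odd hr.pos hodd (hc.surj_of_not_le hr (hne i hi))
        (fun y _ => hlev y) (by
        intro y hy q hq
        by_cases hqp : q = p
        · rw [hqp]; exact (hpn i hi hnt y hy).unitStepAt hc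
        · by_cases hqr : q = r
          · rw [hqr]; exact hrc i hi ht y hy
          · exact (hv i hi y hy q hq hqp hqr).unitStepAt hc)).2
  · intro i hi
    refine kerIdx_ne_zero (hmono (Nat.le_succ i)) (hst i) ?_
    rw [hidx i hi]
    exact hr.ne_zero
  · intro i hi ht
    rw [(htriv i hi ht).kerIdx_eq, hidx i hi]

/-- **(BOUND), `r` odd.**  A Galois-stable flag `F 0 = ⊥ ≤ … ≤ F L` with steps of index `r`, each
carrying a trivial coordinate `ψ i` (`triv i`) or a roots-of-unity coordinate `φ i`; step classes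
unramified at the primes `q ∉ {r, p}` (LOC-v), trivial steps unramified at `r` (R3)+(R1),
roots-of-unity steps unit classes at `r` (R1)/(R2), non-toric steps unramified at `p` (P1);
`#toric ≤ #trivial + B'` and `#(F L)^G ≤ r ^ B0`.  Then `r ^ (B0 + B')` kills the cokernel of
`J^G → (J ⧸ F L)^G`. -/
theorem bound_of_flag_odd {r p : ℕ} (hr : r.Prime) (hodd : Odd r) (hp : p.Prime) (hrp : r ≠ p)
    (F : ℕ → AddSubgroup J) (hmono : Monotone F) (hst : ∀ i, IsStable GQ (F i))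
    (h0 : F 0 = ⊥) (L k : ℕ) [Finite ↥(F L)] (hk : ∀ w ∈ F L, r ^ k • w = 0)
    (hlev : ∀ y : J, FinLevel y)
    (hidx : ∀ i < L, (F i).relIndex (F (i + 1)) = r)
    (triv tor : ℕ → Prop) (ψ : ℕ → J → ZMod r) (φ : ℕ → J → Qb)
    (htriv : ∀ i < L, triv i → TrivStep r (F i) (F (i + 1)) (ψ i))
    (hchi : ∀ i < L, ¬ triv i → ChiStep r (F i) (F (i + 1)) (φ i))
    (hv : ∀ i < L, ∀ y ∈ stepInv (F (i + 1)), ∀ q : ℕ, q.Prime → q ≠ p → q ≠ r →
      UnramStepAt (F i) y q)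
    (hrt : ∀ i < L, triv i → ∀ y ∈ stepInv (F (i + 1)), UnramStepAt (F i) y r)
    (hrc : ∀ i < L, ¬ triv i → ∀ y ∈ stepInv (F (i + 1)), UnitStepAt (φ i) y r)
    (hpn : ∀ i < L, ¬ tor i → ∀ y ∈ stepInv (F (i + 1)), UnramStepAt (F i) y p)
    (B0 B' : ℕ)
    (hcount : Set.ncard {i | i < L ∧ tor i} ≤ Set.ncard {i | i < L ∧ triv i} + B')
    (hinv : Nat.card ↥(relInv GQ (⊥ : AddSubgroup J) ⊓ F L) ≤ r ^ B0) :
    ∀ u ∈ relInv GQ (F L), r ^ (B0 + B') • u ∈ relInv GQ (⊥ : AddSubgroup J) ⊔ F L := by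
  obtain ⟨t1, t2, t3, t4, t5⟩ := table_of_flag_odd hr hodd hp hrp F hmono hst L hlev hidx
    triv tor ψ φ htriv hchi hv hrt hrc hpn
  exact pow_smul_mem_of_table hr F hmono hst h0 L k hk triv tor t1 t2 t3 t4 t5 B0 B' hcount hinv

/-- **The table of a coordinatised flag, `r = 2`, `2`-adic form**: the six step hypotheses of
`helper4190.pow_smul_mem_of_table_two` / `cokIdx_bot_le_of_table_two`. -/
theorem table_of_flag_two {p : ℕ} (hp : p.Prime) (hp2 : p ≠ 2)
    (F : ℕ → AddSubgroup J) (L : ℕ)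
    (hlev : ∀ y : J, FinLevel y)
    (hidx : ∀ i < L, (F i).relIndex (F (i + 1)) = 2)
    (et tor : ℕ → Prop) (φ : ℕ → J → Qb)
    (hchi : ∀ i < L, ChiStep 2 (F i) (F (i + 1)) (φ i))
    (hv : ∀ i < L, ∀ y ∈ stepInv (F (i + 1)), ∀ q : ℕ, q.Prime → q ≠ p → q ≠ 2 →
      UnramStepAt (F i) y q)
    (h2e : ∀ i < L, et i → ∀ y ∈ stepInv (F (i + 1)), UnramStepAt (F i) y 2)
    (h2c : ∀ i < L, ¬ et i → ∀ y ∈ stepInv (F (i + 1)), UnitStepAt (φ i) y 2)
    (hpn : ∀ i < L, ¬ tor i → ∀ y ∈ stepInv (F (i + 1)), UnramStepAt (F i) y p) :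
    (∀ i < L, cokIdx GQ (F i) (F (i + 1)) ≠ 0) ∧
    (∀ i < L, et i → ¬ tor i → cokIdx GQ (F i) (F (i + 1)) ≤ 1) ∧
    (∀ i < L, et i → tor i → cokIdx GQ (F i) (F (i + 1)) ≤ 2) ∧
    (∀ i < L, ¬ et i → ¬ tor i → cokIdx GQ (F i) (F (i + 1)) ≤ 2) ∧
    (∀ i < L, ¬ et i → tor i → cokIdx GQ (F i) (F (i + 1)) ≤ 4) ∧
    (∀ i < L, 2 ≤ kerIdx GQ (F i) (F (i + 1))) := by
  classical
  have hne : ∀ i < L, ¬ F (i + 1) ≤ F i := by
    intro i hi hle
    have h1 := hidx i hi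
    rw [AddSubgroup.relIndex_eq_one.mpr hle] at h1
    norm_num at h1
  have hsurj : ∀ i (hi : i < L), ∀ ζ : Qb, ζ ^ 2 = 1 → ∃ g ∈ F (i + 1), φ i g = ζ :=
    fun i hi => (hchi i hi).surj_of_not_le Nat.prime_two (hne i hi)
  -- unit classes at the primes `≠ p`
  have hunit : ∀ i (hi : i < L), ∀ y ∈ stepInv (F (i + 1)), ∀ q : ℕ, q.Prime → q ≠ p →
      UnitStepAt (φ i) y q := by
    intro i hi y hy q hq hqp
    by_cases hq2 : q = 2
    · rw [hq2]
      by_cases he : et i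
      · exact (h2e i hi he y hy).unitStepAt (hchi i hi)
      · exact h2c i hi he y hy
    · exact (hv i hi y hy q hq hqp hq2).unitStepAt (hchi i hi)
  -- unit classes at all primes on non-toric steps
  have hunit' : ∀ i (hi : i < L), ¬ tor i → ∀ y ∈ stepInv (F (i + 1)), ∀ q : ℕ, q.Prime →
      UnitStepAt (φ i) y q := by
    intro i hi hnt y hy q hq
    by_cases hqp : q = p
    · rw [hqp]; exact (hpn i hi hnt y hy).unitStepAt (hchi i hi)
    · exact hunit i hi y hy q hq hqp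
  have h4 : ∀ i < L, cokIdx GQ (F i) (F (i + 1)) ≠ 0 ∧ cokIdx GQ (F i) (F (i + 1)) ≤ 4 :=
    fun i hi => (hchi i hi).two_relIndex_le_four hp.ne_zero (hsurj i hi) (fun y _ => hlev y)
      (hunit i hi)
  refine ⟨fun i hi => (h4 i hi).1, ?_, ?_, ?_, fun i hi _ _ => (h4 i hi).2, ?_⟩
  · intro i hi he hnt
    exact ((hchi i hi).two_relIndex_le_one_of_unram (hsurj i hi) (fun y _ => hlev y)
      (hunit' i hi hnt) (h2e i hi he)).2
  · intro i hi he _
    exact ((hchi i hi).two_relIndex_le_two_of_unram hp hp2 (hsurj i hi) (fun y _ => hlev y)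
      (hunit i hi) (h2e i hi he)).2
  · intro i hi _ hnt
    exact ((hchi i hi).two_relIndex_le_two (hsurj i hi) (fun y _ => hlev y)
      (hunit' i hi hnt)).2
  · intro i hi
    rw [(hchi i hi).two_kerIdx_eq, hidx i hi]

/-- **(BOUND), `r = 2`.**  A Galois-stable flag with steps of index `2`, each with a
`±1`-coordinate `φ i`; step classes unramified at the odd primes `q ≠ p` (LOC-v); étale steps
unramified at `2` (R1), the other steps unit classes at `2` (R2); non-toric steps unramified at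
`p` (P1); `#toric ≤ #étale + B'` and `#(F L)^G ≤ 2 ^ B0`. -/
theorem bound_of_flag_two {p : ℕ} (hp : p.Prime) (hp2 : p ≠ 2)
    (F : ℕ → AddSubgroup J) (hmono : Monotone F) (hst : ∀ i, IsStable GQ (F i))
    (h0 : F 0 = ⊥) (L k : ℕ) [Finite ↥(F L)] (hk : ∀ w ∈ F L, 2 ^ k • w = 0)
    (hlev : ∀ y : J, FinLevel y)
    (hidx : ∀ i < L, (F i).relIndex (F (i + 1)) = 2)
    (et tor : ℕ → Prop) (φ : ℕ → J → Qb)
    (hchi : ∀ i < L, ChiStep 2 (F i) (F (i + 1)) (φ i))
    (hv : ∀ i < L, ∀ y ∈ stepInv (F (i + 1)), ∀ q : ℕ, q.Prime → q ≠ p → q ≠ 2 →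
      UnramStepAt (F i) y q)
    (h2e : ∀ i < L, et i → ∀ y ∈ stepInv (F (i + 1)), UnramStepAt (F i) y 2)
    (h2c : ∀ i < L, ¬ et i → ∀ y ∈ stepInv (F (i + 1)), UnitStepAt (φ i) y 2)
    (hpn : ∀ i < L, ¬ tor i → ∀ y ∈ stepInv (F (i + 1)), UnramStepAt (F i) y p)
    (B0 B' : ℕ)
    (hcount : Set.ncard {i | i < L ∧ tor i} ≤ Set.ncard {i | i < L ∧ et i} + B')
    (hinv : Nat.card ↥(relInv GQ (⊥ : AddSubgroup J) ⊓ F L) ≤ 2 ^ B0) :
    ∀ u ∈ relInv GQ (F L), 2 ^ (B0 + B') • u ∈ relInv GQ (⊥ : AddSubgroup J) ⊔ F L := by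
  obtain ⟨t0, t1, t2, t3, t4, t5⟩ := table_of_flag_two hp hp2 F L hlev hidx et tor φ hchi hv
    h2e h2c hpn
  exact pow_smul_mem_of_table_two F hmono hst h0 L k hk et tor t0 t1 t2 t3 t4 t5 B0 B' hcount
    hinv

/-- **The table of a coordinatised flag, `r = 2`, archimedean form.** -/
theorem table_of_flag_two_real {p : ℕ} (hp : p.Prime)
    (F : ℕ → AddSubgroup J) (L : ℕ)
    (hlev : ∀ y : J, FinLevel y)
    (hidx : ∀ i < L, (F i).relIndex (F (i + 1)) = 2)
    (real tor : ℕ → Prop) (φ : ℕ → J → Qb)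
    (hchi : ∀ i < L, ChiStep 2 (F i) (F (i + 1)) (φ i))
    (hv : ∀ i < L, ∀ y ∈ stepInv (F (i + 1)), ∀ q : ℕ, q.Prime → q ≠ p → q ≠ 2 →
      UnramStepAt (F i) y q)
    (h2 : ∀ i < L, ∀ y ∈ stepInv (F (i + 1)), UnitStepAt (φ i) y 2)
    (hreal : ∀ i < L, real i → ∀ y ∈ stepInv (F (i + 1)), complexConjugation • y - y ∈ F i)
    (hpn : ∀ i < L, ¬ tor i → ∀ y ∈ stepInv (F (i + 1)), UnramStepAt (F i) y p) :
    (∀ i < L, cokIdx GQ (F i) (F (i + 1)) ≠ 0) ∧
    (∀ i < L, real i → ¬ tor i → cokIdx GQ (F i) (F (i + 1)) ≤ 1) ∧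
    (∀ i < L, real i → tor i → cokIdx GQ (F i) (F (i + 1)) ≤ 2) ∧
    (∀ i < L, ¬ real i → ¬ tor i → cokIdx GQ (F i) (F (i + 1)) ≤ 2) ∧
    (∀ i < L, ¬ real i → tor i → cokIdx GQ (F i) (F (i + 1)) ≤ 4) ∧
    (∀ i < L, 2 ≤ kerIdx GQ (F i) (F (i + 1))) := by
  classical
  have hne : ∀ i < L, ¬ F (i + 1) ≤ F i := by
    intro i hi hle
    have h1 := hidx i hi
    rw [AddSubgroup.relIndex_eq_one.mpr hle] at h1
    norm_num at h1
  have hsurj : ∀ i (hi : i < L), ∀ ζ : Qb, ζ ^ 2 = 1 → ∃ g ∈ F (i + 1), φ i g = ζ :=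
    fun i hi => (hchi i hi).surj_of_not_le Nat.prime_two (hne i hi)
  have hunit : ∀ i (hi : i < L), ∀ y ∈ stepInv (F (i + 1)), ∀ q : ℕ, q.Prime → q ≠ p →
      UnitStepAt (φ i) y q := by
    intro i hi y hy q hq hqp
    by_cases hq2 : q = 2
    · rw [hq2]; exact h2 i hi y hy
    · exact (hv i hi y hy q hq hqp hq2).unitStepAt (hchi i hi)
  have hunit' : ∀ i (hi : i < L), ¬ tor i → ∀ y ∈ stepInv (F (i + 1)), ∀ q : ℕ, q.Prime →
      UnitStepAt (φ i) y q := by
    intro i hi hnt y hy q hq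
    by_cases hqp : q = p
    · rw [hqp]; exact (hpn i hi hnt y hy).unitStepAt (hchi i hi)
    · exact hunit i hi y hy q hq hqp
  have h4 : ∀ i < L, cokIdx GQ (F i) (F (i + 1)) ≠ 0 ∧ cokIdx GQ (F i) (F (i + 1)) ≤ 4 :=
    fun i hi => (hchi i hi).two_relIndex_le_four hp.ne_zero (hsurj i hi) (fun y _ => hlev y)
      (hunit i hi)
  refine ⟨fun i hi => (h4 i hi).1, ?_, ?_, ?_, fun i hi _ _ => (h4 i hi).2, ?_⟩
  · intro i hi he hnt
    exact ((hchi i hi).two_relIndex_le_one_of_real (hsurj i hi) (fun y _ => hlev y)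
      (hunit' i hi hnt) (hreal i hi he)).2
  · intro i hi he _
    exact ((hchi i hi).two_relIndex_le_two_of_real hp.ne_zero (hsurj i hi) (fun y _ => hlev y)
      (hunit i hi) (hreal i hi he)).2
  · intro i hi _ hnt
    exact ((hchi i hi).two_relIndex_le_two (hsurj i hi) (fun y _ => hlev y)
      (hunit' i hi hnt)).2
  · intro i hi
    rw [(hchi i hi).two_kerIdx_eq, hidx i hi]

/-- **(BOUND), `r = 2`, archimedean form.**  As `bound_of_flag_two`, with the `2`-adic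
étale/connected dichotomy replaced by the real place: all step classes are unit classes at `2`,
and on the `real` steps complex conjugation moves the relative invariants inside `F i`;
`#toric ≤ #real + B'`. -/
theorem bound_of_flag_two_real {p : ℕ} (hp : p.Prime)
    (F : ℕ → AddSubgroup J) (hmono : Monotone F) (hst : ∀ i, IsStable GQ (F i))
    (h0 : F 0 = ⊥) (L k : ℕ) [Finite ↥(F L)] (hk : ∀ w ∈ F L, 2 ^ k • w = 0)
    (hlev : ∀ y : J, FinLevel y)
    (hidx : ∀ i < L, (F i).relIndex (F (i + 1)) = 2)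
    (real tor : ℕ → Prop) (φ : ℕ → J → Qb)
    (hchi : ∀ i < L, ChiStep 2 (F i) (F (i + 1)) (φ i))
    (hv : ∀ i < L, ∀ y ∈ stepInv (F (i + 1)), ∀ q : ℕ, q.Prime → q ≠ p → q ≠ 2 →
      UnramStepAt (F i) y q)
    (h2 : ∀ i < L, ∀ y ∈ stepInv (F (i + 1)), UnitStepAt (φ i) y 2)
    (hreal : ∀ i < L, real i → ∀ y ∈ stepInv (F (i + 1)), complexConjugation • y - y ∈ F i)
    (hpn : ∀ i < L, ¬ tor i → ∀ y ∈ stepInv (F (i + 1)), UnramStepAt (F i) y p)
    (B0 B' : ℕ)
    (hcount : Set.ncard {i | i < L ∧ tor i} ≤ Set.ncard {i | i < L ∧ real i} + B')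
    (hinv : Nat.card ↥(relInv GQ (⊥ : AddSubgroup J) ⊓ F L) ≤ 2 ^ B0) :
    ∀ u ∈ relInv GQ (F L), 2 ^ (B0 + B') • u ∈ relInv GQ (⊥ : AddSubgroup J) ⊔ F L := by
  obtain ⟨t0, t1, t2, t3, t4, t5⟩ := table_of_flag_two_real hp F L hlev hidx real tor φ hchi hv
    h2 hreal hpn
  exact pow_smul_mem_of_table_two F hmono hst h0 L k hk real tor t0 t1 t2 t3 t4 t5 B0 B' hcount
    hinv

end Flag

end Fermat.Agent.S15.helper7259
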