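import Mathlib

/-!
# S15-CONS-ALL (helper9692), abstract core: a positive degree-`n` correspondence that is
`n`-divisible on principal divisors is `n` times a map of points

`X`, `Y` are sets of points (places of the two fibres, all of degree one), divisors are finitely
supported integer functions.  `T : (X →₀ ℤ) →+ (Y →₀ ℤ)` sends every point to an effective
divisor of degree `n`, sends every divisor in a subgroup `Pr` (the principal divisors) into
`n • (Y →₀ ℤ)`, the difference of two points is `n`-divisible modulo `Pr` (divisibility of the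
Jacobian), and `T` does not kill some element of `Pr` of degree `0`.  Then `T = n • r_*` for a
unique map `r : X → Y`.
-/

set_option autoImplicit false

namespace Fermat.Agent.S15.helper9692

open Finsupp

section Dichotomy

variable {Y : Type*}

/-- Total mass of a finitely supported integer function. -/
def mass (a : Y →₀ ℤ) : ℤ := a.sum fun _ m => m

theorem mass_single (Q : Y) (m : ℤ) : mass (single Q m) = m := by
  simp [mass]

theorem mass_add (a b : Y →₀ ℤ) : mass (a + b) = mass a + mass b := by
  unfold mass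
  exact Finsupp.sum_add_index' (fun _ => rfl) (fun _ _ _ => rfl)

/-- `mass` as an additive homomorphism. -/
def massHom : (Y →₀ ℤ) →+ ℤ where
  toFun := mass
  map_zero' := by simp [mass]
  map_add' := mass_add

@[simp] theorem massHom_apply (a : Y →₀ ℤ) : massHom a = mass a := rfl

theorem mass_eq_sum (a : Y →₀ ℤ) : mass a = ∑ Q ∈ a.support, a Q := rfl

theorem apply_le_mass {a : Y →₀ ℤ} (ha : ∀ Q, 0 ≤ a Q) (Q : Y) : a Q ≤ mass a := by
  classical
  by_cases hQ : Q ∈ a.support
  · rw [mass_eq_sum]
    exact Finset.single_le_sum (f := fun Q => a Q) (fun i _ => ha i) hQ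
  · rw [Finsupp.notMem_support_iff.mp hQ, mass_eq_sum]
    exact Finset.sum_nonneg fun i _ => ha i

/-- Two nonnegative functions with the same mass, one below the other, are equal. -/
theorem eq_of_le_of_mass_eq {a b : Y →₀ ℤ} (hle : ∀ Q, a Q ≤ b Q) (hm : mass a = mass b) :
    a = b := by
  classical
  have h0 : mass (b - a) = 0 := by
    have : mass (b - a) + mass a = mass b := by rw [← mass_add, sub_add_cancel]
    omega
  have hnn : ∀ Q, 0 ≤ (b - a) Q := fun Q => by
    rw [Finsupp.sub_apply]; exact sub_nonneg.mpr (hle Q)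
  ext Q
  have h1 := apply_le_mass hnn Q
  have h2 := hnn Q
  rw [h0] at h1
  rw [Finsupp.sub_apply] at h1 h2
  omega

/-- A nonnegative function of mass `n > 0` all of whose values are divisible by `n` is
`n` times a point. -/
theorem exists_eq_single_of_dvd {n : ℤ} (hn : 0 < n) {a : Y →₀ ℤ} (ha : ∀ Q, 0 ≤ a Q)
    (hm : mass a = n) (hdvd : ∀ Q, n ∣ a Q) : ∃ Q₀, a = single Q₀ n := by
  classical
  have hne : a ≠ 0 := by
    rintro rfl
    simp [mass] at hm
    omega
  obtain ⟨Q₀, hQ₀⟩ := Finsupp.support_nonempty_iff.mpr hne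
  have hpos : 0 < a Q₀ := lt_of_le_of_ne (ha Q₀) (Ne.symm (Finsupp.mem_support_iff.mp hQ₀))
  have hge : n ≤ a Q₀ := Int.le_of_dvd hpos (hdvd Q₀)
  refine ⟨Q₀, (eq_of_le_of_mass_eq (a := single Q₀ n) (b := a) (fun Q => ?_) ?_).symm⟩
  · by_cases hQ : Q = Q₀
    · subst hQ; rw [single_eq_same]; exact hge
    · rw [single_eq_of_ne hQ]; exact ha Q
  · rw [mass_single, hm]

/-- **Dichotomy.**  Two nonnegative functions of the same mass `n > 0` that are congruent
modulo `n` at every point: either the first is `n` times a point, or they are equal. -/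
theorem single_or_eq_of_congr {n : ℤ} (hn : 0 < n) {a b : Y →₀ ℤ} (ha : ∀ Q, 0 ≤ a Q)
    (hb : ∀ Q, 0 ≤ b Q) (hma : mass a = n) (hmb : mass b = n)
    (hcongr : ∀ Q, n ∣ a Q - b Q) : (∃ Q₀, a = single Q₀ n) ∨ a = b := by
  classical
  by_cases hall : ∀ Q, n ∣ a Q
  · exact Or.inl (exists_eq_single_of_dvd hn ha hma hall)
  · right
    push Not at hall
    obtain ⟨Q₁, hQ₁⟩ := hall
    -- every value of `a` is `< n`
    have hlt : ∀ Q, a Q < n := by
      intro Q
      by_contra hge
      rw [not_lt] at hge
      -- then `a = single Q n`-ish: `a Q = n` and everything else vanishes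
      have hQle := apply_le_mass ha Q
      rw [hma] at hQle
      have hQn : a Q = n := le_antisymm hQle hge
      have hQQ₁ : Q ≠ Q₁ := by
        rintro rfl
        exact hQ₁ (hQn ▸ dvd_rfl)
      -- mass of `a - single Q n` is `0`, so `a Q₁ = 0`
      have hle : ∀ Q', (single Q n : Y →₀ ℤ) Q' ≤ a Q' := by
        intro Q'
        by_cases h : Q' = Q
        · subst h; rw [single_eq_same, hQn]
        · rw [single_eq_of_ne h]; exact ha Q'
      have := eq_of_le_of_mass_eq hle (by rw [mass_single, hma])
      rw [← this, single_eq_of_ne hQQ₁.symm] at hQ₁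
      exact hQ₁ (dvd_zero n)
    refine eq_of_le_of_mass_eq (fun Q => ?_) (hma.trans hmb.symm)
    obtain ⟨c, hc⟩ := hcongr Q
    have h1 := ha Q
    have h2 := hb Q
    have h3 := hlt Q
    -- `b Q = a Q - n c ≥ 0` and `a Q < n` force `c ≤ 0`
    by_contra hlt'
    rw [not_le] at hlt'
    have hcpos : 0 < c := by
      by_contra hc0
      rw [not_lt] at hc0
      have : n * c ≤ 0 := mul_nonpos_of_nonneg_of_nonpos hn.le hc0
      omega
    have : n ≤ n * c := by nlinarith
    omega

end Dichotomy

section Core

variable {X Y : Type*}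

/-- **Abstract core.**  See the module docstring. -/
theorem exists_map_of_correspondence (T : (X →₀ ℤ) →+ (Y →₀ ℤ)) (n : ℕ) (hn : 0 < n)
    (hpos : ∀ P : X, ∀ Q : Y, 0 ≤ T (single P 1) Q)
    (hmass : ∀ P : X, mass (T (single P 1)) = n)
    (Pr : AddSubgroup (X →₀ ℤ))
    (hPr : ∀ D ∈ Pr, ∃ E : Y →₀ ℤ, T D = n • E)
    (hdiv : ∀ P₁ P₂ : X, ∃ E : X →₀ ℤ, single P₁ 1 - single P₂ 1 - n • E ∈ Pr)
    (hnc : ∃ D ∈ Pr, mass D = 0 ∧ T D ≠ 0) :
    ∃ r : X → Y, ∀ D : X →₀ ℤ, T D = n • Finsupp.mapDomain r D := by
  classical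
  have hnZ : (0 : ℤ) < (n : ℤ) := by exact_mod_cast hn
  -- congruence of the images of two points
  have hcongr : ∀ P₁ P₂ : X, ∀ Q : Y, (n : ℤ) ∣ T (single P₁ 1) Q - T (single P₂ 1) Q := by
    intro P₁ P₂ Q
    obtain ⟨E, hE⟩ := hdiv P₁ P₂
    obtain ⟨E', hE'⟩ := hPr _ hE
    have h1 : T (single P₁ 1) - T (single P₂ 1) = n • (E' + T E) := by
      rw [smul_add, ← hE', map_sub, map_sub, map_nsmul]
      abel
    have h2 := congrArg (fun f : Y →₀ ℤ => f Q) h1
    simp only [Finsupp.sub_apply, Finsupp.smul_apply, nsmul_eq_mul] at h2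
    exact ⟨_, h2⟩
  -- every point goes to `n` times a point
  have hsingle : ∀ P : X, ∃ Q₀ : Y, T (single P 1) = single Q₀ (n : ℤ) := by
    intro P
    by_contra hP
    -- then `T` is constant on points
    have hconst : ∀ P' : X, T (single P' 1) = T (single P 1) := by
      intro P'
      rcases single_or_eq_of_congr hnZ (hpos P) (hpos P') (hmass P) (hmass P')
        (hcongr P P') with h | h
      · exact absurd h hP
      · exact h.symm
    have hT : ∀ D : X →₀ ℤ, T D = mass D • T (single P 1) := by
      intro D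
      induction D using Finsupp.induction with
      | zero => simp [mass]
      | single_add P' m D _ _ ih =>
        rw [map_add, ih, mass_add, mass_single, add_smul]
        congr 1
        have : (single P' m : X →₀ ℤ) = m • single P' 1 := by
          rw [Finsupp.smul_single, smul_eq_mul, mul_one]
        rw [this, map_zsmul, hconst P']
    obtain ⟨D, -, hD0, hDne⟩ := hnc
    exact hDne (by rw [hT D, hD0, zero_smul])
  choose r hr using hsingle
  refine ⟨r, fun D => ?_⟩
  induction D using Finsupp.induction with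
  | zero => simp
  | single_add P m D _ _ ih =>
    rw [map_add, ih, Finsupp.mapDomain_add, smul_add]
    congr 1
    have : (single P m : X →₀ ℤ) = m • single P 1 := by
      rw [Finsupp.smul_single, smul_eq_mul, mul_one]
    rw [this, map_zsmul, hr P, Finsupp.mapDomain_smul, Finsupp.mapDomain_single,
      Finsupp.smul_single, Finsupp.smul_single, Finsupp.smul_single, smul_eq_mul, smul_eq_mul,
      nsmul_eq_mul]
    congr 1
    ring

end Core

end Fermat.Agent.S15.helper9692
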